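import Fermat.Agent.CFT.Basic

/-!
# Vanishing of `H²` for procyclic groups

* `Levels.above 𝓛 N` : the levels containing a normal subgroup `N`;
* `mem_B2_of_procyclic` : locally constant 2-cocycles of a "procyclic" group with values in a
  `p`-torsion module on which a level acts trivially are coboundaries, if `p^∞` divides the order.
-/

set_option autoImplicit false

namespace Fermat.Agent.CFT

namespace Levels

variable {G : Type*} [Group G] (𝓛 : Levels G) (N : Subgroup G) [N.Normal]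

/-- levels containing the normal subgroup `N` -/
def above : Levels G where
  carrier := {H | H ∈ 𝓛 ∧ N ≤ H}
  top_mem' := ⟨top_mem, le_top⟩
  inf_mem' h h' := ⟨inf_mem h.1 h'.1, le_inf h.2 h'.2⟩
  up_mem' h h' := ⟨up_mem h.1 h', h.2.trans h'⟩
  finiteIndex' h := finiteIndex h.1
  normalCore_mem' h := ⟨normalCore_mem h.1, Subgroup.normal_le_normalCore.2 h.2⟩

variable {𝓛 N}

lemma mem_above {H : Subgroup G} : H ∈ 𝓛.above N ↔ H ∈ 𝓛 ∧ N ≤ H := Iff.rfl

lemma cont_above : Cont 𝓛 (𝓛.above N) (MonoidHom.id G) := fun H hH => by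
  simpa using hH.1

end Levels

variable {k : Type*} [CommRing k] {G : Type*} [Group G] {𝓛 : Levels G}
variable {V : Type*} [AddCommGroup V] [Module k V] {ρ : Representation k G V}

lemma Z2.map_one_left {f : G → G → V} (hf : f ∈ Z2 𝓛 ρ) (g : G) : f 1 g = f 1 1 := by
  have h := hf.2 1 1 g
  rw [one_mul, one_mul, map_one, Module.End.one_apply, add_right_inj] at h
  exact h.symm

lemma Z2.map_one_right {f : G → G → V} (hf : f ∈ Z2 𝓛 ρ) (g : G) : f g 1 = ρ g (f 1 1) := by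
  have h := hf.2 g 1 1
  rw [mul_one, mul_one, add_left_inj] at h
  exact h

/-- the auxiliary primitive of a 2-cocycle along the powers of `φ` -/
def primSeq (ρ : Representation k G V) (f : G → G → V) (φ : G) : ℕ → V
  | 0 => f 1 1
  | (a + 1) => primSeq ρ f φ a - f (φ ^ a) φ

lemma primSeq_spec {f : G → G → V} (hf : f ∈ Z2 𝓛 ρ) (φ : G) (a b : ℕ) :
    ρ (φ ^ a) (primSeq ρ f φ b) - primSeq ρ f φ (a + b) + primSeq ρ f φ a =
      f (φ ^ a) (φ ^ b) := by
  induction b with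
  | zero =>
    rw [pow_zero, Z2.map_one_right hf, add_zero, sub_add_cancel]
    rfl
  | succ b ih =>
    have h := hf.2 (φ ^ a) (φ ^ b) φ
    rw [← pow_add, ← pow_succ] at h
    have h2 : f (φ ^ a) (φ ^ (b + 1)) =
        f (φ ^ (a + b)) φ + f (φ ^ a) (φ ^ b) - ρ (φ ^ a) (f (φ ^ b) φ) := by
      rw [h]; abel
    rw [h2, ← ih]
    have h3 : primSeq ρ f φ (b + 1) = primSeq ρ f φ b - f (φ ^ b) φ := rfl
    have h4 : primSeq ρ f φ (a + (b + 1)) = primSeq ρ f φ (a + b) - f (φ ^ (a + b)) φ := rfl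
    rw [h3, h4, map_sub]
    abel

/-- **Vanishing of `H²` of procyclic groups.** -/
theorem mem_B2_of_procyclic {p : ℕ} (hp : p ≠ 0) (hV : ∀ v : V, p • v = 0) (φ : G)
    (hgen : ∀ H ∈ 𝓛, ∀ g : G, ∃ i : ℕ, (φ ^ i)⁻¹ * g ∈ H)
    (hdiv : ∀ n : ℕ, n ≠ 0 → ∃ H ∈ 𝓛, ∀ i : ℤ, φ ^ i ∈ H → (n : ℤ) ∣ i)
    (htriv : ∃ H ∈ 𝓛, ∀ s ∈ H, ρ s = 1) {f : G → G → V} (hf : f ∈ Z2 𝓛 ρ) : f ∈ B2 𝓛 ρ := by
  classical
  obtain ⟨H₁, hH₁, hn₁, hf₁⟩ := hf.1.exists_normal
  obtain ⟨H₂, hH₂, hρ₂⟩ := htriv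
  obtain ⟨H, hH, hHle, hHn⟩ := Levels.exists_normal (Levels.inf_mem hH₁ hH₂)
  have := Levels.finiteIndex hH
  set n := H.index with hn
  have hn0 : n ≠ 0 := Subgroup.FiniteIndex.index_ne_zero
  have hφn : φ ^ n ∈ H := H.pow_index_mem φ
  set c := primSeq ρ f φ with hc
  have hspec : ∀ a b, ρ (φ ^ a) (c b) - c (a + b) + c a = f (φ ^ a) (φ ^ b) :=
    primSeq_spec hf φ
  have hρH : ∀ s ∈ H, ρ s = 1 := fun s hs => hρ₂ s (hHle hs).2
  have hfH : ∀ g g', ∀ s ∈ H, ∀ s' ∈ H, f (g * s) (g' * s') = f g g' := fun g g' s hs s' hs' =>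
    hf₁ g g' s (hHle hs).1 s' (hHle hs').1
  -- quasi-periodicity
  have hper : ∀ a, c (a + n) = c a + ρ (φ ^ a) (c n - f 1 1) := by
    intro a
    have h1 : f (φ ^ a) (φ ^ n) = ρ (φ ^ a) (f 1 1) := by
      rw [← Z2.map_one_right hf]
      have := hfH (φ ^ a) 1 1 H.one_mem (φ ^ n) hφn
      rwa [mul_one, one_mul] at this
    have h2 := hspec a n
    rw [h1] at h2
    rw [map_sub, ← h2]
    abel
  have hperk : ∀ a m, c (a + m * n) = c a + m • ρ (φ ^ a) (c n - f 1 1) := by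
    intro a m
    induction m with
    | zero => simp
    | succ m ih =>
      have h1 : ρ (φ ^ (m * n)) = 1 := by
        apply hρH
        rw [mul_comm, pow_mul]
        exact H.pow_mem hφn m
      rw [Nat.succ_mul, ← add_assoc, hper, ih, pow_add, map_mul, Module.End.mul_apply, h1,
        Module.End.one_apply, succ_nsmul, add_assoc]
  have hperp : ∀ a m, c (a + m * (p * n)) = c a := by
    intro a m
    rw [← mul_assoc, hperk, mul_nsmul', hV, smul_zero, add_zero]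
  obtain ⟨H', hH', hdvd⟩ := hdiv (p * n) (mul_ne_zero hp hn0)
  obtain ⟨N, hN, hNle, hNn⟩ := Levels.exists_normal (Levels.inf_mem hH hH')
  choose i hi using hgen N hN
  -- independence of choices
  have hcc : ∀ a b : ℕ, (φ ^ a)⁻¹ * φ ^ b ∈ N → c a = c b := by
    have key : ∀ a b : ℕ, a ≤ b → (φ ^ a)⁻¹ * φ ^ b ∈ N → c a = c b := by
      intro a b hab h
      have h1 : φ ^ ((b : ℤ) - a) ∈ H' := by
        have : φ ^ ((b : ℤ) - a) = (φ ^ a)⁻¹ * φ ^ b := by
          rw [← zpow_natCast, ← zpow_natCast, ← zpow_neg, ← zpow_add]; congr 1; ring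
        rw [this]; exact (hNle h).2
      obtain ⟨m, hm⟩ := hdvd _ h1
      obtain ⟨m, rfl⟩ : ∃ m' : ℕ, m = m' := by
        have hnn : (0:ℤ) ≤ (b : ℤ) - a := by omega
        have hpos : (0:ℤ) < ((p * n : ℕ) : ℤ) := by
          exact_mod_cast Nat.pos_of_ne_zero (mul_ne_zero hp hn0)
        rw [hm] at hnn
        exact ⟨m.toNat, (Int.toNat_of_nonneg (nonneg_of_mul_nonneg_right hnn hpos)).symm⟩
      have hb : b = a + m * (p * n) := by
        zify
        rw [sub_eq_iff_eq_add] at hm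
        rw [hm]; push_cast; ring
      rw [hb, hperp]
    intro a b h
    rcases le_total a b with hab | hab
    · exact key a b hab h
    · refine (key b a hab ?_).symm
      have := N.inv_mem h
      rwa [mul_inv_rev, inv_inv] at this
  have hcg : ∀ (g : G) (a : ℕ), (φ ^ a)⁻¹ * g ∈ N → c (i g) = c a := by
    intro g a h
    apply hcc
    have := N.mul_mem (hi g) (N.inv_mem h)
    rw [mul_inv_rev, inv_inv] at this
    have e : (φ ^ i g)⁻¹ * g * (g⁻¹ * φ ^ a) = (φ ^ i g)⁻¹ * φ ^ a := by group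
    rwa [e] at this
  refine mem_B2.2 ⟨fun g => c (i g), ⟨N, hN, fun g s hs => ?_⟩, ?_⟩
  · apply hcg
    have h1 := hi g
    rw [← mul_assoc]
    exact N.mul_mem h1 hs
  · ext g h
    rw [d1_apply]
    have hgh : (φ ^ (i g + i h))⁻¹ * (g * h) ∈ N := by
      have e : (φ ^ (i g + i h))⁻¹ * (g * h) =
          ((φ ^ i h)⁻¹ * ((φ ^ i g)⁻¹ * g) * (φ ^ i h)⁻¹⁻¹) * ((φ ^ i h)⁻¹ * h) := by
        rw [pow_add]; group
      rw [e]
      exact N.mul_mem (hNn.conj_mem _ (hi g) _) (hi h)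
    rw [hcg (g * h) _ hgh]
    obtain ⟨s, hs, hgs⟩ : ∃ s ∈ H, g = φ ^ i g * s := ⟨_, (hNle (hi g)).1, by group⟩
    obtain ⟨s', hs', hhs⟩ : ∃ s' ∈ H, h = φ ^ i h * s' := ⟨_, (hNle (hi h)).1, by group⟩
    have e1 : ρ g = ρ (φ ^ i g) := by
      conv_lhs => rw [hgs, map_mul, hρH s hs, mul_one]
    have e2 : f g h = f (φ ^ i g) (φ ^ i h) := by
      conv_lhs => rw [hgs, hhs]
      exact hfH _ _ s hs s' hs'
    rw [e1, e2]
    exact hspec _ _

end Fermat.Agent.CFT
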