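import Fermat.Agent.CFT.Symbol

/-!
# Corestriction by an explicit cochain formula

`i : G' →* G` injective with range of finite index (typically `U.subtype` or an inclusion of
subgroups).  `cor1`, `cor2` are the corestriction maps on cochains.
-/

set_option autoImplicit false

namespace Fermat.Agent.CFT

section Defs

variable {G G' : Type*} [Group G] [Group G'] (i : G' →* G)

lemma exists_hcos (g : G) (c : G ⧸ i.range) : ∃ h : G', i h = (g • c).out⁻¹ * g * c.out := by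
  have : (g • c).out⁻¹ * (g * c.out) ∈ i.range := by
    rw [← QuotientGroup.eq, QuotientGroup.out_eq']
    conv_lhs => rw [← QuotientGroup.out_eq' c]
    rfl
  obtain ⟨h, hh⟩ := this
  exact ⟨h, by rw [hh, mul_assoc]⟩

/-- the element `s(g c)⁻¹ g s(c)` of the subgroup -/
noncomputable def hcos (g : G) (c : G ⧸ i.range) : G' := (exists_hcos i g c).choose

lemma i_hcos (g : G) (c : G ⧸ i.range) : i (hcos i g c) = (g • c).out⁻¹ * g * c.out :=
  (exists_hcos i g c).choose_spec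

lemma out_mul_hcos (g : G) (c : G ⧸ i.range) : (g • c).out * i (hcos i g c) = g * c.out := by
  rw [i_hcos]; group

variable {i}

lemma hcos_mul (hi : Function.Injective i) (g g' : G) (c : G ⧸ i.range) :
    hcos i (g * g') c = hcos i g (g' • c) * hcos i g' c := by
  apply hi
  rw [map_mul, i_hcos, i_hcos, i_hcos, mul_smul]
  group

/-- a normal subgroup contained in the range acts trivially on the cosets -/
lemma normal_smul_coset {N : Subgroup G} [hN : N.Normal] (hNi : N ≤ i.range) {n : G} (hn : n ∈ N)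
    (c : G ⧸ i.range) : n • c = c := by
  conv_rhs => rw [← QuotientGroup.out_eq' c]
  conv_lhs => rw [← QuotientGroup.out_eq' c]
  show ((n * c.out : G) : G ⧸ i.range) = _
  rw [QuotientGroup.eq]
  have h1 : (n * c.out)⁻¹ * c.out = (c.out⁻¹ * n * c.out)⁻¹ := by group
  rw [h1]
  exact i.range.inv_mem (hNi (by simpa using hN.conj_mem n hn c.out⁻¹))

lemma hcos_mul_normal (hi : Function.Injective i) {N : Subgroup G} [hN : N.Normal]
    (hNi : N ≤ i.range) (g : G) {n : G} (hn : n ∈ N) (c : G ⧸ i.range) :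
    ∃ n' : G', i n' ∈ N ∧ hcos i (g * n) c = hcos i g c * n' := by
  refine ⟨hcos i n c, ?_, ?_⟩
  · rw [i_hcos, normal_smul_coset hNi hn]
    simpa using hN.conj_mem n hn c.out⁻¹
  · rw [hcos_mul hi, normal_smul_coset hNi hn]

end Defs

section Cochain

variable {k : Type*} [CommRing k] {G G' : Type*} [Group G] [Group G'] (i : G' →* G)
variable {V : Type*} [AddCommGroup V] [Module k V] (ρ : Representation k G V)
  {ρ' : Representation k G' V}
variable [Fintype (G ⧸ i.range)]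

/-- corestriction (norm) on 0-cochains -/
noncomputable def cor0 : V →ₗ[k] V := ∑ c : G ⧸ i.range, ρ c.out

/-- corestriction on 1-cochains -/
noncomputable def cor1 : (G' → V) →ₗ[k] (G → V) where
  toFun f g := ∑ c : G ⧸ i.range, ρ (g • c).out (f (hcos i g c))
  map_add' f f' := by ext g; simp [Finset.sum_add_distrib]
  map_smul' a f := by ext g; simp [Finset.smul_sum]

/-- corestriction on 2-cochains -/
noncomputable def cor2 : (G' → G' → V) →ₗ[k] (G → G → V) where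
  toFun f g g' := ∑ c : G ⧸ i.range,
    ρ ((g * g') • c).out (f (hcos i g (g' • c)) (hcos i g' c))
  map_add' f f' := by ext g; simp [Finset.sum_add_distrib]
  map_smul' a f := by ext g; simp [Finset.smul_sum]

lemma cor0_apply (v : V) : cor0 i ρ v = ∑ c : G ⧸ i.range, ρ c.out v := by
  simp [cor0, LinearMap.sum_apply]

lemma cor1_apply (f : G' → V) (g : G) :
    cor1 i ρ f g = ∑ c : G ⧸ i.range, ρ (g • c).out (f (hcos i g c)) := rfl

lemma cor2_apply (f : G' → G' → V) (g g' : G) :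
    cor2 i ρ f g g' = ∑ c : G ⧸ i.range,
      ρ ((g * g') • c).out (f (hcos i g (g' • c)) (hcos i g' c)) := rfl

variable {i ρ}

omit [Fintype (G ⧸ i.range)] in
lemma rho_out_hcos (hρ : ∀ g v, ρ' g v = ρ (i g) v) (g : G) (c : G ⧸ i.range) (v : V) :
    ρ (g • c).out (ρ' (hcos i g c) v) = ρ g (ρ c.out v) := by
  rw [hρ, ← Module.End.mul_apply, ← map_mul, out_mul_hcos, map_mul, Module.End.mul_apply]

lemma cor1_d0 (hρ : ∀ g v, ρ' g v = ρ (i g) v) (v : V) :
    cor1 i ρ (d0 ρ' v) = d0 ρ (cor0 i ρ v) := by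
  ext g
  rw [cor1_apply, d0_apply, cor0_apply, map_sum]
  simp only [d0_apply, map_sub, rho_out_hcos hρ, Finset.sum_sub_distrib]
  congr 1
  exact Fintype.sum_equiv (MulAction.toPerm g) _ _ (fun c => rfl)

lemma cor2_d1 (hi : Function.Injective i) (hρ : ∀ g v, ρ' g v = ρ (i g) v) (f : G' → V) :
    cor2 i ρ (d1 ρ' f) = d1 ρ (cor1 i ρ f) := by
  ext g g'
  rw [cor2_apply, d1_apply, cor1_apply, cor1_apply, cor1_apply, map_sum]
  have h1 : ∀ c : G ⧸ i.range,
      ρ ((g * g') • c).out (d1 ρ' f (hcos i g (g' • c)) (hcos i g' c)) =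
      ρ g (ρ (g' • c).out (f (hcos i g' c))) - ρ ((g * g') • c).out (f (hcos i (g * g') c))
        + ρ (g • (g' • c)).out (f (hcos i g (g' • c))) := by
    intro c
    rw [d1_apply, map_add, map_sub, ← hcos_mul hi]
    rw [mul_smul, rho_out_hcos hρ]
  rw [Finset.sum_congr rfl fun c _ => h1 c, Finset.sum_add_distrib, Finset.sum_sub_distrib]
  congr 1
  exact Fintype.sum_equiv (MulAction.toPerm g') _ _ (fun c => rfl)

lemma cor2_cocycle (hi : Function.Injective i) (hρ : ∀ g v, ρ' g v = ρ (i g) v)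
    {f : G' → G' → V} (hf : ∀ g h j, f (g * h) j + f g h = ρ' g (f h j) + f g (h * j))
    (g h j : G) : cor2 i ρ f (g * h) j + cor2 i ρ f g h =
      ρ g (cor2 i ρ f h j) + cor2 i ρ f g (h * j) := by
  simp only [cor2_apply, map_sum]
  have e2 : ∑ c : G ⧸ i.range, ρ ((g * h) • c).out (f (hcos i g (h • c)) (hcos i h c)) =
      ∑ c : G ⧸ i.range, ρ ((g * h * j) • c).out
        (f (hcos i g ((h * j) • c)) (hcos i h (j • c))) := by
    symm
    refine Fintype.sum_equiv (MulAction.toPerm j) _ _ (fun c => ?_)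
    simp only [MulAction.toPerm_apply, mul_smul]
  rw [e2, ← Finset.sum_add_distrib, ← Finset.sum_add_distrib]
  refine Finset.sum_congr rfl fun c _ => ?_
  have h1 := hf (hcos i g ((h * j) • c)) (hcos i h (j • c)) (hcos i j c)
  rw [mul_smul, ← hcos_mul hi, ← hcos_mul hi, ← mul_smul] at h1
  have h2 := congrArg (ρ ((g * h * j) • c).out) h1
  rw [map_add, map_add] at h2
  rw [h2, mul_assoc g h j]
  congr 1
  have h3 := rho_out_hcos (ρ := ρ) hρ g ((h * j) • c) (f (hcos i h (j • c)) (hcos i j c))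
  rw [← mul_smul] at h3
  rw [h3]

variable {𝓛 : Levels G} {𝓛' : Levels G'}

lemma LC_cor1 (hi : Function.Injective i) (hr : i.range ∈ 𝓛)
    (hLL : ∀ J ∈ 𝓛', ∃ H ∈ 𝓛, H.comap i ≤ J) {f : G' → V} (hf : 𝓛'.LC f) :
    𝓛.LC (cor1 i ρ f) := by
  obtain ⟨J, hJ, hfJ⟩ := hf
  obtain ⟨H, hH, hHJ⟩ := hLL J hJ
  obtain ⟨N, hN, hNH, hNn⟩ := Levels.exists_normal (Levels.inf_mem hH hr)
  refine ⟨N, hN, fun g n hn => ?_⟩
  rw [cor1_apply, cor1_apply]
  refine Finset.sum_congr rfl fun c _ => ?_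
  have hNi : N ≤ i.range := hNH.trans inf_le_right
  obtain ⟨n', hn', h1⟩ := hcos_mul_normal hi hNi g hn c
  rw [mul_smul, normal_smul_coset hNi hn, h1, hfJ _ n' (hHJ (hNH hn').1)]

lemma LC₂_cor2 (hi : Function.Injective i) (hr : i.range ∈ 𝓛)
    (hLL : ∀ J ∈ 𝓛', ∃ H ∈ 𝓛, H.comap i ≤ J) {f : G' → G' → V} (hf : 𝓛'.LC₂ f) :
    𝓛.LC₂ (cor2 i ρ f) := by
  obtain ⟨J, hJ, hfJ⟩ := hf
  obtain ⟨H, hH, hHJ⟩ := hLL J hJ
  obtain ⟨N, hN, hNH, hNn⟩ := Levels.exists_normal (Levels.inf_mem hH hr)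
  have hNi : N ≤ i.range := hNH.trans inf_le_right
  refine ⟨N, hN, fun g g' n hn m hm => ?_⟩
  rw [cor2_apply, cor2_apply]
  refine Finset.sum_congr rfl fun c _ => ?_
  have h0 : (g' * m) • c = g' • c := by rw [mul_smul, normal_smul_coset hNi hm]
  have h2 : (g * n * (g' * m)) • c = (g * g') • c := by
    rw [mul_smul, mul_smul, h0, normal_smul_coset hNi hn, mul_smul]
  obtain ⟨n', hn', h1⟩ := hcos_mul_normal hi hNi g hn (g' • c)
  obtain ⟨m', hm', h3⟩ := hcos_mul_normal hi hNi g' hm c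
  rw [h2, h0, h1, h3, hfJ _ _ n' (hHJ (hNH hn').1) m' (hHJ (hNH hm').1)]

lemma cor1_mem_Z1 (hi : Function.Injective i) (hr : i.range ∈ 𝓛)
    (hLL : ∀ J ∈ 𝓛', ∃ H ∈ 𝓛, H.comap i ≤ J) (hρ : ∀ g v, ρ' g v = ρ (i g) v)
    {f : G' → V} (hf : f ∈ Z1 𝓛' ρ') : cor1 i ρ f ∈ Z1 𝓛 ρ := by
  apply mem_Z1_of_d1_eq_zero (LC_cor1 hi hr hLL hf.1)
  rw [← cor2_d1 hi hρ, d1_eq_zero_of_mem_Z1 hf, map_zero]

lemma cor2_mem_Z2 (hi : Function.Injective i) (hr : i.range ∈ 𝓛)
    (hLL : ∀ J ∈ 𝓛', ∃ H ∈ 𝓛, H.comap i ≤ J) (hρ : ∀ g v, ρ' g v = ρ (i g) v)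
    {f : G' → G' → V} (hf : f ∈ Z2 𝓛' ρ') : cor2 i ρ f ∈ Z2 𝓛 ρ :=
  ⟨LC₂_cor2 hi hr hLL hf.1, cor2_cocycle hi hρ hf.2⟩

lemma cor2_mem_B2 (hi : Function.Injective i) (hr : i.range ∈ 𝓛)
    (hLL : ∀ J ∈ 𝓛', ∃ H ∈ 𝓛, H.comap i ≤ J) (hρ : ∀ g v, ρ' g v = ρ (i g) v)
    {f : G' → G' → V} (hf : f ∈ B2 𝓛' ρ') : cor2 i ρ f ∈ B2 𝓛 ρ := by
  obtain ⟨c, hc, rfl⟩ := mem_B2.1 hf
  exact mem_B2.2 ⟨_, LC_cor1 hi hr hLL hc, (cor2_d1 hi hρ c).symm⟩

/-- `cor ∘ res = [G : G']` on classes of 2-cocycles. -/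
theorem cor2_res (hi : Function.Injective i) (hr : i.range ∈ 𝓛)
    {F : G → G → V} (hF : F ∈ Z2 𝓛 ρ) :
    cor2 i ρ (fun a b => F (i a) (i b)) - (Fintype.card (G ⧸ i.range)) • F ∈ B2 𝓛 ρ := by
  obtain ⟨hFL, hFc⟩ := hF
  obtain ⟨K, hK, hKn, hFK⟩ := hFL.exists_normal
  refine mem_B2.2 ⟨fun g => ∑ c : G ⧸ i.range,
    (F (g • c).out (i (hcos i g c)) - F g c.out), ?_, ?_⟩
  · obtain ⟨N, hN, hNH, hNn⟩ := Levels.exists_normal (Levels.inf_mem hK hr)
    have hNi : N ≤ i.range := hNH.trans inf_le_right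
    refine ⟨N, hN, fun g n hn => Finset.sum_congr rfl fun c _ => ?_⟩
    obtain ⟨n', hn', h1⟩ := hcos_mul_normal hi hNi g hn c
    rw [mul_smul, normal_smul_coset hNi hn, h1, map_mul]
    have h2 := hFK (g • c).out (i (hcos i g c)) 1 K.one_mem (i n') (hNH hn').1
    have h3 := hFK g c.out n (hNH hn).1 1 K.one_mem
    rw [mul_one] at h2 h3
    rw [h2, h3]
  · ext g g'
    have key : ∀ c : G ⧸ i.range,
        ρ ((g * g') • c).out (F (i (hcos i g (g' • c))) (i (hcos i g' c))) - F g g' =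
        ρ g (F (g' • c).out (i (hcos i g' c)) - F g' c.out) -
        (F ((g * g') • c).out (i (hcos i (g * g') c)) - F (g * g') c.out) +
        (F (g • (g' • c)).out (i (hcos i g (g' • c))) - F g (g' • c).out) := by
      intro c
      have e1 : ((g * g') • c).out * i (hcos i g (g' • c)) = g * (g' • c).out := by
        rw [mul_smul]; exact out_mul_hcos i g (g' • c)
      have e2 : (g' • c).out * i (hcos i g' c) = g' * c.out := out_mul_hcos i g' c
      have h1 := hFc ((g * g') • c).out (i (hcos i g (g' • c))) (i (hcos i g' c))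
      have h2 := hFc g (g' • c).out (i (hcos i g' c))
      have h3 := hFc g g' c.out
      rw [e1, ← map_mul, ← hcos_mul hi] at h1
      rw [e2] at h2
      rw [map_sub, ← mul_smul]
      have h1' := eq_sub_of_add_eq h1.symm
      rw [h1', eq_sub_of_add_eq h2]
      have h3' : F g (g' * c.out) = F (g * g') c.out + F g g' - ρ g (F g' c.out) := by
        rw [h3]; abel
      rw [h3']; abel
    simp only [Pi.sub_apply, Pi.smul_apply, d1_apply, cor2_apply, map_sum]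
    have e3 : ∑ c : G ⧸ i.range, (F (g • c).out (i (hcos i g c)) - F g c.out) =
        ∑ c : G ⧸ i.range, (F (g • (g' • c)).out (i (hcos i g (g' • c))) - F g (g' • c).out) :=
      (Fintype.sum_equiv (MulAction.toPerm g') _ _ (fun c => rfl)).symm
    rw [e3, ← Finset.sum_sub_distrib, ← Finset.sum_add_distrib,
      Finset.sum_congr rfl fun c _ => (key c).symm, Finset.sum_sub_distrib, Finset.sum_const,
      Finset.card_univ]

/-- restriction to a subgroup of index invertible in `k` is injective on `H²` -/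
theorem mem_B2_of_res (hi : Function.Injective i) (hr : i.range ∈ 𝓛)
    (hLL : ∀ J ∈ 𝓛', ∃ H ∈ 𝓛, H.comap i ≤ J) (hρ : ∀ g v, ρ' g v = ρ (i g) v)
    (hcard : IsUnit (Fintype.card (G ⧸ i.range) : k))
    {F : G → G → V} (hF : F ∈ Z2 𝓛 ρ) (hres : (fun a b => F (i a) (i b)) ∈ B2 𝓛' ρ') :
    F ∈ B2 𝓛 ρ := by
  have h1 := (B2 𝓛 ρ).sub_mem (cor2_mem_B2 hi hr hLL hρ hres) (cor2_res hi hr hF)
  rw [sub_sub_cancel] at h1
  obtain ⟨u, hu⟩ := hcard
  have h2 := (B2 𝓛 ρ).smul_mem (↑u⁻¹ : k) h1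
  rw [← Nat.cast_smul_eq_nsmul k, smul_smul, ← hu, Units.inv_mul, one_smul] at h2
  exact h2

end Cochain

section Projection

variable {p : ℕ} {G G' : Type*} [Group G] [Group G'] {i : G' →* G}
variable {𝓛 : Levels G} {𝓛' : Levels G'} [Fintype (G ⧸ i.range)]

/-- **projection formula** for characters -/
theorem cor2_cup (hi : Function.Injective i) (hr : i.range ∈ 𝓛)
    (hLL : ∀ J ∈ 𝓛', ∃ H ∈ 𝓛, H.comap i ≤ J)
    {κ : G → ZMod p} (hκm : ∀ g h, κ (g * h) = κ g + κ h)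
    {lam : G' → ZMod p} (hlam : 𝓛'.LC lam) (hlamm : ∀ g h, lam (g * h) = lam g + lam h) :
    cor2 i (triv p G) (cup (fun a => κ (i a)) lam) - cup κ (cor1 i (triv p G) lam) ∈
      B2 𝓛 (triv p G) := by
  have hone : κ 1 = 0 := by simpa using hκm 1 1
  have hinv : ∀ g, κ g⁻¹ = - κ g := by
    intro g
    have := hκm g g⁻¹
    rw [mul_inv_cancel, hone] at this
    exact (neg_eq_of_add_eq_zero_right this.symm).symm
  refine mem_B2.2 ⟨fun g => ∑ c : G ⧸ i.range, κ (g • c).out * lam (hcos i g c), ?_, ?_⟩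
  · obtain ⟨J, hJ, hJ'⟩ := hlam
    obtain ⟨H, hH, hHJ⟩ := hLL J hJ
    obtain ⟨N, hN, hNH, hNn⟩ := Levels.exists_normal (Levels.inf_mem hH hr)
    have hNi : N ≤ i.range := hNH.trans inf_le_right
    refine ⟨N, hN, fun g n hn => Finset.sum_congr rfl fun c _ => ?_⟩
    obtain ⟨n', hn', h1⟩ := hcos_mul_normal hi hNi g hn c
    rw [mul_smul, normal_smul_coset hNi hn, h1, hJ' _ n' (hHJ (hNH hn').1)]
  · ext g g'
    simp only [d1_triv, Pi.sub_apply, cup_apply, cor1_apply, cor2_apply,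
      Representation.trivial_apply]
    have e3 : ∑ c : G ⧸ i.range, κ (g • c).out * lam (hcos i g c) =
        ∑ c : G ⧸ i.range, κ (g • (g' • c)).out * lam (hcos i g (g' • c)) :=
      (Fintype.sum_equiv (MulAction.toPerm g') _ _ (fun c => rfl)).symm
    rw [e3, Finset.mul_sum, ← Finset.sum_sub_distrib, ← Finset.sum_sub_distrib,
      ← Finset.sum_add_distrib]
    refine Finset.sum_congr rfl fun c _ => ?_
    rw [i_hcos, hκm, hκm, hinv, hcos_mul hi, hlamm, mul_smul]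
    ring

variable {Ω : Type*} [Field Ω] [MulSemiringAction G Ω] [MulSemiringAction G' Ω]

/-- the corestriction of a Kummer character is the Kummer character of the norm -/
theorem cor1_kummer [NeZero p] {ζ : Ω} (hζ : IsPrimitiveRoot ζ p) (hζG : ∀ g : G, g • ζ = ζ)
    (hact : ∀ (g : G') (x : Ω), g • x = i g • x)
    {ω : Ω} (hω : ω ≠ 0) (hfix : ∀ g : G', g • ω ^ p = ω ^ p) (g : G) :
    cor1 i (triv p G) (kummer p ζ ω) g = kummer p ζ (∏ c : G ⧸ i.range, c.out • ω) g := by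
  have hW0 : ∏ c : G ⧸ i.range, c.out • ω ≠ 0 := by
    rw [Finset.prod_ne_zero_iff]
    intro c _ h0
    have := congrArg (fun y => c.out⁻¹ • y) h0
    rw [inv_smul_smul, smul_zero] at this
    exact hω this
  have h1 : ∀ c : G ⧸ i.range, g • (c.out • ω) =
      ζ ^ (kummer p ζ ω (hcos i g c)).val * ((g • c).out • ω) := by
    intro c
    have h2 := kummer_spec hζ hω (hfix (hcos i g c))
    rw [hact] at h2
    rw [smul_smul, ← out_mul_hcos i g c, mul_smul, h2, smul_mul', smul_pow', hζG]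
  symm
  rw [kummer_unique hζ hW0 (k := ∑ c : G ⧸ i.range, (kummer p ζ ω (hcos i g c)).val)]
  · rw [cor1_apply]
    simp
  · rw [Finset.smul_prod', Finset.prod_congr rfl fun c _ => h1 c, Finset.prod_mul_distrib,
      Finset.prod_pow_eq_pow_sum]
    congr 1
    exact Fintype.prod_equiv (MulAction.toPerm g) _ _ (fun c => rfl)

omit [MulSemiringAction G' Ω] in
/-- the norm of a `p`-th root is a `p`-th root of the norm, and is `G`-fixed -/
lemma norm_root_pow {ω : Ω} (hfix : ∀ g : G', i g • ω ^ p = ω ^ p) (g : G) :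
    g • (∏ c : G ⧸ i.range, c.out • ω) ^ p = (∏ c : G ⧸ i.range, c.out • ω) ^ p := by
  rw [← Finset.prod_pow, Finset.smul_prod']
  simp only [← smul_pow']
  refine Fintype.prod_equiv (MulAction.toPerm g) _ _ (fun c => ?_)
  simp only [MulAction.toPerm_apply]
  conv_rhs => rw [← hfix (hcos i g c), smul_smul, out_mul_hcos, mul_smul]

end Projection

section H2Maps

variable {k : Type*} [CommRing k] {G G' : Type*} [Group G] [Group G'] {i : G' →* G}
variable {V : Type*} [AddCommGroup V] [Module k V] {ρ : Representation k G V}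
  {ρ' : Representation k G' V}
variable [Fintype (G ⧸ i.range)] {𝓛 : Levels G} {𝓛' : Levels G'}

variable (𝓛 𝓛' ρ ρ' i) in
/-- The hypotheses under which corestriction along `i` is defined. -/
structure CorData : Prop where
  inj : Function.Injective i
  range_mem : i.range ∈ 𝓛
  cont : Levels.Cont 𝓛' 𝓛 i
  cocont : ∀ J ∈ 𝓛', ∃ H ∈ 𝓛, H.comap i ≤ J
  rho : ∀ g v, ρ' g v = ρ (i g) v

omit [Fintype (G ⧸ i.range)] in
lemma CorData.compat (h : CorData i ρ ρ' 𝓛 𝓛') :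
    Compat ρ ρ' i (LinearMap.id : V →ₗ[k] V) := fun g v => (h.rho g v).symm

/-- restriction on `H²` -/
noncomputable def H2.res (h : CorData i ρ ρ' 𝓛 𝓛') : H2 𝓛 ρ →ₗ[k] H2 𝓛' ρ' :=
  H2.map 𝓛 𝓛' ρ ρ' i LinearMap.id h.cont h.compat

/-- restriction on `H¹` -/
noncomputable def H1.res (h : CorData i ρ ρ' 𝓛 𝓛') : H1 𝓛 ρ →ₗ[k] H1 𝓛' ρ' :=
  H1.map 𝓛 𝓛' ρ ρ' i LinearMap.id h.cont h.compat

/-- corestriction on `H²` -/
noncomputable def H2.cor (h : CorData i ρ ρ' 𝓛 𝓛') : H2 𝓛' ρ' →ₗ[k] H2 𝓛 ρ :=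
  Submodule.mapQ _ _ ((cor2 i ρ).restrict (p := Z2 𝓛' ρ') (q := Z2 𝓛 ρ)
    (fun _ hx => cor2_mem_Z2 h.inj h.range_mem h.cocont h.rho hx))
    (fun _ hx => cor2_mem_B2 h.inj h.range_mem h.cocont h.rho hx)

/-- corestriction on `H¹` -/
noncomputable def H1.cor (h : CorData i ρ ρ' 𝓛 𝓛') : H1 𝓛' ρ' →ₗ[k] H1 𝓛 ρ :=
  Submodule.mapQ _ _ ((cor1 i ρ).restrict (p := Z1 𝓛' ρ') (q := Z1 𝓛 ρ)
    (fun _ hx => cor1_mem_Z1 h.inj h.range_mem h.cocont h.rho hx))
    (fun x hx => by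
      obtain ⟨v, hv⟩ := hx
      have hv' : d0 ρ' v = (x : G' → V) := hv
      show cor1 i ρ (x : G' → V) ∈ B1 ρ
      rw [← hv', cor1_d0 h.rho]
      exact ⟨_, rfl⟩)

omit [Fintype (G ⧸ i.range)] in
@[simp] lemma H2.res_mk (h : CorData i ρ ρ' 𝓛 𝓛') (x : ↥(Z2 𝓛 ρ)) :
    H2.res h (H2.mk 𝓛 ρ x) =
      H2.mk 𝓛' ρ' ⟨fun a b => (x : G → G → V) (i a) (i b), pp2_mem_Z2 h.cont h.compat x.2⟩ := rfl

@[simp] lemma H2.cor_mk (h : CorData i ρ ρ' 𝓛 𝓛') (x : ↥(Z2 𝓛' ρ')) :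
    H2.cor h (H2.mk 𝓛' ρ' x) = H2.mk 𝓛 ρ ⟨cor2 i ρ (x : G' → G' → V),
      cor2_mem_Z2 h.inj h.range_mem h.cocont h.rho x.2⟩ := rfl

omit [Fintype (G ⧸ i.range)] in
@[simp] lemma H1.res_mk (h : CorData i ρ ρ' 𝓛 𝓛') (x : ↥(Z1 𝓛 ρ)) :
    H1.res h (H1.mk 𝓛 ρ x) =
      H1.mk 𝓛' ρ' ⟨fun a => (x : G → V) (i a), pp1_mem_Z1 h.cont h.compat x.2⟩ := rfl

@[simp] lemma H1.cor_mk (h : CorData i ρ ρ' 𝓛 𝓛') (x : ↥(Z1 𝓛' ρ')) :
    H1.cor h (H1.mk 𝓛' ρ' x) = H1.mk 𝓛 ρ ⟨cor1 i ρ (x : G' → V),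
      cor1_mem_Z1 h.inj h.range_mem h.cocont h.rho x.2⟩ := rfl

theorem H2.cor_res (h : CorData i ρ ρ' 𝓛 𝓛') (x : H2 𝓛 ρ) :
    H2.cor h (H2.res h x) = (Fintype.card (G ⧸ i.range)) • x := by
  obtain ⟨x, rfl⟩ := H2.mk_surjective 𝓛 ρ x
  rw [H2.res_mk, H2.cor_mk, ← map_nsmul, H2.mk_eq_mk]
  exact cor2_res h.inj h.range_mem x.2

theorem H2.res_injective (h : CorData i ρ ρ' 𝓛 𝓛')
    (hcard : IsUnit (Fintype.card (G ⧸ i.range) : k)) : Function.Injective (H2.res h) := by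
  rw [injective_iff_map_eq_zero]
  intro x hx
  have h1 := H2.cor_res h x
  rw [hx, map_zero, ← Nat.cast_smul_eq_nsmul k] at h1
  exact (hcard.smul_eq_zero).1 h1.symm

end H2Maps

section Instances

variable {k : Type*} [CommRing k] {G : Type*} [Group G] {𝓛 : Levels G}
variable {V : Type*} [AddCommGroup V] [Module k V] (ρ : Representation k G V)

/-- corestriction data for a level subgroup -/
lemma corData_subtype {U : Subgroup G} (hU : U ∈ 𝓛) :
    CorData U.subtype ρ (ρ.comp U.subtype) 𝓛 (𝓛.restrict U) where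
  inj := Subtype.val_injective
  range_mem := by rw [Subgroup.range_subtype]; exact hU
  cont := Levels.cont_subtype U
  cocont := fun _ ⟨H, hH, hJ⟩ => ⟨H, hH, hJ⟩
  rho _ _ := rfl

/-- corestriction data for an inclusion of level subgroups -/
lemma corData_inclusion {U U' : Subgroup G} (hU' : U' ∈ 𝓛) (hle : U' ≤ U) :
    CorData (Subgroup.inclusion hle) (ρ.comp U.subtype) (ρ.comp U'.subtype) (𝓛.restrict U)
      (𝓛.restrict U') where
  inj := Subgroup.inclusion_injective hle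
  range_mem := ⟨U', hU', fun x hx => ⟨⟨x, hx⟩, rfl⟩⟩
  cont := by
    rintro J ⟨H, hH, hJ⟩
    exact ⟨H, hH, fun x hx => hJ hx⟩
  cocont := by
    rintro J ⟨H, hH, hJ⟩
    exact ⟨H.subgroupOf U, ⟨H, hH, le_rfl⟩, fun x hx => hJ hx⟩
  rho _ _ := rfl

end Instances

section Death

variable {k : Type*} [CommRing k] {G : Type*} [Group G] {𝓛 : Levels G}
variable {V : Type*} [AddCommGroup V] [Module k V] {ρ : Representation k G V}

/-- every class dies on a (normal) level -/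
theorem exists_level_res_mem_B2 (hs : Smooth 𝓛 ρ) {y : G → G → V} (hy : y ∈ Z2 𝓛 ρ) {U : Subgroup G}
    (hU : U ∈ 𝓛) :
    ∃ N ∈ 𝓛, N ≤ U ∧ N.Normal ∧
      (fun a b : N => y a b) ∈ B2 (𝓛.restrict N) (ρ.comp N.subtype) := by
  obtain ⟨K, hK, hyK⟩ := hy.1
  obtain ⟨H, hH, hH1⟩ := hs (y 1 1)
  obtain ⟨N, hN, hNK, hNn⟩ := Levels.exists_normal (Levels.inf_mem (Levels.inf_mem hK hH) hU)
  refine ⟨N, hN, hNK.trans inf_le_right, hNn, mem_B2.2 ⟨fun _ => y 1 1, Levels.LC.const _, ?_⟩⟩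
  ext a b
  have h1 := hyK 1 1 a (hNK a.2).1.1 b (hNK b.2).1.1
  rw [one_mul, one_mul] at h1
  simp only [d1_apply, MonoidHom.comp_apply, Subgroup.subtype_apply, h1, sub_add_cancel]
  exact hH1 _ (hNK a.2).1.2

end Death

end Fermat.Agent.CFT
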