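import Mathlib

/-!
# Level structures and low degree cohomology of locally constant cochains

`Levels G` is a family of finite index subgroups of `G` (think: open subgroups of a profinite
group).  All cochains are functions on the abstract group `G` which are constant on right cosets
of a level.
-/

set_option autoImplicit false

namespace Fermat.Agent.CFT

/-- A level structure on a group: an upward closed family of finite index subgroups, stable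
under intersection and normal cores. -/
structure Levels (G : Type*) [Group G] where
  carrier : Set (Subgroup G)
  top_mem' : ⊤ ∈ carrier
  inf_mem' : ∀ {H H' : Subgroup G}, H ∈ carrier → H' ∈ carrier → H ⊓ H' ∈ carrier
  up_mem' : ∀ {H H' : Subgroup G}, H ∈ carrier → H ≤ H' → H' ∈ carrier
  finiteIndex' : ∀ {H : Subgroup G}, H ∈ carrier → H.FiniteIndex
  normalCore_mem' : ∀ {H : Subgroup G}, H ∈ carrier → H.normalCore ∈ carrier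

namespace Levels

variable {G G' : Type*} [Group G] [Group G'] (𝓛 : Levels G) (𝓛' : Levels G')

instance : Membership (Subgroup G) (Levels G) := ⟨fun 𝓛 H => H ∈ 𝓛.carrier⟩

variable {𝓛}

lemma top_mem : (⊤ : Subgroup G) ∈ 𝓛 := 𝓛.top_mem'
lemma inf_mem {H H' : Subgroup G} (h : H ∈ 𝓛) (h' : H' ∈ 𝓛) : H ⊓ H' ∈ 𝓛 := 𝓛.inf_mem' h h'
lemma up_mem {H H' : Subgroup G} (h : H ∈ 𝓛) (h' : H ≤ H') : H' ∈ 𝓛 := 𝓛.up_mem' h h'
lemma finiteIndex {H : Subgroup G} (h : H ∈ 𝓛) : H.FiniteIndex := 𝓛.finiteIndex' h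
lemma normalCore_mem {H : Subgroup G} (h : H ∈ 𝓛) : H.normalCore ∈ 𝓛 := 𝓛.normalCore_mem' h

lemma exists_normal {H : Subgroup G} (h : H ∈ 𝓛) : ∃ N ∈ 𝓛, N ≤ H ∧ N.Normal :=
  ⟨_, normalCore_mem h, H.normalCore_le, inferInstance⟩

lemma iInf_mem {ι : Type*} [Finite ι] {H : ι → Subgroup G} (h : ∀ i, H i ∈ 𝓛) :
    (⨅ i, H i) ∈ 𝓛 := by
  classical
  have := Fintype.ofFinite ι
  have key : ∀ s : Finset ι, (⨅ i ∈ s, H i) ∈ 𝓛 := by
    intro s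
    induction s using Finset.induction_on with
    | empty => simpa using top_mem
    | insert a s ha ih => rw [Finset.iInf_insert]; exact inf_mem (h a) ih
  simpa using key Finset.univ

variable (𝓛)

/-- Locally constant functions of one variable. -/
def LC {X : Type*} (f : G → X) : Prop := ∃ H ∈ 𝓛, ∀ g, ∀ s ∈ H, f (g * s) = f g

/-- Locally constant functions of two variables. -/
def LC₂ {X : Type*} (f : G → G → X) : Prop :=
  ∃ H ∈ 𝓛, ∀ g g', ∀ s ∈ H, ∀ s' ∈ H, f (g * s) (g' * s') = f g g'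

variable {𝓛}

/-- one can take the level normal -/
lemma LC.exists_normal {X : Type*} {f : G → X} (h : 𝓛.LC f) :
    ∃ N ∈ 𝓛, N.Normal ∧ ∀ g, ∀ s ∈ N, f (g * s) = f g := by
  obtain ⟨H, hH, h⟩ := h
  obtain ⟨N, hN, hNH, hn⟩ := Levels.exists_normal hH
  exact ⟨N, hN, hn, fun g s hs => h g s (hNH hs)⟩

lemma LC₂.exists_normal {X : Type*} {f : G → G → X} (h : 𝓛.LC₂ f) :
    ∃ N ∈ 𝓛, N.Normal ∧ ∀ g g', ∀ s ∈ N, ∀ s' ∈ N, f (g * s) (g' * s') = f g g' := by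
  obtain ⟨H, hH, h⟩ := h
  obtain ⟨N, hN, hNH, hn⟩ := Levels.exists_normal hH
  exact ⟨N, hN, hn, fun g g' s hs s' hs' => h g g' s (hNH hs) s' (hNH hs')⟩

lemma LC.const {X : Type*} (x : X) : 𝓛.LC (fun _ : G => x) := ⟨⊤, top_mem, fun _ _ _ => rfl⟩
lemma LC₂.const {X : Type*} (x : X) : 𝓛.LC₂ (fun _ _ : G => x) :=
  ⟨⊤, top_mem, fun _ _ _ _ _ _ => rfl⟩

lemma LC.comp {X Y : Type*} {f : G → X} (h : 𝓛.LC f) (φ : X → Y) : 𝓛.LC (fun g => φ (f g)) := by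
  obtain ⟨H, hH, h⟩ := h
  exact ⟨H, hH, fun g s hs => congrArg φ (h g s hs)⟩

lemma LC₂.comp {X Y : Type*} {f : G → G → X} (h : 𝓛.LC₂ f) (φ : X → Y) :
    𝓛.LC₂ (fun g g' => φ (f g g')) := by
  obtain ⟨H, hH, h⟩ := h
  exact ⟨H, hH, fun g g' s hs s' hs' => congrArg φ (h g g' s hs s' hs')⟩

lemma LC.comp₂ {X Y Z : Type*} {f : G → X} {f' : G → Y} (h : 𝓛.LC f) (h' : 𝓛.LC f')
    (φ : X → Y → Z) : 𝓛.LC (fun g => φ (f g) (f' g)) := by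
  obtain ⟨H, hH, h⟩ := h
  obtain ⟨H', hH', h'⟩ := h'
  exact ⟨H ⊓ H', inf_mem hH hH', fun g s hs => congrArg₂ φ (h g s hs.1) (h' g s hs.2)⟩

lemma LC₂.comp₂ {X Y Z : Type*} {f : G → G → X} {f' : G → G → Y} (h : 𝓛.LC₂ f)
    (h' : 𝓛.LC₂ f') (φ : X → Y → Z) : 𝓛.LC₂ (fun g g' => φ (f g g') (f' g g')) := by
  obtain ⟨H, hH, h⟩ := h
  obtain ⟨H', hH', h'⟩ := h'
  exact ⟨H ⊓ H', inf_mem hH hH', fun g g' s hs s' hs' =>
    congrArg₂ φ (h g g' s hs.1 s' hs'.1) (h' g g' s hs.2 s' hs'.2)⟩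

lemma LC.fst {X : Type*} {f : G → X} (h : 𝓛.LC f) : 𝓛.LC₂ (fun g _ => f g) := by
  obtain ⟨H, hH, h⟩ := h
  exact ⟨H, hH, fun g g' s hs s' hs' => h g s hs⟩

lemma LC.snd {X : Type*} {f : G → X} (h : 𝓛.LC f) : 𝓛.LC₂ (fun _ g => f g) := by
  obtain ⟨H, hH, h⟩ := h
  exact ⟨H, hH, fun g g' s hs s' hs' => h g' s' hs'⟩

lemma LC.mul {X : Type*} {f : G → X} (h : 𝓛.LC f) : 𝓛.LC₂ (fun g g' => f (g * g')) := by
  obtain ⟨H, hH, hn, h⟩ := h.exists_normal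
  refine ⟨H, hH, fun g g' s hs s' hs' => ?_⟩
  have : g * s * (g' * s') = g * g' * ((g'⁻¹ * s * g') * s') := by group
  show f _ = f _
  rw [this]
  exact h _ _ (H.mul_mem (by simpa using hn.conj_mem s hs g'⁻¹) hs')

/-- a function on `G` invariant under right translation by a level is locally constant;
also under left translation. -/
lemma LC.of_left {X : Type*} {f : G → X} {H : Subgroup G} (hH : H ∈ 𝓛)
    (h : ∀ s ∈ H, ∀ g, f (s * g) = f g) : 𝓛.LC f := by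
  obtain ⟨N, hN, hNH, hn⟩ := Levels.exists_normal hH
  refine ⟨N, hN, fun g s hs => ?_⟩
  have : g * s = (g * s * g⁻¹) * g := by group
  rw [this, h _ (hNH (hn.conj_mem s hs g))]

lemma LC.finite_range {X : Type*} {f : G → X} (h : 𝓛.LC f) : (Set.range f).Finite := by
  obtain ⟨H, hH, h⟩ := h
  haveI := finiteIndex hH
  have : Set.range f ⊆ Set.range (fun q : G ⧸ H => f q.out) := by
    rintro _ ⟨g, rfl⟩
    refine ⟨(g : G ⧸ H), ?_⟩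
    obtain ⟨s, hs⟩ := QuotientGroup.mk_out_eq_mul H g
    simp only
    rw [hs, h g s s.2]
  exact (Set.finite_range _).subset this

variable (𝓛)

/-- restriction of a level structure to a subgroup -/
def restrict (U : Subgroup G) : Levels U where
  carrier := {J | ∃ H ∈ 𝓛, H.subgroupOf U ≤ J}
  top_mem' := ⟨⊤, top_mem, le_top⟩
  inf_mem' := by
    rintro J J' ⟨H, hH, h⟩ ⟨H', hH', h'⟩
    refine ⟨H ⊓ H', inf_mem hH hH', ?_⟩
    intro x hx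
    exact ⟨h hx.1, h' hx.2⟩
  up_mem' := by
    rintro J J' ⟨H, hH, h⟩ h'
    exact ⟨H, hH, h.trans h'⟩
  finiteIndex' := by
    rintro J ⟨H, hH, h⟩
    haveI := finiteIndex hH
    exact Subgroup.finiteIndex_of_le h
  normalCore_mem' := by
    rintro J ⟨H, hH, h⟩
    obtain ⟨N, hN, hNH, hn⟩ := exists_normal hH
    refine ⟨N, hN, ?_⟩
    have : (N.subgroupOf U).Normal := inferInstance
    rw [Subgroup.normal_le_normalCore]
    exact le_trans (Subgroup.comap_mono hNH) h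

variable {𝓛}

lemma mem_restrict {U : Subgroup G} {J : Subgroup U} :
    J ∈ 𝓛.restrict U ↔ ∃ H ∈ 𝓛, H.subgroupOf U ≤ J := Iff.rfl

lemma mem_restrict_iff_map {U : Subgroup G} (hU : U ∈ 𝓛) {J : Subgroup U} :
    J ∈ 𝓛.restrict U ↔ J.map U.subtype ∈ 𝓛 := by
  constructor
  · rintro ⟨H, hH, h⟩
    refine up_mem (inf_mem hH hU) ?_
    rintro x ⟨hx, hxU⟩
    exact ⟨⟨x, hxU⟩, h (show (⟨x, hxU⟩ : U) ∈ H.subgroupOf U from hx), rfl⟩
  · intro h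
    refine ⟨_, h, ?_⟩
    rintro x ⟨y, hy, hxy⟩
    have : y = x := Subtype.ext hxy
    exact this ▸ hy

/-- `f : G' → G` is level-continuous -/
def Cont (𝓛' : Levels G') (𝓛 : Levels G) (f : G' →* G) : Prop :=
  ∀ H ∈ 𝓛, H.comap f ∈ 𝓛'

lemma cont_id : Cont 𝓛 𝓛 (MonoidHom.id G) := fun H hH => by simpa using hH

lemma Cont.comp {G'' : Type*} [Group G''] {𝓛' : Levels G'} {𝓛'' : Levels G''}
    {f : G' →* G} {f' : G'' →* G'} (h : Cont 𝓛' 𝓛 f) (h' : Cont 𝓛'' 𝓛' f') :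
    Cont 𝓛'' 𝓛 (f.comp f') := fun H hH => by
  rw [← Subgroup.comap_comap]; exact h' _ (h _ hH)

lemma cont_subtype (U : Subgroup G) : Cont (𝓛.restrict U) 𝓛 U.subtype := fun H hH =>
  ⟨H, hH, le_rfl⟩

lemma LC.precomp {𝓛' : Levels G'} {f : G' →* G} (hf : Cont 𝓛' 𝓛 f) {X : Type*} {x : G → X}
    (h : 𝓛.LC x) : 𝓛'.LC (fun g => x (f g)) := by
  obtain ⟨H, hH, h⟩ := h
  exact ⟨_, hf H hH, fun g s hs => by
    show x _ = x _
    rw [map_mul]; exact h _ _ hs⟩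

lemma LC₂.precomp {𝓛' : Levels G'} {f : G' →* G} (hf : Cont 𝓛' 𝓛 f) {X : Type*}
    {x : G → G → X} (h : 𝓛.LC₂ x) : 𝓛'.LC₂ (fun g g' => x (f g) (f g')) := by
  obtain ⟨H, hH, h⟩ := h
  exact ⟨_, hf H hH, fun g g' s hs s' hs' => by
    show x _ _ = x _ _
    rw [map_mul, map_mul]; exact h _ _ _ hs _ hs'⟩

end Levels

section Cochains

variable {k : Type*} [CommRing k] {G : Type*} [Group G] (𝓛 : Levels G)
variable {V : Type*} [AddCommGroup V] [Module k V] (ρ : Representation k G V)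

/-- smooth representations -/
def Smooth : Prop := ∀ v : V, ∃ H ∈ 𝓛, ∀ s ∈ H, ρ s v = v

/-- differential on 0-cochains -/
def d0 : V →ₗ[k] (G → V) where
  toFun v g := ρ g v - v
  map_add' v w := by ext g; simp only [map_add, Pi.add_apply]; abel
  map_smul' c v := by ext g; simp only [map_smul, Pi.smul_apply, smul_sub, RingHom.id_apply]

/-- differential on 1-cochains -/
def d1 : (G → V) →ₗ[k] (G → G → V) where
  toFun f g h := ρ g (f h) - f (g * h) + f g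
  map_add' v w := by ext g h; simp only [map_add, Pi.add_apply]; abel
  map_smul' c v := by
    ext g h
    simp only [map_smul, Pi.smul_apply, smul_sub, smul_add, RingHom.id_apply]

@[simp] lemma d0_apply (v : V) (g : G) : d0 ρ v g = ρ g v - v := rfl
@[simp] lemma d1_apply (f : G → V) (g h : G) : d1 ρ f g h = ρ g (f h) - f (g * h) + f g := rfl

lemma d1_d0 (v : V) : d1 ρ (d0 ρ v) = 0 := by
  ext g h
  simp only [d1_apply, d0_apply, map_sub, map_mul, Module.End.mul_apply, Pi.zero_apply]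
  abel

/-- locally constant 1-cochains -/
def C1 : Submodule k (G → V) where
  carrier := {f | 𝓛.LC f}
  add_mem' h h' := h.comp₂ h' (· + ·)
  zero_mem' := Levels.LC.const 0
  smul_mem' c _ h := h.comp (c • ·)

/-- locally constant 2-cochains -/
def C2 : Submodule k (G → G → V) where
  carrier := {f | 𝓛.LC₂ f}
  add_mem' h h' := h.comp₂ h' (· + ·)
  zero_mem' := Levels.LC₂.const 0
  smul_mem' c _ h := h.comp (c • ·)

/-- locally constant 1-cocycles -/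
def Z1 : Submodule k (G → V) where
  carrier := {f | 𝓛.LC f ∧ ∀ g h, f (g * h) = ρ g (f h) + f g}
  add_mem' := by
    rintro a b ⟨h, hc⟩ ⟨h', hc'⟩
    refine ⟨h.comp₂ h' (· + ·), fun g g' => ?_⟩
    simp only [Pi.add_apply, map_add, hc, hc']; abel
  zero_mem' := ⟨Levels.LC.const 0, by simp⟩
  smul_mem' := by
    rintro c a ⟨h, hc⟩
    refine ⟨h.comp (c • ·), fun g g' => ?_⟩
    simp only [Pi.smul_apply, hc, map_smul, smul_add]

/-- locally constant 2-cocycles -/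
def Z2 : Submodule k (G → G → V) where
  carrier := {f | 𝓛.LC₂ f ∧ ∀ g h j, f (g * h) j + f g h = ρ g (f h j) + f g (h * j)}
  add_mem' := by
    rintro a b ⟨h, hc⟩ ⟨h', hc'⟩
    refine ⟨h.comp₂ h' (· + ·), fun g g' g'' => ?_⟩
    have := hc g g' g''
    have := hc' g g' g''
    simp only [Pi.add_apply, map_add]
    calc a (g * g') g'' + b (g * g') g'' + (a g g' + b g g')
        = (a (g * g') g'' + a g g') + (b (g * g') g'' + b g g') := by abel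
      _ = _ := by rw [hc, hc']; abel
  zero_mem' := ⟨Levels.LC₂.const 0, by simp⟩
  smul_mem' := by
    rintro c a ⟨h, hc⟩
    refine ⟨h.comp (c • ·), fun g g' g'' => ?_⟩
    simp only [Pi.smul_apply, map_smul, ← smul_add, hc]

/-- 1-coboundaries -/
def B1 : Submodule k (G → V) := LinearMap.range (d0 ρ)

/-- coboundaries of locally constant 1-cochains -/
def B2 : Submodule k (G → G → V) := (C1 𝓛 (k := k) (V := V)).map (d1 ρ)

variable {𝓛 ρ}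

lemma mem_C1 {f : G → V} : f ∈ C1 𝓛 (k := k) (V := V) ↔ 𝓛.LC f := Iff.rfl
lemma mem_C2 {f : G → G → V} : f ∈ C2 𝓛 (k := k) (V := V) ↔ 𝓛.LC₂ f := Iff.rfl

lemma mem_Z1 {f : G → V} : f ∈ Z1 𝓛 ρ ↔ 𝓛.LC f ∧ ∀ g h, f (g * h) = ρ g (f h) + f g := Iff.rfl

lemma mem_Z2 {f : G → G → V} : f ∈ Z2 𝓛 ρ ↔
    𝓛.LC₂ f ∧ ∀ g h j, f (g * h) j + f g h = ρ g (f h j) + f g (h * j) := Iff.rfl

lemma mem_B1 {f : G → V} : f ∈ B1 ρ ↔ ∃ v, ∀ g, f g = ρ g v - v := by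
  simp only [B1, LinearMap.mem_range]
  exact ⟨fun ⟨v, hv⟩ => ⟨v, fun g => by rw [← hv]; rfl⟩, fun ⟨v, hv⟩ => ⟨v, funext fun g => (hv g).symm⟩⟩

lemma mem_B2 {f : G → G → V} : f ∈ B2 𝓛 ρ ↔ ∃ c, 𝓛.LC c ∧ d1 ρ c = f := by
  simp only [B2, Submodule.mem_map]; rfl

lemma Z1.map_one {f : G → V} (hf : f ∈ Z1 𝓛 ρ) : f 1 = 0 := by
  have := hf.2 1 1
  simpa using this

lemma d1_eq_zero_of_mem_Z1 {f : G → V} (hf : f ∈ Z1 𝓛 ρ) : d1 ρ f = 0 := by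
  ext g h
  simp only [d1_apply, hf.2, Pi.zero_apply]
  abel

lemma mem_Z1_of_d1_eq_zero {f : G → V} (h : 𝓛.LC f) (hf : d1 ρ f = 0) : f ∈ Z1 𝓛 ρ := by
  refine ⟨h, fun g h => ?_⟩
  have := congrFun (congrFun hf g) h
  simp only [d1_apply, Pi.zero_apply] at this
  rw [sub_add_eq_add_sub, sub_eq_zero] at this
  exact this.symm

lemma LC_d0 (hs : Smooth 𝓛 ρ) (v : V) : 𝓛.LC (d0 ρ v) := by
  obtain ⟨H, hH, h⟩ := hs v
  refine ⟨H, hH, fun g s hs => ?_⟩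
  simp [h s hs]

lemma B1_le_Z1 (hs : Smooth 𝓛 ρ) : B1 ρ ≤ Z1 𝓛 ρ := by
  rintro _ ⟨v, rfl⟩
  exact mem_Z1_of_d1_eq_zero (LC_d0 hs v) (d1_d0 ρ v)

/-- smoothness and local constancy: `g ↦ ρ g (f g)` type statements -/
lemma LC_act (hs : Smooth 𝓛 ρ) {f : G → V} (h : 𝓛.LC f) : 𝓛.LC₂ (fun g g' => ρ g (f g')) := by
  classical
  obtain ⟨H, hH, h'⟩ := h
  have hfin := Levels.LC.finite_range ⟨H, hH, h'⟩
  haveI := hfin.to_subtype
  choose K hK hK' using hs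
  have hJ : (⨅ x : Set.range f, K x) ∈ 𝓛 := Levels.iInf_mem fun x => hK x
  refine ⟨H ⊓ ⨅ x : Set.range f, K x, Levels.inf_mem hH hJ, fun g g' s hs s' hs' => ?_⟩
  have h1 : ρ s (f g') = f g' :=
    hK' _ _ ((Subgroup.mem_iInf.1 hs.2) ⟨f g', g', rfl⟩)
  show ρ (g * s) (f (g' * s')) = ρ g (f g')
  rw [h' g' s' hs'.1, map_mul, Module.End.mul_apply, h1]

lemma LC₂_d1 (hs : Smooth 𝓛 ρ) {f : G → V} (h : 𝓛.LC f) : 𝓛.LC₂ (d1 ρ f) := by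
  have h1 := LC_act hs h
  have h2 := h.mul
  have h3 := h.fst
  exact (h1.comp₂ h2 (· - ·)).comp₂ h3 (· + ·)

lemma B2_le_Z2 (hs : Smooth 𝓛 ρ) : B2 𝓛 ρ ≤ Z2 𝓛 ρ := by
  rintro _ ⟨f, hf, rfl⟩
  refine ⟨LC₂_d1 hs hf, fun g h j => ?_⟩
  simp only [d1_apply, map_add, map_sub, map_mul, Module.End.mul_apply, mul_assoc]
  abel

variable (𝓛 ρ)

/-- first cohomology -/
def H1 : Type _ := ↥(Z1 𝓛 ρ) ⧸ (B1 ρ).submoduleOf (Z1 𝓛 ρ)

/-- second cohomology -/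
def H2 : Type _ := ↥(Z2 𝓛 ρ) ⧸ (B2 𝓛 ρ).submoduleOf (Z2 𝓛 ρ)

instance : AddCommGroup (H1 𝓛 ρ) :=
  inferInstanceAs (AddCommGroup (↥(Z1 𝓛 ρ) ⧸ (B1 ρ).submoduleOf (Z1 𝓛 ρ)))
instance : AddCommGroup (H2 𝓛 ρ) :=
  inferInstanceAs (AddCommGroup (↥(Z2 𝓛 ρ) ⧸ (B2 𝓛 ρ).submoduleOf (Z2 𝓛 ρ)))
instance : Module k (H1 𝓛 ρ) :=
  inferInstanceAs (Module k (↥(Z1 𝓛 ρ) ⧸ (B1 ρ).submoduleOf (Z1 𝓛 ρ)))
instance : Module k (H2 𝓛 ρ) :=
  inferInstanceAs (Module k (↥(Z2 𝓛 ρ) ⧸ (B2 𝓛 ρ).submoduleOf (Z2 𝓛 ρ)))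

/-- class of a 1-cocycle -/
def H1.mk : ↥(Z1 𝓛 ρ) →ₗ[k] H1 𝓛 ρ := Submodule.mkQ _

/-- class of a 2-cocycle -/
def H2.mk : ↥(Z2 𝓛 ρ) →ₗ[k] H2 𝓛 ρ := Submodule.mkQ _

lemma H1.mk_surjective : Function.Surjective (H1.mk 𝓛 ρ) :=
  Submodule.mkQ_surjective _

lemma H2.mk_surjective : Function.Surjective (H2.mk 𝓛 ρ) :=
  Submodule.mkQ_surjective _

variable {𝓛 ρ}

lemma H1.mk_eq_zero {f : ↥(Z1 𝓛 ρ)} : H1.mk 𝓛 ρ f = 0 ↔ (f : G → V) ∈ B1 ρ :=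
  Submodule.Quotient.mk_eq_zero _

lemma H2.mk_eq_zero {f : ↥(Z2 𝓛 ρ)} : H2.mk 𝓛 ρ f = 0 ↔ (f : G → G → V) ∈ B2 𝓛 ρ :=
  Submodule.Quotient.mk_eq_zero _

lemma H1.mk_eq_mk {f f' : ↥(Z1 𝓛 ρ)} :
    H1.mk 𝓛 ρ f = H1.mk 𝓛 ρ f' ↔ (f : G → V) - f' ∈ B1 ρ := by
  rw [← sub_eq_zero, ← map_sub, H1.mk_eq_zero]; rfl

lemma H2.mk_eq_mk {f f' : ↥(Z2 𝓛 ρ)} :
    H2.mk 𝓛 ρ f = H2.mk 𝓛 ρ f' ↔ (f : G → G → V) - f' ∈ B2 𝓛 ρ := by
  rw [← sub_eq_zero, ← map_sub, H2.mk_eq_zero]; rfl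

end Cochains

section Functoriality

variable {k : Type*} [CommRing k] {G G' : Type*} [Group G] [Group G']
variable {𝓛 : Levels G} {𝓛' : Levels G'}
variable {V W : Type*} [AddCommGroup V] [Module k V] [AddCommGroup W] [Module k W]
variable {ρ : Representation k G V} {σ : Representation k G' W}

variable (f : G' →* G) (φ : V →ₗ[k] W)

/-- pull-back along `f` and push-forward along `φ` on 1-cochains -/
def pp1 : (G → V) →ₗ[k] (G' → W) where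
  toFun x g := φ (x (f g))
  map_add' x y := by ext; simp
  map_smul' c x := by ext; simp

/-- pull-back along `f` and push-forward along `φ` on 2-cochains -/
def pp2 : (G → G → V) →ₗ[k] (G' → G' → W) where
  toFun x g h := φ (x (f g) (f h))
  map_add' x y := by ext; simp
  map_smul' c x := by ext; simp

@[simp] lemma pp1_apply (x : G → V) (g : G') : pp1 f φ x g = φ (x (f g)) := rfl
@[simp] lemma pp2_apply (x : G → G → V) (g h : G') : pp2 f φ x g h = φ (x (f g) (f h)) := rfl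

/-- compatibility of a pair `(f, φ)` -/
def Compat (ρ : Representation k G V) (σ : Representation k G' W) (f : G' →* G)
    (φ : V →ₗ[k] W) : Prop := ∀ g v, φ (ρ (f g) v) = σ g (φ v)

variable {f φ}

lemma pp1_d0 (hφ : Compat ρ σ f φ) (v : V) : pp1 f φ (d0 ρ v) = d0 σ (φ v) := by
  ext g; simp [hφ g v]

lemma pp2_d1 (hφ : Compat ρ σ f φ) (x : G → V) : pp2 f φ (d1 ρ x) = d1 σ (pp1 f φ x) := by
  ext g h; simp [hφ g]

lemma pp1_mem_C1 (hf : Levels.Cont 𝓛' 𝓛 f) {x : G → V} (hx : 𝓛.LC x) : 𝓛'.LC (pp1 f φ x) :=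
  (hx.precomp hf).comp φ

lemma pp1_mem_Z1 (hf : Levels.Cont 𝓛' 𝓛 f) (hφ : Compat ρ σ f φ) {x : G → V}
    (hx : x ∈ Z1 𝓛 ρ) : pp1 f φ x ∈ Z1 𝓛' σ :=
  ⟨(hx.1.precomp hf).comp φ, fun g h => by simp [hx.2, hφ g]⟩

lemma pp2_mem_Z2 (hf : Levels.Cont 𝓛' 𝓛 f) (hφ : Compat ρ σ f φ) {x : G → G → V}
    (hx : x ∈ Z2 𝓛 ρ) : pp2 f φ x ∈ Z2 𝓛' σ :=
  ⟨(hx.1.precomp hf).comp φ, fun g h j => by
    simp only [pp2_apply, map_mul, ← map_add, hx.2, ← hφ g]⟩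

lemma pp1_mem_B1 (hφ : Compat ρ σ f φ) {x : G → V} (hx : x ∈ B1 ρ) : pp1 f φ x ∈ B1 σ := by
  obtain ⟨v, rfl⟩ := hx
  exact ⟨φ v, (pp1_d0 hφ v).symm⟩

lemma pp2_mem_B2 (hf : Levels.Cont 𝓛' 𝓛 f) (hφ : Compat ρ σ f φ) {x : G → G → V}
    (hx : x ∈ B2 𝓛 ρ) : pp2 f φ x ∈ B2 𝓛' σ := by
  obtain ⟨c, hc, rfl⟩ := hx
  exact ⟨_, pp1_mem_C1 hf hc, (pp2_d1 hφ c).symm⟩

variable (𝓛 𝓛' ρ σ f φ)

/-- map on `H1` induced by a level-continuous `f : G' → G` and compatible `φ : V → W` -/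
def H1.map (hf : Levels.Cont 𝓛' 𝓛 f) (hφ : Compat ρ σ f φ) : H1 𝓛 ρ →ₗ[k] H1 𝓛' σ :=
  Submodule.mapQ _ _ ((pp1 f φ).restrict (p := Z1 𝓛 ρ) (q := Z1 𝓛' σ)
    (fun _ hx => pp1_mem_Z1 hf hφ hx)) (fun _ hx => pp1_mem_B1 hφ hx)

/-- map on `H2` induced by a level-continuous `f : G' → G` and compatible `φ : V → W` -/
def H2.map (hf : Levels.Cont 𝓛' 𝓛 f) (hφ : Compat ρ σ f φ) : H2 𝓛 ρ →ₗ[k] H2 𝓛' σ :=
  Submodule.mapQ _ _ ((pp2 f φ).restrict (p := Z2 𝓛 ρ) (q := Z2 𝓛' σ)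
    (fun _ hx => pp2_mem_Z2 hf hφ hx)) (fun _ hx => pp2_mem_B2 hf hφ hx)

variable {𝓛 𝓛' ρ σ f φ}

@[simp] lemma H1.map_mk (hf : Levels.Cont 𝓛' 𝓛 f) (hφ : Compat ρ σ f φ) (x : ↥(Z1 𝓛 ρ)) :
    H1.map 𝓛 𝓛' ρ σ f φ hf hφ (H1.mk 𝓛 ρ x) = H1.mk 𝓛' σ ⟨pp1 f φ x, pp1_mem_Z1 hf hφ x.2⟩ := rfl

@[simp] lemma H2.map_mk (hf : Levels.Cont 𝓛' 𝓛 f) (hφ : Compat ρ σ f φ) (x : ↥(Z2 𝓛 ρ)) :
    H2.map 𝓛 𝓛' ρ σ f φ hf hφ (H2.mk 𝓛 ρ x) = H2.mk 𝓛' σ ⟨pp2 f φ x, pp2_mem_Z2 hf hφ x.2⟩ := rfl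

end Functoriality

end Fermat.Agent.CFT
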