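import Mathlib
import Fermat.Agent.CFT.Basic
import Fermat.Agent.Frob.Basic
import Fermat.Prelude.Def_GroupCohomology_ContinuousUnramified
import Fermat.Prelude.Def_GaloisRep_CompletionBridge

/-!
# Level structures coming from Galois theory

* `Levels.comap f 𝓛` : pull back of a level structure along a group homomorphism;
* `Levels.ofBasis` : constructor from a basis of subgroups of finite index stable under conjugation;
* `galLevels k Ω` : open subgroups of `Ω ≃ₐ[k] Ω` (`Ω/k` Galois);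
* `sLevels S` : subgroups of `Gal(ℚ̄/ℚ)` containing `Gal(ℚ̄/F)` for `F` unramified outside `S`;
* `locLevels q` : local levels, `(galLevels ℚ ℚ̄).comap (localGaloisToGlobal q)`.
-/

set_option autoImplicit false

open scoped Pointwise

namespace Fermat.Agent.CFT

namespace Levels

variable {G G' : Type*} [Group G] [Group G']

/-- pull back of a level structure along a group homomorphism -/
def comap (f : G' →* G) (𝓛 : Levels G) : Levels G' where
  carrier := {J | ∃ H ∈ 𝓛, H.comap f ≤ J}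
  top_mem' := ⟨⊤, top_mem, le_top⟩
  inf_mem' := by
    rintro J J' ⟨H, hH, h⟩ ⟨H', hH', h'⟩
    refine ⟨H ⊓ H', inf_mem hH hH', ?_⟩
    intro x hx
    exact ⟨h hx.1, h' hx.2⟩
  up_mem' := by
    rintro J J' ⟨H, hH, h⟩ h'
    exact ⟨H, hH, h.trans h'⟩
  finiteIndex' := by
    rintro J ⟨H, hH, h⟩
    have := finiteIndex hH
    have : (H.comap f).FiniteIndex := by
      refine ⟨?_⟩
      rw [Subgroup.index_comap]
      exact (Subgroup.instFiniteIndex_subgroupOf H f.range).index_ne_zero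
    exact Subgroup.finiteIndex_of_le h
  normalCore_mem' := by
    rintro J ⟨H, hH, h⟩
    obtain ⟨N, hN, hNH, hn⟩ := exists_normal hH
    refine ⟨N, hN, ?_⟩
    have : (N.comap f).Normal := inferInstance
    rw [Subgroup.normal_le_normalCore]
    exact le_trans (Subgroup.comap_mono hNH) h

variable {𝓛 : Levels G}

lemma mem_comap {f : G' →* G} {J : Subgroup G'} :
    J ∈ 𝓛.comap f ↔ ∃ H ∈ 𝓛, H.comap f ≤ J := Iff.rfl

lemma restrict_eq_comap (U : Subgroup G) : 𝓛.restrict U = 𝓛.comap U.subtype := rfl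

lemma cont_comap (f : G' →* G) : Cont (𝓛.comap f) 𝓛 f := fun H hH => ⟨H, hH, le_rfl⟩

/-- Universal property of `comap`. -/
lemma cont_comap_iff {G'' : Type*} [Group G''] {𝓛'' : Levels G''} (f : G' →* G) (f' : G'' →* G') :
    Cont 𝓛'' (𝓛.comap f) f' ↔ Cont 𝓛'' 𝓛 (f.comp f') := by
  constructor
  · intro h
    exact (cont_comap f).comp h
  · rintro h J ⟨H, hH, hJ⟩
    exact up_mem (h H hH) (by rw [← Subgroup.comap_comap]; exact Subgroup.comap_mono hJ)

/-- constructor from a conjugation-stable basis -/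
def ofBasis (P : Subgroup G → Prop) (hne : ∃ H, P H)
    (hinf : ∀ H H', P H → P H' → ∃ H'', P H'' ∧ H'' ≤ H ⊓ H')
    (hfi : ∀ H, P H → H.FiniteIndex)
    (hconj : ∀ H (g : G), P H → P (MulAut.conj g • H)) : Levels G where
  carrier := {J | ∃ H, P H ∧ H ≤ J}
  top_mem' := by
    obtain ⟨H, hH⟩ := hne
    exact ⟨H, hH, le_top⟩
  inf_mem' := by
    rintro J J' ⟨H, hH, h⟩ ⟨H', hH', h'⟩
    obtain ⟨H'', h1, h2⟩ := hinf H H' hH hH'
    exact ⟨H'', h1, h2.trans (inf_le_inf h h')⟩
  up_mem' := by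
    rintro J J' ⟨H, hH, h⟩ h'
    exact ⟨H, hH, h.trans h'⟩
  finiteIndex' := by
    rintro J ⟨H, hH, h⟩
    have := hfi H hH
    exact Subgroup.finiteIndex_of_le h
  normalCore_mem' := by
    rintro J ⟨H, hH, h⟩
    have := hfi H hH
    have : Finite (G ⧸ H) := Subgroup.finite_quotient_of_finiteIndex
    -- finite intersections of members of the basis contain members of the basis
    have key : ∀ s : Finset (G ⧸ H), ∃ K, P K ∧ K ≤ ⨅ q ∈ s, MulAut.conj q.out • H := by
      intro s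
      classical
      induction s using Finset.induction_on with
      | empty => exact ⟨H, hH, by simp⟩
      | insert a s ha ih =>
        obtain ⟨K, hK, hle⟩ := ih
        obtain ⟨K', hK', hle'⟩ := hinf _ _ (hconj H a.out hH) hK
        refine ⟨K', hK', hle'.trans ?_⟩
        rw [Finset.iInf_insert]
        exact inf_le_inf le_rfl hle
    have := Fintype.ofFinite (G ⧸ H)
    obtain ⟨K, hK, hle⟩ := key Finset.univ
    refine ⟨K, hK, ?_⟩
    have h3 : K ≤ H.normalCore := by
      refine hle.trans ?_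
      rw [Subgroup.normalCore_eq_iInf_map_conj]
      refine le_iInf fun g => ?_
      refine (iInf₂_le (g : G ⧸ H) (Finset.mem_univ _)).trans ?_
      obtain ⟨s, hs⟩ := QuotientGroup.mk_out_eq_mul H g
      rw [hs]
      rintro x hx
      rw [Subgroup.mem_pointwise_smul_iff_inv_smul_mem] at hx
      rw [Subgroup.mem_map]
      refine ⟨s * ((g * s)⁻¹ * x * (g * s)) * s⁻¹, ?_, ?_⟩
      · refine H.mul_mem (H.mul_mem s.2 ?_) (H.inv_mem s.2)
        have h5 : (MulAut.conj (g * ↑s))⁻¹ • x = (g * ↑s)⁻¹ * x * (g * s) := by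
          rw [← map_inv]; simp [mul_assoc]
        rwa [h5] at hx
      · simp only [MulAut.conj_apply, MonoidHom.coe_coe]
        simp [mul_assoc]
    exact h3.trans (Subgroup.normalCore_mono h)

lemma mem_ofBasis {P : Subgroup G → Prop} {hne hinf hfi hconj} {J : Subgroup G} :
    J ∈ ofBasis P hne hinf hfi hconj ↔ ∃ H, P H ∧ H ≤ J := Iff.rfl

end Levels

section Gal

variable (k Ω : Type*) [Field k] [Field Ω] [Algebra k Ω]

lemma finiteIndex_fixingSubgroup {k Ω : Type*} [Field k] [Field Ω] [Algebra k Ω] [IsGalois k Ω]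
    (F : IntermediateField k Ω) [FiniteDimensional k F] :
    F.fixingSubgroup.FiniteIndex := by
  refine ⟨?_⟩
  rw [← IntermediateField.finrank_eq_fixingSubgroup_index]
  exact Module.finrank_pos.ne'

/-- Open subgroups of the Galois group of a Galois extension. -/
def galLevels [IsGalois k Ω] : Levels (Ω ≃ₐ[k] Ω) :=
  Levels.ofBasis (fun H => ∃ F : IntermediateField k Ω, FiniteDimensional k F ∧ H = F.fixingSubgroup)
    ⟨_, ⊥, inferInstance, rfl⟩
    (by
      rintro _ _ ⟨F, hF, rfl⟩ ⟨F', hF', rfl⟩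
      exact ⟨_, ⟨F ⊔ F', IntermediateField.finiteDimensional_sup F F', rfl⟩,
        (IntermediateField.fixingSubgroup_sup (K := F) (L := F')).le⟩)
    (by
      rintro _ ⟨F, hF, rfl⟩
      exact finiteIndex_fixingSubgroup F)
    (by
      rintro _ g ⟨F, hF, rfl⟩
      refine ⟨F.map g.toAlgHom, ?_, (IsGalois.map_fixingSubgroup _ g).symm⟩
      exact LinearEquiv.finiteDimensional (F.equivMap g.toAlgHom).toLinearEquiv)

variable {k Ω}

lemma mem_galLevels [IsGalois k Ω] {H : Subgroup (Ω ≃ₐ[k] Ω)} :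
    H ∈ galLevels k Ω ↔ ∃ F : IntermediateField k Ω, FiniteDimensional k F ∧
      F.fixingSubgroup ≤ H := by
  constructor
  · rintro ⟨_, ⟨F, hF, rfl⟩, h⟩
    exact ⟨F, hF, h⟩
  · rintro ⟨F, hF, h⟩
    exact ⟨_, ⟨F, hF, rfl⟩, h⟩

lemma fixingSubgroup_mem_galLevels [IsGalois k Ω] (F : IntermediateField k Ω)
    [FiniteDimensional k F] : F.fixingSubgroup ∈ galLevels k Ω :=
  mem_galLevels.2 ⟨F, inferInstance, le_rfl⟩

lemma mem_galLevels_iff_isOpen [IsGalois k Ω] {H : Subgroup (Ω ≃ₐ[k] Ω)} :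
    H ∈ galLevels k Ω ↔ IsOpen (H : Set (Ω ≃ₐ[k] Ω)) := by
  rw [mem_galLevels]
  constructor
  · rintro ⟨F, hF, h⟩
    exact Subgroup.isOpen_mono h F.fixingSubgroup_isOpen
  · intro h
    obtain ⟨F, hF, h⟩ := (krullTopology_mem_nhds_one_iff k Ω _).1 (h.mem_nhds H.one_mem)
    exact ⟨F, hF, h⟩

/-- every element is fixed by a level -/
lemma exists_level_smul_eq [IsGalois k Ω] (x : Ω) :
    ∃ H ∈ galLevels k Ω, ∀ g ∈ H, g x = x := by
  have : FiniteDimensional k (IntermediateField.adjoin k {x}) :=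
    IntermediateField.adjoin.finiteDimensional (Algebra.IsIntegral.isIntegral x)
  refine ⟨(IntermediateField.adjoin k {x}).fixingSubgroup, fixingSubgroup_mem_galLevels _,
    fun g hg => ?_⟩
  exact (IntermediateField.mem_fixingSubgroup_iff _ _).1 hg x
    (IntermediateField.mem_adjoin_simple_self k x)

end Gal

section GlobalLevels

open Fermat.Agent.Frob

/-- local abbreviation for the algebraic closure of `ℚ` -/
local notation "Qb" => AlgebraicClosure ℚ

/-- subgroups containing `Gal(ℚ̄/F)` for some number field `F` unramified outside `S` -/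
noncomputable def sLevels (S : Finset Nat.Primes) : Levels (Qb ≃ₐ[ℚ] Qb) :=
  Levels.ofBasis (fun H => ∃ F : IntermediateField ℚ Qb, F.IsUnramifiedOutside S ∧
      H = F.fixingSubgroup)
    ⟨_, ⊥, IntermediateField.isUnramifiedOutside_bot S, rfl⟩
    (by
      rintro _ _ ⟨F, hF, rfl⟩ ⟨F', hF', rfl⟩
      exact ⟨_, ⟨F ⊔ F', hF.sup hF', rfl⟩,
        (IntermediateField.fixingSubgroup_sup (K := F) (L := F')).le⟩)
    (by
      rintro _ ⟨F, hF, rfl⟩
      have := hF.1
      exact finiteIndex_fixingSubgroup F)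
    (by
      rintro _ g ⟨F, hF, rfl⟩
      refine ⟨F.map g.toAlgHom, ⟨?_, ?_⟩, (IsGalois.map_fixingSubgroup _ g).symm⟩
      · have := hF.1
        exact LinearEquiv.finiteDimensional (F.equivMap g.toAlgHom).toLinearEquiv
      · intro q hq A hA σ hσ
        rw [IsGalois.map_fixingSubgroup, Subgroup.mem_pointwise_smul_iff_inv_smul_mem]
        have h1 : (g⁻¹ • A).LiesOverPrime (q : ℕ) := liesOverPrime_smul hA _
        refine hF.2 q hq (g⁻¹ • A) h1 ?_
        rw [mem_inertiaSubgroupIn_smul_iff]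
        have h5 : g⁻¹⁻¹ * ((MulAut.conj g)⁻¹ • σ) * g⁻¹ = σ := by
          rw [← map_inv, MulAut.smul_def, MulAut.conj_apply]; group
        rwa [h5])

lemma mem_sLevels {S : Finset Nat.Primes} {H : Subgroup (Qb ≃ₐ[ℚ] Qb)} :
    H ∈ sLevels S ↔ ∃ F : IntermediateField ℚ Qb, F.IsUnramifiedOutside S ∧
      F.fixingSubgroup ≤ H := by
  constructor
  · rintro ⟨_, ⟨F, hF, rfl⟩, h⟩
    exact ⟨F, hF, h⟩
  · rintro ⟨F, hF, h⟩
    exact ⟨_, ⟨F, hF, rfl⟩, h⟩

lemma sLevels_le_galLevels {S : Finset Nat.Primes} {H : Subgroup (Qb ≃ₐ[ℚ] Qb)}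
    (h : H ∈ sLevels S) : H ∈ galLevels ℚ Qb := by
  obtain ⟨F, hF, h⟩ := mem_sLevels.1 h
  exact mem_galLevels.2 ⟨F, hF.1, h⟩

lemma sLevels_mono {S S' : Finset Nat.Primes} (hS : S ⊆ S') {H : Subgroup (Qb ≃ₐ[ℚ] Qb)}
    (h : H ∈ sLevels S) : H ∈ sLevels S' := by
  obtain ⟨F, hF, h⟩ := mem_sLevels.1 h
  exact mem_sLevels.2 ⟨F, hF.mono hS, h⟩

lemma inertia_le_of_mem_sLevels {S : Finset Nat.Primes} {H : Subgroup (Qb ≃ₐ[ℚ] Qb)}
    (h : H ∈ sLevels S) {q : Nat.Primes} (hq : q ∉ S) {A : ValuationSubring Qb}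
    (hA : A.LiesOverPrime (q : ℕ)) : A.inertiaSubgroupIn ℚ ≤ H := by
  obtain ⟨F, hF, h⟩ := mem_sLevels.1 h
  exact (hF.2 q hq A hA).trans h

/-- A subgroup is an `S`-level iff it is open and contains all inertia groups outside `S`. -/
lemma mem_sLevels_iff {S : Finset Nat.Primes} {H : Subgroup (Qb ≃ₐ[ℚ] Qb)} :
    H ∈ sLevels S ↔ H ∈ galLevels ℚ Qb ∧ ∀ q : Nat.Primes, q ∉ S → ∀ A : ValuationSubring Qb,
      A.LiesOverPrime (q : ℕ) → A.inertiaSubgroupIn ℚ ≤ H := by
  constructor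
  · intro h
    exact ⟨sLevels_le_galLevels h, fun q hq A hA => inertia_le_of_mem_sLevels h hq hA⟩
  · rintro ⟨h, h'⟩
    rw [mem_galLevels_iff_isOpen] at h
    have hcl : IsClosed (H : Set (Qb ≃ₐ[ℚ] Qb)) := Subgroup.isClosed_of_isOpen H h
    let F := IntermediateField.fixedField H
    have hF : F.fixingSubgroup = H :=
      InfiniteGalois.fixingSubgroup_fixedField ⟨H, hcl⟩
    have hfd : FiniteDimensional ℚ F := by
      rw [← InfiniteGalois.isOpen_iff_finite, hF]
      exact h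
    exact mem_sLevels.2 ⟨F, ⟨hfd, fun q hq A hA => by rw [hF]; exact h' q hq A hA⟩, hF.le⟩

/-- Local levels on the absolute Galois group of `ℚ_q`. -/
noncomputable def locLevels (q : ℕ) [Fact q.Prime] :
    Levels (PadicAlgCl q ≃ₐ[ℚ_[q]] PadicAlgCl q) :=
  (galLevels ℚ Qb).comap (localGaloisToGlobal q)

end GlobalLevels

end Fermat.Agent.CFT
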