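import Fermat.Agent.CFT.Cor
import Fermat.Agent.CFT.GalLevels

/-!
# The absolute Galois group acts as in `IsGal`; norms as products over cosets
-/

set_option autoImplicit false

open scoped Pointwise

namespace Fermat.Agent.CFT

section Inst

variable {k Ω : Type*} [Field k] [Field Ω] [Algebra k Ω] [IsGalois k Ω]

theorem isGal_galLevels : IsGal (galLevels k Ω) Ω where
  smooth x := by
    obtain ⟨H, hH, h⟩ := exists_level_smul_eq (k := k) x
    exact Levels.up_mem hH fun g hg => h g hg
  sep := by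
    intro U hU
    obtain ⟨F, hF, hFU⟩ := mem_galLevels.1 hU
    let b := Module.finBasis k F
    refine ⟨Set.range fun i => (b i : Ω), Set.finite_range _, fun g hg => hFU ?_⟩
    rw [IntermediateField.mem_fixingSubgroup_iff]
    intro x hx
    have h1 : (⟨x, hx⟩ : F) = ∑ i, b.repr ⟨x, hx⟩ i • b i := (b.sum_repr _).symm
    have h2 : x = ∑ i, b.repr ⟨x, hx⟩ i • (b i : Ω) := by
      have := congrArg (algebraMap F Ω) h1
      rw [map_sum] at this
      exact this
    rw [h2, map_sum]
    refine Finset.sum_congr rfl fun i _ => ?_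
    rw [map_smul]
    congr 1
    exact hg _ ⟨i, rfl⟩

end Inst

section CyclicNorm

variable {G : Type*} [Group G] {Ω : Type*} [Field Ω] [MulSemiringAction G Ω] {p : ℕ} [NeZero p]

/-- the product over powers of `σ` equals the product over cosets of the kernel -/
theorem prod_pow_smul_eq_prod_coset {κ : G → ZMod p} (hκm : ∀ g h, κ (g * h) = κ g + κ h)
    {H : Subgroup G} (hκH : ∀ g, g ∈ H ↔ κ g = 0) {σ : G} (hσ : κ σ = 1)
    [Fintype (G ⧸ H)] {a : Ω} (ha : ∀ g ∈ H, g • a = a) :
    ∏ i ∈ Finset.range p, σ ^ i • a = ∏ c : G ⧸ H, c.out • a := by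
  have hone : κ 1 = 0 := by simpa using hκm 1 1
  have hpow : ∀ i : ℕ, κ (σ ^ i) = i := by
    intro i
    induction i with
    | zero => simpa using hone
    | succ i ih => rw [pow_succ, hκm, ih, hσ]; push_cast; rfl
  have hinv : ∀ g, κ g⁻¹ = - κ g := by
    intro g
    have := hκm g g⁻¹
    rw [mul_inv_cancel, hone] at this
    exact (neg_eq_of_add_eq_zero_right this.symm).symm
  have hsm : ∀ g g' : G, (g : G ⧸ H) = g' → g • a = g' • a := by
    intro g g' h
    rw [QuotientGroup.eq] at h
    have := ha _ h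
    rw [mul_smul, inv_smul_eq_iff] at this
    exact this.symm
  refine Finset.prod_bij (fun i _ => ((σ ^ i : G) : G ⧸ H)) (fun _ _ => Finset.mem_univ _)
    ?_ ?_ ?_
  · intro i hi j hj hij
    rw [QuotientGroup.eq, hκH, hκm, hinv, hpow, hpow, neg_add_eq_zero,
      ZMod.natCast_eq_natCast_iff', Nat.mod_eq_of_lt (Finset.mem_range.1 hi),
      Nat.mod_eq_of_lt (Finset.mem_range.1 hj)] at hij
    exact hij
  · intro c _
    refine ⟨(κ c.out).val, Finset.mem_range.2 (ZMod.val_lt _), ?_⟩
    conv_rhs => rw [← QuotientGroup.out_eq' c]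
    rw [QuotientGroup.eq, hκH, hκm, hinv, hpow]
    simp
  · intro i _
    apply hsm
    rw [QuotientGroup.out_eq']

end CyclicNorm

section Norm

variable {K Ω : Type*} [Field K] [Field Ω] [Algebra K Ω] [Normal K Ω]

/-- cosets of `Gal(Ω/M)` in `Gal(Ω/K)` are the `K`-embeddings of `M` in `Ω` -/
noncomputable def cosetEquivEmb (M : IntermediateField K Ω) :
    ((Ω ≃ₐ[K] Ω) ⧸ M.fixingSubgroup) ≃ (M →ₐ[K] Ω) := by
  refine Equiv.ofBijective (Quotient.lift (fun g : Ω ≃ₐ[K] Ω => (g : Ω →ₐ[K] Ω).comp M.val) ?_)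
    ⟨?_, ?_⟩
  · intro g g' h
    have h1 : g⁻¹ * g' ∈ M.fixingSubgroup := QuotientGroup.leftRel_apply.1 h
    rw [IntermediateField.mem_fixingSubgroup_iff] at h1
    ext x
    have := congrArg g (h1 x x.2)
    simpa using this.symm
  · intro c c' h
    induction c using QuotientGroup.induction_on with | _ g => ?_
    induction c' using QuotientGroup.induction_on with | _ g' => ?_
    rw [QuotientGroup.eq, IntermediateField.mem_fixingSubgroup_iff]
    intro x hx
    have h1 : g x = g' x := DFunLike.congr_fun h (⟨x, hx⟩ : M)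
    show g.symm (g' x) = x
    rw [← h1]; simp
  · intro f
    refine ⟨QuotientGroup.mk (AlgEquiv.ofBijective (f.liftNormal Ω)
      (AlgHom.normal_bijective K Ω Ω _)), ?_⟩
    ext x
    exact f.liftNormal_commutes Ω x

@[simp] lemma cosetEquivEmb_mk (M : IntermediateField K Ω) (g : Ω ≃ₐ[K] Ω) (x : M) :
    cosetEquivEmb M (QuotientGroup.mk g) x = g x := rfl

/-- the norm of `M / K` is the product over cosets -/
theorem prod_out_smul_eq_norm [IsAlgClosed Ω] (M : IntermediateField K Ω) [FiniteDimensional K M]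
    [Algebra.IsSeparable K M] [Fintype ((Ω ≃ₐ[K] Ω) ⧸ M.fixingSubgroup)] (z : M) :
    ∏ c : (Ω ≃ₐ[K] Ω) ⧸ M.fixingSubgroup, c.out • (z : Ω) =
      algebraMap K Ω (Algebra.norm K z) := by
  rw [Algebra.norm_eq_prod_embeddings (K := K) (L := M) (E := Ω) z]
  refine Fintype.prod_equiv (cosetEquivEmb M) _ _ (fun c => ?_)
  conv_rhs => rw [← QuotientGroup.out_eq' c]
  rfl

end Norm

end Fermat.Agent.CFT
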