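import Fermat.Agent.CFT.Duality
import Fermat.Agent.CFT.Loc.LocLevels
import Fermat.Agent.LocalF.H2Local
import Fermat.Agent.CycChar.Basic

/-!
# Local Euler characteristic data

`loc_ecg`: the local Galois group of `ℚ_l` satisfies `ECG`.
-/

set_option autoImplicit false

open Module ExtCitation Fermat.Agent.LocalF

namespace Fermat.Agent.CFT

section Trivial

variable {p : ℕ} [Fact p.Prime] {G : Type*} [Group G] {𝓛 : Levels G}

lemma B1_triv : B1 (triv p G) = ⊥ := by
  rw [eq_bot_iff]
  rintro _ ⟨v, rfl⟩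
  rw [Submodule.mem_bot]
  ext g
  simp

/-- `H¹ = Hom` for the trivial module -/
noncomputable def H1_triv_equiv : H1 𝓛 (triv p G) ≃ₗ[ZMod p] Z1 𝓛 (triv p G) :=
  Submodule.quotEquivOfEqBot _ (by
    rw [eq_bot_iff]
    rintro x hx
    rw [Submodule.mem_bot]
    apply Subtype.ext
    have h1 : (x : G → ZMod p) ∈ B1 (triv p G) := hx
    rw [B1_triv, Submodule.mem_bot] at h1
    exact h1)

lemma invariants_triv : (triv p G).invariants = ⊤ := by
  rw [eq_top_iff]
  intro v _ g
  rfl

lemma finrank_invariants_triv : finrank (ZMod p) (triv p G).invariants = 1 := by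
  rw [invariants_triv, finrank_top, finrank_self]

end Trivial

section Local

variable (p : ℕ) [Fact p.Prime]

lemma exists_zeta : ∃ ζ : AlgebraicClosure ℚ, IsPrimitiveRoot ζ p := by
  have : NeZero p := ⟨(Fact.out : p.Prime).ne_zero⟩
  exact HasEnoughRootsOfUnity.exists_primitiveRoot (AlgebraicClosure ℚ) p

variable {p}

lemma mem_ker_cycloChar {ζ : AlgebraicClosure ℚ} (hζ : IsPrimitiveRoot ζ p)
    {σ : AlgebraicClosure ℚ ≃ₐ[ℚ] AlgebraicClosure ℚ} : σ ∈ (cycloChar p).ker ↔ σ ζ = ζ := by
  have hp := (Fact.out : p.Prime)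
  rw [MonoidHom.mem_ker]
  constructor
  · intro h
    rw [CycChar.apply_eq_pow_cycloChar p σ hζ.pow_eq_one, h, Units.val_one,
      ZMod.val_one'' hp.one_lt.ne', pow_one]
  · intro h
    ext
    rw [CycChar.cycloChar_eq_of_forall p (a := 1), Nat.cast_one, Units.val_one]
    intro ζ' hζ'
    obtain ⟨i, -, rfl⟩ := hζ.eq_pow_of_pow_eq_one hζ'
    rw [map_pow, h, pow_one]

variable (l : ℕ) [Fact l.Prime]

lemma mem_ker_locChar {ζ : AlgebraicClosure ℚ} (hζ : IsPrimitiveRoot ζ p)
    {τ : PadicAlgCl l ≃ₐ[ℚ_[l]] PadicAlgCl l} :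
    τ ∈ ((cycloChar p).comp (localGaloisToGlobal l)).ker ↔
      τ (padicEmbedding l ζ) = padicEmbedding l ζ := by
  rw [MonoidHom.mem_ker, MonoidHom.comp_apply, ← MonoidHom.mem_ker, mem_ker_cycloChar hζ,
    ← padicEmbedding_localGaloisToGlobal]
  exact (padicEmbedding l).injective.eq_iff.symm

lemma isPrimitiveRoot_padicEmbedding {ζ : AlgebraicClosure ℚ} (hζ : IsPrimitiveRoot ζ p) :
    IsPrimitiveRoot (padicEmbedding l ζ) p :=
  hζ.map_of_injective (padicEmbedding l).injective

lemma ker_locChar_mem :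
    ((cycloChar p).comp (localGaloisToGlobal l)).ker ∈ locLevels l := by
  obtain ⟨ζ, hζ⟩ := exists_zeta p
  obtain ⟨H, hH, h⟩ := exists_level_smul_eq (k := ℚ_[l]) (padicEmbedding l ζ)
  rw [Loc.locLevels_eq]
  exact Levels.up_mem hH fun g hg => (mem_ker_locChar l hζ).2 (h g hg)

lemma index_ker_not_dvd {G : Type*} [Group G] (χ : G →* (ZMod p)ˣ) : ¬ p ∣ χ.ker.index := by
  have hp := (Fact.out : p.Prime)
  rw [Subgroup.index_ker]
  intro h
  have h1 := Subgroup.card_subgroup_dvd_card χ.range
  rw [Nat.card_eq_fintype_card (α := (ZMod p)ˣ), ZMod.card_units] at h1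
  have h2 := Nat.le_of_dvd (by have := hp.two_le; omega) (h.trans h1)
  have := hp.two_le
  omega

variable {l}

section W

variable {W : Subgroup (PadicAlgCl l ≃ₐ[ℚ_[l]] PadicAlgCl l)}
  (hW : W ∈ locLevels l) (hle : W ≤ ((cycloChar p).comp (localGaloisToGlobal l)).ker)

include hW in
lemma locGal_restrict : LocGal l ((locLevels l).restrict W) (PadicAlgCl l) := by
  rw [Loc.locLevels_eq] at hW ⊢
  exact locGal_of_mem hW

include hle in
lemma smul_zeta_eq {ζ : AlgebraicClosure ℚ} (hζ : IsPrimitiveRoot ζ p) (g : W) :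
    g • (padicEmbedding l ζ) = padicEmbedding l ζ := (mem_ker_locChar l hζ).1 (hle g.2)

include hW hle in
/-- `H²(W, ℤ/p)` is one-dimensional -/
theorem finrank_H2_loc :
    finrank (ZMod p) (H2 ((locLevels l).restrict W) (triv p W)) = 1 := by
  obtain ⟨ζ, hζ⟩ := exists_zeta p
  exact (locGal_restrict hW).finrank_H2 (isPrimitiveRoot_padicEmbedding l hζ)
    (smul_zeta_eq hle hζ) (hdiv_padic (Fact.out : p.Prime).ne_zero)

include hW hle in
theorem finrank_Z1_loc :
    finrank (ZMod p) (Z1 ((locLevels l).restrict W) (triv p W)) =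
      2 + (if l = p then W.index else 0) := by
  obtain ⟨ζ, hζ⟩ := exists_zeta p
  have hW' := hW
  rw [Loc.locLevels_eq] at hW'
  have hfd := finiteDimensional_fixedField hW'
  have h1 := (locGal_restrict hW).finrank_Z1 (isPrimitiveRoot_padicEmbedding l hζ)
    (smul_zeta_eq hle hζ) (hdiv_padic (Fact.out : p.Prime).ne_zero)
    (K := IntermediateField.fixedField W) (fun x => Iff.rfl)
  rw [h1, IntermediateField.finrank_eq_fixingSubgroup_index, fixingSubgroup_fixedField' hW']
  simp only [eq_comm (a := p)]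

end W

/-- **Local Euler characteristic data** -/
theorem loc_ecg : ECG p (locLevels l) ((cycloChar p).comp (localGaloisToGlobal l)).ker
    (if l = p then (-1 : ℚ) else 0) where
  mem := ker_locChar_mem l
  normal := inferInstance
  index := index_ker_not_dvd _
  fin W hW hle := by
    obtain ⟨ζ, hζ⟩ := exists_zeta p
    have h1 : Finite (Z1 ((locLevels l).restrict W) (triv p W)) :=
      (locGal_restrict hW).finite_Z1 (isPrimitiveRoot_padicEmbedding l hζ)
        (smul_zeta_eq hle hζ) (hdiv_padic (Fact.out : p.Prime).ne_zero)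
    have h2 : FiniteDimensional (ZMod p) (Z1 ((locLevels l).restrict W) (triv p W)) :=
      Module.Finite.of_finite
    have h3 : FiniteDimensional (ZMod p) (triv p W).invariants :=
      Module.finite_of_finrank_eq_succ finrank_invariants_triv
    exact ⟨h3, Module.Finite.equiv H1_triv_equiv.symm,
      Module.finite_of_finrank_eq_succ (finrank_H2_loc hW hle)⟩
  chi W hW hle := by
    have h1 : finrank (ZMod p) (H1 ((locLevels l).restrict W) (triv p W)) =
        2 + (if l = p then W.index else 0) := by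
      rw [← finrank_Z1_loc hW hle]; exact H1_triv_equiv.finrank_eq
    rw [chi2, h1, finrank_H2_loc hW hle, finrank_invariants_triv]
    split_ifs <;> push_cast <;> ring

/-- `H²(N, ℤ/p)` has dimension `1` for small levels `N`. -/
theorem loc_h2_eq {N : Subgroup (PadicAlgCl l ≃ₐ[ℚ_[l]] PadicAlgCl l)} (hN : N ∈ locLevels l)
    (hle : N ≤ ((cycloChar p).comp (localGaloisToGlobal l)).ker) :
    finrank (ZMod p) (H2 ((locLevels l).restrict N)
      (Representation.trivial (ZMod p) N (ZMod p))) = 1 := finrank_H2_loc hN hle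

theorem loc_h2_le {N : Subgroup (PadicAlgCl l ≃ₐ[ℚ_[l]] PadicAlgCl l)} (hN : N ∈ locLevels l)
    (hle : N ≤ ((cycloChar p).comp (localGaloisToGlobal l)).ker) :
    finrank (ZMod p) (H2 ((locLevels l).restrict N)
      (Representation.trivial (ZMod p) N (ZMod p))) ≤ 1 := (loc_h2_eq hN hle).le

end Local

end Fermat.Agent.CFT
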