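import Fermat.Agent.CFT.GalInst
import Fermat.Agent.Frob.Places

/-!
# Tame inertia and Kummer characters

`A` is a place of `ℚ̄` above a prime `q ≠ p`.
-/

set_option autoImplicit false

open scoped Pointwise

namespace Fermat.Agent.CFT

open Fermat.Agent.Frob

local notation "Qb" => AlgebraicClosure ℚ

/-- the property that `q` is a uniformizer of the field fixed by the inertia group at `A` -/
def InertUnif (A : ValuationSubring Qb) (q : ℕ) : Prop :=
  ∀ y : Qb, y ≠ 0 → (∀ τ ∈ A.inertiaSubgroupIn ℚ, τ y = y) →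
    ∃ n : ℤ, A.valuation (y * (q : Qb) ^ (-n)) = 1

variable {A : ValuationSubring Qb} {q : ℕ} {p : ℕ}

lemma eq_one_of_pow_eq_one_val {Γ₀ : Type*} [LinearOrderedCommGroupWithZero Γ₀] {x : Γ₀} {m : ℕ}
    (hm : m ≠ 0) (h : x ^ m = 1) : x = 1 := by
  rcases lt_trichotomy x 1 with h1 | h1 | h1
  · exact absurd h (pow_lt_one₀ zero_le h1 hm).ne
  · exact h1
  · exact absurd h (one_lt_pow₀ h1 hm).ne'

lemma valuation_lt_one_of_inertia {τ : Qb ≃ₐ[ℚ] Qb} (hτ : τ ∈ A.inertiaSubgroupIn ℚ) {x : Qb}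
    (hx : x ∈ A) : A.valuation (τ x - x) < 1 :=
  (ValuationSubring.mem_nonunits_iff _).1 (((mem_inertiaSubgroupIn_iff A τ).1 hτ).2 x hx)

/-- the residue characteristic does not divide `m`: then `m` is a unit -/
lemma valuation_natCast_eq_one (hq : q.Prime) (hA : A.LiesOverPrime q) {m : ℕ} (hm : ¬ q ∣ m) :
    A.valuation (m : Qb) = 1 := by
  have h1 := natCast_notMem_nonunits A hq hA (a := (m : ℤ)) (by exact_mod_cast hm)
  refine valuation_eq_one_of_notMem_nonunits ?_ (by exact_mod_cast h1)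
  exact natCast_mem A.toSubring m

/-- a root of unity of order prime to `q`, congruent to `1`, is `1` -/
lemma eq_one_of_pow_eq_one (hq : q.Prime) (hA : A.LiesOverPrime q) {m : ℕ} (hm : ¬ q ∣ m)
    {η : Qb} (hη : η ^ m = 1) (h1 : A.valuation (η - 1) < 1) : η = 1 := by
  have hm0 : m ≠ 0 := by rintro rfl; exact hm (dvd_zero q)
  have hval : A.valuation η = 1 := by
    have h2 : A.valuation η ^ m = 1 := by rw [← map_pow, hη, map_one]
    exact eq_one_of_pow_eq_one_val hm0 h2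
  have hηA : η ∈ A := (A.valuation_le_one_iff _).1 hval.le
  have hsum : ∀ n : ℕ, A.valuation (∑ i ∈ Finset.range n, η ^ i - n) < 1 := by
    have hpow : ∀ i : ℕ, A.valuation (η ^ i - 1) < 1 := by
      intro i
      have h3 : η ^ i - 1 = (η - 1) * ∑ j ∈ Finset.range i, η ^ j := by
        rw [mul_comm, geom_sum_mul]
      rw [h3, map_mul]
      have h4 : A.valuation (∑ j ∈ Finset.range i, η ^ j) ≤ 1 :=
        (A.valuation_le_one_iff _).2 (A.toSubring.sum_mem fun j _ => A.toSubring.pow_mem hηA j)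
      exact mul_lt_one_of_lt_of_le h1 h4
    intro n
    induction n with
    | zero => simp
    | succ n ih =>
      have e : ∑ i ∈ Finset.range (n + 1), η ^ i - ((n + 1 : ℕ) : Qb) =
          (∑ i ∈ Finset.range n, η ^ i - n) + (η ^ n - 1) := by
        rw [Finset.sum_range_succ]; push_cast; ring
      rw [e]
      exact lt_of_le_of_lt (A.valuation.map_add _ _) (max_lt ih (hpow n))
  by_contra hne
  have h5 : ∑ i ∈ Finset.range m, η ^ i = 0 := by
    have := geom_sum_mul η m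
    rw [hη, sub_self] at this
    rcases mul_eq_zero.1 this with h | h
    · exact h
    · exact absurd (sub_eq_zero.1 h) hne
  have h6 := hsum m
  rw [h5, zero_sub, Valuation.map_neg, valuation_natCast_eq_one hq hA hm] at h6
  exact lt_irrefl _ h6

/-- tame inertia acts trivially on units whose power (of order prime to `q`) is fixed -/
lemma inertia_apply_eq_of_unit (hq : q.Prime) (hA : A.LiesOverPrime q) {m : ℕ} (hm : ¬ q ∣ m)
    {τ : Qb ≃ₐ[ℚ] Qb} (hτ : τ ∈ A.inertiaSubgroupIn ℚ) {u : Qb} (hu : A.valuation u = 1)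
    (hum : τ (u ^ m) = u ^ m) : τ u = u := by
  have hu0 : u ≠ 0 := by rintro rfl; simp at hu
  have huA : u ∈ A := (A.valuation_le_one_iff _).1 hu.le
  have h1 : A.valuation (τ u / u - 1) < 1 := by
    have e : τ u / u - 1 = (τ u - u) / u := by field_simp
    rw [e, map_div₀, hu, div_one]
    exact valuation_lt_one_of_inertia hτ huA
  have h2 : (τ u / u) ^ m = 1 := by
    rw [div_pow, ← map_pow, hum, div_self (pow_ne_zero _ hu0)]
  have h3 := eq_one_of_pow_eq_one hq hA hm h2 h1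
  rwa [div_eq_one_iff_eq hu0] at h3

/-- roots of unity of order prime to `q` are fixed by inertia -/
lemma inertia_apply_rootOfUnity (hq : q.Prime) (hA : A.LiesOverPrime q) {m : ℕ} (hm : ¬ q ∣ m)
    {τ : Qb ≃ₐ[ℚ] Qb} (hτ : τ ∈ A.inertiaSubgroupIn ℚ) {ζ : Qb} (hζ : ζ ^ m = 1) : τ ζ = ζ := by
  have hm0 : m ≠ 0 := by rintro rfl; exact hm (dvd_zero q)
  refine inertia_apply_eq_of_unit hq hA hm hτ ?_ (by rw [hζ, map_one])
  have h2 : A.valuation ζ ^ m = 1 := by rw [← map_pow, hζ, map_one]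
  exact eq_one_of_pow_eq_one_val hm0 h2

section Kummer

variable [Fact p.Prime] {ζ : Qb} (hζ : IsPrimitiveRoot ζ p)

lemma not_dvd_of_ne (hq : q.Prime) (hqp : q ≠ p) : ¬ q ∣ p := fun h =>
  hqp ((Nat.prime_dvd_prime_iff_eq hq Fact.out).1 h)

include hζ in
/-- the Kummer character of an inertia-fixed element is a multiple of the one of `q` -/
theorem kummer_inertia_eq (hq : q.Prime) (hA : A.LiesOverPrime q) (hqp : q ≠ p)
    {Q : Qb} (hQ : Q ^ p = q) {y : Qb} (hy : y ≠ 0) {n : ℤ}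
    (hn : A.valuation (y ^ p * (q : Qb) ^ (-n)) = 1)
    {τ : Qb ≃ₐ[ℚ] Qb} (hτ : τ ∈ A.inertiaSubgroupIn ℚ) (hfix : τ (y ^ p) = y ^ p) :
    kummer p ζ y τ = (n : ZMod p) * kummer p ζ Q τ := by
  have hp0 : p ≠ 0 := (Fact.out : p.Prime).ne_zero
  have : NeZero p := ⟨hp0⟩
  have hq0 : (q : Qb) ≠ 0 := by exact_mod_cast hq.ne_zero
  have hQ0 : Q ≠ 0 := by
    rintro rfl
    rw [zero_pow hp0] at hQ
    exact hq0 hQ.symm
  have hτq : τ (q : Qb) = q := map_natCast τ q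
  have hτζ : τ ζ = ζ := inertia_apply_rootOfUnity hq hA (not_dvd_of_ne hq hqp) hτ hζ.pow_eq_one
  -- `u = y Q^{-n}`
  have hu1 : (y * Q ^ (-n)) ^ p = y ^ p * (q : Qb) ^ (-n) := by
    rw [mul_pow, ← hQ, ← zpow_natCast (Q ^ (-n)), ← zpow_natCast Q p, ← zpow_mul, ← zpow_mul,
      mul_comm (-n)]
  have huv : A.valuation (y * Q ^ (-n)) = 1 := by
    have h2 : A.valuation (y * Q ^ (-n)) ^ p = 1 := by rw [← map_pow, hu1, hn]
    exact eq_one_of_pow_eq_one_val hp0 h2
  have hufix : τ (y * Q ^ (-n)) = y * Q ^ (-n) := by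
    refine inertia_apply_eq_of_unit hq hA (not_dvd_of_ne hq hqp) hτ huv ?_
    rw [hu1, map_mul, hfix, map_zpow₀, hτq]
  have hQfix : τ • Q ^ p = Q ^ p := by rw [hQ]; exact hτq
  have hspec := kummer_spec hζ hQ0 hQfix
  have h1 : τ y = (τ Q / Q) ^ n * y := by
    have h3 : τ y * τ Q ^ (-n) = y * Q ^ (-n) := by rw [← map_zpow₀, ← map_mul]; exact hufix
    have hτQ0 : τ Q ≠ 0 := by simpa using hQ0
    rw [div_zpow]
    rw [zpow_neg, zpow_neg] at h3
    have h4 : τ Q ^ n ≠ 0 := zpow_ne_zero _ hτQ0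
    have h5 : Q ^ n ≠ 0 := zpow_ne_zero _ hQ0
    field_simp at h3 ⊢
    linear_combination h3
  have h2 : τ Q / Q = ζ ^ (kummer p ζ Q τ).val := by
    rw [div_eq_iff hQ0]; exact hspec
  rw [h2] at h1
  -- make the exponent a natural number
  apply kummer_unique' hζ hy
  change τ y = _
  rw [h1]
  congr 1
  rw [← zpow_natCast, ← zpow_mul, ← zpow_natCast]
  have h6 : ∀ a b : ℤ, (a : ZMod p) = b → ζ ^ a = ζ ^ b := by
    intro a b hab
    have h7 : (p : ℤ) ∣ a - b := by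
      rw [← ZMod.intCast_zmod_eq_zero_iff_dvd]; push_cast; rw [hab, sub_self]
    have h8 := (hζ.zpow_eq_one_iff_dvd (a - b)).2 h7
    rw [zpow_sub₀ (hζ.ne_zero hp0), div_eq_one_iff_eq (zpow_ne_zero _ (hζ.ne_zero hp0))] at h8
    exact h8
  apply h6
  push_cast
  simp only [ZMod.natCast_val, ZMod.cast_id', id_eq]
  ring

include hζ in
/-- the Kummer character of `q` is non trivial on inertia -/
theorem exists_inertia_kummer_ne_zero (hq : q.Prime) (hA : A.LiesOverPrime q)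
    (hU : InertUnif A q) {Q : Qb} (hQ : Q ^ p = q) :
    ∃ τ ∈ A.inertiaSubgroupIn ℚ, kummer p ζ Q τ ≠ 0 := by
  have hp0 : p ≠ 0 := (Fact.out : p.Prime).ne_zero
  have : NeZero p := ⟨hp0⟩
  have hq0 : (q : Qb) ≠ 0 := by exact_mod_cast hq.ne_zero
  have hQ0 : Q ≠ 0 := by
    rintro rfl
    rw [zero_pow hp0] at hQ
    exact hq0 hQ.symm
  by_contra hcon
  push Not at hcon
  have hfix : ∀ τ ∈ A.inertiaSubgroupIn ℚ, τ Q = Q := by
    intro τ hτ
    have hQfix : τ • Q ^ p = Q ^ p := by rw [hQ]; exact map_natCast τ q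
    exact (kummer_eq_zero_iff hζ hQ0 hQfix).1 (hcon τ hτ)
  obtain ⟨n, hn⟩ := hU Q hQ0 hfix
  have hvq : A.valuation (q : Qb) < 1 := (ValuationSubring.mem_nonunits_iff _).1 hA
  have hvq0 : A.valuation (q : Qb) ≠ 0 := by
    rw [Ne, map_eq_zero]; exact hq0
  have h1 : A.valuation (q : Qb) ^ (1 - n * p) = 1 := by
    have h2 : (A.valuation (Q * (q : Qb) ^ (-n))) ^ p = 1 := by rw [hn, one_pow]
    rw [← map_pow, mul_pow, hQ, ← zpow_natCast ((q : Qb) ^ (-n)), ← zpow_mul, map_mul,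
      map_zpow₀] at h2
    rw [sub_eq_add_neg, zpow_add₀ hvq0, zpow_one, ← neg_mul]
    exact h2
  have h2 : (1 - n * p : ℤ) = 0 := by
    by_contra hne
    rcases lt_or_gt_of_ne hne with hlt | hgt
    · have h3 : A.valuation (q : Qb) ^ (-(1 - n * p)) = 1 := by rw [zpow_neg, h1, inv_one]
      obtain ⟨m, hm⟩ := Int.eq_ofNat_of_zero_le (by omega : 0 ≤ -(1 - n * p))
      rw [hm, zpow_natCast] at h3
      have hm0 : m ≠ 0 := by rintro rfl; simp at hm; omega
      exact hvq.ne (eq_one_of_pow_eq_one_val hm0 h3)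
    · obtain ⟨m, hm⟩ := Int.eq_ofNat_of_zero_le (by omega : 0 ≤ (1 - n * p))
      rw [hm, zpow_natCast] at h1
      have hm0 : m ≠ 0 := by rintro rfl; simp at hm; omega
      exact hvq.ne (eq_one_of_pow_eq_one_val hm0 h1)
  have h3 : (p : ℤ) ∣ 1 := ⟨n, by linarith⟩
  have h4 := Int.natCast_dvd_natCast.1 (by exact_mod_cast h3 : (p : ℤ) ∣ ((1 : ℕ) : ℤ))
  exact (Fact.out : p.Prime).one_lt.ne' (Nat.dvd_one.1 h4)

include hζ in
/-- every locally constant character of inertia is a multiple of the Kummer character of `q` -/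
theorem exists_eq_mul_kummer_inertia (hq : q.Prime) (hA : A.LiesOverPrime q) (hqp : q ≠ p)
    (hU : InertUnif A q) {Q : Qb} (hQ : Q ^ p = q) {χ : A.inertiaSubgroupIn ℚ → ZMod p}
    (hχ : ((galLevels ℚ Qb).restrict (A.inertiaSubgroupIn ℚ)).LC χ)
    (hχm : ∀ g h, χ (g * h) = χ g + χ h) :
    ∃ n : ZMod p, ∀ τ, χ τ = n * kummer p ζ Q (τ : Qb ≃ₐ[ℚ] Qb) := by
  have hp0 : p ≠ 0 := (Fact.out : p.Prime).ne_zero
  have : NeZero p := ⟨hp0⟩
  have hG := (isGal_galLevels (k := ℚ) (Ω := Qb)).restrict (A.inertiaSubgroupIn ℚ)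
  have hζG : ∀ g : A.inertiaSubgroupIn ℚ, g • ζ = ζ := fun g =>
    inertia_apply_rootOfUnity hq hA (not_dvd_of_ne hq hqp) g.2 hζ.pow_eq_one
  obtain ⟨y, hy0, hyfix, hy⟩ := exists_kummer_eq hζ hG hζG hχ hχm
  obtain ⟨n, hn⟩ := hU (y ^ p) (pow_ne_zero _ hy0) (fun τ hτ => hyfix ⟨τ, hτ⟩)
  refine ⟨n, fun τ => ?_⟩
  rw [hy]
  exact kummer_inertia_eq hζ hq hA hqp hQ hy0 hn τ.2 (hyfix τ)

end Kummer

end Fermat.Agent.CFT
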