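import Mathlib
import Fermat.Agent.CFT.LocInst
import Fermat.Agent.CFT.SLevTame
import Fermat.Agent.CFT.Loc.ValueGroup

/-!
# The cyclotomic tower

`cycK p n` is the subgroup of `Gal(ℚ̄/ℚ)` fixing the `p ^ n`-th roots of unity.
-/

set_option autoImplicit false

open ExtCitation

namespace Fermat.Agent.CFT

section Loc

variable (l : ℕ) [Fact l.Prime] (p : ℕ) [Fact p.Prime]

/-- `p`-power roots of unity are uniformly discrete -/
lemma norm_p_le_of_root {ζ : PadicAlgCl l} (hζ1 : ζ ≠ 1) {n : ℕ} (hζ : ζ ^ (p ^ n) = 1) :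
    ‖(p : PadicAlgCl l)‖ ≤ ‖1 - ζ‖ := by
  classical
  have hex : ∃ k, ζ ^ (p ^ k) = 1 := ⟨n, hζ⟩
  obtain ⟨k, hk⟩ : ∃ k, Nat.find hex = k + 1 := by
    refine Nat.exists_eq_succ_of_ne_zero fun h0 => hζ1 ?_
    have := Nat.find_spec hex
    rwa [h0, pow_zero, pow_one] at this
  set ζ' := ζ ^ (p ^ k) with hζ'
  have h1 : ζ' ^ p = 1 := by
    have := Nat.find_spec hex
    rw [hk] at this
    rw [hζ', ← pow_mul, ← pow_succ]
    exact this
  have h2 : ζ' ≠ 1 := Nat.find_min hex (by omega)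
  have hone : ‖ζ‖ = 1 := by
    have h3 : ‖ζ‖ ^ (p ^ n) = 1 := by rw [← norm_pow, hζ, norm_one]
    exact (pow_eq_one_iff_of_nonneg (norm_nonneg _)
      (pow_ne_zero _ (Fact.out : p.Prime).ne_zero)).1 h3
  have hone' : ‖ζ'‖ = 1 := by rw [hζ', norm_pow, hone, one_pow]
  have hgeom : ∀ (x : PadicAlgCl l) (m : ℕ), ‖x‖ = 1 → ‖1 - x ^ m‖ ≤ ‖1 - x‖ := by
    intro x m hx
    have h3 : 1 - x ^ m = (1 - x) * ∑ i ∈ Finset.range m, x ^ i := by
      rw [mul_neg_geom_sum]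
    rw [h3, norm_mul]
    refine mul_le_of_le_one_right (norm_nonneg _) ?_
    refine IsUltrametricDist.norm_sum_le_of_forall_le_of_nonneg zero_le_one fun i _ => ?_
    rw [norm_pow, hx, one_pow]
  have h3 : ∑ i ∈ Finset.range p, ζ' ^ i = 0 := by
    have h4 := mul_neg_geom_sum ζ' p
    rw [h1, sub_self] at h4
    exact (mul_eq_zero.1 h4).resolve_left (sub_ne_zero.2 h2.symm)
  have h4 : (p : PadicAlgCl l) = ∑ i ∈ Finset.range p, (1 - ζ' ^ i) := by
    rw [Finset.sum_sub_distrib, h3, sub_zero, Finset.sum_const, Finset.card_range, nsmul_eq_mul,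
      mul_one]
  rw [h4]
  refine (IsUltrametricDist.norm_sum_le_of_forall_le_of_nonneg (norm_nonneg (1 - ζ'))
    fun i _ => hgeom ζ' i hone').trans ?_
  rw [hζ']
  exact hgeom ζ _ hone

/-- finite extensions of `ℚ_l` contain finitely many `p`-power roots of unity -/
theorem exists_root_notMem (E : IntermediateField ℚ_[l] (PadicAlgCl l))
    [FiniteDimensional ℚ_[l] E] : ∃ n, ∃ ζ : PadicAlgCl l, ζ ^ (p ^ n) = 1 ∧ ζ ∉ E := by
  by_contra hcon
  push Not at hcon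
  have hp : (p : PadicAlgCl l) ≠ 0 := Nat.cast_ne_zero.2 (Fact.out : p.Prime).ne_zero
  have hne : ∀ n, ∃ ζ : PadicAlgCl l, IsPrimitiveRoot ζ (p ^ n) := fun n => by
    have : NeZero (p ^ n) := ⟨pow_ne_zero _ (Fact.out : p.Prime).ne_zero⟩
    exact HasEnoughRootsOfUnity.exists_primitiveRoot (PadicAlgCl l) (p ^ n)
  choose ζ hζ using hne
  let V : Submodule ℚ_[l] (PadicAlgCl l) := Subalgebra.toSubmodule E.toSubalgebra
  have hfd : FiniteDimensional ℚ_[l] V := inferInstanceAs (FiniteDimensional ℚ_[l] E)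
  have hprop : ProperSpace V := FiniteDimensional.proper ℚ_[l] V
  let x : ℕ → V := fun n => ⟨ζ n, hcon n _ (hζ n).pow_eq_one⟩
  have hx : ∀ n, x n ∈ Metric.closedBall (0 : V) 1 := fun n => by
    rw [mem_closedBall_zero_iff]
    show ‖ζ n‖ ≤ 1
    have h3 : ‖ζ n‖ ^ (p ^ n) = 1 := by rw [← norm_pow, (hζ n).pow_eq_one, norm_one]
    exact ((pow_eq_one_iff_of_nonneg (norm_nonneg _)
      (pow_ne_zero _ (Fact.out : p.Prime).ne_zero)).1 h3).le
  obtain ⟨a, -, φ, hφ, hlim⟩ := (isCompact_closedBall (0 : V) 1).tendsto_subseq hx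
  have hcau := hlim.cauchySeq
  have hpos : 0 < ‖(p : PadicAlgCl l)‖ := norm_pos_iff.2 hp
  obtain ⟨N, hN⟩ := Metric.cauchySeq_iff.1 hcau _ hpos
  have h1 := hN (N + 1) (Nat.le_succ N) N le_rfl
  have hlt : φ N < φ (N + 1) := hφ (Nat.lt_succ_self N)
  rw [dist_eq_norm] at h1
  have h2 : ‖ζ (φ (N + 1)) - ζ (φ N)‖ < ‖(p : PadicAlgCl l)‖ := h1
  have hz0 : ζ (φ (N + 1)) ≠ 0 := (hζ _).ne_zero (pow_ne_zero _ (Fact.out : p.Prime).ne_zero)
  have hz1 : ‖ζ (φ (N + 1))‖ = 1 := by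
    have h3 : ‖ζ (φ (N + 1))‖ ^ (p ^ (φ (N + 1))) = 1 := by
      rw [← norm_pow, (hζ _).pow_eq_one, norm_one]
    exact ((pow_eq_one_iff_of_nonneg (norm_nonneg _)
      (pow_ne_zero _ (Fact.out : p.Prime).ne_zero)).1 h3)
  -- the quotient
  have h3 : ζ (φ N) / ζ (φ (N + 1)) ≠ 1 := by
    intro h
    rw [div_eq_one_iff_eq hz0] at h
    have h4 : ζ (φ (N + 1)) ^ (p ^ (φ N)) = 1 := by rw [← h]; exact (hζ _).pow_eq_one
    have h5 := (hζ (φ (N + 1))).dvd_of_pow_eq_one _ h4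
    have h6 := Nat.le_of_dvd (pow_pos (Fact.out : p.Prime).pos _) h5
    have h7 := Nat.pow_lt_pow_right (Fact.out : p.Prime).one_lt hlt
    omega
  have h4 : (ζ (φ N) / ζ (φ (N + 1))) ^ (p ^ (φ (N + 1))) = 1 := by
    rw [div_pow, (hζ (φ (N + 1))).pow_eq_one, div_one]
    obtain ⟨m, hm⟩ := Nat.exists_eq_add_of_lt hlt
    rw [hm, add_assoc, pow_add, pow_mul, (hζ _).pow_eq_one, one_pow]
  have h5 := norm_p_le_of_root l p h3 h4
  have h6 : 1 - ζ (φ N) / ζ (φ (N + 1)) = (ζ (φ (N + 1)) - ζ (φ N)) / ζ (φ (N + 1)) := by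
    field_simp
  rw [h6, norm_div, hz1, div_one] at h5
  exact absurd h2 (not_lt.2 h5)

end Loc

section Glob

local notation "Qb" => AlgebraicClosure ℚ
local notation "Γ" => (AlgebraicClosure ℚ ≃ₐ[ℚ] AlgebraicClosure ℚ)

variable (p : ℕ) [Fact p.Prime]

/-- the subgroup fixing the `p ^ n`-th roots of unity -/
def cycK (n : ℕ) : Subgroup Γ where
  carrier := {σ | ∀ ζ : Qb, ζ ^ (p ^ n) = 1 → σ ζ = ζ}
  one_mem' _ _ := rfl
  mul_mem' {a b} ha hb ζ hζ := by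
    rw [AlgEquiv.mul_apply, hb ζ hζ, ha ζ hζ]
  inv_mem' {a} ha ζ hζ := by
    conv_lhs => rw [← ha ζ hζ]
    exact a.symm_apply_apply ζ

omit [Fact p.Prime] in
lemma mem_cycK {n : ℕ} {σ : Γ} : σ ∈ cycK p n ↔ ∀ ζ : Qb, ζ ^ (p ^ n) = 1 → σ ζ = ζ := Iff.rfl

instance (n : ℕ) : (cycK p n).Normal := ⟨fun σ hσ g ζ hζ => by
  show g (σ (g⁻¹ ζ)) = ζ
  rw [hσ (g⁻¹ ζ) (by rw [← map_pow, hζ, map_one])]
  exact g.apply_symm_apply ζ⟩

lemma mem_cycK_iff {n : ℕ} {ζ : Qb} (hζ : IsPrimitiveRoot ζ (p ^ n)) {σ : Γ} :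
    σ ∈ cycK p n ↔ σ ζ = ζ := by
  have hp0 : p ^ n ≠ 0 := pow_ne_zero _ (Fact.out : p.Prime).ne_zero
  have : NeZero (p ^ n) := ⟨hp0⟩
  constructor
  · intro h
    exact h ζ hζ.pow_eq_one
  · intro h ζ' hζ'
    obtain ⟨i, -, rfl⟩ := hζ.eq_pow_of_pow_eq_one hζ'
    rw [map_pow, h]

omit [Fact p.Prime] in
lemma cycK_antitone {m n : ℕ} (h : m ≤ n) : cycK p n ≤ cycK p m := fun σ hσ ζ hζ => by
  refine hσ ζ ?_
  obtain ⟨k, rfl⟩ := Nat.exists_eq_add_of_le h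
  rw [pow_add, pow_mul, hζ, one_pow]

lemma cycK_mem {S : Finset Nat.Primes} (hpS : pPrime p ∈ S) (n : ℕ) : cycK p n ∈ sLevels S := by
  have hp0 : p ^ n ≠ 0 := pow_ne_zero _ (Fact.out : p.Prime).ne_zero
  have : NeZero (p ^ n) := ⟨hp0⟩
  obtain ⟨ζ, hζ⟩ := HasEnoughRootsOfUnity.exists_primitiveRoot Qb (p ^ n)
  rw [mem_sLevels_iff]
  constructor
  · obtain ⟨H, hH, h⟩ := exists_level_smul_eq (k := ℚ) ζ
    exact Levels.up_mem hH fun g hg => (mem_cycK_iff p hζ).2 (h g hg)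
  · intro q hq A hA σ hσ
    refine (mem_cycK_iff p hζ).2 (inertia_apply_rootOfUnity q.2 hA (m := p ^ n) ?_ hσ
      hζ.pow_eq_one)
    intro h
    have h1 := (Nat.Prime.dvd_of_dvd_pow q.2 h)
    have h2 := (Nat.prime_dvd_prime_iff_eq q.2 Fact.out).1 h1
    apply hq
    have : q = pPrime p := Subtype.ext h2
    rwa [this]

lemma cycK_pow (n : ℕ) {g : Γ} (hg : g ∈ (cycloChar p).ker) : ∃ m : ℕ, g ^ (p ^ m) ∈ cycK p n := by
  have hp := (Fact.out : p.Prime)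
  have hp0 : p ^ (n + 1) ≠ 0 := pow_ne_zero _ hp.ne_zero
  have : NeZero (p ^ (n + 1)) := ⟨hp0⟩
  obtain ⟨ζ, hζ⟩ := HasEnoughRootsOfUnity.exists_primitiveRoot Qb (p ^ (n + 1))
  have h1 : (g ζ) ^ (p ^ (n + 1)) = 1 := by rw [← map_pow, hζ.pow_eq_one, map_one]
  obtain ⟨a, -, ha⟩ := hζ.eq_pow_of_pow_eq_one h1
  have hζp : IsPrimitiveRoot (ζ ^ (p ^ n)) p := hζ.pow (pow_pos hp.pos _) (by rw [pow_succ])
  have h2 : g (ζ ^ (p ^ n)) = ζ ^ (p ^ n) := (mem_ker_cycloChar hζp).1 hg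
  have h3 : (ζ ^ (p ^ n)) ^ a = ζ ^ (p ^ n) := by
    rw [← pow_mul, mul_comm, pow_mul, ha, ← map_pow, h2]
  have hζp0 : ζ ^ (p ^ n) ≠ 0 := hζp.ne_zero hp.ne_zero
  have hζ0 : ζ ≠ 0 := hζ.ne_zero hp0
  have h4 : (p : ℤ) ∣ (a : ℤ) - 1 := by
    rw [← hζp.zpow_eq_one_iff_dvd, zpow_sub₀ hζp0, zpow_natCast, h3, zpow_one, div_self hζp0]
  have hiter : ∀ j : ℕ, (g ^ j) ζ = ζ ^ (a ^ j) := by
    intro j
    induction j with
    | zero => simp
    | succ j ih =>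
      rw [pow_succ, AlgEquiv.mul_apply, ← ha, map_pow, ih, ← pow_mul, pow_succ]
  refine ⟨n, cycK_antitone p (Nat.le_succ n) ((mem_cycK_iff p hζ).2 ?_)⟩
  rw [hiter]
  have h5 := dvd_sub_pow_of_dvd_sub h4 n
  rw [one_pow] at h5
  have h6 : ((p ^ (n + 1) : ℕ) : ℤ) ∣ ((a ^ (p ^ n) : ℕ) : ℤ) - 1 := by
    push_cast
    exact h5
  rw [← hζ.zpow_eq_one_iff_dvd, zpow_sub₀ hζ0, zpow_natCast, zpow_one,
    div_eq_one_iff_eq hζ0] at h6
  exact h6

lemma cycK_index_loc (l : ℕ) [Fact l.Prime] (B : ℕ) :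
    ∃ n, B ≤ ((cycK p n).comap (localGaloisToGlobal l)).index := by
  classical
  by_contra hcon
  push Not at hcon
  have hp := (Fact.out : p.Prime)
  have hmem : ∀ n, (cycK p n).comap (localGaloisToGlobal l) ∈ locLevels l := fun n => by
    have h1 : cycK p n ∈ galLevels ℚ Qb := sLevels_le_galLevels
      (S := {pPrime p}) (cycK_mem p (Finset.mem_singleton_self _) n)
    exact Levels.cont_comap _ _ h1
  have hfi : ∀ n, ((cycK p n).comap (localGaloisToGlobal l)).FiniteIndex := fun n =>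
    Levels.finiteIndex (hmem n)
  -- the index stabilises
  have hex : ∃ B', ∀ n, ((cycK p n).comap (localGaloisToGlobal l)).index ≤ B' :=
    ⟨B, fun n => (hcon n).le⟩
  obtain ⟨n0, hn0⟩ : ∃ n0, ((cycK p n0).comap (localGaloisToGlobal l)).index = Nat.find hex := by
    by_contra hne
    push Not at hne
    have h1 := Nat.find_spec hex
    have h2 : Nat.find hex ≠ 0 := by
      intro h0
      have := h1 0
      rw [h0, Nat.le_zero] at this
      exact (hfi 0).index_ne_zero this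
    refine Nat.find_min hex (m := Nat.find hex - 1) (by omega) fun n => ?_
    have h3 := h1 n
    have h4 := hne n
    omega
  have hstab : ∀ n, n0 ≤ n → (cycK p n0).comap (localGaloisToGlobal l) ≤
      (cycK p n).comap (localGaloisToGlobal l) := by
    intro n hn
    have h1 : (cycK p n).comap (localGaloisToGlobal l) ≤
      (cycK p n0).comap (localGaloisToGlobal l) := Subgroup.comap_mono (cycK_antitone p hn)
    have h2 := Nat.find_spec hex n
    rw [← hn0] at h2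
    have h3 := Subgroup.relIndex_mul_index h1
    have h4 : ((cycK p n).comap (localGaloisToGlobal l)).relIndex
        ((cycK p n0).comap (localGaloisToGlobal l)) ≤ 1 := by
      by_contra hlt
      push Not at hlt
      have h5 : 0 < ((cycK p n0).comap (localGaloisToGlobal l)).index :=
        Nat.pos_of_ne_zero (hfi n0).index_ne_zero
      nlinarith
    have h5 : ((cycK p n).comap (localGaloisToGlobal l)).relIndex
        ((cycK p n0).comap (localGaloisToGlobal l)) ≠ 0 := by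
      intro h0
      rw [h0, zero_mul] at h3
      exact (hfi n).index_ne_zero h3.symm
    exact Subgroup.relIndex_eq_one.1 (by omega)
  obtain ⟨E, hE, hEle⟩ := (Loc.mem_locLevels_iff l).1 (hmem n0)
  obtain ⟨n, ζ, hζ, hζE⟩ := exists_root_notMem l p E
  apply hζE
  refine Loc.mem_of_forall_apply_eq fun g hg => ?_
  -- ζ comes from a global root of unity
  have hp0 : p ^ n ≠ 0 := pow_ne_zero _ hp.ne_zero
  have : NeZero (p ^ n) := ⟨hp0⟩
  obtain ⟨ξ, hξ⟩ := HasEnoughRootsOfUnity.exists_primitiveRoot Qb (p ^ n)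
  have hξ' := hξ.map_of_injective (padicEmbedding l).injective
  obtain ⟨i, -, rfl⟩ := hξ'.eq_pow_of_pow_eq_one hζ
  have h1 : g ∈ (cycK p n).comap (localGaloisToGlobal l) := by
    have h2 : g ∈ (cycK p (n0 + n)).comap (localGaloisToGlobal l) :=
      hstab _ (Nat.le_add_right _ _) (hEle hg)
    exact Subgroup.comap_mono (cycK_antitone p (Nat.le_add_left n n0)) h2
  have h3 : localGaloisToGlobal l g ξ = ξ := h1 ξ hξ.pow_eq_one
  rw [map_pow]
  congr 1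
  show g (padicEmbedding l ξ) = padicEmbedding l ξ
  rw [← padicEmbedding_localGaloisToGlobal, h3]

end Glob

end Fermat.Agent.CFT
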