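import Mathlib
import Fermat.Agent.CFT.Basic
import Fermat.Agent.CFT.GalLevels

/-!
# Shapiro's lemma in degrees `≤ 2` for locally constant cochains, and corestriction

* `mapRep ρ X` : the representation `X → V` for a `G`-set `X`: `(g f)(y) = ρ g (f (g⁻¹ y))`;
* `SmoothSet 𝓛 X`;
* `OrbitData G X ι` : representatives `x i` of the orbits, stabilizers `U i`, transporters `t y`;
* `sh1`, `sh2` : evaluation at `x i` composed with restriction to `U i`; bijective when put together.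
* `cor1`, `cor2` : corestriction for `U ∈ 𝓛`.
-/

set_option autoImplicit false

namespace Fermat.Agent.CFT

section Rep

variable {k : Type*} [CommRing k] {G G' : Type*} [Group G] [Group G'] {𝓛 : Levels G}
variable {V W : Type*} [AddCommGroup V] [Module k V] [AddCommGroup W] [Module k W]

/-- restriction of a representation along a group homomorphism -/
abbrev resRep (ρ : Representation k G V) (f : G' →* G) : Representation k G' V :=
  MonoidHom.comp ρ f

lemma Smooth.res {ρ : Representation k G V} (h : Smooth 𝓛 ρ) {𝓛' : Levels G'} {f : G' →* G}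
    (hf : Levels.Cont 𝓛' 𝓛 f) : Smooth 𝓛' (resRep ρ f) := fun v => by
  obtain ⟨H, hH, h⟩ := h v
  exact ⟨_, hf H hH, fun s hs => h _ hs⟩

/-- The representation on functions `X → V`. -/
def mapRep (ρ : Representation k G V) (X : Type*) [MulAction G X] :
    Representation k G (X → V) where
  toFun g :=
    { toFun := fun f y => ρ g (f (g⁻¹ • y))
      map_add' := fun f f' => by ext y; simp
      map_smul' := fun c f => by ext y; simp }
  map_one' := by ext f y; simp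
  map_mul' g h := by ext f y; simp [mul_smul]

@[simp] lemma mapRep_apply (ρ : Representation k G V) (X : Type*) [MulAction G X] (g : G)
    (f : X → V) (y : X) : mapRep ρ X g f y = ρ g (f (g⁻¹ • y)) := rfl

/-- all stabilizers are levels -/
def SmoothSet (𝓛 : Levels G) (X : Type*) [MulAction G X] : Prop :=
  ∀ x : X, ∃ H ∈ 𝓛, ∀ s ∈ H, s • x = x

lemma SmoothSet.exists_normal {X : Type*} [MulAction G X] [Finite X] (h : SmoothSet 𝓛 X) :
    ∃ N ∈ 𝓛, N.Normal ∧ ∀ s ∈ N, ∀ x : X, s • x = x := by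
  choose H hH h using h
  obtain ⟨N, hN, hle, hn⟩ := Levels.exists_normal (Levels.iInf_mem hH)
  exact ⟨N, hN, hn, fun s hs x => h x s (Subgroup.mem_iInf.1 (hle hs) x)⟩

lemma smoothSet_quotient {U : Subgroup G} (hU : U ∈ 𝓛) : SmoothSet 𝓛 (G ⧸ U) := by
  obtain ⟨N, hN, hNU, hn⟩ := Levels.exists_normal hU
  intro x
  refine ⟨N, hN, fun s hs => ?_⟩
  obtain ⟨g, rfl⟩ := QuotientGroup.mk_surjective x
  rw [MulAction.Quotient.smul_mk, QuotientGroup.eq]
  have h1 : (s • g)⁻¹ * g = g⁻¹ * s⁻¹ * g := by simp [mul_assoc]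
  rw [h1]
  have := hn.conj_mem s⁻¹ (N.inv_mem hs) g⁻¹
  rw [inv_inv] at this
  exact hNU this

lemma smooth_mapRep {ρ : Representation k G V} (h : Smooth 𝓛 ρ) {X : Type*} [MulAction G X]
    [Finite X] (hX : SmoothSet 𝓛 X) : Smooth 𝓛 (mapRep ρ X) := by
  intro f
  obtain ⟨N, hN, -, hx⟩ := hX.exists_normal
  choose K hK hK' using h
  refine ⟨N ⊓ ⨅ x : X, K (f x), Levels.inf_mem hN (Levels.iInf_mem fun x => hK _), ?_⟩
  rintro s ⟨hs1, hs2⟩
  ext y
  rw [mapRep_apply, hx _ (N.inv_mem hs1), hK' _ s (Subgroup.mem_iInf.1 hs2 y)]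

lemma Levels.LC.pi {X Y : Type*} [Finite X] {f : G → X → Y} (h : ∀ x, 𝓛.LC fun g => f g x) :
    𝓛.LC f := by
  choose H hH h using h
  exact ⟨_, Levels.iInf_mem hH, fun g s hs => funext fun x => h x g s (Subgroup.mem_iInf.1 hs x)⟩

lemma Levels.LC₂.pi {X Y : Type*} [Finite X] {f : G → G → X → Y}
    (h : ∀ x, 𝓛.LC₂ fun g g' => f g g' x) : 𝓛.LC₂ f := by
  choose H hH h using h
  exact ⟨_, Levels.iInf_mem hH, fun g g' s hs s' hs' => funext fun x =>
    h x g g' s (Subgroup.mem_iInf.1 hs x) s' (Subgroup.mem_iInf.1 hs' x)⟩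

/-- extension by zero of a locally constant function on a level -/
lemma Levels.LC.exists_ext {U : Subgroup G} (hU : U ∈ 𝓛) {b : U → V}
    (hb : (𝓛.restrict U).LC b) : ∃ b' : G → V, 𝓛.LC b' ∧ ∀ u : U, b' u = b u := by
  classical
  obtain ⟨J, ⟨H, hH, hJ⟩, h⟩ := hb
  refine ⟨fun g => if hg : g ∈ U then b ⟨g, hg⟩ else 0, ⟨H ⊓ U, Levels.inf_mem hH hU, ?_⟩, ?_⟩
  · rintro g s ⟨hs, hsU⟩
    by_cases hg : g ∈ U
    · have hgs : g * s ∈ U := U.mul_mem hg hsU
      simp only [hg, hgs]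
      exact h ⟨g, hg⟩ ⟨s, hsU⟩ (hJ hs)
    · have hgs : g * s ∉ U := fun h => hg ((Subgroup.mul_mem_cancel_right U hsU).1 h)
      simp [hg, hgs]
  · rintro ⟨u, hu⟩
    simp [hu]

/-- extension by zero of a locally constant function of two variables on a level -/
lemma Levels.LC₂.exists_ext {U : Subgroup G} (hU : U ∈ 𝓛) {b : U → U → V}
    (hb : (𝓛.restrict U).LC₂ b) : ∃ b' : G → G → V, 𝓛.LC₂ b' ∧ ∀ u v : U, b' u v = b u v := by
  classical
  obtain ⟨J, ⟨H, hH, hJ⟩, h⟩ := hb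
  refine ⟨fun g g' => if hg : g ∈ U ∧ g' ∈ U then b ⟨g, hg.1⟩ ⟨g', hg.2⟩ else 0,
    ⟨H ⊓ U, Levels.inf_mem hH hU, ?_⟩, ?_⟩
  · rintro g g' s ⟨hs, hsU⟩ s' ⟨hs', hsU'⟩
    by_cases hg : g ∈ U ∧ g' ∈ U
    · have hgs : g * s ∈ U ∧ g' * s' ∈ U := ⟨U.mul_mem hg.1 hsU, U.mul_mem hg.2 hsU'⟩
      simp only [hg, hgs]
      exact h ⟨g, hg.1⟩ ⟨g', hg.2⟩ ⟨s, hsU⟩ (hJ hs) ⟨s', hsU'⟩ (hJ hs')
    · have hgs : ¬ (g * s ∈ U ∧ g' * s' ∈ U) := fun h => hg
        ⟨(Subgroup.mul_mem_cancel_right U hsU).1 h.1, (Subgroup.mul_mem_cancel_right U hsU').1 h.2⟩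
      simp only [hg, hgs, dif_neg, not_false_eq_true]
  · rintro ⟨u, hu⟩ ⟨v, hv⟩
    simp [hu, hv]

end Rep

/-- Orbit representatives, stabilizers and transporters for a `G`-set. -/
structure OrbitData (G : Type*) [Group G] (X : Type*) [MulAction G X] (ι : Type*) where
  x : ι → X
  o : X → ι
  t : X → G
  U : ι → Subgroup G
  mem_U : ∀ i g, g ∈ U i ↔ g • x i = x i
  t_smul : ∀ y, t y • x (o y) = y
  o_smul : ∀ (g : G) y, o (g • y) = o y
  o_x : ∀ i, o (x i) = i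
  t_x : ∀ i, t (x i) = 1

namespace OrbitData

variable {G : Type*} [Group G] {X : Type*} [MulAction G X] {ι : Type*} (D : OrbitData G X ι)

/-- the orbit data of any `G`-set -/
noncomputable def ofAction (G : Type*) [Group G] (X : Type*) [MulAction G X] :
    OrbitData G X (MulAction.orbitRel.Quotient G X) := by
  classical
  have key : ∀ y : X, ∃ t : G,
      t • (Quotient.out (Quotient.mk (MulAction.orbitRel G X) y : MulAction.orbitRel.Quotient G X)) = y ∧
      (y = Quotient.out (Quotient.mk (MulAction.orbitRel G X) y : MulAction.orbitRel.Quotient G X) → t = 1) := by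
    intro y
    by_cases h : y = Quotient.out (Quotient.mk (MulAction.orbitRel G X) y : MulAction.orbitRel.Quotient G X)
    · exact ⟨1, by rw [one_smul]; exact h.symm, fun _ => rfl⟩
    · have : (MulAction.orbitRel G X) y
          (Quotient.out (Quotient.mk (MulAction.orbitRel G X) y : MulAction.orbitRel.Quotient G X)) := by
        exact (MulAction.orbitRel G X).symm' (Quotient.mk_out (s := MulAction.orbitRel G X) y)
      obtain ⟨t, ht⟩ := this
      exact ⟨t, ht, fun h' => absurd h' h⟩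
  exact
    { x := Quotient.out
      o := fun y => Quotient.mk (MulAction.orbitRel G X) y
      t := fun y => (key y).choose
      U := fun i => MulAction.stabilizer G (Quotient.out i)
      mem_U := fun i g => Iff.rfl
      t_smul := fun y => (key y).choose_spec.1
      o_smul := fun g y => Quotient.sound ⟨g, rfl⟩
      o_x := fun i => Quotient.out_eq i
      t_x := fun i => (key _).choose_spec.2 (by
        rw [show (Quotient.mk (MulAction.orbitRel G X) (Quotient.out i) :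
          MulAction.orbitRel.Quotient G X) = i from Quotient.out_eq i]) }

/-- the orbit data of `G ⧸ U` -/
noncomputable def quotient (U : Subgroup G) : OrbitData G (G ⧸ U) Unit := by
  classical
  exact
    { x := fun _ => ((1 : G) : G ⧸ U)
      o := fun _ => ()
      t := fun y => if y = ((1 : G) : G ⧸ U) then 1 else Quotient.out y
      U := fun _ => U
      mem_U := fun _ g => by
        rw [MulAction.Quotient.smul_mk, QuotientGroup.eq]
        simp
      t_smul := fun y => by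
        split_ifs with h
        · rw [one_smul, h]
        · rw [MulAction.Quotient.smul_mk, smul_eq_mul, mul_one]
          exact QuotientGroup.out_eq' y
      o_smul := fun _ _ => rfl
      o_x := fun _ => rfl
      t_x := fun _ => by simp }

@[simp] lemma quotient_U (U : Subgroup G) (i : Unit) : (quotient U).U i = U := rfl
@[simp] lemma quotient_x (U : Subgroup G) (i : Unit) : (quotient U).x i = ((1 : G) : G ⧸ U) := rfl

lemma inv_t_smul (y : X) : (D.t y)⁻¹ • y = D.x (D.o y) := by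
  rw [inv_smul_eq_iff, D.t_smul]

/-- the cocycle `u(y,g) = t_y⁻¹ g t_{g⁻¹ y}` -/
def u (y : X) (g : G) : G := (D.t y)⁻¹ * g * D.t (g⁻¹ • y)

lemma u_mem (y : X) (g : G) : D.u y g ∈ D.U (D.o y) := by
  rw [D.mem_U, u, mul_smul, mul_smul]
  have h := D.t_smul (g⁻¹ • y)
  rw [D.o_smul] at h
  rw [h, smul_inv_smul, D.inv_t_smul]

lemma u_mul (y : X) (g h : G) : D.u y (g * h) = D.u y g * D.u (g⁻¹ • y) h := by
  simp only [u, mul_inv_rev, mul_smul]
  group

lemma t_mul_u (y : X) (g : G) : D.t y * D.u y g = g * D.t (g⁻¹ • y) := by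
  simp only [u]; group

lemma u_mul_inv_t (y : X) (g : G) : D.u y g * (D.t (g⁻¹ • y))⁻¹ = (D.t y)⁻¹ * g := by
  simp only [u]; group

lemma u_x (i : ι) {g : G} (hg : g ∈ D.U i) : D.u (D.x i) g = g := by
  have h : g⁻¹ • D.x i = D.x i := by
    rw [inv_smul_eq_iff]; exact ((D.mem_U i g).1 hg).symm
  simp only [u, h, D.t_x]; group

lemma U_mem {𝓛 : Levels G} (hX : SmoothSet 𝓛 X) (i : ι) : D.U i ∈ 𝓛 := by
  obtain ⟨H, hH, h⟩ := hX (D.x i)
  exact Levels.up_mem hH fun s hs => (D.mem_U i s).2 (h s hs)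

end OrbitData

section Shapiro

variable {k : Type*} [CommRing k] {G : Type*} [Group G] {𝓛 : Levels G}
variable {V : Type*} [AddCommGroup V] [Module k V] {ρ : Representation k G V}
variable {X : Type*} [MulAction G X] {ι : Type*} (D : OrbitData G X ι)

/-- evaluation at a point -/
def evalMap (k V : Type*) [CommRing k] [AddCommGroup V] [Module k V] {X : Type*} (x : X) :
    (X → V) →ₗ[k] V := LinearMap.proj x

@[simp] lemma evalMap_apply {k V : Type*} [CommRing k] [AddCommGroup V] [Module k V] {X : Type*}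
    (x : X) (f : X → V) : evalMap k V x f = f x := rfl

lemma compat_sh (i : ι) : Compat (mapRep ρ X) (resRep ρ (D.U i).subtype) (D.U i).subtype
    (evalMap k V (D.x i)) := by
  rintro ⟨g, hg⟩ f
  have h : g⁻¹ • D.x i = D.x i := by
    rw [inv_smul_eq_iff]; exact ((D.mem_U i g).1 hg).symm
  simp [h]

variable (𝓛 ρ)

/-- Shapiro map in degree 1 -/
def sh1 (i : ι) : H1 𝓛 (mapRep ρ X) →ₗ[k] H1 (𝓛.restrict (D.U i)) (resRep ρ (D.U i).subtype) :=
  H1.map _ _ _ _ (D.U i).subtype (evalMap k V (D.x i)) (Levels.cont_subtype _) (compat_sh D i)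

/-- Shapiro map in degree 2 -/
def sh2 (i : ι) : H2 𝓛 (mapRep ρ X) →ₗ[k] H2 (𝓛.restrict (D.U i)) (resRep ρ (D.U i).subtype) :=
  H2.map _ _ _ _ (D.U i).subtype (evalMap k V (D.x i)) (Levels.cont_subtype _) (compat_sh D i)

variable {𝓛 ρ}

lemma sh1_mk (i : ι) (z : ↥(Z1 𝓛 (mapRep ρ X))) : sh1 𝓛 ρ D i (H1.mk 𝓛 (mapRep ρ X) z) =
    H1.mk (𝓛.restrict (D.U i)) (resRep ρ (D.U i).subtype) ⟨pp1 (D.U i).subtype (evalMap k V (D.x i)) z,
      pp1_mem_Z1 (Levels.cont_subtype _) (compat_sh D i) z.2⟩ := rfl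

lemma sh2_mk (i : ι) (z : ↥(Z2 𝓛 (mapRep ρ X))) : sh2 𝓛 ρ D i (H2.mk 𝓛 (mapRep ρ X) z) =
    H2.mk (𝓛.restrict (D.U i)) (resRep ρ (D.U i).subtype) ⟨pp2 (D.U i).subtype (evalMap k V (D.x i)) z,
      pp2_mem_Z2 (Levels.cont_subtype _) (compat_sh D i) z.2⟩ := rfl

/-- a normal level adapted to a finite smooth set -/
lemma exists_adapted [Finite X] (hX : SmoothSet 𝓛 X) {Y : Type*} {b : X → G → Y}
    (hb : ∀ y, 𝓛.LC (b y)) : ∃ N ∈ 𝓛, N.Normal ∧ (∀ s ∈ N, ∀ x : X, s • x = x) ∧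
      ∀ y g, ∀ s ∈ N, b y (g * s) = b y g := by
  obtain ⟨N, hN, hn, hx⟩ := hX.exists_normal
  choose H hH h using hb
  obtain ⟨N', hN', hle, hn'⟩ := Levels.exists_normal (Levels.iInf_mem hH)
  have : (N ⊓ N').Normal := inferInstance
  exact ⟨N ⊓ N', Levels.inf_mem hN hN', this, fun s hs => hx s hs.1,
    fun y g s hs => h y g s (Subgroup.mem_iInf.1 (hle hs.2) y)⟩

lemma exists_adapted₂ [Finite X] (hX : SmoothSet 𝓛 X) {Y : Type*} {b : X → G → G → Y}
    (hb : ∀ y, 𝓛.LC₂ (b y)) : ∃ N ∈ 𝓛, N.Normal ∧ (∀ s ∈ N, ∀ x : X, s • x = x) ∧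
      ∀ y g g', ∀ s ∈ N, ∀ s' ∈ N, b y (g * s) (g' * s') = b y g g' := by
  obtain ⟨N, hN, hn, hx⟩ := hX.exists_normal
  choose H hH h using hb
  obtain ⟨N', hN', hle, hn'⟩ := Levels.exists_normal (Levels.iInf_mem hH)
  have : (N ⊓ N').Normal := inferInstance
  exact ⟨N ⊓ N', Levels.inf_mem hN hN', this, fun s hs => hx s hs.1,
    fun y g g' s hs s' hs' => h y g g' s (Subgroup.mem_iInf.1 (hle hs.2) y) s'
      (Subgroup.mem_iInf.1 (hle hs'.2) y)⟩

lemma OrbitData.u_mul_of_fix (y : X) (g s : G) (hs : ∀ x : X, s • x = x) :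
    D.u y (g * s) = D.u y g * ((D.t (g⁻¹ • y))⁻¹ * s * D.t (g⁻¹ • y)) := by
  have h : ∀ x : X, s⁻¹ • x = x := fun x => by rw [inv_smul_eq_iff, hs]
  simp only [OrbitData.u, mul_inv_rev, mul_smul, h]
  group

lemma conj_mem_of_normal {N : Subgroup G} (hn : N.Normal) {s : G} (hs : s ∈ N) (t : G) :
    t⁻¹ * s * t ∈ N := by
  have := hn.conj_mem s hs t⁻¹
  rwa [inv_inv] at this

/-- injectivity of the Shapiro map in degree one: core computation -/
lemma shapiro_inj1 {f : G → X → V} (hf : f ∈ Z1 𝓛 (mapRep ρ X)) (b : ι → V)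
    (hb : ∀ i, ∀ u ∈ D.U i, f u (D.x i) = ρ u (b i) - b i) : f ∈ B1 (mapRep ρ X) := by
  rw [mem_B1]
  -- `c y = t_y (b + f(t_y⁻¹)(x))`
  refine ⟨fun y => ρ (D.t y) (b (D.o y) + f (D.t y)⁻¹ (D.x (D.o y))), fun g => ?_⟩
  ext y
  have hcoc := hf.2
  simp only [Pi.sub_apply, mapRep_apply]
  rw [← Module.End.mul_apply, ← map_mul, ← D.t_mul_u, map_mul, Module.End.mul_apply, ← map_sub]
  have h1 : f g y = ρ (D.t y) (f ((D.t y)⁻¹ * g) (D.x (D.o y)) - f ((D.t y)⁻¹) (D.x (D.o y))) := by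
    rw [hcoc]
    simp only [Pi.add_apply, mapRep_apply, inv_inv, D.t_smul, add_sub_cancel_right]
    rw [← Module.End.mul_apply, ← map_mul]
    simp
  rw [h1]
  congr 1
  have h2 := hb (D.o y) (D.u y g) (D.u_mem y g)
  have h3 : f (D.u y g * (D.t (g⁻¹ • y))⁻¹) (D.x (D.o y)) =
      ρ (D.u y g) (f (D.t (g⁻¹ • y))⁻¹ (D.x (D.o y))) + f (D.u y g) (D.x (D.o y)) := by
    rw [hcoc]
    simp only [Pi.add_apply, mapRep_apply]
    have h : (D.u y g)⁻¹ • D.x (D.o y) = D.x (D.o y) := by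
      rw [inv_smul_eq_iff]; exact ((D.mem_U _ _).1 (D.u_mem y g)).symm
    rw [h]
  rw [D.u_mul_inv_t] at h3
  rw [h3, h2, D.o_smul, map_add]
  abel

/-- surjectivity of the Shapiro map in degree one: core computation -/
lemma shapiro_surj1 [Finite X] (hX : SmoothSet 𝓛 X) {c : ι → G → V}
    (hc : ∀ i, 𝓛.LC (c i))
    (hc' : ∀ i, ∀ u ∈ D.U i, ∀ u' ∈ D.U i, c i (u * u') = ρ u (c i u') + c i u) :
    ∃ f ∈ Z1 𝓛 (mapRep ρ X), ∀ i, ∀ u ∈ D.U i, f u (D.x i) = c i u := by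
  refine ⟨fun g y => ρ (D.t y) (c (D.o y) (D.u y g)), ⟨?_, ?_⟩, ?_⟩
  · obtain ⟨N, hN, hn, hx, hb⟩ := exists_adapted hX (b := fun y => c (D.o y)) (fun y => hc _)
    refine ⟨N, hN, fun g s hs => ?_⟩
    ext y
    simp only
    rw [D.u_mul_of_fix y g s (hx s hs), hb _ _ _ (conj_mem_of_normal hn hs _)]
  · intro g h
    ext y
    simp only [Pi.add_apply, mapRep_apply]
    rw [D.u_mul, hc' _ _ (D.u_mem y g) _ (by have := D.u_mem (g⁻¹ • y) h; rwa [D.o_smul] at this),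
      map_add, ← Module.End.mul_apply, ← map_mul, D.t_mul_u, map_mul, Module.End.mul_apply,
      D.o_smul]
  · intro i u hu
    simp only [D.t_x, D.o_x, D.u_x i hu, map_one, Module.End.one_apply]

/-- injectivity of the Shapiro map in degree two: core computation -/
lemma shapiro_inj2 [Finite X] (hX : SmoothSet 𝓛 X) {f : G → G → X → V}
    (hf : f ∈ Z2 𝓛 (mapRep ρ X)) {b : ι → G → V} (hb : ∀ i, 𝓛.LC (b i))
    (hb' : ∀ i, ∀ u ∈ D.U i, ∀ u' ∈ D.U i,
      ρ u (b i u') - b i (u * u') + b i u = f u u' (D.x i)) :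
    f ∈ B2 𝓛 (mapRep ρ X) := by
  rw [mem_B2]
  refine ⟨fun g y => ρ (D.t y) (b (D.o y) (D.u y g) + f (D.t y)⁻¹ g (D.x (D.o y))
    - f (D.u y g) (D.t (g⁻¹ • y))⁻¹ (D.x (D.o y))), ?_, ?_⟩
  · obtain ⟨N₁, hN₁, hn₁, hx, hbN⟩ := exists_adapted hX (b := fun y => b (D.o y)) (fun y => hb _)
    obtain ⟨N₂, hN₂, hn₂, hfN⟩ := hf.1.exists_normal
    have hn : (N₁ ⊓ N₂).Normal := inferInstance
    refine ⟨N₁ ⊓ N₂, Levels.inf_mem hN₁ hN₂, fun g s hs => ?_⟩
    ext y
    simp only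
    have hx' : (g * s)⁻¹ • y = g⁻¹ • y := by
      rw [mul_inv_rev, mul_smul, hx _ (N₁.inv_mem hs.1)]
    have h1 := conj_mem_of_normal hn hs (D.t (g⁻¹ • y))
    rw [D.u_mul_of_fix y g s (hx s hs.1), hbN _ _ _ h1.1, hx']
    have h2 : f (D.t y)⁻¹ (g * s) = f (D.t y)⁻¹ g := by
      have := hfN (D.t y)⁻¹ g 1 N₂.one_mem s hs.2
      rwa [mul_one] at this
    have h3 : f (D.u y g * ((D.t (g⁻¹ • y))⁻¹ * s * D.t (g⁻¹ • y))) (D.t (g⁻¹ • y))⁻¹ =
        f (D.u y g) (D.t (g⁻¹ • y))⁻¹ := by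
      have := hfN (D.u y g) (D.t (g⁻¹ • y))⁻¹ _ h1.2 1 N₂.one_mem
      rwa [mul_one] at this
    rw [h2, h3]
  · ext g h y
    have hcoc := hf.2
    simp only [d1_apply, Pi.add_apply, Pi.sub_apply, mapRep_apply]
    set z := g⁻¹ • y with hz
    have hoz : D.o z = D.o y := D.o_smul _ _
    have hghy : (g * h)⁻¹ • y = h⁻¹ • z := by rw [mul_inv_rev, mul_smul]
    rw [hghy, D.u_mul, ← hz, hoz]
    rw [← Module.End.mul_apply, ← map_mul, hz, ← D.t_mul_u, map_mul, Module.End.mul_apply,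
      ← map_sub, ← map_add, ← hz]
    set u := D.u y g with hu
    set u' := D.u z h with hu'
    set s := (D.t y)⁻¹ with hs
    set s' := (D.t z)⁻¹ with hs'
    set s'' := (D.t (h⁻¹ • z))⁻¹ with hs''
    set x := D.x (D.o y) with hx
    have huU : u ∈ D.U (D.o y) := D.u_mem y g
    have hu'U : u' ∈ D.U (D.o y) := by rw [← hoz]; exact D.u_mem z h
    have hux : u⁻¹ • x = x := by
      rw [inv_smul_eq_iff]; exact ((D.mem_U _ _).1 huU).symm
    have e1 : u * s' = s * g := D.u_mul_inv_t y g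
    have e2 : u' * s'' = s' * h := D.u_mul_inv_t z h
    have c1 := congrFun (hcoc u s' h) x
    have c2 := congrFun (hcoc u u' s'') x
    have c3 := congrFun (hcoc s g h) x
    simp only [Pi.add_apply, mapRep_apply, hux] at c1 c2 c3
    have hsx : s⁻¹ • x = y := by rw [hs, inv_inv, hx, D.t_smul]
    rw [hsx] at c3
    have hbb := hb' (D.o y) u huU u' hu'U
    rw [← hx] at hbb
    have hfin : f g h y = ρ (D.t y) (ρ s (f g h y)) := by
      rw [← Module.End.mul_apply, ← map_mul, hs, mul_inv_cancel, map_one, Module.End.one_apply]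
    rw [hfin]
    congr 1
    rw [e1] at c1
    rw [e2] at c2
    simp only [map_add, map_sub]
    -- linear combination of c1, c2, c3, hbb
    have c1' : ρ u (f s' h x) = f (s * g) h x + f u s' x - f u (s' * h) x := by
      rw [c1]; abel
    have c2' : ρ u (f u' s'' x) = f (u * u') s'' x + f u u' x - f u (s' * h) x := by
      rw [c2]; abel
    have c3' : ρ s (f g h y) = f (s * g) h x + f s g x - f s (g * h) x := by
      rw [c3]; abel
    rw [c1', c2', c3', ← hbb]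
    abel

/-- surjectivity of the Shapiro map in degree two: core computation -/
lemma shapiro_surj2 [Finite X] (hX : SmoothSet 𝓛 X) {c : ι → G → G → V}
    (hc : ∀ i, 𝓛.LC₂ (c i))
    (hc' : ∀ i, ∀ u ∈ D.U i, ∀ u' ∈ D.U i, ∀ u'' ∈ D.U i,
      c i (u * u') u'' + c i u u' = ρ u (c i u' u'') + c i u (u' * u'')) :
    ∃ f ∈ Z2 𝓛 (mapRep ρ X), ∀ i, ∀ u ∈ D.U i, ∀ u' ∈ D.U i, f u u' (D.x i) = c i u u' := by
  refine ⟨fun g h y => ρ (D.t y) (c (D.o y) (D.u y g) (D.u (g⁻¹ • y) h)), ⟨?_, ?_⟩, ?_⟩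
  · obtain ⟨N, hN, hn, hx, hb⟩ := exists_adapted₂ hX (b := fun y => c (D.o y)) (fun y => hc _)
    refine ⟨N, hN, fun g g' s hs s' hs' => ?_⟩
    ext y
    simp only
    have hx' : (g * s)⁻¹ • y = g⁻¹ • y := by
      rw [mul_inv_rev, mul_smul, hx _ (N.inv_mem hs)]
    rw [D.u_mul_of_fix y g s (hx s hs), hx', D.u_mul_of_fix _ g' s' (hx s' hs'),
      hb _ _ _ _ (conj_mem_of_normal hn hs _) _ (conj_mem_of_normal hn hs' _)]
  · intro g h j
    ext y
    simp only [Pi.add_apply, mapRep_apply]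
    have h1 : D.u (g⁻¹ • y) h ∈ D.U (D.o y) := by
      have := D.u_mem (g⁻¹ • y) h; rwa [D.o_smul] at this
    have h2 : D.u (h⁻¹ • g⁻¹ • y) j ∈ D.U (D.o y) := by
      have := D.u_mem (h⁻¹ • g⁻¹ • y) j; rwa [D.o_smul, D.o_smul] at this
    rw [D.u_mul, D.u_mul, mul_inv_rev, mul_smul, ← map_add, hc' _ _ (D.u_mem y g) _ h1 _ h2,
      map_add, ← Module.End.mul_apply, ← map_mul, D.t_mul_u, map_mul, Module.End.mul_apply,
      D.o_smul]
  · intro i u hu u' hu'
    have h : u⁻¹ • D.x i = D.x i := by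
      rw [inv_smul_eq_iff]; exact ((D.mem_U i u).1 hu).symm
    simp only [D.t_x, D.o_x, h, D.u_x i hu, D.u_x i hu', map_one, Module.End.one_apply]

variable (𝓛 ρ)

/-- **Shapiro's lemma** in degree one. -/
theorem sh1_bijective [Finite X] (hX : SmoothSet 𝓛 X) :
    Function.Bijective (LinearMap.pi (sh1 𝓛 ρ D)) := by
  constructor
  · refine (injective_iff_map_eq_zero _).2 ?_
    intro c hc
    obtain ⟨f, rfl⟩ := H1.mk_surjective 𝓛 (mapRep ρ X) c
    rw [H1.mk_eq_zero]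
    have h : ∀ i, ∃ b : V, ∀ u ∈ D.U i, f.1 u (D.x i) = ρ u b - b := by
      intro i
      have := congrFun hc i
      rw [LinearMap.pi_apply, sh1_mk, Pi.zero_apply, H1.mk_eq_zero, mem_B1] at this
      obtain ⟨v, hv⟩ := this
      exact ⟨v, fun u hu => hv ⟨u, hu⟩⟩
    choose b hb using h
    exact shapiro_inj1 D f.2 b hb
  · intro c
    choose z hz using fun i => H1.mk_surjective _ _ (c i)
    choose c' hc' hcc' using fun i => Levels.LC.exists_ext (D.U_mem hX i) (z i).2.1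
    obtain ⟨f, hf, hf'⟩ := shapiro_surj1 (ρ := ρ) D hX hc' (fun i u hu u' hu' => by
      have := (z i).2.2 ⟨u, hu⟩ ⟨u', hu'⟩
      rw [hcc' i ⟨u, hu⟩, hcc' i ⟨u', hu'⟩]
      exact (hcc' i (⟨u, hu⟩ * ⟨u', hu'⟩)).trans this)
    refine ⟨H1.mk 𝓛 (mapRep ρ X) ⟨f, hf⟩, funext fun i => ?_⟩
    rw [LinearMap.pi_apply, sh1_mk, ← hz i]
    congr 1
    refine Subtype.ext (funext ?_)
    rintro ⟨u, hu⟩
    exact (hf' i u hu).trans (hcc' i ⟨u, hu⟩)

/-- **Shapiro's lemma** in degree two. -/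
theorem sh2_bijective [Finite X] (hX : SmoothSet 𝓛 X) :
    Function.Bijective (LinearMap.pi (sh2 𝓛 ρ D)) := by
  constructor
  · refine (injective_iff_map_eq_zero _).2 ?_
    intro c hc
    obtain ⟨f, rfl⟩ := H2.mk_surjective 𝓛 (mapRep ρ X) c
    rw [H2.mk_eq_zero]
    have h : ∀ i, ∃ b : G → V, 𝓛.LC b ∧ ∀ u ∈ D.U i, ∀ u' ∈ D.U i,
        ρ u (b u') - b (u * u') + b u = f.1 u u' (D.x i) := by
      intro i
      have := congrFun hc i
      rw [LinearMap.pi_apply, sh2_mk, Pi.zero_apply, H2.mk_eq_zero, mem_B2] at this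
      obtain ⟨b, hb, hb'⟩ := this
      obtain ⟨b', hb1, hb2⟩ := Levels.LC.exists_ext (D.U_mem hX i) hb
      refine ⟨b', hb1, fun u hu u' hu' => ?_⟩
      have h1 := congrFun (congrFun hb' ⟨u, hu⟩) ⟨u', hu'⟩
      rw [d1_apply, ← hb2, ← hb2, ← hb2] at h1
      exact h1
    choose b hb hb' using h
    exact shapiro_inj2 D hX f.2 hb hb'
  · intro c
    choose z hz using fun i => H2.mk_surjective _ _ (c i)
    choose c' hc' hcc' using fun i => Levels.LC₂.exists_ext (D.U_mem hX i) (z i).2.1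
    obtain ⟨f, hf, hf'⟩ := shapiro_surj2 (ρ := ρ) D hX hc' (fun i u hu u' hu' u'' hu'' => by
      have := (z i).2.2 ⟨u, hu⟩ ⟨u', hu'⟩ ⟨u'', hu''⟩
      rw [← hcc', ← hcc', ← hcc', ← hcc'] at this
      exact this)
    refine ⟨H2.mk 𝓛 (mapRep ρ X) ⟨f, hf⟩, funext fun i => ?_⟩
    rw [LinearMap.pi_apply, sh2_mk, ← hz i]
    congr 1
    refine Subtype.ext (funext ?_)
    rintro ⟨u, hu⟩
    refine funext ?_
    rintro ⟨u', hu'⟩
    exact (hf' i u hu u' hu').trans (hcc' i ⟨u, hu⟩ ⟨u', hu'⟩)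

end Shapiro

end Fermat.Agent.CFT
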