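import Mathlib
import Fermat.Agent.CFT.Basic
import Fermat.Agent.CFT.GalLevels
import Fermat.Agent.CFT.Shapiro

/-!
# Functoriality, conjugation, cup products and corestriction

* `H1.map_map`, `H2.map_map`, `H1.map_id`, `H2.map_id`;
* `H1.congr`, `H2.congr` : isomorphisms;
* `H1.map_conj`, `H2.map_conj` : inner automorphisms act trivially;
* `cup11` : cup product `H¹ × H¹ → H²`, naturality `cup11_map`;
* `scor1`, `scor2` along an injective homomorphism `f : G' → G` with `f.range ∈ 𝓛`: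
  `scor2_res2`, projection formulas.
-/

set_option autoImplicit false

namespace Fermat.Agent.CFT

section Functoriality

variable {k : Type*} [CommRing k] {G G' G'' : Type*} [Group G] [Group G'] [Group G'']
variable {𝓛 : Levels G} {𝓛' : Levels G'} {𝓛'' : Levels G''}
variable {V W Z : Type*} [AddCommGroup V] [Module k V] [AddCommGroup W] [Module k W]
  [AddCommGroup Z] [Module k Z]
variable {ρ : Representation k G V} {σ : Representation k G' W} {τ : Representation k G'' Z}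

lemma Compat.comp {f : G' →* G} {φ : V →ₗ[k] W} {f' : G'' →* G'} {φ' : W →ₗ[k] Z}
    (h : Compat ρ σ f φ) (h' : Compat σ τ f' φ') : Compat ρ τ (f.comp f') (φ' ∘ₗ φ) :=
  fun g v => by
    show φ' (φ (ρ (f (f' g)) v)) = _
    rw [h, h']; rfl

lemma H1.map_map {f : G' →* G} {φ : V →ₗ[k] W} {f' : G'' →* G'} {φ' : W →ₗ[k] Z}
    (hf : Levels.Cont 𝓛' 𝓛 f) (hφ : Compat ρ σ f φ)
    (hf' : Levels.Cont 𝓛'' 𝓛' f') (hφ' : Compat σ τ f' φ') (x : H1 𝓛 ρ) :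
    H1.map 𝓛' 𝓛'' σ τ f' φ' hf' hφ' (H1.map 𝓛 𝓛' ρ σ f φ hf hφ x) =
      H1.map 𝓛 𝓛'' ρ τ (f.comp f') (φ' ∘ₗ φ) (hf.comp hf') (hφ.comp hφ') x := by
  obtain ⟨x, rfl⟩ := H1.mk_surjective _ _ x
  rfl

lemma H2.map_map {f : G' →* G} {φ : V →ₗ[k] W} {f' : G'' →* G'} {φ' : W →ₗ[k] Z}
    (hf : Levels.Cont 𝓛' 𝓛 f) (hφ : Compat ρ σ f φ)
    (hf' : Levels.Cont 𝓛'' 𝓛' f') (hφ' : Compat σ τ f' φ') (x : H2 𝓛 ρ) :
    H2.map 𝓛' 𝓛'' σ τ f' φ' hf' hφ' (H2.map 𝓛 𝓛' ρ σ f φ hf hφ x) =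
      H2.map 𝓛 𝓛'' ρ τ (f.comp f') (φ' ∘ₗ φ) (hf.comp hf') (hφ.comp hφ') x := by
  obtain ⟨x, rfl⟩ := H2.mk_surjective _ _ x
  rfl

lemma H1.map_id {f : G →* G} {φ : V →ₗ[k] V} (hf : Levels.Cont 𝓛 𝓛 f) (hφ : Compat ρ ρ f φ)
    (h1 : ∀ g, f g = g) (h2 : ∀ v, φ v = v) (x : H1 𝓛 ρ) :
    H1.map 𝓛 𝓛 ρ ρ f φ hf hφ x = x := by
  obtain ⟨x, rfl⟩ := H1.mk_surjective _ _ x
  rw [H1.map_mk]
  congr 1
  ext g
  simp [h1, h2]

lemma H2.map_id {f : G →* G} {φ : V →ₗ[k] V} (hf : Levels.Cont 𝓛 𝓛 f) (hφ : Compat ρ ρ f φ)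
    (h1 : ∀ g, f g = g) (h2 : ∀ v, φ v = v) (x : H2 𝓛 ρ) :
    H2.map 𝓛 𝓛 ρ ρ f φ hf hφ x = x := by
  obtain ⟨x, rfl⟩ := H2.mk_surjective _ _ x
  rw [H2.map_mk]
  congr 1
  ext g
  simp [h1, h2]

lemma H1.map_add_coeff {f : G' →* G} {φ φ' : V →ₗ[k] W}
    (hf : Levels.Cont 𝓛' 𝓛 f) (hφ : Compat ρ σ f φ) (hφ' : Compat ρ σ f φ')
    (h : Compat ρ σ f (φ + φ')) (x : H1 𝓛 ρ) :
    H1.map 𝓛 𝓛' ρ σ f (φ + φ') hf h x =
      H1.map 𝓛 𝓛' ρ σ f φ hf hφ x + H1.map 𝓛 𝓛' ρ σ f φ' hf hφ' x := by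
  obtain ⟨x, rfl⟩ := H1.mk_surjective _ _ x
  rw [H1.map_mk, H1.map_mk, H1.map_mk, ← map_add]
  congr 1

lemma H2.map_add_coeff {f : G' →* G} {φ φ' : V →ₗ[k] W}
    (hf : Levels.Cont 𝓛' 𝓛 f) (hφ : Compat ρ σ f φ) (hφ' : Compat ρ σ f φ')
    (h : Compat ρ σ f (φ + φ')) (x : H2 𝓛 ρ) :
    H2.map 𝓛 𝓛' ρ σ f (φ + φ') hf h x =
      H2.map 𝓛 𝓛' ρ σ f φ hf hφ x + H2.map 𝓛 𝓛' ρ σ f φ' hf hφ' x := by
  obtain ⟨x, rfl⟩ := H2.mk_surjective _ _ x
  rw [H2.map_mk, H2.map_mk, H2.map_mk, ← map_add]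
  congr 1

lemma H1.map_smul_coeff {f : G →* G} {φ : V →ₗ[k] V} (c : k) (hf : Levels.Cont 𝓛 𝓛 f)
    (hφ : Compat ρ ρ f φ) (h1 : ∀ g, f g = g) (h2 : ∀ v, φ v = c • v) (x : H1 𝓛 ρ) :
    H1.map 𝓛 𝓛 ρ ρ f φ hf hφ x = c • x := by
  obtain ⟨x, rfl⟩ := H1.mk_surjective _ _ x
  rw [H1.map_mk, ← map_smul]
  congr 1
  ext g
  simp [h1, h2]

lemma H2.map_smul_coeff {f : G →* G} {φ : V →ₗ[k] V} (c : k) (hf : Levels.Cont 𝓛 𝓛 f)
    (hφ : Compat ρ ρ f φ) (h1 : ∀ g, f g = g) (h2 : ∀ v, φ v = c • v) (x : H2 𝓛 ρ) :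
    H2.map 𝓛 𝓛 ρ ρ f φ hf hφ x = c • x := by
  obtain ⟨x, rfl⟩ := H2.mk_surjective _ _ x
  rw [H2.map_mk, ← map_smul]
  congr 1
  ext g
  simp [h1, h2]

variable (𝓛 𝓛' ρ σ) in
/-- isomorphism on `H1` -/
lemma H1.map_bijective (f : G' →* G) (φ : V →ₗ[k] W) (f' : G →* G') (φ' : W →ₗ[k] V)
    (hf : Levels.Cont 𝓛' 𝓛 f) (hφ : Compat ρ σ f φ)
    (hf' : Levels.Cont 𝓛 𝓛' f') (h1 : ∀ g, f (f' g) = g) (h2 : ∀ g, f' (f g) = g)
    (h3 : ∀ v, φ' (φ v) = v) (h4 : ∀ v, φ (φ' v) = v) :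
    Function.Bijective (H1.map 𝓛 𝓛' ρ σ f φ hf hφ) := by
  have hφ' : Compat σ ρ f' φ' := fun g w => by
    obtain ⟨v, rfl⟩ : ∃ v, φ v = w := ⟨_, h4 w⟩
    rw [← hφ, h1, h3, h3]
  rw [Function.bijective_iff_has_inverse]
  refine ⟨H1.map 𝓛' 𝓛 σ ρ f' φ' hf' hφ', fun x => ?_, fun x => ?_⟩
  · rw [H1.map_map]; exact H1.map_id _ _ h1 h3 x
  · rw [H1.map_map]; exact H1.map_id _ _ h2 h4 x

variable (𝓛 𝓛' ρ σ) in
/-- isomorphism on `H2` -/
lemma H2.map_bijective (f : G' →* G) (φ : V →ₗ[k] W) (f' : G →* G') (φ' : W →ₗ[k] V)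
    (hf : Levels.Cont 𝓛' 𝓛 f) (hφ : Compat ρ σ f φ)
    (hf' : Levels.Cont 𝓛 𝓛' f') (h1 : ∀ g, f (f' g) = g) (h2 : ∀ g, f' (f g) = g)
    (h3 : ∀ v, φ' (φ v) = v) (h4 : ∀ v, φ (φ' v) = v) :
    Function.Bijective (H2.map 𝓛 𝓛' ρ σ f φ hf hφ) := by
  have hφ' : Compat σ ρ f' φ' := fun g w => by
    obtain ⟨v, rfl⟩ : ∃ v, φ v = w := ⟨_, h4 w⟩
    rw [← hφ, h1, h3, h3]
  rw [Function.bijective_iff_has_inverse]
  refine ⟨H2.map 𝓛' 𝓛 σ ρ f' φ' hf' hφ', fun x => ?_, fun x => ?_⟩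
  · rw [H2.map_map]; exact H2.map_id _ _ h1 h3 x
  · rw [H2.map_map]; exact H2.map_id _ _ h2 h4 x

/-! ### inner automorphisms act trivially -/

lemma cont_conj (g : G) : Levels.Cont 𝓛 𝓛 (MulAut.conj g).toMonoidHom := fun H hH => by
  obtain ⟨N, hN, hle, hn⟩ := Levels.exists_normal hH
  refine Levels.up_mem hN fun s hs => ?_
  exact hle (hn.conj_mem s hs g)

lemma compat_conj (g : G) : Compat ρ ρ (MulAut.conj g).toMonoidHom (ρ g⁻¹) := fun h v => by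
  simp only [← Module.End.mul_apply, ← map_mul]
  congr 2
  simp [mul_assoc]

lemma conj_toMonoidHom_apply (g a : G) : (MulAut.conj g).toMonoidHom a = g * a * g⁻¹ := rfl

lemma rho_inv_rho (g : G) (v : V) : ρ g⁻¹ (ρ g v) = v := by
  rw [← Module.End.mul_apply, ← map_mul, inv_mul_cancel, map_one, Module.End.one_apply]

lemma rho_rho_inv (g : G) (v : V) : ρ g (ρ g⁻¹ v) = v := by
  rw [← Module.End.mul_apply, ← map_mul, mul_inv_cancel, map_one, Module.End.one_apply]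

lemma rho_mul_apply (g h : G) (v : V) : ρ (g * h) v = ρ g (ρ h v) := by
  rw [map_mul, Module.End.mul_apply]

lemma H1.map_conj (g : G) (x : H1 𝓛 ρ) :
    H1.map 𝓛 𝓛 ρ ρ (MulAut.conj g).toMonoidHom (ρ g⁻¹) (cont_conj g) (compat_conj g) x = x := by
  obtain ⟨f, rfl⟩ := H1.mk_surjective _ _ x
  rw [H1.map_mk, H1.mk_eq_mk, mem_B1]
  refine ⟨-ρ g⁻¹ (f.1 g), fun a => ?_⟩
  have hc := f.2.2
  simp only [Pi.sub_apply, pp1_apply, conj_toMonoidHom_apply]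
  have h1 : f.1 (g * a * g⁻¹ * g) = f.1 (g * a) := by
    congr 1; simp
  rw [hc (g * a * g⁻¹) g, hc g a] at h1
  have h2 : f.1 (g * a * g⁻¹) = ρ g (f.1 a) + f.1 g - ρ (g * a * g⁻¹) (f.1 g) := by
    rw [← h1]; abel
  rw [h2, map_sub, map_add, rho_mul_apply (g * a) g⁻¹, rho_mul_apply g a, rho_inv_rho,
    rho_inv_rho, map_neg]
  abel

lemma H2.map_conj (g : G) (x : H2 𝓛 ρ) :
    H2.map 𝓛 𝓛 ρ ρ (MulAut.conj g).toMonoidHom (ρ g⁻¹) (cont_conj g) (compat_conj g) x = x := by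
  obtain ⟨f, rfl⟩ := H2.mk_surjective _ _ x
  rw [H2.map_mk, H2.mk_eq_mk, mem_B2]
  refine ⟨fun a => ρ g⁻¹ (f.1 (g * a * g⁻¹) g - f.1 g a), ?_, ?_⟩
  · obtain ⟨N, hN, hn, h⟩ := f.2.1.exists_normal
    refine ⟨N, hN, fun a s hs => ?_⟩
    have h1 : g * (a * s) * g⁻¹ = g * a * g⁻¹ * (g * s * g⁻¹) := by group
    have h2 := h (g * a * g⁻¹) g _ (hn.conj_mem s hs g) 1 N.one_mem
    have h3 := h g a 1 N.one_mem s hs
    rw [mul_one] at h2 h3
    simp only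
    rw [h1, h2, h3]
  · ext a b
    have hc := f.2.2
    simp only [d1_apply, Pi.sub_apply, pp2_apply, conj_toMonoidHom_apply]
    have e1 := hc (g * a * g⁻¹) (g * b * g⁻¹) g
    have e2 := hc (g * a * g⁻¹) g b
    have e3 := hc g a b
    have m1 : g * a * g⁻¹ * (g * b * g⁻¹) = g * (a * b) * g⁻¹ := by group
    have m2 : g * b * g⁻¹ * g = g * b := by group
    have m3 : g * a * g⁻¹ * g = g * a := by group
    rw [m1, m2] at e1
    rw [m3] at e2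
    have m4 : ∀ v, ρ g⁻¹ (ρ (g * a * g⁻¹) v) = ρ a (ρ g⁻¹ v) := fun v => by
      rw [rho_mul_apply (g * a), rho_mul_apply g a, rho_inv_rho]
    rw [← m4, ← map_sub, ← map_add, ← rho_inv_rho (ρ := ρ) g (f.1 a b), ← map_sub, map_sub]
    congr 1
    have e1' : ρ (g * a * g⁻¹) (f.1 (g * b * g⁻¹) g) = f.1 (g * (a * b) * g⁻¹) g
      + f.1 (g * a * g⁻¹) (g * b * g⁻¹) - f.1 (g * a * g⁻¹) (g * b) := by
      rw [e1]; abel
    have e2' : ρ (g * a * g⁻¹) (f.1 g b) = f.1 (g * a) b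
      + f.1 (g * a * g⁻¹) g - f.1 (g * a * g⁻¹) (g * b) := by
      rw [e2]; abel
    have e3' : ρ g (f.1 a b) = f.1 (g * a) b + f.1 g a - f.1 g (a * b) := by
      rw [e3]; abel
    rw [e1', e2', e3']
    abel

end Functoriality

section Cup

variable {k : Type*} [CommRing k] {G : Type*} [Group G] {𝓛 : Levels G}
variable {V W Z : Type*} [AddCommGroup V] [Module k V] [AddCommGroup W] [Module k W]
  [AddCommGroup Z] [Module k Z]
variable {ρ : Representation k G V} {σ : Representation k G W} {τ : Representation k G Z}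

/-- equivariance of a bilinear map -/
def Equiv₂ (ρ : Representation k G V) (σ : Representation k G W) (τ : Representation k G Z)
    (β : V →ₗ[k] W →ₗ[k] Z) : Prop := ∀ g v w, β (ρ g v) (σ g w) = τ g (β v w)

/-- cup product of 1-cochains: `(a ∪ b)(g,h) = β (a g) (g • b h)` -/
def cupC (σ : Representation k G W) (β : V →ₗ[k] W →ₗ[k] Z) (a : G → V) (b : G → W) :
    G → G → Z := fun g h => β (a g) (σ g (b h))

@[simp] lemma cupC_apply (β : V →ₗ[k] W →ₗ[k] Z) (a : G → V) (b : G → W) (g h : G) :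
    cupC σ β a b g h = β (a g) (σ g (b h)) := rfl

lemma LC₂_cupC (hs : Smooth 𝓛 σ) (β : V →ₗ[k] W →ₗ[k] Z) {a : G → V} {b : G → W}
    (ha : 𝓛.LC a) (hb : 𝓛.LC b) : 𝓛.LC₂ (cupC σ β a b) :=
  (ha.fst).comp₂ (LC_act hs hb) (fun v w => β v w)

lemma cupC_mem_Z2 (hs : Smooth 𝓛 σ) {β : V →ₗ[k] W →ₗ[k] Z} (hβ : Equiv₂ ρ σ τ β) {a : G → V}
    {b : G → W} (ha : a ∈ Z1 𝓛 ρ) (hb : b ∈ Z1 𝓛 σ) : cupC σ β a b ∈ Z2 𝓛 τ := by
  refine ⟨LC₂_cupC hs β ha.1 hb.1, fun g h j => ?_⟩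
  simp only [cupC_apply, ha.2, hb.2, ← hβ g, map_add, LinearMap.add_apply, rho_mul_apply]
  abel

lemma cupC_mem_B2_left {β : V →ₗ[k] W →ₗ[k] Z} (hβ : Equiv₂ ρ σ τ β) {a : G → V}
    {b : G → W} (ha : a ∈ B1 ρ) (hb : b ∈ Z1 𝓛 σ) : cupC σ β a b ∈ B2 𝓛 τ := by
  obtain ⟨v, hv⟩ := mem_B1.1 ha
  refine mem_B2.2 ⟨fun g => β v (b g), hb.1.comp (fun w => β v w), ?_⟩
  ext g h
  simp only [d1_apply, cupC_apply, hv, hb.2, ← hβ g, map_add, map_sub, LinearMap.sub_apply]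
  abel

lemma cupC_mem_B2_right (hs : Smooth 𝓛 σ) {β : V →ₗ[k] W →ₗ[k] Z} (hβ : Equiv₂ ρ σ τ β)
    {a : G → V} {b : G → W} (ha : a ∈ Z1 𝓛 ρ) (hb : b ∈ B1 σ) : cupC σ β a b ∈ B2 𝓛 τ := by
  obtain ⟨w, hw⟩ := mem_B1.1 hb
  refine mem_B2.2 ⟨fun g => -β (a g) (σ g w), ?_, ?_⟩
  · have h1 : 𝓛.LC (fun g => σ g w) := by
      obtain ⟨H, hH, h⟩ := hs w
      exact ⟨H, hH, fun g s hs => by
        show σ (g * s) w = σ g w
        rw [rho_mul_apply, h s hs]⟩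
    exact ha.1.comp₂ h1 (fun v w => -β v w)
  · ext g h
    simp only [d1_apply, cupC_apply, hw, ha.2, ← hβ g, map_add, map_sub, map_neg,
      LinearMap.add_apply, rho_mul_apply]
    abel

/-- cup product on 1-cocycles, with values in `H2` -/
def cupZ (hs : Smooth 𝓛 σ) (β : V →ₗ[k] W →ₗ[k] Z) (hβ : Equiv₂ ρ σ τ β) :
    ↥(Z1 𝓛 ρ) →ₗ[k] ↥(Z1 𝓛 σ) →ₗ[k] H2 𝓛 τ :=
  LinearMap.mk₂ k (fun a b => H2.mk 𝓛 τ ⟨cupC σ β a b, cupC_mem_Z2 hs hβ a.2 b.2⟩)
    (fun a a' b => by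
      rw [← map_add]; congr 1; ext g h; simp)
    (fun c a b => by
      rw [← map_smul]; congr 1; ext g h; simp)
    (fun a b b' => by
      rw [← map_add]; congr 1; ext g h; simp)
    (fun c a b => by
      rw [← map_smul]; congr 1; ext g h; simp)

/-- **Cup product** `H¹ × H¹ → H²`. -/
def cup11 (hs : Smooth 𝓛 σ) (β : V →ₗ[k] W →ₗ[k] Z) (hβ : Equiv₂ ρ σ τ β) :
    H1 𝓛 ρ →ₗ[k] H1 𝓛 σ →ₗ[k] H2 𝓛 τ :=
  Submodule.liftQ _
    (LinearMap.mk₂ k (fun (a : ↥(Z1 𝓛 ρ)) (y : H1 𝓛 σ) =>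
        Submodule.liftQ _ (cupZ hs β hβ a) (by
          intro b hb
          rw [LinearMap.mem_ker]
          exact H2.mk_eq_zero.2 (cupC_mem_B2_right hs hβ a.2 hb)) y)
      (fun a a' y => by
        obtain ⟨y, rfl⟩ := H1.mk_surjective _ _ y
        exact congrArg (fun φ => φ y) ((cupZ hs β hβ).map_add a a'))
      (fun c a y => by
        obtain ⟨y, rfl⟩ := H1.mk_surjective _ _ y
        exact congrArg (fun φ => φ y) ((cupZ hs β hβ).map_smul c a))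
      (fun a y y' => map_add _ _ _)
      (fun c a y => map_smul _ _ _))
    (by
      intro a ha
      rw [LinearMap.mem_ker]
      refine LinearMap.ext fun y => ?_
      obtain ⟨y, rfl⟩ := H1.mk_surjective _ _ y
      exact H2.mk_eq_zero.2 (cupC_mem_B2_left hβ ha y.2))

lemma cup11_mk (hs : Smooth 𝓛 σ) (β : V →ₗ[k] W →ₗ[k] Z) (hβ : Equiv₂ ρ σ τ β)
    (a : ↥(Z1 𝓛 ρ)) (b : ↥(Z1 𝓛 σ)) :
    cup11 hs β hβ (H1.mk 𝓛 ρ a) (H1.mk 𝓛 σ b) =
      H2.mk 𝓛 τ ⟨cupC σ β a b, cupC_mem_Z2 hs hβ a.2 b.2⟩ := rfl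

/-- functoriality of cup products -/
lemma cup11_map {G' : Type*} [Group G'] {𝓛' : Levels G'}
    {V' W' Z' : Type*} [AddCommGroup V'] [Module k V'] [AddCommGroup W'] [Module k W']
    [AddCommGroup Z'] [Module k Z']
    {ρ' : Representation k G' V'} {σ' : Representation k G' W'} {τ' : Representation k G' Z'}
    (hs : Smooth 𝓛 σ) (β : V →ₗ[k] W →ₗ[k] Z) (hβ : Equiv₂ ρ σ τ β)
    (hs' : Smooth 𝓛' σ') (β' : V' →ₗ[k] W' →ₗ[k] Z') (hβ' : Equiv₂ ρ' σ' τ' β')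
    {f : G' →* G} {φ : V →ₗ[k] V'} {ψ : W →ₗ[k] W'} {θ : Z →ₗ[k] Z'}
    (hf : Levels.Cont 𝓛' 𝓛 f) (hφ : Compat ρ ρ' f φ) (hψ : Compat σ σ' f ψ)
    (hθ : Compat τ τ' f θ) (h : ∀ v w, θ (β v w) = β' (φ v) (ψ w)) (x : H1 𝓛 ρ) (y : H1 𝓛 σ) :
    H2.map 𝓛 𝓛' τ τ' f θ hf hθ (cup11 hs β hβ x y) =
      cup11 hs' β' hβ' (H1.map 𝓛 𝓛' ρ ρ' f φ hf hφ x) (H1.map 𝓛 𝓛' σ σ' f ψ hf hψ y) := by
  obtain ⟨x, rfl⟩ := H1.mk_surjective _ _ x
  obtain ⟨y, rfl⟩ := H1.mk_surjective _ _ y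
  rw [cup11_mk, H2.map_mk, H1.map_mk, H1.map_mk, cup11_mk]
  congr 1
  ext g g'
  simp only [pp2_apply, cupC_apply, h, pp1_apply, hψ (g)]

/-- graded commutativity in degree (1,1) -/
lemma cup11_comm (hs : Smooth 𝓛 σ) (β : V →ₗ[k] W →ₗ[k] Z) (hβ : Equiv₂ ρ σ τ β)
    (hs' : Smooth 𝓛 ρ) (hβ' : Equiv₂ σ ρ τ β.flip) (x : H1 𝓛 ρ) (y : H1 𝓛 σ) :
    cup11 hs β hβ x y = - cup11 hs' β.flip hβ' y x := by
  obtain ⟨x, rfl⟩ := H1.mk_surjective _ _ x
  obtain ⟨y, rfl⟩ := H1.mk_surjective _ _ y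
  rw [cup11_mk, cup11_mk, ← map_neg, H2.mk_eq_mk, mem_B2]
  refine ⟨fun g => -β (x.1 g) (y.1 g), x.2.1.comp₂ y.2.1 (fun v w => -β v w), ?_⟩
  ext g h
  have hx := x.2.2
  have hy := y.2.2
  simp only [d1_apply, Pi.sub_apply, Submodule.coe_neg, Pi.neg_apply, cupC_apply,
    LinearMap.flip_apply, hx, hy, ← hβ g, map_add, map_neg, LinearMap.add_apply]
  abel

end Cup

section Cor

variable {k : Type*} [CommRing k] {G G' : Type*} [Group G] [Group G'] {𝓛 : Levels G}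
variable {V W Z : Type*} [AddCommGroup V] [Module k V] [AddCommGroup W] [Module k W]
  [AddCommGroup Z] [Module k Z]
variable {ρ : Representation k G V} {σ : Representation k G W} {τ : Representation k G Z}
variable {X : Type*} [MulAction G X]

/-- the sum map `(X → V) → V` -/
noncomputable def sumMap (k V X : Type*) [CommRing k] [AddCommGroup V] [Module k V] [Finite X] :
    (X → V) →ₗ[k] V :=
  letI := Fintype.ofFinite X
  ∑ x : X, evalMap k V x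

lemma sumMap_apply [Fintype X] (f : X → V) : sumMap k V X f = ∑ x, f x := by
  rw [sumMap, LinearMap.sum_apply]
  simp only [evalMap_apply]
  congr!

/-- the constants `V → (X → V)` -/
def constMap (k V X : Type*) [CommRing k] [AddCommGroup V] [Module k V] : V →ₗ[k] (X → V) where
  toFun v _ := v
  map_add' _ _ := rfl
  map_smul' _ _ := rfl

@[simp] lemma constMap_apply (v : V) (x : X) : constMap k V X v x = v := rfl

lemma compat_sumMap [Finite X] : Compat (mapRep ρ X) ρ (MonoidHom.id G) (sumMap k V X) := by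
  classical
  intro g f
  have := Fintype.ofFinite X
  rw [sumMap_apply, sumMap_apply, map_sum]
  simp only [mapRep_apply, MonoidHom.id_apply]
  exact Equiv.sum_comp (MulAction.toPerm g⁻¹ : Equiv.Perm X) (fun y => ρ g (f y))

lemma compat_constMap : Compat ρ (mapRep ρ X) (MonoidHom.id G) (constMap k V X) := by
  intro g v
  ext y
  simp

/-- apply a linear map pointwise -/
def postMap (X : Type*) (φ : V →ₗ[k] W) : (X → V) →ₗ[k] (X → W) where
  toFun f x := φ (f x)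
  map_add' _ _ := by ext; simp
  map_smul' _ _ := by ext; simp

@[simp] lemma postMap_apply (φ : V →ₗ[k] W) (f : X → V) (x : X) : postMap X φ f x = φ (f x) := rfl

lemma compat_postMap {φ : V →ₗ[k] W} (hφ : Compat ρ σ (MonoidHom.id G) φ) :
    Compat (mapRep ρ X) (mapRep σ X) (MonoidHom.id G) (postMap X φ) := by
  intro g f
  ext y
  have := hφ g (f (g⁻¹ • y))
  simpa using this

lemma sumMap_postMap [Finite X] (φ : V →ₗ[k] W) (f : X → V) :
    sumMap k W X (postMap X φ f) = φ (sumMap k V X f) := by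
  have := Fintype.ofFinite X
  rw [sumMap_apply, sumMap_apply, map_sum]; rfl

lemma sumMap_constMap [Finite X] (v : V) : sumMap k V X (constMap k V X v) = Nat.card X • v := by
  have := Fintype.ofFinite X
  rw [sumMap_apply]
  simp [Nat.card_eq_fintype_card]

variable (𝓛 ρ)

/-- Restriction along a homomorphism in degree 1. -/
def res1 (f : G' →* G) : H1 𝓛 ρ →ₗ[k] H1 (𝓛.comap f) (resRep ρ f) :=
  H1.map 𝓛 (𝓛.comap f) ρ (resRep ρ f) f LinearMap.id (Levels.cont_comap f) (fun _ _ => rfl)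

/-- Restriction along a homomorphism in degree 2. -/
def res2 (f : G' →* G) : H2 𝓛 ρ →ₗ[k] H2 (𝓛.comap f) (resRep ρ f) :=
  H2.map 𝓛 (𝓛.comap f) ρ (resRep ρ f) f LinearMap.id (Levels.cont_comap f) (fun _ _ => rfl)

lemma compat_she {f : G' →* G} : Compat (mapRep ρ (G ⧸ f.range)) (resRep ρ f) f
    (evalMap k V ((1 : G) : G ⧸ f.range)) := by
  intro g v
  have h : (f g)⁻¹ • ((1 : G) : G ⧸ f.range) = ((1 : G) : G ⧸ f.range) := by
    rw [MulAction.Quotient.smul_mk, QuotientGroup.eq]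
    simp
  simp [h]

/-- Shapiro map along a homomorphism in degree 1 -/
def she1 (f : G' →* G) : H1 𝓛 (mapRep ρ (G ⧸ f.range)) →ₗ[k] H1 (𝓛.comap f) (resRep ρ f) :=
  H1.map 𝓛 (𝓛.comap f) _ (resRep ρ f) f (evalMap k V ((1 : G) : G ⧸ f.range))
    (Levels.cont_comap f) (compat_she ρ)

/-- Shapiro map along a homomorphism in degree 2 -/
def she2 (f : G' →* G) : H2 𝓛 (mapRep ρ (G ⧸ f.range)) →ₗ[k] H2 (𝓛.comap f) (resRep ρ f) :=
  H2.map 𝓛 (𝓛.comap f) _ (resRep ρ f) f (evalMap k V ((1 : G) : G ⧸ f.range))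
    (Levels.cont_comap f) (compat_she ρ)

lemma cont_rangeRestrict (f : G' →* G) :
    Levels.Cont (𝓛.comap f) (𝓛.restrict f.range) f.rangeRestrict := by
  rintro J ⟨H, hH, h⟩
  exact ⟨H, hH, fun x hx => h hx⟩

lemma cont_rangeRestrict_symm {f : G' →* G} (hf : Function.Injective f) :
    Levels.Cont (𝓛.restrict f.range) (𝓛.comap f)
      (MonoidHom.ofInjective hf).symm.toMonoidHom := by
  rintro J ⟨H, hH, h⟩
  refine ⟨H, hH, fun x hx => h ?_⟩
  rw [Subgroup.mem_comap]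
  have : f ((MonoidHom.ofInjective hf).symm x) = x := by
    have h1 := (MonoidHom.ofInjective hf).apply_symm_apply x
    exact congrArg Subtype.val h1
  show f ((MonoidHom.ofInjective hf).symm x) ∈ H
  rw [this]; exact hx

variable {𝓛}

theorem she1_bijective {f : G' →* G} (hf : Function.Injective f) (hr : f.range ∈ 𝓛) :
    Function.Bijective (she1 𝓛 ρ f) := by
  have : Finite (G ⧸ f.range) := by
    have := Levels.finiteIndex hr
    exact Subgroup.finite_quotient_of_finiteIndex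
  have h1 := sh1_bijective 𝓛 ρ (OrbitData.quotient f.range) (smoothSet_quotient hr)
  have h2 : Function.Bijective (sh1 𝓛 ρ (OrbitData.quotient f.range) ()) := by
    constructor
    · intro x y hxy
      exact h1.1 (funext fun i => hxy)
    · intro y
      obtain ⟨x, hx⟩ := h1.2 (fun _ => y)
      exact ⟨x, congrFun hx ()⟩
  have h3 := H1.map_bijective (𝓛.restrict f.range) (𝓛.comap f) (resRep ρ f.range.subtype)
    (resRep ρ f) f.rangeRestrict LinearMap.id (MonoidHom.ofInjective hf).symm.toMonoidHom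
    LinearMap.id (cont_rangeRestrict 𝓛 f) (fun _ _ => rfl) (cont_rangeRestrict_symm 𝓛 hf)
    (fun g => (MonoidHom.ofInjective hf).apply_symm_apply g)
    (fun g => (MonoidHom.ofInjective hf).symm_apply_apply g) (fun _ => rfl) (fun _ => rfl)
  have h4 : ⇑(she1 𝓛 ρ f) = (H1.map (𝓛.restrict f.range) (𝓛.comap f)
    (resRep ρ f.range.subtype) (resRep ρ f) f.rangeRestrict LinearMap.id
    (cont_rangeRestrict 𝓛 f) (fun _ _ => rfl)) ∘ (sh1 𝓛 ρ (OrbitData.quotient f.range) ()) := by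
    ext x
    obtain ⟨x, rfl⟩ := H1.mk_surjective _ _ x
    rfl
  rw [h4]
  exact h3.comp h2

theorem she2_bijective {f : G' →* G} (hf : Function.Injective f) (hr : f.range ∈ 𝓛) :
    Function.Bijective (she2 𝓛 ρ f) := by
  have : Finite (G ⧸ f.range) := by
    have := Levels.finiteIndex hr
    exact Subgroup.finite_quotient_of_finiteIndex
  have h1 := sh2_bijective 𝓛 ρ (OrbitData.quotient f.range) (smoothSet_quotient hr)
  have h2 : Function.Bijective (sh2 𝓛 ρ (OrbitData.quotient f.range) ()) := by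
    constructor
    · intro x y hxy
      exact h1.1 (funext fun i => hxy)
    · intro y
      obtain ⟨x, hx⟩ := h1.2 (fun _ => y)
      exact ⟨x, congrFun hx ()⟩
  have h3 := H2.map_bijective (𝓛.restrict f.range) (𝓛.comap f) (resRep ρ f.range.subtype)
    (resRep ρ f) f.rangeRestrict LinearMap.id (MonoidHom.ofInjective hf).symm.toMonoidHom
    LinearMap.id (cont_rangeRestrict 𝓛 f) (fun _ _ => rfl) (cont_rangeRestrict_symm 𝓛 hf)
    (fun g => (MonoidHom.ofInjective hf).apply_symm_apply g)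
    (fun g => (MonoidHom.ofInjective hf).symm_apply_apply g) (fun _ => rfl) (fun _ => rfl)
  have h4 : ⇑(she2 𝓛 ρ f) = (H2.map (𝓛.restrict f.range) (𝓛.comap f)
    (resRep ρ f.range.subtype) (resRep ρ f) f.rangeRestrict LinearMap.id
    (cont_rangeRestrict 𝓛 f) (fun _ _ => rfl)) ∘ (sh2 𝓛 ρ (OrbitData.quotient f.range) ()) := by
    ext x
    obtain ⟨x, rfl⟩ := H2.mk_surjective _ _ x
    rfl
  rw [h4]
  exact h3.comp h2

lemma finite_quotient_of_mem {U : Subgroup G} (hU : U ∈ 𝓛) : Finite (G ⧸ U) :=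
  have := Levels.finiteIndex hU
  Subgroup.finite_quotient_of_finiteIndex

/-- corestriction in degree 1 along an injective homomorphism with image a level -/
noncomputable def scor1 {f : G' →* G} (hf : Function.Injective f) (hr : f.range ∈ 𝓛) :
    H1 (𝓛.comap f) (resRep ρ f) →ₗ[k] H1 𝓛 ρ :=
  letI := finite_quotient_of_mem hr
  (H1.map 𝓛 𝓛 (mapRep ρ (G ⧸ f.range)) ρ (MonoidHom.id G) (sumMap k V (G ⧸ f.range))
    Levels.cont_id compat_sumMap) ∘ₗ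
    (LinearEquiv.ofBijective (she1 𝓛 ρ f) (she1_bijective ρ hf hr)).symm.toLinearMap

/-- corestriction in degree 2 along an injective homomorphism with image a level -/
noncomputable def scor2 {f : G' →* G} (hf : Function.Injective f) (hr : f.range ∈ 𝓛) :
    H2 (𝓛.comap f) (resRep ρ f) →ₗ[k] H2 𝓛 ρ :=
  letI := finite_quotient_of_mem hr
  (H2.map 𝓛 𝓛 (mapRep ρ (G ⧸ f.range)) ρ (MonoidHom.id G) (sumMap k V (G ⧸ f.range))
    Levels.cont_id compat_sumMap) ∘ₗ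
    (LinearEquiv.ofBijective (she2 𝓛 ρ f) (she2_bijective ρ hf hr)).symm.toLinearMap

variable {ρ}

lemma scor1_she1 {f : G' →* G} (hf : Function.Injective f) (hr : f.range ∈ 𝓛)
    [Finite (G ⧸ f.range)] (x : H1 𝓛 (mapRep ρ (G ⧸ f.range))) :
    scor1 ρ hf hr (she1 𝓛 ρ f x) = H1.map 𝓛 𝓛 (mapRep ρ (G ⧸ f.range)) ρ (MonoidHom.id G)
      (sumMap k V (G ⧸ f.range)) Levels.cont_id compat_sumMap x := by
  simp only [scor1, LinearMap.comp_apply, LinearEquiv.coe_coe]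
  congr 1
  exact (LinearEquiv.ofBijective (she1 𝓛 ρ f) (she1_bijective ρ hf hr)).symm_apply_apply x

lemma scor2_she2 {f : G' →* G} (hf : Function.Injective f) (hr : f.range ∈ 𝓛)
    [Finite (G ⧸ f.range)] (x : H2 𝓛 (mapRep ρ (G ⧸ f.range))) :
    scor2 ρ hf hr (she2 𝓛 ρ f x) = H2.map 𝓛 𝓛 (mapRep ρ (G ⧸ f.range)) ρ (MonoidHom.id G)
      (sumMap k V (G ⧸ f.range)) Levels.cont_id compat_sumMap x := by
  simp only [scor2, LinearMap.comp_apply, LinearEquiv.coe_coe]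
  congr 1
  exact (LinearEquiv.ofBijective (she2 𝓛 ρ f) (she2_bijective ρ hf hr)).symm_apply_apply x

/-- `cor ∘ res` is multiplication by the index -/
theorem scor1_res1 {f : G' →* G} (hf : Function.Injective f) (hr : f.range ∈ 𝓛) (x : H1 𝓛 ρ) :
    scor1 ρ hf hr (res1 𝓛 ρ f x) = (f.range.index : k) • x := by
  have := finite_quotient_of_mem hr
  have h1 : res1 𝓛 ρ f x = she1 𝓛 ρ f (H1.map 𝓛 𝓛 ρ (mapRep ρ (G ⧸ f.range)) (MonoidHom.id G)
      (constMap k V (G ⧸ f.range)) Levels.cont_id compat_constMap x) := by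
    obtain ⟨x, rfl⟩ := H1.mk_surjective _ _ x
    rfl
  rw [h1, scor1_she1, H1.map_map]
  refine H1.map_smul_coeff _ _ _ (fun _ => rfl) (fun v => ?_) x
  rw [LinearMap.comp_apply, sumMap_constMap, Nat.cast_smul_eq_nsmul]
  rfl

/-- `cor ∘ res` is multiplication by the index -/
theorem scor2_res2 {f : G' →* G} (hf : Function.Injective f) (hr : f.range ∈ 𝓛) (x : H2 𝓛 ρ) :
    scor2 ρ hf hr (res2 𝓛 ρ f x) = (f.range.index : k) • x := by
  have := finite_quotient_of_mem hr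
  have h1 : res2 𝓛 ρ f x = she2 𝓛 ρ f (H2.map 𝓛 𝓛 ρ (mapRep ρ (G ⧸ f.range)) (MonoidHom.id G)
      (constMap k V (G ⧸ f.range)) Levels.cont_id compat_constMap x) := by
    obtain ⟨x, rfl⟩ := H2.mk_surjective _ _ x
    rfl
  rw [h1, scor2_she2, H2.map_map]
  refine H2.map_smul_coeff _ _ _ (fun _ => rfl) (fun v => ?_) x
  rw [LinearMap.comp_apply, sumMap_constMap, Nat.cast_smul_eq_nsmul]
  rfl

/-- restriction to a level of index invertible in `k` is injective -/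
theorem res2_injective_of_index {f : G' →* G} (hf : Function.Injective f) (hr : f.range ∈ 𝓛)
    (hu : IsUnit (f.range.index : k)) : Function.Injective (res2 𝓛 ρ f) := by
  refine (injective_iff_map_eq_zero _).2 fun x hx => ?_
  have h := scor2_res2 hf hr x
  rw [hx, map_zero] at h
  obtain ⟨u, hu⟩ := hu
  rw [← hu, ← Units.smul_def] at h
  exact (smul_eq_zero_iff_eq u).1 h.symm

theorem res1_injective_of_index {f : G' →* G} (hf : Function.Injective f) (hr : f.range ∈ 𝓛)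
    (hu : IsUnit (f.range.index : k)) : Function.Injective (res1 𝓛 ρ f) := by
  refine (injective_iff_map_eq_zero _).2 fun x hx => ?_
  have h := scor1_res1 hf hr x
  rw [hx, map_zero] at h
  obtain ⟨u, hu⟩ := hu
  rw [← hu, ← Units.smul_def] at h
  exact (smul_eq_zero_iff_eq u).1 h.symm

/-- naturality of corestriction in the coefficients -/
theorem scor2_map {f : G' →* G} (hf : Function.Injective f) (hr : f.range ∈ 𝓛)
    {φ : V →ₗ[k] W} (hφ : Compat ρ σ (MonoidHom.id G) φ)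
    (hφ' : Compat (resRep ρ f) (resRep σ f) (MonoidHom.id G') φ)
    (x : H2 (𝓛.comap f) (resRep ρ f)) :
    H2.map 𝓛 𝓛 ρ σ (MonoidHom.id G) φ Levels.cont_id hφ (scor2 ρ hf hr x) =
      scor2 σ hf hr (H2.map (𝓛.comap f) (𝓛.comap f) (resRep ρ f) (resRep σ f)
        (MonoidHom.id G') φ Levels.cont_id hφ' x) := by
  have := finite_quotient_of_mem hr
  obtain ⟨y, rfl⟩ := (she2_bijective ρ hf hr).2 x
  have h1 : H2.map (𝓛.comap f) (𝓛.comap f) (resRep ρ f) (resRep σ f)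
        (MonoidHom.id G') φ Levels.cont_id hφ' (she2 𝓛 ρ f y) =
      she2 𝓛 σ f (H2.map 𝓛 𝓛 _ _ (MonoidHom.id G) (postMap _ φ) Levels.cont_id
        (compat_postMap hφ) y) := by
    obtain ⟨x, rfl⟩ := H2.mk_surjective _ _ y
    rfl
  rw [h1, scor2_she2, scor2_she2, H2.map_map, H2.map_map]
  obtain ⟨x, rfl⟩ := H2.mk_surjective _ _ y
  rw [H2.map_mk, H2.map_mk]
  congr 1
  ext g h
  simp only [pp2_apply, LinearMap.comp_apply, sumMap_postMap, MonoidHom.comp_apply,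
    MonoidHom.id_apply]

theorem scor1_map {f : G' →* G} (hf : Function.Injective f) (hr : f.range ∈ 𝓛)
    {φ : V →ₗ[k] W} (hφ : Compat ρ σ (MonoidHom.id G) φ)
    (hφ' : Compat (resRep ρ f) (resRep σ f) (MonoidHom.id G') φ)
    (x : H1 (𝓛.comap f) (resRep ρ f)) :
    H1.map 𝓛 𝓛 ρ σ (MonoidHom.id G) φ Levels.cont_id hφ (scor1 ρ hf hr x) =
      scor1 σ hf hr (H1.map (𝓛.comap f) (𝓛.comap f) (resRep ρ f) (resRep σ f)
        (MonoidHom.id G') φ Levels.cont_id hφ' x) := by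
  have := finite_quotient_of_mem hr
  obtain ⟨y, rfl⟩ := (she1_bijective ρ hf hr).2 x
  have h1 : H1.map (𝓛.comap f) (𝓛.comap f) (resRep ρ f) (resRep σ f)
        (MonoidHom.id G') φ Levels.cont_id hφ' (she1 𝓛 ρ f y) =
      she1 𝓛 σ f (H1.map 𝓛 𝓛 _ _ (MonoidHom.id G) (postMap _ φ) Levels.cont_id
        (compat_postMap hφ) y) := by
    obtain ⟨x, rfl⟩ := H1.mk_surjective _ _ y
    rfl
  rw [h1, scor1_she1, scor1_she1, H1.map_map, H1.map_map]
  obtain ⟨x, rfl⟩ := H1.mk_surjective _ _ y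
  rw [H1.map_mk, H1.map_mk]
  congr 1
  ext g
  simp only [pp1_apply, LinearMap.comp_apply, sumMap_postMap, MonoidHom.comp_apply,
    MonoidHom.id_apply]

/-- the pairing `V × (X → W) → (X → Z)` -/
def mapPairR (X : Type*) (β : V →ₗ[k] W →ₗ[k] Z) : V →ₗ[k] (X → W) →ₗ[k] (X → Z) :=
  LinearMap.mk₂ k (fun v f x => β v (f x)) (fun _ _ _ => by ext; simp) (fun _ _ _ => by ext; simp)
    (fun _ _ _ => by ext; simp) (fun _ _ _ => by ext; simp)

@[simp] lemma mapPairR_apply (β : V →ₗ[k] W →ₗ[k] Z) (v : V) (f : X → W) (x : X) :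
    mapPairR X β v f x = β v (f x) := rfl

lemma equiv₂_mapPairR {β : V →ₗ[k] W →ₗ[k] Z} (hβ : Equiv₂ ρ σ τ β) :
    Equiv₂ ρ (mapRep σ X) (mapRep τ X) (mapPairR X β) := by
  intro g v f
  ext y
  simp [hβ g]

/-- **Projection formula**: `cor (res x ∪ y) = x ∪ cor y`. -/
theorem scor2_cup11 {f : G' →* G} (hf : Function.Injective f) (hr : f.range ∈ 𝓛)
    (hs : Smooth 𝓛 σ) (β : V →ₗ[k] W →ₗ[k] Z) (hβ : Equiv₂ ρ σ τ β)
    (hs' : Smooth (𝓛.comap f) (resRep σ f)) (hβ' : Equiv₂ (resRep ρ f) (resRep σ f) (resRep τ f) β)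
    (x : H1 𝓛 ρ) (y : H1 (𝓛.comap f) (resRep σ f)) :
    scor2 τ hf hr (cup11 hs' β hβ' (res1 𝓛 ρ f x) y) = cup11 hs β hβ x (scor1 σ hf hr y) := by
  have := finite_quotient_of_mem hr
  obtain ⟨y, rfl⟩ := (she1_bijective σ hf hr).2 y
  have hsm := smooth_mapRep hs (smoothSet_quotient hr)
  have h1 : cup11 hs' β hβ' (res1 𝓛 ρ f x) (she1 𝓛 σ f y) =
      she2 𝓛 τ f (cup11 hsm (mapPairR (G ⧸ f.range) β) (equiv₂_mapPairR hβ) x y) := by
    rw [she2, cup11_map (hs := hsm) (hs' := hs') (φ := LinearMap.id)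
      (ψ := evalMap k W ((1 : G) : G ⧸ f.range)) (hφ := fun _ _ => rfl) (hψ := compat_she σ)
      (β' := β) (hβ' := hβ')]
    · rfl
    · intro v w; rfl
  rw [h1, scor2_she2, scor1_she1]
  rw [cup11_map (hs := hsm) (hs' := hs) (φ := LinearMap.id) (ψ := sumMap k W (G ⧸ f.range))
      (hφ := fun _ _ => rfl) (hψ := compat_sumMap) (β' := β) (hβ' := hβ)]
  · congr 1
    exact congrArg _ (H1.map_id _ _ (fun _ => rfl) (fun _ => rfl) x)
  · intro v w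
    have := Fintype.ofFinite (G ⧸ f.range)
    rw [sumMap_apply, sumMap_apply, map_sum]
    rfl

end Cor

end Fermat.Agent.CFT
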