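import Mathlib
import Fermat.Agent.CFT.Basic
import Fermat.Agent.CFT.Shapiro
import Fermat.Agent.CFT.Fun

/-!
# Long exact sequences in degrees `≤ 2`

`SES ρA ρB ρC` : a short exact sequence of representations with linear splittings.
Connecting maps `δ0`, `δ1` and all exactness statements up to `H²(B)`.
Partial Euler characteristic `chi2`.
-/

set_option autoImplicit false

open Module

namespace Fermat.Agent.CFT

section SES

variable {k : Type*} [CommRing k] {G : Type*} [Group G] {𝓛 : Levels G}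
variable {A B C : Type*} [AddCommGroup A] [Module k A] [AddCommGroup B] [Module k B]
  [AddCommGroup C] [Module k C]

/-- Short exact sequences with linear splittings. -/
structure SES (ρA : Representation k G A) (ρB : Representation k G B)
    (ρC : Representation k G C) where
  ι : A →ₗ[k] B
  π : B →ₗ[k] C
  σ : C →ₗ[k] B
  τ : B →ₗ[k] A
  hι : ∀ g a, ι (ρA g a) = ρB g (ι a)
  hπ : ∀ g b, π (ρB g b) = ρC g (π b)
  τι : ∀ a, τ (ι a) = a
  πσ : ∀ c, π (σ c) = c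
  decomp : ∀ b, ι (τ b) + σ (π b) = b

variable {ρA : Representation k G A} {ρB : Representation k G B} {ρC : Representation k G C}

namespace SES

variable (E : SES ρA ρB ρC)

lemma πι (a : A) : E.π (E.ι a) = 0 := by
  have h := E.decomp (E.ι a)
  rw [E.τι, add_eq_left] at h
  rw [← E.πσ (E.π (E.ι a)), h, map_zero]

lemma ι_injective : Function.Injective E.ι := fun a a' h => by
  rw [← E.τι a, h, E.τι]

lemma π_surjective : Function.Surjective E.π := fun c => ⟨_, E.πσ c⟩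

lemma ιτ_of_π {b : B} (h : E.π b = 0) : E.ι (E.τ b) = b := by
  have := E.decomp b
  rwa [h, map_zero, add_zero] at this

lemma τσ (c : C) : E.τ (E.σ c) = 0 := by
  apply E.ι_injective
  have h := E.decomp (E.σ c)
  rw [E.πσ, add_eq_right] at h
  rw [h, map_zero]

lemma compat_ι : Compat ρA ρB (MonoidHom.id G) E.ι := fun g a => E.hι g a
lemma compat_π : Compat ρB ρC (MonoidHom.id G) E.π := fun g a => E.hπ g a

include E in
lemma smooth_left (h : Smooth 𝓛 ρB) : Smooth 𝓛 ρA := fun a => by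
  obtain ⟨H, hH, h⟩ := h (E.ι a)
  exact ⟨H, hH, fun s hs => E.ι_injective (by rw [E.hι, h s hs])⟩

include E in
lemma smooth_right (h : Smooth 𝓛 ρB) : Smooth 𝓛 ρC := fun c => by
  obtain ⟨H, hH, h⟩ := h (E.σ c)
  exact ⟨H, hH, fun s hs => by rw [← E.πσ c, ← E.hπ, h s hs]⟩

/-- map on `H⁰` induced by `ι` -/
noncomputable def i0 : ρA.invariants →ₗ[k] ρB.invariants :=
  E.ι.restrict (fun a ha => by
    intro g
    rw [← E.hι, ha g])

/-- map on `H⁰` induced by `π` -/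
noncomputable def p0 : ρB.invariants →ₗ[k] ρC.invariants :=
  E.π.restrict (fun b hb => by
    intro g
    rw [← E.hπ, hb g])

@[simp] lemma i0_coe (a : ρA.invariants) : ((E.i0 a : ρB.invariants) : B) = E.ι a := rfl
@[simp] lemma p0_coe (a : ρB.invariants) : ((E.p0 a : ρC.invariants) : C) = E.π a := rfl

variable (𝓛) in
/-- map on `H¹` induced by `ι` -/
def i1 : H1 𝓛 ρA →ₗ[k] H1 𝓛 ρB :=
  H1.map 𝓛 𝓛 ρA ρB (MonoidHom.id G) E.ι Levels.cont_id E.compat_ι

variable (𝓛) in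
/-- map on `H¹` induced by `π` -/
def p1 : H1 𝓛 ρB →ₗ[k] H1 𝓛 ρC :=
  H1.map 𝓛 𝓛 ρB ρC (MonoidHom.id G) E.π Levels.cont_id E.compat_π

variable (𝓛) in
/-- map on `H²` induced by `ι` -/
def i2 : H2 𝓛 ρA →ₗ[k] H2 𝓛 ρB :=
  H2.map 𝓛 𝓛 ρA ρB (MonoidHom.id G) E.ι Levels.cont_id E.compat_ι

variable (𝓛) in
/-- map on `H²` induced by `π` -/
def p2 : H2 𝓛 ρB →ₗ[k] H2 𝓛 ρC :=
  H2.map 𝓛 𝓛 ρB ρC (MonoidHom.id G) E.π Levels.cont_id E.compat_π

lemma ι_δ0_aux {c : C} (hc : ∀ g, ρC g c = c) (g : G) :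
    E.ι (E.τ (ρB g (E.σ c) - E.σ c)) = ρB g (E.σ c) - E.σ c :=
  E.ιτ_of_π (by rw [map_sub, E.hπ, E.πσ, hc g, sub_self])

/-- cochain for `δ0` -/
def δ0C : C →ₗ[k] (G → A) where
  toFun c g := E.τ (ρB g (E.σ c) - E.σ c)
  map_add' c c' := by ext g; simp only [map_add, Pi.add_apply, map_sub]; abel
  map_smul' a c := by ext g; simp only [map_smul, map_sub, Pi.smul_apply, smul_sub, RingHom.id_apply]

lemma δ0C_mem (hs : Smooth 𝓛 ρB) {c : C} (hc : ∀ g, ρC g c = c) : E.δ0C c ∈ Z1 𝓛 ρA := by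
  refine ⟨(LC_d0 hs (E.σ c)).comp E.τ, fun g h => E.ι_injective ?_⟩
  show E.ι (E.τ _) = E.ι (ρA g (E.τ _) + E.τ _)
  rw [map_add, E.hι, E.ι_δ0_aux hc, E.ι_δ0_aux hc, E.ι_δ0_aux hc, rho_mul_apply, map_sub]
  abel

/-- first connecting map -/
noncomputable def δ0 (hs : Smooth 𝓛 ρB) : ρC.invariants →ₗ[k] H1 𝓛 ρA :=
  (H1.mk 𝓛 ρA) ∘ₗ (E.δ0C.restrict (p := ρC.invariants) (q := Z1 𝓛 ρA)
    (fun _ hc => E.δ0C_mem hs hc))

lemma δ0_apply (hs : Smooth 𝓛 ρB) (c : ρC.invariants) :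
    E.δ0 hs c = H1.mk 𝓛 ρA ⟨E.δ0C c, E.δ0C_mem hs c.2⟩ := rfl

/-- cochain for `δ1` -/
def δ1C : (G → C) →ₗ[k] (G → G → A) where
  toFun z g h := E.τ (d1 ρB (fun x => E.σ (z x)) g h)
  map_add' c c' := by
    ext g h; simp only [map_add, Pi.add_apply, d1_apply, map_sub]; abel
  map_smul' a c := by
    ext g h
    simp only [map_smul, Pi.smul_apply, d1_apply, map_sub, smul_sub, smul_add, map_add,
      RingHom.id_apply]

lemma ι_δ1C {z : G → C} (hz : ∀ g h, z (g * h) = ρC g (z h) + z g) (g h : G) :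
    E.ι (E.δ1C z g h) = d1 ρB (fun x => E.σ (z x)) g h :=
  E.ιτ_of_π (by
    simp only [d1_apply, map_add, map_sub, E.hπ, E.πσ, hz]
    abel)

lemma d1_mem_Z2 (hs : Smooth 𝓛 ρB) {f : G → B} (hf : 𝓛.LC f) : d1 ρB f ∈ Z2 𝓛 ρB :=
  B2_le_Z2 hs (mem_B2.2 ⟨f, hf, rfl⟩)

lemma δ1C_mem (hs : Smooth 𝓛 ρB) {z : G → C} (hz : z ∈ Z1 𝓛 ρC) : E.δ1C z ∈ Z2 𝓛 ρA := by
  have h1 := d1_mem_Z2 hs (hz.1.comp E.σ)
  refine ⟨h1.1.comp E.τ, fun g h j => E.ι_injective ?_⟩
  simp only [map_add, E.hι, E.ι_δ1C hz.2]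
  exact h1.2 g h j

/-- second connecting map on cocycles -/
def δ1Z (hs : Smooth 𝓛 ρB) : ↥(Z1 𝓛 ρC) →ₗ[k] H2 𝓛 ρA :=
  (H2.mk 𝓛 ρA) ∘ₗ (E.δ1C.restrict (p := Z1 𝓛 ρC) (q := Z2 𝓛 ρA)
    (fun _ hc => E.δ1C_mem hs hc))

/-- second connecting map -/
def δ1 (hs : Smooth 𝓛 ρB) : H1 𝓛 ρC →ₗ[k] H2 𝓛 ρA :=
  Submodule.liftQ _ (E.δ1Z hs) (by
    rintro ⟨z, hz⟩ hzB
    rw [LinearMap.mem_ker]
    obtain ⟨c, hc⟩ := mem_B1.1 (show z ∈ B1 ρC from hzB)
    refine H2.mk_eq_zero.2 (mem_B2.2 ⟨fun g => E.τ (E.σ (z g) - d0 ρB (E.σ c) g), ?_, ?_⟩)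
    · exact (((hz.1).comp E.σ).comp₂ (LC_d0 hs (E.σ c)) (fun x y => E.τ (x - y)))
    · have h0 : ∀ g, E.ι (E.τ (E.σ (z g) - d0 ρB (E.σ c) g)) = E.σ (z g) - d0 ρB (E.σ c) g :=
        fun g => E.ιτ_of_π (by
          rw [d0_apply, map_sub, map_sub, E.hπ, E.πσ, E.πσ, hc g, sub_self])
      ext g h
      apply E.ι_injective
      rw [d1_apply, map_add, map_sub, E.hι, h0, h0, h0]
      show _ = E.ι (E.δ1C z g h)
      rw [E.ι_δ1C hz.2]
      have := congrFun (congrFun (d1_d0 ρB (E.σ c)) g) h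
      simp only [d1_apply, Pi.zero_apply, d0_apply, map_sub] at this ⊢
      have h3 : ∀ x y : B, x - y = 0 → x = y := fun x y => sub_eq_zero.1
      rw [← sub_eq_zero]
      rw [← neg_eq_zero]
      rw [← this]
      abel)

lemma δ1_mk (hs : Smooth 𝓛 ρB) (z : ↥(Z1 𝓛 ρC)) :
    E.δ1 hs (H1.mk 𝓛 ρC z) = H2.mk 𝓛 ρA ⟨E.δ1C z, E.δ1C_mem hs z.2⟩ := rfl

/-! ### exactness -/

lemma i0_injective : Function.Injective E.i0 := fun a a' h => by
  apply Subtype.ext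
  apply E.ι_injective
  exact congrArg Subtype.val h

lemma exact0 : LinearMap.ker E.p0 = LinearMap.range E.i0 := by
  ext b
  rw [LinearMap.mem_ker, LinearMap.mem_range]
  constructor
  · intro h
    have hb : E.π b = 0 := congrArg Subtype.val h
    refine ⟨⟨E.τ b, fun g => E.ι_injective ?_⟩, ?_⟩
    · rw [E.hι, E.ιτ_of_π hb, b.2 g]
    · apply Subtype.ext
      exact E.ιτ_of_π hb
  · rintro ⟨a, rfl⟩
    apply Subtype.ext
    exact E.πι a

lemma exact0' (hs : Smooth 𝓛 ρB) : LinearMap.ker (E.δ0 hs) = LinearMap.range E.p0 := by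
  ext c
  rw [LinearMap.mem_ker, LinearMap.mem_range, δ0_apply, H1.mk_eq_zero, mem_B1]
  constructor
  · rintro ⟨a, ha⟩
    refine ⟨⟨E.σ c - E.ι a, fun g => ?_⟩, ?_⟩
    · have h1 := congrArg E.ι (ha g)
      simp only [δ0C, LinearMap.coe_mk, AddHom.coe_mk] at h1
      rw [E.ι_δ0_aux c.2, map_sub, E.hι] at h1
      rw [map_sub, sub_eq_sub_iff_sub_eq_sub]
      exact h1
    · apply Subtype.ext
      rw [p0_coe]
      simp only [map_sub, E.πσ, E.πι, sub_zero]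
  · rintro ⟨b, rfl⟩
    refine ⟨-E.τ b, fun g => E.ι_injective ?_⟩
    show E.ι (E.τ _) = _
    have h2 : E.ι (E.τ b) = b - E.σ (E.π b) := by
      rw [eq_sub_iff_add_eq, E.decomp]
    rw [E.ι_δ0_aux (E.p0 b).2, map_sub, E.hι, map_neg, h2, map_neg, map_sub, b.2 g]
    simp only [p0_coe]
    abel

lemma exact1 (hs : Smooth 𝓛 ρB) : LinearMap.ker (E.i1 𝓛) = LinearMap.range (E.δ0 hs) := by
  ext x
  rw [LinearMap.mem_ker, LinearMap.mem_range]
  constructor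
  · intro h
    obtain ⟨z, rfl⟩ := H1.mk_surjective _ _ x
    rw [i1, H1.map_mk, H1.mk_eq_zero, mem_B1] at h
    obtain ⟨b, hb⟩ := h
    have hb' : ∀ g, E.ι (z.1 g) = ρB g b - b := hb
    have hfix : ∀ g, ρC g (E.π b) = E.π b := fun g => by
      have := congrArg E.π (hb' g)
      rw [E.πι, map_sub, E.hπ] at this
      exact (sub_eq_zero.1 this.symm)
    refine ⟨⟨E.π b, hfix⟩, ?_⟩
    rw [δ0_apply, H1.mk_eq_mk, mem_B1]
    refine ⟨-E.τ b, fun g => E.ι_injective ?_⟩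
    have h1 : E.ι (E.δ0C (E.π b) g) = ρB g (E.σ (E.π b)) - E.σ (E.π b) :=
      E.ι_δ0_aux hfix g
    have h2 : E.ι (E.τ b) = b - E.σ (E.π b) := by
      rw [eq_sub_iff_add_eq, E.decomp]
    show E.ι (E.δ0C (E.π b) g - z.1 g) = _
    rw [map_sub, map_sub, E.hι, map_neg, h2, hb', h1, map_neg, map_sub]
    abel
  · rintro ⟨c, rfl⟩
    rw [δ0_apply, i1, H1.map_mk, H1.mk_eq_zero, mem_B1]
    exact ⟨E.σ c, fun g => E.ι_δ0_aux c.2 g⟩

/-- a 1-cocycle of `B` with values in `ker π` comes from `A` -/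
lemma lift_Z1 {z : G → B} (hz : z ∈ Z1 𝓛 ρB) (h0 : ∀ g, E.π (z g) = 0) :
    (fun g => E.τ (z g)) ∈ Z1 𝓛 ρA := by
  refine ⟨hz.1.comp E.τ, fun g h => E.ι_injective ?_⟩
  rw [map_add, E.hι, E.ιτ_of_π (h0 _), E.ιτ_of_π (h0 _), E.ιτ_of_π (h0 _), hz.2]

/-- a 2-cocycle of `B` with values in `ker π` comes from `A` -/
lemma lift_Z2 {z : G → G → B} (hz : z ∈ Z2 𝓛 ρB) (h0 : ∀ g h, E.π (z g h) = 0) :
    (fun g h => E.τ (z g h)) ∈ Z2 𝓛 ρA := by
  refine ⟨hz.1.comp E.τ, fun g h j => E.ι_injective ?_⟩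
  simp only [map_add, E.hι, E.ιτ_of_π (h0 _ _)]
  exact hz.2 g h j

lemma exact1' (hs : Smooth 𝓛 ρB) : LinearMap.ker (E.p1 𝓛) = LinearMap.range (E.i1 𝓛) := by
  ext x
  rw [LinearMap.mem_ker, LinearMap.mem_range]
  constructor
  · intro h
    obtain ⟨z, rfl⟩ := H1.mk_surjective _ _ x
    rw [p1, H1.map_mk, H1.mk_eq_zero, mem_B1] at h
    obtain ⟨c, hc⟩ := h
    have hc' : ∀ g, E.π (z.1 g) = ρC g c - c := hc
    -- z - d0 (σ c) is in the kernel of π
    have hz : z.1 - d0 ρB (E.σ c) ∈ Z1 𝓛 ρB :=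
      Submodule.sub_mem _ z.2 (B1_le_Z1 hs ⟨E.σ c, rfl⟩)
    have h0 : ∀ g, E.π ((z.1 - d0 ρB (E.σ c)) g) = 0 := fun g => by
      rw [Pi.sub_apply, d0_apply, map_sub, map_sub, E.hπ, E.πσ, hc' g, sub_self]
    refine ⟨H1.mk 𝓛 ρA ⟨_, E.lift_Z1 hz h0⟩, ?_⟩
    rw [i1, H1.map_mk, H1.mk_eq_mk, mem_B1]
    refine ⟨-E.σ c, fun g => ?_⟩
    show E.ι (E.τ ((z.1 - d0 ρB (E.σ c)) g)) - z.1 g = _
    rw [E.ιτ_of_π (h0 g), Pi.sub_apply, d0_apply, map_neg]
    abel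
  · rintro ⟨y, rfl⟩
    obtain ⟨z, rfl⟩ := H1.mk_surjective _ _ y
    rw [p1, i1, H1.map_mk, H1.map_mk, H1.mk_eq_zero, mem_B1]
    exact ⟨0, fun g => by simp [E.πι]⟩

lemma exact1'' (hs : Smooth 𝓛 ρB) : LinearMap.ker (E.δ1 hs) = LinearMap.range (E.p1 𝓛) := by
  ext x
  rw [LinearMap.mem_ker, LinearMap.mem_range]
  constructor
  · intro h
    obtain ⟨z, rfl⟩ := H1.mk_surjective _ _ x
    rw [δ1_mk, H2.mk_eq_zero, mem_B2] at h
    obtain ⟨a, ha, ha'⟩ := h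
    have hw : (fun g => E.σ (z.1 g) - E.ι (a g)) ∈ Z1 𝓛 ρB := by
      refine mem_Z1_of_d1_eq_zero ((z.2.1.comp E.σ).comp₂ (ha.comp E.ι) (fun x y => x - y)) ?_
      ext g h
      have h1 := E.ι_δ1C z.2.2 g h
      have h2 : E.ι (d1 ρA a g h) = E.ι (E.δ1C z.1 g h) := by rw [ha']
      rw [h1] at h2
      simp only [d1_apply, map_add, map_sub, E.hι, Pi.zero_apply] at h2 ⊢
      rw [← sub_eq_zero] at h2
      rw [← neg_eq_zero, ← h2]
      abel
    refine ⟨H1.mk 𝓛 ρB ⟨_, hw⟩, ?_⟩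
    rw [p1, H1.map_mk]
    congr 1
    apply Subtype.ext
    funext g
    show E.π (E.σ (z.1 g) - E.ι (a g)) = z.1 g
    rw [map_sub, E.πσ, E.πι, sub_zero]
  · rintro ⟨y, rfl⟩
    obtain ⟨z, rfl⟩ := H1.mk_surjective _ _ y
    rw [p1, H1.map_mk, δ1_mk, H2.mk_eq_zero, mem_B2]
    refine ⟨fun g => -E.τ (z.1 g), z.2.1.comp (fun x => -E.τ x), ?_⟩
    ext g h
    apply E.ι_injective
    have hz := (Z1 𝓛 ρC).zero_mem
    have h1 : E.ι (E.δ1C (fun x => E.π (z.1 x)) g h) =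
        d1 ρB (fun x => E.σ (E.π (z.1 x))) g h := by
      refine E.ι_δ1C (fun g h => ?_) g h
      rw [z.2.2, map_add, E.hπ]
    show _ = E.ι (E.δ1C (fun x => E.π (z.1 x)) g h)
    have h2 : ∀ b, E.ι (E.τ b) = b - E.σ (E.π b) := fun b => by
      rw [eq_sub_iff_add_eq, E.decomp]
    rw [h1]
    simp only [d1_apply, map_add, map_sub, map_neg, E.hι, h2, z.2.2 g h, E.hπ]
    abel

lemma exact2 (hs : Smooth 𝓛 ρB) : LinearMap.ker (E.i2 𝓛) = LinearMap.range (E.δ1 hs) := by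
  ext x
  rw [LinearMap.mem_ker, LinearMap.mem_range]
  constructor
  · intro h
    obtain ⟨z, rfl⟩ := H2.mk_surjective _ _ x
    rw [i2, H2.map_mk, H2.mk_eq_zero, mem_B2] at h
    obtain ⟨b, hb, hb'⟩ := h
    have hb'' : ∀ g h, d1 ρB b g h = E.ι (z.1 g h) := fun g h => by rw [hb']; rfl
    have hw : (fun g => E.π (b g)) ∈ Z1 𝓛 ρC := by
      refine mem_Z1_of_d1_eq_zero (hb.comp E.π) ?_
      ext g h
      have := congrArg E.π (hb'' g h)
      rw [E.πι] at this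
      simp only [d1_apply, map_add, map_sub, E.hπ] at this ⊢
      exact this
    refine ⟨H1.mk 𝓛 ρC ⟨_, hw⟩, ?_⟩
    rw [δ1_mk, H2.mk_eq_mk, mem_B2]
    refine ⟨fun g => -E.τ (b g), hb.comp (fun x => -E.τ x), ?_⟩
    ext g h
    apply E.ι_injective
    show _ = E.ι (E.δ1C (fun x => E.π (b x)) g h - z.1 g h)
    have h2 : ∀ b, E.ι (E.τ b) = b - E.σ (E.π b) := fun b => by
      rw [eq_sub_iff_add_eq, E.decomp]
    rw [map_sub, E.ι_δ1C hw.2, ← hb'']
    simp only [d1_apply, map_add, map_sub, map_neg, E.hι, h2]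
    abel
  · rintro ⟨y, rfl⟩
    obtain ⟨z, rfl⟩ := H1.mk_surjective _ _ y
    rw [δ1_mk, i2, H2.map_mk, H2.mk_eq_zero, mem_B2]
    refine ⟨fun g => E.σ (z.1 g), z.2.1.comp E.σ, ?_⟩
    ext g h
    exact (E.ι_δ1C z.2.2 g h).symm

lemma exact2' (hs : Smooth 𝓛 ρB) : LinearMap.ker (E.p2 𝓛) = LinearMap.range (E.i2 𝓛) := by
  ext x
  rw [LinearMap.mem_ker, LinearMap.mem_range]
  constructor
  · intro h
    obtain ⟨z, rfl⟩ := H2.mk_surjective _ _ x
    rw [p2, H2.map_mk, H2.mk_eq_zero, mem_B2] at h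
    obtain ⟨c, hc, hc'⟩ := h
    have hc'' : ∀ g h, d1 ρC c g h = E.π (z.1 g h) := fun g h => by rw [hc']; rfl
    have hz : z.1 - d1 ρB (fun g => E.σ (c g)) ∈ Z2 𝓛 ρB :=
      Submodule.sub_mem _ z.2 (d1_mem_Z2 hs (hc.comp E.σ))
    have h0 : ∀ g h, E.π ((z.1 - d1 ρB (fun g => E.σ (c g))) g h) = 0 := fun g h => by
      show E.π (z.1 g h - d1 ρB (fun g => E.σ (c g)) g h) = 0
      rw [map_sub, ← hc'']
      simp only [d1_apply, map_add, map_sub, E.hπ, E.πσ]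
      abel
    refine ⟨H2.mk 𝓛 ρA ⟨_, E.lift_Z2 hz h0⟩, ?_⟩
    rw [i2, H2.map_mk, H2.mk_eq_mk, mem_B2]
    refine ⟨fun g => -E.σ (c g), hc.comp (fun x => -E.σ x), ?_⟩
    ext g h
    show _ = E.ι (E.τ ((z.1 - d1 ρB (fun g => E.σ (c g))) g h)) - z.1 g h
    rw [E.ιτ_of_π (h0 g h)]
    simp only [Pi.sub_apply, d1_apply, map_neg]
    abel
  · rintro ⟨y, rfl⟩
    obtain ⟨z, rfl⟩ := H2.mk_surjective _ _ y
    rw [p2, i2, H2.map_mk, H2.map_mk, H2.mk_eq_zero]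
    have : pp2 (MonoidHom.id G) E.π (pp2 (MonoidHom.id G) E.ι z.1) = 0 := by
      ext g h; exact E.πι _
    show pp2 (MonoidHom.id G) E.π (pp2 (MonoidHom.id G) E.ι z.1) ∈ B2 𝓛 ρC
    rw [this]
    exact (B2 𝓛 ρC).zero_mem

end SES

end SES

/-! ### construction of short exact sequences over a field -/

section Construct

variable {k : Type*} [Field k] {G : Type*} [Group G]
variable {A B C : Type*} [AddCommGroup A] [Module k A] [AddCommGroup B] [Module k B]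
  [AddCommGroup C] [Module k C]
variable (ρA : Representation k G A) (ρB : Representation k G B) (ρC : Representation k G C)

/-- A short exact sequence of representations over a field, from exactness. -/
noncomputable def SES.ofExact (ι : A →ₗ[k] B) (π : B →ₗ[k] C)
    (hι : ∀ g a, ι (ρA g a) = ρB g (ι a)) (hπ : ∀ g b, π (ρB g b) = ρC g (π b))
    (hinj : Function.Injective ι) (hsurj : Function.Surjective π)
    (hex : ∀ b, π b = 0 ↔ ∃ a, ι a = b) : SES ρA ρB ρC := by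
  have h1 := LinearMap.exists_leftInverse_of_injective ι (LinearMap.ker_eq_bot.2 hinj)
  have h2 := LinearMap.exists_rightInverse_of_surjective π (LinearMap.range_eq_top.2 hsurj)
  exact
  { ι := ι
    π := π
    σ := h2.choose - ι ∘ₗ h1.choose ∘ₗ h2.choose
    τ := h1.choose
    hι := hι
    hπ := hπ
    τι := fun a => LinearMap.congr_fun h1.choose_spec a
    πσ := fun c => by
      have e1 := LinearMap.congr_fun h2.choose_spec c
      have e2 : ∀ a, π (ι a) = 0 := fun a => (hex _).2 ⟨a, rfl⟩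
      simp only [LinearMap.sub_apply, LinearMap.comp_apply, map_sub, e2, sub_zero]
      exact e1
    decomp := fun b => by
      have e1 : ∀ c, π (h2.choose c) = c := fun c => LinearMap.congr_fun h2.choose_spec c
      have e2 : ∀ a, h1.choose (ι a) = a := fun a => LinearMap.congr_fun h1.choose_spec a
      obtain ⟨a, ha⟩ := (hex (b - h2.choose (π b))).1 (by rw [map_sub, e1, sub_self])
      have e3 : b = ι a + h2.choose (π b) := by rw [ha]; abel
      have e4 : h1.choose b = a + h1.choose (h2.choose (π b)) := by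
        conv_lhs => rw [e3]
        rw [map_add, e2]
      simp only [LinearMap.sub_apply, LinearMap.comp_apply]
      rw [e4, map_add]
      conv_rhs => rw [e3]
      abel }

/-- the restriction of a representation to the kernel of an equivariant map -/
def kerRep {ρB : Representation k G B} {ρC : Representation k G C} {π : B →ₗ[k] C}
    (hπ : ∀ g b, π (ρB g b) = ρC g (π b)) : Representation k G (LinearMap.ker π) where
  toFun g := (ρB g).restrict (fun b hb => by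
    rw [LinearMap.mem_ker] at hb ⊢
    rw [hπ, hb, map_zero])
  map_one' := by ext b; simp
  map_mul' g h := by ext b; simp

@[simp] lemma kerRep_coe {ρB : Representation k G B} {ρC : Representation k G C} {π : B →ₗ[k] C}
    (hπ : ∀ g b, π (ρB g b) = ρC g (π b)) (g : G) (b : LinearMap.ker π) :
    ((kerRep hπ g b : LinearMap.ker π) : B) = ρB g b := rfl

/-- The short exact sequence attached to an equivariant surjection. -/
noncomputable def SES.ofSurj {ρB : Representation k G B} {ρC : Representation k G C}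
    {π : B →ₗ[k] C} (hπ : ∀ g b, π (ρB g b) = ρC g (π b)) (hsurj : Function.Surjective π) :
    SES (kerRep hπ) ρB ρC :=
  SES.ofExact _ _ _ (LinearMap.ker π).subtype π (fun _ _ => rfl) hπ
    (Subtype.val_injective) hsurj (fun b => ⟨fun h => ⟨⟨b, h⟩, rfl⟩, fun ⟨a, ha⟩ => ha ▸ a.2⟩)

lemma SES.ofSurj_π {ρB : Representation k G B} {ρC : Representation k G C}
    {π : B →ₗ[k] C} (hπ : ∀ g b, π (ρB g b) = ρC g (π b)) (hsurj : Function.Surjective π) :
    (SES.ofSurj hπ hsurj).π = π := rfl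

/-- quotient representation -/
def quoRep (ρB : Representation k G B) (W : Submodule k B) (hW : ∀ g, ∀ w ∈ W, ρB g w ∈ W) :
    Representation k G (B ⧸ W) where
  toFun g := W.mapQ W (ρB g) (fun w hw => hW g w hw)
  map_one' := by ext b; simp
  map_mul' g h := by ext b; simp

@[simp] lemma quoRep_mk (ρB : Representation k G B) (W : Submodule k B)
    (hW : ∀ g, ∀ w ∈ W, ρB g w ∈ W) (g : G) (b : B) :
    quoRep ρB W hW g (W.mkQ b) = W.mkQ (ρB g b) := rfl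

end Construct

end Fermat.Agent.CFT
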