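import Mathlib
import Fermat.Agent.CFT.Basic
import Fermat.Agent.CFT.Shapiro
import Fermat.Agent.CFT.Fun
import Fermat.Agent.CFT.LES

/-!
# Partial Euler characteristics and right exactness of `H²`
-/

set_option autoImplicit false

open Module

namespace Fermat.Agent.CFT

section LA

variable {k : Type*} [Field k] {X Y Z : Type*} [AddCommGroup X] [Module k X] [AddCommGroup Y]
  [Module k Y] [AddCommGroup Z] [Module k Z]

lemma finite_of_exact (f : X →ₗ[k] Y) (g : Y →ₗ[k] Z) (h : LinearMap.ker g = LinearMap.range f)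
    [FiniteDimensional k X] [FiniteDimensional k Z] : FiniteDimensional k Y := by
  have h1 : FiniteDimensional k (LinearMap.ker g) := by rw [h]; infer_instance
  have h2 : FiniteDimensional k (Y ⧸ LinearMap.ker g) :=
    Module.Finite.equiv g.quotKerEquivRange.symm
  exact Module.Finite.of_submodule_quotient (LinearMap.ker g)

lemma finrank_exact (f : X →ₗ[k] Y) (g : Y →ₗ[k] Z) (h : LinearMap.ker g = LinearMap.range f)
    [FiniteDimensional k Y] :
    finrank k (LinearMap.range f) + finrank k (LinearMap.range g) = finrank k Y := by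
  rw [← h, add_comm]; exact LinearMap.finrank_range_add_finrank_ker g

end LA

section Chi

variable {k : Type*} [Field k] {G : Type*} [Group G] (𝓛 : Levels G)
variable {V : Type*} [AddCommGroup V] [Module k V]

/-- `H⁰, H¹, H²` are finite dimensional -/
structure Fin2 (ρ : Representation k G V) : Prop where
  h0 : FiniteDimensional k ρ.invariants
  h1 : FiniteDimensional k (H1 𝓛 ρ)
  h2 : FiniteDimensional k (H2 𝓛 ρ)

/-- partial Euler characteristic -/
noncomputable def chi2 (ρ : Representation k G V) : ℤ :=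
  (finrank k ρ.invariants : ℤ) - finrank k (H1 𝓛 ρ) + finrank k (H2 𝓛 ρ)

variable {𝓛}
variable {A B C : Type*} [AddCommGroup A] [Module k A] [AddCommGroup B] [Module k B]
  [AddCommGroup C] [Module k C]
variable {ρA : Representation k G A} {ρB : Representation k G B} {ρC : Representation k G C}

lemma SES.fin2 (E : SES ρA ρB ρC) (hs : Smooth 𝓛 ρB) (hA : Fin2 𝓛 ρA) (hC : Fin2 𝓛 ρC) :
    Fin2 𝓛 ρB := by
  have := hA.h0; have := hA.h1; have := hA.h2
  have := hC.h0; have := hC.h1; have := hC.h2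
  exact ⟨finite_of_exact _ _ E.exact0, finite_of_exact _ _ (E.exact1' hs),
    finite_of_exact _ _ (E.exact2' hs)⟩

theorem SES.chi_add (E : SES ρA ρB ρC) (hs : Smooth 𝓛 ρB) (hA : Fin2 𝓛 ρA) (hC : Fin2 𝓛 ρC) :
    chi2 𝓛 ρB + finrank k (H2 𝓛 ρC ⧸ LinearMap.range (E.p2 𝓛)) = chi2 𝓛 ρA + chi2 𝓛 ρC := by
  have hB := E.fin2 hs hA hC
  have := hA.h0; have := hA.h1; have := hA.h2
  have := hB.h0; have := hB.h1; have := hB.h2
  have := hC.h0; have := hC.h1; have := hC.h2
  have e0 : finrank k (LinearMap.range E.i0) = finrank k ρA.invariants :=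
    LinearMap.finrank_range_of_inj E.i0_injective
  have e1 := finrank_exact _ _ E.exact0
  have e2 := finrank_exact _ _ (E.exact0' hs)
  have e3 := finrank_exact _ _ (E.exact1 hs)
  have e4 := finrank_exact _ _ (E.exact1' hs)
  have e5 := finrank_exact _ _ (E.exact1'' hs)
  have e6 := finrank_exact _ _ (E.exact2 hs)
  have e7 := finrank_exact _ _ (E.exact2' hs)
  have e8 := Submodule.finrank_quotient_add_finrank (LinearMap.range (E.p2 𝓛))
  simp only [chi2]
  omega

lemma chi2_le_of_SES (E : SES ρA ρB ρC) (hs : Smooth 𝓛 ρB) (hA : Fin2 𝓛 ρA) (hC : Fin2 𝓛 ρC) :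
    chi2 𝓛 ρB ≤ chi2 𝓛 ρA + chi2 𝓛 ρC := by
  have := E.chi_add hs hA hC
  omega

end Chi

/-! ### Shapiro for Euler characteristics -/

section ShapiroChi

variable {k : Type*} [Field k] {G : Type*} [Group G] {𝓛 : Levels G}
variable {V : Type*} [AddCommGroup V] [Module k V] {ρ : Representation k G V}
variable {X : Type*} [MulAction G X] {ι : Type*} (D : OrbitData G X ι)

/-- Shapiro map in degree 0 -/
noncomputable def sh0 (ρ : Representation k G V) :
    (mapRep ρ X).invariants →ₗ[k] ∀ i, (resRep ρ (D.U i).subtype).invariants where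
  toFun f i := ⟨f.1 (D.x i), fun u => by
    have h1 := congrFun (f.2 u) (D.x i)
    rw [mapRep_apply] at h1
    have h : (u : G)⁻¹ • D.x i = D.x i := by
      rw [inv_smul_eq_iff]; exact ((D.mem_U i u).1 u.2).symm
    rw [h] at h1
    exact h1⟩
  map_add' f f' := rfl
  map_smul' c f := rfl

lemma sh0_bijective : Function.Bijective (sh0 D ρ) := by
  constructor
  · intro f f' h
    apply Subtype.ext
    funext y
    have key : ∀ f : (mapRep ρ X).invariants, f.1 y = ρ (D.t y) (f.1 (D.x (D.o y))) := fun f => by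
      have h1 := congrFun (f.2 (D.t y)) y
      rw [mapRep_apply, D.inv_t_smul] at h1
      exact h1.symm
    rw [key f, key f']
    have h2 : f.1 (D.x (D.o y)) = f'.1 (D.x (D.o y)) :=
      congrArg Subtype.val (congrFun h (D.o y))
    rw [h2]
  · intro c
    refine ⟨⟨fun y => ρ (D.t y) (c (D.o y)).1, fun g => ?_⟩, ?_⟩
    · ext y
      rw [mapRep_apply, ← rho_mul_apply, ← D.t_mul_u, rho_mul_apply, D.o_smul]
      congr 1
      exact (c (D.o y)).2 ⟨D.u y g, D.u_mem y g⟩
    · funext i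
      apply Subtype.ext
      show ρ (D.t (D.x i)) (c (D.o (D.x i))).1 = (c i).1
      rw [D.t_x, map_one, Module.End.one_apply, D.o_x]

variable [Finite X] [Fintype ι]

lemma fin2_mapRep (hX : SmoothSet 𝓛 X)
    (h : ∀ i, Fin2 (𝓛.restrict (D.U i)) (resRep ρ (D.U i).subtype)) : Fin2 𝓛 (mapRep ρ X) := by
  have h0 := fun i => (h i).h0
  have h1 := fun i => (h i).h1
  have h2 := fun i => (h i).h2
  exact ⟨Module.Finite.equiv (LinearEquiv.ofBijective _ (sh0_bijective (ρ := ρ) D)).symm,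
    Module.Finite.equiv (LinearEquiv.ofBijective _ (sh1_bijective 𝓛 ρ D hX)).symm,
    Module.Finite.equiv (LinearEquiv.ofBijective _ (sh2_bijective 𝓛 ρ D hX)).symm⟩

lemma chi2_mapRep (hX : SmoothSet 𝓛 X)
    (h : ∀ i, Fin2 (𝓛.restrict (D.U i)) (resRep ρ (D.U i).subtype)) :
    chi2 𝓛 (mapRep ρ X) = ∑ i, chi2 (𝓛.restrict (D.U i)) (resRep ρ (D.U i).subtype) := by
  have h0 := fun i => (h i).h0
  have h1 := fun i => (h i).h1
  have h2 := fun i => (h i).h2
  have e0 := (LinearEquiv.ofBijective _ (sh0_bijective (ρ := ρ) D)).finrank_eq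
  have e1 := (LinearEquiv.ofBijective _ (sh1_bijective 𝓛 ρ D hX)).finrank_eq
  have e2 := (LinearEquiv.ofBijective _ (sh2_bijective 𝓛 ρ D hX)).finrank_eq
  have f1 : ∀ i, Module.Free k (H1 (𝓛.restrict (D.U i)) (resRep ρ (D.U i).subtype)) :=
    fun i => Module.Free.of_divisionRing k _
  have f2 : ∀ i, Module.Free k (H2 (𝓛.restrict (D.U i)) (resRep ρ (D.U i).subtype)) :=
    fun i => Module.Free.of_divisionRing k _
  rw [Module.finrank_pi_fintype] at e0 e1 e2
  simp only [chi2]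
  rw [e0, e1, e2]
  push_cast
  rw [Finset.sum_add_distrib, Finset.sum_sub_distrib]

end ShapiroChi

/-! ### Transport -/

section Transport

variable {k : Type*} [Field k] {G G' : Type*} [Group G] [Group G'] {𝓛 : Levels G}
  {𝓛' : Levels G'}
variable {V W : Type*} [AddCommGroup V] [Module k V] [AddCommGroup W] [Module k W]
  {ρ : Representation k G V} {σ : Representation k G' W}

/-- transport of structure for an isomorphism of pairs -/
structure RepIso (𝓛 : Levels G) (𝓛' : Levels G') (ρ : Representation k G V)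
    (σ : Representation k G' W) where
  f : G' →* G
  f' : G → G'
  φ : V →ₗ[k] W
  φ' : W →ₗ[k] V
  hf : Levels.Cont 𝓛' 𝓛 f
  hf' : ∀ H ∈ 𝓛', H.map f ∈ 𝓛
  ff' : ∀ g, f (f' g) = g
  f'f : ∀ g, f' (f g) = g
  φφ' : ∀ v, φ (φ' v) = v
  φ'φ : ∀ v, φ' (φ v) = v
  compat : Compat ρ σ f φ

variable (E : RepIso 𝓛 𝓛' ρ σ)

/-- the inverse homomorphism -/
def RepIso.inv : G →* G' where
  toFun := E.f'
  map_one' := by rw [← E.f'f 1, map_one]
  map_mul' g h := by
    rw [← E.f'f (E.f' g * E.f' h), map_mul, E.ff', E.ff']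

lemma RepIso.cont_inv : Levels.Cont 𝓛 𝓛' E.inv := fun H hH => by
  refine Levels.up_mem (E.hf' H hH) ?_
  rintro _ ⟨x, hx, rfl⟩
  show E.f' (E.f x) ∈ H
  rw [E.f'f]; exact hx

lemma RepIso.h1_bijective : Function.Bijective (H1.map 𝓛 𝓛' ρ σ E.f E.φ E.hf E.compat) :=
  H1.map_bijective 𝓛 𝓛' ρ σ E.f E.φ E.inv E.φ' E.hf E.compat E.cont_inv E.ff' E.f'f E.φ'φ E.φφ'

lemma RepIso.h2_bijective : Function.Bijective (H2.map 𝓛 𝓛' ρ σ E.f E.φ E.hf E.compat) :=
  H2.map_bijective 𝓛 𝓛' ρ σ E.f E.φ E.inv E.φ' E.hf E.compat E.cont_inv E.ff' E.f'f E.φ'φ E.φφ'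

/-- invariants -/
noncomputable def RepIso.e0 : ρ.invariants ≃ₗ[k] σ.invariants :=
  LinearEquiv.ofLinearMap
    (E.φ.restrict (p := ρ.invariants) (q := σ.invariants) (fun v hv g => by
      rw [← E.compat, hv (E.f g)]))
    (E.φ'.restrict (p := σ.invariants) (q := ρ.invariants) (fun w hw g => by
      have h1 := E.compat (E.f' g) (E.φ' w)
      rw [E.φφ', hw, E.ff'] at h1
      rw [← E.φ'φ (ρ g (E.φ' w)), h1]))
    (by ext w; exact E.φφ' w)
    (by ext w; exact E.φ'φ w)

include E in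
lemma RepIso.fin2 (h : Fin2 𝓛 ρ) : Fin2 𝓛' σ := by
  have := h.h0; have := h.h1; have := h.h2
  exact ⟨Module.Finite.equiv E.e0, Module.Finite.equiv (LinearEquiv.ofBijective _ E.h1_bijective),
    Module.Finite.equiv (LinearEquiv.ofBijective _ E.h2_bijective)⟩

include E in
lemma RepIso.fin2' (h : Fin2 𝓛' σ) : Fin2 𝓛 ρ := by
  have := h.h0; have := h.h1; have := h.h2
  exact ⟨Module.Finite.equiv E.e0.symm,
    Module.Finite.equiv (LinearEquiv.ofBijective _ E.h1_bijective).symm,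
    Module.Finite.equiv (LinearEquiv.ofBijective _ E.h2_bijective).symm⟩

include E in
lemma RepIso.chi2_eq : chi2 𝓛 ρ = chi2 𝓛' σ := by
  simp only [chi2]
  rw [E.e0.finrank_eq, (LinearEquiv.ofBijective _ E.h1_bijective).finrank_eq,
    (LinearEquiv.ofBijective _ E.h2_bijective).finrank_eq]

/-- nested subgroups: `N ≤ ↥U` versus its image in `G` -/
def RepIso.nested {U : Subgroup G} (hU : U ∈ 𝓛) (N : Subgroup U) (ρ : Representation k G V) :
    RepIso (𝓛.restrict (N.map U.subtype)) ((𝓛.restrict U).restrict N)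
      (resRep ρ (N.map U.subtype).subtype) (resRep (resRep ρ U.subtype) N.subtype) where
  f := (U.subtype.comp N.subtype).codRestrict _ (fun n => ⟨n.1, n.2, rfl⟩)
  f' g := ⟨⟨g.1, by obtain ⟨⟨x, hx⟩, h1, h2⟩ := g.2; rw [← h2]; exact hx⟩, by
    obtain ⟨⟨x, hx⟩, h1, h2⟩ := g.2
    have : (⟨g.1, by rw [← h2]; exact hx⟩ : U) = ⟨x, hx⟩ := Subtype.ext h2.symm
    rw [this]; exact h1⟩
  φ := LinearMap.id
  φ' := LinearMap.id
  hf := by
    rintro J ⟨H, hH, h⟩
    exact ⟨H.subgroupOf U, ⟨H, hH, le_rfl⟩, fun x hx => h hx⟩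
  hf' := by
    rintro J ⟨J', ⟨H, hH, h'⟩, h⟩
    refine ⟨H ⊓ U, Levels.inf_mem hH hU, ?_⟩
    rintro ⟨x, hx⟩ hx'
    obtain ⟨⟨y, hy⟩, h1, h2⟩ := hx
    have hyx : y = x := h2
    subst hyx
    exact ⟨⟨⟨y, hy⟩, h1⟩, h (h' hx'.1), rfl⟩
  ff' g := rfl
  f'f g := rfl
  φφ' _ := rfl
  φ'φ _ := rfl
  compat _ _ := rfl

/-- the whole group -/
def RepIso.top (ρ : Representation k G V) :
    RepIso 𝓛 (𝓛.restrict ⊤) ρ (resRep ρ (⊤ : Subgroup G).subtype) where
  f := (⊤ : Subgroup G).subtype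
  f' g := ⟨g, trivial⟩
  φ := LinearMap.id
  φ' := LinearMap.id
  hf := Levels.cont_subtype _
  hf' := by
    rintro J ⟨H, hH, h⟩
    refine Levels.up_mem hH fun x hx => ⟨⟨x, trivial⟩, h hx, rfl⟩
  ff' g := rfl
  f'f g := rfl
  φφ' _ := rfl
  φ'φ _ := rfl
  compat _ _ := rfl

end Transport

end Fermat.Agent.CFT
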