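import Mathlib
import Fermat.Agent.CFT.Euler

/-!
# Dévissage over `p`-groups, Euler characteristic formula and right exactness of `H²`
-/

set_option autoImplicit false

open Module

namespace Fermat.Agent.CFT

section Generators

/-- `m` copies of the coset space -/
def GSet {G : Type*} [Group G] (N : Subgroup G) (m : ℕ) : Type _ := (G ⧸ N) × Fin m

/-- constructor -/
def GSet.mk {G : Type*} [Group G] {N : Subgroup G} {m : ℕ} (c : G ⧸ N) (j : Fin m) : GSet N m :=
  (c, j)

variable {k : Type*} [Field k] {G : Type*} [Group G] {𝓛 : Levels G}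
variable {V : Type*} [AddCommGroup V] [Module k V] {ρ : Representation k G V}

instance {N : Subgroup G} {m : ℕ} : MulAction G (GSet N m) where
  smul g x := (g • x.1, x.2)
  one_smul x := Prod.ext (one_smul G x.1) rfl
  mul_smul g h x := Prod.ext (mul_smul g h x.1) rfl

lemma GSet.smul_fst {N : Subgroup G} {m : ℕ} (g : G) (x : GSet N m) : (g • x).1 = g • x.1 := rfl
lemma GSet.smul_snd {N : Subgroup G} {m : ℕ} (g : G) (x : GSet N m) : (g • x).2 = x.2 := rfl

instance {N : Subgroup G} {m : ℕ} [Finite (G ⧸ N)] : Finite (GSet N m) :=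
  inferInstanceAs (Finite ((G ⧸ N) × Fin m))

lemma smul_quotient_of_mem {N : Subgroup G} [hn : N.Normal] {s : G} (hs : s ∈ N) (c : G ⧸ N) :
    s • c = c := by
  obtain ⟨g, rfl⟩ := QuotientGroup.mk_surjective c
  rw [MulAction.Quotient.smul_mk, QuotientGroup.eq]
  have h1 : (s • g)⁻¹ * g = g⁻¹ * s⁻¹ * g := by simp [mul_assoc]
  rw [h1]
  have := hn.conj_mem s⁻¹ (N.inv_mem hs) g⁻¹
  rwa [inv_inv] at this

lemma GSet.smul_of_mem {N : Subgroup G} [hn : N.Normal] {m : ℕ} {s : G} (hs : s ∈ N)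
    (x : GSet N m) : s • x = x := Prod.ext (smul_quotient_of_mem hs x.1) rfl

lemma smoothSet_GSet {N : Subgroup G} (hN : N ∈ 𝓛) (m : ℕ) : SmoothSet 𝓛 (GSet N m) := fun x => by
  obtain ⟨H, hH, h⟩ := smoothSet_quotient hN x.1
  exact ⟨H, hH, fun s hs => Prod.ext (h s hs) rfl⟩

/-- orbit data of `GSet N m` -/
noncomputable def OrbitData.gset (N : Subgroup G) (m : ℕ) : OrbitData G (GSet N m) (Fin m) where
  x j := ((OrbitData.quotient N).x (), j)
  o x := x.2
  t x := (OrbitData.quotient N).t x.1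
  U _ := N
  mem_U i g := by
    rw [show g ∈ N ↔ g ∈ (OrbitData.quotient N).U () from Iff.rfl, (OrbitData.quotient N).mem_U]
    exact ⟨fun h => Prod.ext h rfl, fun h => congrArg Prod.fst h⟩
  t_smul y := Prod.ext ((OrbitData.quotient N).t_smul y.1) rfl
  o_smul g y := rfl
  o_x i := rfl
  t_x i := (OrbitData.quotient N).t_x ()

/-- the generators: `m` copies of the permutation module `k[G/N]` -/
noncomputable abbrev genRep (k : Type*) [Field k] (N : Subgroup G) (m : ℕ) :
    Representation k G (GSet N m → k) := mapRep (Representation.trivial k G k) (GSet N m)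

/-- the map from the generator to a module -/
noncomputable def genMap (ρ : Representation k G V) (N : Subgroup G) [Finite (G ⧸ N)] {m : ℕ}
    (b : Fin m → V) : (GSet N m → k) →ₗ[k] V :=
  letI := Fintype.ofFinite (GSet N m)
  ∑ x : GSet N m, (evalMap k k x).smulRight (ρ (Quotient.out x.1) (b x.2))

lemma genMap_apply (ρ : Representation k G V) (N : Subgroup G) [Finite (G ⧸ N)] {m : ℕ}
    (b : Fin m → V) [Fintype (GSet N m)] (f : GSet N m → k) :
    genMap ρ N b f = ∑ x : GSet N m, f x • ρ (Quotient.out x.1) (b x.2) := by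
  rw [genMap, LinearMap.sum_apply]
  simp only [LinearMap.smulRight_apply, evalMap_apply]
  congr!

lemma rho_out_eq {N : Subgroup G} (hN : ∀ s ∈ N, ∀ v, ρ s v = v) (g : G) (v : V) :
    ρ (Quotient.out (g : G ⧸ N)) v = ρ g v := by
  obtain ⟨s, hs⟩ := QuotientGroup.mk_out_eq_mul N g
  rw [hs, rho_mul_apply, hN s s.2]

lemma rho_out_smul {N : Subgroup G} (hN : ∀ s ∈ N, ∀ v, ρ s v = v) (g : G) (c : G ⧸ N) (v : V) :
    ρ (Quotient.out (g • c)) v = ρ g (ρ (Quotient.out c) v) := by
  obtain ⟨h, rfl⟩ := QuotientGroup.mk_surjective c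
  rw [MulAction.Quotient.smul_mk, rho_out_eq hN, rho_out_eq hN, smul_eq_mul, rho_mul_apply]

lemma compat_genMap {N : Subgroup G} [Finite (G ⧸ N)] (hN : ∀ s ∈ N, ∀ v, ρ s v = v) {m : ℕ}
    (b : Fin m → V) (g : G) (f : GSet N m → k) :
    genMap ρ N b (genRep k N m g f) = ρ g (genMap ρ N b f) := by
  classical
  have := Fintype.ofFinite (GSet N m)
  rw [genMap_apply, genMap_apply, map_sum]
  rw [← Equiv.sum_comp (MulAction.toPerm g : Equiv.Perm (GSet N m))]
  refine Finset.sum_congr rfl fun x _ => ?_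
  rw [MulAction.toPerm_apply, mapRep_apply, inv_smul_smul, map_smul, GSet.smul_fst,
    GSet.smul_snd, rho_out_smul hN]
  rfl

lemma genMap_surjective {N : Subgroup G} [Finite (G ⧸ N)] (hN : ∀ s ∈ N, ∀ v, ρ s v = v) {m : ℕ}
    {b : Fin m → V} (hb : ⊤ ≤ Submodule.span k (Set.range b)) :
    Function.Surjective (genMap ρ N b) := by
  classical
  rw [← LinearMap.range_eq_top, eq_top_iff]
  refine hb.trans (Submodule.span_le.2 ?_)
  rintro _ ⟨j, rfl⟩
  have := Fintype.ofFinite (GSet N m)
  refine ⟨Pi.single (GSet.mk ((1 : G) : G ⧸ N) j) 1, ?_⟩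
  rw [genMap_apply, Finset.sum_eq_single (GSet.mk ((1 : G) : G ⧸ N) j)]
  · rw [Pi.single_eq_same, one_smul]
    show ρ (Quotient.out ((1 : G) : G ⧸ N)) (b j) = b j
    rw [rho_out_eq hN, map_one, Module.End.one_apply]
  · intro x _ hx
    rw [Pi.single_eq_of_ne hx, zero_smul]
  · intro h
    exact absurd (Finset.mem_univ _) h

lemma finrank_gset {N : Subgroup G} [Finite (G ⧸ N)] (m : ℕ) :
    finrank k (GSet N m → k) = N.index * m := by
  have := Fintype.ofFinite (GSet N m)
  rw [Module.finrank_fintype_fun_eq_card, ← Nat.card_eq_fintype_card]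
  show Nat.card ((G ⧸ N) × Fin m) = _
  rw [Nat.card_prod, Nat.card_fin]; rfl

/-- the kernel of a representation -/
def repKer (ρ : Representation k G V) : Subgroup G where
  carrier := {g | ∀ v, ρ g v = v}
  one_mem' v := by simp
  mul_mem' {a b} ha hb v := by rw [rho_mul_apply, hb, ha]
  inv_mem' {a} ha v := by
    conv_lhs => rw [← ha v]
    rw [rho_inv_rho]

lemma mem_repKer {g : G} : g ∈ repKer ρ ↔ ∀ v, ρ g v = v := Iff.rfl

instance : (repKer ρ).Normal := ⟨fun s hs g v => by
  rw [rho_mul_apply, rho_mul_apply, hs, rho_rho_inv]⟩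

lemma repKer_mem [FiniteDimensional k V] (hs : Smooth 𝓛 ρ) : repKer ρ ∈ 𝓛 := by
  choose H hH h using hs
  let b := Module.finBasis k V
  refine Levels.up_mem (Levels.iInf_mem fun i => hH (b i)) fun s hs => ?_
  rw [Subgroup.mem_iInf] at hs
  rw [mem_repKer]
  intro v
  have h1 : ρ s = LinearMap.id := b.ext fun i => h _ s (hs i)
  rw [h1]; rfl

end Generators

section PAction

variable {p : ℕ} [Fact p.Prime] {U : Type*} [Group U]
variable {V : Type*} [AddCommGroup V] [Module (ZMod p) V]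

/-- the group acts through a `p`-group -/
def PAct (p : ℕ) [Fact p.Prime] {U : Type*} [Group U] {V : Type*} [AddCommGroup V]
    [Module (ZMod p) V] (ρ : Representation (ZMod p) U V) : Prop :=
  ∀ g, ∃ n : ℕ, g ^ (p ^ n) ∈ repKer ρ

variable {ρ : Representation (ZMod p) U V}

lemma PAct.exists_fixed [FiniteDimensional (ZMod p) V] [Nontrivial V] (h : PAct p ρ) :
    ∃ v : V, v ≠ 0 ∧ ∀ g, ρ g v = v := by
  have : Finite V := Module.finite_of_finite (ZMod p)
  let f : U →* (Module.End (ZMod p) V)ˣ := MonoidHom.toHomUnits ρ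
  have hf : ∀ g v, ((f g : (Module.End (ZMod p) V)ˣ) : Module.End (ZMod p) V) v = ρ g v :=
    fun g v => rfl
  have hQ : IsPGroup p f.range := by
    rintro ⟨_, g, rfl⟩
    obtain ⟨n, hn⟩ := h g
    refine ⟨n, Subtype.ext ?_⟩
    show f g ^ (p ^ n) = 1
    rw [← map_pow]
    ext v
    rw [hf, hn v]; rfl
  have hcard : p ∣ Nat.card V := by
    rw [Module.natCard_eq_pow_finrank (K := ZMod p), Nat.card_zmod]
    exact dvd_pow_self _ (Module.finrank_pos).ne'
  obtain ⟨v, hv, hv'⟩ := hQ.exists_fixed_point_of_prime_dvd_card_of_fixed_point V hcard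
    (a := 0) (fun q => smul_zero q)
  refine ⟨v, hv'.symm, fun g => ?_⟩
  exact hv ⟨f g, g, rfl⟩

variable {A B C : Type*} [AddCommGroup A] [Module (ZMod p) A] [AddCommGroup B]
  [Module (ZMod p) B] [AddCommGroup C] [Module (ZMod p) C]
variable {ρA : Representation (ZMod p) U A} {ρB : Representation (ZMod p) U B}
  {ρC : Representation (ZMod p) U C}

lemma SES.pact_left (E : SES ρA ρB ρC) (h : PAct p ρB) : PAct p ρA := fun g => by
  obtain ⟨n, hn⟩ := h g
  exact ⟨n, fun a => E.ι_injective (by rw [E.hι, hn])⟩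

lemma SES.pact_right (E : SES ρA ρB ρC) (h : PAct p ρB) : PAct p ρC := fun g => by
  obtain ⟨n, hn⟩ := h g
  exact ⟨n, fun c => by rw [← E.πσ c, ← E.hπ, hn]⟩

/-- short exact sequence attached to a nonzero fixed vector -/
lemma exists_SES_of_fixed {v : V} (hv : v ≠ 0) (hfix : ∀ g, ρ g v = v) :
    ∃ (W : Submodule (ZMod p) V) (hW : ∀ g, ∀ w ∈ W, ρ g w ∈ W), W = Submodule.span (ZMod p) {v} ∧
      Nonempty (SES (Representation.trivial (ZMod p) U (ZMod p)) ρ (quoRep ρ W hW)) := by
  have hW : ∀ g, ∀ w ∈ Submodule.span (ZMod p) {v}, ρ g w ∈ Submodule.span (ZMod p) {v} := by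
    intro g w hw
    obtain ⟨c, rfl⟩ := Submodule.mem_span_singleton.1 hw
    rw [map_smul, hfix]
    exact hw
  refine ⟨_, hW, rfl, ⟨SES.ofExact _ _ _ (LinearMap.toSpanSingleton (ZMod p) V v)
    (Submodule.mkQ _) ?_ ?_ ?_ ?_ ?_⟩⟩
  · intro g a
    simp [hfix]
  · intro g b
    rfl
  · intro a a' h
    simp only [LinearMap.toSpanSingleton_apply] at h
    exact smul_left_injective _ hv h
  · exact Submodule.mkQ_surjective _
  · intro b
    rw [Submodule.mkQ_apply, Submodule.Quotient.mk_eq_zero, Submodule.mem_span_singleton]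
    rfl

/-- **Dévissage**: a property of smooth representations through `p`-groups stable under extensions by
the trivial representation on the left holds for all. -/
theorem devissage (P : ∀ (V : Type) [AddCommGroup V] [Module (ZMod p) V],
      Representation (ZMod p) U V → Prop)
    (h0 : ∀ (V : Type) [AddCommGroup V] [Module (ZMod p) V] (ρ : Representation (ZMod p) U V),
      Subsingleton V → P V ρ)
    (h1 : ∀ (B C : Type) [AddCommGroup B] [Module (ZMod p) B] [AddCommGroup C]
      [Module (ZMod p) C] (ρB : Representation (ZMod p) U B) (ρC : Representation (ZMod p) U C)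
      (_ : SES (Representation.trivial (ZMod p) U (ZMod p)) ρB ρC), FiniteDimensional (ZMod p) B →
      PAct p ρB → P C ρC → P B ρB) :
    ∀ (n : ℕ) (V : Type) [AddCommGroup V] [Module (ZMod p) V] [FiniteDimensional (ZMod p) V]
      (ρ : Representation (ZMod p) U V), finrank (ZMod p) V = n → PAct p ρ → P V ρ := by
  intro n
  induction n with
  | zero =>
    intro V _ _ _ ρ hV _
    exact h0 V ρ (finrank_zero_iff.1 hV)
  | succ n ih =>
    intro V _ _ _ ρ hV hp
    have : Nontrivial V := nontrivial_of_finrank_pos (R := ZMod p) (by omega)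
    obtain ⟨v, hv, hfix⟩ := hp.exists_fixed
    obtain ⟨W, hW, hWeq, ⟨E⟩⟩ := exists_SES_of_fixed hv hfix
    refine h1 _ _ _ _ E inferInstance hp (ih _ _ ?_ (E.pact_right hp))
    have h2 := Submodule.finrank_quotient_add_finrank W
    rw [hWeq, finrank_span_singleton hv, ← hWeq] at h2
    omega

end PAction

section EC

variable {p : ℕ} [Fact p.Prime] {U : Type} [Group U] {𝓤 : Levels U}

lemma fin2_of_subsingleton {k : Type*} [Field k] {V : Type*} [AddCommGroup V] [Module k V]
    [Subsingleton V] (ρ : Representation k U V) : Fin2 𝓤 ρ ∧ chi2 𝓤 ρ = 0 := by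
  have h1 : Subsingleton (H1 𝓤 ρ) := by
    have : Subsingleton ↥(Z1 𝓤 ρ) := inferInstance
    exact (H1.mk_surjective 𝓤 ρ).subsingleton
  have h2 : Subsingleton (H2 𝓤 ρ) := by
    have : Subsingleton ↥(Z2 𝓤 ρ) := inferInstance
    exact (H2.mk_surjective 𝓤 ρ).subsingleton
  refine ⟨⟨inferInstance, inferInstance, inferInstance⟩, ?_⟩
  rw [chi2, finrank_zero_of_subsingleton, finrank_zero_of_subsingleton,
    finrank_zero_of_subsingleton]
  rfl

/-- Hypothesis: multiplicativity of the Euler characteristics of the trivial module -/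
structure ECHyp (p : ℕ) [Fact p.Prime] {U : Type*} [Group U] (𝓤 : Levels U) (c : ℤ) : Prop where
  fin : ∀ N ∈ 𝓤, Fin2 (𝓤.restrict N) (Representation.trivial (ZMod p) N (ZMod p))
  chi : ∀ N ∈ 𝓤, chi2 (𝓤.restrict N) (Representation.trivial (ZMod p) N (ZMod p)) = N.index * c

variable {c : ℤ}

lemma ECHyp.top (h : ECHyp p 𝓤 c) :
    Fin2 𝓤 (Representation.trivial (ZMod p) U (ZMod p)) ∧
      chi2 𝓤 (Representation.trivial (ZMod p) U (ZMod p)) = c := by
  have E := RepIso.top (𝓛 := 𝓤) (Representation.trivial (ZMod p) U (ZMod p))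
  refine ⟨E.fin2' (h.fin ⊤ Levels.top_mem), ?_⟩
  rw [E.chi2_eq]
  have := h.chi ⊤ Levels.top_mem
  rw [Subgroup.index_top, Nat.cast_one, one_mul] at this
  exact this

theorem ECHyp.bound (h : ECHyp p 𝓤 c) (V : Type) [AddCommGroup V] [Module (ZMod p) V]
    [FiniteDimensional (ZMod p) V] (ρ : Representation (ZMod p) U V) (hs : Smooth 𝓤 ρ)
    (hp : PAct p ρ) : Fin2 𝓤 ρ ∧ chi2 𝓤 ρ ≤ finrank (ZMod p) V * c := by
  have key := devissage (p := p) (U := U)
    (fun V _ _ ρ => Smooth 𝓤 ρ → Fin2 𝓤 ρ ∧ chi2 𝓤 ρ ≤ finrank (ZMod p) V * c)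
    (fun V _ _ ρ hV hs => by
      obtain ⟨h1, h2⟩ := fin2_of_subsingleton (𝓤 := 𝓤) ρ
      refine ⟨h1, ?_⟩
      rw [h2, finrank_zero_of_subsingleton]
      simp)
    (fun B C _ _ _ _ ρB ρC E hB hpB hC hs => by
      obtain ⟨f1, c1⟩ := h.top
      obtain ⟨f2, c2⟩ := hC (E.smooth_right hs)
      refine ⟨E.fin2 hs f1 f2, ?_⟩
      have h1 := chi2_le_of_SES E hs f1 f2
      have h2 : finrank (ZMod p) B = 1 + finrank (ZMod p) C := by
        have e1 := LinearMap.finrank_range_add_finrank_ker E.π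
        have e2 : LinearMap.ker E.π = LinearMap.range E.ι := by
          ext b
          exact ⟨fun hb => ⟨E.τ b, E.ιτ_of_π hb⟩, fun ⟨a, ha⟩ => ha ▸ E.πι a⟩
        rw [LinearMap.range_eq_top.2 E.π_surjective, finrank_top, e2,
          LinearMap.finrank_range_of_inj E.ι_injective, finrank_self] at e1
        omega
      rw [h2]
      push_cast
      rw [c1] at h1
      linarith)
  exact key _ V ρ rfl hp hs

lemma SES.finrank_add {k : Type*} [Field k] {A B C : Type*} [AddCommGroup A] [Module k A]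
    [AddCommGroup B] [Module k B] [AddCommGroup C] [Module k C] [FiniteDimensional k B]
    {ρA : Representation k U A} {ρB : Representation k U B} {ρC : Representation k U C}
    (E : SES ρA ρB ρC) : finrank k A + finrank k C = finrank k B := by
  have e1 := LinearMap.finrank_range_add_finrank_ker E.π
  have e2 : LinearMap.ker E.π = LinearMap.range E.ι := by
    ext b
    exact ⟨fun hb => ⟨E.τ b, E.ιτ_of_π hb⟩, fun ⟨a, ha⟩ => ha ▸ E.πι a⟩
  rw [LinearMap.range_eq_top.2 E.π_surjective, finrank_top, e2,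
    LinearMap.finrank_range_of_inj E.ι_injective] at e1
  omega

lemma SES.finiteDimensional {k : Type*} [Field k] {A B C : Type*} [AddCommGroup A] [Module k A]
    [AddCommGroup B] [Module k B] [AddCommGroup C] [Module k C] [FiniteDimensional k B]
    {ρA : Representation k U A} {ρB : Representation k U B} {ρC : Representation k U C}
    (E : SES ρA ρB ρC) : FiniteDimensional k A ∧ FiniteDimensional k C :=
  ⟨FiniteDimensional.of_injective E.ι E.ι_injective,
    FiniteDimensional.of_surjective E.π E.π_surjective⟩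

lemma smooth_trivial {k : Type*} [Field k] {G : Type*} [Group G] {𝓛 : Levels G} {V : Type*}
    [AddCommGroup V] [Module k V] : Smooth 𝓛 (Representation.trivial k G V) := fun _ =>
  ⟨⊤, Levels.top_mem, fun _ _ => rfl⟩

lemma pact_genRep {N : Subgroup U} [N.Normal] (hN : ∀ g : U, ∃ n : ℕ, g ^ (p ^ n) ∈ N) (m : ℕ) :
    PAct p (genRep (ZMod p) N m) := fun g => by
  obtain ⟨n, hn⟩ := hN g
  refine ⟨n, fun f => ?_⟩
  ext x
  rw [mapRep_apply, GSet.smul_of_mem (N.inv_mem hn)]
  rfl

/-- Euler characteristic of the generators -/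
lemma ECHyp.gen (h : ECHyp p 𝓤 c) {N : Subgroup U} (hN : N ∈ 𝓤) (m : ℕ) :
    Fin2 𝓤 (genRep (ZMod p) N m) ∧
      chi2 𝓤 (genRep (ZMod p) N m) = finrank (ZMod p) (GSet N m → ZMod p) * c := by
  have hfin := finite_quotient_of_mem hN
  have hf : ∀ i : Fin m, Fin2 (𝓤.restrict ((OrbitData.gset N m).U i))
      (resRep (Representation.trivial (ZMod p) U (ZMod p)) ((OrbitData.gset N m).U i).subtype) :=
    fun i => h.fin N hN
  refine ⟨fin2_mapRep (OrbitData.gset N m) (smoothSet_GSet hN m) hf, ?_⟩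
  rw [chi2_mapRep (OrbitData.gset N m) (smoothSet_GSet hN m) hf]
  have : ∀ i : Fin m, chi2 (𝓤.restrict ((OrbitData.gset N m).U i))
      (resRep (Representation.trivial (ZMod p) U (ZMod p)) ((OrbitData.gset N m).U i).subtype) =
      N.index * c := fun i => h.chi N hN
  rw [Finset.sum_congr rfl fun i _ => this i]
  rw [finrank_gset]
  simp
  ring

/-- **Euler characteristic formula** and right exactness, over `p`-groups -/
theorem ECHyp.main (h : ECHyp p 𝓤 c) (V : Type) [AddCommGroup V] [Module (ZMod p) V]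
    [FiniteDimensional (ZMod p) V] (ρ : Representation (ZMod p) U V) (hs : Smooth 𝓤 ρ)
    (hp : PAct p ρ) : chi2 𝓤 ρ = finrank (ZMod p) V * c := by
  have hN := repKer_mem hs
  have hfin := finite_quotient_of_mem hN
  let b := Module.finBasis (ZMod p) V
  have hsur := genMap_surjective (ρ := ρ) (N := repKer ρ) (fun _ hs v => hs v) (b := b)
    b.span_eq.ge
  let E := SES.ofSurj (compat_genMap (ρ := ρ) (N := repKer ρ) (fun _ hs => hs) b) hsur
  have hsm : Smooth 𝓤 (genRep (ZMod p) (repKer ρ) (finrank (ZMod p) V)) :=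
    smooth_mapRep smooth_trivial (smoothSet_GSet hN _)
  have hpg := pact_genRep (N := repKer ρ) hp (finrank (ZMod p) V)
  obtain ⟨hfd1, hfd2⟩ := E.finiteDimensional
  obtain ⟨hf, hchi⟩ := h.gen hN (finrank (ZMod p) V)
  obtain ⟨hf1, hc1⟩ := h.bound _ _ (E.smooth_left hsm) (E.pact_left hpg)
  obtain ⟨hf2, hc2⟩ := h.bound _ _ hs hp
  have h1 := E.chi_add hsm hf1 hf2
  have h2 := E.finrank_add
  rw [hchi, ← h2] at h1
  push_cast at h1
  have h3 : (0 : ℤ) ≤ finrank (ZMod p) (H2 𝓤 ρ ⧸ LinearMap.range (E.p2 𝓤)) := by positivity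
  linarith

/-- right exactness of `H²` over `p`-groups -/
theorem ECHyp.p2_surjective (h : ECHyp p 𝓤 c) {A B C : Type} [AddCommGroup A]
    [Module (ZMod p) A] [AddCommGroup B] [Module (ZMod p) B] [AddCommGroup C] [Module (ZMod p) C]
    [FiniteDimensional (ZMod p) B] {ρA : Representation (ZMod p) U A}
    {ρB : Representation (ZMod p) U B} {ρC : Representation (ZMod p) U C} (E : SES ρA ρB ρC)
    (hs : Smooth 𝓤 ρB) (hp : PAct p ρB) : Function.Surjective (E.p2 𝓤) := by
  obtain ⟨hfd1, hfd2⟩ := E.finiteDimensional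
  have h1 := E.chi_add hs (h.bound _ _ (E.smooth_left hs) (E.pact_left hp)).1
    (h.bound _ _ (E.smooth_right hs) (E.pact_right hp)).1
  rw [h.main _ _ hs hp, h.main _ _ (E.smooth_left hs) (E.pact_left hp),
    h.main _ _ (E.smooth_right hs) (E.pact_right hp), ← E.finrank_add] at h1
  push_cast at h1
  have h3 : finrank (ZMod p) (H2 𝓤 ρC ⧸ LinearMap.range (E.p2 𝓤)) = 0 := by
    have : (finrank (ZMod p) (H2 𝓤 ρC ⧸ LinearMap.range (E.p2 𝓤)) : ℤ) = 0 := by linarith
    exact_mod_cast this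
  have hf := (h.bound _ _ (E.smooth_right hs) (E.pact_right hp)).1.h2
  rw [finrank_zero_iff] at h3
  rw [← LinearMap.range_eq_top]
  exact Submodule.Quotient.subsingleton_iff.1 h3

end EC

/-! ### from `p`-groups to the whole group -/

section Sylow

variable {p : ℕ} [Fact p.Prime] {G : Type} [Group G] {𝓛 : Levels G}

/-- Euler characteristic data on the small levels `W ≤ U₁`, where `U₁` is normal of index prime to
`p`. -/
structure ECG (p : ℕ) [Fact p.Prime] {G : Type} [Group G] (𝓛 : Levels G) (U₁ : Subgroup G)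
    (c : ℚ) : Prop where
  mem : U₁ ∈ 𝓛
  normal : U₁.Normal
  index : ¬ p ∣ U₁.index
  fin : ∀ W ∈ 𝓛, W ≤ U₁ → Fin2 (𝓛.restrict W) (Representation.trivial (ZMod p) W (ZMod p))
  chi : ∀ W ∈ 𝓛, W ≤ U₁ →
    (chi2 (𝓛.restrict W) (Representation.trivial (ZMod p) W (ZMod p)) : ℚ) = W.index * c

variable {U₁ : Subgroup G} {c : ℚ}

lemma ECG.ecHyp (h : ECG p 𝓛 U₁ c) {U : Subgroup G} (hU : U ∈ 𝓛) (hU₁ : U ≤ U₁) :
    ECHyp p (𝓛.restrict U)
      (chi2 (𝓛.restrict U) (Representation.trivial (ZMod p) U (ZMod p))) where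
  fin N hN := by
    have E := RepIso.nested hU N (Representation.trivial (ZMod p) G (ZMod p))
    have hN' : N.map U.subtype ∈ 𝓛 := (Levels.mem_restrict_iff_map hU).1 hN
    have hle : N.map U.subtype ≤ U₁ := by
      rintro _ ⟨x, _, rfl⟩
      exact hU₁ x.2
    exact E.fin2 (h.fin _ hN' hle)
  chi N hN := by
    have E := RepIso.nested hU N (Representation.trivial (ZMod p) G (ZMod p))
    have hN' : N.map U.subtype ∈ 𝓛 := (Levels.mem_restrict_iff_map hU).1 hN
    have hle : N.map U.subtype ≤ U₁ := by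
      rintro _ ⟨x, _, rfl⟩
      exact hU₁ x.2
    have h1 := h.chi _ hN' hle
    have h2 := h.chi _ hU hU₁
    have h3 : (N.map U.subtype).index = N.index * U.index := Subgroup.index_map_subtype N
    have h4 : chi2 ((𝓛.restrict U).restrict N) (Representation.trivial (ZMod p) N (ZMod p)) =
        chi2 (𝓛.restrict (N.map U.subtype))
          (Representation.trivial (ZMod p) (N.map U.subtype) (ZMod p)) := E.chi2_eq.symm
    have h5 : (chi2 ((𝓛.restrict U).restrict N)
        (Representation.trivial (ZMod p) N (ZMod p)) : ℚ) = N.index *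
        chi2 (𝓛.restrict U) (Representation.trivial (ZMod p) U (ZMod p)) := by
      rw [h4, h1, h2, h3]; push_cast; ring
    exact_mod_cast h5

variable {V : Type} [AddCommGroup V] [Module (ZMod p) V]

/-- a level acting through a `p`-group, of index prime to `p` -/
lemma ECG.exists_sylow (h : ECG p 𝓛 U₁ c) [FiniteDimensional (ZMod p) V]
    (ρ : Representation (ZMod p) G V) (hs : Smooth 𝓛 ρ) :
    ∃ U ∈ 𝓛, U ≤ U₁ ∧ ¬ p ∣ U.index ∧ PAct p (resRep ρ U.subtype) := by
  have := h.normal
  let N := repKer ρ ⊓ U₁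
  have hN : N ∈ 𝓛 := Levels.inf_mem (repKer_mem hs) h.mem
  have hNn : N.Normal := inferInstance
  have hfin := finite_quotient_of_mem hN
  obtain ⟨P⟩ : Nonempty (Sylow p (G ⧸ N)) := inferInstance
  have hNU : N ≤ (P : Subgroup (G ⧸ N)).comap (QuotientGroup.mk' N) := by
    intro x hx
    rw [Subgroup.mem_comap]
    have : QuotientGroup.mk' N x = 1 := (QuotientGroup.eq_one_iff x).2 hx
    rw [this]
    exact (P : Subgroup (G ⧸ N)).one_mem
  have hpow : ∀ g ∈ (P : Subgroup (G ⧸ N)).comap (QuotientGroup.mk' N),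
      ∃ n : ℕ, g ^ (p ^ n) ∈ N := by
    intro g hg
    obtain ⟨n, hn⟩ := P.2 ⟨QuotientGroup.mk' N g, hg⟩
    refine ⟨n, ?_⟩
    rw [← QuotientGroup.eq_one_iff]
    exact congrArg Subtype.val hn
  refine ⟨_, Levels.up_mem hN hNU, ?_, ?_, ?_⟩
  · intro g hg
    obtain ⟨n, hn⟩ := hpow g hg
    have h1 : (QuotientGroup.mk' U₁ g) ^ (p ^ n) = 1 := by
      rw [← map_pow]
      exact (QuotientGroup.eq_one_iff _).2 hn.2
    have h2 : (QuotientGroup.mk' U₁ g) ^ (U₁.index) = 1 := by
      rw [Subgroup.index_eq_card]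
      exact pow_card_eq_one'
    have h3 : (QuotientGroup.mk' U₁ g) ^ (Nat.gcd (p ^ n) U₁.index) = 1 :=
      pow_gcd_eq_one.2 ⟨h1, h2⟩
    have h4 : Nat.Coprime (p ^ n) U₁.index :=
      Nat.Coprime.pow_left n ((Nat.Prime.coprime_iff_not_dvd Fact.out).2 h.index)
    rw [h4, pow_one] at h3
    exact (QuotientGroup.eq_one_iff _).1 h3
  · rw [Subgroup.index_comap_of_surjective _ (QuotientGroup.mk'_surjective N)]
    exact P.not_dvd_index
  · rintro ⟨g, hg⟩
    obtain ⟨n, hn⟩ := hpow g hg
    exact ⟨n, fun v => hn.1 v⟩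

/-- restriction of short exact sequences -/
def SES.res {k : Type*} [CommRing k] {G G' : Type*} [Group G] [Group G']
    {A B C : Type*} [AddCommGroup A] [Module k A]
    [AddCommGroup B] [Module k B] [AddCommGroup C] [Module k C]
    {ρA : Representation k G A} {ρB : Representation k G B} {ρC : Representation k G C}
    (E : SES ρA ρB ρC) (f : G' →* G) : SES (resRep ρA f) (resRep ρB f) (resRep ρC f) where
  ι := E.ι
  π := E.π
  σ := E.σ
  τ := E.τ
  hι g a := E.hι (f g) a
  hπ g a := E.hπ (f g) a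
  τι := E.τι
  πσ := E.πσ
  decomp := E.decomp

lemma isUnit_natCast_zmod {n : ℕ} (h : ¬ p ∣ n) : IsUnit (n : ZMod p) := by
  rw [isUnit_iff_ne_zero, Ne, ZMod.natCast_eq_zero_iff]
  exact h

/-- **Right exactness** of `H²`. -/
theorem ECG.p2_surjective (h : ECG p 𝓛 U₁ c) {A B C : Type} [AddCommGroup A]
    [Module (ZMod p) A] [AddCommGroup B] [Module (ZMod p) B] [AddCommGroup C] [Module (ZMod p) C]
    [FiniteDimensional (ZMod p) B] {ρA : Representation (ZMod p) G A}
    {ρB : Representation (ZMod p) G B} {ρC : Representation (ZMod p) G C} (E : SES ρA ρB ρC)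
    (hs : Smooth 𝓛 ρB) : Function.Surjective (E.p2 𝓛) := by
  obtain ⟨U, hU, hU₁, hindex, hp⟩ := h.exists_sylow ρB hs
  have h1 := (h.ecHyp hU hU₁).p2_surjective (E.res U.subtype)
    (hs.res (Levels.cont_subtype U)) hp
  have hr : U.subtype.range ∈ 𝓛 := by rw [Subgroup.range_subtype]; exact hU
  have hi : Function.Injective U.subtype := Subtype.val_injective
  have hindex' : IsUnit (U.subtype.range.index : ZMod p) := by
    rw [Subgroup.range_subtype]
    exact isUnit_natCast_zmod hindex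
  intro x
  obtain ⟨y, hy⟩ := h1 (res2 𝓛 ρC U.subtype x)
  obtain ⟨u, hu⟩ := hindex'
  refine ⟨((u⁻¹ : (ZMod p)ˣ) : ZMod p) • scor2 ρB hi hr y, ?_⟩
  have h2 : E.p2 𝓛 (scor2 ρB hi hr y) = (U.subtype.range.index : ZMod p) • x := by
    rw [← scor2_res2 hi hr, ← hy]
    exact scor2_map hi hr E.compat_π (E.res U.subtype).compat_π y
  rw [map_smul, h2, ← hu, smul_smul, Units.inv_mul, one_smul]

/-- finiteness of the cohomology of smooth finite dimensional representations -/
theorem ECG.fin2 (h : ECG p 𝓛 U₁ c) [FiniteDimensional (ZMod p) V]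
    (ρ : Representation (ZMod p) G V) (hs : Smooth 𝓛 ρ) : Fin2 𝓛 ρ := by
  obtain ⟨U, hU, hU₁, hindex, hp⟩ := h.exists_sylow ρ hs
  have h1 := ((h.ecHyp hU hU₁).bound _ _ (hs.res (Levels.cont_subtype U)) hp).1
  have hr : U.subtype.range ∈ 𝓛 := by rw [Subgroup.range_subtype]; exact hU
  have hi : Function.Injective U.subtype := Subtype.val_injective
  have hindex' : IsUnit (U.subtype.range.index : ZMod p) := by
    rw [Subgroup.range_subtype]
    exact isUnit_natCast_zmod hindex
  have e1 : FiniteDimensional (ZMod p) (H1 (𝓛.comap U.subtype) (resRep ρ U.subtype)) := h1.h1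
  have e2 : FiniteDimensional (ZMod p) (H2 (𝓛.comap U.subtype) (resRep ρ U.subtype)) := h1.h2
  exact ⟨inferInstance,
    FiniteDimensional.of_injective (res1 𝓛 ρ U.subtype) (res1_injective_of_index hi hr hindex'),
    FiniteDimensional.of_injective (res2 𝓛 ρ U.subtype) (res2_injective_of_index hi hr hindex')⟩

end Sylow

end Fermat.Agent.CFT
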