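import Mathlib
import Fermat.Agent.CFT.RightExact
import Fermat.Prelude.Def_GroupCohomology_Selmer

/-!
# Duality: linear algebra, dual representations, local duality
-/

set_option autoImplicit false

open Module

namespace Fermat.Agent.CFT

section LA

variable {k : Type*} [Field k]
variable {TK TP TM HK HP HM : Type*} [AddCommGroup TK] [Module k TK] [AddCommGroup TP] [Module k TP]
  [AddCommGroup TM] [Module k TM] [AddCommGroup HK] [Module k HK] [AddCommGroup HP] [Module k HP]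
  [AddCommGroup HM] [Module k HM]

/-- extension of functionals -/
lemma exists_factor {X Y : Type*} [AddCommGroup X] [Module k X] [AddCommGroup Y] [Module k Y]
    (f : X →ₗ[k] Y) (Φ : X →ₗ[k] k) (h : ∀ x, f x = 0 → Φ x = 0) :
    ∃ Ψ : Y →ₗ[k] k, ∀ x, Ψ (f x) = Φ x := by
  have h1 : Φ ∈ LinearMap.range f.dualMap := by
    rw [LinearMap.range_dualMap_eq_dualAnnihilator_ker, Submodule.mem_dualAnnihilator]
    intro x hx
    exact h x hx
  obtain ⟨Ψ, hΨ⟩ := h1
  exact ⟨Ψ, fun x => LinearMap.congr_fun hΨ x⟩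

/-- abstract five lemma, step one -/
lemma la1 (f : TK →ₗ[k] TP) (g : TP →ₗ[k] TM) (f' : HP →ₗ[k] HK) (g' : HM →ₗ[k] HP)
    (bK : HK →ₗ[k] TK →ₗ[k] k) (bP : HP →ₗ[k] TP →ₗ[k] k) (bM : HM →ₗ[k] TM →ₗ[k] k)
    (hg : Function.Surjective g) (hfg : ∀ x, g (f x) = 0)
    (hfg' : ∀ h, f' h = 0 → ∃ m, g' m = h)
    (adj1 : ∀ x h, bP h (f x) = bK (f' h) x) (adj2 : ∀ x h, bP (g' h) x = bM h (g x))
    [FiniteDimensional k HK] (hK : ∀ h, (∀ x, bK h x = 0) → h = 0)
    (hP : ∀ x, (∀ h, bP h x = 0) → x = 0) (x : TM) (hx : ∀ h, bM h x = 0) : x = 0 := by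
  obtain ⟨y, rfl⟩ := hg x
  obtain ⟨Ψ, hΨ⟩ := exists_factor f' (bP.flip y) (fun h hh => by
    obtain ⟨m, rfl⟩ := hfg' h hh
    rw [LinearMap.flip_apply, adj2]
    exact hx m)
  have hinj : Function.Injective bK := (injective_iff_map_eq_zero _).2 fun h hh =>
    hK h fun x => LinearMap.congr_fun hh x
  obtain ⟨z, hz⟩ := (LinearMap.flip_surjective_iff₁ (B := bK)).2 hinj Ψ
  have h1 : y = f z := by
    rw [← sub_eq_zero]
    refine hP _ fun h => ?_
    have h2 : bK (f' h) z = Ψ (f' h) := LinearMap.congr_fun hz (f' h)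
    rw [map_sub, adj1, h2, hΨ, LinearMap.flip_apply, sub_self]
  rw [h1, hfg]

/-- abstract five lemma, step two -/
lemma la2 (f : TK →ₗ[k] TP) (f' : HP →ₗ[k] HK)
    (bK : HK →ₗ[k] TK →ₗ[k] k) (bP : HP →ₗ[k] TP →ₗ[k] k)
    (adj1 : ∀ x h, bP h (f x) = bK (f' h) x)
    (hK : ∀ h, (∀ x, bK h x = 0) → h = 0) [FiniteDimensional k TP]
    (hP : ∀ x, (∀ h, bP h x = 0) → x = 0) (κ : HK) (hκ : ∀ x, f x = 0 → bK κ x = 0) :
    ∃ h, f' h = κ := by
  obtain ⟨Ψ, hΨ⟩ := exists_factor f (bK κ) hκ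
  have hinj : Function.Injective bP.flip := (injective_iff_map_eq_zero _).2 fun x hx =>
    hP x fun h => LinearMap.congr_fun hx h
  obtain ⟨h, hh⟩ := (LinearMap.flip_surjective_iff₁ (B := bP.flip)).2 hinj Ψ
  refine ⟨h, ?_⟩
  rw [← sub_eq_zero]
  refine hK _ fun x => ?_
  have h2 : bP h (f x) = Ψ (f x) := LinearMap.congr_fun hh (f x)
  rw [map_sub, LinearMap.sub_apply, ← adj1, h2, hΨ, sub_self]

end LA

section DualRep

variable {k : Type*} [Field k] {G G' : Type*} [Group G] [Group G'] {𝓛 : Levels G}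
variable {V W : Type*} [AddCommGroup V] [Module k V] [AddCommGroup W] [Module k W]

/-- the one-dimensional representation attached to a character -/
def charRep (χ : G →* kˣ) : Representation k G k := (Representation.trivial k G k).twist χ

/-- the twisted dual -/
def dualRep (χ : G →* kˣ) (ρ : Representation k G V) : Representation k G (Dual k V) :=
  ρ.dual.twist χ

@[simp] lemma charRep_apply (χ : G →* kˣ) (g : G) (a : k) : charRep χ g a = (χ g : k) * a := rfl

@[simp] lemma dualRep_apply (χ : G →* kˣ) (ρ : Representation k G V) (g : G) (φ : Dual k V)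
    (v : V) : dualRep χ ρ g φ v = (χ g : k) * φ (ρ g⁻¹ v) := rfl

lemma resRep_charRep (χ : G →* kˣ) (f : G' →* G) : resRep (charRep χ) f = charRep (χ.comp f) := rfl

lemma resRep_dualRep (χ : G →* kˣ) (ρ : Representation k G V) (f : G' →* G) :
    resRep (dualRep χ ρ) f = dualRep (χ.comp f) (resRep ρ f) := by
  ext g φ v
  show (χ (f g) : k) * φ (ρ (f g)⁻¹ v) = (χ (f g) : k) * φ (ρ (f g⁻¹) v)
  rw [map_inv f]

variable {χ : G →* kˣ} {ρ : Representation k G V} {σ : Representation k G W}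

lemma smooth_charRep (hχ : χ.ker ∈ 𝓛) : Smooth 𝓛 (charRep χ) := fun v =>
  ⟨_, hχ, fun s hs => by rw [charRep_apply, MonoidHom.mem_ker.1 hs, Units.val_one, one_mul]⟩

lemma smooth_dualRep [FiniteDimensional k V] (hχ : χ.ker ∈ 𝓛) (hs : Smooth 𝓛 ρ) :
    Smooth 𝓛 (dualRep χ ρ) := fun φ =>
  ⟨_, Levels.inf_mem hχ (repKer_mem hs), fun s hs => by
    ext v
    rw [dualRep_apply, MonoidHom.mem_ker.1 hs.1, (repKer ρ).inv_mem hs.2 v, Units.val_one,
      one_mul]⟩

lemma compat_of_mem_invariants {φ : Dual k V} (hφ : φ ∈ (dualRep χ ρ).invariants) :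
    Compat ρ (charRep χ) (MonoidHom.id G) φ := fun g v => by
  have h1 := LinearMap.congr_fun (hφ g) (ρ g v)
  rw [dualRep_apply, rho_inv_rho] at h1
  rw [charRep_apply, h1]; rfl

lemma mem_invariants_of_compat {φ : Dual k V} (hφ : ∀ g v, φ (ρ g v) = (χ g : k) * φ v) :
    φ ∈ (dualRep χ ρ).invariants := fun g => by
  ext v
  rw [dualRep_apply, hφ, ← mul_assoc, map_inv, Units.val_inv_eq_inv_val, mul_inv_cancel₀ (by simp),
    one_mul]

/-- dual exact sequence -/
def SES.dual {A B C : Type*} [AddCommGroup A] [Module k A]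
    [AddCommGroup B] [Module k B] [AddCommGroup C] [Module k C]
    {ρA : Representation k G A} {ρB : Representation k G B} {ρC : Representation k G C}
    (E : SES ρA ρB ρC) (χ : G →* kˣ) : SES (dualRep χ ρC) (dualRep χ ρB) (dualRep χ ρA) where
  ι := E.π.dualMap
  π := E.ι.dualMap
  σ := E.τ.dualMap
  τ := E.σ.dualMap
  hι g φ := by
    ext b
    simp [E.hπ]
  hπ g φ := by
    ext a
    simp [E.hι]
  τι φ := by
    ext c
    simp [E.πσ]
  πσ φ := by
    ext a
    simp [E.τι]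
  decomp φ := by
    ext b
    have := congrArg φ (E.decomp b)
    rw [map_add] at this
    simp only [LinearMap.add_apply, LinearMap.dualMap_apply]
    rw [add_comm]
    exact this

/-- evaluation pairing -/
abbrev evPair (k V : Type*) [Field k] [AddCommGroup V] [Module k V] :
    Dual k V →ₗ[k] V →ₗ[k] k := LinearMap.id

lemma equiv₂_evPair : Equiv₂ (dualRep χ ρ) ρ (charRep χ) (evPair k V) := fun g φ v => by
  show dualRep χ ρ g φ (ρ g v) = _
  rw [dualRep_apply, rho_inv_rho]; rfl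

variable (𝓛) in
/-- evaluation `H⁰(M') → H²(M) → H²(μ)` -/
noncomputable def ev2 (χ : G →* kˣ) (ρ : Representation k G V) :
    (dualRep χ ρ).invariants →ₗ[k] H2 𝓛 ρ →ₗ[k] H2 𝓛 (charRep χ) where
  toFun φ := H2.map 𝓛 𝓛 ρ (charRep χ) (MonoidHom.id G) φ.1 Levels.cont_id
    (compat_of_mem_invariants φ.2)
  map_add' φ φ' := by
    refine LinearMap.ext fun x => ?_
    exact H2.map_add_coeff Levels.cont_id (compat_of_mem_invariants φ.2)
      (compat_of_mem_invariants φ'.2) _ x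
  map_smul' c φ := by
    refine LinearMap.ext fun x => ?_
    obtain ⟨x, rfl⟩ := H2.mk_surjective _ _ x
    rw [RingHom.id_apply, LinearMap.smul_apply, H2.map_mk, H2.map_mk, ← map_smul]
    congr 1

lemma ev2_apply (φ : (dualRep χ ρ).invariants) (x : H2 𝓛 ρ) :
    ev2 𝓛 χ ρ φ x = H2.map 𝓛 𝓛 ρ (charRep χ) (MonoidHom.id G) φ.1 Levels.cont_id
      (compat_of_mem_invariants φ.2) x := rfl

/-- adjointness for a map of representations -/
lemma ev2_map {φ : V →ₗ[k] W} (hφ : Compat ρ σ (MonoidHom.id G) φ)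
    (y : (dualRep χ σ).invariants) (y' : (dualRep χ ρ).invariants)
    (hy : y'.1 = φ.dualMap y.1) (x : H2 𝓛 ρ) :
    ev2 𝓛 χ σ y (H2.map 𝓛 𝓛 ρ σ (MonoidHom.id G) φ Levels.cont_id hφ x) = ev2 𝓛 χ ρ y' x := by
  obtain ⟨x, rfl⟩ := H2.mk_surjective _ _ x
  rw [ev2_apply, ev2_apply, H2.map_mk, H2.map_mk, H2.map_mk]
  congr 1
  ext g h
  simp only [pp2_apply, hy, LinearMap.dualMap_apply, MonoidHom.id_apply]

lemma SES.τ_twist {A B C : Type*} [AddCommGroup A] [Module k A]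
    [AddCommGroup B] [Module k B] [AddCommGroup C] [Module k C]
    {ρA : Representation k G A} {ρB : Representation k G B} {ρC : Representation k G C}
    (E : SES ρA ρB ρC) (g : G) (c : C) :
    E.τ (ρB g⁻¹ (E.σ (ρC g c))) = - ρA g⁻¹ (E.τ (ρB g (E.σ c))) := by
  have hx : E.π (ρB g⁻¹ (E.σ (ρC g c)) - E.σ c) = 0 := by
    rw [map_sub, E.hπ, E.πσ, E.πσ, rho_inv_rho, sub_self]
  have hy : E.π (ρB g (E.σ c) - E.σ (ρC g c)) = 0 := by
    rw [map_sub, E.hπ, E.πσ, E.πσ, sub_self]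
  have h1 := E.ιτ_of_π hx
  have h2 := E.ιτ_of_π hy
  rw [map_sub, E.τσ, sub_zero] at h1 h2
  apply E.ι_injective
  rw [h1, map_neg, E.hι, h2, map_sub, rho_inv_rho]
  abel

/-- **compatibility of connecting maps**: `κ_*(δ b) = - (δ κ ∪ b)` -/
theorem ev2_δ1 {A B C : Type*} [AddCommGroup A] [Module k A]
    [AddCommGroup B] [Module k B] [AddCommGroup C] [Module k C]
    {ρA : Representation k G A} {ρB : Representation k G B} {ρC : Representation k G C}
    (E : SES ρA ρB ρC) (hs : Smooth 𝓛 ρB) (hs' : Smooth 𝓛 (dualRep χ ρB))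
    (hsC : Smooth 𝓛 ρC) (κ : (dualRep χ ρA).invariants) (b : H1 𝓛 ρC) :
    ev2 𝓛 χ ρA κ (E.δ1 hs b) = - cup11 hsC (evPair k C) equiv₂_evPair ((E.dual χ).δ0 hs' κ) b := by
  obtain ⟨b, rfl⟩ := H1.mk_surjective _ _ b
  rw [SES.δ0_apply, SES.δ1_mk, cup11_mk, ev2_apply, H2.map_mk, ← map_neg]
  congr 1
  apply Subtype.ext
  funext g h
  show κ.1 (E.τ (ρB g (E.σ (b.1 h)) - E.σ (b.1 (g * h)) + E.σ (b.1 g))) =
    -((E.dual χ).δ0C κ.1 g (ρC g (b.1 h)))
  have h1 : (E.dual χ).δ0C κ.1 g (ρC g (b.1 h)) =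
      (χ g : k) * κ.1 (E.τ (ρB g⁻¹ (E.σ (ρC g (b.1 h))))) - κ.1 (E.τ (E.σ (ρC g (b.1 h)))) := rfl
  have h2 := compat_of_mem_invariants κ.2 g⁻¹ (E.τ (ρB g (E.σ (b.1 h))))
  rw [MonoidHom.id_apply, charRep_apply] at h2
  rw [h1, E.τσ, E.τ_twist, map_neg, h2, map_add, map_sub, E.τσ, E.τσ, sub_zero, add_zero,
    map_zero, sub_zero, mul_neg, neg_neg, ← mul_assoc, map_inv, Units.val_inv_eq_inv_val,
    mul_inv_cancel₀ (by simp), one_mul]

end DualRep

section Kill

variable {k : Type*} [Field k] {G : Type*} [Group G] {𝓛 : Levels G}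
variable {V : Type*} [AddCommGroup V] [Module k V]
variable {χ : G →* kˣ} {ρ : Representation k G V}

lemma genMap_single {N : Subgroup G} [Finite (G ⧸ N)] (hN : ∀ s ∈ N, ∀ v, ρ s v = v) {m : ℕ}
    (b : Fin m → V) [DecidableEq (GSet N m)] (j : Fin m) :
    genMap ρ N b (Pi.single (GSet.mk ((1 : G) : G ⧸ N) j) (1 : k)) = b j := by
  have := Fintype.ofFinite (GSet N m)
  rw [genMap_apply, Finset.sum_eq_single (GSet.mk ((1 : G) : G ⧸ N) j)]
  · rw [Pi.single_eq_same, one_smul]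
    show ρ (Quotient.out ((1 : G) : G ⧸ N)) (b j) = b j
    rw [rho_out_eq hN, map_one, Module.End.one_apply]
  · intro x _ hx
    rw [Pi.single_eq_of_ne hx, zero_smul]
  · intro h
    exact absurd (Finset.mem_univ _) h

/-- the functional on the generator trivialising a cocycle -/
noncomputable def killFun (ρ : Representation k G V) (N : Subgroup G) [Finite (G ⧸ N)] {m : ℕ}
    (b : Fin m → V) (z : G → Dual k V) : (GSet N m → k) →ₗ[k] k :=
  letI := Fintype.ofFinite (GSet N m)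
  Neg.neg (∑ x : GSet N m, (z (Quotient.out x.1) (ρ (Quotient.out x.1) (b x.2))) • evalMap k k x)

lemma killFun_apply (N : Subgroup G) [Finite (G ⧸ N)] {m : ℕ}
    (b : Fin m → V) (z : G → Dual k V) [Fintype (GSet N m)] (f : GSet N m → k) :
    killFun ρ N b z f =
      -∑ x : GSet N m, z (Quotient.out x.1) (ρ (Quotient.out x.1) (b x.2)) * f x := by
  rw [killFun, LinearMap.neg_apply, LinearMap.sum_apply]
  simp only [LinearMap.smul_apply, evalMap_apply, smul_eq_mul]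
  congr!

lemma killFun_spec {N : Subgroup G} [Finite (G ⧸ N)] (hN : ∀ s ∈ N, ∀ v, ρ s v = v) {m : ℕ}
    (b : Fin m → V) {z : G → Dual k V}
    (hz : ∀ g h, z (g * h) = dualRep χ ρ g (z h) + z g) (hzN : ∀ s ∈ N, z s = 0) (g : G) :
    (genMap ρ N b).dualMap (z g) =
      dualRep χ (genRep k N m) g (killFun ρ N b z) - killFun ρ N b z := by
  classical
  have := Fintype.ofFinite (GSet N m)
  have hout : ∀ h : G, z (Quotient.out (h : G ⧸ N)) = z h := fun h => by
    obtain ⟨s, hs⟩ := QuotientGroup.mk_out_eq_mul N h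
    rw [hs, hz, hzN s s.2, map_zero, zero_add]
  refine LinearMap.ext fun f => ?_
  rw [LinearMap.dualMap_apply, LinearMap.sub_apply, dualRep_apply, killFun_apply, killFun_apply,
    genMap_apply, map_sum, mul_neg, Finset.mul_sum,
    ← Equiv.sum_comp (MulAction.toPerm g⁻¹ : Equiv.Perm (GSet N m))
      (fun x => (χ g : k) * (z (Quotient.out x.1) (ρ (Quotient.out x.1) (b x.2)) *
        (genRep k N m g⁻¹) f x)), sub_neg_eq_add, ← sub_eq_neg_add, ← Finset.sum_sub_distrib]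
  refine Finset.sum_congr rfl fun x _ => ?_
  rw [map_smul, smul_eq_mul, MulAction.toPerm_apply, mapRep_apply, inv_inv, smul_inv_smul,
    GSet.smul_fst, GSet.smul_snd]
  obtain ⟨h, hh⟩ := QuotientGroup.mk_surjective x.1
  rw [← hh, hout, rho_out_eq hN, MulAction.Quotient.smul_mk, smul_eq_mul, hout, rho_out_eq hN]
  have h1 : z h = dualRep χ ρ g (z (g⁻¹ * h)) + z g := by
    rw [← hz]; congr 1; group
  have h2 : z h (ρ h (b x.2)) =
      (χ g : k) * z (g⁻¹ * h) (ρ (g⁻¹ * h) (b x.2)) + z g (ρ h (b x.2)) := by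
    conv_lhs => rw [h1]
    rw [LinearMap.add_apply, dualRep_apply, ← rho_mul_apply]
  rw [h2]
  show f x * z g (ρ h (b x.2)) = _ - (χ g : k) * (_ * f x)
  ring

/-- the class of `z` dies in the dual of the generator -/
lemma kill_class {N : Subgroup G} [Finite (G ⧸ N)] (hN : ∀ s ∈ N, ∀ v, ρ s v = v) {m : ℕ}
    (b : Fin m → V) {W : Type*} [AddCommGroup W] [Module k W] {ρW : Representation k G W}
    (E : SES ρW (genRep k N m) ρ) (hE : E.π = genMap ρ N b) (z : ↥(Z1 𝓛 (dualRep χ ρ)))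
    (hzN : ∀ s ∈ N, z.1 s = 0) : (E.dual χ).i1 𝓛 (H1.mk 𝓛 (dualRep χ ρ) z) = 0 := by
  rw [SES.i1, H1.map_mk, H1.mk_eq_zero, mem_B1]
  refine ⟨killFun ρ N b z.1, fun g => ?_⟩
  have h1 := killFun_spec hN b z.2.2 hzN g
  rw [← hE] at h1
  exact h1

/-- presentations by generators killing given classes -/
lemma exists_presentation [FiniteDimensional k V] (hs : Smooth 𝓛 ρ) (hχ : χ.ker ∈ 𝓛)
    {ι : Type*} [Finite ι] (z : ι → ↥(Z1 𝓛 (dualRep χ ρ))) :
    ∃ N ∈ 𝓛, N.Normal ∧ N ≤ χ.ker ∧ N ≤ repKer ρ ∧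
      ∃ (W : Submodule k (GSet N (finrank k V) → k)) (ρW : Representation k G W)
        (E : SES ρW (genRep k N (finrank k V)) ρ),
        ∀ i, (E.dual χ).i1 𝓛 (H1.mk 𝓛 (dualRep χ ρ) (z i)) = 0 := by
  choose H hH h using fun i => (z i).2.1
  obtain ⟨N, hN, hle, hn⟩ := Levels.exists_normal (Levels.inf_mem (Levels.iInf_mem hH)
    (Levels.inf_mem hχ (repKer_mem hs)))
  have hfin := finite_quotient_of_mem hN
  have hker : ∀ s ∈ N, ∀ v, ρ s v = v := fun s hs => (hle hs).2.2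
  let b := Module.finBasis k V
  have hsur := genMap_surjective (ρ := ρ) (N := N) hker (b := b) b.span_eq.ge
  refine ⟨N, hN, hn, fun s hs => (hle hs).2.1, fun s hs => (hle hs).2.2, _, _,
    SES.ofSurj (compat_genMap (ρ := ρ) (N := N) hker b) hsur, fun i => ?_⟩
  refine kill_class hker b _ rfl _ fun s hs => ?_
  have h1 := h i 1 s (Subgroup.mem_iInf.1 (hle hs).1 i)
  rw [one_mul] at h1
  rw [h1]
  exact Z1.map_one (z i).2

end Kill

end Fermat.Agent.CFT
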