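import Mathlib
import Fermat.Agent.CFT.Duality

/-!
# Local duality

For a group with levels satisfying the Euler characteristic hypothesis `ECG`, such that
`H²(N, 𝔽_p)` is at most one-dimensional for small levels and `H²(G, μ) → 𝔽_p` is a nonzero
functional, the pairings `H⁰(M') × H²(M) → 𝔽_p` and `H¹(M') × H¹(M) → 𝔽_p` are nondegenerate.
-/

set_option autoImplicit false

open Module

namespace Fermat.Agent.CFT

variable {p : ℕ} [Fact p.Prime] {G : Type} [Group G] {𝓛 : Levels G}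

/-- local duality data -/
structure LocData (p : ℕ) [Fact p.Prime] {G : Type} [Group G] (𝓛 : Levels G)
    (χ : G →* (ZMod p)ˣ) (c : ℚ) where
  ecg : ECG p 𝓛 χ.ker c
  inv : H2 𝓛 (charRep χ) →ₗ[ZMod p] ZMod p
  inv_ne : inv ≠ 0
  h2_le : ∀ N ∈ 𝓛, N ≤ χ.ker →
    finrank (ZMod p) (H2 (𝓛.restrict N) (Representation.trivial (ZMod p) N (ZMod p))) ≤ 1

variable {χ : G →* (ZMod p)ˣ} {c : ℚ}

/-- dimension of `H²` of the generators -/
lemma finrank_H2_gen {N : Subgroup G} (hN : N ∈ 𝓛) (m : ℕ)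
    [FiniteDimensional (ZMod p) (H2 (𝓛.restrict N)
      (Representation.trivial (ZMod p) N (ZMod p)))] :
    finrank (ZMod p) (H2 𝓛 (genRep (ZMod p) N m)) = m *
      finrank (ZMod p) (H2 (𝓛.restrict N) (Representation.trivial (ZMod p) N (ZMod p))) := by
  have hfin := finite_quotient_of_mem hN
  have e2 := (LinearEquiv.ofBijective _ (sh2_bijective 𝓛
    (Representation.trivial (ZMod p) G (ZMod p)) (OrbitData.gset N m)
    (smoothSet_GSet hN m))).finrank_eq
  have f0 : ∀ i, FiniteDimensional (ZMod p) (H2 (𝓛.restrict ((OrbitData.gset N m).U i))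
      (resRep (Representation.trivial (ZMod p) G (ZMod p))
        ((OrbitData.gset N m).U i).subtype)) := fun i =>
    inferInstanceAs (FiniteDimensional (ZMod p) (H2 (𝓛.restrict N)
      (Representation.trivial (ZMod p) N (ZMod p))))
  have f2 : ∀ i, Module.Free (ZMod p) (H2 (𝓛.restrict ((OrbitData.gset N m).U i))
      (resRep (Representation.trivial (ZMod p) G (ZMod p))
        ((OrbitData.gset N m).U i).subtype)) :=
    fun i => Module.Free.of_divisionRing (ZMod p) _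
  rw [e2, Module.finrank_pi_fintype]
  have : ∀ i : Fin m, finrank (ZMod p) (H2 (𝓛.restrict ((OrbitData.gset N m).U i))
      (resRep (Representation.trivial (ZMod p) G (ZMod p))
        ((OrbitData.gset N m).U i).subtype)) = finrank (ZMod p) (H2 (𝓛.restrict N)
      (Representation.trivial (ZMod p) N (ZMod p))) := fun i => rfl
  rw [Finset.sum_congr rfl fun i _ => this i]
  simp

/-- functionals on the generator -/
lemma exists_inv_gen {k : Type*} [Field k] {G : Type*} [Group G] {χ : G →* kˣ} {N : Subgroup G}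
    [Finite (G ⧸ N)] (hN : N ≤ χ.ker) (m : ℕ) :
    ∃ F : (Fin m → k) →ₗ[k] (dualRep χ (genRep k N m)).invariants, Function.Injective F := by
  classical
  have := Fintype.ofFinite (GSet N m)
  have hN' : ∀ s ∈ N, ∀ v, charRep χ s v = v := fun s hs v => by
    rw [charRep_apply, MonoidHom.mem_ker.1 (hN hs), Units.val_one, one_mul]
  refine ⟨⟨⟨fun a => ⟨genMap (charRep χ) N a, mem_invariants_of_compat fun g v =>
    compat_genMap hN' a g v⟩, ?_⟩, ?_⟩, ?_⟩
  · intro a a'
    apply Subtype.ext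
    refine LinearMap.ext fun f => ?_
    show genMap (charRep χ) N (a + a') f = genMap (charRep χ) N a f + genMap (charRep χ) N a' f
    rw [genMap_apply, genMap_apply, genMap_apply, ← Finset.sum_add_distrib]
    refine Finset.sum_congr rfl fun x _ => ?_
    rw [Pi.add_apply, map_add, smul_add]
  · intro r a
    apply Subtype.ext
    refine LinearMap.ext fun f => ?_
    show genMap (charRep χ) N (r • a) f = r • genMap (charRep χ) N a f
    rw [genMap_apply, genMap_apply, Finset.smul_sum]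
    refine Finset.sum_congr rfl fun x _ => ?_
    rw [Pi.smul_apply, map_smul, smul_comm]
  · intro a a' h
    have h1 : genMap (charRep χ) N a = genMap (charRep χ) N a' := congrArg Subtype.val h
    funext j
    have h2 := LinearMap.congr_fun h1 (Pi.single (GSet.mk ((1 : G) : G ⧸ N) j) (1 : k))
    rwa [genMap_single hN', genMap_single hN'] at h2

namespace LocData

variable (D : LocData p 𝓛 χ c)

/-- the pairing `H⁰(M') × H²(M) → 𝔽_p` -/
noncomputable def pair2 {V : Type} [AddCommGroup V] [Module (ZMod p) V]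
    (ρ : Representation (ZMod p) G V) :
    (dualRep χ ρ).invariants →ₗ[ZMod p] H2 𝓛 ρ →ₗ[ZMod p] ZMod p :=
  (ev2 𝓛 χ ρ).compr₂ D.inv

lemma pair2_apply {V : Type} [AddCommGroup V] [Module (ZMod p) V]
    (ρ : Representation (ZMod p) G V) (φ : (dualRep χ ρ).invariants) (x : H2 𝓛 ρ) :
    D.pair2 ρ φ x = D.inv (ev2 𝓛 χ ρ φ x) := rfl

/-- nondegeneracy on the left -/
theorem nd_left {V : Type} [AddCommGroup V] [Module (ZMod p) V] [FiniteDimensional (ZMod p) V]
    {ρ : Representation (ZMod p) G V} (hs : Smooth 𝓛 ρ) (φ : (dualRep χ ρ).invariants)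
    (h : ∀ x, D.pair2 ρ φ x = 0) : φ = 0 := by
  by_contra hφ
  have hφ' : φ.1 ≠ 0 := fun h => hφ (Subtype.ext h)
  have hsurj : Function.Surjective φ.1 := LinearMap.surjective hφ'
  let E := SES.ofSurj (ρB := ρ) (ρC := charRep χ) (compat_of_mem_invariants φ.2) hsurj
  obtain ⟨y, hy⟩ : ∃ y, D.inv y ≠ 0 := by
    by_contra hcon
    push Not at hcon
    exact D.inv_ne (LinearMap.ext hcon)
  obtain ⟨x, hx⟩ := D.ecg.p2_surjective E hs y
  apply hy
  rw [← hx]
  exact h x

lemma adj {V W : Type} [AddCommGroup V] [Module (ZMod p) V] [AddCommGroup W] [Module (ZMod p) W]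
    {ρ : Representation (ZMod p) G V} {σ : Representation (ZMod p) G W} {φ : V →ₗ[ZMod p] W}
    (hφ : Compat ρ σ (MonoidHom.id G) φ)
    (y : (dualRep χ σ).invariants) (y' : (dualRep χ ρ).invariants)
    (hy : y'.1 = φ.dualMap y.1) (x : H2 𝓛 ρ) :
    D.pair2 σ y (H2.map 𝓛 𝓛 ρ σ (MonoidHom.id G) φ Levels.cont_id hφ x) = D.pair2 ρ y' x := by
  rw [pair2_apply, pair2_apply, ev2_map hφ y y' hy]

/-- nondegeneracy on the right for generators -/
theorem nd_right_gen {N : Subgroup G} (hN : N ∈ 𝓛) (hN' : N ≤ χ.ker) (m : ℕ)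
    (x : H2 𝓛 (genRep (ZMod p) N m)) (hx : ∀ φ, D.pair2 (genRep (ZMod p) N m) φ x = 0) :
    x = 0 := by
  have hfin := finite_quotient_of_mem hN
  have hsm : Smooth 𝓛 (genRep (ZMod p) N m) := smooth_mapRep smooth_trivial (smoothSet_GSet hN _)
  have hf1 : FiniteDimensional (ZMod p) (GSet N m → ZMod p) := inferInstance
  have hf2 := (D.ecg.fin2 (genRep (ZMod p) N m) hsm).h2
  have hf3 := (D.ecg.fin N hN hN').h2
  obtain ⟨F, hF⟩ := exists_inv_gen (k := ZMod p) hN' m
  have hinj : Function.Injective (D.pair2 (genRep (ZMod p) N m)) :=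
    (injective_iff_map_eq_zero _).2 fun φ hφ => D.nd_left hsm φ fun x => LinearMap.congr_fun hφ x
  have h1 := LinearMap.finrank_le_finrank_of_injective hF
  have h2 := finrank_H2_gen (p := p) hN m
  have h3 : finrank (ZMod p) (H2 𝓛 (genRep (ZMod p) N m)) ≤ m := by
    rw [h2]
    exact (Nat.mul_le_mul_left m (D.h2_le N hN hN')).trans (mul_one m).le
  rw [finrank_fin_fun] at h1
  have h4 : Function.Surjective (D.pair2 (genRep (ZMod p) N m)) := by
    have h5 := LinearMap.finrank_le_finrank_of_injective hinj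
    rw [Subspace.dual_finrank_eq] at h5
    exact (LinearMap.injective_iff_surjective_of_finrank_eq_finrank
      (by rw [Subspace.dual_finrank_eq]; omega)).1 hinj
  rw [← Module.forall_dual_apply_eq_zero_iff (ZMod p) x]
  intro ψ
  obtain ⟨φ, rfl⟩ := h4 ψ
  exact hx φ

/-- nondegeneracy on the right -/
theorem nd_right {V : Type} [AddCommGroup V] [Module (ZMod p) V] [FiniteDimensional (ZMod p) V]
    {ρ : Representation (ZMod p) G V} (hs : Smooth 𝓛 ρ) (x : H2 𝓛 ρ)
    (hx : ∀ φ, D.pair2 ρ φ x = 0) : x = 0 := by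
  obtain ⟨N, hN, hn, hNχ, hNρ, W, ρW, E, -⟩ := exists_presentation (χ := χ) hs D.ecg.mem
    (ι := Unit) (fun _ => 0)
  have hfin := finite_quotient_of_mem hN
  have hsm : Smooth 𝓛 (genRep (ZMod p) N (finrank (ZMod p) V)) :=
    smooth_mapRep smooth_trivial (smoothSet_GSet hN _)
  have h0 : ∀ x, E.p2 𝓛 (E.i2 𝓛 x) = 0 := fun x => by
    have h1 : E.i2 𝓛 x ∈ LinearMap.ker (E.p2 𝓛) := by
      rw [E.exact2' hsm]; exact ⟨x, rfl⟩
    exact h1
  have h0' : ∀ h, (E.dual χ).p0 h = 0 → ∃ m, (E.dual χ).i0 m = h := fun h hh => by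
    have h1 : h ∈ LinearMap.ker (E.dual χ).p0 := hh
    rw [(E.dual χ).exact0] at h1
    exact h1
  have a1 : ∀ (x : H2 𝓛 ρW) (h : (dualRep χ (genRep (ZMod p) N (finrank (ZMod p) V))).invariants),
      D.pair2 (genRep (ZMod p) N (finrank (ZMod p) V)) h (E.i2 𝓛 x) =
      D.pair2 ρW ((E.dual χ).p0 h) x := fun x h => D.adj E.compat_ι h _ rfl x
  have a2 : ∀ (x : H2 𝓛 (genRep (ZMod p) N (finrank (ZMod p) V))) (h : (dualRep χ ρ).invariants),
      D.pair2 (genRep (ZMod p) N (finrank (ZMod p) V)) ((E.dual χ).i0 h) x =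
      D.pair2 ρ h (E.p2 𝓛 x) := fun x h => (D.adj E.compat_π h _ rfl x).symm
  have hfK : FiniteDimensional (ZMod p) (dualRep χ ρW).invariants := inferInstance
  have hnd := D.nd_right_gen hN hNχ (finrank (ZMod p) V)
  have hnl : ∀ h, (∀ x, D.pair2 ρW h x = 0) → h = 0 :=
    fun h hh => D.nd_left (E.smooth_left hsm) h hh
  have hps := D.ecg.p2_surjective E hsm
  have key := la1 (E.i2 𝓛) (E.p2 𝓛) (E.dual χ).p0 (E.dual χ).i0 (D.pair2 ρW)
    (D.pair2 (genRep (ZMod p) N (finrank (ZMod p) V))) (D.pair2 ρ) hps h0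
  exact key h0' a1 a2 hnl hnd x hx

/-- the pairing `H¹(M') × H¹(M) → 𝔽_p` -/
noncomputable def pair1 {V : Type} [AddCommGroup V] [Module (ZMod p) V]
    {ρ : Representation (ZMod p) G V} (hs : Smooth 𝓛 ρ) :
    H1 𝓛 (dualRep χ ρ) →ₗ[ZMod p] H1 𝓛 ρ →ₗ[ZMod p] ZMod p :=
  (cup11 hs (evPair (ZMod p) V) equiv₂_evPair).compr₂ D.inv

lemma pair1_apply {V : Type} [AddCommGroup V] [Module (ZMod p) V]
    {ρ : Representation (ZMod p) G V} (hs : Smooth 𝓛 ρ) (e : H1 𝓛 (dualRep χ ρ)) (b : H1 𝓛 ρ) :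
    D.pair1 hs e b = D.inv (cup11 hs (evPair (ZMod p) V) equiv₂_evPair e b) := rfl

/-- compatibility of the pairings with connecting homomorphisms -/
lemma pair_δ {A B C : Type} [AddCommGroup A] [Module (ZMod p) A]
    [AddCommGroup B] [Module (ZMod p) B] [AddCommGroup C] [Module (ZMod p) C]
    {ρA : Representation (ZMod p) G A} {ρB : Representation (ZMod p) G B}
    {ρC : Representation (ZMod p) G C}
    (E : SES ρA ρB ρC) (hs : Smooth 𝓛 ρB) (hs' : Smooth 𝓛 (dualRep χ ρB))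
    (hsC : Smooth 𝓛 ρC) (κ : (dualRep χ ρA).invariants) (b : H1 𝓛 ρC) :
    D.pair2 ρA κ (E.δ1 hs b) = - D.pair1 hsC ((E.dual χ).δ0 hs' κ) b := by
  rw [pair2_apply, ev2_δ1 E hs hs' hsC, map_neg, pair1_apply]

/-- **nondegeneracy of the `H¹` pairing** -/
theorem nd_one {V : Type} [AddCommGroup V] [Module (ZMod p) V] [FiniteDimensional (ZMod p) V]
    {ρ : Representation (ZMod p) G V} (hs : Smooth 𝓛 ρ) (e : H1 𝓛 (dualRep χ ρ))
    (he : ∀ b, D.pair1 hs e b = 0) : e = 0 := by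
  obtain ⟨z, rfl⟩ := H1.mk_surjective _ _ e
  obtain ⟨N, hN, hn, hNχ, hNρ, W, ρW, E, hE⟩ := exists_presentation (χ := χ) hs D.ecg.mem
    (ι := Unit) (fun _ => z)
  have hfin := finite_quotient_of_mem hN
  have hsm : Smooth 𝓛 (genRep (ZMod p) N (finrank (ZMod p) V)) :=
    smooth_mapRep smooth_trivial (smoothSet_GSet hN _)
  have hsm' : Smooth 𝓛 (dualRep χ (genRep (ZMod p) N (finrank (ZMod p) V))) :=
    smooth_dualRep D.ecg.mem hsm
  have h1 : H1.mk 𝓛 (dualRep χ ρ) z ∈ LinearMap.ker ((E.dual χ).i1 𝓛) := hE ()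
  rw [(E.dual χ).exact1 hsm'] at h1
  obtain ⟨κ, hκ⟩ := h1
  have hf2 := (D.ecg.fin2 (genRep (ZMod p) N (finrank (ZMod p) V)) hsm).h2
  obtain ⟨κ', rfl⟩ := la2 (E.i2 𝓛) (E.dual χ).p0 (D.pair2 ρW)
    (D.pair2 (genRep (ZMod p) N (finrank (ZMod p) V)))
    (fun x h => D.adj E.compat_ι h _ rfl x)
    (fun h hh => D.nd_left (E.smooth_left hsm) h hh)
    (D.nd_right_gen hN hNχ _) κ (fun x hx => by
      have h2 : x ∈ LinearMap.ker (E.i2 𝓛) := hx
      rw [E.exact2 hsm] at h2
      obtain ⟨b, rfl⟩ := h2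
      rw [D.pair_δ E hsm hsm' hs, hκ, he, neg_zero])
  rw [← hκ]
  have h3 : (E.dual χ).p0 κ' ∈ LinearMap.ker ((E.dual χ).δ0 hsm') := by
    rw [(E.dual χ).exact0' hsm']; exact ⟨κ', rfl⟩
  exact h3

end LocData

end Fermat.Agent.CFT
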