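import Mathlib
import Fermat.Agent.CFT.LocalDuality

/-!
# Global duality, abstract part
-/

set_option autoImplicit false

open Module

set_option linter.unusedSectionVars false

namespace Fermat.Agent.CFT

section LA

variable {k : Type*} [Field k]

/-- factorisation of linear maps -/
lemma exists_factor' {Q A B : Type*} [AddCommGroup Q] [Module k Q] [AddCommGroup A] [Module k A]
    [AddCommGroup B] [Module k B] (F : Q →ₗ[k] A) (D : Q →ₗ[k] B)
    (h : ∀ q, F q = 0 → D q = 0) : ∃ Ψ : A →ₗ[k] B, ∀ q, Ψ (F q) = D q := by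
  obtain ⟨s, hs⟩ := LinearMap.exists_rightInverse_of_surjective F.rangeRestrict
    (LinearMap.range_rangeRestrict F)
  obtain ⟨Ψ, hΨ⟩ := LinearMap.exists_extend (D ∘ₗ s)
  refine ⟨Ψ, fun q => ?_⟩
  have h1 : Ψ (F q) = D (s (F.rangeRestrict q)) :=
    LinearMap.congr_fun hΨ (F.rangeRestrict q)
  rw [h1, ← sub_eq_zero, ← map_sub]
  apply h
  have h2 := LinearMap.congr_fun hs (F.rangeRestrict q)
  have h3 : F (s (F.rangeRestrict q)) = F q := congrArg Subtype.val h2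
  rw [map_sub, h3, sub_self]

lemma finrank_le_of_factor {Q A B : Type*} [AddCommGroup Q] [Module k Q] [AddCommGroup A]
    [Module k A] [AddCommGroup B] [Module k B] [FiniteDimensional k A] (F : Q →ₗ[k] A)
    (D : Q →ₗ[k] B) (h : ∀ q, F q = 0 → D q = 0) (hD : Function.Surjective D) :
    finrank k B ≤ finrank k A := by
  obtain ⟨Ψ, hΨ⟩ := exists_factor' F D h
  refine LinearMap.finrank_le_finrank_of_surjective (f := Ψ) fun b => ?_
  obtain ⟨q, rfl⟩ := hD b
  exact ⟨F q, hΨ q⟩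

variable {TK TP TM HK HP HM : Type*} [AddCommGroup TK] [Module k TK] [AddCommGroup TP] [Module k TP]
  [AddCommGroup TM] [Module k TM] [AddCommGroup HK] [Module k HK] [AddCommGroup HP] [Module k HP]
  [AddCommGroup HM] [Module k HM]

/-- abstract five lemma, step one, relative version -/
lemma la1' (f : TK →ₗ[k] TP) (g : TP →ₗ[k] TM) (f' : HP →ₗ[k] HK) (g' : HM →ₗ[k] HP)
    (bK : HK →ₗ[k] TK →ₗ[k] k) (bP : HP →ₗ[k] TP →ₗ[k] k) (bM : HM →ₗ[k] TM →ₗ[k] k)
    (RP : Submodule k TP) (RM : Submodule k TM)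
    (hg : Function.Surjective g) (hfg : ∀ x, g (f x) = 0)
    (hfg' : ∀ h, f' h = 0 → ∃ m, g' m = h)
    (adj1 : ∀ x h, bP h (f x) = bK (f' h) x) (adj2 : ∀ x h, bP (g' h) x = bM h (g x))
    [FiniteDimensional k HK] (hK : ∀ h, (∀ x, bK h x = 0) → h = 0)
    (hP : ∀ x, (∀ h, bP h x = 0) → x ∈ RP) (hR : ∀ x ∈ RP, g x ∈ RM)
    (x : TM) (hx : ∀ h, bM h x = 0) : x ∈ RM := by
  obtain ⟨y, rfl⟩ := hg x
  obtain ⟨Ψ, hΨ⟩ := exists_factor f' (bP.flip y) (fun h hh => by
    obtain ⟨m, rfl⟩ := hfg' h hh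
    rw [LinearMap.flip_apply, adj2]
    exact hx m)
  have hinj : Function.Injective bK := (injective_iff_map_eq_zero _).2 fun h hh =>
    hK h fun x => LinearMap.congr_fun hh x
  obtain ⟨z, hz⟩ := (LinearMap.flip_surjective_iff₁ (B := bK)).2 hinj Ψ
  have h1 : y - f z ∈ RP := by
    refine hP _ fun h => ?_
    have h2 : bK (f' h) z = Ψ (f' h) := LinearMap.congr_fun hz (f' h)
    rw [map_sub, adj1, h2, hΨ, LinearMap.flip_apply, sub_self]
  have h3 := hR _ h1
  rwa [map_sub, hfg, sub_zero] at h3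

/-- abstract five lemma, step two, relative version -/
lemma la2' (f : TK →ₗ[k] TP) (f' : HP →ₗ[k] HK)
    (bK : HK →ₗ[k] TK →ₗ[k] k) (bP : HP →ₗ[k] TP →ₗ[k] k) (RP : Submodule k TP)
    (adj1 : ∀ x h, bP h (f x) = bK (f' h) x)
    (hK : ∀ h, (∀ x, bK h x = 0) → h = 0) [FiniteDimensional k HP]
    (hP : ∀ x, (∀ h, bP h x = 0) → x ∈ RP) (κ : HK) (hκ : ∀ x, f x ∈ RP → bK κ x = 0) :
    ∃ h, f' h = κ := by
  obtain ⟨Ψ, hΨ⟩ := exists_factor (bP.flip ∘ₗ f) (bK κ) (fun x hx => hκ x (hP _ fun h =>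
    LinearMap.congr_fun hx h))
  obtain ⟨h, hh⟩ := (Module.evalEquiv k HP).surjective Ψ
  refine ⟨h, ?_⟩
  rw [← sub_eq_zero]
  refine hK _ fun x => ?_
  have h2 : bP h (f x) = Ψ (bP.flip (f x)) := by rw [← hh]; rfl
  have h3 := hΨ x
  rw [LinearMap.comp_apply] at h3
  rw [map_sub, LinearMap.sub_apply, ← adj1, h2, h3, sub_self]

end LA

section Glob

variable {p : ℕ} [Fact p.Prime] {G : Type} [Group G] {𝓛 : Levels G}
variable {ι : Type} [Fintype ι] {Gv : ι → Type} [∀ v, Group (Gv v)]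
  {𝓛v : ∀ v, Levels (Gv v)} {r : ∀ v, Gv v →* G}
variable {V W : Type} [AddCommGroup V] [Module (ZMod p) V] [AddCommGroup W] [Module (ZMod p) W]

/-- localisation in degree 1 -/
def loc1 (hr : ∀ v, Levels.Cont (𝓛v v) 𝓛 (r v)) (ρ : Representation (ZMod p) G V) :
    H1 𝓛 ρ →ₗ[ZMod p] ∀ v, H1 (𝓛v v) (resRep ρ (r v)) :=
  LinearMap.pi fun v => H1.map 𝓛 (𝓛v v) ρ (resRep ρ (r v)) (r v) LinearMap.id (hr v)
    (fun _ _ => rfl)

/-- localisation in degree 2 -/
def loc2 (hr : ∀ v, Levels.Cont (𝓛v v) 𝓛 (r v)) (ρ : Representation (ZMod p) G V) :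
    H2 𝓛 ρ →ₗ[ZMod p] ∀ v, H2 (𝓛v v) (resRep ρ (r v)) :=
  LinearMap.pi fun v => H2.map 𝓛 (𝓛v v) ρ (resRep ρ (r v)) (r v) LinearMap.id (hr v)
    (fun _ _ => rfl)

/-- Poitou-Tate data -/
structure PTData (p : ℕ) [Fact p.Prime] {G : Type} [Group G] (𝓛 : Levels G)
    {ι : Type} [Fintype ι] {Gv : ι → Type} [∀ v, Group (Gv v)]
    (𝓛v : ∀ v, Levels (Gv v)) (r : ∀ v, Gv v →* G) (χ : G →* (ZMod p)ˣ) (c : ℚ) (cv : ι → ℚ) where
  hr : ∀ v, Levels.Cont (𝓛v v) 𝓛 (r v)
  ecg : ECG p 𝓛 χ.ker c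
  loc : ∀ v, LocData p (𝓛v v) (χ.comp (r v)) (cv v)
  v0 : ι
  recip : ∀ x : H2 𝓛 (charRep χ),
    ∑ v, (loc v).inv (H2.map 𝓛 (𝓛v v) (charRep χ) (charRep (χ.comp (r v))) (r v) LinearMap.id
      (hr v) (fun _ _ => rfl) x) = 0
  t1_le : ∀ N ∈ 𝓛, N.Normal → N ≤ χ.ker → ∀ m : ℕ,
    finrank (ZMod p) (∀ v, H2 (𝓛v v) (resRep (genRep (ZMod p) N m) (r v))) ≤
      m + finrank (ZMod p) (LinearMap.range (loc2 hr (genRep (ZMod p) N m)))

variable {χ : G →* (ZMod p)ˣ} {c : ℚ} {cv : ι → ℚ}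

namespace PTData

variable (D : PTData p 𝓛 𝓛v r χ c cv)

/-- restriction of invariants of the dual -/
def resInv (r : ∀ v, Gv v →* G) (ρ : Representation (ZMod p) G V) (v : ι) :
    (dualRep χ ρ).invariants →ₗ[ZMod p]
      (dualRep (χ.comp (r v)) (resRep ρ (r v))).invariants where
  toFun φ := ⟨φ.1, mem_invariants_of_compat fun g x =>
    compat_of_mem_invariants φ.2 (r v g) x⟩
  map_add' _ _ := rfl
  map_smul' _ _ := rfl

/-- the global pairing `H⁰(M') × ⊕ H²(G_v, M) → 𝔽_p` -/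
noncomputable def pairG (ρ : Representation (ZMod p) G V) :
    (dualRep χ ρ).invariants →ₗ[ZMod p] (∀ v, H2 (𝓛v v) (resRep ρ (r v))) →ₗ[ZMod p] ZMod p :=
  ∑ v, ((D.loc v).pair2 (resRep ρ (r v))).compl₁₂ (resInv r ρ v) (LinearMap.proj v)

lemma pairG_apply (ρ : Representation (ZMod p) G V) (φ : (dualRep χ ρ).invariants)
    (z : ∀ v, H2 (𝓛v v) (resRep ρ (r v))) :
    D.pairG ρ φ z = ∑ v, (D.loc v).pair2 (resRep ρ (r v)) (resInv r ρ v φ) (z v) := by
  simp only [pairG, LinearMap.sum_apply]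
  rfl

/-- reciprocity -/
lemma pairG_loc2 (ρ : Representation (ZMod p) G V) (φ : (dualRep χ ρ).invariants)
    (x : H2 𝓛 ρ) : D.pairG ρ φ (loc2 D.hr ρ x) = 0 := by
  rw [pairG_apply, ← D.recip (ev2 𝓛 χ ρ φ x)]
  refine Finset.sum_congr rfl fun v _ => ?_
  rw [LocData.pair2_apply]
  congr 1
  obtain ⟨x, rfl⟩ := H2.mk_surjective _ _ x
  rfl

/-- nondegeneracy on the left -/
lemma pairG_left [FiniteDimensional (ZMod p) V] {ρ : Representation (ZMod p) G V}
    (hs : Smooth 𝓛 ρ) (φ : (dualRep χ ρ).invariants) (h : ∀ z, D.pairG ρ φ z = 0) : φ = 0 := by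
  classical
  have h1 : resInv r ρ D.v0 φ = 0 := by
    refine (D.loc D.v0).nd_left (hs.res (D.hr D.v0)) _ fun x => ?_
    have := h (Pi.single D.v0 x)
    rw [pairG_apply, Finset.sum_eq_single D.v0] at this
    · rwa [Pi.single_eq_same] at this
    · intro v _ hv
      rw [Pi.single_eq_of_ne hv, map_zero]
    · intro hv; exact absurd (Finset.mem_univ _) hv
  have h2 : (resInv r ρ D.v0 φ).1 = (0 : Dual (ZMod p) V) := congrArg Subtype.val h1
  exact Subtype.ext h2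

/-- functoriality of `⊕ H²(G_v, -)` -/
def mapP2 (𝓛v : ∀ v, Levels (Gv v)) (r : ∀ v, Gv v →* G) {ρ : Representation (ZMod p) G V}
    {σ : Representation (ZMod p) G W} {φ : V →ₗ[ZMod p] W}
    (hφ : Compat ρ σ (MonoidHom.id G) φ) :
    (∀ v, H2 (𝓛v v) (resRep ρ (r v))) →ₗ[ZMod p] (∀ v, H2 (𝓛v v) (resRep σ (r v))) :=
  LinearMap.pi fun v => (H2.map (𝓛v v) (𝓛v v) (resRep ρ (r v)) (resRep σ (r v))
    (MonoidHom.id _) φ Levels.cont_id (fun g x => hφ (r v g) x)) ∘ₗ LinearMap.proj v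

lemma mapP2_loc2 (hr : ∀ v, Levels.Cont (𝓛v v) 𝓛 (r v)) {ρ : Representation (ZMod p) G V}
    {σ : Representation (ZMod p) G W} {φ : V →ₗ[ZMod p] W}
    (hφ : Compat ρ σ (MonoidHom.id G) φ) (x : H2 𝓛 ρ) :
    mapP2 𝓛v r hφ (loc2 hr ρ x) =
      loc2 hr σ (H2.map 𝓛 𝓛 ρ σ (MonoidHom.id G) φ Levels.cont_id hφ x) := by
  obtain ⟨x, rfl⟩ := H2.mk_surjective _ _ x
  rfl

lemma adjG {ρ : Representation (ZMod p) G V}
    {σ : Representation (ZMod p) G W} {φ : V →ₗ[ZMod p] W}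
    (hφ : Compat ρ σ (MonoidHom.id G) φ)
    (y : (dualRep χ σ).invariants) (y' : (dualRep χ ρ).invariants)
    (hy : y'.1 = φ.dualMap y.1) (z : ∀ v, H2 (𝓛v v) (resRep ρ (r v))) :
    D.pairG σ y (mapP2 𝓛v r hφ z) = D.pairG ρ y' z := by
  rw [pairG_apply, pairG_apply]
  refine Finset.sum_congr rfl fun v _ => ?_
  exact (D.loc v).adj (fun g x => hφ (r v g) x) (resInv r σ v y) (resInv r ρ v y') hy (z v)

include D in
lemma finite_H2v [FiniteDimensional (ZMod p) V] {ρ : Representation (ZMod p) G V}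
    (hs : Smooth 𝓛 ρ) (v : ι) : FiniteDimensional (ZMod p) (H2 (𝓛v v) (resRep ρ (r v))) :=
  ((D.loc v).ecg.fin2 _ (hs.res (D.hr v))).h2

include D in
lemma finite_H1v [FiniteDimensional (ZMod p) V] {ρ : Representation (ZMod p) G V}
    (hs : Smooth 𝓛 ρ) (v : ι) : FiniteDimensional (ZMod p) (H1 (𝓛v v) (resRep ρ (r v))) :=
  ((D.loc v).ecg.fin2 _ (hs.res (D.hr v))).h1

/-- nondegeneracy on the right for generators -/
theorem pairG_right_gen {N : Subgroup G} (hN : N ∈ 𝓛) (hn : N.Normal) (hN' : N ≤ χ.ker) (m : ℕ)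
    (z : ∀ v, H2 (𝓛v v) (resRep (genRep (ZMod p) N m) (r v)))
    (hz : ∀ φ, D.pairG (genRep (ZMod p) N m) φ z = 0) :
    z ∈ LinearMap.range (loc2 D.hr (genRep (ZMod p) N m)) := by
  have hfin := finite_quotient_of_mem hN
  have hsm : Smooth 𝓛 (genRep (ZMod p) N m) := smooth_mapRep smooth_trivial (smoothSet_GSet hN _)
  have hf1 : FiniteDimensional (ZMod p) (GSet N m → ZMod p) := inferInstance
  have hf2 := D.finite_H2v hsm
  obtain ⟨F, hF⟩ := exists_inv_gen (k := ZMod p) hN' m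
  have hinj : Function.Injective (D.pairG (genRep (ZMod p) N m)) :=
    (injective_iff_map_eq_zero _).2 fun φ hφ => D.pairG_left hsm φ fun x =>
      LinearMap.congr_fun hφ x
  -- the annihilator of the range of loc2 and dimension count
  let T := ∀ v, H2 (𝓛v v) (resRep (genRep (ZMod p) N m) (r v))
  have hfT : FiniteDimensional (ZMod p) T := inferInstanceAs (FiniteDimensional (ZMod p)
    (∀ v, H2 (𝓛v v) (resRep (genRep (ZMod p) N m) (r v))))
  let R : Submodule (ZMod p) T := LinearMap.range (loc2 D.hr (genRep (ZMod p) N m))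
  let Φ : Submodule (ZMod p) (Dual (ZMod p) T) := LinearMap.range (D.pairG (genRep (ZMod p) N m))
  have h1 : Φ ≤ R.dualAnnihilator := by
    rintro _ ⟨φ, rfl⟩
    rw [Submodule.mem_dualAnnihilator]
    rintro _ ⟨x, rfl⟩
    exact D.pairG_loc2 _ φ x
  have h2 : finrank (ZMod p) R.dualAnnihilator + finrank (ZMod p) R = finrank (ZMod p) T := by
    rw [add_comm]; exact Subspace.finrank_add_finrank_dualAnnihilator_eq R
  have h3 : m ≤ finrank (ZMod p) Φ := by
    rw [LinearMap.finrank_range_of_inj hinj]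
    have := LinearMap.finrank_le_finrank_of_injective hF
    rwa [finrank_fin_fun] at this
  have h4 : finrank (ZMod p) T ≤ m + finrank (ZMod p) R := D.t1_le N hN hn hN' m
  have h5 : Φ = R.dualAnnihilator := Submodule.eq_of_le_of_finrank_le h1 (by omega)
  have h6 : z ∈ R.dualAnnihilator.dualCoannihilator := by
    rw [Submodule.mem_dualCoannihilator]
    rw [← h5]
    rintro _ ⟨φ, rfl⟩
    exact hz φ
  rwa [Subspace.dualAnnihilator_dualCoannihilator_eq] at h6

include D in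
/-- short exact sequences induce exact sequences on `⊕ H²(G_v, -)` -/
lemma mapP2_surjective {A B C : Type} [AddCommGroup A] [Module (ZMod p) A]
    [AddCommGroup B] [Module (ZMod p) B] [AddCommGroup C] [Module (ZMod p) C]
    [FiniteDimensional (ZMod p) B]
    {ρA : Representation (ZMod p) G A} {ρB : Representation (ZMod p) G B}
    {ρC : Representation (ZMod p) G C} (E : SES ρA ρB ρC) (hs : Smooth 𝓛 ρB) :
    Function.Surjective (mapP2 𝓛v r E.compat_π) := by
  intro z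
  choose y hy using fun v => (D.loc v).ecg.p2_surjective (E.res (r v)) (hs.res (D.hr v)) (z v)
  exact ⟨y, funext hy⟩

/-- **global duality in degree two** -/
theorem pairG_right [FiniteDimensional (ZMod p) V] {ρ : Representation (ZMod p) G V}
    (hs : Smooth 𝓛 ρ) (z : ∀ v, H2 (𝓛v v) (resRep ρ (r v)))
    (hz : ∀ φ, D.pairG ρ φ z = 0) : z ∈ LinearMap.range (loc2 D.hr ρ) := by
  obtain ⟨N, hN, hn, hNχ, hNρ, W, ρW, E, -⟩ := exists_presentation (χ := χ) hs D.ecg.mem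
    (ι := Unit) (fun _ => 0)
  have hfin := finite_quotient_of_mem hN
  have hsm : Smooth 𝓛 (genRep (ZMod p) N (finrank (ZMod p) V)) :=
    smooth_mapRep smooth_trivial (smoothSet_GSet hN _)
  have h0 : ∀ x, mapP2 𝓛v r E.compat_π (mapP2 𝓛v r E.compat_ι x) = 0 := fun x => by
    funext v
    have h1 : (E.res (r v)).i2 (𝓛v v) (x v) ∈ LinearMap.ker ((E.res (r v)).p2 (𝓛v v)) := by
      rw [(E.res (r v)).exact2' (hsm.res (D.hr v))]; exact ⟨_, rfl⟩
    exact h1
  have h0' : ∀ h, (E.dual χ).p0 h = 0 → ∃ m, (E.dual χ).i0 m = h := fun h hh => by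
    have h1 : h ∈ LinearMap.ker (E.dual χ).p0 := hh
    rw [(E.dual χ).exact0] at h1
    exact h1
  have a1 : ∀ (x : ∀ v, H2 (𝓛v v) (resRep ρW (r v)))
      (h : (dualRep χ (genRep (ZMod p) N (finrank (ZMod p) V))).invariants),
      D.pairG (genRep (ZMod p) N (finrank (ZMod p) V)) h (mapP2 𝓛v r E.compat_ι x) =
      D.pairG ρW ((E.dual χ).p0 h) x := fun x h => D.adjG E.compat_ι h _ rfl x
  have a2 : ∀ (x : ∀ v, H2 (𝓛v v) (resRep (genRep (ZMod p) N (finrank (ZMod p) V)) (r v)))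
      (h : (dualRep χ ρ).invariants),
      D.pairG (genRep (ZMod p) N (finrank (ZMod p) V)) ((E.dual χ).i0 h) x =
      D.pairG ρ h (mapP2 𝓛v r E.compat_π x) := fun x h => (D.adjG E.compat_π h _ rfl x).symm
  have hfK : FiniteDimensional (ZMod p) (dualRep χ ρW).invariants := inferInstance
  have hnd := D.pairG_right_gen hN hn hNχ (finrank (ZMod p) V)
  have hnl : ∀ h, (∀ x, D.pairG ρW h x = 0) → h = 0 :=
    fun h hh => D.pairG_left (E.smooth_left hsm) h hh
  have hps := D.mapP2_surjective E hsm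
  have hR : ∀ x ∈ LinearMap.range (loc2 D.hr (genRep (ZMod p) N (finrank (ZMod p) V))),
      mapP2 𝓛v r E.compat_π x ∈ LinearMap.range (loc2 D.hr ρ) := by
    rintro _ ⟨y, rfl⟩
    exact ⟨_, (mapP2_loc2 D.hr E.compat_π y).symm⟩
  have key := la1' (mapP2 𝓛v r E.compat_ι) (mapP2 𝓛v r E.compat_π) (E.dual χ).p0 (E.dual χ).i0
    (D.pairG ρW) (D.pairG (genRep (ZMod p) N (finrank (ZMod p) V))) (D.pairG ρ)
    (LinearMap.range (loc2 D.hr (genRep (ZMod p) N (finrank (ZMod p) V))))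
    (LinearMap.range (loc2 D.hr ρ)) hps h0
  exact key h0' a1 a2 hnl hnd hR z hz

/-- dimension form of global duality in degree two -/
theorem finrank_range_loc2 [FiniteDimensional (ZMod p) V] {ρ : Representation (ZMod p) G V}
    (hs : Smooth 𝓛 ρ) :
    finrank (ZMod p) (LinearMap.range (loc2 D.hr ρ)) +
      finrank (ZMod p) (dualRep χ ρ).invariants =
        ∑ v, finrank (ZMod p) (H2 (𝓛v v) (resRep ρ (r v))) := by
  have hf2 := D.finite_H2v hs
  have hinj : Function.Injective (D.pairG ρ) :=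
    (injective_iff_map_eq_zero _).2 fun φ hφ => D.pairG_left hs φ fun x =>
      LinearMap.congr_fun hφ x
  have h1 : LinearMap.range (D.pairG ρ) = (LinearMap.range (loc2 D.hr ρ)).dualAnnihilator := by
    apply le_antisymm
    · rintro _ ⟨φ, rfl⟩
      rw [Submodule.mem_dualAnnihilator]
      rintro _ ⟨x, rfl⟩
      exact D.pairG_loc2 _ φ x
    · have h2 : (LinearMap.range (D.pairG ρ)).dualCoannihilator ≤
          LinearMap.range (loc2 D.hr ρ) := by
        intro z hz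
        rw [Submodule.mem_dualCoannihilator] at hz
        exact D.pairG_right hs z fun φ => hz _ ⟨φ, rfl⟩
      have h3 := Submodule.dualAnnihilator_anti h2
      rwa [Subspace.dualCoannihilator_dualAnnihilator_eq] at h3
  have h2 := Subspace.finrank_add_finrank_dualAnnihilator_eq (LinearMap.range (loc2 D.hr ρ))
  rw [← h1, LinearMap.finrank_range_of_inj hinj, Module.finrank_pi_fintype] at h2
  exact h2

end PTData

end Glob

end Fermat.Agent.CFT
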