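import Mathlib
import Fermat.Agent.CFT.GlobalDuality

/-!
# The inequality `dim Ш¹(M') ≤ dim Ш²(M)` and isotropy
-/

set_option autoImplicit false

open Module

set_option linter.unusedSectionVars false

namespace Fermat.Agent.CFT

variable {p : ℕ} [Fact p.Prime] {G : Type} [Group G] {𝓛 : Levels G}
variable {ι : Type} [Fintype ι] {Gv : ι → Type} [∀ v, Group (Gv v)]
  {𝓛v : ∀ v, Levels (Gv v)} {r : ∀ v, Gv v →* G}
variable {V W : Type} [AddCommGroup V] [Module (ZMod p) V] [AddCommGroup W] [Module (ZMod p) W]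
variable {χ : G →* (ZMod p)ˣ} {c : ℚ} {cv : ι → ℚ}

namespace PTData

variable (D : PTData p 𝓛 𝓛v r χ c cv)

lemma compat_dual_res {G' : Type} [Group G'] (χ : G →* (ZMod p)ˣ)
    (ρ : Representation (ZMod p) G V) (f : G' →* G) :
    Compat (dualRep χ ρ) (dualRep (χ.comp f) (resRep ρ f)) f LinearMap.id := fun g φ => by
  have := congrArg (fun τ : Representation (ZMod p) G' (Dual (ZMod p) V) => τ g φ)
    (resRep_dualRep χ ρ f)
  exact this

/-- localisation of classes of the dual -/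
def locd1 (ρ : Representation (ZMod p) G V) : H1 𝓛 (dualRep χ ρ) →ₗ[ZMod p]
    ∀ v, H1 (𝓛v v) (dualRep (χ.comp (r v)) (resRep ρ (r v))) :=
  LinearMap.pi fun v => H1.map 𝓛 (𝓛v v) (dualRep χ ρ) (dualRep (χ.comp (r v)) (resRep ρ (r v)))
    (r v) LinearMap.id (D.hr v) (compat_dual_res χ ρ (r v))

/-- restriction commutes with the connecting map of the dual sequence -/
lemma locd1_δ0 {A B C : Type} [AddCommGroup A] [Module (ZMod p) A]
    [AddCommGroup B] [Module (ZMod p) B] [AddCommGroup C] [Module (ZMod p) C]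
    {ρA : Representation (ZMod p) G A} {ρB : Representation (ZMod p) G B}
    {ρC : Representation (ZMod p) G C} (E : SES ρA ρB ρC)
    (hs : Smooth 𝓛 (dualRep χ ρB)) (v : ι)
    (hs' : Smooth (𝓛v v) (dualRep (χ.comp (r v)) (resRep ρB (r v))))
    (κ : (dualRep χ ρA).invariants) :
    D.locd1 ρC ((E.dual χ).δ0 hs κ) v =
      ((E.res (r v)).dual (χ.comp (r v))).δ0 hs' (resInv r ρA v κ) := by
  rw [SES.δ0_apply, SES.δ0_apply]
  show H1.mk _ _ _ = H1.mk _ _ _
  congr 1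
  apply Subtype.ext
  funext g
  show E.σ.dualMap (dualRep χ ρB (r v g) (E.τ.dualMap κ.1) - E.τ.dualMap κ.1) =
    E.σ.dualMap (dualRep (χ.comp (r v)) (resRep ρB (r v)) g (E.τ.dualMap κ.1) - E.τ.dualMap κ.1)
  congr 2
  exact compat_dual_res χ ρB (r v) g _

/-- the key vanishing -/
lemma pairG_vanish {A B C : Type} [AddCommGroup A] [Module (ZMod p) A]
    [AddCommGroup B] [Module (ZMod p) B] [AddCommGroup C] [Module (ZMod p) C]
    [FiniteDimensional (ZMod p) B]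
    {ρA : Representation (ZMod p) G A} {ρB : Representation (ZMod p) G B}
    {ρC : Representation (ZMod p) G C} (E : SES ρA ρB ρC)
    (hs : Smooth 𝓛 ρB) (hs' : Smooth 𝓛 (dualRep χ ρB))
    (κ : (dualRep χ ρA).invariants) (hκ : D.locd1 ρC ((E.dual χ).δ0 hs' κ) = 0)
    (y : H2 𝓛 ρB) (z : ∀ v, H2 (𝓛v v) (resRep ρA (r v)))
    (hyz : loc2 D.hr ρB y = mapP2 𝓛v r E.compat_ι z) (hy : E.p2 𝓛 y = 0) :
    D.pairG ρA κ z = 0 := by
  have h1 : y ∈ LinearMap.ker (E.p2 𝓛) := hy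
  rw [E.exact2' hs] at h1
  obtain ⟨w, rfl⟩ := h1
  have h2 : ∀ v, ∃ b : H1 (𝓛v v) (resRep ρC (r v)),
      (E.res (r v)).δ1 (hs.res (D.hr v)) b = z v - loc2 D.hr ρA w v := by
    intro v
    have h3 : z v - loc2 D.hr ρA w v ∈ LinearMap.ker ((E.res (r v)).i2 (𝓛v v)) := by
      rw [LinearMap.mem_ker, map_sub, sub_eq_zero]
      have h4 := congrFun hyz v
      have h5 := congrFun (mapP2_loc2 D.hr E.compat_ι w) v
      exact h4.symm.trans h5.symm
    rw [(E.res (r v)).exact2 (hs.res (D.hr v))] at h3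
    exact h3
  choose b hb using h2
  have h3 : z = loc2 D.hr ρA w + fun v => (E.res (r v)).δ1 (hs.res (D.hr v)) (b v) := by
    funext v
    rw [Pi.add_apply, hb]
    abel
  rw [h3, map_add, D.pairG_loc2, zero_add, pairG_apply]
  refine Finset.sum_eq_zero fun v _ => ?_
  have hsd : Smooth (𝓛v v) (dualRep (χ.comp (r v)) (resRep ρB (r v))) :=
    smooth_dualRep (D.loc v).ecg.mem (hs.res (D.hr v))
  rw [(D.loc v).pair_δ (E.res (r v)) (hs.res (D.hr v)) hsd
    ((E.smooth_right hs).res (D.hr v)), ← D.locd1_δ0 E hs' v hsd, hκ]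
  simp

/-- **the inequality** `dim Ш¹(M') ≤ dim Ш²(M)` -/
theorem finrank_sha_le [FiniteDimensional (ZMod p) V] {ρ : Representation (ZMod p) G V}
    (hs : Smooth 𝓛 ρ) : finrank (ZMod p) (LinearMap.ker (D.locd1 ρ)) ≤
      finrank (ZMod p) (LinearMap.ker (loc2 D.hr ρ)) := by
  have hf1 : FiniteDimensional (ZMod p) (H1 𝓛 (dualRep χ ρ)) :=
    (D.ecg.fin2 _ (smooth_dualRep D.ecg.mem hs)).h1
  have hf2 : FiniteDimensional (ZMod p) (H2 𝓛 ρ) := (D.ecg.fin2 _ hs).h2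
  let bas := Module.finBasis (ZMod p) (LinearMap.ker (D.locd1 ρ))
  choose zz hzz using fun i => H1.mk_surjective 𝓛 (dualRep χ ρ) (bas i).1
  obtain ⟨N, hN, hn, hNχ, hNρ, W, ρW, E, hE⟩ := exists_presentation (χ := χ) hs D.ecg.mem zz
  have hfin := finite_quotient_of_mem hN
  have hsm : Smooth 𝓛 (genRep (ZMod p) N (finrank (ZMod p) V)) :=
    smooth_mapRep smooth_trivial (smoothSet_GSet hN _)
  have hsm' : Smooth 𝓛 (dualRep χ (genRep (ZMod p) N (finrank (ZMod p) V))) :=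
    smooth_dualRep D.ecg.mem hsm
  have hfP : FiniteDimensional (ZMod p) (H2 𝓛 (genRep (ZMod p) N (finrank (ZMod p) V))) :=
    (D.ecg.fin2 _ hsm).h2
  -- all of `ker locd1` dies
  have hkill : ∀ e ∈ LinearMap.ker (D.locd1 ρ), (E.dual χ).i1 𝓛 e = 0 := by
    intro e he
    have h1 : (⟨e, he⟩ : LinearMap.ker (D.locd1 ρ)) = ∑ i, bas.repr ⟨e, he⟩ i • bas i :=
      (bas.sum_repr _).symm
    have h2 : e = ∑ i, bas.repr ⟨e, he⟩ i • (bas i).1 := by
      have := congrArg Subtype.val h1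
      rw [Submodule.coe_sum] at this
      exact this
    rw [h2, map_sum]
    refine Finset.sum_eq_zero fun i _ => ?_
    rw [map_smul, ← hzz, hE, smul_zero]
  -- the space of `κ`
  let δ := (E.dual χ).δ0 hsm'
  let Q : Submodule (ZMod p) (dualRep χ ρW).invariants := (LinearMap.ker (D.locd1 ρ)).comap δ
  let Dq : Q →ₗ[ZMod p] LinearMap.ker (D.locd1 ρ) := δ.restrict (fun q hq => hq)
  have hDq : Function.Surjective Dq := by
    rintro ⟨e, he⟩
    have h1 : e ∈ LinearMap.ker ((E.dual χ).i1 𝓛) := hkill e he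
    rw [(E.dual χ).exact1 hsm'] at h1
    obtain ⟨κ, hκ⟩ := h1
    have hκ' : δ κ ∈ LinearMap.ker (D.locd1 ρ) := by
      rw [show δ κ = e from hκ]; exact he
    exact ⟨⟨κ, hκ'⟩, Subtype.ext hκ⟩
  -- the space of pairs
  let T := H2 𝓛 (genRep (ZMod p) N (finrank (ZMod p) V)) ×
    (∀ v, H2 (𝓛v v) (resRep ρW (r v)))
  let Y : Submodule (ZMod p) T := LinearMap.ker
    ((loc2 D.hr (genRep (ZMod p) N (finrank (ZMod p) V))) ∘ₗ LinearMap.fst _ _ _ -
      (mapP2 𝓛v r E.compat_ι) ∘ₗ LinearMap.snd _ _ _)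
  have hY : ∀ t : T, t ∈ Y ↔ loc2 D.hr (genRep (ZMod p) N (finrank (ZMod p) V)) t.1 =
      mapP2 𝓛v r E.compat_ι t.2 := fun t => by
    rw [LinearMap.mem_ker, LinearMap.sub_apply, sub_eq_zero]; rfl
  let π : Y →ₗ[ZMod p] LinearMap.ker (loc2 D.hr ρ) :=
    ((E.p2 𝓛) ∘ₗ LinearMap.fst (ZMod p) _ (∀ v, H2 (𝓛v v) (resRep ρW (r v)))).restrict
      (fun t ht => by
        rw [LinearMap.mem_ker]
        have h1 := (hY t).1 ht
        show loc2 D.hr ρ (E.p2 𝓛 t.1) = 0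
        have h2 := mapP2_loc2 (𝓛v := 𝓛v) D.hr E.compat_π t.1
        have h3 : loc2 D.hr ρ (E.p2 𝓛 t.1) = mapP2 𝓛v r E.compat_π
          (loc2 D.hr (genRep (ZMod p) N (finrank (ZMod p) V)) t.1) := h2.symm
        rw [h3, h1]
        funext v
        have h4 : (E.res (r v)).i2 (𝓛v v) (t.2 v) ∈
            LinearMap.ker ((E.res (r v)).p2 (𝓛v v)) := by
          rw [(E.res (r v)).exact2' (hsm.res (D.hr v))]; exact ⟨_, rfl⟩
        exact h4)
  have hπ : Function.Surjective π := by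
    rintro ⟨x, hx⟩
    obtain ⟨y, rfl⟩ := D.ecg.p2_surjective E hsm x
    have h1 : ∀ v, ∃ z : H2 (𝓛v v) (resRep ρW (r v)), (E.res (r v)).i2 (𝓛v v) z =
        loc2 D.hr (genRep (ZMod p) N (finrank (ZMod p) V)) y v := by
      intro v
      have h2 : loc2 D.hr (genRep (ZMod p) N (finrank (ZMod p) V)) y v ∈
          LinearMap.ker ((E.res (r v)).p2 (𝓛v v)) := by
        have h3 := congrFun (mapP2_loc2 (𝓛v := 𝓛v) D.hr E.compat_π y) v
        have h4 : loc2 D.hr ρ (E.p2 𝓛 y) v = 0 := congrFun (LinearMap.mem_ker.1 hx) v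
        exact h3.trans h4
      rw [(E.res (r v)).exact2' (hsm.res (D.hr v))] at h2
      exact h2
    choose z hz using h1
    exact ⟨⟨(y, z), (hY _).2 (funext fun v => (hz v).symm)⟩, Subtype.ext rfl⟩
  obtain ⟨s, hs'⟩ := LinearMap.exists_rightInverse_of_surjective π (LinearMap.range_eq_top.2 hπ)
  let F : Q →ₗ[ZMod p] Dual (ZMod p) (LinearMap.ker (loc2 D.hr ρ)) :=
    (D.pairG ρW).compl₁₂ Q.subtype
      (LinearMap.snd (ZMod p) (H2 𝓛 (genRep (ZMod p) N (finrank (ZMod p) V))) _ ∘ₗ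
        Y.subtype ∘ₗ s)
  have hF : ∀ q x, F q x = D.pairG ρW q.1 (s x).1.2 := fun q x => rfl
  rw [← Subspace.dual_finrank_eq (K := ZMod p) (V := LinearMap.ker (loc2 D.hr ρ))]
  refine finrank_le_of_factor F Dq (fun q hq => ?_) hDq
  -- if `F q = 0` then `q` extends
  have hann : ∀ z : (∀ v, H2 (𝓛v v) (resRep ρW (r v))),
      mapP2 𝓛v r E.compat_ι z ∈
        LinearMap.range (loc2 D.hr (genRep (ZMod p) N (finrank (ZMod p) V))) →
      D.pairG ρW q.1 z = 0 := by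
    rintro z ⟨y, hy⟩
    let t : Y := ⟨(y, z), (hY _).2 hy⟩
    have h1 : π (t - s (π t)) = 0 := by
      rw [map_sub, sub_eq_zero]
      exact (LinearMap.congr_fun hs' (π t)).symm
    have h2 : D.pairG ρW q.1 (t - s (π t)).1.2 = 0 := by
      refine D.pairG_vanish E hsm hsm' q.1 (LinearMap.mem_ker.1 q.2) (t - s (π t)).1.1 _
        ((hY _).1 (t - s (π t)).2) ?_
      exact congrArg Subtype.val h1
    have h3 : D.pairG ρW q.1 (s (π t)).1.2 = 0 := by
      rw [← hF, hq]; rfl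
    have h4 : (t - s (π t)).1.2 = z - (s (π t)).1.2 := rfl
    rw [h4, map_sub, h3, sub_zero] at h2
    exact h2
  have a1 : ∀ (x : ∀ v, H2 (𝓛v v) (resRep ρW (r v)))
      (h : (dualRep χ (genRep (ZMod p) N (finrank (ZMod p) V))).invariants),
      D.pairG (genRep (ZMod p) N (finrank (ZMod p) V)) h (mapP2 𝓛v r E.compat_ι x) =
      D.pairG ρW ((E.dual χ).p0 h) x := fun x h => D.adjG E.compat_ι h _ rfl x
  have hnd := D.pairG_right_gen hN hn hNχ (finrank (ZMod p) V)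
  have hnl : ∀ h, (∀ x, D.pairG ρW h x = 0) → h = 0 :=
    fun h hh => D.pairG_left (E.smooth_left hsm) h hh
  obtain ⟨κ', hκ'⟩ := la2' (mapP2 𝓛v r E.compat_ι) (E.dual χ).p0 (D.pairG ρW)
    (D.pairG (genRep (ZMod p) N (finrank (ZMod p) V)))
    (LinearMap.range (loc2 D.hr (genRep (ZMod p) N (finrank (ZMod p) V))))
    a1 hnl hnd q.1 hann
  apply Subtype.ext
  show δ q.1 = 0
  rw [← hκ']
  have h3 : (E.dual χ).p0 κ' ∈ LinearMap.ker ((E.dual χ).δ0 hsm') := by
    rw [(E.dual χ).exact0' hsm']; exact ⟨κ', rfl⟩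
  exact h3

end PTData

end Fermat.Agent.CFT
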