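import Mathlib
import Fermat.Agent.CFT.ShaDuality

/-!
# Abstract Poitou-Tate: `dim Ш²(M) = dim Ш¹(M')`
-/

set_option autoImplicit false

open Module

set_option linter.unusedSectionVars false

namespace Fermat.Agent.CFT

section General

variable {k : Type*} [Field k] {G G' : Type*} [Group G] [Group G'] {𝓛 : Levels G}
  {𝓛' : Levels G'}
variable {V : Type*} [AddCommGroup V] [Module k V]

/-- double dual -/
noncomputable def RepIso.dd [FiniteDimensional k V] (𝓛' : Levels G') (χ : G →* kˣ)
    (ρ : Representation k G V) (f : G' →* G) :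
    RepIso 𝓛' 𝓛' (resRep ρ f) (dualRep (χ.comp f) (resRep (dualRep χ ρ) f)) where
  f := MonoidHom.id G'
  f' g := g
  φ := (Module.evalEquiv k V).toLinearMap
  φ' := (Module.evalEquiv k V).symm.toLinearMap
  hf := Levels.cont_id
  hf' H hH := by rwa [Subgroup.map_id]
  ff' _ := rfl
  f'f _ := rfl
  φφ' v := (Module.evalEquiv k V).apply_symm_apply v
  φ'φ v := (Module.evalEquiv k V).symm_apply_apply v
  compat g v := by
    ext φ
    show φ (ρ (f g) v) = (χ (f g) : k) * ((χ (f g⁻¹) : k) * φ (ρ (f g⁻¹)⁻¹ v))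
    have h1 : f g⁻¹⁻¹ = f g := by rw [inv_inv]
    have h2 : (χ (f g) : k) * (χ (f g⁻¹) : k) = 1 := by
      rw [← Units.val_mul, ← map_mul, ← map_mul, mul_inv_cancel, map_one, map_one, Units.val_one]
    rw [← mul_assoc, h2, one_mul]
    congr 2
    rw [map_inv f, inv_inv]

/-- `resRep (dualRep χ ρ) f ≅ dualRep (χ ∘ f) (resRep ρ f)` -/
def RepIso.dualRes (𝓛' : Levels G') (χ : G →* kˣ) (ρ : Representation k G V) (f : G' →* G) :
    RepIso 𝓛' 𝓛' (resRep (dualRep χ ρ) f) (dualRep (χ.comp f) (resRep ρ f)) where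
  f := MonoidHom.id G'
  f' g := g
  φ := LinearMap.id
  φ' := LinearMap.id
  hf := Levels.cont_id
  hf' H hH := by rwa [Subgroup.map_id]
  ff' _ := rfl
  f'f _ := rfl
  φφ' v := rfl
  φ'φ v := rfl
  compat g v := by
    have := congrArg (fun τ : Representation k G' (Dual k V) => τ g v) (resRep_dualRep χ ρ f)
    exact this

/-- the self duality of the generators -/
noncomputable def genDual (χ : G →* kˣ) (N : Subgroup G) [Finite (G ⧸ N)] (m : ℕ) :
    (GSet N m → k) →ₗ[k] Dual k (GSet N m → k) :=
  letI := Fintype.ofFinite (GSet N m)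
  ∑ x : GSet N m, (evalMap k k x).smulRight ((χ (Quotient.out x.1) : k) • evalMap k k x)

lemma genDual_apply (χ : G →* kˣ) (N : Subgroup G) [Finite (G ⧸ N)] (m : ℕ)
    [Fintype (GSet N m)] (a b : GSet N m → k) :
    genDual χ N m a b = ∑ x : GSet N m, (χ (Quotient.out x.1) : k) * (a x * b x) := by
  rw [genDual, LinearMap.sum_apply, LinearMap.sum_apply]
  simp only [LinearMap.smulRight_apply, evalMap_apply, LinearMap.smul_apply, smul_eq_mul]
  have : ∀ x : GSet N m, a x * ((χ (Quotient.out x.1) : k) * b x) =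
    (χ (Quotient.out x.1) : k) * (a x * b x) := fun x => by ring
  simp only [this]
  congr!

lemma genDual_bijective (χ : G →* kˣ) (N : Subgroup G) [Finite (G ⧸ N)] (m : ℕ) :
    Function.Bijective (genDual χ N m) := by
  classical
  have := Fintype.ofFinite (GSet N m)
  have hinj : Function.Injective (genDual χ N m) := by
    refine (injective_iff_map_eq_zero _).2 fun a ha => funext fun x => ?_
    have h1 := LinearMap.congr_fun ha (Pi.single x (1 : k))
    rw [genDual_apply, Finset.sum_eq_single x] at h1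
    · rw [Pi.single_eq_same, mul_one] at h1
      exact (mul_eq_zero.1 h1).resolve_left (Units.ne_zero _)
    · intro y _ hy
      rw [Pi.single_eq_of_ne hy, mul_zero, mul_zero]
    · intro h; exact absurd (Finset.mem_univ _) h
  exact ⟨hinj, (LinearMap.injective_iff_surjective_of_finrank_eq_finrank
    (Subspace.dual_finrank_eq).symm).1 hinj⟩

lemma chi_out_smul {χ : G →* kˣ} {N : Subgroup G} (hN : N ≤ χ.ker) (g : G) (c : G ⧸ N) :
    χ (Quotient.out (g • c)) = χ g * χ (Quotient.out c) := by
  obtain ⟨h, rfl⟩ := QuotientGroup.mk_surjective c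
  obtain ⟨s, hs⟩ := QuotientGroup.mk_out_eq_mul N h
  obtain ⟨s', hs'⟩ := QuotientGroup.mk_out_eq_mul N (g * h)
  rw [MulAction.Quotient.smul_mk, smul_eq_mul, hs, hs', map_mul, map_mul, map_mul,
    MonoidHom.mem_ker.1 (hN s.2), MonoidHom.mem_ker.1 (hN s'.2), mul_one, mul_one]

/-- the generators are self dual -/
noncomputable def RepIso.gen {χ : G →* kˣ} {N : Subgroup G} [Finite (G ⧸ N)] (hN : N ≤ χ.ker)
    (m : ℕ) : RepIso 𝓛 𝓛 (genRep k N m) (dualRep χ (genRep k N m)) where
  f := MonoidHom.id G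
  f' g := g
  φ := genDual χ N m
  φ' := (LinearEquiv.ofBijective _ (genDual_bijective χ N m)).symm.toLinearMap
  hf := Levels.cont_id
  hf' H hH := by rwa [Subgroup.map_id]
  ff' _ := rfl
  f'f _ := rfl
  φφ' v := (LinearEquiv.ofBijective _ (genDual_bijective χ N m)).apply_symm_apply v
  φ'φ v := (LinearEquiv.ofBijective _ (genDual_bijective χ N m)).symm_apply_apply v
  compat g a := by
    have := Fintype.ofFinite (GSet N m)
    ext1 b
    rw [dualRep_apply, genDual_apply, genDual_apply, Finset.mul_sum,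
      ← Equiv.sum_comp (MulAction.toPerm g : Equiv.Perm (GSet N m))]
    refine Finset.sum_congr rfl fun x _ => ?_
    rw [MulAction.toPerm_apply, GSet.smul_fst, chi_out_smul hN, mapRep_apply, mapRep_apply,
      MonoidHom.id_apply, inv_smul_smul, inv_inv, Units.val_mul, mul_assoc]
    rfl

end General

end Fermat.Agent.CFT
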