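import Mathlib
import Fermat.Agent.CFT.PTAbstract

/-!
# Abstract Poitou-Tate: `dim Ш²(M) = dim Ш¹(M')`
-/

set_option autoImplicit false

open Module

set_option linter.unusedSectionVars false

namespace Fermat.Agent.CFT

section Orbits

variable {G : Type*} [Group G] {X : Type*} [MulAction G X] {ι : Type*} (D : OrbitData G X ι)

lemma OrbitData.index_eq (i : ι) : (D.U i).index = Nat.card {y // D.o y = i} := by
  have h1 : D.U i = MulAction.stabilizer G (D.x i) := by
    ext g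
    rw [D.mem_U, MulAction.mem_stabilizer_iff]
  rw [h1, MulAction.index_stabilizer, ← Nat.card_coe_set_eq]
  refine Nat.card_congr (Equiv.subtypeEquivRight fun y => ?_)
  constructor
  · rintro ⟨g, rfl⟩
    show D.o (g • D.x i) = i
    rw [D.o_smul, D.o_x]
  · intro h
    exact ⟨D.t y, by rw [← h]; exact D.t_smul y⟩

lemma OrbitData.sum_index [Finite X] [Fintype ι] : ∑ i, (D.U i).index = Nat.card X := by
  rw [Finset.sum_congr rfl fun i _ => D.index_eq i, ← Nat.card_congr (Equiv.sigmaFiberEquiv D.o)]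
  have : Fintype X := Fintype.ofFinite X
  rw [Nat.card_sigma]

/-- a `G`-set viewed as a `G'`-set -/
def PullSet {G' G : Type*} [Group G'] [Group G] (_ : G' →* G) (X : Type*) : Type _ := X

/-- the identity -/
def PullSet.mk {G' G : Type*} [Group G'] [Group G] (f : G' →* G) {X : Type*} (x : X) :
  PullSet f X := x

/-- the identity -/
def PullSet.out {G' G : Type*} [Group G'] [Group G] {f : G' →* G} {X : Type*} (x : PullSet f X) :
  X := x

instance {G' G : Type*} [Group G'] [Group G] (f : G' →* G) (X : Type*) [MulAction G X] :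
    MulAction G' (PullSet f X) where
  smul g x := PullSet.mk f (f g • x.out)
  one_smul x := by
    show PullSet.mk f (f 1 • x.out) = x
    rw [map_one, one_smul]; rfl
  mul_smul g h x := by
    show PullSet.mk f (f (g * h) • x.out) = PullSet.mk f (f g • (f h • x.out))
    rw [map_mul, mul_smul]

instance {G' G : Type*} [Group G'] [Group G] (f : G' →* G) (X : Type*) [Finite X] :
    Finite (PullSet f X) := inferInstanceAs (Finite X)

lemma PullSet.smul_def {G' G : Type*} [Group G'] [Group G] (f : G' →* G) {X : Type*}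
    [MulAction G X] (g : G') (x : PullSet f X) : (g • x).out = f g • x.out := rfl

lemma PullSet.card {G' G : Type*} [Group G'] [Group G] (f : G' →* G) (X : Type*) :
  Nat.card (PullSet f X) = Nat.card X := rfl

lemma SmoothSet.pull {G' G : Type*} [Group G'] [Group G] {𝓛 : Levels G} {𝓛' : Levels G'}
    {X : Type*} [MulAction G X] (h : SmoothSet 𝓛 X) {f : G' →* G} (hf : Levels.Cont 𝓛' 𝓛 f) :
    SmoothSet 𝓛' (PullSet f X) := fun x => by
  obtain ⟨H, hH, h⟩ := h x.out
  exact ⟨_, hf H hH, fun s hs => h _ hs⟩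

/-- pull back of a permutation module -/
def RepIso.pull {k : Type*} [Field k] {G G' : Type*} [Group G] [Group G']
    {V : Type*} [AddCommGroup V] [Module k V] (𝓛' : Levels G') (ρ : Representation k G V)
    (X : Type*) [MulAction G X] (f : G' →* G) :
    RepIso 𝓛' 𝓛' (resRep (mapRep ρ X) f) (mapRep (resRep ρ f) (PullSet f X)) where
  f := MonoidHom.id G'
  f' g := g
  φ := (LinearMap.id : (X → V) →ₗ[k] (X → V))
  φ' := (LinearMap.id : (X → V) →ₗ[k] (X → V))
  hf := Levels.cont_id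
  hf' H hH := by rwa [Subgroup.map_id]
  ff' _ := rfl
  f'f _ := rfl
  φφ' v := rfl
  φ'φ v := rfl
  compat g v := by
    funext x
    show ρ (f g) (v ((f g)⁻¹ • x.out)) = ρ (f g) (v (f (g⁻¹) • x.out))
    rw [map_inv f]

end Orbits

section ECPerm

variable {p : ℕ} [Fact p.Prime] {G : Type} [Group G] {𝓛 : Levels G} {U₁ : Subgroup G} {c : ℚ}

/-- Euler characteristic of permutation modules with stabilizers in `U₁` -/
theorem ECG.chi_perm (h : ECG p 𝓛 U₁ c) {X : Type*} [MulAction G X] [Finite X]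
    (hX : SmoothSet 𝓛 X) (hst : ∀ (x : X) (g : G), g • x = x → g ∈ U₁) :
    Fin2 𝓛 (mapRep (Representation.trivial (ZMod p) G (ZMod p)) X) ∧
    (chi2 𝓛 (mapRep (Representation.trivial (ZMod p) G (ZMod p)) X) : ℚ) = Nat.card X * c := by
  classical
  let D := OrbitData.ofAction G X
  have : Fintype (MulAction.orbitRel.Quotient G X) := Fintype.ofFinite _
  have hU : ∀ i, D.U i ∈ 𝓛 := fun i => D.U_mem hX i
  have hle : ∀ i, D.U i ≤ U₁ := fun i g hg => hst (D.x i) g ((D.mem_U i g).1 hg)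
  have hf : ∀ i, Fin2 (𝓛.restrict (D.U i))
      (resRep (Representation.trivial (ZMod p) G (ZMod p)) (D.U i).subtype) :=
    fun i => h.fin _ (hU i) (hle i)
  refine ⟨fin2_mapRep D hX hf, ?_⟩
  rw [chi2_mapRep D hX hf, ← D.sum_index]
  push_cast
  rw [Finset.sum_mul]
  refine Finset.sum_congr rfl fun i _ => ?_
  exact h.chi _ (hU i) (hle i)

end ECPerm

section Loc

variable {p : ℕ} [Fact p.Prime] {G : Type} [Group G] {𝓛 : Levels G}
variable {χ : G →* (ZMod p)ˣ} {c : ℚ}
variable {V : Type} [AddCommGroup V] [Module (ZMod p) V]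

/-- `dim H²(M) = dim H⁰(M')` -/
theorem LocData.finrank_H2_eq (D : LocData p 𝓛 χ c) [FiniteDimensional (ZMod p) V]
    {ρ : Representation (ZMod p) G V} (hs : Smooth 𝓛 ρ) :
    finrank (ZMod p) (H2 𝓛 ρ) = finrank (ZMod p) (dualRep χ ρ).invariants := by
  have hf := (D.ecg.fin2 ρ hs).h2
  apply le_antisymm
  · have h1 : Function.Injective (D.pair2 ρ).flip := (injective_iff_map_eq_zero _).2 fun x hx =>
      D.nd_right hs x fun φ => LinearMap.congr_fun hx φ
    have h2 := LinearMap.finrank_le_finrank_of_injective h1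
    rwa [Subspace.dual_finrank_eq] at h2
  · have h1 : Function.Injective (D.pair2 ρ) := (injective_iff_map_eq_zero _).2 fun x hx =>
      D.nd_left hs x fun φ => LinearMap.congr_fun hx φ
    have h2 := LinearMap.finrank_le_finrank_of_injective h1
    rwa [Subspace.dual_finrank_eq] at h2

end Loc

lemma finrank_range_ker_pi {k : Type*} [Field k] {A ι : Type*} {B : ι → Type*} [AddCommGroup A]
    [Module k A] [∀ v, AddCommGroup (B v)] [∀ v, Module k (B v)] [FiniteDimensional k A]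
    (f : A →ₗ[k] ∀ v, B v) : finrank k (LinearMap.range f) + finrank k (LinearMap.ker f) =
      finrank k A := LinearMap.finrank_range_add_finrank_ker f

section Glob

variable {p : ℕ} [Fact p.Prime] {G : Type} [Group G] {𝓛 : Levels G}
variable {ι : Type} [Fintype ι] {Gv : ι → Type} [∀ v, Group (Gv v)]
  {𝓛v : ∀ v, Levels (Gv v)} {r : ∀ v, Gv v →* G}
variable {V W : Type} [AddCommGroup V] [Module (ZMod p) V] [AddCommGroup W] [Module (ZMod p) W]
variable {χ : G →* (ZMod p)ˣ} {c : ℚ} {cv : ι → ℚ}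

namespace PTData

variable (D : PTData p 𝓛 𝓛v r χ c cv)

/-- reciprocity for the cup product of global classes -/
lemma sum_pair1 {ρ : Representation (ZMod p) G V} (hs : Smooth 𝓛 ρ)
    (e : H1 𝓛 (dualRep χ ρ)) (b : H1 𝓛 ρ) :
    ∑ v, (D.loc v).pair1 (hs.res (D.hr v)) (D.locd1 ρ e v) (loc1 D.hr ρ b v) = 0 := by
  rw [← D.recip (cup11 hs (evPair (ZMod p) V) equiv₂_evPair e b)]
  refine Finset.sum_congr rfl fun v _ => ?_
  rw [LocData.pair1_apply]
  congr 1
  exact (cup11_map (hs := hs) (hs' := hs.res (D.hr v)) (φ := LinearMap.id) (ψ := LinearMap.id)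
    (β := evPair (ZMod p) V) (β' := evPair (ZMod p) V)
    (hβ := equiv₂_evPair) (hβ' := equiv₂_evPair) (D.hr v) (compat_dual_res χ ρ (r v))
    (fun _ _ => rfl) (fun _ _ => rfl) (fun _ _ => rfl) e b).symm

/-- isotropy -/
theorem finrank_range_add_le [FiniteDimensional (ZMod p) V] {ρ : Representation (ZMod p) G V}
    (hs : Smooth 𝓛 ρ) :
    finrank (ZMod p) (LinearMap.range (loc1 D.hr ρ)) +
      finrank (ZMod p) (LinearMap.range (D.locd1 ρ)) ≤
        ∑ v, finrank (ZMod p) (H1 (𝓛v v) (resRep ρ (r v))) := by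
  classical
  have hf := D.finite_H1v hs
  let T := ∀ v, H1 (𝓛v v) (resRep ρ (r v))
  let T' := ∀ v, H1 (𝓛v v) (dualRep (χ.comp (r v)) (resRep ρ (r v)))
  have hfT : FiniteDimensional (ZMod p) T := inferInstanceAs (FiniteDimensional (ZMod p)
    (∀ v, H1 (𝓛v v) (resRep ρ (r v))))
  let B : T' →ₗ[ZMod p] T →ₗ[ZMod p] ZMod p :=
    ∑ v, ((D.loc v).pair1 (hs.res (D.hr v))).compl₁₂ (LinearMap.proj v) (LinearMap.proj v)
  have hB : ∀ e b, B e b = ∑ v, (D.loc v).pair1 (hs.res (D.hr v)) (e v) (b v) := fun e b => by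
    simp only [B, LinearMap.sum_apply]
    rfl
  have hinj : Function.Injective B := (injective_iff_map_eq_zero _).2 fun e he => by
    funext v
    refine (D.loc v).nd_one (hs.res (D.hr v)) _ fun b => ?_
    have := LinearMap.congr_fun he (Pi.single v b)
    rw [hB, Finset.sum_eq_single v] at this
    · rwa [Pi.single_eq_same] at this
    · intro w _ hw
      rw [Pi.single_eq_of_ne hw, map_zero]
    · intro hv; exact absurd (Finset.mem_univ _) hv
  have h1 : (LinearMap.range (D.locd1 ρ)).map B ≤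
      (LinearMap.range (loc1 D.hr ρ)).dualAnnihilator := by
    rintro _ ⟨_, ⟨e, rfl⟩, rfl⟩
    rw [Submodule.mem_dualAnnihilator]
    rintro _ ⟨b, rfl⟩
    rw [hB]
    exact D.sum_pair1 hs e b
  have h2 : finrank (ZMod p) (LinearMap.range (loc1 D.hr ρ)) +
      finrank (ZMod p) (LinearMap.range (loc1 D.hr ρ)).dualAnnihilator = finrank (ZMod p) T :=
    Subspace.finrank_add_finrank_dualAnnihilator_eq _
  have h3 : finrank (ZMod p) ((LinearMap.range (D.locd1 ρ)).map B) =
      finrank (ZMod p) (LinearMap.range (D.locd1 ρ)) := by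
    exact (LinearEquiv.finrank_eq (Submodule.equivMapOfInjective B hinj _)).symm
  have h4 : finrank (ZMod p) (LinearMap.range (D.locd1 ρ)) ≤
      finrank (ZMod p) (LinearMap.range (loc1 D.hr ρ)).dualAnnihilator := by
    rw [← h3]; exact Submodule.finrank_mono h1
  have h5 : finrank (ZMod p) T = ∑ v, finrank (ZMod p) (H1 (𝓛v v) (resRep ρ (r v))) :=
    Module.finrank_pi_fintype (ZMod p)
  omega

/-- the double dual and localisation -/
theorem finrank_ker_loc1_le [FiniteDimensional (ZMod p) V] {ρ : Representation (ZMod p) G V}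
    (hs : Smooth 𝓛 ρ) : finrank (ZMod p) (LinearMap.ker (loc1 D.hr ρ)) ≤
      finrank (ZMod p) (LinearMap.ker (D.locd1 (dualRep χ ρ))) := by
  have hs' : Smooth 𝓛 (dualRep χ ρ) := smooth_dualRep D.ecg.mem hs
  have hs'' : Smooth 𝓛 (dualRep χ (dualRep χ ρ)) := smooth_dualRep D.ecg.mem hs'
  have hf : FiniteDimensional (ZMod p) (H1 𝓛 (dualRep χ (dualRep χ ρ))) :=
    (D.ecg.fin2 _ hs'').h1
  let E := RepIso.dd (k := ZMod p) 𝓛 χ ρ (MonoidHom.id G)
  have hinj : Function.Injective (H1.map 𝓛 𝓛 ρ (dualRep χ (dualRep χ ρ)) (MonoidHom.id G) E.φ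
    Levels.cont_id E.compat) := E.h1_bijective.1
  refine LinearMap.finrank_le_finrank_of_injective (f := (H1.map 𝓛 𝓛 ρ
    (dualRep χ (dualRep χ ρ)) (MonoidHom.id G) E.φ Levels.cont_id E.compat).restrict
    (p := LinearMap.ker (loc1 D.hr ρ)) (q := LinearMap.ker (D.locd1 (dualRep χ ρ)))
    (fun x hx => ?_)) ?_
  · rw [LinearMap.mem_ker] at hx ⊢
    funext v
    let Ev := RepIso.dd (k := ZMod p) (𝓛v v) χ ρ (r v)
    have h1 : D.locd1 (dualRep χ ρ) (H1.map 𝓛 𝓛 ρ (dualRep χ (dualRep χ ρ)) (MonoidHom.id G) E.φ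
      Levels.cont_id E.compat x) v = H1.map (𝓛v v) (𝓛v v) (resRep ρ (r v))
        (dualRep (χ.comp (r v)) (resRep (dualRep χ ρ) (r v))) (MonoidHom.id (Gv v)) Ev.φ
        Levels.cont_id Ev.compat (loc1 D.hr ρ x v) := by
      obtain ⟨x, rfl⟩ := H1.mk_surjective _ _ x
      rfl
    rw [h1, hx]
    exact map_zero _
  · intro x y hxy
    apply Subtype.ext
    exact hinj (congrArg Subtype.val hxy)

/-- the defect `ε(M)` -/
noncomputable def eps (D : PTData p 𝓛 𝓛v r χ c cv) (ρ : Representation (ZMod p) G V) : ℤ :=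
  have := D.v0
  chi2 𝓛 ρ + chi2 𝓛 (dualRep χ ρ) - ∑ v, chi2 (𝓛v v) (resRep ρ (r v))

theorem eps_eq [FiniteDimensional (ZMod p) V] {ρ : Representation (ZMod p) G V}
    (hs : Smooth 𝓛 ρ) : D.eps ρ =
      (((∑ v, finrank (ZMod p) (H1 (𝓛v v) (resRep ρ (r v))) : ℕ) : ℤ) -
        finrank (ZMod p) (LinearMap.range (loc1 D.hr ρ)) -
        finrank (ZMod p) (LinearMap.range (D.locd1 ρ))) +
      ((finrank (ZMod p) (LinearMap.ker (loc2 D.hr (dualRep χ ρ))) : ℤ) -
        finrank (ZMod p) (LinearMap.ker (loc1 D.hr ρ))) +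
      ((finrank (ZMod p) (LinearMap.ker (loc2 D.hr ρ)) : ℤ) -
        finrank (ZMod p) (LinearMap.ker (D.locd1 ρ))) := by
  have hs' : Smooth 𝓛 (dualRep χ ρ) := smooth_dualRep D.ecg.mem hs
  have hf := D.ecg.fin2 _ hs
  have hf' := D.ecg.fin2 _ hs'
  have := hf.h1
  have := hf.h2
  have := hf'.h1
  have := hf'.h2
  have e1 := LinearMap.finrank_range_add_finrank_ker (loc1 D.hr ρ)
  have e1' : finrank (ZMod p) (LinearMap.range (D.locd1 ρ)) +
      finrank (ZMod p) (LinearMap.ker (D.locd1 ρ)) = finrank (ZMod p) (H1 𝓛 (dualRep χ ρ)) :=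
    finrank_range_ker_pi (D.locd1 ρ)
  have e2 := LinearMap.finrank_range_add_finrank_ker (loc2 D.hr ρ)
  have e2' := LinearMap.finrank_range_add_finrank_ker (loc2 D.hr (dualRep χ ρ))
  have e3 := D.finrank_range_loc2 hs
  have e3' := D.finrank_range_loc2 hs'
  have e4 : finrank (ZMod p) (dualRep χ (dualRep χ ρ)).invariants =
      finrank (ZMod p) ρ.invariants :=
    (RepIso.dd (k := ZMod p) 𝓛 χ ρ (MonoidHom.id G)).e0.finrank_eq.symm
  have e5 : ∀ v, finrank (ZMod p) (H2 (𝓛v v) (resRep (dualRep χ ρ) (r v))) =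
      finrank (ZMod p) (resRep ρ (r v)).invariants := fun v => by
    rw [(D.loc v).finrank_H2_eq (hs'.res (D.hr v))]
    exact (RepIso.dd (k := ZMod p) (𝓛v v) χ ρ (r v)).e0.finrank_eq.symm
  rw [Finset.sum_congr rfl fun v _ => e5 v] at e3'
  have e6 : ∑ v, chi2 (𝓛v v) (resRep ρ (r v)) =
      ((∑ v, finrank (ZMod p) (resRep ρ (r v)).invariants : ℕ) : ℤ) -
      ((∑ v, finrank (ZMod p) (H1 (𝓛v v) (resRep ρ (r v))) : ℕ) : ℤ) +
      ((∑ v, finrank (ZMod p) (H2 (𝓛v v) (resRep ρ (r v))) : ℕ) : ℤ) := by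
    push_cast
    rw [← Finset.sum_sub_distrib, ← Finset.sum_add_distrib]
    rfl
  rw [eps, e6, chi2, chi2]
  omega

theorem eps_nonneg [FiniteDimensional (ZMod p) V] {ρ : Representation (ZMod p) G V}
    (hs : Smooth 𝓛 ρ) : 0 ≤ D.eps ρ ∧ (D.eps ρ = 0 →
      finrank (ZMod p) (LinearMap.ker (loc2 D.hr ρ)) =
        finrank (ZMod p) (LinearMap.ker (D.locd1 ρ)) ∧
      finrank (ZMod p) (LinearMap.range (loc1 D.hr ρ)) +
        finrank (ZMod p) (LinearMap.range (D.locd1 ρ)) =
        ∑ v, finrank (ZMod p) (H1 (𝓛v v) (resRep ρ (r v)))) := by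
  have hs' : Smooth 𝓛 (dualRep χ ρ) := smooth_dualRep D.ecg.mem hs
  have h1 := D.finrank_range_add_le hs
  have h2 := D.finrank_sha_le hs
  have h3 := D.finrank_sha_le hs'
  have h4 := D.finrank_ker_loc1_le hs
  rw [D.eps_eq hs]
  omega

/-- additivity of the defect -/
theorem eps_add {A B C : Type} [AddCommGroup A] [Module (ZMod p) A]
    [AddCommGroup B] [Module (ZMod p) B] [AddCommGroup C] [Module (ZMod p) C]
    [FiniteDimensional (ZMod p) B]
    {ρA : Representation (ZMod p) G A} {ρB : Representation (ZMod p) G B}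
    {ρC : Representation (ZMod p) G C} (E : SES ρA ρB ρC) (hs : Smooth 𝓛 ρB) :
    D.eps ρB = D.eps ρA + D.eps ρC := by
  obtain ⟨hfA, hfC⟩ := E.finiteDimensional
  have hsA := E.smooth_left hs
  have hsC := E.smooth_right hs
  have hsm := smooth_dualRep (χ := χ) D.ecg.mem hs
  have hsmA := smooth_dualRep (χ := χ) D.ecg.mem hsA
  have hsmC := smooth_dualRep (χ := χ) D.ecg.mem hsC
  have key : ∀ {H : Type} [Group H] {𝓜 : Levels H} {U₁ : Subgroup H} {c' : ℚ}
      (_ : ECG p 𝓜 U₁ c')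
      {A B C : Type} [AddCommGroup A] [Module (ZMod p) A]
      [AddCommGroup B] [Module (ZMod p) B] [AddCommGroup C] [Module (ZMod p) C]
      [FiniteDimensional (ZMod p) B]
      {ρA : Representation (ZMod p) H A} {ρB : Representation (ZMod p) H B}
      {ρC : Representation (ZMod p) H C} (E : SES ρA ρB ρC) (_ : Smooth 𝓜 ρB),
      chi2 𝓜 ρB = chi2 𝓜 ρA + chi2 𝓜 ρC := by
    intro H _ 𝓜 U₁ c' h A B C _ _ _ _ _ _ _ ρA ρB ρC E hs
    obtain ⟨hfA, hfC⟩ := E.finiteDimensional
    have h1 := E.chi_add hs (h.fin2 _ (E.smooth_left hs)) (h.fin2 _ (E.smooth_right hs))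
    have h2 : LinearMap.range (E.p2 𝓜) = ⊤ := LinearMap.range_eq_top.2 (h.p2_surjective E hs)
    have h3 : finrank (ZMod p) (H2 𝓜 ρC ⧸ LinearMap.range (E.p2 𝓜)) = 0 := by
      rw [h2]
      have : Subsingleton (H2 𝓜 ρC ⧸ (⊤ : Submodule (ZMod p) (H2 𝓜 ρC))) :=
        Submodule.Quotient.subsingleton_iff.2 rfl
      exact finrank_zero_of_subsingleton
    rw [h3] at h1
    push_cast at h1
    linarith
  have h1 := key D.ecg E hs
  have h2 := key D.ecg (E.dual χ) hsm
  have h3 : ∑ v, chi2 (𝓛v v) (resRep ρB (r v)) = ∑ v, chi2 (𝓛v v) (resRep ρA (r v)) +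
      ∑ v, chi2 (𝓛v v) (resRep ρC (r v)) := by
    rw [← Finset.sum_add_distrib]
    exact Finset.sum_congr rfl fun v _ => key (D.loc v).ecg (E.res (r v)) (hs.res (D.hr v))
  rw [eps, eps, eps, h1, h2, h3]
  ring

/-- vanishing on generators -/
theorem eps_gen (hc : 2 * c = ∑ v, cv v) {N : Subgroup G} (hN : N ∈ 𝓛) [hn : N.Normal]
    (hNχ : N ≤ χ.ker) (m : ℕ) : D.eps (genRep (ZMod p) N m) = 0 := by
  have hfin := finite_quotient_of_mem hN
  have hst : ∀ (x : GSet N m) (g : G), g • x = x → g ∈ χ.ker := by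
    intro x g hg
    apply hNχ
    have h1 : g • x.1 = x.1 := congrArg Prod.fst hg
    obtain ⟨h, hh⟩ := QuotientGroup.mk_surjective x.1
    rw [← hh, MulAction.Quotient.smul_mk, eq_comm, QuotientGroup.eq, smul_eq_mul] at h1
    have h2 := hn.conj_mem _ h1 h
    convert h2 using 1
    group
  have h1 := (D.ecg.chi_perm (smoothSet_GSet hN m) hst).2
  have h2 : (chi2 𝓛 (dualRep χ (genRep (ZMod p) N m)) : ℚ) = Nat.card (GSet N m) * c := by
    rw [← (RepIso.gen (k := ZMod p) (𝓛 := 𝓛) hNχ m).chi2_eq]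
    exact h1
  have h3 : ∀ v, (chi2 (𝓛v v) (resRep (genRep (ZMod p) N m) (r v)) : ℚ) =
      Nat.card (GSet N m) * cv v := by
    intro v
    rw [(RepIso.pull (𝓛v v) (Representation.trivial (ZMod p) G (ZMod p)) (GSet N m)
      (r v)).chi2_eq]
    exact ((D.loc v).ecg.chi_perm ((smoothSet_GSet hN m).pull (D.hr v))
      (fun x g hg => hst x.out (r v g) hg)).2
  have h4 : (D.eps (genRep (ZMod p) N m) : ℚ) = 0 := by
    rw [eps]
    push_cast
    rw [h1, h2, Finset.sum_congr rfl fun v _ => h3 v, ← Finset.mul_sum, ← hc]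
    ring
  exact_mod_cast h4

/-- **Poitou-Tate duality, dimension form**: `dim Ш²(M) = dim Ш¹(M')` -/
theorem finrank_sha_eq (hc : 2 * c = ∑ v, cv v) [FiniteDimensional (ZMod p) V]
    {ρ : Representation (ZMod p) G V} (hs : Smooth 𝓛 ρ) :
    finrank (ZMod p) (LinearMap.ker (loc2 D.hr ρ)) =
        finrank (ZMod p) (LinearMap.ker (D.locd1 ρ)) ∧
      finrank (ZMod p) (LinearMap.range (loc1 D.hr ρ)) +
        finrank (ZMod p) (LinearMap.range (D.locd1 ρ)) =
        ∑ v, finrank (ZMod p) (H1 (𝓛v v) (resRep ρ (r v))) := by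
  obtain ⟨N, hN, hn, hNχ, hNρ, W, ρW, E, -⟩ := exists_presentation (χ := χ) hs D.ecg.mem
    (ι := Unit) (fun _ => 0)
  have hfin := finite_quotient_of_mem hN
  have hsm : Smooth 𝓛 (genRep (ZMod p) N (finrank (ZMod p) V)) :=
    smooth_mapRep smooth_trivial (smoothSet_GSet hN _)
  have h1 := D.eps_add E hsm
  rw [D.eps_gen hc hN hNχ] at h1
  have h2 := (D.eps_nonneg (E.smooth_left hsm)).1
  obtain ⟨h3, h4⟩ := D.eps_nonneg hs
  exact h4 (by omega)

end PTData

end Glob

end Fermat.Agent.CFT
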