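import Mathlib
import Fermat.Agent.CFT.PTEuler

/-!
# The growth argument

Euler characteristics can only shrink in `p`-extensions, whereas the number of places grows slowly
in the cyclotomic tower: this forces the cokernel of `H²(G_{L,S}, 𝔽_p) → ⊕ H²(L_v, 𝔽_p)` to be
one-dimensional.
-/

set_option autoImplicit false

open Module

set_option linter.unusedSectionVars false

namespace Fermat.Agent.CFT

section Bound

variable {p : ℕ} [Fact p.Prime] {U : Type} [Group U] {𝓤 : Levels U}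

/-- Euler characteristics over `p`-groups are bounded by that of the trivial module -/
theorem fin2_bound (h : Fin2 𝓤 (Representation.trivial (ZMod p) U (ZMod p)))
    (V : Type) [AddCommGroup V] [Module (ZMod p) V]
    [FiniteDimensional (ZMod p) V] (ρ : Representation (ZMod p) U V) (hs : Smooth 𝓤 ρ)
    (hp : PAct p ρ) : Fin2 𝓤 ρ ∧ chi2 𝓤 ρ ≤ finrank (ZMod p) V *
      chi2 𝓤 (Representation.trivial (ZMod p) U (ZMod p)) := by
  have key := devissage (p := p) (U := U)
    (fun V _ _ ρ => Smooth 𝓤 ρ → Fin2 𝓤 ρ ∧ chi2 𝓤 ρ ≤ finrank (ZMod p) V *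
      chi2 𝓤 (Representation.trivial (ZMod p) U (ZMod p)))
    (fun V _ _ ρ hV hs => by
      obtain ⟨h1, h2⟩ := fin2_of_subsingleton (𝓤 := 𝓤) ρ
      refine ⟨h1, ?_⟩
      rw [h2, finrank_zero_of_subsingleton]
      simp)
    (fun B C _ _ _ _ ρB ρC E hB hpB hC hs => by
      obtain ⟨f2, c2⟩ := hC (E.smooth_right hs)
      refine ⟨E.fin2 hs h f2, ?_⟩
      have h1 := chi2_le_of_SES E hs h f2
      have h2 := E.finrank_add
      rw [finrank_self] at h2
      rw [← h2]
      push_cast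
      linarith)
  exact key _ V ρ rfl hp hs

variable {G : Type} [Group G] {𝓛 : Levels G}

theorem chi_le {U : Subgroup G} (hU : U ∈ 𝓛) {N : Subgroup U} (hN : N ∈ 𝓛.restrict U) [N.Normal]
    (hp : ∀ g : U, ∃ n : ℕ, g ^ (p ^ n) ∈ N)
    (hf : Fin2 (𝓛.restrict U) (Representation.trivial (ZMod p) U (ZMod p)))
    (hfN : Fin2 (𝓛.restrict (N.map U.subtype))
      (Representation.trivial (ZMod p) (N.map U.subtype) (ZMod p))) :
    chi2 (𝓛.restrict (N.map U.subtype))
      (Representation.trivial (ZMod p) (N.map U.subtype) (ZMod p)) ≤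
      N.index * chi2 (𝓛.restrict U) (Representation.trivial (ZMod p) U (ZMod p)) := by
  have hfin := finite_quotient_of_mem hN
  have E := RepIso.nested hU N (Representation.trivial (ZMod p) G (ZMod p))
  have hfN' : Fin2 ((𝓛.restrict U).restrict N) (Representation.trivial (ZMod p) N (ZMod p)) :=
    E.fin2 hfN
  have hchi : chi2 ((𝓛.restrict U).restrict N) (Representation.trivial (ZMod p) N (ZMod p)) =
      chi2 (𝓛.restrict (N.map U.subtype))
      (Representation.trivial (ZMod p) (N.map U.subtype) (ZMod p)) := E.chi2_eq.symm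
  have hsm : Smooth (𝓛.restrict U) (genRep (ZMod p) N 1) :=
    smooth_mapRep smooth_trivial (smoothSet_GSet hN _)
  have h1 := (fin2_bound hf _ (genRep (ZMod p) N 1) hsm (pact_genRep hp 1)).2
  have hff : ∀ i : Fin 1, Fin2 ((𝓛.restrict U).restrict ((OrbitData.gset N 1).U i))
      (resRep (Representation.trivial (ZMod p) U (ZMod p)) ((OrbitData.gset N 1).U i).subtype) :=
    fun i => hfN'
  rw [chi2_mapRep (OrbitData.gset N 1) (smoothSet_GSet hN 1) hff, finrank_gset, mul_one] at h1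
  have : ∀ i : Fin 1, chi2 ((𝓛.restrict U).restrict ((OrbitData.gset N 1).U i))
      (resRep (Representation.trivial (ZMod p) U (ZMod p)) ((OrbitData.gset N 1).U i).subtype) =
      chi2 ((𝓛.restrict U).restrict N) (Representation.trivial (ZMod p) N (ZMod p)) :=
    fun i => rfl
  rw [Finset.sum_congr rfl fun i _ => this i] at h1
  simpa [hchi] using h1

end Bound

section Cosets

variable {p : ℕ} [Fact p.Prime] {G : Type} [Group G] {𝓛 : Levels G}

/-- the permutation module on cosets -/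
noncomputable abbrev cosRep (p : ℕ) [Fact p.Prime] {G : Type} [Group G] (W : Subgroup G) :
    Representation (ZMod p) G (G ⧸ W → ZMod p) :=
  mapRep (Representation.trivial (ZMod p) G (ZMod p)) (G ⧸ W)

lemma smooth_cosRep {W : Subgroup G} (hW : W ∈ 𝓛) : Smooth 𝓛 (cosRep p W) := by
  have hfin := finite_quotient_of_mem hW
  exact smooth_mapRep smooth_trivial (smoothSet_quotient hW)

/-- Shapiro in degree 2 -/
noncomputable def cosH2 {W : Subgroup G} (hW : W ∈ 𝓛) : H2 𝓛 (cosRep p W) ≃ₗ[ZMod p]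
    H2 (𝓛.restrict W) (Representation.trivial (ZMod p) W (ZMod p)) :=
  LinearEquiv.ofBijective (sh2 𝓛 (Representation.trivial (ZMod p) G (ZMod p))
    (OrbitData.quotient W) ()) (by
    have hfin := finite_quotient_of_mem hW
    have h := sh2_bijective 𝓛 (Representation.trivial (ZMod p) G (ZMod p))
      (OrbitData.quotient W) (smoothSet_quotient hW)
    constructor
    · intro x y hxy
      exact h.1 (funext fun _ => hxy)
    · intro c
      obtain ⟨x, hx⟩ := h.2 (fun _ => c)
      exact ⟨x, congrFun hx ()⟩)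

/-- number of orbits -/
noncomputable def orbs {G' : Type} [Group G'] (f : G' →* G) (W : Subgroup G) : ℕ :=
  Nat.card (MulAction.orbitRel.Quotient G' (PullSet f (G ⧸ W)))

/-- bound for the number of orbits -/
lemma orbs_mul_le {G' : Type} [Group G'] (f : G' →* G) {N K : Subgroup G} (hNK : N ≤ K)
    [hK : K.Normal] [N.FiniteIndex] : orbs f N * (K.comap f).index ≤ N.index := by
  have hfin : Finite (G ⧸ N) := Subgroup.finite_quotient_of_finiteIndex
  let D := OrbitData.ofAction G' (PullSet f (G ⧸ N))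
  have : Fintype (MulAction.orbitRel.Quotient G' (PullSet f (G ⧸ N))) := Fintype.ofFinite _
  have h1 := D.sum_index
  have h2 : ∀ i, (K.comap f).index ≤ (D.U i).index := by
    intro i
    have hne : (D.U i).index ≠ 0 := by
      rw [D.index_eq]
      have : Nonempty {y // D.o y = i} := ⟨⟨D.x i, D.o_x i⟩⟩
      exact Nat.card_pos.ne'
    have : (D.U i).FiniteIndex := ⟨hne⟩
    refine Subgroup.index_antitone fun τ hτ => ?_
    have h3 : f τ • (D.x i).out = (D.x i).out := (D.mem_U i τ).1 hτ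
    obtain ⟨h, hh⟩ := QuotientGroup.mk_surjective (D.x i).out
    rw [← hh, MulAction.Quotient.smul_mk, eq_comm, QuotientGroup.eq, smul_eq_mul] at h3
    have h4 := hK.conj_mem _ (hNK h3) h
    rw [Subgroup.mem_comap]
    convert h4 using 1
    group
  have h3 : Nat.card (PullSet f (G ⧸ N)) = N.index := rfl
  rw [← h3, ← h1, orbs, Nat.card_eq_fintype_card, ← Finset.card_univ, ← smul_eq_mul,
    ← Finset.sum_const]
  exact Finset.sum_le_sum fun i _ => h2 i

end Cosets

/-- the data from which Poitou-Tate is deduced -/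
structure PreData (p : ℕ) [Fact p.Prime] {G : Type} [Group G] (𝓛 : Levels G)
    {ι : Type} [Fintype ι] {Gv : ι → Type} [∀ v, Group (Gv v)]
    (𝓛v : ∀ v, Levels (Gv v)) (r : ∀ v, Gv v →* G) (χ : G →* (ZMod p)ˣ) (cv : ι → ℚ) where
  hr : ∀ v, Levels.Cont (𝓛v v) 𝓛 (r v)
  loc : ∀ v, LocData p (𝓛v v) (χ.comp (r v)) (cv v)
  v0 : ι
  recip : ∀ x : H2 𝓛 (charRep χ),
    ∑ v, (loc v).inv (H2.map 𝓛 (𝓛v v) (charRep χ) (charRep (χ.comp (r v))) (r v) LinearMap.id
      (hr v) (fun _ _ => rfl) x) = 0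
  mem : χ.ker ∈ 𝓛
  index : ¬ p ∣ χ.ker.index
  K : ℕ → Subgroup G
  K_mem : ∀ n, K n ∈ 𝓛
  K_normal : ∀ n, (K n).Normal
  K_pow : ∀ n, ∀ g ∈ χ.ker, ∃ m : ℕ, g ^ (p ^ m) ∈ K n
  K_index : ∀ B : ℕ, ∃ n, ∀ v, B ≤ ((K n).comap (r v)).index
  fin : ∀ W ∈ 𝓛, W ≤ χ.ker → Fin2 (𝓛.restrict W) (Representation.trivial (ZMod p) W (ZMod p))
  h1 : ∀ W ∈ 𝓛, W ≤ χ.ker →
    2 * finrank (ZMod p) (H1 (𝓛.restrict W) (Representation.trivial (ZMod p) W (ZMod p))) =
      2 * finrank (ZMod p) (LinearMap.ker (loc2 hr (cosRep p W))) + 2 * ∑ v, orbs (r v) W +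
        W.index

namespace PreData

variable {p : ℕ} [Fact p.Prime] {G : Type} [Group G] {𝓛 : Levels G}
variable {ι : Type} [Fintype ι] {Gv : ι → Type} [∀ v, Group (Gv v)]
  {𝓛v : ∀ v, Levels (Gv v)} {r : ∀ v, Gv v →* G}
variable {χ : G →* (ZMod p)ˣ} {cv : ι → ℚ}
variable (D : PreData p 𝓛 𝓛v r χ cv)

include D in
lemma finite_T {W : Subgroup G} (hW : W ∈ 𝓛) (v : ι) :
    FiniteDimensional (ZMod p) (H2 (𝓛v v) (resRep (cosRep p W) (r v))) := by
  have hfin := finite_quotient_of_mem hW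
  exact ((D.loc v).ecg.fin2 _ ((smooth_cosRep hW).res (D.hr v))).h2

include D in
/-- local dimension bound -/
lemma finrank_H2v_le {W : Subgroup G} (hW : W ∈ 𝓛) (hWχ : W ≤ χ.ker) (v : ι) :
    finrank (ZMod p) (H2 (𝓛v v) (resRep (cosRep p W) (r v))) ≤ orbs (r v) W := by
  classical
  have hfin := finite_quotient_of_mem hW
  have hX : SmoothSet (𝓛v v) (PullSet (r v) (G ⧸ W)) := (smoothSet_quotient hW).pull (D.hr v)
  have E := RepIso.pull (𝓛v v) (Representation.trivial (ZMod p) G (ZMod p)) (G ⧸ W) (r v)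
  rw [(LinearEquiv.ofBijective _ E.h2_bijective).finrank_eq]
  let O := OrbitData.ofAction (Gv v) (PullSet (r v) (G ⧸ W))
  have : Fintype (MulAction.orbitRel.Quotient (Gv v) (PullSet (r v) (G ⧸ W))) :=
    Fintype.ofFinite _
  have hU : ∀ i, O.U i ∈ 𝓛v v := fun i => O.U_mem hX i
  have hle : ∀ i, O.U i ≤ (χ.comp (r v)).ker := fun i τ hτ => by
    have h3 : r v τ • (O.x i).out = (O.x i).out := (O.mem_U i τ).1 hτ
    obtain ⟨h, hh⟩ := QuotientGroup.mk_surjective (O.x i).out
    rw [← hh, MulAction.Quotient.smul_mk, eq_comm, QuotientGroup.eq, smul_eq_mul] at h3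
    have h4 := (MonoidHom.normal_ker χ).conj_mem _ (hWχ h3) h
    show χ (r v τ) = 1
    rw [← MonoidHom.mem_ker]
    convert h4 using 1
    group
  have hb := sh2_bijective (𝓛v v) (resRep (Representation.trivial (ZMod p) G (ZMod p)) (r v)) O hX
  have hff : ∀ i, FiniteDimensional (ZMod p) (H2 ((𝓛v v).restrict (O.U i))
      (resRep (resRep (Representation.trivial (ZMod p) G (ZMod p)) (r v)) (O.U i).subtype)) :=
    fun i => ((D.loc v).ecg.fin _ (hU i) (hle i)).h2
  have hfree : ∀ i, Module.Free (ZMod p) (H2 ((𝓛v v).restrict (O.U i))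
      (resRep (resRep (Representation.trivial (ZMod p) G (ZMod p)) (r v)) (O.U i).subtype)) :=
    fun i => Module.Free.of_divisionRing (ZMod p) _
  rw [(LinearEquiv.ofBijective _ hb).finrank_eq, Module.finrank_pi_fintype, orbs,
    Nat.card_eq_fintype_card, ← Finset.card_univ, ← mul_one (Finset.univ.card), ← smul_eq_mul,
    ← Finset.sum_const]
  exact Finset.sum_le_sum fun i _ => (D.loc v).h2_le _ (hU i) (hle i)

/-- the invariant functional on the permutation module -/
lemma exists_inv_cos {k : Type*} [Field k] {G : Type*} [Group G] {χ : G →* kˣ} {W : Subgroup G}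
    [Finite (G ⧸ W)] (hW : W ≤ χ.ker) : ∃ φ : (G ⧸ W → k) →ₗ[k] k,
      Compat (mapRep (Representation.trivial k G k) (G ⧸ W)) (charRep χ) (MonoidHom.id G) φ ∧
      φ ≠ 0 := by
  classical
  have := Fintype.ofFinite (G ⧸ W)
  have hχ : ∀ (g : G) (c : G ⧸ W), χ (Quotient.out (g • c)) = χ g * χ (Quotient.out c) :=
    fun g c => chi_out_smul hW g c
  let φ : (G ⧸ W → k) →ₗ[k] k := ∑ x : G ⧸ W, (χ (Quotient.out x) : k) • evalMap k k x
  have hφ : ∀ f, φ f = ∑ x : G ⧸ W, (χ (Quotient.out x) : k) * f x := fun f => by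
    simp only [φ, LinearMap.sum_apply, LinearMap.smul_apply, evalMap_apply, smul_eq_mul]
  refine ⟨φ, fun g f => ?_, fun h => ?_⟩
  · rw [hφ, MonoidHom.id_apply, hφ, charRep_apply, Finset.mul_sum,
      ← Equiv.sum_comp (MulAction.toPerm g : Equiv.Perm (G ⧸ W))]
    refine Finset.sum_congr rfl fun x _ => ?_
    rw [MulAction.toPerm_apply, hχ, mapRep_apply, inv_smul_smul, Units.val_mul, mul_assoc]
    rfl
  · have h1 := LinearMap.congr_fun h (Pi.single ((1 : G) : G ⧸ W) (1 : k))
    rw [hφ, Finset.sum_eq_single ((1 : G) : G ⧸ W), Pi.single_eq_same, mul_one] at h1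
    · exact Units.ne_zero _ h1
    · intro b _ hb
      rw [Pi.single_eq_of_ne hb, mul_zero]
    · intro h; exact absurd (Finset.mem_univ _) h

/-- the cokernel is nonzero (reciprocity) -/
lemma range_lt {W : Subgroup G} (hW : W ∈ 𝓛) (hWχ : W ≤ χ.ker) :
    finrank (ZMod p) (LinearMap.range (loc2 D.hr (cosRep p W))) <
      ∑ v, finrank (ZMod p) (H2 (𝓛v v) (resRep (cosRep p W) (r v))) := by
  classical
  have hfin := finite_quotient_of_mem hW
  have hft := fun v => D.finite_T hW v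
  obtain ⟨φ, hφ, hφ0⟩ := exists_inv_cos (k := ZMod p) hWχ
  let Λ : (∀ v, H2 (𝓛v v) (resRep (cosRep p W) (r v))) →ₗ[ZMod p] ZMod p :=
    ∑ v, (D.loc v).inv ∘ₗ (H2.map (𝓛v v) (𝓛v v) (resRep (cosRep p W) (r v))
      (charRep (χ.comp (r v))) (MonoidHom.id _) φ Levels.cont_id
      (fun g x => hφ (r v g) x)) ∘ₗ LinearMap.proj v
  have hΛ : ∀ z, Λ z = ∑ v, (D.loc v).inv (H2.map (𝓛v v) (𝓛v v) (resRep (cosRep p W) (r v))
      (charRep (χ.comp (r v))) (MonoidHom.id _) φ Levels.cont_id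
      (fun g x => hφ (r v g) x) (z v)) := fun z => by
    simp only [Λ, LinearMap.sum_apply]
    rfl
  have h0 : ∀ x, Λ (loc2 D.hr (cosRep p W) x) = 0 := by
    intro x
    rw [hΛ, ← D.recip (H2.map 𝓛 𝓛 (cosRep p W) (charRep χ) (MonoidHom.id G) φ Levels.cont_id
      hφ x)]
    refine Finset.sum_congr rfl fun v _ => ?_
    congr 1
    obtain ⟨x, rfl⟩ := H2.mk_surjective _ _ x
    rfl
  have hne : Λ ≠ 0 := by
    intro h
    obtain ⟨y, hy⟩ : ∃ y, (D.loc D.v0).inv y ≠ 0 := by
      by_contra hcon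
      push Not at hcon
      exact (D.loc D.v0).inv_ne (LinearMap.ext hcon)
    have hsurj : Function.Surjective φ := LinearMap.surjective hφ0
    let E := SES.ofSurj (ρB := cosRep p W) (ρC := charRep χ) hφ hsurj
    obtain ⟨x, hx⟩ := (D.loc D.v0).ecg.p2_surjective (E.res (r D.v0))
      ((smooth_cosRep hW).res (D.hr D.v0)) y
    apply hy
    have h1 := LinearMap.congr_fun h (Pi.single D.v0 x)
    rw [hΛ, Finset.sum_eq_single D.v0] at h1
    · rw [Pi.single_eq_same] at h1
      rw [← hx]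
      exact h1
    · intro v _ hv
      rw [Pi.single_eq_of_ne hv, map_zero, map_zero]
    · intro hv; exact absurd (Finset.mem_univ _) hv
  have hlt : LinearMap.range (loc2 D.hr (cosRep p W)) < ⊤ := by
    rw [lt_top_iff_ne_top]
    intro htop
    apply hne
    refine LinearMap.ext fun z => ?_
    have : z ∈ LinearMap.range (loc2 D.hr (cosRep p W)) := by rw [htop]; trivial
    obtain ⟨x, rfl⟩ := this
    exact h0 x
  have h1 : finrank (ZMod p) (LinearMap.range (loc2 D.hr (cosRep p W))) <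
      finrank (ZMod p) (∀ v, H2 (𝓛v v) (resRep (cosRep p W) (r v))) :=
    Submodule.finrank_lt hlt.ne
  rwa [Module.finrank_pi_fintype] at h1

/-- the defect -/
noncomputable def e (_ : PreData p 𝓛 𝓛v r χ cv) (W : Subgroup G) (hr : ∀ v, Levels.Cont (𝓛v v) 𝓛 (r v)) :
    ℤ := ∑ v, (orbs (r v) W : ℤ) - finrank (ZMod p) (LinearMap.range (loc2 hr (cosRep p W)))

lemma one_le_e {W : Subgroup G} (hW : W ∈ 𝓛) (hWχ : W ≤ χ.ker) : 1 ≤ D.e W D.hr := by
  have h1 := D.range_lt hW hWχ
  have h2 : ∑ v, finrank (ZMod p) (H2 (𝓛v v) (resRep (cosRep p W) (r v))) ≤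
    ∑ v, orbs (r v) W := Finset.sum_le_sum fun v _ => D.finrank_H2v_le hW hWχ v
  rw [e]
  have h3 : ∑ v, (orbs (r v) W : ℤ) = ((∑ v, orbs (r v) W : ℕ) : ℤ) := by push_cast; rfl
  rw [h3]
  omega

lemma e_le (W : Subgroup G) : D.e W D.hr ≤ ((∑ v, orbs (r v) W : ℕ) : ℤ) := by
  rw [e]
  have h3 : ∑ v, (orbs (r v) W : ℤ) = ((∑ v, orbs (r v) W : ℕ) : ℤ) := by push_cast; rfl
  rw [h3]
  omega

/-- the Euler characteristic in terms of the defect -/
lemma chi_eq {W : Subgroup G} (hW : W ∈ 𝓛) (hWχ : W ≤ χ.ker) :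
    2 * chi2 (𝓛.restrict W) (Representation.trivial (ZMod p) W (ZMod p)) =
      2 - 2 * D.e W D.hr - W.index := by
  have h1 := D.h1 W hW hWχ
  have hf := D.fin W hW hWχ
  have := hf.h2
  have hf2 : FiniteDimensional (ZMod p) (H2 𝓛 (cosRep p W)) :=
    Module.Finite.equiv (cosH2 hW).symm
  have h2 := finrank_range_ker_pi (loc2 D.hr (cosRep p W))
  rw [(cosH2 hW).finrank_eq] at h2
  have h3 : finrank (ZMod p) (Representation.trivial (ZMod p) W (ZMod p)).invariants = 1 := by
    have : (Representation.trivial (ZMod p) W (ZMod p)).invariants = ⊤ := by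
      rw [eq_top_iff]; intro v _ g; rfl
    rw [this, finrank_top, finrank_self]
  have h4 : ∑ v, (orbs (r v) W : ℤ) = ((∑ v, orbs (r v) W : ℕ) : ℤ) := by push_cast; rfl
  rw [chi2, e, h3, h4]
  omega

/-- **the growth argument** -/
theorem e_eq_one {U : Subgroup G} (hU : U ∈ 𝓛) (hUχ : U ≤ χ.ker) : D.e U D.hr = 1 := by
  classical
  by_contra hne
  have hge := D.one_le_e hU hUχ
  have hge2 : 2 ≤ D.e U D.hr := by omega
  have hUf := Levels.finiteIndex hU
  have hUi : U.index ≠ 0 := hUf.index_ne_zero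
  obtain ⟨n, hn⟩ := D.K_index (Fintype.card ι * U.index)
  have hKn := D.K_normal n
  let N : Subgroup U := (D.K n).subgroupOf U
  have hNmem : N ∈ 𝓛.restrict U := ⟨D.K n, D.K_mem n, le_rfl⟩
  have hNnorm : N.Normal := inferInstance
  have hNG : N.map U.subtype ∈ 𝓛 := (Levels.mem_restrict_iff_map hU).1 hNmem
  have hNU : N.map U.subtype ≤ U := by
    rintro _ ⟨x, _, rfl⟩; exact x.2
  have hNK : N.map U.subtype ≤ D.K n := by
    rintro _ ⟨x, hx, rfl⟩; exact hx
  have hNχ := hNU.trans hUχ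
  have hNf := Levels.finiteIndex hNG
  have h1 := chi_le hU hNmem (fun g => D.K_pow n g (hUχ g.2)) (D.fin U hU hUχ)
    (D.fin _ hNG hNχ)
  have h2 := D.chi_eq hU hUχ
  have h3 := D.chi_eq hNG hNχ
  have h4 : (N.map U.subtype).index = N.index * U.index := Subgroup.index_map_subtype N
  have h5 : (N.index : ℤ) * (D.e U D.hr - 1) ≤ D.e (N.map U.subtype) D.hr - 1 := by
    rw [h4] at h3
    push_cast at h3
    have h6 : 2 * chi2 (𝓛.restrict (N.map U.subtype))
      (Representation.trivial (ZMod p) (N.map U.subtype) (ZMod p)) ≤ N.index *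
        (2 * chi2 (𝓛.restrict U) (Representation.trivial (ZMod p) U (ZMod p))) := by
      linarith
    rw [h2, h3] at h6
    nlinarith
  have h6 := D.e_le (N.map U.subtype)
  have h7 : (∑ v, orbs (r v) (N.map U.subtype)) * (Fintype.card ι * U.index) ≤
      Fintype.card ι * (N.index * U.index) := by
    rw [Finset.sum_mul, ← Finset.card_univ, ← smul_eq_mul (Finset.univ.card) (N.index * U.index),
      ← Finset.sum_const]
    refine Finset.sum_le_sum fun v _ => ?_
    refine (Nat.mul_le_mul_left _ (hn v)).trans ?_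
    rw [← h4]
    exact orbs_mul_le (r v) hNK
  have hι : 0 < Fintype.card ι := Fintype.card_pos_iff.2 ⟨D.v0⟩
  have h8 : (∑ v, orbs (r v) (N.map U.subtype)) ≤ N.index := by
    have h9 : 0 < Fintype.card ι * U.index := Nat.mul_pos hι (Nat.pos_of_ne_zero hUi)
    refine Nat.le_of_mul_le_mul_right (c := Fintype.card ι * U.index) ?_ h9
    calc _ ≤ Fintype.card ι * (N.index * U.index) := h7
      _ = _ := by ring
  have h10 : (N.index : ℤ) ≤ N.index * (D.e U D.hr - 1) := by
    have : (0 : ℤ) ≤ N.index := by positivity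
    nlinarith
  have h11 : ((∑ v, orbs (r v) (N.map U.subtype) : ℕ) : ℤ) ≤ N.index := by exact_mod_cast h8
  omega

include D in
/-- the global Euler characteristic data -/
theorem ecg : ECG p 𝓛 χ.ker (-1/2) where
  mem := D.mem
  normal := inferInstance
  index := D.index
  fin := D.fin
  chi W hW hWχ := by
    have h1 := D.chi_eq hW hWχ
    rw [D.e_eq_one hW hWχ] at h1
    have h2 : 2 * (chi2 (𝓛.restrict W) (Representation.trivial (ZMod p) W (ZMod p)) : ℚ) =
        2 - 2 * 1 - W.index := by exact_mod_cast h1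
    linarith

/-- the cokernel is spanned by one element -/
lemma exists_gen {W : Subgroup G} (hW : W ∈ 𝓛) (hWχ : W ≤ χ.ker) :
    ∃ t0 : ∀ v, H2 (𝓛v v) (resRep (cosRep p W) (r v)), ∀ z, ∃ a : ZMod p,
      z - a • t0 ∈ LinearMap.range (loc2 D.hr (cosRep p W)) := by
  have hft := fun v => D.finite_T hW v
  let T := ∀ v, H2 (𝓛v v) (resRep (cosRep p W) (r v))
  have hfT : FiniteDimensional (ZMod p) T := inferInstanceAs (FiniteDimensional (ZMod p)
    (∀ v, H2 (𝓛v v) (resRep (cosRep p W) (r v))))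
  let R : Submodule (ZMod p) T := LinearMap.range (loc2 D.hr (cosRep p W))
  have h1 := D.e_eq_one hW hWχ
  have h2 : ∑ v, finrank (ZMod p) (H2 (𝓛v v) (resRep (cosRep p W) (r v))) ≤
    ∑ v, orbs (r v) W := Finset.sum_le_sum fun v _ => D.finrank_H2v_le hW hWχ v
  have h3 := D.range_lt hW hWχ
  have h4 : ∑ v, (orbs (r v) W : ℤ) = ((∑ v, orbs (r v) W : ℕ) : ℤ) := by push_cast; rfl
  have h5 : finrank (ZMod p) T = ∑ v, finrank (ZMod p) (H2 (𝓛v v) (resRep (cosRep p W) (r v))) :=
    Module.finrank_pi_fintype (ZMod p)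
  rw [e, h4] at h1
  have h6 : finrank (ZMod p) (T ⧸ R) = 1 := by
    have := Submodule.finrank_quotient_add_finrank R
    have h7 : finrank (ZMod p) R = finrank (ZMod p) (LinearMap.range (loc2 D.hr (cosRep p W))) :=
      rfl
    omega
  obtain ⟨w, hw, hw'⟩ := finrank_eq_one_iff'.1 h6
  obtain ⟨t0, rfl⟩ := R.mkQ_surjective w
  refine ⟨t0, fun z => ?_⟩
  obtain ⟨a, ha⟩ := hw' (R.mkQ z)
  refine ⟨a, ?_⟩
  have h8 : R.mkQ (z - a • t0) = 0 := by rw [map_sub, map_smul, ha, sub_self]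
  exact (Submodule.Quotient.mk_eq_zero R).1 h8

/-- inclusion of a component -/
noncomputable def incl (p : ℕ) [Fact p.Prime] (N : Subgroup G) {m : ℕ} (j : Fin m) :
    (G ⧸ N → ZMod p) →ₗ[ZMod p] (GSet N m → ZMod p) where
  toFun f x := if x.2 = j then f x.1 else 0
  map_add' f g := by
    funext x
    by_cases h : x.2 = j <;> simp [h]
  map_smul' c f := by
    funext x
    by_cases h : x.2 = j <;> simp [h]

/-- projection to a component -/
noncomputable def prj (p : ℕ) [Fact p.Prime] (N : Subgroup G) {m : ℕ} (j : Fin m) :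
    (GSet N m → ZMod p) →ₗ[ZMod p] (G ⧸ N → ZMod p) where
  toFun f x := f (GSet.mk x j)
  map_add' _ _ := rfl
  map_smul' _ _ := rfl

lemma compat_incl (N : Subgroup G) {m : ℕ} (j : Fin m) :
    Compat (cosRep p N) (genRep (ZMod p) N m) (MonoidHom.id G) (incl p N j) := fun g f => by
  funext x
  show (if x.2 = j then f (g⁻¹ • x.1) else 0) = (if (g⁻¹ • x).2 = j then f (g⁻¹ • x).1 else 0)
  rfl

lemma compat_prj (N : Subgroup G) {m : ℕ} (j : Fin m) :
    Compat (genRep (ZMod p) N m) (cosRep p N) (MonoidHom.id G) (prj p N j) := fun g f => by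
  funext x
  rfl

lemma sum_incl_prj (N : Subgroup G) {m : ℕ} (f : GSet N m → ZMod p) :
    ∑ j, incl p N j (prj p N j f) = f := by
  classical
  funext x
  rw [Finset.sum_apply, Finset.sum_eq_single x.2]
  · show (if x.2 = x.2 then f (GSet.mk x.1 x.2) else 0) = f x
    rw [if_pos rfl]; rfl
  · intro j _ hj
    show (if x.2 = j then _ else 0) = 0
    rw [if_neg (Ne.symm hj)]
  · intro h; exact absurd (Finset.mem_univ _) h

open PTData in
lemma sum_mapP2 (N : Subgroup G) {m : ℕ}
    (z : ∀ v, H2 (𝓛v v) (resRep (genRep (ZMod p) N m) (r v))) :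
    z = ∑ j, mapP2 𝓛v r (compat_incl (p := p) N j) (mapP2 𝓛v r (compat_prj (p := p) N j) z) := by
  funext v
  rw [Finset.sum_apply]
  obtain ⟨y, hy⟩ := H2.mk_surjective _ _ (z v)
  have h1 : ∀ j, mapP2 𝓛v r (compat_incl (p := p) N j)
      (mapP2 𝓛v r (compat_prj (p := p) N j) z) v = H2.mk _ _ ⟨pp2 (MonoidHom.id _) (incl p N j)
        (pp2 (MonoidHom.id _) (prj p N j) y), pp2_mem_Z2 Levels.cont_id
          (fun g x => compat_incl (p := p) N j (r v g) x) (pp2_mem_Z2
          (ρ := resRep (genRep (ZMod p) N m) (r v)) (σ := resRep (cosRep p N) (r v))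
          Levels.cont_id (fun g x => compat_prj (p := p) N j (r v g) x) y.2)⟩ := by
    intro j
    show H2.map (𝓛v v) (𝓛v v) (resRep (cosRep p N) (r v)) (resRep (genRep (ZMod p) N m) (r v))
      (MonoidHom.id _) (incl p N j) Levels.cont_id (fun g x => compat_incl (p := p) N j (r v g) x)
      (H2.map (𝓛v v) (𝓛v v) (resRep (genRep (ZMod p) N m) (r v)) (resRep (cosRep p N) (r v))
      (MonoidHom.id _) (prj p N j) Levels.cont_id (fun g x => compat_prj (p := p) N j (r v g) x)
        (z v)) = _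
    rw [← hy]; rfl
  rw [Finset.sum_congr rfl fun j _ => h1 j, ← map_sum, ← hy]
  congr 1
  apply Subtype.ext
  rw [Submodule.coe_sum]
  funext g h
  rw [Finset.sum_apply, Finset.sum_apply]
  exact (sum_incl_prj N (y.1 g h)).symm

open PTData in
/-- the dimension bound in degree 2 -/
theorem t1_le {N : Subgroup G} (hN : N ∈ 𝓛) (hNχ : N ≤ χ.ker) (m : ℕ) :
    finrank (ZMod p) (∀ v, H2 (𝓛v v) (resRep (genRep (ZMod p) N m) (r v))) ≤
      m + finrank (ZMod p) (LinearMap.range (loc2 D.hr (genRep (ZMod p) N m))) := by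
  have hfin := finite_quotient_of_mem hN
  have hsm : Smooth 𝓛 (genRep (ZMod p) N m) := smooth_mapRep smooth_trivial (smoothSet_GSet hN _)
  have hft : ∀ v, FiniteDimensional (ZMod p) (H2 (𝓛v v) (resRep (genRep (ZMod p) N m) (r v))) :=
    fun v => ((D.loc v).ecg.fin2 _ (hsm.res (D.hr v))).h2
  let T := ∀ v, H2 (𝓛v v) (resRep (genRep (ZMod p) N m) (r v))
  have hfT : FiniteDimensional (ZMod p) T := inferInstanceAs (FiniteDimensional (ZMod p)
    (∀ v, H2 (𝓛v v) (resRep (genRep (ZMod p) N m) (r v))))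
  let R : Submodule (ZMod p) T := LinearMap.range (loc2 D.hr (genRep (ZMod p) N m))
  obtain ⟨t0, ht0⟩ := D.exists_gen hN hNχ
  let w : Fin m → T ⧸ R := fun j => R.mkQ (mapP2 𝓛v r (compat_incl (p := p) N j) t0)
  have hspan : Submodule.span (ZMod p) (Set.range w) = ⊤ := by
    rw [eq_top_iff]
    rintro q -
    obtain ⟨z, rfl⟩ := R.mkQ_surjective q
    have h1 : R.mkQ z = ∑ j, R.mkQ (mapP2 𝓛v r (compat_incl (p := p) N j)
        (mapP2 𝓛v r (compat_prj (p := p) N j) z)) := by
      rw [← map_sum, ← sum_mapP2 (𝓛v := 𝓛v) (r := r) N z]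
    rw [h1]
    refine Submodule.sum_mem _ fun j _ => ?_
    obtain ⟨a, y, hy⟩ := ht0 (mapP2 𝓛v r (compat_prj (p := p) N j) z)
    have h2 : R.mkQ (mapP2 𝓛v r (compat_incl (p := p) N j)
        (mapP2 𝓛v r (compat_prj (p := p) N j) z)) = a • w j := by
      rw [← sub_eq_zero, ← map_smul, ← map_sub, ← map_smul, ← map_sub, ← hy]
      refine (Submodule.Quotient.mk_eq_zero R).2 ?_
      exact ⟨_, (mapP2_loc2 (𝓛v := 𝓛v) D.hr (compat_incl (p := p) N j) y).symm⟩
    rw [h2]
    exact Submodule.smul_mem _ _ (Submodule.subset_span ⟨j, rfl⟩)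
  have h2 : finrank (ZMod p) (T ⧸ R) ≤ m := by
    have h3 := finrank_range_le_card (R := ZMod p) w
    rw [Set.finrank, hspan, finrank_top, Fintype.card_fin] at h3
    exact h3
  have h3 := Submodule.finrank_quotient_add_finrank R
  have h4 : finrank (ZMod p) R = finrank (ZMod p)
    (LinearMap.range (loc2 D.hr (genRep (ZMod p) N m))) := rfl
  have h5 : finrank (ZMod p) T = finrank (ZMod p)
    (∀ v, H2 (𝓛v v) (resRep (genRep (ZMod p) N m) (r v))) := rfl
  omega

/-- Poitou-Tate data -/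
def ptData : PTData p 𝓛 𝓛v r χ (-1/2) cv where
  hr := D.hr
  ecg := D.ecg
  loc := D.loc
  v0 := D.v0
  recip := D.recip
  t1_le _ hN _ hNχ m := D.t1_le hN hNχ m

end PreData

end Fermat.Agent.CFT
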