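import Fermat.Agent.CFT.Symbol

/-!
# Transport of low degree cohomology along isomorphisms of groups with levels
-/

set_option autoImplicit false

namespace Fermat.Agent.CFT

variable {G G' : Type*} [Group G] [Group G'] {𝓛 : Levels G} {𝓛' : Levels G'}

/-- `e` is an isomorphism of groups with level structures -/
def Levels.Homeo (𝓛' : Levels G') (𝓛 : Levels G) (e : G' ≃* G) : Prop :=
  ∀ H : Subgroup G, H ∈ 𝓛 ↔ H.comap (e : G' →* G) ∈ 𝓛'

namespace Levels.Homeo

variable {e : G' ≃* G} (he : Levels.Homeo 𝓛' 𝓛 e)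

include he

lemma cont : Levels.Cont 𝓛' 𝓛 (e : G' →* G) := fun H hH => (he H).1 hH

lemma cont_symm : Levels.Cont 𝓛 𝓛' (e.symm : G →* G') := fun H hH => by
  rw [he, Subgroup.comap_comap]
  convert hH using 1
  ext g
  simp

lemma symm : Levels.Homeo 𝓛 𝓛' e.symm := fun H => by
  rw [he (H.comap (e.symm : G →* G')), Subgroup.comap_comap]
  have : H.comap ((e.symm : G →* G').comp (e : G' →* G)) = H := by ext g; simp
  rw [this]

lemma LC_iff {X : Type*} {f : G → X} : 𝓛'.LC (fun g => f (e g)) ↔ 𝓛.LC f := by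
  constructor
  · intro h
    have := h.precomp he.cont_symm
    simpa using this
  · intro h
    exact h.precomp he.cont

section Triv

variable {k : Type*} [CommRing k] {V : Type*} [AddCommGroup V] [Module k V]
  {ρ : Representation k G V} {ρ' : Representation k G' V}

omit he in
lemma compat (hρ : ∀ g v, ρ (e g) v = ρ' g v) :
    Compat ρ ρ' (e : G' →* G) (LinearMap.id : V →ₗ[k] V) := fun g v => hρ g v

omit he in
lemma compat_symm (hρ : ∀ g v, ρ (e g) v = ρ' g v) :
    Compat ρ' ρ (e.symm : G →* G') (LinearMap.id : V →ₗ[k] V) := fun g v => by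
  have h := hρ (e.symm g) v
  rw [e.apply_symm_apply] at h
  exact h.symm

lemma mem_B2_iff (hρ : ∀ g v, ρ (e g) v = ρ' g v) {f : G → G → V} :
    f ∈ B2 𝓛 ρ ↔ (fun g h => f (e g) (e h)) ∈ B2 𝓛' ρ' := by
  constructor
  · intro h
    exact pp2_mem_B2 (f := (e : G' →* G)) he.cont (compat hρ) h
  · intro h
    have h1 := pp2_mem_B2 he.cont_symm (compat_symm hρ) h
    convert h1 using 1
    ext g h
    simp

lemma mem_Z2_iff (hρ : ∀ g v, ρ (e g) v = ρ' g v) {f : G → G → V} :
    f ∈ Z2 𝓛 ρ ↔ (fun g h => f (e g) (e h)) ∈ Z2 𝓛' ρ' := by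
  constructor
  · intro h
    exact pp2_mem_Z2 (f := (e : G' →* G)) he.cont (compat hρ) h
  · intro h
    have h1 := pp2_mem_Z2 he.cont_symm (compat_symm hρ) h
    convert h1 using 1
    ext g h
    simp

/-- transport of `H²` -/
noncomputable def H2Equiv (hρ : ∀ g v, ρ (e g) v = ρ' g v) : H2 𝓛 ρ ≃ₗ[k] H2 𝓛' ρ' :=
  LinearEquiv.ofLinearMap
    (H2.map 𝓛 𝓛' ρ ρ' (e : G' →* G) LinearMap.id he.cont (compat hρ))
    (H2.map 𝓛' 𝓛 ρ' ρ (e.symm : G →* G') LinearMap.id he.cont_symm (compat_symm hρ))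
    (by
      apply LinearMap.ext
      intro x
      obtain ⟨x, rfl⟩ := H2.mk_surjective _ _ x
      rw [LinearMap.comp_apply, H2.map_mk, H2.map_mk, LinearMap.id_apply]
      congr 1
      apply Subtype.ext
      ext g h
      simp)
    (by
      apply LinearMap.ext
      intro x
      obtain ⟨x, rfl⟩ := H2.mk_surjective _ _ x
      rw [LinearMap.comp_apply, H2.map_mk, H2.map_mk, LinearMap.id_apply]
      congr 1
      apply Subtype.ext
      ext g h
      simp)

lemma H2Equiv_mk (hρ : ∀ g v, ρ (e g) v = ρ' g v) (x : ↥(Z2 𝓛 ρ)) :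
    he.H2Equiv hρ (H2.mk 𝓛 ρ x) =
      H2.mk 𝓛' ρ' ⟨fun g h => (x : G → G → V) (e g) (e h), (he.mem_Z2_iff hρ).1 x.2⟩ := rfl

end Triv

end Levels.Homeo

end Fermat.Agent.CFT
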