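import Fermat.Agent.CFT.Herbrand

set_option linter.unusedSectionVars false
set_option linter.unusedVariables false
set_option linter.style.haveILetI false

/-!
# Chevalley's formula for Herbrand quotients of finitely generated abelian groups
-/

namespace Fermat.Agent.CFT

open Function

section Free

/-- `F / nF` has `n ^ r` elements for `F` free of rank `r`. -/
theorem index_nsmul_free {F : Type*} [AddCommGroup F] [Module.Free ℤ F] [Module.Finite ℤ F]
    (n : ℕ) (hn : n ≠ 0) :
    (nsmulAddMonoidHom n : F →+ F).range.index = n ^ Module.finrank ℤ F := by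
  haveI : NeZero n := ⟨hn⟩
  let b := Module.finBasis ℤ F
  let r := Module.finrank ℤ F
  let φ : F →+ (Fin r → ZMod n) :=
    { toFun := fun x i => ((b.repr x i : ℤ) : ZMod n)
      map_zero' := by ext i; simp
      map_add' := fun x y => by ext i; simp }
  have hsurj : Function.Surjective φ := by
    intro y
    refine ⟨b.repr.symm (Finsupp.equivFunOnFinite.symm (fun i => ((y i).val : ℤ))), ?_⟩
    ext i
    simp [φ]
  have hker : φ.ker = (nsmulAddMonoidHom n : F →+ F).range := by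
    ext x
    rw [AddMonoidHom.mem_ker, AddMonoidHom.mem_range]
    constructor
    · intro h
      have h1 : ∀ i, ∃ c : ℤ, b.repr x i = n * c := by
        intro i
        have h2 := congrFun h i
        change ((b.repr x i : ℤ) : ZMod n) = 0 at h2
        rw [ZMod.intCast_zmod_eq_zero_iff_dvd] at h2
        exact h2
      choose c hc using h1
      refine ⟨b.repr.symm (Finsupp.equivFunOnFinite.symm c), ?_⟩
      rw [nsmulAddMonoidHom_apply]
      apply b.repr.injective
      ext i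
      rw [map_nsmul]
      simp [hc]
    · rintro ⟨y, rfl⟩
      ext i
      rw [nsmulAddMonoidHom_apply]
      change ((b.repr (n • y) i : ℤ) : ZMod n) = 0
      rw [map_nsmul]
      simp
  rw [← hker, AddSubgroup.index_ker, AddMonoidHom.range_eq_top.mpr hsurj]
  simp [r]

end Free

section FG

variable {A : Type*} [AddCommGroup A]

theorem card_HH_zero_left (g : A →+ A) : Nat.card (HH 0 g) = g.range.index := by
  rw [AddSubgroup.index]
  refine Nat.card_congr (QuotientAddGroup.congr _ _ (AddEquiv.mk' (Equiv.subtypeUnivEquiv (fun x => ?_)) ?_) ?_).toEquiv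
  · exact AddMonoidHom.zero_apply x
  · intro x y; rfl
  · ext x
    simp only [AddSubgroup.mem_map, AddSubgroup.mem_addSubgroupOf, AddMonoidHom.mem_range]
    constructor
    · rintro ⟨⟨y, hy⟩, ⟨z, hz⟩, rfl⟩
      exact ⟨z, hz⟩
    · rintro ⟨z, rfl⟩
      exact ⟨⟨g z, AddMonoidHom.zero_apply _⟩, ⟨z, rfl⟩, rfl⟩

theorem card_HH_zero_right (f : A →+ A) : Nat.card (HH f 0) = Nat.card f.ker := by
  have := card_HH_mul f 0 (fun x => by simp)
  rw [← this]
  have h : (0 : A →+ A).range = ⊥ := by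
    ext x; simp
  rw [h]
  simp

/-- operators `0` and `n` on a quotient sequence. -/
def sesNsmul (T : AddSubgroup A) (n : ℕ) : HSES T A (A ⧸ T) 0 (nsmulAddMonoidHom n)
    0 (nsmulAddMonoidHom n) 0 (nsmulAddMonoidHom n) where
  i := T.subtype
  j := QuotientAddGroup.mk' T
  inj := T.subtype_injective
  surj := QuotientAddGroup.mk'_surjective T
  exact := fun b => by
    rw [QuotientAddGroup.mk'_apply, QuotientAddGroup.eq_zero_iff]
    exact ⟨fun h => ⟨⟨b, h⟩, rfl⟩, by rintro ⟨a, rfl⟩; exact a.2⟩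
  if_ := fun x => rfl
  ig := fun x => rfl
  jf := fun x => rfl
  jg := fun x => rfl
  fgA := fun x => rfl
  gfA := fun x => by simp
  fgB := fun x => rfl
  gfB := fun x => by simp
  fgC := fun x => rfl
  gfC := fun x => by simp

/-- `|A/nA| = n^rk |A[n]|`. -/
theorem index_nsmul [Module.Finite ℤ A] (n : ℕ) (hn : n ≠ 0) :
    (nsmulAddMonoidHom n : A →+ A).range.index =
      n ^ Module.finrank ℤ A * Nat.card (nsmulAddMonoidHom n : A →+ A).ker := by
  let T : Submodule ℤ A := Submodule.torsion ℤ A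
  let T' : AddSubgroup A := T.toAddSubgroup
  haveI hTfin : Finite T' := Module.finite_of_fg_torsion T (Submodule.torsion_isTorsion)
  haveI hfree : Module.Free ℤ (A ⧸ T) := Module.free_of_finite_type_torsion_free'
  have h2 : Nat.card (HH (0 : T' →+ T') (nsmulAddMonoidHom n)) = Nat.card (HH (nsmulAddMonoidHom n : T' →+ T') 0) :=
    card_HH_eq_of_finite _ _ (fun x => rfl) (fun x => by simp)
  have h1 := (sesNsmul T' n).card_mul
  rw [h2, card_HH_zero_left, card_HH_zero_left, card_HH_zero_right,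
    card_HH_zero_right, card_HH_zero_right] at h1
  have h3 : (nsmulAddMonoidHom n : A ⧸ T' →+ A ⧸ T').range.index = n ^ Module.finrank ℤ (A ⧸ T) :=
    index_nsmul_free (F := A ⧸ T) n hn
  have h4 : Nat.card (nsmulAddMonoidHom n : A ⧸ T' →+ A ⧸ T').ker = 1 := by
    have : (nsmulAddMonoidHom n : A ⧸ T' →+ A ⧸ T').ker = ⊥ := by
      rw [eq_bot_iff]
      intro x hx
      rw [AddMonoidHom.mem_ker, nsmulAddMonoidHom_apply] at hx
      have h5 : (n : ℤ) • (x : A ⧸ T) = 0 := by
        rw [natCast_zsmul]; exact hx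
      rw [AddSubgroup.mem_bot]
      exact ((smul_eq_zero (R := ℤ) (M := A ⧸ T)).mp h5).resolve_left (by exact_mod_cast hn)
    rw [this]
    simp
  have h5 : Module.finrank ℤ (A ⧸ T) = Module.finrank ℤ A := by
    have h6 := Submodule.finrank_quotient_add_finrank T
    have h7 : Module.finrank ℤ T = 0 := by
      rw [Module.finrank_eq_zero_iff_isTorsion]
      exact Submodule.torsion_isTorsion
    omega
  have h6 : 0 < Nat.card (nsmulAddMonoidHom n : T' →+ T').ker := Nat.card_pos
  rw [h3, h4, h5, mul_one] at h1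
  have h7 : Nat.card (nsmulAddMonoidHom n : T' →+ T').ker * (n ^ Module.finrank ℤ A *
      Nat.card (nsmulAddMonoidHom n : A →+ A).ker) =
      Nat.card (nsmulAddMonoidHom n : T' →+ T').ker * (nsmulAddMonoidHom n : A →+ A).range.index := by
    rw [← mul_assoc, h1, mul_comm]
  exact (Nat.eq_of_mul_eq_mul_left h6 h7).symm

theorem finite_ker_nsmul [Module.Finite ℤ A] (n : ℕ) (hn : n ≠ 0) :
    Finite (nsmulAddMonoidHom n : A →+ A).ker := by
  let T : Submodule ℤ A := Submodule.torsion ℤ A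
  haveI hTfin : Finite T := Module.finite_of_fg_torsion T (Submodule.torsion_isTorsion)
  refine Finite.of_injective (β := T) (fun x => ⟨x.1, ?_⟩) ?_
  · rw [Submodule.mem_torsion_iff]
    refine ⟨⟨(n : ℤ), by simpa using hn⟩, ?_⟩
    have := x.2
    rw [AddMonoidHom.mem_ker, nsmulAddMonoidHom_apply] at this
    change (n : ℤ) • (x : A) = 0
    rw [natCast_zsmul]
    exact this
  · intro x y hxy
    exact Subtype.ext (congrArg (fun z : T => (z : A)) hxy)

theorem index_nsmul_ne_zero [Module.Finite ℤ A] (n : ℕ) (hn : n ≠ 0) :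
    (nsmulAddMonoidHom n : A →+ A).range.index ≠ 0 := by
  haveI := finite_ker_nsmul (A := A) n hn
  rw [index_nsmul n hn]
  have h6 : 0 < Nat.card (nsmulAddMonoidHom n : A →+ A).ker := Nat.card_pos
  positivity

end FG

section Comp

variable {B : Type*} [AddCommGroup B]

/-- multiplicativity of (cokernel)/(kernel). -/
theorem index_comp_mul (u v : B →+ B) (hu : Finite u.ker) (hv : v.range.index ≠ 0) :
    (u.comp v).range.index * Nat.card u.ker * Nat.card v.ker =
      u.range.index * v.range.index * Nat.card (u.comp v).ker := by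
  have h1 : (u.comp v).range = v.range.map u := by
    ext x
    simp only [AddMonoidHom.mem_range, AddSubgroup.mem_map, AddMonoidHom.comp_apply]
    constructor
    · rintro ⟨y, rfl⟩; exact ⟨v y, ⟨y, rfl⟩, rfl⟩
    · rintro ⟨_, ⟨y, rfl⟩, rfl⟩; exact ⟨y, rfl⟩
  have h2 : (v.range.map u).index = (v.range ⊔ u.ker).index * u.range.index :=
    AddSubgroup.index_map v.range u
  have h3 : v.range.relIndex (v.range ⊔ u.ker) * (v.range ⊔ u.ker).index = v.range.index :=
    AddSubgroup.relIndex_mul_index le_sup_left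
  have h4 : v.range.relIndex (v.range ⊔ u.ker) = v.range.relIndex u.ker := by
    rw [sup_comm, AddSubgroup.relIndex_sup_right]
  have h5 : v.range.relIndex u.ker * Nat.card (v.range.addSubgroupOf u.ker) = Nat.card u.ker := by
    rw [mul_comm]
    exact AddSubgroup.card_mul_index _
  -- the kernel
  let w : (u.comp v).ker →+ u.ker := (v.comp (u.comp v).ker.subtype).codRestrict u.ker (fun x => x.2)
  have h6 := card_eq_ker_mul_range w
  have h7 : Nat.card w.ker = Nat.card v.ker := by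
    refine Nat.card_congr ⟨fun x => ⟨x.1.1, congrArg Subtype.val x.2⟩,
      fun x => ⟨⟨x.1, by
        rw [AddMonoidHom.mem_ker, AddMonoidHom.comp_apply, (AddMonoidHom.mem_ker.mp x.2), map_zero]⟩,
        Subtype.ext x.2⟩, fun x => rfl, fun x => rfl⟩
  have h8 : w.range = v.range.addSubgroupOf u.ker := by
    ext x
    rw [AddSubgroup.mem_addSubgroupOf, AddMonoidHom.mem_range, AddMonoidHom.mem_range]
    constructor
    · rintro ⟨y, rfl⟩; exact ⟨y.1, rfl⟩
    · rintro ⟨y, hy⟩
      exact ⟨⟨y, by rw [AddMonoidHom.mem_ker, AddMonoidHom.comp_apply, hy]; exact x.2⟩,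
        Subtype.ext hy⟩
  rw [h1, h2, h6, h7, h8, ← h3, h4, ← h5]
  ring

end Comp

section Poly

open Polynomial

theorem exists_poly_identity (p : ℕ) [hp : Fact p.Prime] :
    ∃ r : ℤ[X], ∏ k ∈ Finset.range (p - 1), (1 - X ^ (k + 1)) =
      C (p : ℤ) + (∑ i ∈ Finset.range p, X ^ i) * r := by
  obtain ⟨m, rfl⟩ : ∃ m, p = m + 1 := Nat.exists_eq_succ_of_ne_zero hp.out.ne_zero
  obtain ⟨ζ, hζ⟩ : ∃ ζ : ℂ, IsPrimitiveRoot ζ (m + 1) :=
    ⟨_, Complex.isPrimitiveRoot_exp (m + 1) hp.out.ne_zero⟩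
  rw [Nat.add_sub_cancel]
  have h1 : minpoly ℤ ζ ∣ (∏ k ∈ Finset.range m, (1 - X ^ (k + 1)) - C ((m + 1 : ℕ) : ℤ)) := by
    apply minpoly.isIntegrallyClosed_dvd (hζ.isIntegral hp.out.pos)
    simp only [map_sub, map_prod, map_one, map_pow, aeval_X, aeval_C]
    rw [hζ.prod_one_sub_pow_eq_order]
    simp
  rw [← cyclotomic_eq_minpoly hζ hp.out.pos, cyclotomic_prime] at h1
  obtain ⟨r, hr⟩ := h1
  exact ⟨r, by rw [← hr]; ring⟩

end Poly

section NoNorm

open Polynomial

variable {B : Type*} [AddCommGroup B]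

/-- shorthand: additive endomorphism underlying a linear one. -/
abbrev lin (u : Module.End ℤ B) : B →+ B := u.toAddMonoidHom

theorem lin_mul (u v : Module.End ℤ B) : lin (u * v) = (lin u).comp (lin v) := rfl

theorem ker_comp_finite {u v : B →+ B} (hu : Finite u.ker) (hv : Finite v.ker) :
    Finite (u.comp v).ker := by
  let w : (u.comp v).ker →+ u.ker := (v.comp (u.comp v).ker.subtype).codRestrict u.ker (fun x => x.2)
  haveI h1 : Finite w.ker := by
    refine Finite.of_injective (β := v.ker) (fun x => ⟨x.1.1, congrArg Subtype.val x.2⟩) ?_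
    intro x y hxy
    exact Subtype.ext (Subtype.ext (congrArg (fun z : v.ker => (z : B)) hxy))
  haveI h2 : Finite w.range := Finite.of_injective _ w.range.subtype_injective
  haveI : Finite ((u.comp v).ker ⧸ w.ker) :=
    Finite.of_equiv _ (QuotientAddGroup.quotientKerEquivRange w).toEquiv.symm
  exact Finite.of_addSubgroup_quotient w.ker

theorem index_comp_ne_zero {u v : B →+ B} (hu : u.range.index ≠ 0) (hv : v.range.index ≠ 0) :
    (u.comp v).range.index ≠ 0 := by
  have h1 : (u.comp v).range = v.range.map u := by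
    ext x
    simp only [AddMonoidHom.mem_range, AddSubgroup.mem_map, AddMonoidHom.comp_apply]
    constructor
    · rintro ⟨y, rfl⟩; exact ⟨v y, ⟨y, rfl⟩, rfl⟩
    · rintro ⟨_, ⟨y, rfl⟩, rfl⟩; exact ⟨y, rfl⟩
  rw [h1, AddSubgroup.index_map]
  refine mul_ne_zero (fun h => hv ?_) hu
  have h2 : (v.range ⊔ u.ker).index ∣ v.range.index := AddSubgroup.index_dvd_of_le le_sup_left
  rw [h] at h2
  exact zero_dvd_iff.mp h2

theorem ker_le_of_mul {u v w : Module.End ℤ B} (h : u = w * v) : (lin v).ker ≤ (lin u).ker := by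
  intro x hx
  rw [AddMonoidHom.mem_ker] at hx ⊢
  change v x = 0 at hx
  change u x = 0
  rw [h, Module.End.mul_apply, hx, map_zero]

theorem range_le_of_mul {u v w : Module.End ℤ B} (h : u = v * w) : (lin u).range ≤ (lin v).range := by
  rintro _ ⟨x, rfl⟩
  exact ⟨w x, by rw [h]; rfl⟩

variable (p : ℕ) [hp : Fact p.Prime] (s : Module.End ℤ B)

theorem pow_eq_one_of_norm (hN : ∑ i ∈ Finset.range p, s ^ i = 0) : s ^ p = 1 := by
  have := mul_geom_sum s p
  rw [hN, mul_zero, eq_comm, sub_eq_zero] at this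
  exact this

theorem ker_range_one_sub_pow (hs : s ^ p = 1) {k : ℕ} (hk : k < p - 1) :
    (lin (1 - s ^ (k + 1))).ker = (lin (1 - s)).ker ∧
      (lin (1 - s ^ (k + 1))).range = (lin (1 - s)).range := by
  have h1 : 1 - s ^ (k + 1) = (1 - s) * ∑ j ∈ Finset.range (k + 1), s ^ j :=
    (mul_neg_geom_sum s (k + 1)).symm
  have h1' : 1 - s ^ (k + 1) = (∑ j ∈ Finset.range (k + 1), s ^ j) * (1 - s) :=
    (geom_sum_mul_neg s (k + 1)).symm
  obtain ⟨m, hm⟩ : ∃ m : ℕ, s ^ ((k + 1) * m) = s := by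
    have hcop : Nat.Coprime (k + 1) p := by
      rw [Nat.coprime_comm, Nat.Prime.coprime_iff_not_dvd hp.out]
      intro hd
      have := Nat.le_of_dvd (Nat.succ_pos k) hd
      omega
    obtain ⟨m, -, hm⟩ := Nat.exists_mul_mod_eq_one_of_coprime hcop hp.out.one_lt
    refine ⟨m, ?_⟩
    rw [← Nat.div_add_mod ((k + 1) * m) p, hm, pow_add, pow_mul, hs, one_pow, one_mul, pow_one]
  have h2 : 1 - s = (1 - s ^ (k + 1)) * ∑ j ∈ Finset.range m, (s ^ (k + 1)) ^ j := by
    rw [mul_neg_geom_sum, ← pow_mul, hm]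
  have h2' : 1 - s = (∑ j ∈ Finset.range m, (s ^ (k + 1)) ^ j) * (1 - s ^ (k + 1)) := by
    rw [geom_sum_mul_neg, ← pow_mul, hm]
  exact ⟨le_antisymm (ker_le_of_mul h2') (ker_le_of_mul h1'),
    le_antisymm (range_le_of_mul h1) (range_le_of_mul h2)⟩

theorem prod_bound (hs : s ^ p = 1) (hK : Finite (lin (1 - s)).ker)
    (hr : (lin (1 - s)).range.index ≠ 0) (t : Finset ℕ) (ht : ∀ k ∈ t, k < p - 1) :
    Finite (lin (aeval s (∏ k ∈ t, (1 - X ^ (k + 1) : ℤ[X])))).ker ∧
    (lin (aeval s (∏ k ∈ t, (1 - X ^ (k + 1) : ℤ[X])))).range.index ≠ 0 ∧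
    (lin (aeval s (∏ k ∈ t, (1 - X ^ (k + 1) : ℤ[X])))).range.index *
        Nat.card (lin (1 - s)).ker ^ t.card =
      (lin (1 - s)).range.index ^ t.card *
        Nat.card (lin (aeval s (∏ k ∈ t, (1 - X ^ (k + 1) : ℤ[X])))).ker := by
  classical
  induction t using Finset.induction_on with
  | empty =>
    have hker : (lin (1 : Module.End ℤ B)).ker = ⊥ := by
      ext x; exact Iff.rfl
    have hrange : (lin (1 : Module.End ℤ B)).range = ⊤ := by
      ext x; exact ⟨fun _ => trivial, fun _ => ⟨x, rfl⟩⟩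
    rw [Finset.prod_empty, map_one, hker, hrange]
    refine ⟨inferInstance, by simp, by simp⟩
  | insert a t ha ih =>
    obtain ⟨ih1, ih2, ih3⟩ := ih (fun k hk => ht k (Finset.mem_insert_of_mem hk))
    obtain ⟨k1, k2⟩ := ker_range_one_sub_pow p s hs (ht a (Finset.mem_insert_self a t))
    have hprod : aeval s (∏ k ∈ insert a t, (1 - X ^ (k + 1) : ℤ[X])) =
        (1 - s ^ (a + 1)) * aeval s (∏ k ∈ t, (1 - X ^ (k + 1) : ℤ[X])) := by
      rw [Finset.prod_insert ha, map_mul]
      simp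
    rw [hprod, lin_mul]
    set v := lin (aeval s (∏ k ∈ t, (1 - X ^ (k + 1) : ℤ[X]))) with hv
    set u := lin (1 - s ^ (a + 1)) with hu
    have hufin : Finite u.ker := by rw [k1]; exact hK
    have hur : u.range.index ≠ 0 := by rw [k2]; exact hr
    refine ⟨ker_comp_finite hufin ih1, index_comp_ne_zero hur ih2, ?_⟩
    have h1 := index_comp_mul u v hufin ih2
    rw [k1, k2] at h1
    have hpos : 0 < Nat.card v.ker := Nat.card_pos
    rw [Finset.card_insert_of_notMem ha]
    apply Nat.eq_of_mul_eq_mul_right hpos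
    calc _ = ((u.comp v).range.index * Nat.card (lin (1 - s)).ker * Nat.card v.ker) *
          Nat.card (lin (1 - s)).ker ^ t.card := by ring
      _ = ((lin (1 - s)).range.index * Nat.card (u.comp v).ker) *
          (v.range.index * Nat.card (lin (1 - s)).ker ^ t.card) := by rw [h1]; ring
      _ = _ := by rw [ih3]; ring

/-- If the norm of `s` vanishes, `(|B/(1-s)| / |B^s|)^(p-1) = |B/p| / |B[p]|`. -/
theorem norm_zero_formula_gen (hfp : Finite (nsmulAddMonoidHom p : B →+ B).ker)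
    (hip : (nsmulAddMonoidHom p : B →+ B).range.index ≠ 0)
    (hN : ∑ i ∈ Finset.range p, s ^ i = 0) :
    Finite (lin (1 - s)).ker ∧ (lin (1 - s)).range.index ≠ 0 ∧
    (lin (1 - s)).range.index ^ (p - 1) * Nat.card (nsmulAddMonoidHom p : B →+ B).ker =
      (nsmulAddMonoidHom p : B →+ B).range.index * Nat.card (lin (1 - s)).ker ^ (p - 1) := by
  have hs := pow_eq_one_of_norm p s hN
  obtain ⟨r, hr⟩ := exists_poly_identity p
  have h1 : aeval s (∏ k ∈ Finset.range (p - 1), (1 - X ^ (k + 1) : ℤ[X])) =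
      (p : Module.End ℤ B) := by
    rw [hr]
    simp [hN]
  have h2 : lin (p : Module.End ℤ B) = nsmulAddMonoidHom p := by
    ext x
    change ((p : Module.End ℤ B) : B →ₗ[ℤ] B) x = p • x
    exact Module.End.natCast_apply p x
  have hp1 : 0 < p - 1 := Nat.sub_pos_of_lt hp.out.one_lt
  have h3 : (∏ k ∈ Finset.range (p - 1), (1 - X ^ (k + 1) : ℤ[X])) =
      (1 - X) * ∏ k ∈ Finset.range (p - 1 - 1), (1 - X ^ (k + 1 + 1) : ℤ[X]) := by
    obtain ⟨m, hm⟩ : ∃ m, p - 1 = m + 1 := Nat.exists_eq_succ_of_ne_zero hp1.ne'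
    rw [hm, Finset.prod_range_succ']
    simp [mul_comm]
  set Q : Module.End ℤ B := aeval s (∏ k ∈ Finset.range (p - 1 - 1), (1 - X ^ (k + 1 + 1) : ℤ[X]))
    with hQ
  have h4 : (p : Module.End ℤ B) = (1 - s) * Q := by
    rw [← h1, h3, map_mul]
    simp [hQ]
  have h4' : (p : Module.End ℤ B) = Q * (1 - s) := by
    rw [← h1, h3, mul_comm, map_mul]
    simp [hQ]
  have hKfin : Finite (lin (1 - s)).ker := by
    have h5 := ker_le_of_mul h4'
    rw [h2] at h5
    exact Finite.of_injective _ (AddSubgroup.inclusion_injective h5)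
  have hrne : (lin (1 - s)).range.index ≠ 0 := by
    have h5 := range_le_of_mul h4
    rw [h2] at h5
    intro h6
    have h7 := AddSubgroup.index_dvd_of_le h5
    rw [h6, zero_dvd_iff] at h7
    exact hip h7
  refine ⟨hKfin, hrne, ?_⟩
  obtain ⟨-, -, h5⟩ := prod_bound p s hs hKfin hrne (Finset.range (p - 1))
    (fun k hk => Finset.mem_range.mp hk)
  rw [h1, h2, Finset.card_range] at h5
  exact h5.symm

end NoNorm

section Chevalley

variable {A : Type*} [AddCommGroup A] (p : ℕ) [hp : Fact p.Prime]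
  (σ : Module.End ℤ A) (hσ : σ ^ p = 1)

/-- the norm endomorphism -/
noncomputable abbrev nrm (p : ℕ) (σ : Module.End ℤ A) : Module.End ℤ A :=
  ∑ i ∈ Finset.range p, σ ^ i

include hσ in
theorem one_sub_mul_nrm : (1 - σ) * nrm p σ = 0 := by
  rw [mul_neg_geom_sum, hσ, sub_self]

include hσ in
theorem nrm_mul_one_sub : nrm p σ * (1 - σ) = 0 := by
  rw [geom_sum_mul_neg, hσ, sub_self]

theorem nrm_apply (x : A) : nrm p σ x = ∑ i ∈ Finset.range p, (σ ^ i) x := by
  simp [nrm, LinearMap.sum_apply]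

/-- the invariants -/
abbrev inv (σ : Module.End ℤ A) : Submodule ℤ A := LinearMap.ker (1 - σ)

theorem mem_inv_iff {x : A} : x ∈ inv σ ↔ σ x = x := by
  rw [LinearMap.mem_ker, LinearMap.sub_apply, Module.End.one_apply, sub_eq_zero, eq_comm]

theorem pow_apply_of_mem_inv {x : A} (hx : x ∈ inv σ) (i : ℕ) : (σ ^ i) x = x := by
  rw [mem_inv_iff] at hx
  induction i with
  | zero => simp
  | succ i ih => rw [pow_succ, Module.End.mul_apply, hx, ih]

/-- the induced endomorphism of `A / A^σ`. -/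
def quotEnd : Module.End ℤ (A ⧸ inv σ) :=
  (inv σ).mapQ (inv σ) σ (fun x hx => by
    rw [Submodule.mem_comap]
    rw [mem_inv_iff] at hx ⊢
    rw [hx, hx])

theorem quotEnd_mk (x : A) : quotEnd σ (Submodule.Quotient.mk x) = Submodule.Quotient.mk (σ x) := rfl

theorem quotEnd_pow_mk (i : ℕ) (x : A) :
    (quotEnd σ ^ i) (Submodule.Quotient.mk x) = Submodule.Quotient.mk ((σ ^ i) x) := by
  induction i generalizing x with
  | zero => rfl
  | succ i ih => rw [pow_succ, Module.End.mul_apply, quotEnd_mk, ih, pow_succ, Module.End.mul_apply]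

include hσ in
theorem nrm_mem_inv (x : A) : nrm p σ x ∈ inv σ := by
  rw [LinearMap.mem_ker, ← Module.End.mul_apply, one_sub_mul_nrm p σ hσ, LinearMap.zero_apply]

include hσ in
theorem sum_quotEnd_pow : ∑ i ∈ Finset.range p, quotEnd σ ^ i = 0 := by
  apply LinearMap.ext
  intro y
  obtain ⟨x, rfl⟩ := Submodule.Quotient.mk_surjective _ y
  rw [LinearMap.sum_apply, LinearMap.zero_apply]
  simp only [quotEnd_pow_mk]
  have h1 : ∑ i ∈ Finset.range p, (Submodule.Quotient.mk ((σ ^ i) x) : A ⧸ inv σ) =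
      Submodule.Quotient.mk (nrm p σ x) := by
    rw [nrm_apply]
    exact (map_sum (Submodule.mkQ (inv σ)) _ _).symm
  rw [h1, Submodule.Quotient.mk_eq_zero]
  exact nrm_mem_inv p σ hσ x

/-- the basic exact sequence -/
def sesInv : HSES (inv σ) A (A ⧸ inv σ) 0 (nsmulAddMonoidHom p)
    (lin (1 - σ)) (lin (nrm p σ)) (lin (1 - quotEnd σ)) 0 where
  i := (inv σ).subtype.toAddMonoidHom
  j := (inv σ).mkQ.toAddMonoidHom
  inj := (inv σ).subtype_injective
  surj := (inv σ).mkQ_surjective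
  exact := fun b => by
    change (inv σ).mkQ b = 0 ↔ _
    rw [Submodule.mkQ_apply, Submodule.Quotient.mk_eq_zero]
    exact ⟨fun h => ⟨⟨b, h⟩, rfl⟩, by rintro ⟨a, rfl⟩; exact a.2⟩
  if_ := fun x => (LinearMap.mem_ker.mp x.2).symm
  ig := fun x => by
    change ((p • x : inv σ) : A) = nrm p σ (x : A)
    rw [nrm_apply]
    simp only [pow_apply_of_mem_inv σ x.2]
    simp
  jf := fun x => rfl
  jg := fun x => by
    change (inv σ).mkQ (nrm p σ x) = 0
    rw [Submodule.mkQ_apply, Submodule.Quotient.mk_eq_zero]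
    exact nrm_mem_inv p σ hσ x
  fgA := fun x => rfl
  gfA := fun x => by simp
  fgB := fun x => by
    change ((1 - σ) * nrm p σ) x = 0
    rw [one_sub_mul_nrm p σ hσ, LinearMap.zero_apply]
  gfB := fun x => by
    change (nrm p σ * (1 - σ)) x = 0
    rw [nrm_mul_one_sub p σ hσ, LinearMap.zero_apply]
  fgC := fun x => by simp
  gfC := fun x => rfl

include hσ in
/-- **Tate's lemma**: for an abelian group `A` with `A/pA` and `A[p]` finite and an automorphism
`σ` of prime order `p`: `|Ĥ⁰|^(p-1) |A^σ[p]|^p |A/p| = |H¹|^(p-1) |A^σ/p|^p |A[p]|`. -/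
theorem tate_lemma (hfp : Finite (nsmulAddMonoidHom p : A →+ A).ker)
    (hip : (nsmulAddMonoidHom p : A →+ A).range.index ≠ 0) :
    Finite (HH (lin (1 - σ)) (lin (nrm p σ))) ∧ Finite (HH (lin (nrm p σ)) (lin (1 - σ))) ∧
    Finite (nsmulAddMonoidHom p : inv σ →+ inv σ).ker ∧
    (nsmulAddMonoidHom p : inv σ →+ inv σ).range.index ≠ 0 ∧
    Nat.card (HH (lin (1 - σ)) (lin (nrm p σ))) ^ (p - 1) *
        Nat.card (nsmulAddMonoidHom p : inv σ →+ inv σ).ker ^ p *
        (nsmulAddMonoidHom p : A →+ A).range.index =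
      Nat.card (HH (lin (nrm p σ)) (lin (1 - σ))) ^ (p - 1) *
        (nsmulAddMonoidHom p : inv σ →+ inv σ).range.index ^ p *
        Nat.card (nsmulAddMonoidHom p : A →+ A).ker := by
  have hS := sesInv p σ hσ
  have hT := sesNsmul (A := A) (inv σ).toAddSubgroup p
  have hp0 := hp.out.ne_zero
  -- finiteness of `B[p]` and `B/p`
  haveI hB1 : Finite (nsmulAddMonoidHom p : A ⧸ inv σ →+ A ⧸ inv σ).ker := by
    -- `B` embeds in `A` via `1 - σ`
    have hinj : Function.Injective ((inv σ).liftQ (1 - σ) le_rfl) := by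
      rw [← LinearMap.ker_eq_bot]
      exact Submodule.ker_liftQ_eq_bot' _ _ rfl
    refine Finite.of_injective (β := (nsmulAddMonoidHom p : A →+ A).ker)
      (fun x => ⟨(inv σ).liftQ (1 - σ) le_rfl x.1, ?_⟩) ?_
    · have := x.2
      rw [AddMonoidHom.mem_ker, nsmulAddMonoidHom_apply] at this ⊢
      rw [← map_nsmul, this, map_zero]
    · intro x y hxy
      exact Subtype.ext (hinj (congrArg Subtype.val hxy))
  have hB2 : (nsmulAddMonoidHom p : A ⧸ inv σ →+ A ⧸ inv σ).range.index ≠ 0 := by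
    intro h0
    apply hip
    have h1 : ((nsmulAddMonoidHom p : A →+ A).range.map (inv σ).mkQ.toAddMonoidHom) =
        (nsmulAddMonoidHom p : A ⧸ inv σ →+ A ⧸ inv σ).range := by
      ext y
      constructor
      · rintro ⟨_, ⟨x, rfl⟩, rfl⟩
        exact ⟨(inv σ).mkQ x, rfl⟩
      · rintro ⟨y, rfl⟩
        obtain ⟨x, rfl⟩ := (inv σ).mkQ_surjective y
        exact ⟨_, ⟨x, rfl⟩, rfl⟩
    have h2 := AddSubgroup.index_map_dvd (f := (inv σ).mkQ.toAddMonoidHom)
      (nsmulAddMonoidHom p : A →+ A).range (inv σ).mkQ_surjective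
    rw [h1, h0, zero_dvd_iff] at h2
    exact h2
  obtain ⟨hK, hr, hf⟩ := norm_zero_formula_gen p (quotEnd σ) hB1 hB2 (sum_quotEnd_pow p σ hσ)
  -- finiteness on the invariants
  haveI hA2' : Finite (nsmulAddMonoidHom p : inv σ →+ inv σ).ker := by
    refine Finite.of_injective (β := (nsmulAddMonoidHom p : A →+ A).ker)
      (fun x => ⟨x.1.1, congrArg Subtype.val x.2⟩) ?_
    intro x y hxy
    exact Subtype.ext (Subtype.ext (congrArg (fun z : (nsmulAddMonoidHom p : A →+ A).ker => (z : A)) hxy))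
  haveI hA2 : Finite (HH (nsmulAddMonoidHom p : inv σ →+ inv σ) 0) := by
    apply Nat.finite_of_card_ne_zero
    rw [card_HH_zero_right]
    exact Nat.card_pos.ne'
  haveI hAA : Finite (HH (0 : A →+ A) (nsmulAddMonoidHom p)) := by
    apply Nat.finite_of_card_ne_zero
    rw [card_HH_zero_left]
    exact hip
  haveI hBB : Finite (HH (nsmulAddMonoidHom p : A ⧸ inv σ →+ A ⧸ inv σ) 0) := by
    apply Nat.finite_of_card_ne_zero
    rw [card_HH_zero_right]
    exact Nat.card_pos.ne'
  haveI hBB' : Finite (HH (nsmulAddMonoidHom p : A ⧸ (inv σ).toAddSubgroup →+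
      A ⧸ (inv σ).toAddSubgroup) 0) := hBB
  haveI hA1 : Finite (HH (0 : inv σ →+ inv σ) (nsmulAddMonoidHom p)) := hT.swap.finite_A
  have hA1' : (nsmulAddMonoidHom p : inv σ →+ inv σ).range.index ≠ 0 := by
    rw [← card_HH_zero_left]
    exact Nat.card_pos.ne'
  haveI hC1 : Finite (HH (lin (1 - quotEnd σ)) 0) := by
    apply Nat.finite_of_card_ne_zero
    rw [card_HH_zero_right]
    exact Nat.card_pos.ne'
  haveI hC2 : Finite (HH 0 (lin (1 - quotEnd σ))) := by
    apply Nat.finite_of_card_ne_zero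
    rw [card_HH_zero_left]
    exact hr
  haveI hB1 : Finite (HH (lin (1 - σ)) (lin (nrm p σ))) := hS.finite_B
  haveI hB2 : Finite (HH (lin (nrm p σ)) (lin (1 - σ))) := hS.swap.finite_B
  refine ⟨hB1, hB2, hA2', hA1', ?_⟩
  have h1 := hS.card_mul
  have h2 := hT.card_mul
  rw [card_HH_zero_left, card_HH_zero_left, card_HH_zero_right, card_HH_zero_right] at h1
  rw [card_HH_zero_left, card_HH_zero_left, card_HH_zero_left, card_HH_zero_right,
    card_HH_zero_right, card_HH_zero_right] at h2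
  change (nsmulAddMonoidHom p : inv σ →+ inv σ).range.index *
    (nsmulAddMonoidHom p : A ⧸ inv σ →+ A ⧸ inv σ).range.index *
    Nat.card (nsmulAddMonoidHom p : A →+ A).ker =
    (nsmulAddMonoidHom p : A →+ A).range.index *
    Nat.card (nsmulAddMonoidHom p : inv σ →+ inv σ).ker *
    Nat.card (nsmulAddMonoidHom p : A ⧸ inv σ →+ A ⧸ inv σ).ker at h2
  set K := Nat.card (lin (1 - quotEnd σ)).ker
  set R := (lin (1 - quotEnd σ)).range.index
  set k0 := Nat.card (nsmulAddMonoidHom p : inv σ →+ inv σ).ker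
  set a0 := (nsmulAddMonoidHom p : inv σ →+ inv σ).range.index
  set kB := Nat.card (nsmulAddMonoidHom p : A ⧸ inv σ →+ A ⧸ inv σ).ker
  set iB := (nsmulAddMonoidHom p : A ⧸ inv σ →+ A ⧸ inv σ).range.index
  set a := Nat.card (HH (lin (1 - σ)) (lin (nrm p σ)))
  set b := Nat.card (HH (lin (nrm p σ)) (lin (1 - σ)))
  set kA := Nat.card (nsmulAddMonoidHom p : A →+ A).ker
  set iA := (nsmulAddMonoidHom p : A →+ A).range.index
  have hkB : 0 < kB := Nat.card_pos
  have hKp : 0 < K := Nat.card_pos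
  have ha0 : 0 < a0 := Nat.pos_of_ne_zero hA1'
  have hkA : 0 < kA := Nat.card_pos
  have h3 : (a0 * K * b) ^ (p - 1) = (a * k0 * R) ^ (p - 1) := by rw [h1]
  obtain ⟨m, hm⟩ : ∃ m, p = m + 1 := Nat.exists_eq_succ_of_ne_zero hp0
  have hm' : p - 1 = m := by omega
  rw [hm'] at h3 hf ⊢
  rw [mul_pow, mul_pow, mul_pow, mul_pow] at h3
  have e : p = m + 1 := hm
  have h4 : a ^ m * k0 ^ m * iB = a0 ^ m * b ^ m * kB := by
    apply Nat.eq_of_mul_eq_mul_right (pow_pos hKp m)
    calc a ^ m * k0 ^ m * iB * K ^ m = a ^ m * k0 ^ m * (iB * K ^ m) := by ring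
      _ = (a ^ m * k0 ^ m * R ^ m) * kB := by rw [← hf]; ring
      _ = _ := by rw [← h3]; ring
  have h5 : a ^ m * k0 ^ (m + 1) * iA = b ^ m * a0 ^ (m + 1) * kA := by
    apply Nat.eq_of_mul_eq_mul_right hkB
    calc a ^ m * k0 ^ (m + 1) * iA * kB = a ^ m * k0 ^ m * (iA * k0 * kB) := by ring
      _ = (a ^ m * k0 ^ m * iB) * (a0 * kA) := by rw [← h2]; ring
      _ = _ := by rw [h4]; ring
  have hk0p : k0 ^ p = k0 ^ (m + 1) := by rw [← e]
  have ha0p : a0 ^ p = a0 ^ (m + 1) := by rw [← e]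
  rw [hk0p, ha0p]
  exact h5

include hσ in
/-- **Chevalley's formula**: for a finitely generated abelian group with an automorphism `σ` of
prime order `p`, `|Ĥ⁰|^(p-1) p^(rk A) = |H¹|^(p-1) p^(p rk A^σ)`. -/
theorem chevalley [Module.Finite ℤ A] :
    Finite (HH (lin (1 - σ)) (lin (nrm p σ))) ∧ Finite (HH (lin (nrm p σ)) (lin (1 - σ))) ∧
    Nat.card (HH (lin (1 - σ)) (lin (nrm p σ))) ^ (p - 1) * p ^ Module.finrank ℤ A =
      Nat.card (HH (lin (nrm p σ)) (lin (1 - σ))) ^ (p - 1) *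
        p ^ (p * Module.finrank ℤ (inv σ)) := by
  have hp0 := hp.out.ne_zero
  haveI h0 := finite_ker_nsmul (A := A) p hp0
  obtain ⟨h1, h2, h3, h4, h5⟩ := tate_lemma p σ hσ h0 (index_nsmul_ne_zero p hp0)
  refine ⟨h1, h2, ?_⟩
  rw [index_nsmul p hp0, index_nsmul p hp0] at h5
  have hk : 0 < Nat.card (nsmulAddMonoidHom p : A →+ A).ker := Nat.card_pos
  have hk0 : 0 < Nat.card (nsmulAddMonoidHom p : inv σ →+ inv σ).ker := Nat.card_pos
  apply Nat.eq_of_mul_eq_mul_right (Nat.mul_pos (pow_pos hk0 p) hk)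
  rw [mul_comm p (Module.finrank ℤ (inv σ)), pow_mul]
  calc _ = Nat.card (HH (lin (1 - σ)) (lin (nrm p σ))) ^ (p - 1) *
        Nat.card (nsmulAddMonoidHom p : inv σ →+ inv σ).ker ^ p *
        (p ^ Module.finrank ℤ A * Nat.card (nsmulAddMonoidHom p : A →+ A).ker) := by ring
    _ = _ := by rw [h5]; ring

end Chevalley

end Fermat.Agent.CFT
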