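import Mathlib
import Fermat.Agent.CFT.Chevalley

set_option linter.unusedSectionVars false
set_option linter.unusedVariables false
set_option linter.style.haveILetI false
set_option autoImplicit false

/-!
# `T`-units of number fields
-/

open NumberField IsDedekindDomain nonZeroDivisors

namespace Fermat.Agent.CFT

section Val

variable (K : Type*) [Field K] [NumberField K]

/-- the additive valuation of `Kˣ` attached to a finite place. -/
noncomputable def ordH (v : HeightOneSpectrum (𝓞 K)) : Additive Kˣ →+ ℤ :=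
  -(MonoidHom.toAdditiveLeft (v.valuationOfNeZero (K := K)))

variable {K}

theorem ordH_apply (v : HeightOneSpectrum (𝓞 K)) (x : Kˣ) :
    ordH K v (Additive.ofMul x) = -(Multiplicative.toAdd (v.valuationOfNeZero x)) := rfl

/-- relation with the multiplicative valuation -/
theorem valuation_eq_exp (v : HeightOneSpectrum (𝓞 K)) (x : Kˣ) :
    v.valuation K (x : K) = WithZero.exp (-(ordH K v (Additive.ofMul x))) := by
  rw [← HeightOneSpectrum.valuationOfNeZero_eq, ordH_apply, neg_neg]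
  rfl

theorem ordH_eq_iff (v : HeightOneSpectrum (𝓞 K)) (x : Kˣ) (n : ℤ) :
    ordH K v (Additive.ofMul x) = n ↔ v.valuation K (x : K) = WithZero.exp (-n) := by
  rw [valuation_eq_exp, WithZero.exp_inj, neg_inj]

theorem ordH_eq_zero_iff (v : HeightOneSpectrum (𝓞 K)) (x : Kˣ) :
    ordH K v (Additive.ofMul x) = 0 ↔ v.valuation K (x : K) = 1 := by
  rw [ordH_eq_iff, neg_zero, WithZero.exp_zero]

open FractionalIdeal in
theorem ordH_eq_count (v : HeightOneSpectrum (𝓞 K)) (x : Kˣ) :
    ordH K v (Additive.ofMul x) = count K v (spanSingleton (𝓞 K)⁰ (x : K)) := by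
  classical
  have hs : algebraMap (𝓞 K) K ((IsLocalization.sec (𝓞 K)⁰ (x : K)).2 : 𝓞 K) ≠ 0 := by
    simp
  have hx : (spanSingleton (𝓞 K)⁰ (x : K)) = spanSingleton (𝓞 K)⁰
      ((algebraMap (𝓞 K) K) ((IsLocalization.sec (𝓞 K)⁰ (x : K)).2 : 𝓞 K))⁻¹ *
      ((Ideal.span {(IsLocalization.sec (𝓞 K)⁰ (x : K)).1} : Ideal (𝓞 K)) :
        FractionalIdeal (𝓞 K)⁰ K) := by
    rw [coeIdeal_span_singleton, spanSingleton_mul_spanSingleton]
    congr 1
    have h := IsLocalization.sec_spec (𝓞 K)⁰ (x : K)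
    rw [← h]
    field_simp
  have h0 : (spanSingleton (𝓞 K)⁰ (x : K)) ≠ 0 := by
    rw [Ne, spanSingleton_eq_zero_iff]
    exact x.ne_zero
  rw [count_well_defined K v h0 hx, ordH_apply]
  change -(_ - _ : ℤ) = _
  ring_nf

/-- `x` has nonzero valuation at finitely many places only -/
theorem finite_ordH_ne_zero (x : Additive Kˣ) : {v | ordH K v x ≠ 0}.Finite := by
  have := FractionalIdeal.finite_factors (K := K)
    (FractionalIdeal.spanSingleton (𝓞 K)⁰ ((Additive.toMul x : Kˣ) : K))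
  rw [Filter.eventually_cofinite] at this
  refine this.subset fun v hv => ?_
  rw [Set.mem_ofPred_eq, ← ordH_eq_count]
  exact hv

/-- an element with all valuations zero is a unit -/
theorem exists_unit_of_ordH_eq_zero (x : Additive Kˣ) (h : ∀ v, ordH K v x = 0) :
    ∃ u : (𝓞 K)ˣ, Units.map (algebraMap (𝓞 K) K : 𝓞 K →* K) u = Additive.toMul x := by
  have h1 : ∀ v : HeightOneSpectrum (𝓞 K), v.valuation K ((Additive.toMul x : Kˣ) : K) ≤ 1 :=
    fun v => ((ordH_eq_zero_iff v (Additive.toMul x)).1 (h v)).le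
  have h2 : ∀ v : HeightOneSpectrum (𝓞 K), v.valuation K (((Additive.toMul x)⁻¹ : Kˣ) : K) ≤ 1 := by
    intro v
    refine ((ordH_eq_zero_iff v (Additive.toMul x)⁻¹).1 ?_).le
    have : Additive.ofMul (Additive.toMul x)⁻¹ = -x := rfl
    rw [this, map_neg, h v, neg_zero]
  obtain ⟨a, ha⟩ := HeightOneSpectrum.mem_integers_of_valuation_le_one K _ h1
  obtain ⟨b, hb⟩ := HeightOneSpectrum.mem_integers_of_valuation_le_one K _ h2
  refine ⟨⟨a, b, ?_, ?_⟩, ?_⟩
  · apply FaithfulSMul.algebraMap_injective (𝓞 K) K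
    rw [map_mul, ha, hb, map_one]; simp
  · apply FaithfulSMul.algebraMap_injective (𝓞 K) K
    rw [map_mul, ha, hb, map_one]; simp
  · ext
    exact ha

theorem ordH_unit (v : HeightOneSpectrum (𝓞 K)) (u : (𝓞 K)ˣ) :
    ordH K v (Additive.ofMul (Units.map (algebraMap (𝓞 K) K : 𝓞 K →* K) u)) = 0 := by
  rw [ordH_apply, HeightOneSpectrum.valuation_of_unit_eq]; rfl

open FractionalIdeal in
/-- generators of principal products -/
theorem exists_ordH_eq_count (J : Ideal (𝓞 K)) (hJ : J ∈ (Ideal (𝓞 K))⁰)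
    (h : ClassGroup.mk0 ⟨J, hJ⟩ = 1) :
    ∃ x : Kˣ, ∀ v, ordH K v (Additive.ofMul x) = count K v (J : FractionalIdeal (𝓞 K)⁰ K) := by
  rw [ClassGroup.mk0_eq_one_iff] at h
  obtain ⟨a, ha⟩ := h.principal
  have ha' : J = Ideal.span {a} := ha
  have hJ0 : J ≠ 0 := mem_nonZeroDivisors_iff_ne_zero.1 hJ
  have ha0 : a ≠ 0 := by
    rintro rfl
    apply hJ0
    rw [ha']
    simp
  have hK : algebraMap (𝓞 K) K a ≠ 0 := by simpa using ha0
  refine ⟨Units.mk0 _ hK, fun v => ?_⟩
  rw [ordH_eq_count, Units.val_mk0, ← coeIdeal_span_singleton, ← ha']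

open FractionalIdeal in
/-- some power of a prime is principal -/
theorem exists_ordH_classNumber (v : HeightOneSpectrum (𝓞 K)) :
    ∃ x : Kˣ, ordH K v (Additive.ofMul x) = classNumber K ∧
      ∀ w ≠ v, ordH K w (Additive.ofMul x) = 0 := by
  have hmem : v.asIdeal ^ classNumber K ∈ (Ideal (𝓞 K))⁰ :=
    pow_mem (mem_nonZeroDivisors_iff_ne_zero.2 v.ne_bot) _
  have h1 : ClassGroup.mk0 ⟨v.asIdeal ^ classNumber K, hmem⟩ = 1 := by
    have : (⟨v.asIdeal ^ classNumber K, hmem⟩ : (Ideal (𝓞 K))⁰) =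
      ⟨v.asIdeal, mem_nonZeroDivisors_iff_ne_zero.2 v.ne_bot⟩ ^ classNumber K := rfl
    rw [this, map_pow, classNumber, pow_card_eq_one]
  obtain ⟨x, hx⟩ := exists_ordH_eq_count _ hmem h1
  refine ⟨x, ?_, fun w hw => ?_⟩
  · rw [hx, coeIdeal_pow, count_pow_self]
  · rw [hx, coeIdeal_pow, count_pow, count_maximal_coprime K w hw.symm, mul_zero]

open FractionalIdeal in
/-- existence of a finite set of places generating the class group -/
theorem exists_T0 (S : Set (HeightOneSpectrum (𝓞 K))) (hS : S.Finite) :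
    ∃ T0 : Set (HeightOneSpectrum (𝓞 K)), T0.Finite ∧ S ⊆ T0 ∧
      ∀ v, ∃ x : Kˣ, (v ∉ T0 → ordH K v (Additive.ofMul x) = 1) ∧
        ∀ w ∉ T0, w ≠ v → ordH K w (Additive.ofMul x) = 0 := by
  classical
  choose J hJ using fun c : ClassGroup (𝓞 K) => ClassGroup.mk0_surjective c
  refine ⟨S ∪ ⋃ c, {v | count K v ((J c : Ideal (𝓞 K)) : FractionalIdeal (𝓞 K)⁰ K) ≠ 0},
    hS.union (Set.finite_iUnion fun c => ?_), Set.subset_union_left, fun v => ?_⟩
  · have := finite_factors (K := K) ((J c : Ideal (𝓞 K)) : FractionalIdeal (𝓞 K)⁰ K)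
    rwa [Filter.eventually_cofinite] at this
  · have hv : v.asIdeal ∈ (Ideal (𝓞 K))⁰ := mem_nonZeroDivisors_iff_ne_zero.2 v.ne_bot
    set c := (ClassGroup.mk0 ⟨v.asIdeal, hv⟩)⁻¹ with hc
    have h1 : ClassGroup.mk0 (⟨v.asIdeal, hv⟩ * J c) = 1 := by
      rw [map_mul, hJ, hc, mul_inv_cancel]
    obtain ⟨x, hx⟩ := exists_ordH_eq_count _ (mul_mem hv (J c).2) h1
    have key : ∀ w ∉ (S ∪ ⋃ c, {v | count K v ((J c : Ideal (𝓞 K)) : FractionalIdeal (𝓞 K)⁰ K) ≠ 0}),
        ordH K w (Additive.ofMul x) = if v = w then 1 else 0 := by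
      intro w hw
      rw [Set.mem_union, not_or, Set.mem_iUnion, not_exists] at hw
      have h2 := hw.2 c
      rw [Set.mem_ofPred_eq, not_not] at h2
      rw [hx, coeIdeal_mul, count_mul K w (coeIdeal_ne_zero.2 v.ne_bot)
        (coeIdeal_ne_zero.2 (mem_nonZeroDivisors_iff_ne_zero.1 (J c).2)), h2, add_zero]
      exact count_maximal K w v
    exact ⟨x, fun hw => by rw [key v hw, if_pos rfl], fun w hw hne => by
      rw [key w hw, if_neg hne.symm]⟩

/-- for a finite family of exponents there is an element with these valuations outside `T0` -/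
theorem exists_ordH_eq {T0 : Set (HeightOneSpectrum (𝓞 K))}
    (h : ∀ v, ∃ x : Kˣ, (v ∉ T0 → ordH K v (Additive.ofMul x) = 1) ∧
        ∀ w ∉ T0, w ≠ v → ordH K w (Additive.ofMul x) = 0)
    (n : HeightOneSpectrum (𝓞 K) → ℤ) (hn : {v | n v ≠ 0}.Finite) :
    ∃ x : Additive Kˣ, ∀ v ∉ T0, ordH K v x = n v := by
  classical
  choose π h1 h2 using h
  refine ⟨∑ v ∈ hn.toFinset, n v • Additive.ofMul (π v), fun w hw => ?_⟩
  rw [map_sum]
  have h3 : ∀ v ∈ hn.toFinset, ordH K w (n v • Additive.ofMul (π v)) = if v = w then n v else 0 := by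
    intro v hv
    rw [map_zsmul]
    split_ifs with hvw
    · subst hvw
      rw [h1 v hw, smul_eq_mul, mul_one]
    · rw [h2 v w hw (Ne.symm hvw), smul_zero]
  rw [Finset.sum_congr rfl h3, Finset.sum_ite_eq']
  split_ifs with h4
  · rfl
  · rw [Set.Finite.mem_toFinset, Set.mem_ofPred_eq, not_not] at h4
    exact h4.symm

end Val

section TU

variable {K : Type*} [Field K] [NumberField K]

/-- the group of `T`-units -/
def TU (T : Set (HeightOneSpectrum (𝓞 K))) : Submodule ℤ (Additive Kˣ) where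
  carrier := {x | ∀ v ∉ T, ordH K v x = 0}
  add_mem' := fun hx hy v hv => by rw [map_add, hx v hv, hy v hv, add_zero]
  zero_mem' := fun v _ => map_zero _
  smul_mem' := fun c x hx v hv => by rw [map_zsmul, hx v hv, smul_zero]

theorem mem_TU {T : Set (HeightOneSpectrum (𝓞 K))} {x : Additive Kˣ} :
    x ∈ TU T ↔ ∀ v ∉ T, ordH K v x = 0 := Iff.rfl

theorem TU_mono {T T' : Set (HeightOneSpectrum (𝓞 K))} (h : T ⊆ T') : TU T ≤ TU T' :=
  fun _ hx v hv => hx v (fun h' => hv (h h'))

theorem exists_finite_mem_TU (x : Additive Kˣ) :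
    ∃ T : Set (HeightOneSpectrum (𝓞 K)), T.Finite ∧ x ∈ TU T :=
  ⟨_, finite_ordH_ne_zero x, fun v hv => by simpa using hv⟩

/-- the valuation vector of `T`-units -/
noncomputable def ordVec (T : Set (HeightOneSpectrum (𝓞 K))) : TU T →ₗ[ℤ] (T → ℤ) :=
  LinearMap.pi fun v => ((ordH K v.1).toIntLinearMap.comp (TU T).subtype)

theorem ordVec_apply (T : Set (HeightOneSpectrum (𝓞 K))) (x : TU T) (v : T) :
    ordVec T x v = ordH K v.1 x := rfl

/-- units are `T`-units -/
noncomputable def unitsTo (T : Set (HeightOneSpectrum (𝓞 K))) :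
    Additive (𝓞 K)ˣ →ₗ[ℤ] LinearMap.ker (ordVec T) :=
  AddMonoidHom.toIntLinearMap
    { toFun := fun u => ⟨⟨Additive.ofMul (Units.map (algebraMap (𝓞 K) K : 𝓞 K →* K)
          (Additive.toMul u)), fun v _ => ordH_unit v _⟩, by
        rw [LinearMap.mem_ker]
        ext v
        exact ordH_unit v.1 _⟩
      map_zero' := by
        apply Subtype.ext; apply Subtype.ext
        exact congrArg Additive.ofMul (map_one _)
      map_add' := fun u u' => by
        apply Subtype.ext; apply Subtype.ext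
        exact congrArg Additive.ofMul (map_mul _ _ _) }

theorem unitsTo_bijective (T : Set (HeightOneSpectrum (𝓞 K))) :
    Function.Bijective (unitsTo T) := by
  constructor
  · intro u u' h
    have h1 := congrArg (fun z : LinearMap.ker (ordVec T) =>
      ((Additive.toMul ((z : TU T) : Additive Kˣ) : Kˣ) : K)) h
    have h2 : algebraMap (𝓞 K) K ((Additive.toMul u : (𝓞 K)ˣ) : 𝓞 K) =
      algebraMap (𝓞 K) K ((Additive.toMul u' : (𝓞 K)ˣ) : 𝓞 K) := h1
    have h3 := FaithfulSMul.algebraMap_injective (𝓞 K) K h2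
    exact Additive.toMul.injective (Units.ext h3)
  · rintro ⟨⟨x, hx⟩, hx'⟩
    rw [LinearMap.mem_ker] at hx'
    have h0 : ∀ v, ordH K v x = 0 := by
      intro v
      by_cases hv : v ∈ T
      · exact congrFun hx' ⟨v, hv⟩
      · exact hx v hv
    obtain ⟨u, hu⟩ := exists_unit_of_ordH_eq_zero x h0
    refine ⟨Additive.ofMul u, ?_⟩
    apply Subtype.ext; apply Subtype.ext
    exact congrArg Additive.ofMul hu

noncomputable def unitsEquiv (T : Set (HeightOneSpectrum (𝓞 K))) :
    Additive (𝓞 K)ˣ ≃ₗ[ℤ] LinearMap.ker (ordVec T) :=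
  LinearEquiv.ofBijective (unitsTo T) (unitsTo_bijective T)

theorem finite_TU {T : Set (HeightOneSpectrum (𝓞 K))} (hT : T.Finite) : Module.Finite ℤ (TU T) := by
  haveI := hT.to_subtype
  haveI : Module.Finite ℤ (LinearMap.ker (ordVec T)) := Module.Finite.equiv (unitsEquiv T)
  haveI : Module.Finite ℤ (TU T ⧸ LinearMap.ker (ordVec T)) :=
    Module.Finite.equiv (LinearMap.quotKerEquivRange (ordVec T)).symm
  exact Module.Finite.of_submodule_quotient (LinearMap.ker (ordVec T))

/-- rank of a submodule of finite index -/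
theorem finrank_eq_of_smul_mem {M : Type*} [AddCommGroup M] [Module.Finite ℤ M] (N : Submodule ℤ M)
    (h : ℤ) (h0 : h ≠ 0) (hN : ∀ x : M, h • x ∈ N) : Module.finrank ℤ N = Module.finrank ℤ M := by
  have h1 := Submodule.finrank_quotient_add_finrank N
  have h2 : Module.finrank ℤ (M ⧸ N) = 0 := by
    rw [Module.finrank_eq_zero_iff]
    intro x
    obtain ⟨y, rfl⟩ := Submodule.Quotient.mk_surjective N x
    exact ⟨h, h0, by rw [← Submodule.Quotient.mk_smul, Submodule.Quotient.mk_eq_zero]; exact hN y⟩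
  omega

/-- **Dirichlet's theorem for `T`-units** -/
theorem finrank_TU {T : Set (HeightOneSpectrum (𝓞 K))} (hT : T.Finite) :
    Module.finrank ℤ (TU T) + 1 = T.ncard + Fintype.card (InfinitePlace K) := by
  haveI := hT.to_subtype
  haveI := hT.fintype
  haveI := finite_TU hT
  have h1 := Submodule.finrank_quotient_add_finrank (LinearMap.ker (ordVec T))
  rw [← (unitsEquiv T).finrank_eq, Units.finrank_eq, Units.rank,
    (LinearMap.quotKerEquivRange (ordVec T)).finrank_eq] at h1
  have h2 : Module.finrank ℤ (LinearMap.range (ordVec T)) = T.ncard := by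
    rw [finrank_eq_of_smul_mem _ (classNumber K : ℤ) (by exact_mod_cast classNumber_ne_zero K)]
    · rw [Module.finrank_fintype_fun_eq_card, ← Nat.card_eq_fintype_card, Nat.card_coe_set_eq]
    · intro n
      choose x hx hx' using exists_ordH_classNumber (K := K)
      refine ⟨⟨∑ v : T, n v • Additive.ofMul (x v.1), ?_⟩, ?_⟩
      · intro w hw
        rw [map_sum]
        refine Finset.sum_eq_zero fun v _ => ?_
        rw [map_zsmul, hx' v.1 w (fun h => hw (h ▸ v.2)), smul_zero]
      · ext w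
        rw [ordVec_apply]
        simp only [map_sum, map_zsmul, Pi.smul_apply]
        rw [Finset.sum_eq_single w]
        · rw [hx]; simp [mul_comm]
        · intro v _ hv
          rw [hx' v.1 w.1 (fun h => hv (Subtype.ext h.symm)), smul_zero]
        · simp
  have h3 : 0 < Fintype.card (InfinitePlace K) := Fintype.card_pos
  omega

end TU

end Fermat.Agent.CFT
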