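import Mathlib
import Fermat.Agent.CFT.TUnits

set_option linter.unusedSectionVars false
set_option linter.unusedVariables false
set_option linter.style.haveILetI false
set_option autoImplicit false

/-!
# Places in Galois extensions of number fields
-/

open NumberField IsDedekindDomain nonZeroDivisors Pointwise

namespace Fermat.Agent.CFT

section Under

variable {L M : Type*} [Field L] [NumberField L] [Field M] [NumberField M] [Algebra L M]

variable (L) in
/-- the place below -/
def under (w : HeightOneSpectrum (𝓞 M)) : HeightOneSpectrum (𝓞 L) where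
  asIdeal := w.asIdeal.under (𝓞 L)
  isPrime := inferInstance
  ne_bot := by
    have : w.asIdeal.under (𝓞 L) ≠ ⊥ := mt Ideal.eq_bot_of_comap_eq_bot w.ne_bot
    exact this

instance under_liesOver (w : HeightOneSpectrum (𝓞 M)) :
    w.asIdeal.LiesOver (under L w).asIdeal := ⟨rfl⟩

theorem under_eq_iff (w : HeightOneSpectrum (𝓞 M)) (v : HeightOneSpectrum (𝓞 L)) :
    under L w = v ↔ w.asIdeal ∈ v.asIdeal.primesOver (𝓞 M) := by
  constructor
  · rintro rfl
    exact ⟨w.isPrime, inferInstance⟩
  · rintro ⟨_, h⟩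
    exact HeightOneSpectrum.ext h.over.symm

theorem ordH_algebraMap (w : HeightOneSpectrum (𝓞 M)) (x : Lˣ) :
    ordH M w (Additive.ofMul (Units.map (algebraMap L M : L →* M) x)) =
      ((under L w).asIdeal.ramificationIdx' w.asIdeal : ℤ) * ordH L (under L w) (Additive.ofMul x) := by
  rw [ordH_eq_iff, Units.coe_map, MonoidHom.coe_coe, ← HeightOneSpectrum.valuation_liesOver M (under L w) w,
    valuation_eq_exp, ← WithZero.exp_nsmul]
  congr 1
  rw [nsmul_eq_mul]
  push_cast
  ring

theorem under_surjective : Function.Surjective (under L : HeightOneSpectrum (𝓞 M) → _) := by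
  intro v
  obtain ⟨P, hP, hP'⟩ := (inferInstance : Nonempty (v.asIdeal.primesOver (𝓞 M)))
  exact ⟨⟨P, hP, Ideal.ne_bot_of_liesOver_of_ne_bot v.ne_bot P⟩, (under_eq_iff _ _).2 ⟨hP, hP'⟩⟩

end Under

section Smul

variable {L M : Type*} [Field L] [NumberField L] [Field M] [NumberField M] [Algebra L M]

/-- Galois action on places -/
def placeSmul (g : Gal(M/L)) (w : HeightOneSpectrum (𝓞 M)) : HeightOneSpectrum (𝓞 M) where
  asIdeal := g • w.asIdeal
  isPrime := inferInstance
  ne_bot := by
    intro h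
    apply w.ne_bot
    have h1 : g⁻¹ • (g • w.asIdeal) = g⁻¹ • (⊥ : Ideal (𝓞 M)) := by rw [h]
    rw [inv_smul_smul] at h1
    rw [h1]
    exact smul_zero _

theorem intValuation_smul (g : Gal(M/L)) (w : HeightOneSpectrum (𝓞 M)) (a : 𝓞 M) :
    (placeSmul g w).intValuation (g • a) = w.intValuation a := by
  have key : ∀ n : ℕ, (placeSmul g w).intValuation (g • a) ≤ WithZero.exp (-(n : ℤ)) ↔
      w.intValuation a ≤ WithZero.exp (-(n : ℤ)) := by
    intro n
    rw [HeightOneSpectrum.intValuation_le_pow_iff_mem, HeightOneSpectrum.intValuation_le_pow_iff_mem]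
    change g • a ∈ (g • w.asIdeal) ^ n ↔ _
    rw [← smul_pow', Ideal.smul_mem_pointwise_smul_iff]
  by_cases ha : a = 0
  · subst ha; simp
  have ha' : g • a ≠ 0 := by rwa [Ne, smul_eq_zero_iff_eq]
  rw [HeightOneSpectrum.intValuation_eq_exp_neg_multiplicity _ ha',
    HeightOneSpectrum.intValuation_eq_exp_neg_multiplicity _ ha] at key ⊢
  apply le_antisymm
  · rw [key]
  · rw [← key]

theorem valuation_smul (g : Gal(M/L)) (w : HeightOneSpectrum (𝓞 M)) (x : M) :
    (placeSmul g w).valuation M (g x) = w.valuation M x := by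
  obtain ⟨a, b, hb, rfl⟩ := IsFractionRing.div_surjective (A := 𝓞 M) x
  have h1 : ∀ a : 𝓞 M, g (algebraMap (𝓞 M) M a) = algebraMap (𝓞 M) M (g • a) := fun a => rfl
  rw [map_div₀, map_div₀, map_div₀, h1, h1, HeightOneSpectrum.valuation_of_algebraMap,
    HeightOneSpectrum.valuation_of_algebraMap, HeightOneSpectrum.valuation_of_algebraMap,
    HeightOneSpectrum.valuation_of_algebraMap, intValuation_smul, intValuation_smul]

/-- the action of `g` on `Mˣ` in additive notation -/
noncomputable def sg (g : Gal(M/L)) : Module.End ℤ (Additive Mˣ) :=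
  AddMonoidHom.toIntLinearMap (MonoidHom.toAdditive (Units.map (g : M →* M)))

theorem sg_apply (g : Gal(M/L)) (x : Mˣ) :
    sg g (Additive.ofMul x) = Additive.ofMul (Units.map (g : M →* M) x) := rfl

theorem coe_sg (g : Gal(M/L)) (x : Additive Mˣ) :
    ((Additive.toMul (sg g x) : Mˣ) : M) = g ((Additive.toMul x : Mˣ) : M) := rfl

theorem sg_mul (g h : Gal(M/L)) : sg (g * h) = sg g * sg h := by
  ext x; rfl

theorem sg_one : sg (1 : Gal(M/L)) = 1 := by
  ext x; rfl

theorem sg_pow (g : Gal(M/L)) (n : ℕ) : sg (g ^ n) = sg g ^ n := by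
  induction n with
  | zero => rw [pow_zero, pow_zero, sg_one]
  | succ n ih => rw [pow_succ, pow_succ, sg_mul, ih]

theorem ordH_sg (g : Gal(M/L)) (w : HeightOneSpectrum (𝓞 M)) (x : Additive Mˣ) :
    ordH M (placeSmul g w) (sg g x) = ordH M w x := by
  have h := valuation_smul g w ((Additive.toMul x : Mˣ) : M)
  have h1 := valuation_eq_exp (placeSmul g w) (Additive.toMul (sg g x))
  have h2 := valuation_eq_exp w (Additive.toMul x)
  rw [coe_sg, h, h2, WithZero.exp_inj, neg_inj] at h1
  exact h1.symm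

theorem under_placeSmul (g : Gal(M/L)) (w : HeightOneSpectrum (𝓞 M)) :
    under L (placeSmul g w) = under L w := by
  apply HeightOneSpectrum.ext
  change (g • w.asIdeal).under (𝓞 L) = w.asIdeal.under (𝓞 L)
  ext x
  rw [Ideal.mem_comap, Ideal.mem_comap, Ideal.mem_pointwise_smul_iff_inv_smul_mem]
  have : g⁻¹ • (algebraMap (𝓞 L) (𝓞 M) x) = algebraMap (𝓞 L) (𝓞 M) x := by
    apply RingOfIntegers.ext
    change g⁻¹ (algebraMap L M x) = _
    rw [AlgEquiv.commutes]
    rfl
  rw [this]

variable [IsGalois L M]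

theorem isGaloisGroup_OO : IsGaloisGroup Gal(M/L) (𝓞 L) (𝓞 M) :=
  IsGaloisGroup.of_isFractionRing Gal(M/L) (𝓞 L) (𝓞 M) L M

theorem exists_placeSmul_eq {w w' : HeightOneSpectrum (𝓞 M)} (h : under L w = under L w') :
    ∃ g : Gal(M/L), placeSmul g w = w' := by
  haveI := isGaloisGroup_OO (L := L) (M := M)
  haveI : w'.asIdeal.LiesOver (under L w).asIdeal := h ▸ inferInstance
  have h1 := Algebra.IsInvariant.orbit_eq_primesOver (𝓞 L) (𝓞 M) Gal(M/L) (under L w).asIdeal w.asIdeal
  have h2 : w'.asIdeal ∈ MulAction.orbit Gal(M/L) w.asIdeal := by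
    rw [h1]
    exact ⟨w'.isPrime, inferInstance⟩
  obtain ⟨g, hg⟩ := h2
  exact ⟨g, HeightOneSpectrum.ext hg⟩

/-- the number of places above `v` -/
noncomputable def gNum (M : Type*) [Field M] [NumberField M] [Algebra L M]
    (v : HeightOneSpectrum (𝓞 L)) : ℕ := {w : HeightOneSpectrum (𝓞 M) | under L w = v}.ncard

theorem gNum_mul_card_stabilizer (w : HeightOneSpectrum (𝓞 M)) :
    gNum M (under L w) * Nat.card (MulAction.stabilizer Gal(M/L) w.asIdeal) =
      Module.finrank L M := by
  haveI := isGaloisGroup_OO (L := L) (M := M)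
  have h1 := Algebra.IsInvariant.orbit_eq_primesOver (𝓞 L) (𝓞 M) Gal(M/L) (under L w).asIdeal w.asIdeal
  have h2 : gNum M (under L w) = (MulAction.orbit Gal(M/L) w.asIdeal).ncard := by
    rw [gNum, ← Set.ncard_image_of_injective (f := HeightOneSpectrum.asIdeal) _
      (fun a b h => HeightOneSpectrum.ext h)]
    congr 1
    rw [h1]
    ext P
    constructor
    · rintro ⟨w', hw', rfl⟩
      exact (under_eq_iff _ _).1 hw'
    · rintro ⟨hP, hP'⟩
      exact ⟨⟨P, hP, Ideal.ne_bot_of_liesOver_of_ne_bot (under L w).ne_bot P⟩,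
        (under_eq_iff _ _).2 ⟨hP, hP'⟩, rfl⟩
  rw [h2, ← IsGalois.card_aut_eq_finrank L M, ← Nat.card_coe_set_eq]
  rw [← Nat.card_prod]
  exact Nat.card_congr (MulAction.orbitProdStabilizerEquivGroup Gal(M/L) w.asIdeal)

theorem finite_fiber_under (v : HeightOneSpectrum (𝓞 L)) :
    {w : HeightOneSpectrum (𝓞 M) | under L w = v}.Finite := by
  obtain ⟨w, rfl⟩ := under_surjective (M := M) v
  have : gNum M (under L w) ≠ 0 := by
    intro h
    have h1 := gNum_mul_card_stabilizer (L := L) w
    rw [h, zero_mul] at h1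
    exact (Module.finrank_pos (R := L) (M := M)).ne h1
  exact Set.finite_of_ncard_ne_zero this

end Smul

end Fermat.Agent.CFT
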