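import Mathlib
import Fermat.Agent.CFT.TUnits

set_option linter.unusedSectionVars false
set_option linter.unusedVariables false
set_option linter.style.haveILetI false
set_option autoImplicit false

/-!
# `Kˣ / p` and the subspaces `V_T`
-/

open NumberField IsDedekindDomain nonZeroDivisors

namespace Fermat.Agent.CFT

section KP

variable (p : ℕ) [Fact p.Prime] (K : Type*) [Field K]

/-- `Kˣ / p` as a vector space over `ZMod p`. -/
abbrev KP : Type _ := ModN (Additive Kˣ) p

/-- the quotient map `Kˣ → Kˣ / p` -/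
noncomputable def kp : Additive Kˣ →+ KP p K := ModN.mkQ p

theorem kp_surjective : Function.Surjective (kp p K) :=
  Submodule.mkQ_surjective _

variable {p K}

theorem kp_eq_zero_iff {x : Additive Kˣ} : kp p K x = 0 ↔ ∃ y, p • y = x := by
  change Submodule.Quotient.mk x = 0 ↔ _
  rw [Submodule.Quotient.mk_eq_zero, LinearMap.mem_range]
  simp only [LinearMap.lsmul_apply, natCast_zsmul]

theorem kp_nsmul (x : Additive Kˣ) : kp p K (p • x) = 0 := kp_eq_zero_iff.2 ⟨x, rfl⟩

theorem kp_eq_iff {x y : Additive Kˣ} : kp p K x = kp p K y ↔ ∃ z, x = y + p • z := by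
  rw [← sub_eq_zero, ← map_sub, kp_eq_zero_iff]
  constructor
  · rintro ⟨z, hz⟩
    exact ⟨z, by rw [hz]; abel⟩
  · rintro ⟨z, hz⟩
    exact ⟨z, by rw [hz]; abel⟩

theorem kp_zsmul (n : ℤ) (x : Additive Kˣ) : kp p K (n • x) = (n : ZMod p) • kp p K x := by
  rw [map_zsmul, Int.cast_smul_eq_zsmul]

/-- linear maps from `Kˣ / p` -/
noncomputable def kpLift {W : Type*} [AddCommGroup W] [Module (ZMod p) W] (f : Additive Kˣ →+ W) :
    KP p K →ₗ[ZMod p] W :=
  ModN.liftEquiv'.symm ⟨f, fun g => by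
    rw [← Nat.cast_smul_eq_nsmul (ZMod p), CharP.cast_eq_zero, zero_smul]⟩

@[simp] theorem kpLift_kp {W : Type*} [AddCommGroup W] [Module (ZMod p) W] (f : Additive Kˣ →+ W)
    (x : Additive Kˣ) : kpLift f (kp p K x) = f x := rfl

theorem kp_hom_ext {W : Type*} [AddCommGroup W] [Module (ZMod p) W] {f g : KP p K →ₗ[ZMod p] W}
    (h : ∀ x, f (kp p K x) = g (kp p K x)) : f = g := by
  ext x
  obtain ⟨y, rfl⟩ := kp_surjective p K x
  exact h y

end KP

section Ord

variable {p : ℕ} [Fact p.Prime] {K : Type*} [Field K] [NumberField K]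

/-- valuation mod `p` -/
noncomputable def ordp (v : HeightOneSpectrum (𝓞 K)) : KP p K →ₗ[ZMod p] ZMod p :=
  kpLift ((Int.castAddHom (ZMod p)).comp (ordH K v))

theorem ordp_kp (v : HeightOneSpectrum (𝓞 K)) (x : Additive Kˣ) :
    ordp v (kp p K x) = ((ordH K v x : ℤ) : ZMod p) := rfl

theorem ordp_kp_eq_zero_iff (v : HeightOneSpectrum (𝓞 K)) (x : Additive Kˣ) :
    ordp v (kp p K x) = 0 ↔ (p : ℤ) ∣ ordH K v x := by
  rw [ordp_kp, ZMod.intCast_zmod_eq_zero_iff_dvd]

theorem finite_ordp_ne_zero (x : KP p K) :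
    {v : HeightOneSpectrum (𝓞 K) | ordp v x ≠ 0}.Finite := by
  obtain ⟨y, rfl⟩ := kp_surjective p K x
  refine (finite_ordH_ne_zero y).subset fun v hv => ?_
  rw [Set.mem_ofPred_eq] at hv ⊢
  intro h
  exact hv (by rw [ordp_kp, h]; simp)

/-- elements with valuation divisible by `p` outside `T` -/
def VT (T : Set (HeightOneSpectrum (𝓞 K))) : Submodule (ZMod p) (KP p K) where
  carrier := {x | ∀ v ∉ T, ordp v x = 0}
  add_mem' := fun hx hy v hv => by rw [map_add, hx v hv, hy v hv, add_zero]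
  zero_mem' := fun v _ => map_zero _
  smul_mem' := fun c x hx v hv => by rw [map_smul, hx v hv, smul_zero]

theorem mem_VT {T : Set (HeightOneSpectrum (𝓞 K))} {x : KP p K} :
    x ∈ VT T ↔ ∀ v ∉ T, ordp v x = 0 := Iff.rfl

theorem VT_mono {T T' : Set (HeightOneSpectrum (𝓞 K))} (h : T ⊆ T') :
    (VT T : Submodule (ZMod p) (KP p K)) ≤ VT T' :=
  fun _ hx v hv => hx v (fun h' => hv (h h'))

variable (p) in
/-- `T`-units to `V_T` -/
noncomputable def tuToVT (T : Set (HeightOneSpectrum (𝓞 K))) :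
    TU T →+ (VT T : Submodule (ZMod p) (KP p K)) :=
  ((kp p K).comp (TU T).subtype.toAddMonoidHom).codRestrict (VT T) (by
    rintro ⟨x, hx⟩ v hv
    change ordp v (kp p K x) = 0
    rw [ordp_kp, hx v hv]
    simp)

theorem coe_tuToVT (T : Set (HeightOneSpectrum (𝓞 K))) (x : TU T) :
    ((tuToVT p T x : (VT T : Submodule (ZMod p) (KP p K))) : KP p K) = kp p K (x : Additive Kˣ) :=
  rfl

/-- class group trivial outside `T` -/
def ClTriv (T : Set (HeightOneSpectrum (𝓞 K))) : Prop :=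
  ∀ v, ∃ x : Kˣ, (v ∉ T → ordH K v (Additive.ofMul x) = 1) ∧
        ∀ w ∉ T, w ≠ v → ordH K w (Additive.ofMul x) = 0

theorem ClTriv.mono {T T' : Set (HeightOneSpectrum (𝓞 K))} (h : ClTriv T) (hT : T ⊆ T') :
    ClTriv T' := by
  intro v
  obtain ⟨x, h1, h2⟩ := h v
  exact ⟨x, fun hv => h1 (fun h' => hv (hT h')), fun w hw hne => h2 w (fun h' => hw (hT h')) hne⟩

/-- if the class group outside `T` is trivial, every class in `V_T` is represented by a `T`-unit. -/
theorem exists_mem_TU_of_mem_VT {T : Set (HeightOneSpectrum (𝓞 K))} (h : ClTriv T)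
    {x : KP p K} (hx : x ∈ VT T) : ∃ y ∈ TU T, kp p K y = x := by
  obtain ⟨y, rfl⟩ := kp_surjective p K x
  have h1 : ∀ v ∉ T, (p : ℤ) ∣ ordH K v y := fun v hv => (ordp_kp_eq_zero_iff v y).1 (hx v hv)
  have hfin : {v | ordH K v y / (p : ℤ) ≠ 0}.Finite :=
    (finite_ordH_ne_zero y).subset fun v hv => by
      rw [Set.mem_ofPred_eq] at hv ⊢
      intro h0
      apply hv
      rw [h0, Int.zero_ediv]
  obtain ⟨z, hz⟩ := exists_ordH_eq h (fun v => ordH K v y / (p : ℤ)) hfin
  refine ⟨y - p • z, fun v hv => ?_, ?_⟩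
  · rw [map_sub, map_nsmul, hz v hv, nsmul_eq_mul, Int.mul_ediv_cancel' (h1 v hv), sub_self]
  · rw [map_sub, kp_nsmul, sub_zero]

theorem tuToVT_surjective {T : Set (HeightOneSpectrum (𝓞 K))} (h : ClTriv T) :
    Function.Surjective (tuToVT p T) := by
  rintro ⟨x, hx⟩
  obtain ⟨y, hy, hyx⟩ := exists_mem_TU_of_mem_VT h hx
  exact ⟨⟨y, hy⟩, Subtype.ext hyx⟩

theorem ker_tuToVT (T : Set (HeightOneSpectrum (𝓞 K))) :
    (tuToVT p T).ker = (nsmulAddMonoidHom p : TU T →+ TU T).range := by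
  have hp0 : (p : ℤ) ≠ 0 := by exact_mod_cast (Fact.out : p.Prime).ne_zero
  ext x
  rw [AddMonoidHom.mem_ker, AddMonoidHom.mem_range]
  constructor
  · intro h
    have h1 : kp p K (x : Additive Kˣ) = 0 := congrArg Subtype.val h
    obtain ⟨y, hy⟩ := kp_eq_zero_iff.1 h1
    refine ⟨⟨y, fun v hv => ?_⟩, Subtype.ext hy⟩
    have h2 := x.2 v hv
    rw [← hy, map_nsmul, nsmul_eq_mul] at h2
    rcases mul_eq_zero.1 h2 with h3 | h3
    · exact absurd h3 hp0
    · exact h3
  · rintro ⟨y, rfl⟩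
    apply Subtype.ext
    exact kp_nsmul (y : Additive Kˣ)

/-- the `p`-torsion of the `T`-units -/
theorem card_ker_nsmul_TU {T : Set (HeightOneSpectrum (𝓞 K))} {ζ : K} (hζ : IsPrimitiveRoot ζ p) :
    Nat.card (nsmulAddMonoidHom p : TU T →+ TU T).ker = p := by
  have hp0 : (p : ℤ) ≠ 0 := by exact_mod_cast (Fact.out : p.Prime).ne_zero
  haveI : NeZero p := ⟨(Fact.out : p.Prime).ne_zero⟩
  have hc : Nat.card (rootsOfUnity p K) = p := hζ.card_rootsOfUnity
  refine Eq.trans ?_ hc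
  refine Nat.card_congr
    { toFun := fun x => ⟨Additive.toMul ((x : TU T) : Additive Kˣ), ?_⟩
      invFun := fun x => ⟨⟨Additive.ofMul (x : Kˣ), ?_⟩, ?_⟩
      left_inv := fun x => rfl
      right_inv := fun x => rfl }
  · have h := x.2
    rw [AddMonoidHom.mem_ker, nsmulAddMonoidHom_apply] at h
    have h1 : p • ((x : TU T) : Additive Kˣ) = 0 := congrArg Subtype.val h
    rw [mem_rootsOfUnity]
    exact h1
  · intro v hv
    have h1 : p • Additive.ofMul (x : Kˣ) = 0 := (mem_rootsOfUnity _ _).1 x.2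
    have h2 := congrArg (ordH K v) h1
    rw [map_nsmul, map_zero, nsmul_eq_mul] at h2
    rcases mul_eq_zero.1 h2 with h3 | h3
    · exact absurd h3 hp0
    · exact h3
  · rw [AddMonoidHom.mem_ker, nsmulAddMonoidHom_apply]
    apply Subtype.ext
    exact (mem_rootsOfUnity _ _).1 x.2

/-- index of `p`-th powers in the `T`-units -/
theorem index_nsmul_TU {T : Set (HeightOneSpectrum (𝓞 K))} (hT : T.Finite)
    {ζ : K} (hζ : IsPrimitiveRoot ζ p) :
    (nsmulAddMonoidHom p : TU T →+ TU T).range.index =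
      p ^ (T.ncard + Fintype.card (InfinitePlace K)) := by
  haveI := finite_TU hT
  rw [index_nsmul p (Fact.out : p.Prime).ne_zero, card_ker_nsmul_TU hζ, ← finrank_TU hT, pow_succ]

theorem card_VT {T : Set (HeightOneSpectrum (𝓞 K))} (h : ClTriv T) (hT : T.Finite)
    {ζ : K} (hζ : IsPrimitiveRoot ζ p) :
    Nat.card (VT T : Submodule (ZMod p) (KP p K)) =
      p ^ (T.ncard + Fintype.card (InfinitePlace K)) := by
  rw [← index_nsmul_TU hT hζ, ← ker_tuToVT, AddSubgroup.index_ker,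
    AddMonoidHom.range_eq_top.mpr (tuToVT_surjective h)]
  exact (Nat.card_congr AddSubgroup.topEquiv.toEquiv).symm

theorem finite_VT {T : Set (HeightOneSpectrum (𝓞 K))} (h : ClTriv T) (hT : T.Finite)
    {ζ : K} (hζ : IsPrimitiveRoot ζ p) :
    Finite (VT T : Submodule (ZMod p) (KP p K)) := by
  apply Nat.finite_of_card_ne_zero
  rw [card_VT h hT hζ]
  exact pow_ne_zero _ (Fact.out : p.Prime).ne_zero

theorem finrank_eq_of_card {W : Type*} [AddCommGroup W] [Module (ZMod p) W] {n : ℕ}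
    (h : Nat.card W = p ^ n) : FiniteDimensional (ZMod p) W ∧ Module.finrank (ZMod p) W = n := by
  haveI : Finite W := Nat.finite_of_card_ne_zero (by
    rw [h]; exact pow_ne_zero _ (Fact.out : p.Prime).ne_zero)
  haveI : FiniteDimensional (ZMod p) W := Module.Finite.of_finite
  refine ⟨inferInstance, ?_⟩
  rw [Module.natCard_eq_pow_finrank (K := ZMod p), Nat.card_zmod] at h
  exact Nat.pow_right_injective (Fact.out : p.Prime).two_le h

theorem finrank_VT {T : Set (HeightOneSpectrum (𝓞 K))} (h : ClTriv T) (hT : T.Finite)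
    {ζ : K} (hζ : IsPrimitiveRoot ζ p) :
    FiniteDimensional (ZMod p) (VT T : Submodule (ZMod p) (KP p K)) ∧
    Module.finrank (ZMod p) (VT T : Submodule (ZMod p) (KP p K)) =
      T.ncard + Fintype.card (InfinitePlace K) :=
  finrank_eq_of_card (card_VT h hT hζ)

end Ord

end Fermat.Agent.CFT
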