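import Mathlib
import Fermat.Agent.CFT.GalPlaces
import Fermat.Agent.CFT.KummerV

set_option linter.unusedSectionVars false
set_option linter.unusedVariables false
set_option linter.style.haveILetI false
set_option autoImplicit false

/-!
# The norm index of `T`-units in cyclic extensions of prime degree ("first inequality")
-/

open NumberField IsDedekindDomain nonZeroDivisors Pointwise

namespace Fermat.Agent.CFT

theorem card_HH_eq_index {A B : Type*} [AddCommGroup A] [AddCommGroup B] (p : ℕ)
    (σ : Module.End ℤ A) (j : B →+ A) (hj : Function.Injective j)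
    (hj1 : ∀ b, σ (j b) = j b) (hj2 : ∀ a, σ a = a → ∃ b, j b = a) (n : A →+ B)
    (hn : ∀ a, j (n a) = nrm p σ a) :
    Nat.card (HH (lin (1 - σ)) (lin (nrm p σ))) = n.range.index := by
  have hmem : ∀ b, lin (1 - σ) (j b) = 0 := by
    intro b
    change (1 - σ) (j b) = 0
    rw [LinearMap.sub_apply, Module.End.one_apply, hj1, sub_self]
  let φ : B →+ HH (lin (1 - σ)) (lin (nrm p σ)) :=
    { toFun := fun b => HH.mk _ _ (j b) (hmem b)
      map_zero' := by
        rw [HH.mk_eq_zero_iff]
        exact ⟨0, by rw [map_zero, map_zero]⟩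
      map_add' := fun b b' => by
        rw [HH.mk_add]
        exact HH.mk_congr _ (map_add _ _ _) }
  have hφ : Function.Surjective φ := by
    intro y
    obtain ⟨x, hx, rfl⟩ := HH.mk_surj y
    have hx' : σ x = x := by
      have h1 : x - σ x = 0 := hx
      exact (sub_eq_zero.1 h1).symm
    obtain ⟨b, rfl⟩ := hj2 x hx'
    exact ⟨b, rfl⟩
  have hker : φ.ker = n.range := by
    ext b
    rw [AddMonoidHom.mem_ker, AddMonoidHom.mem_range]
    change HH.mk _ _ (j b) (hmem b) = 0 ↔ _
    rw [HH.mk_eq_zero_iff]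
    constructor
    · rintro ⟨y, hy⟩
      exact ⟨y, hj (by rw [hn]; exact hy)⟩
    · rintro ⟨y, rfl⟩
      exact ⟨y, (hn y).symm⟩
  rw [← hker, AddSubgroup.index_ker, AddMonoidHom.range_eq_top.mpr hφ]
  exact (Nat.card_congr AddSubgroup.topEquiv.toEquiv).symm

section

variable {L M : Type} [Field L] [NumberField L] [Field M] [NumberField M] [Algebra L M]
  [IsGalois L M]

/-- places above `T` -/
def TM (M : Type*) [Field M] [NumberField M] [Algebra L M]
    (T : Set (HeightOneSpectrum (𝓞 L))) : Set (HeightOneSpectrum (𝓞 M)) := {w | under L w ∈ T}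

theorem mem_TM {T : Set (HeightOneSpectrum (𝓞 L))} {w : HeightOneSpectrum (𝓞 M)} :
    w ∈ TM M T ↔ under L w ∈ T := Iff.rfl

theorem finite_TM {T : Set (HeightOneSpectrum (𝓞 L))} (hT : T.Finite) : (TM M T).Finite := by
  have : TM M T = ⋃ v ∈ T, {w | under L w = v} := by
    ext w
    rw [mem_TM]
    simp
  rw [this]
  exact hT.biUnion fun v _ => finite_fiber_under v

theorem ncard_TM {T : Set (HeightOneSpectrum (𝓞 L))} (hT : T.Finite) :
    (TM M T).ncard = ∑ v ∈ hT.toFinset, gNum M v := by
  classical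
  have h1 : (TM M T).ncard = (finite_TM (M := M) hT).toFinset.card :=
    Set.ncard_eq_toFinset_card _ _
  rw [h1, Finset.card_eq_sum_card_fiberwise (f := under L) (t := hT.toFinset)]
  · refine Finset.sum_congr rfl fun v hv => ?_
    rw [gNum, Set.ncard_eq_toFinset_card _ (finite_fiber_under v)]
    congr 1
    ext w
    simp only [Finset.mem_filter, Set.Finite.mem_toFinset, mem_TM, Set.mem_ofPred_eq]
    constructor
    · rintro ⟨_, h⟩; exact h
    · rintro h
      refine ⟨?_, h⟩
      rw [h]
      exact (Set.Finite.mem_toFinset hT).1 hv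
  · intro w hw
    exact (Set.Finite.mem_toFinset hT).2 ((Set.Finite.mem_toFinset (finite_TM (M := M) hT)).1 hw)

theorem sg_mem_TU {T : Set (HeightOneSpectrum (𝓞 L))} (g : Gal(M/L)) {x : Additive Mˣ}
    (hx : x ∈ TU (TM M T)) : sg g x ∈ TU (TM M T) := by
  intro w hw
  have h1 : placeSmul g (placeSmul g⁻¹ w) = w := HeightOneSpectrum.ext (smul_inv_smul g w.asIdeal)
  rw [← h1, ordH_sg]
  apply hx
  rw [mem_TM, under_placeSmul]
  exact hw

/-- action on `T`-units -/
noncomputable def sgT (T : Set (HeightOneSpectrum (𝓞 L))) (g : Gal(M/L)) :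
    Module.End ℤ (TU (TM M T)) := (sg g).restrict fun _ hx => sg_mem_TU g hx

theorem coe_sgT (T : Set (HeightOneSpectrum (𝓞 L))) (g : Gal(M/L)) (x : TU (TM M T)) :
    ((sgT T g x : TU (TM M T)) : Additive Mˣ) = sg g (x : Additive Mˣ) := rfl

theorem coe_sgT_pow (T : Set (HeightOneSpectrum (𝓞 L))) (g : Gal(M/L)) (n : ℕ) (x : TU (TM M T)) :
    (((sgT T g ^ n) x : TU (TM M T)) : Additive Mˣ) = (sg g ^ n) (x : Additive Mˣ) := by
  induction n generalizing x with
  | zero => rfl
  | succ n ih => rw [pow_succ, pow_succ, Module.End.mul_apply, Module.End.mul_apply, ih, coe_sgT]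

variable (L M) in
/-- the norm in additive notation -/
noncomputable def normA : Additive Mˣ →+ Additive Lˣ :=
  MonoidHom.toAdditive (Units.map (Algebra.norm L : M →* L))

variable (L M) in
/-- inclusion in additive notation -/
noncomputable def inclA : Additive Lˣ →+ Additive Mˣ :=
  MonoidHom.toAdditive (Units.map (algebraMap L M : L →* M))

theorem coe_normA (x : Additive Mˣ) :
    ((Additive.toMul (normA L M x) : Lˣ) : L) = Algebra.norm L ((Additive.toMul x : Mˣ) : M) := rfl

theorem coe_inclA (x : Additive Lˣ) :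
    ((Additive.toMul (inclA L M x) : Mˣ) : M) = algebraMap L M ((Additive.toMul x : Lˣ) : L) := rfl

theorem inclA_injective : Function.Injective (inclA L M) := by
  intro x y h
  have h1 := congrArg (fun z : Additive Mˣ => ((Additive.toMul z : Mˣ) : M)) h
  exact Additive.toMul.injective (Units.ext (FaithfulSMul.algebraMap_injective L M h1))

theorem sg_inclA (g : Gal(M/L)) (x : Additive Lˣ) : sg g (inclA L M x) = inclA L M x := by
  apply Additive.toMul.injective
  apply Units.ext
  rw [coe_sg, coe_inclA, AlgEquiv.commutes]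

variable {p : ℕ} [hp : Fact p.Prime]

theorem inclA_normA (hd : Module.finrank L M = p) {σ : Gal(M/L)}
    (hσ : ∀ g, g ∈ Subgroup.zpowers σ) (x : Additive Mˣ) :
    inclA L M (normA L M x) = ∑ i ∈ Finset.range p, (sg σ ^ i) x := by
  classical
  apply Additive.toMul.injective
  rw [toMul_sum]
  apply Units.ext
  rw [coe_inclA, coe_normA, Algebra.norm_eq_prod_automorphisms, Units.coe_prod]
  have h1 : ∀ i, ((Additive.toMul ((sg σ ^ i) x) : Mˣ) : M) = (σ ^ i) ((Additive.toMul x : Mˣ) : M) := by
    intro i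
    rw [← sg_pow, coe_sg]
  simp only [h1]
  have hord : orderOf σ = p := by
    rw [← Nat.card_zpowers, (Subgroup.eq_top_iff' _).2 hσ, Subgroup.card_top,
      IsGalois.card_aut_eq_finrank, hd]
  rw [← hord]
  have h2 : Finset.univ = (Finset.range (orderOf σ)).image (fun i => σ ^ i) := by
    ext g
    simp only [Finset.mem_univ, Finset.mem_image, Finset.mem_range, true_iff]
    have := hσ g
    rw [← mem_powers_iff_mem_zpowers, mem_powers_iff_mem_range_orderOf] at this
    simpa using this
  rw [h2, Finset.prod_image]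
  intro i hi j hj hij
  exact pow_injOn_Iio_orderOf (by simpa using hi) (by simpa using hj) hij

theorem normA_inclA (hd : Module.finrank L M = p) (x : Additive Lˣ) :
    normA L M (inclA L M x) = p • x := by
  apply Additive.toMul.injective
  apply Units.ext
  rw [coe_normA, coe_inclA, Algebra.norm_algebraMap, hd]
  rfl

theorem ordH_inclA (w : HeightOneSpectrum (𝓞 M)) (x : Additive Lˣ) :
    ordH M w (inclA L M x) =
      ((under L w).asIdeal.ramificationIdx' w.asIdeal : ℤ) * ordH L (under L w) x :=
  ordH_algebraMap w (Additive.toMul x)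

theorem ramificationIdx_ne_zero (w : HeightOneSpectrum (𝓞 M)) :
    (under L w).asIdeal.ramificationIdx' w.asIdeal ≠ 0 :=
  Ideal.IsDedekindDomain.ramificationIdx'_ne_zero_of_liesOver w.asIdeal (under L w).ne_bot

theorem inclA_mem_TU_iff (T : Set (HeightOneSpectrum (𝓞 L))) (x : Additive Lˣ) :
    inclA L M x ∈ TU (TM M T) ↔ x ∈ TU T := by
  constructor
  · intro h v hv
    obtain ⟨w, rfl⟩ := under_surjective (M := M) v
    have h1 := h w hv
    rw [ordH_inclA, mul_eq_zero] at h1
    rcases h1 with h1 | h1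
    · exact absurd (Nat.cast_eq_zero.1 h1) (ramificationIdx_ne_zero w)
    · exact h1
  · intro h w hw
    rw [ordH_inclA, h _ hw, mul_zero]

theorem normA_mem_TU (hd : Module.finrank L M = p) {σ : Gal(M/L)}
    (hσ : ∀ g, g ∈ Subgroup.zpowers σ) {T : Set (HeightOneSpectrum (𝓞 L))} {x : Additive Mˣ}
    (hx : x ∈ TU (TM M T)) : normA L M x ∈ TU T := by
  rw [← inclA_mem_TU_iff (M := M), inclA_normA hd hσ]
  refine Submodule.sum_mem _ fun i _ => ?_
  rw [← sg_pow]
  exact sg_mem_TU _ hx

/-- norm map on `T`-units -/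
noncomputable def normT (hd : Module.finrank L M = p) {σ : Gal(M/L)}
    (hσ : ∀ g, g ∈ Subgroup.zpowers σ) (T : Set (HeightOneSpectrum (𝓞 L))) :
    TU (TM M T) →+ TU T :=
  ((normA L M).comp (TU (TM M T)).subtype.toAddMonoidHom).codRestrict (TU T)
    (fun x => normA_mem_TU hd hσ x.2)

theorem coe_normT (hd : Module.finrank L M = p) {σ : Gal(M/L)}
    (hσ : ∀ g, g ∈ Subgroup.zpowers σ) (T : Set (HeightOneSpectrum (𝓞 L))) (x : TU (TM M T)) :
    ((normT hd hσ T x : TU T) : Additive Lˣ) = normA L M (x : Additive Mˣ) := rfl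

/-- inclusion map on `T`-units -/
noncomputable def inclT (M : Type) [Field M] [NumberField M] [Algebra L M]
    (T : Set (HeightOneSpectrum (𝓞 L))) [IsGalois L M] :
    TU T →+ TU (TM M T) :=
  ((inclA L M).comp (TU T).subtype.toAddMonoidHom).codRestrict (TU (TM M T))
    (fun x => (inclA_mem_TU_iff T _).2 x.2)

theorem coe_inclT (T : Set (HeightOneSpectrum (𝓞 L))) (x : TU T) :
    ((inclT M T x : TU (TM M T)) : Additive Mˣ) = inclA L M (x : Additive Lˣ) := rfl

/-- Hilbert 90 for `T`-units: `T` contains the ramified places and `Cl_T = 1`. -/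
theorem exists_of_nrm_eq_zero (hd : Module.finrank L M = p) {σ : Gal(M/L)}
    (hσ : ∀ g, g ∈ Subgroup.zpowers σ) {T : Set (HeightOneSpectrum (𝓞 L))}
    (hcl : ClTriv T)
    (hur : ∀ w : HeightOneSpectrum (𝓞 M), under L w ∉ T →
      (under L w).asIdeal.ramificationIdx' w.asIdeal = 1)
    {u : TU (TM M T)} (hu : nrm p (sgT T σ) u = 0) :
    ∃ e : TU (TM M T), (1 - sgT T σ) e = u := by
  -- Hilbert 90
  have h1 : normA L M (u : Additive Mˣ) = 0 := by
    apply inclA_injective (M := M)
    rw [inclA_normA hd hσ, map_zero]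
    have h2 := congrArg (Subtype.val) hu
    rw [nrm_apply, AddSubmonoidClass.coe_finsetSum] at h2
    refine Eq.trans (Finset.sum_congr rfl fun i _ => ?_) h2
    exact (coe_sgT_pow T σ i u).symm
  have h2 : Algebra.norm L ((Additive.toMul (u : Additive Mˣ) : Mˣ) : M) = 1 := by
    rw [← coe_normA, h1]; rfl
  haveI : IsCyclic Gal(M/L) := ⟨⟨σ, hσ⟩⟩
  obtain ⟨y, hy⟩ := groupCohomology.exists_div_of_norm_eq_one hσ h2
  set m : Additive Mˣ := Additive.ofMul y with hm
  have hmu : m - sg σ m = (u : Additive Mˣ) := by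
    apply Additive.toMul.injective
    apply Units.ext
    rw [toMul_sub, Units.val_div_eq_div_val, coe_sg]
    exact hy
  -- valuations of m are invariant outside T
  have hinv : ∀ w : HeightOneSpectrum (𝓞 M), under L w ∉ T → ∀ g : Gal(M/L),
      ordH M (placeSmul g w) m = ordH M w m := by
    have hstep : ∀ w : HeightOneSpectrum (𝓞 M), under L w ∉ T →
        ordH M (placeSmul σ w) m = ordH M w m := by
      intro w hw
      have h3 := u.2 (placeSmul σ w) (by rw [mem_TM, under_placeSmul]; exact hw)
      rw [← hmu, map_sub, ordH_sg, sub_eq_zero] at h3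
      exact h3
    have hpow : ∀ n : ℕ, ∀ w : HeightOneSpectrum (𝓞 M), under L w ∉ T →
        ordH M (placeSmul (σ ^ n) w) m = ordH M w m := by
      intro n
      induction n with
      | zero =>
        intro w _
        congr 1
        congr 1
        exact HeightOneSpectrum.ext (by change (σ ^ 0) • w.asIdeal = _; rw [pow_zero, one_smul])
      | succ n ih =>
        intro w hw
        have h4 : placeSmul (σ ^ (n + 1)) w = placeSmul (σ ^ n) (placeSmul σ w) :=
          HeightOneSpectrum.ext (by
            change (σ ^ (n + 1)) • w.asIdeal = (σ ^ n) • (σ • w.asIdeal)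
            rw [pow_succ, mul_smul])
        rw [h4, ih _ (by rw [under_placeSmul]; exact hw), hstep w hw]
    intro w hw g
    have hg := hσ g
    rw [← mem_powers_iff_mem_zpowers] at hg
    obtain ⟨n, rfl⟩ := hg
    exact hpow n w hw
  -- descend the ideal of m
  choose W hW using under_surjective (L := L) (M := M)
  have hfin : {v : HeightOneSpectrum (𝓞 L) | ordH M (W v) m ≠ 0}.Finite := by
    have h3 := finite_ordH_ne_zero m
    refine (h3.image (under L)).subset fun v hv => ⟨W v, hv, hW v⟩
  obtain ⟨c, hc⟩ := exists_ordH_eq hcl (fun v => ordH M (W v) m) hfin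
  have hkey : m - inclA L M c ∈ TU (TM M T) := by
    intro w hw
    have hw' : under L w ∉ T := hw
    rw [map_sub, ordH_inclA, hur w hw', Nat.cast_one, one_mul, hc _ hw']
    obtain ⟨g, hg⟩ := exists_placeSmul_eq (w := W (under L w)) (w' := w) (hW (under L w))
    rw [← hg, under_placeSmul, hW]
    rw [hinv _ (by rw [hW]; exact hw')]
    rw [sub_self]
  refine ⟨⟨m - inclA L M c, hkey⟩, ?_⟩
  apply Subtype.ext
  rw [LinearMap.sub_apply, Module.End.one_apply, Submodule.coe_sub, coe_sgT]
  change m - inclA L M c - sg σ (m - inclA L M c) = _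
  rw [map_sub, sg_inclA, ← hmu]
  abel

theorem inclT_injective (T : Set (HeightOneSpectrum (𝓞 L))) :
    Function.Injective (inclT M T) := by
  intro x y h
  apply Subtype.ext
  apply inclA_injective (M := M)
  exact congrArg Subtype.val h

theorem exists_inclA_eq {σ : Gal(M/L)} (hσ : ∀ g, g ∈ Subgroup.zpowers σ)
    {m : Additive Mˣ} (hm : sg σ m = m) : ∃ x, inclA L M x = m := by
  have h1 : ∀ g : Gal(M/L), g ((Additive.toMul m : Mˣ) : M) = ((Additive.toMul m : Mˣ) : M) := by
    intro g
    obtain ⟨n, rfl⟩ := (mem_powers_iff_mem_zpowers.2 (hσ g))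
    have : ∀ n : ℕ, (sg σ ^ n) m = m := by
      intro n
      induction n with
      | zero => rfl
      | succ n ih => rw [pow_succ, Module.End.mul_apply, hm, ih]
    rw [← coe_sg]
    change (((Additive.toMul (sg (σ ^ n) m) : Mˣ)) : M) = _
    rw [sg_pow, this]
  obtain ⟨x, hx⟩ := (IsGalois.mem_range_algebraMap_iff_fixed _).2 h1
  have hx0 : x ≠ 0 := by
    rintro rfl
    rw [map_zero] at hx
    exact (Additive.toMul m).ne_zero hx.symm
  refine ⟨Additive.ofMul (Units.mk0 x hx0), ?_⟩
  apply Additive.toMul.injective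
  apply Units.ext
  exact hx

theorem sgT_pow_prime (hd : Module.finrank L M = p) (T : Set (HeightOneSpectrum (𝓞 L)))
    (σ : Gal(M/L)) : sgT T σ ^ p = 1 := by
  apply LinearMap.ext
  intro x
  apply Subtype.ext
  rw [coe_sgT_pow, ← sg_pow]
  have : σ ^ p = 1 := by
    rw [← hd, ← IsGalois.card_aut_eq_finrank]
    exact pow_card_eq_one'
  rw [this, sg_one]
  rfl

/-- the number of places above `v` is `1` or `p`. -/
theorem gNum_eq_one_or (hd : Module.finrank L M = p) (v : HeightOneSpectrum (𝓞 L)) :
    gNum M v = 1 ∨ gNum M v = p := by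
  obtain ⟨w, rfl⟩ := under_surjective (M := M) v
  have h1 := gNum_mul_card_stabilizer (L := L) w
  rw [hd] at h1
  exact (Nat.dvd_prime hp.out).1 ⟨_, h1.symm⟩

/-- **The norm index of `T`-units** in a cyclic extension of prime degree, when `T` contains the
ramified places, the class group outside `T` is trivial, and all infinite places split. -/
theorem index_range_normT (hd : Module.finrank L M = p) {σ : Gal(M/L)}
    (hσ : ∀ g, g ∈ Subgroup.zpowers σ) {T : Set (HeightOneSpectrum (𝓞 L))} (hT : T.Finite)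
    (hcl : ClTriv T)
    (hur : ∀ w : HeightOneSpectrum (𝓞 M), under L w ∉ T →
      (under L w).asIdeal.ramificationIdx' w.asIdeal = 1)
    (hinf : Fintype.card (InfinitePlace M) = p * Fintype.card (InfinitePlace L)) :
    (normT hd hσ T).range.index * p = p ^ {v | v ∈ T ∧ gNum M v = 1}.ncard := by
  classical
  have hp1 : 1 < p := hp.out.one_lt
  haveI := finite_TU (finite_TM (M := M) hT)
  haveI := finite_TU hT
  obtain ⟨h1, h2, h3⟩ := chevalley (A := TU (TM M T)) p (sgT T σ) (sgT_pow_prime hd T σ)
  -- H^1 = 0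
  have hH1 : Nat.card (HH (lin (nrm p (sgT T σ))) (lin (1 - sgT T σ))) = 1 := by
    rw [Nat.card_eq_one_iff_unique]
    refine ⟨⟨fun a b => ?_⟩, ⟨0⟩⟩
    have key : ∀ a : HH (lin (nrm p (sgT T σ))) (lin (1 - sgT T σ)), a = 0 := by
      intro a
      obtain ⟨x, hx, rfl⟩ := HH.mk_surj a
      rw [HH.mk_eq_zero_iff]
      exact exists_of_nrm_eq_zero hd hσ hcl hur hx
    rw [key a, key b]
  -- H^0
  have hH0 : Nat.card (HH (lin (1 - sgT T σ)) (lin (nrm p (sgT T σ)))) =
      (normT hd hσ T).range.index := by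
    refine card_HH_eq_index p (sgT T σ) (inclT M T) (inclT_injective T) (fun b => ?_)
      (fun a ha => ?_) _ (fun a => ?_)
    · apply Subtype.ext
      rw [coe_sgT, coe_inclT, sg_inclA]
    · obtain ⟨x, hx⟩ := exists_inclA_eq hσ (congrArg Subtype.val ha)
      have hx' : x ∈ TU T := by
        rw [← inclA_mem_TU_iff (M := M), hx]
        exact a.2
      exact ⟨⟨x, hx'⟩, Subtype.ext hx⟩
    · apply Subtype.ext
      rw [coe_inclT, coe_normT, inclA_normA hd hσ, nrm_apply, AddSubmonoidClass.coe_finsetSum]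
      exact Finset.sum_congr rfl fun i _ => (coe_sgT_pow T σ i a).symm
  -- rank of invariants
  have hinv : Module.finrank ℤ (inv (sgT T σ)) = Module.finrank ℤ (TU T) := by
    let e : TU T →ₗ[ℤ] inv (sgT T σ) :=
      ((inclT M T).toIntLinearMap).codRestrict (inv (sgT T σ)) (fun x => by
        rw [mem_inv_iff]
        apply Subtype.ext
        change sg σ (inclA L M x) = inclA L M x
        rw [sg_inclA])
    have he : Function.Bijective e := by
      constructor
      · intro x y h
        exact inclT_injective T (congrArg Subtype.val h)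
      · rintro ⟨a, ha⟩
        rw [mem_inv_iff] at ha
        obtain ⟨x, hx⟩ := exists_inclA_eq hσ (congrArg Subtype.val ha)
        have hx' : x ∈ TU T := by
          rw [← inclA_mem_TU_iff (M := M), hx]
          exact a.2
        exact ⟨⟨x, hx'⟩, Subtype.ext (Subtype.ext hx)⟩
    exact (LinearEquiv.ofBijective e he).finrank_eq.symm
  rw [hH1, hH0, one_pow, one_mul, hinv] at h3
  have hrM := finrank_TU (finite_TM (M := M) hT)
  have hrL := finrank_TU hT
  rw [hinf, ncard_TM hT] at hrM
  -- sum of gNum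
  set t1 := {v | v ∈ T ∧ gNum M v = 1}.ncard with ht1
  have hsum : ∑ v ∈ hT.toFinset, gNum M v + (p - 1) * t1 = p * T.ncard := by
    have h4 : t1 = ∑ v ∈ hT.toFinset, if gNum M v = 1 then 1 else 0 := by
      rw [Finset.sum_ite, Finset.sum_const_zero, add_zero, Finset.sum_const, smul_eq_mul, mul_one,
        ht1]
      rw [← Set.ncard_coe_finset]
      congr 1
      ext v
      simp
    have h5 : T.ncard = ∑ v ∈ hT.toFinset, 1 := by
      rw [Finset.sum_const, smul_eq_mul, mul_one, Set.ncard_eq_toFinset_card _ hT]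
    rw [h4, h5, Finset.mul_sum, Finset.mul_sum, ← Finset.sum_add_distrib]
    refine Finset.sum_congr rfl fun v _ => ?_
    rcases gNum_eq_one_or (M := M) hd v with h6 | h6
    · rw [if_pos h6, h6]
      omega
    · rw [if_neg (by omega), h6]
      omega
  have hcL : 0 < Fintype.card (InfinitePlace L) := Fintype.card_pos
  set I := (normT hd hσ T).range.index with hI
  set rM := Module.finrank ℤ (TU (TM M T)) with hrM'
  set rL := Module.finrank ℤ (TU T) with hrL'
  set c := Fintype.card (InfinitePlace L) with hc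
  set n := T.ncard with hn
  set S := ∑ v ∈ hT.toFinset, gNum M v with hS
  have hexp : rM + (p - 1) * t1 = p * rL + (p - 1) := by
    have e1 : p * rL + p = p * n + p * c := by rw [← mul_add, ← hrL]; ring
    omega
  have h6 : (I * p) ^ (p - 1) = (p ^ t1) ^ (p - 1) := by
    have h7 : (I * p) ^ (p - 1) * p ^ rM = (p ^ t1) ^ (p - 1) * p ^ rM := by
      calc (I * p) ^ (p - 1) * p ^ rM = (I ^ (p - 1) * p ^ rM) * p ^ (p - 1) := by
            rw [mul_pow]; ring
        _ = p ^ (p * rL + (p - 1)) := by rw [h3, pow_add]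
        _ = (p ^ t1) ^ (p - 1) * p ^ rM := by
            rw [← hexp, pow_add, ← pow_mul, mul_comm t1]; ring
    exact Nat.eq_of_mul_eq_mul_right (pow_pos hp.out.pos _) h7
  exact Nat.pow_left_injective (by omega) h6

/-- **First inequality**, in terms of the vector spaces `V_T`. -/
theorem exists_norm_subspace (hd : Module.finrank L M = p) {T : Set (HeightOneSpectrum (𝓞 L))}
    (hT : T.Finite) (hcl : ClTriv T)
    (hur : ∀ w : HeightOneSpectrum (𝓞 M), under L w ∉ T →
      (under L w).asIdeal.ramificationIdx' w.asIdeal = 1)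
    (hinf : Fintype.card (InfinitePlace M) = p * Fintype.card (InfinitePlace L))
    {ζ : L} (hζ : IsPrimitiveRoot ζ p) :
    ∃ N : Submodule (ZMod p) (KP p L), N ≤ VT T ∧
      (∀ y ∈ N, ∃ z : Additive Mˣ, kp p L (normA L M z) = y) ∧
      FiniteDimensional (ZMod p) N ∧
      Module.finrank (ZMod p) N + {v | v ∈ T ∧ gNum M v = 1}.ncard =
        T.ncard + Fintype.card (InfinitePlace L) + 1 := by
  haveI hcyc : IsCyclic Gal(M/L) := isCyclic_of_prime_card (p := p) (by
    rw [IsGalois.card_aut_eq_finrank, hd])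
  obtain ⟨σ, hσ⟩ := hcyc.exists_generator
  have hidx := index_range_normT hd hσ hT hcl hur hinf
  set R := (normT hd hσ T).range with hR
  let N' : AddSubgroup (VT T : Submodule (ZMod p) (KP p L)) := R.map (tuToVT p T)
  let N'' : AddSubgroup (KP p L) := N'.map (VT T : Submodule (ZMod p) (KP p L)).subtype.toAddMonoidHom
  have hcard'' : Nat.card N'' = Nat.card N' := by
    refine (Nat.card_congr (N'.equivMapOfInjective _ ?_).toEquiv).symm
    exact Subtype.val_injective
  have hker : (tuToVT p T).ker ≤ R := by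
    rw [ker_tuToVT]
    rintro _ ⟨x, rfl⟩
    refine ⟨inclT M T x, ?_⟩
    apply Subtype.ext
    rw [coe_normT, coe_inclT, normA_inclA hd]
    rfl
  have hindex : N'.index = R.index := by
    rw [AddSubgroup.index_map, sup_eq_left.2 hker,
      AddMonoidHom.range_eq_top.mpr (tuToVT_surjective hcl), AddSubgroup.index_top, mul_one]
  have h1 : Nat.card N' * N'.index = p ^ (T.ncard + Fintype.card (InfinitePlace L)) := by
    rw [AddSubgroup.card_mul_index, card_VT hcl hT hζ]
  haveI := finite_VT hcl hT hζ (p := p)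
  haveI : Finite N' := inferInstance
  haveI : Finite N'' := Nat.finite_of_card_ne_zero (by rw [hcard'']; exact Nat.card_pos.ne')
  let N : Submodule (ZMod p) (KP p L) := AddSubgroup.toZModSubmodule p N''
  have hN : ∀ x, x ∈ N ↔ x ∈ N'' := fun x => Iff.rfl
  haveI : Finite N := ‹Finite N''›
  haveI : FiniteDimensional (ZMod p) N := Module.Finite.of_finite
  refine ⟨N, ?_, ?_, inferInstance, ?_⟩
  · rintro x hx
    obtain ⟨y, hy, rfl⟩ := (hN x).1 hx
    exact y.2
  · rintro x hx
    obtain ⟨y, hy, rfl⟩ := (hN x).1 hx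
    obtain ⟨r, hr, rfl⟩ := hy
    obtain ⟨z, rfl⟩ := hr
    exact ⟨z, rfl⟩
  · have h2 : Nat.card N = Nat.card N' := hcard''
    rw [Module.natCard_eq_pow_finrank (K := ZMod p), Nat.card_zmod] at h2
    apply Nat.pow_right_injective hp.out.two_le
    change p ^ (_ + _) = p ^ (_ + 1)
    rw [pow_add, pow_succ, ← h1, ← hidx, hindex, h2]
    ring

end

end Fermat.Agent.CFT
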