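import Mathlib
import Fermat.Agent.CFT.NormIndex

set_option linter.unusedSectionVars false
set_option linter.unusedVariables false
set_option linter.style.haveILetI false
set_option autoImplicit false

/-!
# Kummer extensions of prime degree of number fields
-/

open NumberField IsDedekindDomain nonZeroDivisors Pointwise

namespace Fermat.Agent.CFT

section Infinite

variable {K : Type*} [Field K] [NumberField K] {p : ℕ}

theorem isTotallyComplex_of_isPrimitiveRoot {ζ : K} (hζ : IsPrimitiveRoot ζ p) (hp : 2 < p) :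
    IsTotallyComplex K where
  isComplex := by
    intro w
    by_contra hw
    rw [InfinitePlace.not_isComplex_iff_isReal] at hw
    have h1 : IsPrimitiveRoot (w.embedding_of_isReal hw ζ) p :=
      hζ.map_of_injective (w.embedding_of_isReal hw).injective
    have h2 : (w.embedding_of_isReal hw ζ) ^ p = 1 := h1.pow_eq_one
    have h3 : (w.embedding_of_isReal hw ζ) ^ 2 = 1 := by
      have h4 : |w.embedding_of_isReal hw ζ| = 1 := by
        have h5 : |w.embedding_of_isReal hw ζ| ^ p = 1 := by rw [← abs_pow, h2, abs_one]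
        exact (pow_eq_one_iff_of_nonneg (abs_nonneg _) (by omega)).1 h5
      rw [← sq_abs, h4, one_pow]
    have h6 := (h1.pow_eq_one_iff_dvd 2).1 h3
    have := Nat.le_of_dvd (by norm_num) h6
    omega

theorem finrank_eq_two_mul_card {ζ : K} (hζ : IsPrimitiveRoot ζ p) (hp : 2 < p) :
    Module.finrank ℚ K = 2 * Fintype.card (InfinitePlace K) := by
  haveI := isTotallyComplex_of_isPrimitiveRoot hζ hp
  rw [IsTotallyComplex.finrank (K := K), InfinitePlace.card_eq_nrRealPlaces_add_nrComplexPlaces,
    IsTotallyComplex.nrRealPlaces_eq_zero, zero_add]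

theorem card_infinitePlace_eq_mul {L M : Type*} [Field L] [NumberField L] [Field M] [NumberField M]
    [Algebra L M] {ζ : L} (hζ : IsPrimitiveRoot ζ p) (hp : 2 < p) :
    Fintype.card (InfinitePlace M) = Module.finrank L M * Fintype.card (InfinitePlace L) := by
  have h1 := finrank_eq_two_mul_card hζ hp
  have h2 := finrank_eq_two_mul_card (hζ.map_of_injective (algebraMap L M).injective) hp
  have h3 := Module.finrank_mul_finrank ℚ L M
  have h4 : 2 * Fintype.card (InfinitePlace M) =
      2 * (Module.finrank L M * Fintype.card (InfinitePlace L)) := by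
    rw [← h2, ← h3, h1]; ring
  omega

end Infinite

section Kummer

variable {L M : Type} [Field L] [NumberField L] [Field M] [NumberField M] [Algebra L M]
variable {p : ℕ} [hp : Fact p.Prime] {ζ : L} (hζ : IsPrimitiveRoot ζ p)
  {x : L} (hx : ∀ b : L, b ^ p ≠ x) {α : M} (hα : α ^ p = algebraMap L M x)
  (htop : IntermediateField.adjoin L {α} = ⊤)

include hζ hx hα htop

theorem kummer_finrank : Module.finrank L M = p := by
  have hirr := X_pow_sub_C_irreducible_of_prime hp.out hx
  have hmin : minpoly L α = Polynomial.X ^ p - Polynomial.C x := by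
    symm
    refine minpoly.eq_of_irreducible_of_monic hirr ?_ (Polynomial.monic_X_pow_sub_C _ hp.out.ne_zero)
    simp [hα]
  rw [← IntermediateField.finrank_top', ← htop,
    IntermediateField.adjoin.finrank (Algebra.IsIntegral.isIntegral α), hmin,
    Polynomial.natDegree_X_pow_sub_C]

theorem kummer_isGalois : IsGalois L M := by
  have hd := kummer_finrank hζ hx hα htop
  have hpr : (primitiveRoots (Module.finrank L M) L).Nonempty := by
    rw [hd]
    exact ⟨ζ, (mem_primitiveRoots hp.out.pos).2 hζ⟩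
  have hα' : α ^ (Module.finrank L M) = algebraMap L M x := by rw [hd]; exact hα
  haveI := isSplittingField_X_pow_sub_C_of_root_adjoin_eq_top (K := L) (L := M) hpr hα' htop
  refine isGalois_of_isSplittingField_X_pow_sub_C hpr
    (irreducible_X_pow_sub_C_of_root_adjoin_eq_top hα' htop) M

omit hx in
/-- an automorphism fixing the root is trivial -/
theorem kummer_eq_one {σ : Gal(M/L)} (hσ : σ α = α) : σ = 1 := by
  apply AlgEquiv.ext
  intro y
  have hy : y ∈ IntermediateField.adjoin L {α} := by rw [htop]; exact IntermediateField.mem_top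
  have h1 : IntermediateField.adjoin L {α} ≤ IntermediateField.fixedField (Subgroup.zpowers σ) := by
    rw [IntermediateField.adjoin_le_iff, Set.singleton_subset_iff]
    rintro ⟨g, hg⟩
    obtain ⟨n, rfl⟩ := Subgroup.mem_zpowers_iff.1 hg
    change (σ ^ n) α = α
    have h2 : ∀ n : ℕ, (σ ^ n) α = α := by
      intro n
      induction n with
      | zero => rfl
      | succ n ih => rw [pow_succ, AlgEquiv.mul_apply, hσ, ih]
    rcases Int.eq_nat_or_neg n with ⟨m, rfl | rfl⟩
    · rw [zpow_natCast, h2]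
    · rw [zpow_neg, zpow_natCast]
      have h3 := h2 m
      have : (σ ^ m)⁻¹ ((σ ^ m) α) = α := by
        rw [← AlgEquiv.mul_apply, inv_mul_cancel]; rfl
      rwa [h3] at this
  exact (h1 hy) ⟨σ, Subgroup.mem_zpowers σ⟩

theorem kummer_inertia_eq_bot (w : HeightOneSpectrum (𝓞 M))
    (hw : ((p : ℕ) : 𝓞 M) ∉ w.asIdeal) (hx0 : x ≠ 0)
    (hord : (p : ℤ) ∣ ordH L (under L w) (Additive.ofMul (Units.mk0 x hx0)))
    {σ : Gal(M/L)} (hσ : σ ∈ w.asIdeal.inertia Gal(M/L)) : σ = 1 := by
  haveI := kummer_isGalois hζ hx hα htop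
  have hσ' : ∀ a : 𝓞 M, σ • a - a ∈ w.asIdeal := hσ
  have hα0 : α ≠ 0 := by
    rintro rfl
    rw [zero_pow hp.out.ne_zero] at hα
    exact hx0 ((map_eq_zero_iff _ (algebraMap L M).injective).1 hα.symm)
  obtain ⟨k, hk⟩ := hord
  -- uniformizer
  obtain ⟨π, hπ⟩ := (under L w).valuation_exists_uniformizer L
  have hπ0 : π ≠ 0 := by
    rintro rfl
    rw [map_zero] at hπ
    exact absurd hπ WithZero.exp_ne_zero.symm
  have hπ1 : ordH L (under L w) (Additive.ofMul (Units.mk0 π hπ0)) = 1 := by
    rw [ordH_eq_iff]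
    exact hπ
  set e : ℕ := (under L w).asIdeal.ramificationIdx' w.asIdeal with he
  set α' : Additive Mˣ := Additive.ofMul (Units.mk0 α hα0) with hα'
  have h1 : ordH M w α' = e * k := by
    have h2 : p • α' = inclA L M (Additive.ofMul (Units.mk0 x hx0)) := by
      apply Additive.toMul.injective
      apply Units.ext
      exact hα
    have h3 := congrArg (ordH M w) h2
    rw [map_nsmul, ordH_inclA, hk, nsmul_eq_mul] at h3
    have hp0 : (p : ℤ) ≠ 0 := by exact_mod_cast hp.out.ne_zero
    apply mul_left_cancel₀ hp0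
    rw [h3]; ring
  set c : Lˣ := (Units.mk0 π hπ0) ^ (-k) with hc
  set β' : Additive Mˣ := α' + inclA L M (Additive.ofMul c) with hβ'
  have hβv : ordH M w β' = 0 := by
    rw [hβ', map_add, h1, ordH_inclA, hc]
    have : Additive.ofMul ((Units.mk0 π hπ0) ^ (-k)) = (-k) • Additive.ofMul (Units.mk0 π hπ0) := rfl
    rw [this, map_zsmul, hπ1]
    simp [he]
  set β : M := ((Additive.toMul β' : Mˣ) : M) with hβ
  have hβα : β = α * algebraMap L M (c : L) := rfl
  have hval : w.valuation M β = 1 := (ordH_eq_zero_iff w (Additive.toMul β')).1 hβv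
  obtain ⟨n, d, hnd⟩ := w.exists_primeCompl_mul_eq_of_integer β hval.le
  have hd1 : w.valuation M (algebraMap (𝓞 M) M d) = 1 := by
    rw [HeightOneSpectrum.valuation_of_algebraMap]
    exact (w.intValuation_eq_one_iff_mem_primeCompl d).2 d.2
  -- action on β
  have hζM : IsPrimitiveRoot (algebraMap L M ζ) p := hζ.map_of_injective (algebraMap L M).injective
  have h4 : (σ α / α) ^ p = 1 := by
    rw [div_pow, ← map_pow, hα, AlgEquiv.commutes, div_self]
    rw [← hα]
    exact pow_ne_zero _ hα0
  obtain ⟨i, hi, hiα⟩ := hζM.eq_pow_of_pow_eq_one h4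
  have h5 : σ α = (algebraMap L M ζ) ^ i * α := by rw [hiα]; field_simp
  have h6 : σ β = (algebraMap L M ζ) ^ i * β := by
    rw [hβα, map_mul, AlgEquiv.commutes, h5]; ring
  -- the congruence
  have h7 : w.valuation M (((algebraMap L M ζ) ^ i - 1) * algebraMap (𝓞 M) M d) < 1 := by
    have h8 : w.valuation M (algebraMap (𝓞 M) M (σ • n - n)) < 1 := by
      rw [HeightOneSpectrum.valuation_of_algebraMap, HeightOneSpectrum.intValuation_lt_one_iff_mem]
      exact hσ' n
    have h9 : w.valuation M (algebraMap (𝓞 M) M (σ • (d : 𝓞 M) - d)) < 1 := by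
      rw [HeightOneSpectrum.valuation_of_algebraMap, HeightOneSpectrum.intValuation_lt_one_iff_mem]
      exact hσ' d
    have hsm : ∀ a : 𝓞 M, algebraMap (𝓞 M) M (σ • a) = σ (algebraMap (𝓞 M) M a) := fun a => rfl
    rw [map_sub, hsm] at h8 h9
    have hζ1 : w.valuation M ((algebraMap L M ζ) ^ i) = 1 := by
      have h10 : (w.valuation M ((algebraMap L M ζ) ^ i)) ^ p = 1 := by
        rw [← map_pow, ← pow_mul, mul_comm, pow_mul, hζM.pow_eq_one, one_pow, map_one]
      exact (pow_eq_one_iff_of_nonneg zero_le hp.out.ne_zero).1 h10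
    have h11 : β * (((algebraMap L M ζ) ^ i - 1) * algebraMap (𝓞 M) M d) =
        (σ (algebraMap (𝓞 M) M n) - algebraMap (𝓞 M) M n) -
        β * (algebraMap L M ζ) ^ i * (σ (algebraMap (𝓞 M) M d) - algebraMap (𝓞 M) M d) := by
      rw [← hnd, map_mul, h6]; ring
    have h12 : w.valuation M (β * (((algebraMap L M ζ) ^ i - 1) * algebraMap (𝓞 M) M d)) < 1 := by
      rw [h11]
      refine lt_of_le_of_lt (Valuation.map_sub _ _ _) (max_lt h8 ?_)
      rw [map_mul, map_mul, hval, hζ1, one_mul, one_mul]
      exact h9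
    rwa [map_mul, hval, one_mul] at h12
  rw [map_mul, hd1, mul_one] at h7
  -- hence `ζ ^ i = 1`
  apply kummer_eq_one hζ hα htop
  rw [h5]
  by_cases hi0 : i = 0
  · rw [hi0, pow_zero, one_mul]
  exfalso
  apply hw
  rw [← HeightOneSpectrum.intValuation_lt_one_iff_mem, ← HeightOneSpectrum.valuation_of_algebraMap (K := M)]
  obtain ⟨m, hm⟩ : ∃ m, p = m + 1 := ⟨p - 1, (Nat.succ_pred_prime hp.out).symm⟩
  have hζM' : IsPrimitiveRoot (algebraMap L M ζ) (m + 1) := hm ▸ hζM
  have hprod := hζM'.prod_one_sub_pow_eq_order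
  have h13 : algebraMap (𝓞 M) M ((p : ℕ) : 𝓞 M) = ∏ k ∈ Finset.range m, (1 - (algebraMap L M ζ) ^ (k + 1)) := by
    rw [hprod, hm]
    push_cast
    simp
  change w.valuation M (algebraMap (𝓞 M) M ((p : ℕ) : 𝓞 M)) < 1
  rw [h13, map_prod]
  have hle : ∀ k ∈ Finset.range m, w.valuation M (1 - (algebraMap L M ζ) ^ (k + 1)) ≤ 1 := by
    intro k _
    have hint : IsIntegral ℤ (1 - (algebraMap L M ζ) ^ (k + 1)) := by
      refine isIntegral_one.sub (IsIntegral.pow ?_ _)
      exact hζM.isIntegral hp.out.pos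
    obtain ⟨y, hy⟩ := (IsIntegralClosure.isIntegral_iff (A := 𝓞 M)).1 hint
    rw [← hy]
    exact w.valuation_le_one y
  have himem : i - 1 ∈ Finset.range m := Finset.mem_range.2 (by omega)
  have hlt : w.valuation M (1 - (algebraMap L M ζ) ^ (i - 1 + 1)) < 1 := by
    rw [show i - 1 + 1 = i by omega, Valuation.map_sub_swap]
    exact h7
  rw [← Finset.mul_prod_erase _ _ himem]
  exact mul_lt_one_of_lt_of_le hlt (Finset.prod_le_one' fun k hk => hle k (Finset.mem_of_mem_erase hk))

theorem kummer_ramificationIdx_eq_one (w : HeightOneSpectrum (𝓞 M))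
    (hw : ((p : ℕ) : 𝓞 M) ∉ w.asIdeal) (hx0 : x ≠ 0)
    (hord : (p : ℤ) ∣ ordH L (under L w) (Additive.ofMul (Units.mk0 x hx0))) :
    (under L w).asIdeal.ramificationIdx' w.asIdeal = 1 := by
  haveI := kummer_isGalois hζ hx hα htop
  haveI := isGaloisGroup_OO (L := L) (M := M)
  have h1 : w.asIdeal.inertia Gal(M/L) = ⊥ := by
    rw [Subgroup.eq_bot_iff_forall]
    intro σ hσ
    exact kummer_inertia_eq_bot hζ hx hα htop w hw hx0 hord hσ
  haveI : (under L w).asIdeal.IsMaximal := (under L w).isMaximal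
  haveI : Finite (𝓞 L ⧸ (under L w).asIdeal) :=
    Ideal.finiteQuotientOfFreeOfNeBot _ (under L w).ne_bot
  haveI : Finite (under L w).asIdeal.ResidueField := inferInstance
  haveI : PerfectField (under L w).asIdeal.ResidueField := inferInstance
  have h2 := Ideal.card_inertia_eq_ramificationIdxIn (G := Gal(M/L)) (under L w).asIdeal w.asIdeal
  rw [h1, Ideal.ramificationIdxIn_eq_ramificationIdx (under L w).asIdeal w.asIdeal Gal(M/L)] at h2
  rw [Ideal.ramificationIdx'_eq_ramificationIdx (p := (under L w).asIdeal) (q := w.asIdeal)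
    (under L w).ne_bot, ← h2]
  simp

end Kummer

end Fermat.Agent.CFT
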