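import Mathlib
import Fermat.Agent.CFT.KummerExt
import Fermat.Agent.Frob.Places

set_option linter.unusedSectionVars false
set_option linter.unusedVariables false
set_option linter.style.haveILetI false
set_option autoImplicit false

/-!
# Splitting of places in Kummer extensions and decomposition groups in `Gal(Qbar/Q)`
-/

open NumberField IsDedekindDomain nonZeroDivisors Pointwise

namespace Fermat.Agent.CFT

open Fermat.Agent.Frob (below mem_below below_comap)

local notation "Om" => AlgebraicClosure ℚ

section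

variable (L : IntermediateField ℚ Om) [FiniteDimensional ℚ L]

instance numberField_intermediate : NumberField L := { to_finiteDimensional := inferInstance }

/-- `U A L`: the decomposition group of `A` in `Gal(Qbar/L)` -/
noncomputable def UA (A : ValuationSubring Om) (L : IntermediateField ℚ Om) : Subgroup (Om ≃ₐ[ℚ] Om) :=
  A.decompositionSubgroup ℚ ⊓ L.fixingSubgroup

variable {L}

/-- elements of the decomposition group over `L`, seen over `ℚ` -/
theorem mem_UA_restrictScalars {A : ValuationSubring Om} {g : Om ≃ₐ[L] Om}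
    (hg : g ∈ A.decompositionSubgroup L) : g.restrictScalars ℚ ∈ UA A L := by
  refine ⟨?_, ?_⟩
  · have h : g • A = A := hg
    have h' : (g.restrictScalars ℚ) • A = A := by
      rw [← h]
      ext x
      rw [h]
      have : (g.restrictScalars ℚ) • A = g • A := by
        apply SetLike.coe_injective
        rfl
      rw [this, h]
    exact h'
  · change _ ∈ L.fixingSubgroup
    rw [IntermediateField.mem_fixingSubgroup_iff]
    intro x hx
    exact g.commutes ⟨x, hx⟩

theorem exists_of_mem_UA {A : ValuationSubring Om} {g : Om ≃ₐ[ℚ] Om} (hg : g ∈ UA A L) :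
    ∃ g' : Om ≃ₐ[L] Om, g' ∈ A.decompositionSubgroup L ∧ ∀ x, g' x = g x := by
  obtain ⟨h1, h2⟩ := hg
  change g ∈ L.fixingSubgroup at h2
  rw [IntermediateField.mem_fixingSubgroup_iff] at h2
  let g' : Om ≃ₐ[L] Om := AlgEquiv.ofRingEquiv (f := (g : Om ≃+* Om)) (fun x => h2 x x.2)
  refine ⟨g', ?_, fun x => rfl⟩
  have h : g • A = A := h1
  have : g' • A = A := by
    have h3 : g' • A = g • A := by
      apply SetLike.coe_injective
      rfl
    rw [h3, h]
  exact this

/-- the place of `L` below a place of `Qbar` -/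
noncomputable def placeBelow (F : Type*) [Field F] [NumberField F] [Algebra F Om]
    (A : ValuationSubring Om) {ℓ : ℕ} (hℓ : ℓ.Prime)
    (hA : A.LiesOverPrime ℓ) : HeightOneSpectrum (𝓞 F) where
  asIdeal := below (𝓞 F) A
  isPrime := inferInstance
  ne_bot := by
    intro h
    have h1 := Fermat.Agent.Frob.natCast_mem_below (R := 𝓞 F) hA
    rw [h, Ideal.mem_bot] at h1
    exact hℓ.ne_zero (by exact_mod_cast h1)

variable {M : IntermediateField L Om} [FiniteDimensional L M]

instance numberField_intermediate₂ : NumberField M :=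
  { to_finiteDimensional := FiniteDimensional.trans ℚ L M }

instance isScalarTower_OO : IsScalarTower (𝓞 L) (𝓞 M) Om :=
  IsScalarTower.of_algebraMap_eq fun x => rfl

theorem under_placeBelow (A : ValuationSubring Om) {ℓ : ℕ} (hℓ : ℓ.Prime) (hA : A.LiesOverPrime ℓ) :
    under L (placeBelow M A hℓ hA) = placeBelow L A hℓ hA :=
  HeightOneSpectrum.ext (below_comap (𝓞 L) (R' := 𝓞 M) A)

variable {p : ℕ} [hp : Fact p.Prime] {ζ : L} (hζ : IsPrimitiveRoot ζ p)
  {x : L} (hx : ∀ b : L, b ^ p ≠ x) {α : M} (hα : α ^ p = algebraMap L M x)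
  (htop : IntermediateField.adjoin L {α} = ⊤)

include hζ hx hα htop

/-- A place `v` of `L` has exactly one place above it in `M = L(α)` iff the decomposition group
of `v` moves `α`. -/
theorem gNum_eq_one_iff {A : ValuationSubring Om} {ℓ : ℕ} (hℓ : ℓ.Prime) (hA : A.LiesOverPrime ℓ)
    {v : HeightOneSpectrum (𝓞 L)} (hv : placeBelow L A hℓ hA = v) :
    gNum M v = 1 ↔ ∃ g ∈ UA A L, g (α : Om) ≠ α := by
  haveI := kummer_isGalois hζ hx hα htop
  have hd := kummer_finrank hζ hx hα htop
  subst hv
  have h1 := gNum_mul_card_stabilizer (L := L) (placeBelow M A hℓ hA)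
  rw [under_placeBelow, hd] at h1
  have hres : ∀ g : Om ≃ₐ[L] Om, ((g.restrictNormal M α : M) : Om) = g (α : Om) := fun g =>
    AlgEquiv.restrictNormal_commutes g M α
  constructor
  · intro h
    rw [h, one_mul] at h1
    have h2 : (MulAction.stabilizer Gal(M/L) (placeBelow M A hℓ hA).asIdeal) ≠ ⊥ := by
      intro h3
      rw [h3, Subgroup.card_bot] at h1
      exact hp.out.one_lt.ne h1
    obtain ⟨τ, hτ1⟩ := Subgroup.ne_bot_iff_exists_ne_one.1 h2
    obtain ⟨σ, hσ, hστ⟩ := Fermat.Agent.Frob.exists_mem_decomposition_restrict (K := L) M A hℓ hA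
      τ.1 τ.2
    refine ⟨_, mem_UA_restrictScalars hσ, ?_⟩
    intro h4
    apply hτ1
    apply Subtype.ext
    apply kummer_eq_one hζ hα htop
    rw [← hστ]
    apply Subtype.ext
    rw [hres]
    exact h4
  · rintro ⟨g, hg, hgα⟩
    obtain ⟨g', hg', hgg'⟩ := exists_of_mem_UA hg
    have h2 : g'.restrictNormal M ∈
        (MulAction.stabilizer Gal(M/L) (placeBelow M A hℓ hA).asIdeal) :=
      Fermat.Agent.Frob.restrictNormal_smul_below M hg'
    rcases gNum_eq_one_or (M := M) hd (placeBelow L A hℓ hA) with h3 | h3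
    · exact h3
    · exfalso
      rw [h3] at h1
      have h4 : Nat.card (MulAction.stabilizer Gal(M/L) (placeBelow M A hℓ hA).asIdeal) = 1 :=
        Nat.eq_of_mul_eq_mul_left hp.out.pos (by rw [h1, mul_one])
      have h5 := Subgroup.eq_bot_of_card_eq _ h4
      rw [h5, Subgroup.mem_bot] at h2
      apply hgα
      rw [← hgg', ← hres, h2]
      rfl

end

end Fermat.Agent.CFT
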