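import Mathlib
import Fermat.Agent.CFT.KummerPlaces
import Fermat.Agent.CFT.GalLevels
import Fermat.Agent.LocalF.LocGal

set_option linter.unusedSectionVars false
set_option linter.unusedVariables false
set_option linter.style.haveILetI false
set_option autoImplicit false

/-!
# The Kummer map `Lˣ / p ≃ Hom(G_L, ℤ/p)` for number fields `L ⊆ Qbar`
-/

open NumberField IsDedekindDomain nonZeroDivisors Pointwise

namespace Fermat.Agent.CFT

open Fermat.Agent.LocalF (sym sym_eq_zero_iff Z1_map_mul)

local notation "Om" => AlgebraicClosure ℚ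

theorem isGal_galLevels_aux {k Ω : Type*} [Field k] [Field Ω] [Algebra k Ω] [IsGalois k Ω] :
    IsGal (galLevels k Ω) Ω where
  smooth x := by
    obtain ⟨H, hH, h⟩ := exists_level_smul_eq (k := k) x
    exact Levels.up_mem hH fun g hg => h g hg
  sep := by
    intro U hU
    obtain ⟨F, hF, hFU⟩ := mem_galLevels.1 hU
    let b := Module.finBasis k F
    refine ⟨Set.range fun i => (b i : Ω), Set.finite_range _, fun g hg => hFU ?_⟩
    rw [IntermediateField.mem_fixingSubgroup_iff]
    intro x hx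
    have h1 : (⟨x, hx⟩ : F) = ∑ i, b.repr ⟨x, hx⟩ i • b i := (b.sum_repr _).symm
    have h2 : x = ∑ i, b.repr ⟨x, hx⟩ i • (b i : Ω) := by
      have := congrArg (algebraMap F Ω) h1
      rw [map_sum] at this
      exact this
    rw [h2, map_sum]
    refine Finset.sum_congr rfl fun i _ => ?_
    rw [map_smul]
    congr 1
    exact hg _ ⟨i, rfl⟩

theorem isGal_Om : IsGal (galLevels ℚ Om) Om := isGal_galLevels_aux

/-- levels on `G_L` -/
noncomputable abbrev LL (L : IntermediateField ℚ Om) : Levels L.fixingSubgroup :=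
  (galLevels ℚ Om).restrict L.fixingSubgroup

theorem hdiv_Om {p : ℕ} (hp : p ≠ 0) : ∀ w : Om, w ≠ 0 → ∃ v : Om, v ^ p = w := fun w _ => by
  obtain ⟨v, hv⟩ := IsAlgClosed.exists_pow_nat_eq w (Nat.pos_of_ne_zero hp)
  exact ⟨v, hv⟩

theorem mem_iff_fixed {L : IntermediateField ℚ Om} {x : Om} :
    x ∈ L ↔ ∀ g : L.fixingSubgroup, g • x = x := by
  have h1 : IntermediateField.fixedField L.fixingSubgroup = L :=
    InfiniteGalois.fixedField_fixingSubgroup L
  conv_lhs => rw [← h1]
  exact Iff.rfl

section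

variable {p : ℕ} [hp : Fact p.Prime] {L : IntermediateField ℚ Om}

variable (p) in
/-- chosen `p`-th root of an element of `Lˣ` -/
noncomputable def root (x : Additive Lˣ) : Om :=
  (hdiv_Om hp.out.ne_zero (((Additive.toMul x : Lˣ) : L) : Om) (by simp)).choose

theorem root_pow (x : Additive Lˣ) : root p x ^ p = (((Additive.toMul x : Lˣ) : L) : Om) :=
  (hdiv_Om hp.out.ne_zero (((Additive.toMul x : Lˣ) : L) : Om) (by simp)).choose_spec

theorem root_ne_zero (x : Additive Lˣ) : root p x ≠ 0 := by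
  intro h
  have h1 := root_pow (p := p) x
  rw [h, zero_pow hp.out.ne_zero] at h1
  have h2 : (((Additive.toMul x : Lˣ) : L) : Om) ≠ 0 := by simp
  exact h2 h1.symm

theorem smul_coe_of_mem (g : L.fixingSubgroup) (x : L) : g • (x : Om) = x :=
  mem_iff_fixed.1 x.2 g

theorem smul_root_pow (x : Additive Lˣ) (g : L.fixingSubgroup) :
    g • root p x ^ p = root p x ^ p := by
  rw [root_pow]; exact smul_coe_of_mem g _

variable {ζ : Om} (hζ : IsPrimitiveRoot ζ p) (hζL : ζ ∈ L)

/-- the Kummer character of an element of `Lˣ` -/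
noncomputable def kumHom : Additive Lˣ →+ Z1 (LL L) (triv p L.fixingSubgroup) where
  toFun x := ⟨fun g => kummer p ζ (root p x) g,
    kummer_LC hζ (isGal_Om.restrict _) (root_ne_zero x) (mem_iff_fixed.1 hζL) (smul_root_pow x),
    fun g h => (kummer_map_mul hζ (root_ne_zero x) (mem_iff_fixed.1 hζL g) (smul_root_pow x g)
      (smul_root_pow x h)).trans (add_comm _ _)⟩
  map_zero' := by
    apply Subtype.ext
    funext g
    change kummer p ζ (root p (0 : Additive Lˣ)) g = 0
    rw [kummer_eq_of_pow_eq hζ (root_ne_zero _) (y' := 1) (by rw [root_pow]; simp)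
      (mem_iff_fixed.1 hζL g) (smul_root_pow _ g)]
    exact kummer_of_fixed hζ one_ne_zero (smul_one g)
  map_add' x y := by
    apply Subtype.ext
    funext g
    change kummer p ζ (root p (x + y)) g = kummer p ζ (root p x) g + kummer p ζ (root p y) g
    rw [kummer_eq_of_pow_eq hζ (root_ne_zero _) (y' := root p x * root p y)
      (by rw [mul_pow, root_pow, root_pow, root_pow]; simp)
      (mem_iff_fixed.1 hζL g) (smul_root_pow _ g),
      kummer_mul hζ (root_ne_zero x) (root_ne_zero y) (smul_root_pow x g) (smul_root_pow y g)]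

theorem kumHom_apply {x : Additive Lˣ} {α : Om} (hα : α ^ p = (((Additive.toMul x : Lˣ) : L) : Om))
    (g : L.fixingSubgroup) :
    (kumHom hζ hζL x : L.fixingSubgroup → ZMod p) g = kummer p ζ α g :=
  kummer_eq_of_pow_eq hζ (root_ne_zero _) (by rw [root_pow, hα]) (mem_iff_fixed.1 hζL g)
    (smul_root_pow x g)

/-- the Kummer map on `Lˣ / p` -/
noncomputable def kum : KP p L →ₗ[ZMod p] Z1 (LL L) (triv p L.fixingSubgroup) :=
  kpLift (kumHom hζ hζL)

theorem kum_kp (x : Additive Lˣ) : kum hζ hζL (kp p L x) = kumHom hζ hζL x := rfl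

theorem kum_surjective : Function.Surjective (kum hζ hζL) := by
  intro κ
  obtain ⟨y, hy0, hy, hκ⟩ := exists_kummer_eq hζ (isGal_Om.restrict _) (mem_iff_fixed.1 hζL)
    κ.2.1 (Z1_map_mul κ)
  have hyL : y ^ p ∈ L := mem_iff_fixed.2 hy
  have hne : (⟨y ^ p, hyL⟩ : L) ≠ 0 := by
    intro h
    exact pow_ne_zero p hy0 (congrArg Subtype.val h)
  refine ⟨kp p L (Additive.ofMul (Units.mk0 ⟨y ^ p, hyL⟩ hne)), ?_⟩
  rw [kum_kp]
  apply Subtype.ext
  funext g
  rw [kumHom_apply hζ hζL (α := y) rfl, ← hκ]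

theorem kumHom_eq_zero_iff (x : Additive Lˣ) :
    kumHom hζ hζL x = 0 ↔ ∃ y : Additive Lˣ, p • y = x := by
  constructor
  · intro h
    have h1 : ∀ g : L.fixingSubgroup, g • root p x = root p x := by
      intro g
      have h2 : (kumHom hζ hζL x : L.fixingSubgroup → ZMod p) g = 0 := by rw [h]; rfl
      exact (kummer_eq_zero_iff hζ (root_ne_zero x) (smul_root_pow x g)).1 h2
    have hL : root p x ∈ L := mem_iff_fixed.2 h1
    have hne : (⟨root p x, hL⟩ : L) ≠ 0 := by
      intro h
      exact root_ne_zero x (congrArg Subtype.val h)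
    refine ⟨Additive.ofMul (Units.mk0 ⟨root p x, hL⟩ hne), ?_⟩
    apply Additive.toMul.injective
    apply Units.ext
    apply Subtype.ext
    exact root_pow x
  · rintro ⟨y, rfl⟩
    apply Subtype.ext
    funext g
    rw [kumHom_apply hζ hζL (α := (((Additive.toMul y : Lˣ) : L) : Om)) rfl]
    exact kummer_of_fixed hζ (by simp) (smul_coe_of_mem g _)

theorem kum_injective : Function.Injective (kum hζ hζL) := by
  rw [injective_iff_map_eq_zero]
  intro x hx
  obtain ⟨y, rfl⟩ := kp_surjective p L x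
  rw [kum_kp, kumHom_eq_zero_iff] at hx
  exact kp_eq_zero_iff.2 hx

end

end Fermat.Agent.CFT
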