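import Mathlib
import Fermat.Agent.CFT.KummerMap

set_option linter.unusedSectionVars false
set_option linter.unusedVariables false
set_option linter.style.haveILetI false
set_option autoImplicit false

/-!
# The norm subspaces of `V_T`, concrete form
-/

open NumberField IsDedekindDomain nonZeroDivisors Pointwise

namespace Fermat.Agent.CFT

open Fermat.Agent.LocalF (sym sym_eq_zero_iff Z1_map_mul)
open Fermat.Agent.Frob (below mem_below)

local notation "Om" => AlgebraicClosure ℚ

section Places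

variable {L : IntermediateField ℚ Om} [FiniteDimensional ℚ L]

theorem exists_prime_mem (v : HeightOneSpectrum (𝓞 L)) :
    ∃ ℓ : ℕ, ℓ.Prime ∧ ((ℓ : ℕ) : 𝓞 L) ∈ v.asIdeal := by
  haveI := v.isMaximal
  haveI : Finite (𝓞 L ⧸ v.asIdeal) := Ideal.finiteQuotientOfFreeOfNeBot _ v.ne_bot
  letI : Field (𝓞 L ⧸ v.asIdeal) := Ideal.Quotient.field v.asIdeal
  obtain ⟨ℓ, hℓ⟩ := CharP.exists (𝓞 L ⧸ v.asIdeal)
  have hpr : ℓ.Prime := by
    rcases CharP.char_is_prime_or_zero (𝓞 L ⧸ v.asIdeal) ℓ with h | h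
    · exact h
    · subst h
      haveI := CharP.charP_to_charZero (𝓞 L ⧸ v.asIdeal)
      exact absurd ‹Finite (𝓞 L ⧸ v.asIdeal)› (not_finite_iff_infinite.2 (Infinite.of_injective
        (Nat.cast : ℕ → 𝓞 L ⧸ v.asIdeal) Nat.cast_injective))
  refine ⟨ℓ, hpr, ?_⟩
  rw [← Ideal.Quotient.eq_zero_iff_mem, map_natCast]
  exact CharP.cast_eq_zero _ ℓ

/-- the rational prime below a place of `L`. -/
noncomputable def lv (v : HeightOneSpectrum (𝓞 L)) : ℕ := (exists_prime_mem v).choose

theorem lv_prime (v : HeightOneSpectrum (𝓞 L)) : (lv v).Prime := (exists_prime_mem v).choose_spec.1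

theorem lv_mem (v : HeightOneSpectrum (𝓞 L)) : ((lv v : ℕ) : 𝓞 L) ∈ v.asIdeal :=
  (exists_prime_mem v).choose_spec.2

theorem lv_unique (v : HeightOneSpectrum (𝓞 L)) {q : ℕ} (hq : q.Prime)
    (h : ((q : ℕ) : 𝓞 L) ∈ v.asIdeal) : q = lv v := by
  by_contra hne
  have hc : Nat.Coprime q (lv v) := (Nat.coprime_primes hq (lv_prime v)).2 hne
  have h1 : (1 : 𝓞 L) ∈ v.asIdeal := by
    have h2 := Nat.gcd_eq_gcd_ab q (lv v)
    rw [Nat.Coprime.gcd_eq_one hc] at h2
    have h3 : (1 : 𝓞 L) = (q : 𝓞 L) * (Nat.gcdA q (lv v) : ℤ) + (lv v : 𝓞 L) * (Nat.gcdB q (lv v) : ℤ) := by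
      exact_mod_cast congrArg (Int.cast : ℤ → 𝓞 L) h2
    rw [h3]
    exact add_mem (Ideal.mul_mem_right _ _ h) (Ideal.mul_mem_right _ _ (lv_mem v))
  exact v.isPrime.ne_top ((Ideal.eq_top_iff_one _).2 h1)

/-- a place of `Qbar` above `v` -/
noncomputable def Av (v : HeightOneSpectrum (𝓞 L)) : ValuationSubring Om :=
  haveI := v.isMaximal
  (Fermat.Agent.Frob.exists_below_eq (L := Om) v.asIdeal).choose

theorem below_Av (v : HeightOneSpectrum (𝓞 L)) : below (𝓞 L) (Av v) = v.asIdeal :=
  haveI := v.isMaximal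
  (Fermat.Agent.Frob.exists_below_eq (L := Om) v.asIdeal).choose_spec

theorem Av_lies (v : HeightOneSpectrum (𝓞 L)) : (Av v).LiesOverPrime (lv v) :=
  Fermat.Agent.Frob.liesOverPrime_of_mem_below (R := 𝓞 L) (by rw [below_Av]; exact lv_mem v)

theorem placeBelow_Av (v : HeightOneSpectrum (𝓞 L)) :
    placeBelow L (Av v) (lv_prime v) (Av_lies v) = v := HeightOneSpectrum.ext (below_Av v)

/-- the places above `p` -/
def Tp (L : IntermediateField ℚ Om) [FiniteDimensional ℚ L] (p : ℕ) :
    Set (HeightOneSpectrum (𝓞 L)) := {v | ((p : ℕ) : 𝓞 L) ∈ v.asIdeal}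

theorem finite_Tp {p : ℕ} (hp : p ≠ 0) : (Tp L p).Finite := by
  have h0 : Ideal.span {((p : ℕ) : 𝓞 L)} ≠ 0 := by
    rw [Ne, Ideal.zero_eq_bot, Ideal.span_singleton_eq_bot]
    exact_mod_cast hp
  refine (Ideal.finite_factors h0).subset fun v hv => ?_
  rw [Set.mem_ofPred_eq, Ideal.dvd_span_singleton]
  exact hv

end Places

section Norm

variable {p : ℕ} [hp : Fact p.Prime] {L : IntermediateField ℚ Om} [FiniteDimensional ℚ L]
variable {ζ : Om} (hζ : IsPrimitiveRoot ζ p) (hζL : ζ ∈ L)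

theorem adjoin_gen_eq_top (α : Om) :
    IntermediateField.adjoin L {(⟨α, IntermediateField.mem_adjoin_simple_self L α⟩ :
      IntermediateField.adjoin L {α})} = ⊤ := by
  apply IntermediateField.lift_injective
  rw [IntermediateField.lift_adjoin_simple, IntermediateField.lift_top]

instance finiteDimensional_adjoin_single (α : Om) :
    FiniteDimensional L (IntermediateField.adjoin L {α}) := by
  haveI : Algebra.IsAlgebraic ℚ Om := Fermat.Agent.Frob.isAlgebraicQbar
  have : Algebra.IsAlgebraic L Om := Algebra.IsAlgebraic.tower_top (K := ℚ) L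
  exact IntermediateField.adjoin.finiteDimensional (Algebra.IsAlgebraic.isAlgebraic α).isIntegral

include hζ hζL in
/-- the norm subspace of `V_T` attached to `x`. -/
theorem exists_norm_field (hp2 : 2 < p) {x : KP p L} (hx : x ≠ 0) {T : Set (HeightOneSpectrum (𝓞 L))}
    (hT : T.Finite) (hcl : ClTriv T) (hTp : Tp L p ⊆ T) (hxT : x ∈ VT T) :
    ∃ N : Submodule (ZMod p) (KP p L), N ≤ VT T ∧
      (∀ y ∈ N, sym (LL L) p (kum hζ hζL x) (kum hζ hζL y) = 0) ∧
      FiniteDimensional (ZMod p) N ∧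
      Module.finrank (ZMod p) N +
        {v | v ∈ T ∧ ∃ g : L.fixingSubgroup, (g : Om ≃ₐ[ℚ] Om) ∈ (Av v).decompositionSubgroup ℚ ∧
          (kum hζ hζL x : L.fixingSubgroup → ZMod p) g ≠ 0}.ncard =
        T.ncard + Fintype.card (InfinitePlace L) + 1 := by
  obtain ⟨y, rfl⟩ := kp_surjective p L x
  set α : Om := root p y with hα
  have hα0 : α ≠ 0 := root_ne_zero y
  set y' : L := ((Additive.toMul y : Lˣ) : L) with hy'
  have hy0 : y' ≠ 0 := (Additive.toMul y).ne_zero
  let M : IntermediateField L Om := IntermediateField.adjoin L {α}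
  let α' : M := ⟨α, IntermediateField.mem_adjoin_simple_self L α⟩
  let ζ' : L := ⟨ζ, hζL⟩
  have hζ' : IsPrimitiveRoot ζ' p := IsPrimitiveRoot.of_map_of_injective (f := algebraMap L Om)
    (by exact hζ) (algebraMap L Om).injective
  have hxp : ∀ b : L, b ^ p ≠ y' := by
    intro b hb
    apply hx
    have hb0 : b ≠ 0 := by
      rintro rfl
      rw [zero_pow hp.out.ne_zero] at hb
      exact hy0 hb.symm
    rw [kp_eq_zero_iff]
    refine ⟨Additive.ofMul (Units.mk0 b hb0), ?_⟩
    apply Additive.toMul.injective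
    apply Units.ext
    exact hb
  have hα' : α' ^ p = algebraMap L M y' := by
    apply Subtype.ext
    exact root_pow y
  have htop : IntermediateField.adjoin L {α'} = ⊤ := adjoin_gen_eq_top α
  haveI := kummer_isGalois hζ' hxp hα' htop
  have hd := kummer_finrank hζ' hxp hα' htop
  -- ramification
  have hur : ∀ w : HeightOneSpectrum (𝓞 M), under L w ∉ T →
      (under L w).asIdeal.ramificationIdx' w.asIdeal = 1 := by
    intro w hw
    refine kummer_ramificationIdx_eq_one hζ' hxp hα' htop w ?_ hy0 ?_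
    · intro h
      apply hw
      apply hTp
      change ((p : ℕ) : 𝓞 L) ∈ w.asIdeal.under (𝓞 L)
      rw [Ideal.mem_comap, map_natCast]
      exact h
    · have h1 := hxT _ hw
      rw [ordp_kp_eq_zero_iff] at h1
      have h2 : Additive.ofMul (Units.mk0 y' hy0) = y := by
        apply Additive.toMul.injective
        apply Units.ext
        rfl
      rw [h2]
      exact h1
  have hinf : Fintype.card (InfinitePlace M) = p * Fintype.card (InfinitePlace L) := by
    rw [card_infinitePlace_eq_mul (L := L) (M := M) hζ' hp2, hd]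
  obtain ⟨N, hN1, hN2, hN3, hN4⟩ := exists_norm_subspace hd hT hcl hur hinf hζ'
  refine ⟨N, hN1, ?_, hN3, ?_⟩
  · -- norms have trivial symbol
    intro n hn
    obtain ⟨z, rfl⟩ := hN2 n hn
    -- the character
    have hκ0 : kum hζ hζL (kp p L y) ≠ 0 := fun h => hx (kum_injective hζ hζL (by rw [h, map_zero]))
    obtain ⟨σ, hσ⟩ := Fermat.Agent.LocalF.exists_eq_one hκ0
    rw [sym_eq_zero_iff]
    set β : Om := root p (normA L M z) with hβ
    have hβeq : ((kum hζ hζL (kp p L (normA L M z)) : Z1 (LL L) (triv p L.fixingSubgroup)) :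
        L.fixingSubgroup → ZMod p) = kummer p ζ β := rfl
    rw [hβeq]
    refine (cup_mem_B2_iff hζ (isGal_Om.restrict _) (mem_iff_fixed.1 hζL) (hdiv_Om hp.out.ne_zero)
      (kum hζ hζL (kp p L y)).2.1 (Z1_map_mul _)
      (Fermat.Agent.LocalF.mem_kerZ1 (kum hζ hζL (kp p L y))) hσ
      (root_ne_zero _) (smul_root_pow _)).2 ?_
    -- the restriction of `σ` to `M`
    obtain ⟨σ', hσ'⟩ : ∃ σ' : Om ≃ₐ[L] Om, ∀ t, σ' t = (σ : Om ≃ₐ[ℚ] Om) t :=
      ⟨AlgEquiv.ofRingEquiv (f := ((σ : Om ≃ₐ[ℚ] Om) : Om ≃+* Om))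
        (fun t => smul_coe_of_mem σ t), fun t => rfl⟩
    let τ : Gal(M/L) := σ'.restrictNormal M
    have hτ : ∀ t : M, ((τ t : M) : Om) = (σ : Om ≃ₐ[ℚ] Om) (t : Om) := fun t => by
      rw [← hσ']
      exact AlgEquiv.restrictNormal_commutes σ' M t
    have hτpow : ∀ (i : ℕ) (t : M), (((τ ^ i) t : M) : Om) = (σ ^ i) • (t : Om) := by
      intro i
      induction i with
      | zero => intro t; rw [pow_zero, pow_zero, one_smul]; rfl
      | succ i ih =>
        intro t
        rw [pow_succ, pow_succ, AlgEquiv.mul_apply, ih, hτ, mul_smul]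
        rfl
    have hτ1 : τ ≠ 1 := by
      intro h
      have h1 := hτ α'
      rw [h] at h1
      have h2 : σ • α = α := h1.symm
      have h3 : kummer p ζ α σ = 0 := kummer_of_fixed hζ hα0 h2
      rw [show kummer p ζ α σ = 1 from hσ] at h3
      exact one_ne_zero h3
    have hgen : ∀ g, g ∈ Subgroup.zpowers τ := by
      intro g
      have hc : Nat.card Gal(M/L) = p := by rw [IsGalois.card_aut_eq_finrank, hd]
      exact mem_zpowers_of_prime_card hc hτ1
    refine ⟨((Additive.toMul z : Mˣ) : M), ?_, ?_⟩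
    · intro g hg
      have hg1 : kummer p ζ α g = 0 := hg
      have hg2 : g • α = α := (kummer_eq_zero_iff hζ hα0 (smul_root_pow y g)).1 hg1
      have h1 : ∀ t ∈ M, g • t = t := by
        intro t ht
        have h2 : M ≤ IntermediateField.fixedField (Subgroup.zpowers
            (AlgEquiv.ofRingEquiv (f := ((g : Om ≃ₐ[ℚ] Om) : Om ≃+* Om))
              (fun t => smul_coe_of_mem g t) : Om ≃ₐ[L] Om)) := by
          rw [IntermediateField.adjoin_le_iff, Set.singleton_subset_iff]
          set γ : Om ≃ₐ[L] Om := AlgEquiv.ofRingEquiv (f := ((g : Om ≃ₐ[ℚ] Om) : Om ≃+* Om))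
              (fun t => smul_coe_of_mem g t) with hγ
          rintro ⟨h, hh⟩
          have hγα : γ • α = α := hg2
          have hst : γ ∈ MulAction.stabilizer (Om ≃ₐ[L] Om) α := hγα
          exact ((Subgroup.zpowers_le.2 hst) hh)
        exact (h2 ht) ⟨_, Subgroup.mem_zpowers _⟩
      exact h1 _ ((Additive.toMul z : Mˣ) : M).2
    · have h1 := inclA_normA (p := p) hd hgen z
      have h2 := congrArg (fun t : Additive Mˣ => (((Additive.toMul t : Mˣ) : M) : Om)) h1
      have h3 : β ^ p = (((Additive.toMul (inclA L M (normA L M z)) : Mˣ) : M) : Om) := by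
        rw [hβ, root_pow]
        rfl
      refine Eq.trans ?_ (h3.trans h2).symm
      rw [toMul_sum, Units.coe_prod]
      change _ = algebraMap M Om _
      rw [map_prod]
      refine Finset.prod_congr rfl fun i _ => ?_
      rw [← sg_pow, coe_sg]
      exact (hτpow i _).symm
  · rw [← hN4]
    congr 2
    ext v
    simp only [Set.mem_ofPred_eq]
    refine and_congr_right fun _ => ?_
    rw [gNum_eq_one_iff hζ' hxp hα' htop (lv_prime v) (Av_lies v) (placeBelow_Av v)]
    constructor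
    · rintro ⟨g, hg1, hg2⟩
      refine ⟨g, ⟨hg1, g.2⟩, ?_⟩
      intro h
      apply hg2
      exact kummer_of_fixed hζ hα0 h
    · rintro ⟨g, ⟨hg1, hg2⟩, hg3⟩
      refine ⟨⟨g, hg2⟩, hg1, ?_⟩
      intro h
      apply hg3
      exact (kummer_eq_zero_iff hζ hα0 (smul_root_pow y ⟨g, hg2⟩)).1 h

end Norm

end Fermat.Agent.CFT
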