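import Mathlib
import Fermat.Agent.CFT.KumNorm
import Fermat.Agent.Cheb.Bridge

set_option linter.unusedSectionVars false
set_option linter.unusedVariables false
set_option linter.style.haveILetI false
set_option autoImplicit false

/-!
# Chebotarev input for Kummer characters
-/

open NumberField IsDedekindDomain nonZeroDivisors Pointwise

namespace Fermat.Agent.CFT

open Fermat.Agent.LocalF (sym sym_eq_zero_iff Z1_map_mul)
open Fermat.Agent.Frob (below mem_below)

local notation "Om" => AlgebraicClosure ℚ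

/-- the decomposition group acts through powers of Frobenius on a Galois extension in which the
place is unramified. -/
theorem exists_eq_pow_frobenius (F : IntermediateField ℚ Om) [FiniteDimensional ℚ F] [IsGalois ℚ F]
    {ℓ : ℕ} (hℓ : ℓ.Prime) {A : ValuationSubring Om} (hA : A.LiesOverPrime ℓ)
    (hI : ∀ τ ∈ A.inertiaSubgroupIn ℚ, ∀ x ∈ F, τ x = x) {φ : Om ≃ₐ[ℚ] Om}
    (hφ : A.IsFrobeniusAt φ ℓ) {g : Om ≃ₐ[ℚ] Om} (hg : g ∈ A.decompositionSubgroup ℚ) :
    ∃ n : ℕ, ∀ x ∈ F, g x = (φ ^ n) x := by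
  haveI := Fact.mk hℓ
  have hres : ∀ (τ : Om ≃ₐ[ℚ] Om) (x : F), ((τ.restrictNormal F x : F) : Om) = τ (x : Om) :=
    fun τ x => AlgEquiv.restrictNormal_commutes τ F x
  have hIn : (below (𝓞 F) A).inertia Gal(F/ℚ) = ⊥ := by
    rw [Subgroup.eq_bot_iff_forall]
    intro τ hτ
    obtain ⟨σ, hσ, hστ⟩ := Fermat.Agent.Frob.exists_mem_inertia_restrict (K := ℚ) F A hℓ hA τ hτ
    rw [← hστ]
    apply AlgEquiv.ext
    intro x
    apply Subtype.ext
    rw [hres, hI σ hσ x x.2]
    rfl
  have hmem : ((ℓ : ℕ) : 𝓞 F) ∈ below (𝓞 F) A := Fermat.Agent.Frob.natCast_mem_below hA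
  haveI : Finite (𝓞 F ⧸ below (𝓞 F) A) :=
    Fermat.Agent.Cheb.finite_quotient_of_natCast_mem hℓ.ne_zero hmem
  have hfr := Fermat.Agent.Frob.restrictNormal_isArithFrobAt (K := ℚ) F hℓ hA hφ
  have h1 := Fermat.Agent.Cheb.stabilizer_eq_zpowers hmem hIn hfr
  have h2 : g.restrictNormal F ∈ MulAction.stabilizer Gal(F/ℚ) (below (𝓞 F) A) :=
    Fermat.Agent.Frob.restrictNormal_smul_below F hg
  rw [h1, ← mem_powers_iff_mem_zpowers] at h2
  obtain ⟨n, hn⟩ := h2
  refine ⟨n, fun x hx => ?_⟩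
  have h3 : ((AlgEquiv.restrictNormalHom F φ) ^ n : Gal(F/ℚ)) = AlgEquiv.restrictNormalHom F g := hn
  rw [← map_pow] at h3
  have h4 := congrArg (fun τ : Gal(F/ℚ) => ((τ ⟨x, hx⟩ : F) : Om)) h3
  have h5 : (((φ ^ n).restrictNormal F ⟨x, hx⟩ : F) : Om) = ((g.restrictNormal F ⟨x, hx⟩ : F) : Om) := h4
  rw [hres, hres] at h5
  exact h5.symm

section

variable {p : ℕ} [hp : Fact p.Prime] {L : IntermediateField ℚ Om} [FiniteDimensional ℚ L]

/-- `κ` vanishes on the decomposition group of `A` in `G_L` -/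
def VanAt (A : ValuationSubring Om) (κ : L.fixingSubgroup → ZMod p) : Prop :=
  ∀ g : L.fixingSubgroup, (g : Om ≃ₐ[ℚ] Om) ∈ A.decompositionSubgroup ℚ → κ g = 0

theorem vanAt_smul {A : ValuationSubring Om} {κ : L.fixingSubgroup → ZMod p}
    (hκ : ∀ g h, κ (g * h) = κ g + κ h) (h : L.fixingSubgroup) :
    VanAt ((h : Om ≃ₐ[ℚ] Om) • A) κ ↔ VanAt A κ := by
  have h1 : κ 1 = 0 := by simpa using hκ 1 1
  have hconj : ∀ g h : L.fixingSubgroup, κ (h * g * h⁻¹) = κ g := by
    intro g h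
    have h2 := hκ h h⁻¹
    rw [mul_inv_cancel, h1] at h2
    rw [hκ, hκ]
    linear_combination -h2
  have key : ∀ (A : ValuationSubring Om) (h : L.fixingSubgroup), VanAt A κ →
      VanAt ((h : Om ≃ₐ[ℚ] Om) • A) κ := by
    intro A h hA g hg
    rw [← hconj g h⁻¹]
    apply hA
    have hg' : (g : Om ≃ₐ[ℚ] Om) • ((h : Om ≃ₐ[ℚ] Om) • A) = (h : Om ≃ₐ[ℚ] Om) • A := hg
    change ((h⁻¹ * g * h⁻¹⁻¹ : L.fixingSubgroup) : Om ≃ₐ[ℚ] Om) • A = A
    rw [inv_inv]
    push_cast
    rw [mul_smul, mul_smul, hg', inv_smul_smul]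
  constructor
  · intro hA
    have h2 := key _ h⁻¹ hA
    rw [Subgroup.coe_inv, inv_smul_smul] at h2
    exact h2
  · exact key A h

/-- places of `Qbar` above the same place of `L` are conjugate under `G_L` -/
theorem exists_smul_eq_of_placeBelow {A A' : ValuationSubring Om} {ℓ : ℕ} (hℓ : ℓ.Prime)
    (hA : A.LiesOverPrime ℓ) (h : below (𝓞 L) A = below (𝓞 L) A') :
    ∃ g : L.fixingSubgroup, A' = (g : Om ≃ₐ[ℚ] Om) • A := by
  haveI : IsGalois L Om := IsGalois.tower_top_of_isGalois ℚ L Om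
  obtain ⟨σ, hσ⟩ := Fermat.Agent.Frob.exists_smul_eq_of_below_eq (K := L) hℓ hA h
  refine ⟨⟨σ.restrictScalars ℚ, ?_⟩, ?_⟩
  · rw [IntermediateField.mem_fixingSubgroup_iff]
    intro x hx
    exact σ.commutes ⟨x, hx⟩
  · rw [hσ]
    apply SetLike.coe_injective
    rfl

variable {ζ : Om} (hζ : IsPrimitiveRoot ζ p) (hζL : ζ ∈ L)

/-- Chebotarev for two Kummer classes. -/
theorem exists_place_van {x y : KP p L} (hxy : y ∉ Submodule.span (ZMod p) {x})
    (F : Set (HeightOneSpectrum (𝓞 L))) (hF : F.Finite) :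
    ∃ v ∉ F, VanAt (Av v) (kum hζ hζL x : L.fixingSubgroup → ZMod p) ∧
      ¬ VanAt (Av v) (kum hζ hζL y : L.fixingSubgroup → ZMod p) := by
  classical
  -- an element separating the characters
  obtain ⟨σ, hσx, hσy⟩ : ∃ σ : L.fixingSubgroup, (kum hζ hζL x : L.fixingSubgroup → ZMod p) σ = 0 ∧
      (kum hζ hζL y : L.fixingSubgroup → ZMod p) σ ≠ 0 := by
    by_contra hcon
    push Not at hcon
    apply hxy
    by_cases hx : kum hζ hζL x = 0
    · have hy : kum hζ hζL y = 0 := by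
        apply Subtype.ext
        funext σ
        exact hcon σ (by rw [hx]; rfl)
      have : y = 0 := kum_injective hζ hζL (by rw [hy, map_zero])
      rw [this]
      exact Submodule.zero_mem _
    · obtain ⟨τ, hτ⟩ := Fermat.Agent.LocalF.exists_eq_one hx
      set c := (kum hζ hζL y : L.fixingSubgroup → ZMod p) τ with hc
      have : y = c • x := by
        apply kum_injective hζ hζL
        rw [map_smul]
        apply Subtype.ext
        funext σ
        change (kum hζ hζL y : L.fixingSubgroup → ZMod p) σ =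
          c * (kum hζ hζL x : L.fixingSubgroup → ZMod p) σ
        set a := (kum hζ hζL x : L.fixingSubgroup → ZMod p) σ with ha
        have h1 : (kum hζ hζL x : L.fixingSubgroup → ZMod p) (σ * (τ ^ a.val)⁻¹) = 0 := by
          rw [Z1_map_mul, Fermat.Agent.LocalF.char_inv (Z1_map_mul _),
            Fermat.Agent.LocalF.char_pow (Z1_map_mul _), hτ, ← ha]
          simp
        have h2 := hcon _ h1
        rw [Z1_map_mul, Fermat.Agent.LocalF.char_inv (Z1_map_mul _),
          Fermat.Agent.LocalF.char_pow (Z1_map_mul _)] at h2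
        rw [ZMod.natCast_zmod_val] at h2
        linear_combination h2
      rw [this]
      exact Submodule.smul_mem _ _ (Submodule.mem_span_singleton_self x)
  obtain ⟨x', rfl⟩ := kp_surjective p L x
  obtain ⟨y', rfl⟩ := kp_surjective p L y
  -- the field
  let E : IntermediateField ℚ Om := L ⊔ (IntermediateField.adjoin ℚ {root p x'} ⊔
    IntermediateField.adjoin ℚ {root p y'})
  haveI h1 : FiniteDimensional ℚ (IntermediateField.adjoin ℚ {root p x'}) :=
    IntermediateField.adjoin.finiteDimensional (Algebra.IsIntegral.isIntegral _)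
  haveI h2 : FiniteDimensional ℚ (IntermediateField.adjoin ℚ {root p y'}) :=
    IntermediateField.adjoin.finiteDimensional (Algebra.IsIntegral.isIntegral _)
  haveI h3 : FiniteDimensional ℚ E := inferInstance
  let N : IntermediateField ℚ Om := IntermediateField.normalClosure ℚ E Om
  haveI : FiniteDimensional ℚ N := normalClosure.is_finiteDimensional ℚ E Om
  haveI : Normal ℚ N := normalClosure.normal ℚ E Om
  haveI : IsGalois ℚ N := {}
  have hEN : E ≤ N := E.le_normalClosure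
  have hLN : ∀ t ∈ L, t ∈ N := fun t ht => hEN ((le_sup_left : L ≤ E) ht)
  have hxN : root p x' ∈ N := hEN ((le_sup_left.trans le_sup_right :
    IntermediateField.adjoin ℚ {root p x'} ≤ E) (IntermediateField.mem_adjoin_simple_self ℚ _))
  have hyN : root p y' ∈ N := hEN ((le_sup_right.trans le_sup_right :
    IntermediateField.adjoin ℚ {root p y'} ≤ E) (IntermediateField.mem_adjoin_simple_self ℚ _))
  obtain ⟨ℓ, hℓ, hℓS, hI, A, hA, φ, hφ, ⟨k, hk⟩, ⟨j, hj⟩⟩ :=
    Fermat.Agent.Cheb.exists_frobenius N (σ : Om ≃ₐ[ℚ] Om) (hF.toFinset.image lv)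
  set v := placeBelow L A hℓ hA with hv
  have hlv : ℓ = lv v := lv_unique v hℓ (Fermat.Agent.Frob.natCast_mem_below hA)
  have hvF : v ∉ F := by
    intro h
    apply hℓS
    rw [Finset.mem_image]
    exact ⟨v, hF.mem_toFinset.2 h, hlv.symm⟩
  obtain ⟨g, hg⟩ := exists_smul_eq_of_placeBelow (L := L) (A := A) (A' := Av v) hℓ hA
    (by rw [below_Av]; rfl)
  have hVan : ∀ z : KP p L, VanAt (Av v) (kum hζ hζL z : L.fixingSubgroup → ZMod p) ↔
      VanAt A (kum hζ hζL z : L.fixingSubgroup → ZMod p) := by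
    intro z
    rw [hg]
    exact vanAt_smul (Z1_map_mul _) g
  refine ⟨v, hvF, ?_, ?_⟩
  · rw [hVan]
    intro τ hτ
    obtain ⟨n, hn⟩ := exists_eq_pow_frobenius N hℓ hA (hI A hA) hφ hτ
    have hσα : (σ : Om ≃ₐ[ℚ] Om) (root p x') = root p x' :=
      (kummer_eq_zero_iff hζ (root_ne_zero x') (smul_root_pow x' σ)).1 hσx
    have hpow : ∀ (γ : Om ≃ₐ[ℚ] Om) (t : Om), γ t = t → ∀ m : ℕ, (γ ^ m) t = t := by
      intro γ t ht m
      induction m with
      | zero => rfl
      | succ m ih => rw [pow_succ, AlgEquiv.mul_apply, ht, ih]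
    have hφα : φ (root p x') = root p x' := by
      rw [hj _ hxN]
      exact hpow _ _ hσα j
    have hτα : (τ : Om ≃ₐ[ℚ] Om) (root p x') = root p x' := by
      rw [hn _ hxN]
      exact hpow _ _ hφα n
    exact (kummer_eq_zero_iff hζ (root_ne_zero x') (smul_root_pow x' τ)).2 hτα
  · rw [hVan]
    intro hcon
    have hφD : φ ∈ A.decompositionSubgroup ℚ := ((Fermat.Agent.Frob.isFrobeniusAt_iff A φ ℓ).1 hφ).1
    have hmem : φ ^ k ∈ L.fixingSubgroup := by
      rw [IntermediateField.mem_fixingSubgroup_iff]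
      intro t ht
      rw [← hk t (hLN t ht)]
      exact (IntermediateField.mem_fixingSubgroup_iff _ _).1 σ.2 t ht
    have h4 := hcon ⟨φ ^ k, hmem⟩ (Subgroup.pow_mem _ hφD k)
    apply hσy
    have h5 : (φ ^ k) (root p y') = root p y' :=
      (kummer_eq_zero_iff hζ (root_ne_zero y') (smul_root_pow y' ⟨φ ^ k, hmem⟩)).1 h4
    refine (kummer_eq_zero_iff hζ (root_ne_zero y') (smul_root_pow y' σ)).2 ?_
    change (σ : Om ≃ₐ[ℚ] Om) (root p y') = root p y'
    rw [hk _ hyN, h5]

end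

end Fermat.Agent.CFT
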