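import Mathlib
import Fermat.Agent.CFT.ChebField
import Fermat.Agent.CFT.Loc.Package

set_option linter.unusedSectionVars false
set_option linter.unusedVariables false
set_option linter.style.haveILetI false
set_option autoImplicit false

/-!
# Local symbols over a number field `L ⊆ Qbar` containing the `p`-th roots of unity
-/

open NumberField IsDedekindDomain nonZeroDivisors Pointwise

namespace Fermat.Agent.CFT

open Fermat.Agent.LocalF (sym sym_eq_zero_iff Z1_map_mul sym_apply)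
open Fermat.Agent.Frob (below mem_below)
open Loc (levU lp1 lp2 lp4 lp5 lp6 lp7 PA mem_PA_iff_kummer)

local notation "Om" => AlgebraicClosure ℚ

section

variable (p : ℕ) [hp : Fact p.Prime] (L : IntermediateField ℚ Om)

theorem cont_inclUA (A : ValuationSubring Om) :
    Levels.Cont (levU A L) (LL L) (Subgroup.inclusion (inf_le_right : Loc.UA A L ≤ L.fixingSubgroup)) := by
  rintro J ⟨H, hH, hJ⟩
  exact ⟨H, hH, fun x hx => hJ hx⟩

theorem compat_triv {G G' : Type*} [Group G] [Group G'] (f : G' →* G) :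
    Compat (triv p G) (triv p G') f (LinearMap.id : ZMod p →ₗ[ZMod p] ZMod p) := fun _ _ => rfl

/-- restriction `H²(G_L) → H²(D_A ∩ G_L)` -/
noncomputable def resAt (A : ValuationSubring Om) :
    H2 (LL L) (triv p L.fixingSubgroup) →ₗ[ZMod p] H2 (levU A L) (triv p (Loc.UA A L)) :=
  H2.map (LL L) (levU A L) (triv p L.fixingSubgroup) (triv p (Loc.UA A L))
    (Subgroup.inclusion (inf_le_right : Loc.UA A L ≤ L.fixingSubgroup)) LinearMap.id
    (cont_inclUA L A) (compat_triv p _)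

variable {p L}

theorem resAt_mk_eq_zero {A : ValuationSubring Om} (y : Z2 (LL L) (triv p L.fixingSubgroup)) :
    resAt p L A (H2.mk (LL L) (triv p L.fixingSubgroup) y) = 0 ↔
      (fun u u' : Loc.UA A L => (y : L.fixingSubgroup → L.fixingSubgroup → ZMod p)
        ⟨u, u.2.2⟩ ⟨u', u'.2.2⟩) ∈ B2 (levU A L) (triv p (Loc.UA A L)) := by
  rw [resAt, H2.map_mk, H2.mk_eq_zero]
  rfl

variable [FiniteDimensional ℚ L] {ζ : Om} (hζ : IsPrimitiveRoot ζ p) (hζL : ζ ∈ L)

/-- identification of the local `H²` with `ZMod p` -/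
noncomputable def isoA (v : HeightOneSpectrum (𝓞 L)) :
    H2 (levU (Av v) L) (triv p (Loc.UA (Av v) L)) ≃ₗ[ZMod p] ZMod p :=
  haveI h1 := lp1 (p := p) L hζ hζL (lv_prime v) (Av_lies v)
  haveI : FiniteDimensional (ZMod p) (H2 (levU (Av v) L) (triv p (Loc.UA (Av v) L))) :=
    Module.finite_of_finrank_pos (by rw [h1]; exact one_pos)
  LinearEquiv.ofFinrankEq _ _ (by rw [h1, Module.finrank_self])

/-- localisation at `v` -/
noncomputable def locv (v : HeightOneSpectrum (𝓞 L)) :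
    H2 (LL L) (triv p L.fixingSubgroup) →ₗ[ZMod p] ZMod p :=
  (isoA hζ hζL v).toLinearMap ∘ₗ resAt p L (Av v)

theorem locv_eq_zero_iff (v : HeightOneSpectrum (𝓞 L)) (α : H2 (LL L) (triv p L.fixingSubgroup)) :
    locv hζ hζL v α = 0 ↔ resAt p L (Av v) α = 0 := by
  rw [locv, LinearMap.comp_apply, LinearEquiv.coe_coe, LinearEquiv.map_eq_zero_iff]

/-- the local symbol at `v` -/
noncomputable def sv (v : HeightOneSpectrum (𝓞 L)) :
    KP p L →ₗ[ZMod p] KP p L →ₗ[ZMod p] ZMod p :=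
  ((sym (LL L) p).compl₁₂ (kum hζ hζL) (kum hζ hζL)).compr₂ (locv hζ hζL v)

theorem sv_apply (v : HeightOneSpectrum (𝓞 L)) (x y : KP p L) :
    sv hζ hζL v x y = locv hζ hζL v (sym (LL L) p (kum hζ hζL x) (kum hζ hζL y)) := rfl

theorem sv_eq_zero_iff_cup (v : HeightOneSpectrum (𝓞 L)) (x y : Additive Lˣ) :
    sv hζ hζL v (kp p L x) (kp p L y) = 0 ↔
      cup (fun u : Loc.UA (Av v) L => kummer p ζ (root p x) (u : Om ≃ₐ[ℚ] Om))
        (fun u => kummer p ζ (root p y) (u : Om ≃ₐ[ℚ] Om)) ∈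
          B2 (levU (Av v) L) (triv p (Loc.UA (Av v) L)) := by
  rw [sv_apply, locv_eq_zero_iff, sym_apply, resAt_mk_eq_zero]
  rfl

theorem vanAt_iff (A : ValuationSubring Om) (x : Additive Lˣ) :
    VanAt A (kum hζ hζL (kp p L x) : L.fixingSubgroup → ZMod p) ↔
      ∀ u : Loc.UA A L, kummer p ζ (root p x) (u : Om ≃ₐ[ℚ] Om) = 0 := by
  constructor
  · intro h u
    exact h ⟨u, u.2.2⟩ u.2.1
  · intro h g hg
    exact h ⟨g, hg, g.2⟩

theorem sv_eq_zero_iff_van (v : HeightOneSpectrum (𝓞 L)) (x : KP p L) :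
    sv hζ hζL v x = 0 ↔ VanAt (Av v) (kum hζ hζL x : L.fixingSubgroup → ZMod p) := by
  obtain ⟨x, rfl⟩ := kp_surjective p L x
  rw [vanAt_iff]
  constructor
  · intro h
    refine lp2 L hζ hζL (lv_prime v) (Av_lies v) (root_ne_zero x)
      (by rw [root_pow]; exact Subtype.property _) (fun w hw0 hw => ?_)
    have hne : (⟨w ^ p, hw⟩ : L) ≠ 0 := by
      intro h
      exact pow_ne_zero p hw0 (congrArg Subtype.val h)
    have h1 := (sv_eq_zero_iff_cup hζ hζL v x (Additive.ofMul (Units.mk0 ⟨w ^ p, hw⟩ hne))).1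
      (by rw [h]; rfl)
    convert h1 using 3
    rename_i u
    symm
    exact kummer_eq_of_pow_eq hζ (root_ne_zero _) (by rw [root_pow]; rfl)
      (mem_iff_fixed.1 hζL ⟨u, u.2.2⟩) (smul_root_pow _ ⟨u, u.2.2⟩)
  · intro h
    apply LinearMap.ext
    intro y
    obtain ⟨y, rfl⟩ := kp_surjective p L y
    rw [LinearMap.zero_apply, sv_eq_zero_iff_cup]
    have h0 : cup (fun u : Loc.UA (Av v) L => kummer p ζ (root p x) (u : Om ≃ₐ[ℚ] Om))
        (fun u => kummer p ζ (root p y) (u : Om ≃ₐ[ℚ] Om)) = 0 := by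
      funext u u'
      rw [cup_apply, h u, zero_mul]
      rfl
    rw [h0]
    exact Submodule.zero_mem _

theorem sv_self (hp2 : p ≠ 2) (v : HeightOneSpectrum (𝓞 L)) (x : KP p L) :
    sv hζ hζL v x x = 0 := by
  rw [sv_apply, Fermat.Agent.LocalF.sym_self hp2, map_zero]

theorem sv_eq_zero_of_ord {v : HeightOneSpectrum (𝓞 L)} (hv : v ∉ Tp L p) {x y : KP p L}
    (hx : ordp v x = 0) (hy : ordp v y = 0) : sv hζ hζL v x y = 0 := by
  obtain ⟨x, rfl⟩ := kp_surjective p L x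
  obtain ⟨y, rfl⟩ := kp_surjective p L y
  rw [sv_eq_zero_iff_cup]
  have hne : p ≠ lv v := by
    intro h
    apply hv
    change ((p : ℕ) : 𝓞 L) ∈ v.asIdeal
    rw [h]
    exact lv_mem v
  exact lp4 L hζ hζL (lv_prime v) hne (Av_lies v) (below_Av v)
    ((ordp_kp_eq_zero_iff v x).1 hx) ((ordp_kp_eq_zero_iff v y).1 hy) (root_pow x) (root_pow y)

theorem vanAt_iff_fix (A : ValuationSubring Om) (x : Additive Lˣ) :
    VanAt A (kum hζ hζL (kp p L x) : L.fixingSubgroup → ZMod p) ↔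
      ∀ u ∈ Loc.UA A L, u (root p x) = root p x := by
  rw [vanAt_iff]
  constructor
  · intro h u hu
    exact (kummer_eq_zero_iff hζ (root_ne_zero x) (smul_root_pow x ⟨u, hu.2⟩)).1 (h ⟨u, hu⟩)
  · intro h u
    exact (kummer_eq_zero_iff hζ (root_ne_zero x) (smul_root_pow x ⟨u, u.2.2⟩)).2 (h u u.2)

theorem ordp_eq_zero_of_sv (v : HeightOneSpectrum (𝓞 L)) {x : KP p L}
    (h : sv hζ hζL v x = 0) : ordp v x = 0 := by
  obtain ⟨x, rfl⟩ := kp_surjective p L x
  rw [sv_eq_zero_iff_van, vanAt_iff_fix] at h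
  rw [ordp_kp_eq_zero_iff]
  exact lp5 (p := p) L (lv_prime v) (Av_lies v) (below_Av v) (root_pow x) h

theorem mem_PA_iff_van (A : ValuationSubring Om) (x : Lˣ) :
    x ∈ PA p A L ↔ VanAt A (kum hζ hζL (kp p L (Additive.ofMul x)) : L.fixingSubgroup → ZMod p) := by
  rw [vanAt_iff]
  exact mem_PA_iff_kummer L hζ hζL (x := x) (y := root p (Additive.ofMul x)) (root_pow _)

theorem exists_approx (T : Finset (HeightOneSpectrum (𝓞 L)))
    (z : HeightOneSpectrum (𝓞 L) → KP p L) :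
    ∃ x, ∀ v ∈ T, sv hζ hζL v x = sv hζ hζL v (z v) := by
  choose z' hz' using fun v => kp_surjective p L (z v)
  obtain ⟨x, hx⟩ := lp6 (p := p) L (T : Set _) T.finite_toSet (fun v => Av v)
    (fun v _ => below_Av v) (fun v => Additive.toMul (z' v))
  refine ⟨kp p L (Additive.ofMul x), fun v hv => ?_⟩
  have h1 := (mem_PA_iff_van hζ hζL (Av v) _).1 (hx v hv)
  rw [← sv_eq_zero_iff_van] at h1
  have h2 : kp p L (Additive.ofMul (x * (Additive.toMul (z' v))⁻¹)) =
      kp p L (Additive.ofMul x) - z v := by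
    rw [← hz' v, ← map_sub]
    congr 1
  rw [h2, map_sub, sub_eq_zero] at h1
  exact h1

theorem finite_lv_dvd {N : ℕ} (hN : N ≠ 0) :
    {v : HeightOneSpectrum (𝓞 L) | lv v ∣ N}.Finite := by
  refine (finite_Tp (L := L) hN).subset fun v hv => ?_
  change ((N : ℕ) : 𝓞 L) ∈ v.asIdeal
  obtain ⟨c, hc⟩ := hv
  rw [hc, Nat.cast_mul]
  exact Ideal.mul_mem_right _ _ (lv_mem v)

theorem finite_locv (α : H2 (LL L) (triv p L.fixingSubgroup)) :
    {v | locv hζ hζL v α ≠ 0}.Finite := by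
  obtain ⟨y, rfl⟩ := H2.mk_surjective _ _ α
  obtain ⟨N, hN, h⟩ := lp7 (p := p) L y.2
  refine (finite_lv_dvd (L := L) hN).subset fun v hv => ?_
  by_contra hcon
  apply hv
  rw [locv_eq_zero_iff, resAt_mk_eq_zero]
  exact h (lv v) (lv_prime v) hcon (Av v) (Av_lies v)

end

end Fermat.Agent.CFT
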