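import Mathlib
import Fermat.Agent.CFT.GlobSym
import Fermat.Agent.CFT.Fun

set_option linter.unusedSectionVars false
set_option linter.unusedVariables false
set_option linter.style.haveILetI false
set_option autoImplicit false

/-!
# The Hasse principle for `H²(G_L, ℤ/p)` from the Hasse norm theorem
-/

open NumberField IsDedekindDomain nonZeroDivisors Pointwise

namespace Fermat.Agent.CFT

open Fermat.Agent.LocalF (sym sym_eq_zero_iff Z1_map_mul sym_apply)
open Fermat.Agent.Frob (below mem_below)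
open Loc (levU)

local notation "Om" => AlgebraicClosure ℚ

section On

variable {G : Type*} [Group G] (𝓛 : Levels G) {p : ℕ}

/-- `f` restricts to a locally constant cocycle on `U` -/
def ZOn (U : Subgroup G) (f : G → G → ZMod p) : Prop :=
  (fun a b : U => f a b) ∈ Z2 (𝓛.restrict U) (triv p U)

/-- `f` restricts to a coboundary on `U` -/
def DOn (U : Subgroup G) (f : G → G → ZMod p) : Prop :=
  (fun a b : U => f a b) ∈ B2 (𝓛.restrict U) (triv p U)

variable {𝓛}

theorem cont_of_le {U V : Subgroup G} (h : V ≤ U) :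
    Levels.Cont (𝓛.restrict V) (𝓛.restrict U) (Subgroup.inclusion h) := by
  rintro J ⟨H, hH, hJ⟩
  exact ⟨H, hH, fun x hx => hJ hx⟩

theorem ZOn.mono [Fact p.Prime] {U V : Subgroup G} {f : G → G → ZMod p} (h : ZOn 𝓛 U f) (hVU : V ≤ U) :
    ZOn 𝓛 V f :=
  pp2_mem_Z2 (φ := (LinearMap.id : ZMod p →ₗ[ZMod p] ZMod p)) (cont_of_le hVU)
    (compat_triv p (Subgroup.inclusion hVU)) h

theorem DOn.mono [Fact p.Prime] {U V : Subgroup G} {f : G → G → ZMod p} (h : DOn 𝓛 U f) (hVU : V ≤ U) :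
    DOn 𝓛 V f :=
  pp2_mem_B2 (φ := (LinearMap.id : ZMod p →ₗ[ZMod p] ZMod p)) (cont_of_le hVU)
    (compat_triv p (Subgroup.inclusion hVU)) h

/-- restriction to a subgroup of a subgroup -/
theorem DOn.subgroupOf [Fact p.Prime] {U : Subgroup G} (H : Subgroup U) {f : G → G → ZMod p}
    (h : DOn 𝓛 (H.map U.subtype) f) :
    (fun a b : H => f a b) ∈ B2 ((𝓛.restrict U).restrict H) (triv p H) := by
  let j : H →* H.map U.subtype := (U.subtype.comp H.subtype).codRestrict _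
    (fun x => ⟨x, x.2, rfl⟩)
  have hj : Levels.Cont ((𝓛.restrict U).restrict H) (𝓛.restrict (H.map U.subtype)) j := by
    rintro J ⟨K, hK, hJ⟩
    exact ⟨K.subgroupOf U, ⟨K, hK, le_rfl⟩, fun x hx => hJ hx⟩
  exact pp2_mem_B2 (φ := (LinearMap.id : ZMod p →ₗ[ZMod p] ZMod p)) hj (compat_triv p j) h

/-- restriction to a subgroup of index prime to `p` -/
theorem DOn.of_index [Fact p.Prime] {U V : Subgroup G} {f : G → G → ZMod p} (hV : V ∈ 𝓛)
    (hVU : V ≤ U) (hidx : ¬ p ∣ V.relIndex U) (hz : ZOn 𝓛 U f) (h : DOn 𝓛 V f) :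
    DOn 𝓛 U f := by
  classical
  have hr : (Subgroup.inclusion hVU).range = V.subgroupOf U := by
    ext x
    constructor
    · rintro ⟨y, rfl⟩
      exact y.2
    · intro hx
      exact ⟨⟨x, hx⟩, rfl⟩
  have hmem : (Subgroup.inclusion hVU).range ∈ 𝓛.restrict U := by
    rw [hr]; exact ⟨V, hV, le_rfl⟩
  haveI := Levels.finiteIndex hmem
  haveI : Finite (U ⧸ (Subgroup.inclusion hVU).range) := Subgroup.finite_quotient_of_finiteIndex
  haveI := Fintype.ofFinite (U ⧸ (Subgroup.inclusion hVU).range)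
  refine mem_B2_of_res (i := Subgroup.inclusion hVU) (ρ' := triv p V)
    (Subgroup.inclusion_injective hVU) hmem ?_ (fun _ _ => rfl) ?_ hz h
  · rintro J ⟨H, hH, hJ⟩
    exact ⟨H.subgroupOf U, ⟨H, hH, le_rfl⟩, fun x hx => hJ hx⟩
  · have h1 : Fintype.card (U ⧸ (Subgroup.inclusion hVU).range) = V.relIndex U := by
      rw [← Nat.card_eq_fintype_card, ← Subgroup.index_eq_card, hr]
      rfl
    rw [h1, isUnit_iff_ne_zero, Ne, ZMod.natCast_eq_zero_iff]
    exact hidx

/-- every cocycle dies on a level -/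
theorem ZOn.exists_level {U : Subgroup G} {f : G → G → ZMod p} (hz : ZOn 𝓛 U f) (hU : U ∈ 𝓛) :
    ∃ N ∈ 𝓛, N ≤ U ∧ N.Normal ∧ DOn 𝓛 N f := by
  obtain ⟨⟨J, ⟨K, hK, hKJ⟩, hJ⟩, -⟩ := hz
  obtain ⟨N, hN, hNK, hn⟩ := Levels.exists_normal (Levels.inf_mem hK hU)
  have hNU : N ≤ U := hNK.trans inf_le_right
  refine ⟨N, hN, hNU, hn, mem_B2.2 ⟨fun _ => f 1 1, Levels.LC.const _, ?_⟩⟩
  ext a b
  have h1 := hJ 1 1 ⟨a, hNU a.2⟩ (hKJ (hNK a.2).1) ⟨b, hNU b.2⟩ (hKJ (hNK b.2).1)
  rw [one_mul, one_mul] at h1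
  rw [d1_triv]
  have h2 : f a b = f 1 1 := h1
  rw [h2]
  ring

end On

section Hasse

variable {p : ℕ} [hp : Fact p.Prime] {ζ : Om} (hζ : IsPrimitiveRoot ζ p)

/-- The Hasse norm theorem for `L` (to be proved by the counting argument). -/
def HasseNorm (L : IntermediateField ℚ Om) [FiniteDimensional ℚ L] (hζL : ζ ∈ L) : Prop :=
  ∀ x y : KP p L, (∀ v, sv hζ hζL v x y = 0) → sym (LL L) p (kum hζ hζL x) (kum hζ hζL y) = 0

/-- locally trivial on `U` -/
def LT (U : Subgroup (Om ≃ₐ[ℚ] Om)) (f : (Om ≃ₐ[ℚ] Om) → (Om ≃ₐ[ℚ] Om) → ZMod p) : Prop :=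
  ∀ ℓ : ℕ, ℓ.Prime → ∀ A : ValuationSubring Om, A.LiesOverPrime ℓ →
    DOn (galLevels ℚ Om) (A.decompositionSubgroup ℚ ⊓ U) f

theorem LT.mono {U V : Subgroup (Om ≃ₐ[ℚ] Om)} {f : (Om ≃ₐ[ℚ] Om) → (Om ≃ₐ[ℚ] Om) → ZMod p}
    (h : LT U f) (hVU : V ≤ U) : LT V f :=
  fun ℓ hℓ A hA => (h ℓ hℓ A hA).mono (inf_le_inf_left _ hVU)

/-- open subgroups are the fixing subgroups of number fields -/
theorem exists_field_of_mem {U : Subgroup (Om ≃ₐ[ℚ] Om)} (hU : U ∈ galLevels ℚ Om) :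
    ∃ L : IntermediateField ℚ Om, FiniteDimensional ℚ L ∧ L.fixingSubgroup = U := by
  rw [mem_galLevels_iff_isOpen] at hU
  have hcl : IsClosed (U : Set (Om ≃ₐ[ℚ] Om)) := Subgroup.isClosed_of_isOpen U hU
  have hF : (IntermediateField.fixedField U).fixingSubgroup = U :=
    InfiniteGalois.fixingSubgroup_fixedField ⟨U, hcl⟩
  refine ⟨IntermediateField.fixedField U, ?_, hF⟩
  rw [← InfiniteGalois.isOpen_iff_finite, hF]
  exact hU

theorem hasse_step {L : IntermediateField ℚ Om} [FiniteDimensional ℚ L] (hζL : ζ ∈ L)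
    (hHN : HasseNorm hζ L hζL) {f : (Om ≃ₐ[ℚ] Om) → (Om ≃ₐ[ℚ] Om) → ZMod p}
    (hz : ZOn (galLevels ℚ Om) L.fixingSubgroup f) (hlt : LT L.fixingSubgroup f)
    {κ : L.fixingSubgroup → ZMod p} (hκ : (LL L).LC κ) (hκm : ∀ g h, κ (g * h) = κ g + κ h)
    {σ : L.fixingSubgroup} (hσ : κ σ = 1) {H : Subgroup L.fixingSubgroup}
    (hH : ∀ g, g ∈ H ↔ κ g = 0)
    (hd : DOn (galLevels ℚ Om) (H.map L.fixingSubgroup.subtype) f) :
    DOn (galLevels ℚ Om) L.fixingSubgroup f := by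
  obtain ⟨β, hβ0, hβ, hβκ⟩ := exists_cup_of_restrict hζ (isGal_Om.restrict L.fixingSubgroup)
    (mem_iff_fixed.1 hζL) (hdiv_Om hp.out.ne_zero) hκ hκm hH hσ hz (hd.subgroupOf H)
  -- classes
  obtain ⟨x, hx⟩ := kum_surjective hζ hζL ⟨κ, hκ, fun g h => (hκm g h).trans (add_comm _ _)⟩
  have hβL : β ^ p ∈ L := mem_iff_fixed.2 hβ
  have hne : (⟨β ^ p, hβL⟩ : L) ≠ 0 := fun h => pow_ne_zero p hβ0 (congrArg Subtype.val h)
  set b : KP p L := kp p L (Additive.ofMul (Units.mk0 ⟨β ^ p, hβL⟩ hne)) with hb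
  have hkb : ∀ g : L.fixingSubgroup, (kum hζ hζL b : L.fixingSubgroup → ZMod p) g =
      kummer p ζ β g := fun g => kumHom_apply hζ hζL rfl g
  have hsym : H2.mk (LL L) (triv p L.fixingSubgroup) ⟨_, hz⟩ =
      sym (LL L) p (kum hζ hζL x) (kum hζ hζL b) := by
    rw [sym_apply, H2.mk_eq_mk]
    have h1 : cup (kum hζ hζL x : L.fixingSubgroup → ZMod p) (kum hζ hζL b) =
        cup κ (kummer p ζ β) := by
      funext g h
      rw [cup_apply, cup_apply, hkb, hx]
    change (fun a b : L.fixingSubgroup => f a b) - cup (kum hζ hζL x : L.fixingSubgroup → ZMod p)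
      (kum hζ hζL b) ∈ _
    rw [h1]
    exact hβκ
  have h2 : sym (LL L) p (kum hζ hζL x) (kum hζ hζL b) = 0 := by
    apply hHN
    intro v
    rw [sv_apply, ← hsym, locv_eq_zero_iff, resAt_mk_eq_zero]
    exact hlt (lv v) (lv_prime v) (Av v) (Av_lies v)
  rw [← hsym, H2.mk_eq_zero] at h2
  exact h2

theorem hasse_tower (hHN : ∀ (L : IntermediateField ℚ Om) [FiniteDimensional ℚ L] (hζL : ζ ∈ L),
    HasseNorm hζ L hζL) (n : ℕ) :
    ∀ (U N : Subgroup (Om ≃ₐ[ℚ] Om)), U ∈ galLevels ℚ Om → (∀ g ∈ U, g ζ = ζ) →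
      N ∈ galLevels ℚ Om → N ≤ U → N.Normal → N.relIndex U = p ^ n →
      ∀ f : (Om ≃ₐ[ℚ] Om) → (Om ≃ₐ[ℚ] Om) → ZMod p, ZOn (galLevels ℚ Om) U f → LT U f →
        DOn (galLevels ℚ Om) N f → DOn (galLevels ℚ Om) U f := by
  induction n with
  | zero =>
    intro U N hU hUζ hN hNU hn hidx f hz hlt hd
    rw [pow_zero, Subgroup.relIndex_eq_one] at hidx
    exact hd.mono hidx
  | succ n ih =>
    intro U N hU hUζ hN hNU hn hidx f hz hlt hd
    obtain ⟨L, hL, rfl⟩ := exists_field_of_mem hU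
    have hζL : ζ ∈ L := mem_iff_fixed.2 fun g => hUζ g g.2
    haveI : (N.subgroupOf L.fixingSubgroup).Normal := inferInstance
    obtain ⟨κ, hκm, hκN, σ, hσ⟩ := Fermat.Agent.LocalF.exists_char (p := p)
      (N := N.subgroupOf L.fixingSubgroup) hidx
    have hκ : (LL L).LC κ := ⟨_, ⟨N, hN, le_rfl⟩, fun g s hs => by rw [hκm, hκN s hs, add_zero]⟩
    let H : Subgroup L.fixingSubgroup :=
      Fermat.Agent.LocalF.kerZ1 (𝓛 := LL L) (p := p)
        ⟨κ, hκ, fun g h => (hκm g h).trans (add_comm _ _)⟩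
    have hH : ∀ g, g ∈ H ↔ κ g = 0 := fun g => Iff.rfl
    have hNH : N ≤ H.map L.fixingSubgroup.subtype := by
      intro g hg
      exact ⟨⟨g, hNU hg⟩, (hH _).2 (hκN _ hg), rfl⟩
    have hHL : H.map L.fixingSubgroup.subtype ≤ L.fixingSubgroup := by
      rintro _ ⟨g, -, rfl⟩
      exact g.2
    have hHidx : (H.map L.fixingSubgroup.subtype).relIndex L.fixingSubgroup = p := by
      have h1 : (H.map L.fixingSubgroup.subtype).relIndex L.fixingSubgroup = H.index := by
        rw [Subgroup.relIndex]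
        congr 1
        exact Subgroup.comap_map_eq_self_of_injective Subtype.val_injective H
      rw [h1]
      let κ' : L.fixingSubgroup →* Multiplicative (ZMod p) :=
        { toFun := fun g => Multiplicative.ofAdd (κ g)
          map_one' := by
            have : κ 1 = 0 := by simpa using hκm 1 1
            rw [this]; rfl
          map_mul' := fun g h => by rw [hκm]; rfl }
      have hker : H = κ'.ker := by
        ext g
        rw [hH, MonoidHom.mem_ker]
        exact Iff.rfl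
      have hsurj : Function.Surjective κ' := by
        intro c
        refine ⟨σ ^ (Multiplicative.toAdd c).val, ?_⟩
        change Multiplicative.ofAdd (κ (σ ^ (Multiplicative.toAdd c).val)) = c
        rw [Fermat.Agent.LocalF.char_pow hκm, hσ]
        simp
      rw [hker, Subgroup.index_ker, MonoidHom.range_eq_top.2 hsurj, Subgroup.card_top,
        Nat.card_congr Multiplicative.toAdd, Nat.card_zmod]
    have hidx' : N.relIndex (H.map L.fixingSubgroup.subtype) = p ^ n := by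
      have h1 := Subgroup.relIndex_mul_relIndex N (H.map L.fixingSubgroup.subtype)
        L.fixingSubgroup hNH hHL
      rw [hHidx, hidx, pow_succ] at h1
      exact Nat.eq_of_mul_eq_mul_right hp.out.pos h1
    have hd' := ih (H.map L.fixingSubgroup.subtype) N (Levels.up_mem hN hNH)
      (fun g hg => hUζ g (hHL hg)) hN hNH hn hidx' f (hz.mono hHL) (hlt.mono hHL) hd
    exact hasse_step hζ hζL (hHN L hζL) hz hlt hκ hκm hσ hH hd'

/-- **Hasse principle**, cochain version. -/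
theorem hasse_cochain (hHN : ∀ (L : IntermediateField ℚ Om) [FiniteDimensional ℚ L] (hζL : ζ ∈ L),
    HasseNorm hζ L hζL) (U : Subgroup (Om ≃ₐ[ℚ] Om)) (hU : U ∈ galLevels ℚ Om)
    (hUζ : ∀ g ∈ U, g ζ = ζ) (f : (Om ≃ₐ[ℚ] Om) → (Om ≃ₐ[ℚ] Om) → ZMod p)
    (hz : ZOn (galLevels ℚ Om) U f) (hlt : LT U f) : DOn (galLevels ℚ Om) U f := by
  obtain ⟨N, hN, hNU, hn, hd⟩ := hz.exists_level hU
  haveI := Levels.finiteIndex hN
  haveI : (N.subgroupOf U).Normal := inferInstance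
  haveI : (N.subgroupOf U).FiniteIndex := inferInstance
  haveI : Finite (U ⧸ N.subgroupOf U) := Subgroup.finite_quotient_of_finiteIndex
  -- Sylow subgroup
  obtain ⟨P⟩ : Nonempty (Sylow p (U ⧸ N.subgroupOf U)) := inferInstance
  let V' : Subgroup U := (P : Subgroup (U ⧸ N.subgroupOf U)).comap (QuotientGroup.mk' _)
  let V : Subgroup (Om ≃ₐ[ℚ] Om) := V'.map U.subtype
  have hVU : V ≤ U := by
    rintro _ ⟨g, -, rfl⟩
    exact g.2
  have hNV' : N.subgroupOf U ≤ V' := by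
    intro g hg
    change (QuotientGroup.mk' (N.subgroupOf U)) g ∈ (P : Subgroup (U ⧸ N.subgroupOf U))
    have : (QuotientGroup.mk' (N.subgroupOf U)) g = 1 := (QuotientGroup.eq_one_iff g).2 hg
    rw [this]
    exact one_mem _
  have hNV : N ≤ V := by
    intro g hg
    exact ⟨⟨g, hNU hg⟩, hNV' hg, rfl⟩
  have hVidx : V.relIndex U = (P : Subgroup (U ⧸ N.subgroupOf U)).index := by
    have h1 : V.relIndex U = V'.index := by
      rw [Subgroup.relIndex]
      congr 1
      exact Subgroup.comap_map_eq_self_of_injective Subtype.val_injective V'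
    rw [h1]
    exact Subgroup.index_comap_of_surjective _ (QuotientGroup.mk'_surjective _)
  have hVp : ¬ p ∣ V.relIndex U := by
    rw [hVidx]
    exact P.not_dvd_index
  obtain ⟨n, hn'⟩ := (IsPGroup.iff_card.1 P.isPGroup')
  have hNVidx : N.relIndex V = p ^ n := by
    have h1 := Subgroup.relIndex_mul_relIndex N V U hNV hVU
    have h2 : N.relIndex U = Nat.card (U ⧸ N.subgroupOf U) := rfl
    have h3 := (P : Subgroup (U ⧸ N.subgroupOf U)).card_mul_index
    rw [hVidx, h2, ← h3] at h1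
    have h4 : (P : Subgroup (U ⧸ N.subgroupOf U)).index ≠ 0 := Subgroup.index_ne_zero_of_finite
    have h5 := Nat.eq_of_mul_eq_mul_right (Nat.pos_of_ne_zero h4) h1
    rw [h5]
    exact hn'
  have hdV := hasse_tower hζ hHN n V N (Levels.up_mem hN hNV) (fun g hg => hUζ g (hVU hg)) hN hNV hn
    hNVidx f (hz.mono hVU) (hlt.mono hVU) hd
  exact DOn.of_index (Levels.up_mem hN hNV) hVU hVp hz hdV

end Hasse

end Fermat.Agent.CFT
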