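import Mathlib

/-!
# Linear algebra of global Kummer symbols

`SymData` axiomatises the local symbols on `V = Lˣ / p` for a number field `L ∋ μ_p`.  We deduce
the Hasse norm theorem (`mem_Nm`), reciprocity (`GlobData.reciprocity`) and the fact that `T`-units
are maximal isotropic (`exists_mem_VT`).
-/

set_option autoImplicit false

namespace Fermat.Agent.CFT

open Module

section LAtools

variable {K V W : Type*} [Field K] [AddCommGroup V] [Module K V] [AddCommGroup W] [Module K W]

lemma finrank_inf_ker_add (A : Submodule K V) [FiniteDimensional K A] (g : V →ₗ[K] W) :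
    finrank K (A ⊓ LinearMap.ker g : Submodule K V) + finrank K (A.map g) = finrank K A := by
  have h1 := LinearMap.finrank_range_add_finrank_ker (g.domRestrict A)
  have h2 : LinearMap.range (g.domRestrict A) = A.map g := by
    ext x; simp [Submodule.mem_map]
  have h3 : finrank K (LinearMap.ker (g.domRestrict A)) =
      finrank K (A ⊓ LinearMap.ker g : Submodule K V) := by
    have h4 : LinearMap.ker (g.domRestrict A) = (A ⊓ LinearMap.ker g).comap A.subtype := by
      ext x; simp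
    rw [h4]
    exact LinearEquiv.finrank_eq (Submodule.comapSubtypeEquivOfLe inf_le_left)
  rw [h2, h3] at h1
  omega

lemma finrank_inf_ker_add_one (A : Submodule K V) [FiniteDimensional K A] (f : V →ₗ[K] K)
    {π : V} (hπA : π ∈ A) (hπ : f π ≠ 0) :
    finrank K (A ⊓ LinearMap.ker f : Submodule K V) + 1 = finrank K A := by
  rw [← finrank_inf_ker_add A f]
  congr 1
  have : A.map f = ⊤ := by
    rw [eq_top_iff]
    intro c _
    refine ⟨(c * (f π)⁻¹) • π, A.smul_mem _ hπA, ?_⟩
    rw [map_smul, smul_eq_mul, mul_assoc, inv_mul_cancel₀ hπ, mul_one]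
  rw [this, finrank_top, finrank_self]

/-- two vectors are dependent modulo a hyperplane -/
lemma exists_smul_add_smul_mem {P : Submodule K V} [FiniteDimensional K V]
    (h : finrank K P + 1 = finrank K V) (u u' : V) :
    ∃ c c' : K, (c ≠ 0 ∨ c' ≠ 0) ∧ c • u + c' • u' ∈ P := by
  by_cases hu : u ∈ P
  · exact ⟨1, 0, Or.inl one_ne_zero, by simpa using hu⟩
  · have h1 : P ⊔ Submodule.span K {u} = ⊤ := by
      apply Submodule.eq_top_of_finrank_eq
      have h2 := Submodule.finrank_sup_add_finrank_inf_eq P (Submodule.span K {u})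
      have hu0 : u ≠ 0 := by rintro rfl; exact hu (Submodule.zero_mem _)
      have h3 : P ⊓ Submodule.span K {u} = ⊥ := by
        rw [eq_bot_iff]
        rintro x ⟨hx1, hx2⟩
        obtain ⟨c, rfl⟩ := Submodule.mem_span_singleton.1 hx2
        by_cases hc : c = 0
        · simp [hc]
        · exact absurd ((P.smul_mem_iff hc).1 hx1) hu
      rw [h3, finrank_bot, add_zero, finrank_span_singleton hu0] at h2
      rw [h2, h]
    have h4 : u' ∈ P ⊔ Submodule.span K {u} := by rw [h1]; trivial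
    obtain ⟨q, hq, z, hz, hqz⟩ := Submodule.mem_sup.1 h4
    obtain ⟨d, rfl⟩ := Submodule.mem_span_singleton.1 hz
    refine ⟨-d, 1, Or.inr one_ne_zero, ?_⟩
    rw [← hqz]
    have : -d • u + (1 : K) • (q + d • u) = q := by simp
    rw [this]; exact hq

lemma finrank_add_finrank_le {W' : Type*} [AddCommGroup W'] [Module K W'] [FiniteDimensional K W]
    (A : Submodule K V) [FiniteDimensional K A] (f : V →ₗ[K] W) (g : W →ₗ[K] W')
    (hinj : A ⊓ LinearMap.ker f = ⊥) (hg : LinearMap.range g = ⊤) (h : ∀ y ∈ A, g (f y) = 0) :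
    finrank K A + finrank K W' ≤ finrank K W := by
  have h1 := LinearMap.finrank_range_add_finrank_ker g
  rw [hg, finrank_top] at h1
  have h2 := finrank_inf_ker_add A f
  rw [hinj, finrank_bot, zero_add] at h2
  have h3 : A.map f ≤ LinearMap.ker g := by
    rintro _ ⟨y, hy, rfl⟩
    exact h y hy
  have h4 := Submodule.finrank_mono h3
  omega

lemma finrank_map_le_ker {W' : Type*} [AddCommGroup W'] [Module K W'] [FiniteDimensional K W]
    (A : Submodule K V) (f : V →ₗ[K] W) (g : W →ₗ[K] W') (h : ∀ y ∈ A, g (f y) = 0) :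
    finrank K (A.map f) ≤ finrank K (LinearMap.ker g) := by
  apply Submodule.finrank_mono
  rintro _ ⟨y, hy, rfl⟩
  exact h y hy

lemma mem_map_of_finrank_le {W' : Type*} [AddCommGroup W'] [Module K W'] [FiniteDimensional K W]
    (A : Submodule K V) (f : V →ₗ[K] W) (g : W →ₗ[K] W') (h : ∀ y ∈ A, g (f y) = 0)
    (hle : finrank K (LinearMap.ker g) ≤ finrank K (A.map f)) {w : W} (hw : g w = 0) :
    w ∈ A.map f := by
  have h1 : A.map f ≤ LinearMap.ker g := by
    rintro _ ⟨y, hy, rfl⟩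
    exact h y hy
  rw [Submodule.eq_of_le_of_finrank_le h1 hle]
  exact hw

lemma exists_functional {R : Submodule K V} (hR : R ≠ ⊤)
    (h : ∀ a a' : V, ∃ c c' : K, (c ≠ 0 ∨ c' ≠ 0) ∧ c • a + c' • a' ∈ R) :
    ∃ l : V →ₗ[K] K, LinearMap.ker l = R := by
  obtain ⟨e, he⟩ : ∃ e, e ∉ R := by
    by_contra hcon
    push Not at hcon
    exact hR (eq_top_iff.2 fun x _ => hcon x)
  have he0 : R.mkQ e ≠ 0 := by
    rw [Submodule.mkQ_apply, Ne, Submodule.Quotient.mk_eq_zero]; exact he
  have h1 : finrank K (V ⧸ R) = 1 := by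
    rw [finrank_eq_one_iff']
    refine ⟨R.mkQ e, he0, fun w => ?_⟩
    obtain ⟨a, rfl⟩ := R.mkQ_surjective w
    obtain ⟨c, c', hcc, hm⟩ := h a e
    have hc : c ≠ 0 := by
      rintro rfl
      have hc' : c' ≠ 0 := by simpa using hcc
      rw [zero_smul, zero_add] at hm
      exact he ((R.smul_mem_iff hc').1 hm)
    refine ⟨-(c⁻¹ * c'), ?_⟩
    have h2 : R.mkQ (c • a + c' • e) = 0 := by
      rw [Submodule.mkQ_apply, Submodule.Quotient.mk_eq_zero]; exact hm
    rw [map_add, map_smul, map_smul] at h2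
    have h3 : R.mkQ a = -(c⁻¹ • c' • R.mkQ e) := by
      have h4 : c⁻¹ • (c • R.mkQ a + c' • R.mkQ e) = 0 := by rw [h2, smul_zero]
      rw [smul_add, smul_smul, inv_mul_cancel₀ hc, one_smul] at h4
      exact eq_neg_of_add_eq_zero_left h4
    rw [h3, neg_smul, mul_smul]
  have hfd : FiniteDimensional K (V ⧸ R) := Module.finite_of_finrank_eq_succ h1
  let e' := LinearEquiv.ofFinrankEq (V ⧸ R) K (by rw [h1, finrank_self])
  refine ⟨e'.toLinearMap ∘ₗ R.mkQ, ?_⟩
  rw [LinearMap.ker_comp, LinearEquiv.ker, Submodule.comap_bot, Submodule.ker_mkQ]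

end LAtools


/-- Abstract data of Kummer symbols over a number field containing the `p`-th roots of unity.
`V` is `Lˣ / p`, `ι` the set of finite places. -/
structure SymData (p : ℕ) [Fact p.Prime] (V ι : Type*) [AddCommGroup V] [Module (ZMod p) V] where
  /-- local symbols -/
  s : ι → V →ₗ[ZMod p] V →ₗ[ZMod p] ZMod p
  /-- valuations mod `p` -/
  ord : ι → V →ₗ[ZMod p] ZMod p
  /-- places above `p` -/
  Tp : Finset ι
  /-- places such that the class group outside is trivial -/
  T0 : Finset ι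
  Tp_subset : Tp ⊆ T0
  /-- number of infinite places -/
  r : ℕ
  r_pos : 0 < r
  alt : ∀ v x, s v x x = 0
  fin_ord : ∀ x, {v | ord v x ≠ 0}.Finite
  s_eq_zero_of_ord : ∀ v ∉ Tp, ∀ x y, ord v x = 0 → ord v y = 0 → s v x y = 0
  ord_eq_zero : ∀ v ∉ Tp, ∀ x, s v x = 0 → ord v x = 0
  fin_range : ∀ v, FiniteDimensional (ZMod p) (LinearMap.range (s v))
  finrank_range : ∀ v ∉ Tp, finrank (ZMod p) (LinearMap.range (s v)) = 2
  sum_finrank_range : ∑ v ∈ T0, finrank (ZMod p) (LinearMap.range (s v)) = 2 * (T0.card + r)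
  s_ne_zero : ∀ v, s v ≠ 0
  approx : ∀ (T : Finset ι) (z : ι → V), ∃ x, ∀ v ∈ T, s v x = s v (z v)
  cl : ∀ v ∉ T0, ∃ x, ord v x = 1 ∧ ∀ w ∉ T0, w ≠ v → ord w x = 0
  /-- norm subgroups -/
  Nm : V → Submodule (ZMod p) V
  Nm_zero : Nm 0 = ⊤
  s_Nm : ∀ x, ∀ y ∈ Nm x, ∀ v, s v x y = 0
  finV0 : FiniteDimensional (ZMod p) (⨅ v ∈ {v | v ∉ T0}, LinearMap.ker (ord v) : Submodule (ZMod p) V)
  finrankV0 : finrank (ZMod p) (⨅ v ∈ {v | v ∉ T0}, LinearMap.ker (ord v) : Submodule (ZMod p) V) =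
    T0.card + r
  norm : ∀ x ≠ 0, ∀ T : Finset ι, T0 ⊆ T → (∀ v ∉ T, ord v x = 0) →
    ∃ N : Submodule (ZMod p) V, N ≤ Nm x ∧ (∀ y ∈ N, ∀ v ∉ T, ord v y = 0) ∧
      finrank (ZMod p) N + {v | v ∈ T ∧ s v x ≠ 0}.ncard = T.card + r + 1
  cheb : ∀ x y, y ∉ Submodule.span (ZMod p) {x} → ∀ F : Finset ι, ∃ v ∉ F, s v x = 0 ∧ s v y ≠ 0

namespace SymData

variable {p : ℕ} [Fact p.Prime] {V ι : Type*} [AddCommGroup V] [Module (ZMod p) V]
variable (D : SymData p V ι)

/-- `T`-units mod `p` -/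
def VT (T : Finset ι) : Submodule (ZMod p) V := ⨅ v ∈ {v | v ∉ T}, LinearMap.ker (D.ord v)

lemma mem_VT {T : Finset ι} {x : V} : x ∈ D.VT T ↔ ∀ v ∉ T, D.ord v x = 0 := by
  simp [VT, Submodule.mem_iInf]

lemma VT_mono {T T' : Finset ι} (h : T ⊆ T') : D.VT T ≤ D.VT T' := fun x hx => by
  rw [mem_VT] at hx ⊢
  exact fun v hv => hx v fun h' => hv (h h')

lemma s_skew (v : ι) (x y : V) : D.s v x y = - D.s v y x := by
  have h := D.alt v (x + y)
  simp only [map_add, LinearMap.add_apply, D.alt, zero_add, add_zero] at h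
  first
    | exact eq_neg_of_add_eq_zero_left h
    | exact eq_neg_of_add_eq_zero_right h

lemma s_formula {v : ι} (hv : v ∉ D.Tp) {x π : V} (hx : D.ord v x = 0) (hπ : D.ord v π = 1)
    (y : V) : D.s v x y = D.ord v y * D.s v x π := by
  have h := D.s_eq_zero_of_ord v hv x (y - D.ord v y • π) hx (by
    rw [map_sub, map_smul, hπ, smul_eq_mul, mul_one, sub_self])
  rw [map_sub, map_smul, smul_eq_mul, sub_eq_zero] at h
  exact h

lemma P0 {v : ι} (hv : v ∉ D.Tp) {x y : V} (hx : D.ord v x = 0) (hsx : D.s v x ≠ 0)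
    (hy : D.ord v y ≠ 0) : D.s v x y ≠ 0 := by
  intro h0
  apply hsx
  ext z
  rw [D.s_formula hv hx (π := (D.ord v y)⁻¹ • y) (by rw [map_smul, smul_eq_mul, inv_mul_cancel₀ hy])]
  rw [map_smul, h0, smul_zero, mul_zero, LinearMap.zero_apply]

lemma finite_s (x y : V) : {v | D.s v x y ≠ 0}.Finite := by
  refine ((D.Tp.finite_toSet.union (D.fin_ord x)).union (D.fin_ord y)).subset fun v hv => ?_
  by_contra h
  simp only [Set.mem_union, Finset.mem_coe, Set.mem_ofPred_eq, not_or, not_not] at h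
  exact hv (D.s_eq_zero_of_ord v h.1.1 x y h.1.2 h.2)

/-- every finite set of elements lies in some `V_T` -/
lemma exists_VT (T : Finset ι) {A : Set V} (hA : A.Finite) :
    ∃ T' : Finset ι, T ⊆ T' ∧ ∀ x ∈ A, x ∈ D.VT T' := by
  classical
  have hfin : (⋃ x ∈ A, {v | D.ord v x ≠ 0}).Finite := hA.biUnion fun x _ => D.fin_ord x
  refine ⟨T ∪ hfin.toFinset, Finset.subset_union_left, fun x hx => ?_⟩
  rw [mem_VT]
  intro v hv
  by_contra h
  apply hv
  rw [Finset.mem_union, Set.Finite.mem_toFinset]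
  right
  exact Set.mem_biUnion hx h


section P1

variable [DecidableEq ι]

/-- (P1) the dimension of `V_T` -/
lemma VT_insert {T : Finset ι} (hT : D.T0 ⊆ T) {v : ι} (hv : v ∉ T)
    (h : FiniteDimensional (ZMod p) (D.VT T)) (h' : finrank (ZMod p) (D.VT T) = T.card + D.r) :
    FiniteDimensional (ZMod p) (D.VT (insert v T)) ∧
      finrank (ZMod p) (D.VT (insert v T)) = (insert v T).card + D.r := by
  obtain ⟨π, hπ, hπ'⟩ := D.cl v fun h => hv (hT h)
  have hπV : π ∈ D.VT (insert v T) := by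
    rw [mem_VT]
    intro w hw
    rw [Finset.mem_insert, not_or] at hw
    exact hπ' w (fun h => hw.2 (hT h)) hw.1
  have hle : D.VT (insert v T) ≤ D.VT T ⊔ Submodule.span (ZMod p) {π} := by
    intro y hy
    refine Submodule.mem_sup.2 ⟨y - D.ord v y • π, ?_, D.ord v y • π,
      Submodule.smul_mem _ _ (Submodule.mem_span_singleton_self _), by simp⟩
    rw [mem_VT] at hy ⊢
    intro w hw
    by_cases hwv : w = v
    · rw [hwv, map_sub, map_smul, hπ, smul_eq_mul, mul_one, sub_self]
    · have h1 := hy w (by rw [Finset.mem_insert, not_or]; exact ⟨hwv, hw⟩)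
      rw [map_sub, map_smul, h1, hπ' w (fun h => hw (hT h)) hwv, smul_zero, sub_zero]
  have hfin : FiniteDimensional (ZMod p) (D.VT (insert v T)) :=
    Submodule.finiteDimensional_of_le hle
  refine ⟨hfin, ?_⟩
  have h1 := finrank_inf_ker_add_one (D.VT (insert v T)) (D.ord v) hπV (by rw [hπ]; exact one_ne_zero)
  have h2 : D.VT (insert v T) ⊓ LinearMap.ker (D.ord v) = D.VT T := by
    ext y
    simp only [Submodule.mem_inf, mem_VT, LinearMap.mem_ker, Finset.mem_insert, not_or]
    constructor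
    · rintro ⟨h1, h2⟩ w hw
      by_cases hwv : w = v
      · rw [hwv]; exact h2
      · exact h1 w ⟨hwv, hw⟩
    · intro h1
      exact ⟨fun w hw => h1 w hw.2, h1 v hv⟩
  rw [h2, h'] at h1
  rw [Finset.card_insert_of_notMem hv]
  omega

lemma VT_good {T : Finset ι} (hT : D.T0 ⊆ T) : FiniteDimensional (ZMod p) (D.VT T) ∧
    finrank (ZMod p) (D.VT T) = T.card + D.r := by
  have key : ∀ F : Finset ι, FiniteDimensional (ZMod p) (D.VT (D.T0 ∪ F)) ∧
      finrank (ZMod p) (D.VT (D.T0 ∪ F)) = (D.T0 ∪ F).card + D.r := by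
    intro F
    induction F using Finset.induction_on with
    | empty =>
      rw [Finset.union_empty]
      exact ⟨D.finV0, D.finrankV0⟩
    | insert v F hvF ih =>
      rw [Finset.union_insert]
      by_cases hv : v ∈ D.T0 ∪ F
      · rw [Finset.insert_eq_of_mem hv]; exact ih
      · exact D.VT_insert Finset.subset_union_left hv ih.1 ih.2
  have := key T
  rwa [Finset.union_eq_right.2 hT] at this

lemma finrank_VT {T : Finset ι} (hT : D.T0 ⊆ T) :
    finrank (ZMod p) (D.VT T) = T.card + D.r := (D.VT_good hT).2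

end P1

section SW

/-- the map `x ↦ (s_v x)_{v ∈ T}` -/
noncomputable def SW (T : Finset ι) : V →ₗ[ZMod p] ((v : T) → LinearMap.range (D.s v)) :=
  LinearMap.pi fun v => (D.s v).rangeRestrict

lemma mem_ker_SW {T : Finset ι} {x : V} : x ∈ LinearMap.ker (D.SW T) ↔ ∀ v ∈ T, D.s v x = 0 := by
  rw [LinearMap.mem_ker]
  constructor
  · intro h v hv
    exact congrArg Subtype.val (congrFun h ⟨v, hv⟩)
  · intro h
    funext v
    exact Subtype.ext (h v v.2)

instance (v : ι) : FiniteDimensional (ZMod p) (LinearMap.range (D.s v)) := D.fin_range v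

lemma finite_WT (T : Finset ι) :
    FiniteDimensional (ZMod p) ((v : T) → LinearMap.range (D.s v)) := by
  have : ∀ i : T, Module.Finite (ZMod p) (LinearMap.range (D.s i)) := fun i => D.fin_range i
  exact Module.Finite.pi

lemma finrank_WT (T : Finset ι) : finrank (ZMod p) ((v : T) → LinearMap.range (D.s v)) =
    ∑ v ∈ T, finrank (ZMod p) (LinearMap.range (D.s v)) := by
  have : ∀ i : T, Module.Free (ZMod p) (LinearMap.range (D.s i)) := fun i =>
    Module.Free.of_divisionRing (ZMod p) _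
  rw [Module.finrank_pi_fintype]
  exact Finset.sum_coe_sort T (fun v => finrank (ZMod p) (LinearMap.range (D.s v)))

lemma finrank_WT_good [DecidableEq ι] {T : Finset ι} (hT : D.T0 ⊆ T) :
    finrank (ZMod p) ((v : T) → LinearMap.range (D.s v)) = 2 * (T.card + D.r) := by
  rw [finrank_WT, ← Finset.sum_sdiff hT, D.sum_finrank_range]
  rw [Finset.sum_congr rfl (g := fun _ => 2) fun v hv => D.finrank_range v fun h =>
    (Finset.mem_sdiff.1 hv).2 (D.Tp_subset h)]
  rw [Finset.sum_const, smul_eq_mul, Finset.card_sdiff_of_subset hT]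
  have := Finset.card_le_card hT
  omega

/-- (P2) -/
lemma eq_zero_of_SW {T : Finset ι} (hT : D.T0 ⊆ T) {x : V} (hx : x ∈ D.VT T)
    (h : ∀ v ∈ T, D.s v x = 0) : x = 0 := by
  classical
  by_contra hx0
  obtain ⟨N, -, hN, hcard⟩ := D.norm x hx0 T hT (D.mem_VT.1 hx)
  have h1 : {v | v ∈ T ∧ D.s v x ≠ 0} = ∅ := by
    ext v; simp only [Set.mem_ofPred_eq, Set.mem_empty_iff_false, iff_false, not_and, not_not]
    exact h v
  rw [h1, Set.ncard_empty, add_zero] at hcard
  have := (D.VT_good hT).1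
  have h2 : N ≤ D.VT T := fun y hy => D.mem_VT.2 (hN y hy)
  have h3 := Submodule.finrank_mono h2
  rw [D.finrank_VT hT, hcard] at h3
  omega

/-- the pairing of `W_T` with a subspace -/
noncomputable def beta (T : Finset ι) (c : ι → ZMod p) (A : Submodule (ZMod p) V) :
    ((v : T) → LinearMap.range (D.s v)) →ₗ[ZMod p] Module.Dual (ZMod p) A :=
  ∑ v : T, c v • (((LinearMap.lcomp (ZMod p) (ZMod p) A.subtype) ∘ₗ
    (LinearMap.range (D.s v)).subtype) ∘ₗ (LinearMap.proj v))

lemma beta_apply (T : Finset ι) (c : ι → ZMod p) (A : Submodule (ZMod p) V)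
    (w : (v : T) → LinearMap.range (D.s v)) (y : A) :
    D.beta T c A w y = ∑ v : T, c v * (w v : V →ₗ[ZMod p] ZMod p) y := by
  simp [beta, LinearMap.sum_apply]

lemma beta_SW (T : Finset ι) (c : ι → ZMod p) (A : Submodule (ZMod p) V) (x : V) (y : A) :
    D.beta T c A (D.SW T x) y = ∑ v ∈ T, c v * D.s v x y := by
  rw [beta_apply]
  exact Finset.sum_coe_sort T (fun v => c v * D.s v x y)

/-- (Lemma A) -/
lemma finrank_ker_beta (T : Finset ι) {c : ι → ZMod p} (hc : ∀ v ∈ T, c v ≠ 0)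
    (A : Submodule (ZMod p) V) [FiniteDimensional (ZMod p) A] :
    finrank (ZMod p) (LinearMap.ker (D.beta T c A)) + finrank (ZMod p) (A.map (D.SW T)) =
      finrank (ZMod p) ((v : T) → LinearMap.range (D.s v)) := by
  classical
  have h1 := LinearMap.finrank_range_add_finrank_ker (K := ZMod p)
    (V := (v : T) → LinearMap.range (D.s v)) (V₂ := Module.Dual (ZMod p) A) (D.beta T c A)
  have h2 := Subspace.finrank_add_finrank_dualCoannihilator_eq (LinearMap.range (D.beta T c A))
  have h3 := finrank_inf_ker_add (W := (v : T) → LinearMap.range (D.s v)) A (D.SW T)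
  have h4 : (LinearMap.range (D.beta T c A)).dualCoannihilator =
      (A ⊓ LinearMap.ker (D.SW T)).comap A.subtype := by
    ext y
    rw [Submodule.mem_dualCoannihilator, Submodule.mem_comap, Submodule.mem_inf, mem_ker_SW]
    constructor
    · intro h
      refine ⟨y.2, fun v hv => ?_⟩
      ext z
      have h5 := h _ ⟨Pi.single ⟨v, hv⟩ ⟨D.s v z, ⟨z, rfl⟩⟩, rfl⟩
      rw [beta_apply, Finset.sum_eq_single (⟨v, hv⟩ : T)] at h5
      · rw [Pi.single_eq_same] at h5
        have h6 := (mul_eq_zero.1 h5).resolve_left (hc v hv)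
        simp only at h6
        rw [D.s_skew, LinearMap.zero_apply, neg_eq_zero]
        exact h6
      · intro w _ hw
        rw [Pi.single_eq_of_ne hw]; simp
      · intro h; exact absurd (Finset.mem_univ _) h
    · rintro ⟨-, h⟩ _ ⟨w, rfl⟩
      rw [beta_apply]
      apply Finset.sum_eq_zero
      intro v _
      obtain ⟨z, hz⟩ := (w v).2
      rw [← hz, D.s_skew]
      have := h v v.2
      simp only [Submodule.subtype_apply] at this
      rw [this]; simp
  have h5 : finrank (ZMod p) ((A ⊓ LinearMap.ker (D.SW T)).comap A.subtype) =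
      finrank (ZMod p) (A ⊓ LinearMap.ker (D.SW T) : Submodule (ZMod p) V) :=
    LinearEquiv.finrank_eq (Submodule.comapSubtypeEquivOfLe inf_le_left)
  rw [h4, h5] at h2
  omega

end SW

section P3

/-- the map `y ↦ (s_v (b_v) y)_{v ∈ T}` -/
noncomputable def psi (T : Finset ι) (b : ι → V) : V →ₗ[ZMod p] (T → ZMod p) :=
  LinearMap.pi fun v => D.s v (b v)

@[simp] lemma psi_apply (T : Finset ι) (b : ι → V) (y : V) (v : T) :
    D.psi T b y v = D.s v (b v) y := rfl

lemma mem_ker_psi {T : Finset ι} {b : ι → V} {y : V} :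
    y ∈ LinearMap.ker (D.psi T b) ↔ ∀ v ∈ T, D.s v (b v) y = 0 := by
  rw [LinearMap.mem_ker]
  constructor
  · intro h v hv
    exact congrFun h ⟨v, hv⟩
  · intro h
    funext v
    exact h v v.2

/-- (P3) -/
lemma exists_P3 {T : Finset ι} (hT : D.T0 ⊆ T) (x : V) (k : ℕ)
    (hk : k + 1 ≤ T.card + D.r) :
    ∃ T' : Finset ι, Disjoint T T' ∧ T'.card = k ∧ (∀ v ∈ T', D.s v x = 0) ∧
      finrank (ZMod p) (D.VT T ⊓ LinearMap.ker (D.SW T') : Submodule (ZMod p) V) + k =
        T.card + D.r := by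
  classical
  have hfd := (D.VT_good hT).1
  induction k with
  | zero =>
    refine ⟨∅, Finset.disjoint_empty_right _, Finset.card_empty, fun v hv => by simp at hv, ?_⟩
    have : D.VT T ⊓ LinearMap.ker (D.SW ∅) = D.VT T := by
      rw [inf_eq_left]
      intro y _
      rw [mem_ker_SW]
      intro v hv; simp at hv
    rw [this, D.finrank_VT hT, add_zero]
  | succ k ih =>
    obtain ⟨T', hdisj, hcard, hT'x, hfin⟩ := ih (by omega)
    set K : Submodule (ZMod p) V := D.VT T ⊓ LinearMap.ker (D.SW T') with hK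
    have hKle : K ≤ D.VT T := inf_le_left
    have hKfd : FiniteDimensional (ZMod p) K := Submodule.finiteDimensional_of_le hKle
    obtain ⟨y, hyK, hyx⟩ : ∃ y ∈ K, y ∉ Submodule.span (ZMod p) {x} := by
      by_contra hcon
      push Not at hcon
      have h1 : K ≤ Submodule.span (ZMod p) {x} := hcon
      have h2 := Submodule.finrank_mono h1
      have h3 := finrank_span_le_card (R := ZMod p) ({x} : Set V)
      simp only [Set.toFinset_singleton, Finset.card_singleton] at h3
      omega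
    obtain ⟨v, hvF, hvx, hvy⟩ := D.cheb x y hyx (T ∪ T')
    rw [Finset.mem_union, not_or] at hvF
    have hvT0 : v ∉ D.T0 := fun h => hvF.1 (hT h)
    have hvTp : v ∉ D.Tp := fun h => hvT0 (D.Tp_subset h)
    obtain ⟨π, hπ, -⟩ := D.cl v hvT0
    have hord : ∀ z ∈ K, D.ord v z = 0 := fun z hz => D.mem_VT.1 (hKle hz) v hvF.1
    refine ⟨insert v T', ?_, ?_, ?_, ?_⟩
    · rw [Finset.disjoint_insert_right]
      exact ⟨hvF.1, hdisj⟩
    · rw [Finset.card_insert_of_notMem hvF.2, hcard]
    · intro w hw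
      rcases Finset.mem_insert.1 hw with rfl | hw
      · exact hvx
      · exact hT'x w hw
    · have h1 := finrank_inf_ker_add_one K ((D.s v).flip π) hyK (by
        rw [LinearMap.flip_apply]
        exact D.P0 hvTp (hord y hyK) hvy (by rw [hπ]; exact one_ne_zero))
      have h2 : D.VT T ⊓ LinearMap.ker (D.SW (insert v T')) =
          K ⊓ LinearMap.ker ((D.s v).flip π) := by
        ext z
        rw [hK, Submodule.mem_inf, Submodule.mem_inf, Submodule.mem_inf, mem_ker_SW, mem_ker_SW,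
          Finset.forall_mem_insert, LinearMap.mem_ker, LinearMap.flip_apply]
        constructor
        · rintro ⟨h1, h2, h3⟩
          exact ⟨⟨h1, h3⟩, by rw [h2, LinearMap.zero_apply]⟩
        · rintro ⟨⟨h1, h3⟩, h2⟩
          refine ⟨h1, ?_, h3⟩
          ext w
          rw [D.s_formula hvTp (D.mem_VT.1 h1 v hvF.1) hπ, h2, mul_zero, LinearMap.zero_apply]
      rw [h2]
      omega

lemma map_psi_eq_top {T T' : Finset ι} (hT : D.T0 ⊆ T) (hdisj : Disjoint T T')
    (hK : finrank (ZMod p) (D.VT T ⊓ LinearMap.ker (D.SW T') : Submodule (ZMod p) V) + T'.card =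
      T.card + D.r) (b : ι → V) (hb : ∀ v ∈ T', D.ord v (b v) ≠ 0) :
    (D.VT T).map (D.psi T' b) = ⊤ := by
  classical
  have hfd := (D.VT_good hT).1
  have h1 := finrank_inf_ker_add (W := T' → ZMod p) (D.VT T) (D.psi T' b)
  have h2 : D.VT T ⊓ LinearMap.ker (D.psi T' b) = D.VT T ⊓ LinearMap.ker (D.SW T') := by
    ext y
    simp only [Submodule.mem_inf, mem_ker_SW, mem_ker_psi]
    refine and_congr_right fun hy => ?_
    refine forall₂_congr fun v hv => ?_
    have hvT : v ∉ T := Finset.disjoint_right.1 hdisj hv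
    have hvTp : v ∉ D.Tp := fun h => hvT (hT (D.Tp_subset h))
    constructor
    · intro h
      by_contra hne
      exact D.P0 hvTp (D.mem_VT.1 hy v hvT) hne (hb v hv) (by rw [D.s_skew, h, neg_zero])
    · intro h
      rw [D.s_skew, h]; simp
  rw [h2, D.finrank_VT hT] at h1
  apply Submodule.eq_top_of_finrank_eq
  rw [Module.finrank_fintype_fun_eq_card, Fintype.card_coe]
  omega

/-- (P4) -/
lemma P4 {T T' : Finset ι} (hT : D.T0 ⊆ T) (hdisj : Disjoint T T')
    (hK : finrank (ZMod p) (D.VT T ⊓ LinearMap.ker (D.SW T') : Submodule (ZMod p) V) + T'.card =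
      T.card + D.r) [DecidableEq ι] {b : V} (hb : b ∈ D.VT (T ∪ T')) (hb0 : ∀ v ∈ T, D.s v b = 0) :
    b = 0 := by
  classical
  by_contra hne
  set S1 := T'.filter fun v => D.ord v b ≠ 0 with hS1
  have hS1T' : S1 ⊆ T' := Finset.filter_subset _ _
  have hdisj1 : Disjoint T S1 := Finset.disjoint_of_subset_right hS1T' hdisj
  have hT1 : D.T0 ⊆ T ∪ S1 := hT.trans Finset.subset_union_left
  have hbV : b ∈ D.VT (T ∪ S1) := by
    rw [mem_VT]
    intro v hv
    rw [Finset.mem_union, not_or] at hv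
    by_cases hvT' : v ∈ T'
    · by_contra h
      exact hv.2 (Finset.mem_filter.2 ⟨hvT', h⟩)
    · exact D.mem_VT.1 hb v (by rw [Finset.mem_union, not_or]; exact ⟨hv.1, hvT'⟩)
  obtain ⟨N, hNm, hN, hcard⟩ := D.norm b hne (T ∪ S1) hT1 (D.mem_VT.1 hbV)
  have hset : {v | v ∈ T ∪ S1 ∧ D.s v b ≠ 0} = (S1 : Set ι) := by
    ext v
    simp only [Set.mem_ofPred_eq, Finset.mem_union, Finset.mem_coe]
    constructor
    · rintro ⟨h1 | h1, h2⟩
      · exact absurd (hb0 v h1) h2
      · exact h1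
    · intro h1
      refine ⟨Or.inr h1, fun h2 => ?_⟩
      have hvT : v ∉ T := Finset.disjoint_right.1 hdisj1 h1
      have hvTp : v ∉ D.Tp := fun h => hvT (hT (D.Tp_subset h))
      exact (Finset.mem_filter.1 h1).2 (D.ord_eq_zero v hvTp b h2)
  rw [hset, Set.ncard_coe_finset] at hcard
  have hfd := (D.VT_good hT1).1
  have h1 := finrank_inf_ker_add (W := S1 → ZMod p) (D.VT (T ∪ S1)) (D.psi S1 fun _ => b)
  have h2 : (D.VT (T ∪ S1)).map (D.psi S1 fun _ => b) = ⊤ := by
    rw [eq_top_iff]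
    intro a _
    have hcl : ∀ v, ∃ π, v ∉ D.T0 → D.ord v π = 1 := fun v => by
      by_cases h : v ∈ D.T0
      · exact ⟨0, fun h' => absurd h h'⟩
      · obtain ⟨π, hπ, -⟩ := D.cl v h
        exact ⟨π, fun _ => hπ⟩
    choose π hπ using hcl
    let b' : ι → V := fun v => if v ∈ S1 then b else π v
    have h3 := D.map_psi_eq_top hT hdisj hK b' (fun v hv => by
      simp only [b']
      split_ifs with h
      · exact (Finset.mem_filter.1 h).2
      · rw [hπ v fun h' => Finset.disjoint_right.1 hdisj hv (hT h')]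
        exact one_ne_zero)
    let a' : T' → ZMod p := fun v => if h : (v : ι) ∈ S1 then a ⟨v, h⟩ else 0
    obtain ⟨y, hy, hya⟩ : a' ∈ (D.VT T).map (D.psi T' b') := by rw [h3]; trivial
    refine ⟨y, D.VT_mono Finset.subset_union_left hy, ?_⟩
    funext v
    have h4 := congrFun hya ⟨v, hS1T' v.2⟩
    simp only [psi_apply, a', b', v.2, if_true, dif_pos] at h4
    exact h4
  have h5 : N ≤ D.VT (T ∪ S1) ⊓ LinearMap.ker (D.psi S1 fun _ => b) := fun y hy =>
    ⟨D.mem_VT.2 (hN y hy), D.mem_ker_psi.2 fun v _ => D.s_Nm b y (hNm hy) v⟩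
  have hfd2 : FiniteDimensional (ZMod p)
    (D.VT (T ∪ S1) ⊓ LinearMap.ker (D.psi S1 fun _ => b) : Submodule (ZMod p) V) :=
    Submodule.finiteDimensional_of_le inf_le_left
  have h6 := Submodule.finrank_mono h5
  rw [h2, finrank_top, Module.finrank_fintype_fun_eq_card, Fintype.card_coe, D.finrank_VT hT1] at h1
  omega

end P3

section P5

lemma exists_apply_eq_one (x : V) : ∃ z : ι → V, ∀ v, D.s v x ≠ 0 → D.s v x (z v) = 1 := by
  have : ∀ v, ∃ z : V, D.s v x ≠ 0 → D.s v x z = 1 := by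
    intro v
    by_cases h : D.s v x = 0
    · exact ⟨0, fun h' => absurd h h'⟩
    · obtain ⟨z, hz⟩ : ∃ z, D.s v x z ≠ 0 := by
        by_contra hcon
        push Not at hcon
        exact h (LinearMap.ext hcon)
      exact ⟨(D.s v x z)⁻¹ • z, fun _ => by rw [map_smul, smul_eq_mul, inv_mul_cancel₀ hz]⟩
  choose z hz using this
  exact ⟨z, hz⟩

/-- evaluation at `x` on `W_T` -/
noncomputable def evW (T T1 : Finset ι) (h : T1 ⊆ T) (x : V) :
    ((v : T) → LinearMap.range (D.s v)) →ₗ[ZMod p] (T1 → ZMod p) :=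
  LinearMap.pi fun v => (LinearMap.applyₗ x ∘ₗ (LinearMap.range (D.s v)).subtype) ∘ₗ
    LinearMap.proj (⟨v, h v.2⟩ : T)

lemma evW_apply {T T1 : Finset ι} (h : T1 ⊆ T) (x : V) (w : (v : T) → LinearMap.range (D.s v))
    (v : T1) : D.evW T T1 h x w v = (w ⟨v, h v.2⟩ : V →ₗ[ZMod p] ZMod p) x := rfl

lemma evW_surjective {T T1 : Finset ι} (h : T1 ⊆ T) (x : V) (hx : ∀ v ∈ T1, D.s v x ≠ 0) :
    LinearMap.range (D.evW T T1 h x) = ⊤ := by
  classical
  rw [eq_top_iff]
  intro a _
  obtain ⟨z, hz⟩ := D.exists_apply_eq_one x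
  refine ⟨fun v => if h' : (v : ι) ∈ T1 then ⟨D.s v (-(a ⟨v, h'⟩ • z v)), ⟨_, rfl⟩⟩ else 0, ?_⟩
  funext v
  rw [evW_apply, dif_pos v.2]
  simp only
  rw [D.s_skew, map_neg, neg_neg, map_smul, hz v (hx v v.2), smul_eq_mul, mul_one]

/-- (P5) -/
lemma P5 {T : Finset ι} (hT : D.T0 ⊆ T) {x : V} (hx : x ∈ D.VT T) (hx0 : x ≠ 0)
    {T1 : Finset ι} (hT1 : ∀ v, v ∈ T1 ↔ v ∈ T ∧ D.s v x ≠ 0) :
    ∃ T2 : Finset ι, T ⊆ T2 ∧ (∀ v ∈ T2, v ∉ T → D.s v x = 0) ∧
      (∀ y ∈ D.VT T2, (∀ v ∈ T, D.s v x y = 0) → y ∈ D.Nm x) ∧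
      finrank (ZMod p) ((D.VT T2).map (D.psi T1 fun _ => x)) + 1 = T1.card := by
  classical
  have hr := D.r_pos
  obtain ⟨T', hdisj, hcard, hT'x, hK⟩ := D.exists_P3 hT x (T.card + D.r - 1) (by omega)
  have hK' : finrank (ZMod p) (D.VT T ⊓ LinearMap.ker (D.SW T') : Submodule (ZMod p) V) + T'.card =
      T.card + D.r := by rw [hcard]; exact hK
  have hT2 : D.T0 ⊆ T ∪ T' := hT.trans Finset.subset_union_left
  have hfd := (D.VT_good hT2).1
  have hxV : x ∈ D.VT (T ∪ T') := D.VT_mono Finset.subset_union_left hx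
  have hT1T : T1 ⊆ T := fun v hv => ((hT1 v).1 hv).1
  obtain ⟨N, hNm, hN, hNcard⟩ := D.norm x hx0 (T ∪ T') hT2 (D.mem_VT.1 hxV)
  have hset : {v | v ∈ T ∪ T' ∧ D.s v x ≠ 0} = (T1 : Set ι) := by
    ext v
    simp only [Set.mem_ofPred_eq, Finset.mem_union, Finset.mem_coe]
    rw [hT1]
    constructor
    · rintro ⟨h1 | h1, h2⟩
      · exact ⟨h1, h2⟩
      · exact absurd (hT'x v h1) h2
    · rintro ⟨h1, h2⟩
      exact ⟨Or.inl h1, h2⟩
  rw [hset, Set.ncard_coe_finset] at hNcard
  set Kp : Submodule (ZMod p) V := D.VT (T ∪ T') ⊓ LinearMap.ker (D.psi T1 fun _ => x) with hKp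
  have hKpfd : FiniteDimensional (ZMod p) Kp := Submodule.finiteDimensional_of_le inf_le_left
  have h5 : N ≤ Kp := fun y hy =>
    ⟨D.mem_VT.2 (hN y hy), D.mem_ker_psi.2 fun v _ => D.s_Nm x y (hNm hy) v⟩
  -- upper bound for `Kp`
  have hWfd := D.finite_WT T
  have hle := finrank_add_finrank_le (W := (v : T) → LinearMap.range (D.s v)) (W' := T1 → ZMod p)
    Kp (D.SW T) (D.evW T T1 hT1T x) (by
      rw [eq_bot_iff]
      rintro y ⟨hy1, hy2⟩
      exact D.P4 hT hdisj hK' hy1.1 (D.mem_ker_SW.1 hy2))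
    (D.evW_surjective hT1T x (fun v hv => ((hT1 v).1 hv).2)) (by
      intro y hy
      funext v
      rw [evW_apply]
      have := D.mem_ker_psi.1 hy.2 v v.2
      change D.s v y x = 0
      rw [D.s_skew, this, neg_zero])
  rw [Module.finrank_fintype_fun_eq_card, Fintype.card_coe, D.finrank_WT_good hT] at hle
  have hcardT2 : (T ∪ T').card = T.card + T'.card := Finset.card_union_of_disjoint hdisj
  have h6 := Submodule.finrank_mono h5
  have hcardT1 := Finset.card_le_card hT1T
  have hN_eq : N = Kp := Submodule.eq_of_le_of_finrank_le h5 (by omega)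
  have h7 := finrank_inf_ker_add (W := T1 → ZMod p) (D.VT (T ∪ T')) (D.psi T1 fun _ => x)
  rw [← hKp, D.finrank_VT hT2] at h7
  refine ⟨T ∪ T', Finset.subset_union_left, ?_, ?_, ?_⟩
  · intro v hv hvT
    exact hT'x v ((Finset.mem_union.1 hv).resolve_left hvT)
  · intro y hy hy0
    apply hNm
    rw [hN_eq]
    exact ⟨hy, D.mem_ker_psi.2 fun v hv => hy0 v (hT1T hv)⟩
  · omega

/-- (L1) Hasse norm theorem -/
theorem mem_Nm {x y : V} (h : ∀ v, D.s v x y = 0) : y ∈ D.Nm x := by
  classical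
  by_cases hx0 : x = 0
  · rw [hx0, D.Nm_zero]; trivial
  obtain ⟨T, hT, hTxy⟩ := D.exists_VT D.T0 (Set.toFinite ({x, y} : Set V))
  obtain ⟨T2, hT2, -, hNm, -⟩ := D.P5 hT (hTxy x (by simp)) hx0
    (T1 := T.filter fun v => D.s v x ≠ 0) (fun v => Finset.mem_filter)
  exact hNm y (D.VT_mono hT2 (hTxy y (by simp))) fun v _ => h v

/-- (P6) (ii) -/
lemma P6_ii {x : V} (hx0 : x ≠ 0) {a a' : ι → ZMod p} (ha : a.support.Finite)
    (ha' : a'.support.Finite) (hax : ∀ v, D.s v x = 0 → a v = 0)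
    (hax' : ∀ v, D.s v x = 0 → a' v = 0) :
    ∃ c c' : ZMod p, (c ≠ 0 ∨ c' ≠ 0) ∧ ∃ y, ∀ v, D.s v x y = c * a v + c' * a' v := by
  classical
  obtain ⟨T, hT, hTx⟩ := D.exists_VT (D.T0 ∪ ha.toFinset ∪ ha'.toFinset)
    (Set.toFinite ({x} : Set V))
  have hxT := hTx x (by simp)
  have hT0 : D.T0 ⊆ T := fun v hv => hT (by simp [hv])
  have haT : ∀ v ∉ T, a v = 0 := fun v hv => by
    by_contra h; exact hv (hT (by simp [h]))
  have haT' : ∀ v ∉ T, a' v = 0 := fun v hv => by
    by_contra h; exact hv (hT (by simp [h]))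
  set T1 := T.filter fun v => D.s v x ≠ 0 with hT1
  obtain ⟨T2, hT2, hT2x, -, hfin⟩ := D.P5 hT0 hxT hx0 (T1 := T1) (fun v => Finset.mem_filter)
  obtain ⟨c, c', hcc, y, hy, hyc⟩ := exists_smul_add_smul_mem
    (P := (D.VT T2).map (D.psi T1 fun _ => x)) (by
      rw [hfin, Module.finrank_fintype_fun_eq_card, Fintype.card_coe]) (fun v => a v)
      (fun v => a' v)
  refine ⟨c, c', hcc, y, fun v => ?_⟩
  by_cases hvT1 : v ∈ T1
  · exact congrFun hyc ⟨v, hvT1⟩
  · by_cases hvx : D.s v x = 0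
    · rw [hvx, hax v hvx, hax' v hvx, mul_zero, mul_zero, add_zero, LinearMap.zero_apply]
    · have hvT : v ∉ T := fun h => hvT1 (Finset.mem_filter.2 ⟨h, hvx⟩)
      have hvT2 : v ∉ T2 := fun h => hvx (hT2x v h hvT)
      rw [haT v hvT, haT' v hvT, mul_zero, mul_zero, add_zero]
      exact D.s_eq_zero_of_ord v (fun h => hvT (hT0 (D.Tp_subset h))) x y
        (D.mem_VT.1 hxT v hvT) (D.mem_VT.1 hy v hvT2)

/-- (P6) (i) -/
lemma P6_i {T : Finset ι} (hT : D.T0 ⊆ T) {x : V} (hx : x ∈ D.VT T) (hx0 : x ≠ 0)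
    (h : ∀ a : ι → ZMod p, (∀ v, a v ≠ 0 → v ∈ T ∧ D.s v x ≠ 0) → ∃ y, ∀ v, D.s v x y = a v) :
    False := by
  classical
  set T1 := T.filter fun v => D.s v x ≠ 0 with hT1
  have hY : ∀ w : ι, ∃ y : V, w ∈ T1 → ∀ v, D.s v x y = if v = w then 1 else 0 := by
    intro w
    by_cases hw : w ∈ T1
    · obtain ⟨y, hy⟩ := h (fun v => if v = w then 1 else 0) (fun v hv => by
        have : v = w := by
          by_contra h'; exact hv (if_neg h')
        rw [this]; exact Finset.mem_filter.1 hw)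
      exact ⟨y, fun _ => hy⟩
    · exact ⟨0, fun h' => absurd h' hw⟩
  choose Y hY using hY
  obtain ⟨T2, hT2, hT2Y⟩ := D.exists_VT T ((T1.finite_toSet).image Y)
  have hT20 := hT.trans hT2
  have hxV2 : x ∈ D.VT T2 := D.VT_mono hT2 hx
  set T3 := T2.filter fun v => D.s v x ≠ 0 with hT3
  have hcl : ∀ v, ∃ π, v ∉ D.T0 → D.ord v π = 1 ∧ ∀ w ∉ D.T0, w ≠ v → D.ord w π = 0 := fun v => by
    by_cases h : v ∈ D.T0
    · exact ⟨0, fun h' => absurd h h'⟩
    · obtain ⟨π, hπ⟩ := D.cl v h
      exact ⟨π, fun _ => hπ⟩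
  choose π hπ using hcl
  have hsurj : (D.VT T2).map (D.psi T3 fun _ => x) = ⊤ := by
    rw [eq_top_iff]
    have hsingle : ∀ w : T3, Pi.single w (1 : ZMod p) ∈ (D.VT T2).map (D.psi T3 fun _ => x) := by
      intro w
      have hw := Finset.mem_filter.1 w.2
      have hA : ∀ w : T3, (w : ι) ∈ T1 →
          Pi.single w (1 : ZMod p) ∈ (D.VT T2).map (D.psi T3 fun _ => x) := by
        intro w hwT1
        refine ⟨Y w, hT2Y _ ⟨w, hwT1, rfl⟩, ?_⟩
        funext v
        rw [psi_apply, hY w hwT1, Pi.single_apply]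
        simp only [Subtype.ext_iff]
      by_cases hwT : (w : ι) ∈ T
      · exact hA w (Finset.mem_filter.2 ⟨hwT, hw.2⟩)
      · have hwT0 : (w : ι) ∉ D.T0 := fun h => hwT (hT h)
        have hwTp : (w : ι) ∉ D.Tp := fun h => hwT0 (D.Tp_subset h)
        have hπV : π w ∈ D.VT T2 := by
          rw [mem_VT]
          intro v hv
          exact (hπ w hwT0).2 v (fun h => hv (hT20 h)) (fun h => hv (h ▸ hw.1))
        have hne : D.s w x (π w) ≠ 0 := D.P0 hwTp (D.mem_VT.1 hx w hwT) hw.2
          (by rw [(hπ w hwT0).1]; exact one_ne_zero)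
        have key : Pi.single w (1 : ZMod p) = (D.s w x (π w))⁻¹ • (D.psi T3 (fun _ => x) (π w) -
            ∑ v : T3, if (v : ι) ∈ T1 then D.s v x (π w) • Pi.single v (1 : ZMod p) else 0) := by
          funext u
          rw [Pi.smul_apply, Pi.sub_apply, psi_apply, Finset.sum_apply, Pi.single_apply]
          have hsum : ∑ v : T3, (if (v : ι) ∈ T1 then D.s v x (π w) • Pi.single v (1 : ZMod p)
              else 0 : T3 → ZMod p) u = if (u : ι) ∈ T1 then D.s u x (π w) else 0 := by
            rw [Finset.sum_eq_single u]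
            · by_cases hu : (u : ι) ∈ T1
              · rw [if_pos hu, if_pos hu, Pi.smul_apply, Pi.single_eq_same, smul_eq_mul, mul_one]
              · rw [if_neg hu, if_neg hu]; rfl
            · intro v _ hvu
              by_cases hv : (v : ι) ∈ T1
              · rw [if_pos hv, Pi.smul_apply, Pi.single_eq_of_ne hvu.symm, smul_zero]
              · rw [if_neg hv]; rfl
            · intro h; exact absurd (Finset.mem_univ _) h
          rw [hsum]
          by_cases huw : u = w
          · subst huw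
            rw [if_pos rfl, if_neg (fun h => hwT (Finset.mem_filter.1 h).1), sub_zero, smul_eq_mul,
              inv_mul_cancel₀ hne]
          · rw [if_neg huw]
            by_cases hu : (u : ι) ∈ T1
            · rw [if_pos hu, sub_self, smul_zero]
            · have hu2 := Finset.mem_filter.1 u.2
              have huT : (u : ι) ∉ T := fun h => hu (Finset.mem_filter.2 ⟨h, hu2.2⟩)
              have huT0 : (u : ι) ∉ D.T0 := fun h => huT (hT h)
              rw [if_neg hu, sub_zero, D.s_eq_zero_of_ord u (fun h => huT0 (D.Tp_subset h)) x (π w)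
                (D.mem_VT.1 hx u huT) ((hπ w hwT0).2 u huT0 fun h => huw (Subtype.ext h)),
                smul_zero]
        rw [key]
        refine Submodule.smul_mem _ _ (Submodule.sub_mem _ ⟨_, hπV, rfl⟩ ?_)
        refine Submodule.sum_mem _ fun v _ => ?_
        by_cases hv : (v : ι) ∈ T1
        · rw [if_pos hv]
          exact Submodule.smul_mem _ _ (hA v hv)
        · rw [if_neg hv]; exact Submodule.zero_mem _
    intro a _
    have : a = ∑ w : T3, a w • Pi.single w (1 : ZMod p) := by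
      funext v
      rw [Finset.sum_apply, Finset.sum_eq_single v]
      · simp
      · intro w _ hw; rw [Pi.smul_apply, Pi.single_eq_of_ne hw.symm, smul_zero]
      · intro h; exact absurd (Finset.mem_univ _) h
    rw [this]
    exact Submodule.sum_mem _ fun w _ => Submodule.smul_mem _ _ (hsingle w)
  obtain ⟨N, hNm, hN, hNcard⟩ := D.norm x hx0 T2 hT20 (D.mem_VT.1 hxV2)
  have hset : {v | v ∈ T2 ∧ D.s v x ≠ 0} = (T3 : Set ι) := by
    ext v
    simp only [Set.mem_ofPred_eq, Finset.mem_coe, hT3, Finset.mem_filter]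
  rw [hset, Set.ncard_coe_finset] at hNcard
  have hfd := (D.VT_good hT20).1
  have h1 := finrank_inf_ker_add (W := T3 → ZMod p) (D.VT T2) (D.psi T3 fun _ => x)
  rw [hsurj, finrank_top, Module.finrank_fintype_fun_eq_card, Fintype.card_coe,
    D.finrank_VT hT20] at h1
  have h5 : N ≤ D.VT T2 ⊓ LinearMap.ker (D.psi T3 fun _ => x) := fun y hy =>
    ⟨D.mem_VT.2 (hN y hy), D.mem_ker_psi.2 fun v _ => D.s_Nm x y (hNm hy) v⟩
  have hfd2 : FiniteDimensional (ZMod p)
    (D.VT T2 ⊓ LinearMap.ker (D.psi T3 fun _ => x) : Submodule (ZMod p) V) :=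
    Submodule.finiteDimensional_of_le inf_le_left
  have h6 := Submodule.finrank_mono h5
  omega

end P5

lemma exists_ne_zero : ∃ x ∈ D.VT D.T0, x ≠ 0 := by
  classical
  by_contra hcon
  push Not at hcon
  have h1 : D.VT D.T0 = ⊥ := by
    rw [eq_bot_iff]; exact hcon
  have h2 := D.finrank_VT (le_refl D.T0)
  rw [h1, finrank_bot] at h2
  have := D.r_pos
  omega

/-- A global group `H` ( = `H²(G_L, ℤ/p)`) with localisation maps. -/
structure GlobData (D : SymData p V ι) (H : Type*) [AddCommGroup H] [Module (ZMod p) H] where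
  loc : ι → H →ₗ[ZMod p] ZMod p
  fin_loc : ∀ α, {v | loc v α ≠ 0}.Finite
  sym : V → V → H
  loc_sym : ∀ x y v, loc v (sym x y) = D.s v x y
  /-- follows from the Hasse principle for `L(x^{1/p})` and Kummer theory -/
  exists_sym : ∀ x α, (∀ v, D.s v x = 0 → loc v α = 0) → ∃ y, α = sym x y

section Reciprocity

variable {D} {H : Type*} [AddCommGroup H] [Module (ZMod p) H]

/-- the total localisation map -/
noncomputable def GlobData.locF (E : GlobData D H) : H →ₗ[ZMod p] (ι →₀ ZMod p) where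
  toFun α := Finsupp.ofSupportFinite (fun v => E.loc v α) (E.fin_loc α)
  map_add' α β := by ext v; exact map_add (E.loc v) α β
  map_smul' c α := by ext v; exact map_smul (E.loc v) c α

@[simp] lemma GlobData.locF_apply (E : GlobData D H) (α : H) (v : ι) :
    E.locF α v = E.loc v α := rfl

lemma GlobData.not_forall (E : GlobData D H) {T : Finset ι} (hT : D.T0 ⊆ T) {x : V}
    (hx : x ∈ D.VT T) (hx0 : x ≠ 0)
    (h : ∀ a : ι →₀ ZMod p, (∀ v, a v ≠ 0 → v ∈ T ∧ D.s v x ≠ 0) → a ∈ LinearMap.range E.locF) :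
    False := by
  classical
  refine D.P6_i hT hx hx0 fun a ha => ?_
  have hfin : a.support.Finite := T.finite_toSet.subset fun v hv => (ha v hv).1
  obtain ⟨α, hα⟩ := h (Finsupp.ofSupportFinite a hfin) (fun v hv => ha v hv)
  have hα' : ∀ v, E.loc v α = a v := fun v => DFunLike.congr_fun hα v
  obtain ⟨y, rfl⟩ := E.exists_sym x α (fun v hv => by
    rw [hα']
    by_contra h'
    exact (ha v h').2 hv)
  exact ⟨y, fun v => by rw [← E.loc_sym]; exact hα' v⟩

/-- (L2) reciprocity: there are nonzero `c v` such that `a : ι → ZMod p` (finitely supported) is in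
the image of `loc` iff `∑ c v * a v = 0`. -/
theorem GlobData.reciprocity (E : GlobData D H) : ∃ c : ι → ZMod p, (∀ v, c v ≠ 0) ∧
    ∀ a : ι → ZMod p, a.support.Finite →
      ((∃ α, ∀ v, E.loc v α = a v) ↔ ∑ᶠ v, c v * a v = 0) := by
  classical
  have hne : LinearMap.range E.locF ≠ ⊤ := by
    intro htop
    obtain ⟨x, hx, hx0⟩ := D.exists_ne_zero
    exact E.not_forall (le_refl D.T0) hx hx0 (fun a _ => by rw [htop]; trivial)
  have hz : ∀ v, ∃ z : V, D.s v z ≠ 0 := fun v => by
    by_contra hcon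
    push Not at hcon
    exact D.s_ne_zero v (LinearMap.ext hcon)
  choose z hz using hz
  have hdep : ∀ a a' : ι →₀ ZMod p, ∃ c c' : ZMod p, (c ≠ 0 ∨ c' ≠ 0) ∧
      c • a + c' • a' ∈ LinearMap.range E.locF := by
    intro a a'
    obtain ⟨x, hx⟩ := D.approx (a.support ∪ a'.support) z
    by_cases hx0 : x = 0
    · refine ⟨1, 0, Or.inl one_ne_zero, ?_⟩
      have ha : a = 0 := by
        ext v
        by_contra hv
        have hv' : v ∈ a.support := Finsupp.mem_support_iff.2 hv
        have := hx v (Finset.mem_union_left _ hv')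
        rw [hx0, map_zero] at this
        exact hz v this.symm
      rw [ha, smul_zero, zero_smul, add_zero]
      exact Submodule.zero_mem _
    · have hsx : ∀ v, D.s v x = 0 → a v = 0 ∧ a' v = 0 := by
        intro v hv
        constructor
        · by_contra h
          have := hx v (Finset.mem_union_left _ (Finsupp.mem_support_iff.2 h))
          rw [hv] at this
          exact hz v this.symm
        · by_contra h
          have := hx v (Finset.mem_union_right _ (Finsupp.mem_support_iff.2 h))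
          rw [hv] at this
          exact hz v this.symm
      obtain ⟨c, c', hcc, y, hy⟩ := D.P6_ii hx0 (a := a) (a' := a') a.hasFiniteSupport
        a'.hasFiniteSupport (fun v hv => (hsx v hv).1) (fun v hv => (hsx v hv).2)
      refine ⟨c, c', hcc, E.sym x y, ?_⟩
      ext v
      rw [GlobData.locF_apply, E.loc_sym, hy]
      simp
  obtain ⟨l, hl⟩ := exists_functional hne hdep
  set c : ι → ZMod p := fun v => l (Finsupp.single v 1) with hc
  have hlsum : ∀ a : ι →₀ ZMod p, l a = ∑ v ∈ a.support, c v * a v := by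
    intro a
    conv_lhs => rw [← Finsupp.sum_single a]
    rw [Finsupp.sum, map_sum]
    refine Finset.sum_congr rfl fun v _ => ?_
    have : Finsupp.single v (a v) = a v • Finsupp.single v (1 : ZMod p) := by simp
    rw [this, map_smul, smul_eq_mul, mul_comm]
  have hlfin : ∀ a : ι →₀ ZMod p, l a = ∑ᶠ v, c v * a v := by
    intro a
    rw [hlsum, finsum_eq_sum_of_support_subset]
    intro v hv
    rw [Finset.mem_coe, Finsupp.mem_support_iff]
    rintro h0
    exact hv (by simp only; rw [h0, mul_zero])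
  refine ⟨c, ?_, ?_⟩
  · intro v0 hv0
    set T := insert v0 D.T0 with hTdef
    have hT : D.T0 ⊆ T := Finset.subset_insert _ _
    have hfd := (D.VT_good hT).1
    set T2 := T.filter fun v => c v ≠ 0 with hT2
    have hT2T : T2 ⊆ T := Finset.filter_subset _ _
    obtain ⟨x, hx, hx0, hxs⟩ : ∃ x ∈ D.VT T, x ≠ 0 ∧ ∀ v ∈ T2, D.s v x = 0 := by
      by_contra hcon
      push Not at hcon
      have hbot : D.VT T ⊓ LinearMap.ker (D.SW T2) = ⊥ := by
        rw [eq_bot_iff]
        rintro x ⟨hx1, hx2⟩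
        rw [Submodule.mem_bot]
        by_contra hx0
        obtain ⟨v, hv, hv'⟩ := hcon x hx1 hx0
        exact hv' (D.mem_ker_SW.1 hx2 v hv)
      have h1 := finrank_inf_ker_add (W := (v : T2) → LinearMap.range (D.s v)) (D.VT T) (D.SW T2)
      rw [hbot, finrank_bot, zero_add, D.finrank_VT hT] at h1
      have h2 := D.finrank_ker_beta T2 (c := c) (fun v hv => (Finset.mem_filter.1 hv).2) (D.VT T)
      have h3 : ∀ x ∈ D.VT T, D.beta T2 c (D.VT T) (D.SW T2 x) = 0 := by
        intro x hx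
        ext y
        rw [beta_SW, LinearMap.zero_apply]
        have h4 : l (E.locF (E.sym x y)) = 0 := by
          rw [← LinearMap.mem_ker, hl]; exact ⟨_, rfl⟩
        rw [hlfin] at h4
        rw [← h4, finsum_eq_sum_of_support_subset]
        · refine Finset.sum_congr rfl fun v _ => ?_
          rw [GlobData.locF_apply, E.loc_sym]
        · intro v hv
          rw [Finset.mem_coe]
          by_contra hvT2
          apply hv
          simp only [GlobData.locF_apply, E.loc_sym]
          by_cases hvT : v ∈ T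
          · have : c v = 0 := by
              by_contra h; exact hvT2 (Finset.mem_filter.2 ⟨hvT, h⟩)
            rw [this, zero_mul]
          · rw [D.s_eq_zero_of_ord v (fun h => hvT (hT (D.Tp_subset h))) x y
              (D.mem_VT.1 hx v hvT) (D.mem_VT.1 y.2 v hvT), mul_zero]
      have hWfd := D.finite_WT T2
      have h4 := finrank_map_le_ker (W := (v : T2) → LinearMap.range (D.s v))
        (W' := Module.Dual (ZMod p) (D.VT T)) (D.VT T) (D.SW T2) (D.beta T2 c (D.VT T)) h3
      have h5 : finrank (ZMod p) ((v : T2) → LinearMap.range (D.s v)) + 1 ≤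
          finrank (ZMod p) ((v : T) → LinearMap.range (D.s v)) := by
        rw [finrank_WT, finrank_WT]
        have hv0T : v0 ∈ T := Finset.mem_insert_self _ _
        have hv0T2 : v0 ∉ T2 := fun h => (Finset.mem_filter.1 h).2 hv0
        have h6 : insert v0 T2 ⊆ T := Finset.insert_subset hv0T hT2T
        have h7 := Finset.sum_le_sum_of_subset (f := fun v =>
          finrank (ZMod p) (LinearMap.range (D.s v))) h6
        rw [Finset.sum_insert hv0T2] at h7
        have h8 : 0 < finrank (ZMod p) (LinearMap.range (D.s v0)) := by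
          have := D.fin_range v0
          rw [Module.finrank_pos_iff_exists_ne_zero]
          refine ⟨⟨D.s v0 (z v0), ⟨_, rfl⟩⟩, fun h => hz v0 (congrArg Subtype.val h)⟩
        omega
      rw [D.finrank_WT_good hT] at h5
      omega
    refine E.not_forall hT hx hx0 fun a ha => ?_
    rw [← hl, LinearMap.mem_ker, hlsum]
    refine Finset.sum_eq_zero fun v hv => ?_
    rw [Finsupp.mem_support_iff] at hv
    have h1 := ha v hv
    have : c v = 0 := by
      by_contra h; exact h1.2 (hxs v (Finset.mem_filter.2 ⟨h1.1, h⟩))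
    rw [this, zero_mul]
  · intro a ha
    have h1 : ∀ v, (Finsupp.ofSupportFinite a ha) v = a v := fun v => rfl
    have h2 : (∃ α, ∀ v, E.loc v α = a v) ↔
        Finsupp.ofSupportFinite a ha ∈ LinearMap.range E.locF := by
      constructor
      · rintro ⟨α, hα⟩
        exact ⟨α, Finsupp.ext fun v => hα v⟩
      · rintro ⟨α, hα⟩
        exact ⟨α, fun v => DFunLike.congr_fun hα v⟩
    rw [h2, ← hl, LinearMap.mem_ker, hlfin]
    rfl

end Reciprocity

section Lagrangian

lemma exists_ord_eq_one {v : ι} (hv : v ∉ D.Tp) : ∃ π, D.ord v π = 1 := by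
  by_contra hcon
  push Not at hcon
  have h0 : ∀ x, D.ord v x = 0 := by
    intro x
    by_contra h
    exact hcon ((D.ord v x)⁻¹ • x) (by rw [map_smul, smul_eq_mul, inv_mul_cancel₀ h])
  exact D.s_ne_zero v (by ext x y; exact D.s_eq_zero_of_ord v hv x y (h0 x) (h0 y))

/-- the map `x ↦ (ord_v x)_{v ∈ S}` -/
noncomputable def ordS (S : Finset ι) : V →ₗ[ZMod p] (S → ZMod p) :=
  LinearMap.pi fun v => D.ord v

lemma mem_ker_ordS {S : Finset ι} {x : V} :
    x ∈ LinearMap.ker (D.ordS S) ↔ ∀ v ∈ S, D.ord v x = 0 := by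
  rw [LinearMap.mem_ker]
  constructor
  · intro h v hv
    exact congrFun h ⟨v, hv⟩
  · intro h
    funext v
    exact h v v.2

/-- `x ↦ (u ↦ ∑ u_v c_v s_v(x, π_v))` -/
noncomputable def theta (S : Finset ι) (c : ι → ZMod p) (π : ι → V) :
    V →ₗ[ZMod p] Module.Dual (ZMod p) (S → ZMod p) :=
  ∑ v : S, ((D.s v).flip (π v)).smulRight
    (c v • (LinearMap.proj v : (S → ZMod p) →ₗ[ZMod p] ZMod p))

lemma theta_apply (S : Finset ι) (c : ι → ZMod p) (π : ι → V) (x : V) (u : S → ZMod p) :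
    D.theta S c π x u = ∑ v : S, D.s v x (π v) * (c v * u v) := by
  simp [theta, LinearMap.sum_apply]

/-- (L3) the `T`-units are their own orthogonal complement (no class group condition). -/
theorem exists_mem_VT (c : ι → ZMod p) (hc : ∀ v, c v ≠ 0)
    (hc' : ∀ x y, ∑ᶠ v, c v * D.s v x y = 0) (T : Finset ι) (hT : D.Tp ⊆ T) (z : ι → V)
    (hz : ∀ y ∈ D.VT T, ∑ v ∈ T, c v * D.s v (z v) y = 0) :
    ∃ x ∈ D.VT T, ∀ v ∈ T, D.s v x = D.s v (z v) := by
  classical
  set T2 := T ∪ D.T0 with hT2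
  set S := T2 \ T with hS
  have hT2good : D.T0 ⊆ T2 := Finset.subset_union_right
  have hTT2 : T ⊆ T2 := Finset.subset_union_left
  have hfd2 := (D.VT_good hT2good).1
  have hSTp : ∀ v ∈ S, v ∉ D.Tp := fun v hv h => (Finset.mem_sdiff.1 hv).2 (hT h)
  have hST : ∀ v ∈ S, v ∉ T := fun v hv => (Finset.mem_sdiff.1 hv).2
  have hcardS : S.card + T.card = T2.card := Finset.card_sdiff_add_card_eq_card hTT2
  have hVT : D.VT T ≤ D.VT T2 := D.VT_mono hTT2
  have hfd : FiniteDimensional (ZMod p) (D.VT T) := Submodule.finiteDimensional_of_le hVT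
  have hπ : ∀ v, ∃ π, v ∉ D.Tp → D.ord v π = 1 := fun v => by
    by_cases h : v ∈ D.Tp
    · exact ⟨0, fun h' => absurd h h'⟩
    · obtain ⟨π, hπ⟩ := D.exists_ord_eq_one h
      exact ⟨π, fun _ => hπ⟩
  choose π hπ using hπ
  -- the symbols of elements of `V_T`, restricted to `T`
  have hrec : ∀ T' : Finset ι, D.Tp ⊆ T' → ∀ x ∈ D.VT T', ∀ y ∈ D.VT T',
      ∑ v ∈ T', c v * D.s v x y = 0 := by
    intro T' hT' x hx y hy
    rw [← hc' x y, finsum_eq_sum_of_support_subset]
    intro v hv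
    rw [Finset.mem_coe]
    by_contra hvT
    apply hv
    simp only
    rw [D.s_eq_zero_of_ord v (fun h => hvT (hT' h)) x y (D.mem_VT.1 hx v hvT)
      (D.mem_VT.1 hy v hvT), mul_zero]
  have hWT : finrank (ZMod p) ((v : T) → LinearMap.range (D.s v)) = 2 * (T.card + D.r) := by
    have h1 := D.finrank_WT_good hT2good
    rw [finrank_WT] at h1 ⊢
    rw [← Finset.sum_sdiff hTT2, ← hS,
      Finset.sum_congr rfl (g := fun _ => 2) fun v hv => D.finrank_range v (hSTp v hv),
      Finset.sum_const, smul_eq_mul] at h1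
    omega
  -- step (a)
  set K : Submodule (ZMod p) V := D.VT T ⊓ LinearMap.ker (D.SW T) with hK
  have hKfd : FiniteDimensional (ZMod p) K := Submodule.finiteDimensional_of_le inf_le_left
  have hK1 := finrank_inf_ker_add (W := Module.Dual (ZMod p) (S → ZMod p)) K (D.theta S c π)
  have hK2 : K ⊓ LinearMap.ker (D.theta S c π) = ⊥ := by
    rw [eq_bot_iff]
    rintro x ⟨⟨hx1, hx2⟩, hx3⟩
    rw [Submodule.mem_bot]
    refine D.eq_zero_of_SW hT2good (hVT hx1) fun v hv => ?_
    by_cases hvT : v ∈ T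
    · exact D.mem_ker_SW.1 hx2 v hvT
    · have hvS : v ∈ S := Finset.mem_sdiff.2 ⟨hv, hvT⟩
      have h1 : D.theta S c π x (Pi.single ⟨v, hvS⟩ 1) = 0 := by
        rw [LinearMap.mem_ker.1 hx3, LinearMap.zero_apply]
      rw [theta_apply, Finset.sum_eq_single (⟨v, hvS⟩ : S)] at h1
      · rw [Pi.single_eq_same, mul_one] at h1
        have h2 := (mul_eq_zero.1 h1).resolve_right (hc v)
        ext y
        rw [D.s_formula (hSTp v hvS) (D.mem_VT.1 hx1 v hvT) (hπ v (hSTp v hvS)), h2, mul_zero,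
          LinearMap.zero_apply]
      · intro w _ hw
        rw [Pi.single_eq_of_ne hw, mul_zero, mul_zero]
      · intro h; exact absurd (Finset.mem_univ _) h
  rw [hK2, finrank_bot, zero_add] at hK1
  have hK3 : K.map (D.theta S c π) ≤ ((D.VT T2).map (D.ordS S)).dualAnnihilator := by
    rintro _ ⟨x, ⟨hx1, hx2⟩, rfl⟩
    rw [Submodule.mem_dualAnnihilator]
    rintro _ ⟨y, hy, rfl⟩
    rw [theta_apply, ← hrec T2 (hT.trans hTT2) x (hVT hx1) y hy, ← Finset.sum_sdiff hTT2, ← hS,
      Finset.sum_eq_zero (s := T) (fun v hv => by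
        rw [D.mem_ker_SW.1 hx2 v hv, LinearMap.zero_apply, mul_zero]), add_zero]
    rw [← Finset.sum_coe_sort S (fun v => c v * D.s v x y)]
    refine Finset.sum_congr rfl fun v _ => ?_
    rw [D.s_formula (hSTp v v.2) (D.mem_VT.1 hx1 v (hST v v.2)) (hπ v (hSTp v v.2)) y]
    change D.s v x (π v) * (c v * D.ord v y) = _
    ring
  have hK4 := Submodule.finrank_mono (R := ZMod p) (M := Module.Dual (ZMod p) (S → ZMod p)) hK3
  have hK5 := Subspace.finrank_add_finrank_dualAnnihilator_eq (K := ZMod p) (V := S → ZMod p)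
    ((D.VT T2).map (D.ordS S))
  rw [Module.finrank_fintype_fun_eq_card, Fintype.card_coe] at hK5
  have hV1 := finrank_inf_ker_add (W := S → ZMod p) (D.VT T2) (D.ordS S)
  have hV2 : D.VT T2 ⊓ LinearMap.ker (D.ordS S) = D.VT T := by
    ext y
    rw [Submodule.mem_inf, mem_ker_ordS, mem_VT, mem_VT]
    constructor
    · rintro ⟨h1, h2⟩ v hv
      by_cases hv2 : v ∈ T2
      · exact h2 v (Finset.mem_sdiff.2 ⟨hv2, hv⟩)
      · exact h1 v hv2
    · intro h1
      exact ⟨fun v hv => h1 v fun h => hv (hTT2 h), fun v hv => h1 v (hST v hv)⟩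
  rw [hV2, D.finrank_VT hT2good] at hV1
  have hM := finrank_inf_ker_add (W := (v : T) → LinearMap.range (D.s v)) (D.VT T) (D.SW T)
  rw [← hK] at hM
  have hA := D.finrank_ker_beta T (c := c) (fun v _ => hc v) (D.VT T)
  have hWfd := D.finite_WT T
  obtain ⟨x, hx, hxw⟩ := mem_map_of_finrank_le (W := (v : T) → LinearMap.range (D.s v))
    (W' := Module.Dual (ZMod p) (D.VT T)) (D.VT T) (D.SW T) (D.beta T c (D.VT T)) (by
      intro x hx
      ext y
      rw [beta_SW, LinearMap.zero_apply]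
      exact hrec T hT x hx y y.2) (by omega)
      (w := fun v => ⟨D.s v (z v), ⟨_, rfl⟩⟩) (by
      ext y
      rw [beta_apply, LinearMap.zero_apply]
      rw [← hz y y.2]
      exact Finset.sum_coe_sort T (fun v => c v * D.s v (z v) y))
  exact ⟨x, hx, fun v hv => congrArg Subtype.val (congrFun hxw ⟨v, hv⟩)⟩

end Lagrangian

end SymData

end Fermat.Agent.CFT
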