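import Mathlib
import Fermat.Agent.CFT.HasseP
import Fermat.Agent.CFT.SymData
import Fermat.Agent.CFT.Loc.Index

set_option linter.unusedSectionVars false
set_option linter.unusedVariables false
set_option linter.style.haveILetI false
set_option autoImplicit false

/-!
# The symbol data of a number field, and the Hasse norm theorem
-/

open NumberField IsDedekindDomain nonZeroDivisors Pointwise

namespace Fermat.Agent.CFT

open Fermat.Agent.LocalF (sym sym_eq_zero_iff Z1_map_mul sym_apply)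
open Fermat.Agent.Frob (below mem_below)
open Loc (levU PA lp3 lp3_prod index_PA_eq exists_eq_smul_padicPlace)

local notation "Om" => AlgebraicClosure ℚ

section

variable {p : ℕ} [hp : Fact p.Prime] {L : IntermediateField ℚ Om} [FiniteDimensional ℚ L]
variable {ζ : Om} (hζ : IsPrimitiveRoot ζ p) (hζL : ζ ∈ L)

theorem card_range_sv (v : HeightOneSpectrum (𝓞 L)) :
    Nat.card (LinearMap.range (sv hζ hζL v)) = (PA p (Av v) L).index := by
  have h1 : PA p (Av v) L = (AddSubgroup.toSubgroup' 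
      ((LinearMap.ker (sv hζ hζL v)).toAddSubgroup.comap (kp p L)) : Subgroup Lˣ) := by
    ext x
    rw [mem_PA_iff_van hζ hζL, ← sv_eq_zero_iff_van]
    exact Iff.rfl
  have h2 : (PA p (Av v) L).index =
      ((LinearMap.ker (sv hζ hζL v)).toAddSubgroup.comap (kp p L)).index := by
    rw [h1]
    exact AddSubgroup.index_toSubgroup _
  rw [h2, AddSubgroup.index_comap_of_surjective _ (kp_surjective p L)]
  rw [AddSubgroup.index_eq_card]
  exact Nat.card_congr (LinearMap.quotKerEquivRange (sv hζ hζL v)).symm.toEquiv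

include hζ hζL in
theorem index_PA_ne (v : HeightOneSpectrum (𝓞 L)) :
    (PA p (Av v) L).index ≠ 1 ∧ (PA p (Av v) L).index ≠ 0 := by
  haveI : Fact (lv v).Prime := ⟨lv_prime v⟩
  obtain ⟨g, hg⟩ := exists_eq_smul_padicPlace (lv v) (Av_lies v)
  rw [hg, index_PA_eq (lv v) L hζ hζL]
  have h2 := hp.out.one_lt
  split_ifs with h
  · rw [← pow_add]
    exact ⟨(Nat.one_lt_pow (by omega) h2).ne', pow_ne_zero _ hp.out.ne_zero⟩
  · rw [mul_one]
    exact ⟨(Nat.one_lt_pow (by omega) h2).ne', pow_ne_zero _ hp.out.ne_zero⟩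

theorem sv_ne_zero (v : HeightOneSpectrum (𝓞 L)) : sv hζ hζL v ≠ 0 := by
  intro h
  have h1 := card_range_sv hζ hζL v
  rw [h, LinearMap.range_zero] at h1
  exact (index_PA_ne hζ hζL v).1 (by rw [← h1]; simp)

theorem fin_range_sv (v : HeightOneSpectrum (𝓞 L)) :
    FiniteDimensional (ZMod p) (LinearMap.range (sv hζ hζL v)) := by
  have h1 := card_range_sv hζ hζL v
  haveI : Finite (LinearMap.range (sv hζ hζL v)) :=
    Nat.finite_of_card_ne_zero (by rw [h1]; exact (index_PA_ne hζ hζL v).2)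
  exact Module.Finite.of_finite

theorem finrank_range_sv {v : HeightOneSpectrum (𝓞 L)} (hv : v ∉ Tp L p) :
    Module.finrank (ZMod p) (LinearMap.range (sv hζ hζL v)) = 2 := by
  have h1 := card_range_sv hζ hζL v
  have hne : p ≠ lv v := by
    intro h
    apply hv
    change ((p : ℕ) : 𝓞 L) ∈ v.asIdeal
    rw [h]
    exact lv_mem v
  rw [lp3 L hζ hζL (lv_prime v) hne (Av_lies v)] at h1
  exact (finrank_eq_of_card h1).2

variable (L) in
/-- the places above `p` as a finset -/
noncomputable def TpF : Finset (HeightOneSpectrum (𝓞 L)) :=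
  (finite_Tp (L := L) hp.out.ne_zero).toFinset

theorem mem_TpF {v : HeightOneSpectrum (𝓞 L)} : v ∈ TpF (p := p) L ↔ v ∈ Tp L p := by
  rw [TpF, Set.Finite.mem_toFinset]

theorem sum_finrank_sv_Tp :
    ∑ v ∈ TpF (p := p) L, Module.finrank (ZMod p) (LinearMap.range (sv hζ hζL v)) =
      2 * (TpF (p := p) L).card + Module.finrank ℚ L := by
  have h1 := lp3_prod (p := p) L hζ hζL (TpF (p := p) L) (fun v => mem_TpF) (fun v => Av v)
    (fun v _ => below_Av v)
  have h2 : ∏ v ∈ TpF (p := p) L, (PA p (Av v) L).index =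
      p ^ (∑ v ∈ TpF (p := p) L, Module.finrank (ZMod p) (LinearMap.range (sv hζ hζL v))) := by
    rw [← Finset.prod_pow_eq_pow_sum]
    refine Finset.prod_congr rfl fun v _ => ?_
    rw [← card_range_sv hζ hζL v]
    haveI := fin_range_sv hζ hζL v
    rw [Module.natCard_eq_pow_finrank (K := ZMod p), Nat.card_zmod]
  rw [h2] at h1
  exact Nat.pow_right_injective hp.out.two_le h1

theorem sum_finrank_sv (T0 : Finset (HeightOneSpectrum (𝓞 L))) (h : TpF (p := p) L ⊆ T0)
    (hp2 : 2 < p) :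
    ∑ v ∈ T0, Module.finrank (ZMod p) (LinearMap.range (sv hζ hζL v)) =
      2 * (T0.card + Fintype.card (InfinitePlace L)) := by
  classical
  have hζ' : IsPrimitiveRoot (⟨ζ, hζL⟩ : L) p :=
    IsPrimitiveRoot.of_map_of_injective (f := algebraMap L Om) (by exact hζ)
      (algebraMap L Om).injective
  have h1 := finrank_eq_two_mul_card hζ' hp2
  rw [← Finset.sum_sdiff h, sum_finrank_sv_Tp hζ hζL, h1]
  rw [Finset.sum_congr rfl (g := fun _ => 2) fun v hv => finrank_range_sv hζ hζL
    (fun hvT => (Finset.mem_sdiff.1 hv).2 (mem_TpF.2 hvT))]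
  rw [Finset.sum_const, smul_eq_mul, Finset.card_sdiff_of_subset h]
  have := Finset.card_le_card h
  omega

theorem iInf_ker_eq_VT (T : Finset (HeightOneSpectrum (𝓞 L))) :
    (⨅ v ∈ {v | v ∉ T}, LinearMap.ker (ordp v : KP p L →ₗ[ZMod p] ZMod p) :
      Submodule (ZMod p) (KP p L)) = VT (T : Set (HeightOneSpectrum (𝓞 L))) := by
  ext x
  simp [Submodule.mem_iInf, mem_VT]

theorem exists_T0F : ∃ T0 : Finset (HeightOneSpectrum (𝓞 L)), TpF (p := p) L ⊆ T0 ∧
    ClTriv (T0 : Set (HeightOneSpectrum (𝓞 L))) := by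
  obtain ⟨T0, hfin, hsub, h⟩ := exists_T0 (K := L) (Tp L p) (finite_Tp hp.out.ne_zero)
  refine ⟨hfin.toFinset, fun v hv => ?_, ?_⟩
  · rw [Set.Finite.mem_toFinset]
    exact hsub (mem_TpF.1 hv)
  · rw [Set.Finite.coe_toFinset]
    exact h

/-- the symbol data of `L` -/
noncomputable def symData (hp2 : 2 < p) : SymData p (KP p L) (HeightOneSpectrum (𝓞 L)) where
  s := sv hζ hζL
  ord := ordp
  Tp := TpF L
  T0 := (exists_T0F (p := p) (L := L)).choose
  Tp_subset := (exists_T0F (p := p) (L := L)).choose_spec.1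
  r := Fintype.card (InfinitePlace L)
  r_pos := Fintype.card_pos
  alt := fun v x => sv_self hζ hζL hp2.ne' v x
  fin_ord := finite_ordp_ne_zero
  s_eq_zero_of_ord := fun v hv x y hx hy =>
    sv_eq_zero_of_ord hζ hζL (fun h => hv (mem_TpF.2 h)) hx hy
  ord_eq_zero := fun v hv x h => ordp_eq_zero_of_sv hζ hζL v h
  fin_range := fin_range_sv hζ hζL
  finrank_range := fun v hv => finrank_range_sv hζ hζL (fun h => hv (mem_TpF.2 h))
  sum_finrank_range := sum_finrank_sv hζ hζL _ (exists_T0F (p := p) (L := L)).choose_spec.1 hp2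
  s_ne_zero := sv_ne_zero hζ hζL
  approx := exists_approx hζ hζL
  cl := by
    intro v hv
    obtain ⟨x, h1, h2⟩ := (exists_T0F (p := p) (L := L)).choose_spec.2 v
    refine ⟨kp p L (Additive.ofMul x), ?_, fun w hw hwv => ?_⟩
    · rw [ordp_kp, h1 hv]; simp
    · rw [ordp_kp, h2 w hw hwv]; simp
  Nm := fun x => LinearMap.ker ((sym (LL L) p (kum hζ hζL x)) ∘ₗ (kum hζ hζL))
  Nm_zero := by
    rw [map_zero, map_zero, LinearMap.zero_comp, LinearMap.ker_zero]
  s_Nm := by
    intro x y hy v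
    rw [sv_apply]
    have : sym (LL L) p (kum hζ hζL x) (kum hζ hζL y) = 0 := hy
    rw [this, map_zero]
  finV0 := by
    have hζ' : IsPrimitiveRoot (⟨ζ, hζL⟩ : L) p :=
      IsPrimitiveRoot.of_map_of_injective (f := algebraMap L Om) (by exact hζ)
        (algebraMap L Om).injective
    rw [iInf_ker_eq_VT]
    exact (finrank_VT (exists_T0F (p := p) (L := L)).choose_spec.2 (Finset.finite_toSet _) hζ').1
  finrankV0 := by
    have hζ' : IsPrimitiveRoot (⟨ζ, hζL⟩ : L) p :=
      IsPrimitiveRoot.of_map_of_injective (f := algebraMap L Om) (by exact hζ)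
        (algebraMap L Om).injective
    rw [iInf_ker_eq_VT, (finrank_VT (exists_T0F (p := p) (L := L)).choose_spec.2
      (Finset.finite_toSet _) hζ').2, Set.ncard_coe_finset]
  norm := by
    intro x hx T hT hxT
    obtain ⟨N, hN1, hN2, -, hN4⟩ := exists_norm_field hζ hζL hp2 hx (T := (T : Set _))
      T.finite_toSet
      ((exists_T0F (p := p) (L := L)).choose_spec.2.mono (Finset.coe_subset.2 hT))
      (fun v hv => Finset.mem_coe.2 (hT ((exists_T0F (p := p) (L := L)).choose_spec.1
        (mem_TpF.2 hv)))) (mem_VT.2 fun v hv => hxT v (by simpa using hv))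
    refine ⟨N, fun y hy => hN2 y hy, fun y hy v hv => mem_VT.1 (hN1 hy) v (by simpa using hv), ?_⟩
    rw [Set.ncard_coe_finset] at hN4
    rw [← hN4]
    congr 2
    ext v
    simp only [Set.mem_ofPred_eq, Finset.mem_coe, and_congr_right_iff]
    intro hv
    rw [Ne, sv_eq_zero_iff_van, VanAt]
    push Not
    rfl
  cheb := by
    intro x y hy F
    obtain ⟨v, hv, h1, h2⟩ := exists_place_van hζ hζL hy (F : Set _) F.finite_toSet
    exact ⟨v, by simpa using hv, (sv_eq_zero_iff_van hζ hζL v x).2 h1,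
      fun h => h2 ((sv_eq_zero_iff_van hζ hζL v y).1 h)⟩

/-- **Hasse norm theorem** -/
theorem hasseNorm (hp2 : 2 < p) : HasseNorm hζ L hζL := by
  intro x y h
  exact (symData hζ hζL hp2).mem_Nm h

end

end Fermat.Agent.CFT
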