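import Mathlib
import Fermat.Agent.CFT.SymInst

set_option linter.unusedSectionVars false
set_option linter.unusedVariables false
set_option linter.style.haveILetI false
set_option autoImplicit false

/-!
# The Hasse principle and the global data of a number field
-/

open NumberField IsDedekindDomain nonZeroDivisors Pointwise

namespace Fermat.Agent.CFT

open Fermat.Agent.LocalF (sym sym_eq_zero_iff Z1_map_mul sym_apply)
open Fermat.Agent.Frob (below mem_below)
open Loc (levU PA lp3 lp3_prod index_PA_eq exists_eq_smul_padicPlace lp1 lp2)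

local notation "Om" => AlgebraicClosure ℚ

section On

variable {G : Type*} [Group G] {𝓛 : Levels G} {p : ℕ}

open Classical in
/-- extension by zero -/
noncomputable def extz (U : Subgroup G) (y : U → U → ZMod p) : G → G → ZMod p :=
  fun a b => if h : a ∈ U ∧ b ∈ U then y ⟨a, h.1⟩ ⟨b, h.2⟩ else 0

theorem extz_apply (U : Subgroup G) (y : U → U → ZMod p) (a b : U) : extz U y a b = y a b := by
  rw [extz, dif_pos ⟨a.2, b.2⟩]

theorem extz_eq (U : Subgroup G) (y : U → U → ZMod p) : (fun a b : U => extz U y a b) = y := by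
  funext a b
  exact extz_apply U y a b

theorem ZOn_extz {U : Subgroup G} {y : U → U → ZMod p} :
    ZOn 𝓛 U (extz U y) ↔ y ∈ Z2 (𝓛.restrict U) (triv p U) := by
  rw [ZOn, extz_eq]

theorem DOn_extz {U : Subgroup G} {y : U → U → ZMod p} :
    DOn 𝓛 U (extz U y) ↔ y ∈ B2 (𝓛.restrict U) (triv p U) := by
  rw [DOn, extz_eq]

theorem DOn.congr {U : Subgroup G} {f f' : G → G → ZMod p} (h : ∀ a ∈ U, ∀ b ∈ U, f a b = f' a b)
    (hd : DOn 𝓛 U f) : DOn 𝓛 U f' := by
  have h1 : (fun a b : U => f' a b) = fun a b : U => f a b := by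
    funext a b
    exact (h a a.2 b b.2).symm
  change (fun a b : U => f' a b) ∈ _
  rw [h1]
  exact hd

theorem DOn.conj [Fact p.Prime] {U V W : Subgroup G} {f : G → G → ZMod p} (hz : ZOn 𝓛 U f)
    (hW : W ≤ U) {g : G} (hg : g ∈ U) (h : ∀ w ∈ W, g⁻¹ * w * g ∈ V)
    (hd : DOn 𝓛 V f) : DOn 𝓛 W f := by
  have h1 := H2.map_conj (ρ := triv p U) (𝓛 := 𝓛.restrict U) (⟨g, hg⟩ : U)⁻¹
    (H2.mk (𝓛.restrict U) (triv p U) ⟨_, hz⟩)
  rw [H2.map_mk, H2.mk_eq_mk] at h1
  have h2 := pp2_mem_B2 (φ := (LinearMap.id : ZMod p →ₗ[ZMod p] ZMod p)) (cont_of_le hW)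
    (compat_triv p (Subgroup.inclusion hW)) h1
  let j : W →* V := 
    { toFun := fun w => ⟨g⁻¹ * w * g, h w w.2⟩
      map_one' := Subtype.ext (by simp)
      map_mul' := fun a b => Subtype.ext (by
        change g⁻¹ * ((a : G) * b) * g = g⁻¹ * a * g * (g⁻¹ * b * g)
        group) }
  have hj : Levels.Cont (𝓛.restrict W) (𝓛.restrict V) j := by
    rintro J ⟨H, hH, hJ⟩
    obtain ⟨N, hN, hNH, hn⟩ := Levels.exists_normal hH
    refine ⟨N, hN, fun x hx => hJ ?_⟩
    change g⁻¹ * (x : G) * g ∈ H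
    have := hn.conj_mem x hx g⁻¹
    rw [inv_inv] at this
    exact hNH this
  have h3 := pp2_mem_B2 (φ := (LinearMap.id : ZMod p →ₗ[ZMod p] ZMod p)) hj
    (compat_triv p j) hd
  have h4 := Submodule.sub_mem _ h3 h2
  change (fun a b : W => f a b) ∈ B2 (𝓛.restrict W) (triv p W)
  convert h4 using 1
  funext a b
  simp only [Pi.sub_apply, pp2_apply, LinearMap.id_apply, conj_toMonoidHom_apply, Representation.trivial_apply]
  have e1 : ∀ w : W, ((j w : V) : G) = g⁻¹ * w * g := fun w => rfl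
  rw [e1, e1]
  have e2 : ∀ w : W, (((⟨g, hg⟩ : U)⁻¹ * (Subgroup.inclusion hW) w * (⟨g, hg⟩ : U)⁻¹⁻¹ : U) : G) =
      g⁻¹ * w * g := by
    intro w
    rw [inv_inv]
    rfl
  rw [e2, e2, sub_sub_cancel]
  rfl

end On

section

variable {p : ℕ} [hp : Fact p.Prime] {L : IntermediateField ℚ Om} [FiniteDimensional ℚ L]
variable {ζ : Om} (hζ : IsPrimitiveRoot ζ p) (hζL : ζ ∈ L)

/-- if a class dies on the kernel of a Kummer character, it is a symbol -/
theorem exists_sym_of_DOn {f : (Om ≃ₐ[ℚ] Om) → (Om ≃ₐ[ℚ] Om) → ZMod p}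
    (hz : ZOn (galLevels ℚ Om) L.fixingSubgroup f) (x : KP p L)
    {σ : L.fixingSubgroup} (hσ : (kum hζ hζL x : L.fixingSubgroup → ZMod p) σ = 1)
    {H : Subgroup L.fixingSubgroup}
    (hH : ∀ g, g ∈ H ↔ (kum hζ hζL x : L.fixingSubgroup → ZMod p) g = 0)
    (hd : DOn (galLevels ℚ Om) (H.map L.fixingSubgroup.subtype) f) :
    ∃ b : KP p L, H2.mk (LL L) (triv p L.fixingSubgroup) ⟨_, hz⟩ =
      sym (LL L) p (kum hζ hζL x) (kum hζ hζL b) := by
  obtain ⟨β, hβ0, hβ, hβκ⟩ := exists_cup_of_restrict hζ (isGal_Om.restrict L.fixingSubgroup)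
    (mem_iff_fixed.1 hζL) (hdiv_Om hp.out.ne_zero) (kum hζ hζL x).2.1 (Z1_map_mul _) hH hσ hz
    (hd.subgroupOf H)
  have hβL : β ^ p ∈ L := mem_iff_fixed.2 hβ
  have hne : (⟨β ^ p, hβL⟩ : L) ≠ 0 := fun h => pow_ne_zero p hβ0 (congrArg Subtype.val h)
  set b : KP p L := kp p L (Additive.ofMul (Units.mk0 ⟨β ^ p, hβL⟩ hne)) with hb
  have hkb : ∀ g : L.fixingSubgroup, (kum hζ hζL b : L.fixingSubgroup → ZMod p) g =
      kummer p ζ β g := fun g => kumHom_apply hζ hζL rfl g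
  refine ⟨b, ?_⟩
  rw [sym_apply, H2.mk_eq_mk]
  have h1 : cup (kum hζ hζL x : L.fixingSubgroup → ZMod p) (kum hζ hζL b) =
      cup (kum hζ hζL x : L.fixingSubgroup → ZMod p) (kummer p ζ β) := by
    funext g h
    rw [cup_apply, cup_apply, hkb]
  change (fun a b : L.fixingSubgroup => f a b) - cup (kum hζ hζL x : L.fixingSubgroup → ZMod p)
    (kum hζ hζL b) ∈ _
  rw [h1]
  exact hβκ

/-- local triviality at all places from that at `Av v` -/
theorem DOn_of_locv {f : (Om ≃ₐ[ℚ] Om) → (Om ≃ₐ[ℚ] Om) → ZMod p}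
    (hz : ZOn (galLevels ℚ Om) L.fixingSubgroup f) {ℓ : ℕ} (hℓ : ℓ.Prime)
    {A : ValuationSubring Om} (hA : A.LiesOverPrime ℓ)
    (h : locv hζ hζL (placeBelow L A hℓ hA) (H2.mk (LL L) (triv p L.fixingSubgroup) ⟨_, hz⟩) = 0) :
    DOn (galLevels ℚ Om) (A.decompositionSubgroup ℚ ⊓ L.fixingSubgroup) f := by
  rw [locv_eq_zero_iff, resAt_mk_eq_zero] at h
  set v := placeBelow L A hℓ hA with hv
  obtain ⟨g, hg⟩ := exists_smul_eq_of_placeBelow (L := L) (A := A) (A' := Av v) hℓ hA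
    (by rw [below_Av]; rfl)
  refine DOn.conj (V := (Av v).decompositionSubgroup ℚ ⊓ L.fixingSubgroup) hz inf_le_right
    (g := ((g⁻¹ : L.fixingSubgroup) : Om ≃ₐ[ℚ] Om)) (g⁻¹).2 ?_ h
  rintro w ⟨hw1, hw2⟩
  have hw1' : w • A = A := hw1
  rw [Subgroup.coe_inv, inv_inv]
  refine ⟨?_, L.fixingSubgroup.mul_mem (L.fixingSubgroup.mul_mem g.2 hw2)
    (L.fixingSubgroup.inv_mem g.2)⟩
  change ((g : Om ≃ₐ[ℚ] Om) * w * (g : Om ≃ₐ[ℚ] Om)⁻¹) • Av v = Av v
  rw [hg, mul_smul, mul_smul, inv_smul_smul, hw1']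

/-- **Hasse principle** -/
theorem hasse_principle (hp2 : 2 < p) {α : H2 (LL L) (triv p L.fixingSubgroup)}
    (h : ∀ v, locv hζ hζL v α = 0) : α = 0 := by
  obtain ⟨y, rfl⟩ := H2.mk_surjective _ _ α
  have hz : ZOn (galLevels ℚ Om) L.fixingSubgroup (extz L.fixingSubgroup
      (y : L.fixingSubgroup → L.fixingSubgroup → ZMod p)) := ZOn_extz.2 y.2
  have hy : y = ⟨_, hz⟩ := Subtype.ext (extz_eq _ _).symm
  rw [H2.mk_eq_zero, ← DOn_extz]
  refine hasse_cochain hζ (fun L _ hζL => hasseNorm hζ hζL hp2) _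
    (fixingSubgroup_mem_galLevels L) (fun g hg => mem_iff_fixed.1 hζL ⟨g, hg⟩) _ hz ?_
  intro ℓ hℓ A hA
  refine DOn_of_locv hζ hζL hz hℓ hA ?_
  rw [← hy]
  exact h _

/-- symbols with a fixed first entry, from the Hasse principle for the Kummer extension -/
theorem exists_sym_glob (hp2 : 2 < p) (x : KP p L) (α : H2 (LL L) (triv p L.fixingSubgroup))
    (h : ∀ v, sv hζ hζL v x = 0 → locv hζ hζL v α = 0) :
    ∃ y, α = sym (LL L) p (kum hζ hζL x) (kum hζ hζL y) := by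
  by_cases hx : x = 0
  · refine ⟨0, ?_⟩
    rw [map_zero, map_zero]
    exact hasse_principle hζ hζL hp2 fun v => h v (by rw [hx, map_zero])
  have hκ : kum hζ hζL x ≠ 0 := fun h' => hx (kum_injective hζ hζL (by rw [h', map_zero]))
  obtain ⟨σ, hσ⟩ := Fermat.Agent.LocalF.exists_eq_one hκ
  obtain ⟨y, rfl⟩ := H2.mk_surjective _ _ α
  have hz : ZOn (galLevels ℚ Om) L.fixingSubgroup (extz L.fixingSubgroup
      (y : L.fixingSubgroup → L.fixingSubgroup → ZMod p)) := ZOn_extz.2 y.2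
  have hy : y = ⟨_, hz⟩ := Subtype.ext (extz_eq _ _).symm
  set f := extz L.fixingSubgroup (y : L.fixingSubgroup → L.fixingSubgroup → ZMod p) with hf
  set H : Subgroup L.fixingSubgroup := Fermat.Agent.LocalF.kerZ1 (kum hζ hζL x) with hHdef
  have hH : ∀ g, g ∈ H ↔ (kum hζ hζL x : L.fixingSubgroup → ZMod p) g = 0 := fun g => Iff.rfl
  have hHle : H.map L.fixingSubgroup.subtype ≤ L.fixingSubgroup := by
    rintro _ ⟨g, -, rfl⟩
    exact g.2
  have hHlev : H.map L.fixingSubgroup.subtype ∈ galLevels ℚ Om := by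
    rw [← Levels.mem_restrict_iff_map (fixingSubgroup_mem_galLevels L)]
    exact Fermat.Agent.LocalF.kerZ1_mem _
  have hd : DOn (galLevels ℚ Om) (H.map L.fixingSubgroup.subtype) f := by
    refine hasse_cochain hζ (fun L _ hζL => hasseNorm hζ hζL hp2) _ hHlev
      (fun g hg => mem_iff_fixed.1 hζL ⟨g, hHle hg⟩) _ (hz.mono hHle) ?_
    intro ℓ hℓ A hA
    set v := placeBelow L A hℓ hA with hv
    by_cases hsv : sv hζ hζL v x = 0
    · refine (DOn_of_locv hζ hζL hz hℓ hA ?_).mono (inf_le_inf_left _ hHle)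
      rw [← hy]
      exact h _ hsv
    · -- the local `H²` is spanned by a symbol with first entry `x`
      obtain ⟨g, hg⟩ := exists_smul_eq_of_placeBelow (L := L) (A := A) (A' := Av v) hℓ hA
        (by rw [below_Av]; rfl)
      obtain ⟨b, hb⟩ : ∃ b : KP p L, resAt p L A (sym (LL L) p (kum hζ hζL x) (kum hζ hζL b)) ≠ 0 := by
        by_contra hcon
        push Not at hcon
        apply hsv
        rw [sv_eq_zero_iff_van, hg, vanAt_smul (Z1_map_mul _) g]
        obtain ⟨x, rfl⟩ := kp_surjective p L x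
        rw [vanAt_iff]
        refine lp2 L hζ hζL hℓ hA (root_ne_zero x) (by rw [root_pow]; exact Subtype.property _)
          (fun w hw0 hw => ?_)
        have hne : (⟨w ^ p, hw⟩ : L) ≠ 0 := by
          intro h
          exact pow_ne_zero p hw0 (congrArg Subtype.val h)
        have h1 := hcon (kp p L (Additive.ofMul (Units.mk0 ⟨w ^ p, hw⟩ hne)))
        rw [sym_apply, resAt_mk_eq_zero] at h1
        convert h1 using 1
        funext u u'
        have e1 := kumHom_apply hζ hζL (x := Additive.ofMul (Units.mk0 ⟨w ^ p, hw⟩ hne)) (α := w)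
          rfl ⟨u', u'.2.2⟩
        change _ = (kum hζ hζL (kp p L x) : L.fixingSubgroup → ZMod p) ⟨u, u.2.2⟩ *
          (kum hζ hζL (kp p L (Additive.ofMul (Units.mk0 ⟨w ^ p, hw⟩ hne))) :
            L.fixingSubgroup → ZMod p) ⟨u', u'.2.2⟩
        rw [kum_kp, kum_kp, e1]
        rfl
      have h1 := lp1 (p := p) L hζ hζL hℓ hA
      obtain ⟨t, ht⟩ := (finrank_eq_one_iff_of_nonzero' _ hb).1 h1
        (resAt p L A (H2.mk (LL L) (triv p L.fixingSubgroup) y))
      rw [← map_smul, sym_apply, ← map_smul, ← sub_eq_zero, ← map_sub, ← map_sub,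
        resAt_mk_eq_zero] at ht
      have ht' : DOn (galLevels ℚ Om) (A.decompositionSubgroup ℚ ⊓ L.fixingSubgroup)
        (extz L.fixingSubgroup fun a b' => t * ((kum hζ hζL x : L.fixingSubgroup → ZMod p) a *
          (kum hζ hζL b : L.fixingSubgroup → ZMod p) b') -
            (y : L.fixingSubgroup → L.fixingSubgroup → ZMod p) a b') := by
        change (fun a b : _ => _) ∈ _
        convert ht using 1
        funext u u'
        exact extz_apply L.fixingSubgroup _ ⟨u, u.2.2⟩ ⟨u', u'.2.2⟩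
      have h2 := ht'.mono (inf_le_inf_left (A.decompositionSubgroup ℚ) hHle)
      have h3 : DOn (galLevels ℚ Om) (A.decompositionSubgroup ℚ ⊓ H.map L.fixingSubgroup.subtype)
          (-f) := by
        refine h2.congr fun a ha b' hb' => ?_
        obtain ⟨a', ha', rfl⟩ := ha.2
        obtain ⟨b'', hb'', rfl⟩ := hb'.2
        rw [Subgroup.subtype_apply, Subgroup.subtype_apply, extz_apply, (hH _).1 ha', zero_mul,
          mul_zero, zero_sub, Pi.neg_apply, Pi.neg_apply, hf, extz_apply]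
      have h4 := Submodule.neg_mem _ h3
      refine DOn.congr (f := -(-f)) (fun a _ b' _ => by rw [neg_neg]) h4
  obtain ⟨b, hb⟩ := exists_sym_of_DOn hζ hζL hz x hσ hH hd
  refine ⟨b, ?_⟩
  rw [← hb, ← hy]

/-- the global data of `L` -/
noncomputable def globData (hp2 : 2 < p) :
    SymData.GlobData (symData hζ hζL hp2) (H2 (LL L) (triv p L.fixingSubgroup)) where
  loc := locv hζ hζL
  fin_loc := finite_locv hζ hζL
  sym := fun x y => sym (LL L) p (kum hζ hζL x) (kum hζ hζL y)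
  loc_sym := fun x y v => rfl
  exists_sym := fun x α h => exists_sym_glob hζ hζL hp2 x α h

/-- **Reciprocity**: the image of the localisation map is a hyperplane. -/
theorem exists_reciprocity (hp2 : 2 < p) :
    ∃ c : HeightOneSpectrum (𝓞 L) → ZMod p, (∀ v, c v ≠ 0) ∧
      ∀ a : HeightOneSpectrum (𝓞 L) → ZMod p, a.support.Finite →
        ((∃ α, ∀ v, locv hζ hζL v α = a v) ↔ ∑ᶠ v, c v * a v = 0) :=
  (globData hζ hζL hp2).reciprocity

/-- **Duality for `T`-units**. -/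
theorem exists_mem_VT_of_orthogonal (hp2 : 2 < p) {c : HeightOneSpectrum (𝓞 L) → ZMod p}
    (hc : ∀ v, c v ≠ 0)
    (hc' : ∀ a : HeightOneSpectrum (𝓞 L) → ZMod p, a.support.Finite →
        ((∃ α, ∀ v, locv hζ hζL v α = a v) ↔ ∑ᶠ v, c v * a v = 0))
    (T : Finset (HeightOneSpectrum (𝓞 L))) (hT : Tp L p ⊆ T)
    (z : HeightOneSpectrum (𝓞 L) → KP p L)
    (hz : ∀ y ∈ (VT (T : Set (HeightOneSpectrum (𝓞 L))) : Submodule (ZMod p) (KP p L)),
      ∑ v ∈ T, c v * sv hζ hζL v (z v) y = 0) :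
    ∃ x ∈ (VT (T : Set (HeightOneSpectrum (𝓞 L))) : Submodule (ZMod p) (KP p L)),
      ∀ v ∈ T, sv hζ hζL v x = sv hζ hζL v (z v) := by
  have hVT : ∀ y : KP p L, y ∈ (symData hζ hζL hp2).VT T ↔
      y ∈ (VT (T : Set (HeightOneSpectrum (𝓞 L))) : Submodule (ZMod p) (KP p L)) := by
    intro y
    rw [SymData.mem_VT, mem_VT]
    rfl
  obtain ⟨x, hx, h⟩ := (symData hζ hζL hp2).exists_mem_VT c hc (fun x y => by
      have h1 := (hc' (fun v => sv hζ hζL v x y) ((symData hζ hζL hp2).finite_s x y)).1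
        ⟨sym (LL L) p (kum hζ hζL x) (kum hζ hζL y), fun v => rfl⟩
      exact h1) T (fun v hv => hT (mem_TpF.1 hv)) z (fun y hy => hz y ((hVT y).1 hy))
  exact ⟨x, (hVT x).1 hx, h⟩

end

end Fermat.Agent.CFT
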