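import Fermat.Agent.CFT.SLevMain
import Fermat.Agent.CFT.GlobH

/-!
# Dimension of `S`-level cohomology: final form (with the Hasse principle)
-/

set_option autoImplicit false

open NumberField IsDedekindDomain Module
open scoped Pointwise

namespace Fermat.Agent.CFT

open Fermat.Agent.Frob

local notation "Qb" => AlgebraicClosure ℚ
local notation "Γ" => (AlgebraicClosure ℚ ≃ₐ[ℚ] AlgebraicClosure ℚ)

variable {p : ℕ} [Fact p.Prime] {S : Finset Nat.Primes}
variable {L : IntermediateField ℚ Qb} [FiniteDimensional ℚ L] {ζ : Qb}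

theorem slHasse (hp2 : p ≠ 2) (hζ : IsPrimitiveRoot ζ p) (hζL : ζ ∈ L) : SlHasse p L := by
  intro α hα h
  have hpp : p.Prime := Fact.out
  have h1 := hasse_principle hζ hζL (lt_of_le_of_ne hpp.two_le (Ne.symm hp2))
    (α := H2.mk (LL L) (triv p L.fixingSubgroup) ⟨α, hα⟩) (fun v => by
      rw [locv_eq_zero_iff, resAt_mk_eq_zero]
      exact h (lv v) (lv_prime v) (Av v) (Av_lies v))
  rw [H2.mk_eq_zero] at h1
  exact h1

theorem finite_SL : (SL S L).Finite := by
  have hN : (∏ l ∈ S, (l : ℕ)) ≠ 0 := Finset.prod_ne_zero_iff.2 fun l _ => l.2.ne_zero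
  refine (finite_places_dvd (L := L) hN).subset ?_
  rintro v ⟨l, hl, hlv⟩
  rw [Set.mem_ofPred_eq]
  obtain ⟨c, hc⟩ := Finset.dvd_prod_of_mem (fun l : Nat.Primes => (l : ℕ)) hl
  rw [hc, Nat.cast_mul]
  exact v.asIdeal.mul_mem_right _ hlv

/-- the number of infinite places -/
theorem card_infinitePlace_eq (hp2 : p ≠ 2) (hζ : IsPrimitiveRoot ζ p) (hζL : ζ ∈ L) :
    finrank ℚ L = 2 * Fintype.card (InfinitePlace L) := by
  have hpp : p.Prime := Fact.out
  have hζ' : IsPrimitiveRoot (⟨ζ, hζL⟩ : L) p :=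
    hζ.of_map_of_injective (f := algebraMap L Qb) (FaithfulSMul.algebraMap_injective L Qb)
  exact finrank_eq_two_mul_card hζ' (lt_of_le_of_ne hpp.two_le (Ne.symm hp2))

/-- (a) -/
theorem finrank_H1_slev (hζ : IsPrimitiveRoot ζ p) (hζL : ζ ∈ L)
    (hL : L.fixingSubgroup ∈ sLevels S) (hpS : ExtCitation.pPrime p ∈ S) :
    FiniteDimensional (ZMod p)
      (H1 ((sLevels S).restrict L.fixingSubgroup) (triv p L.fixingSubgroup)) ∧
    FiniteDimensional (ZMod p) (LinearMap.ker (infl2 p S L.fixingSubgroup)) ∧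
    finrank (ZMod p) (H1 ((sLevels S).restrict L.fixingSubgroup) (triv p L.fixingSubgroup)) =
      finrank (ZMod p) (LinearMap.ker (infl2 p S L.fixingSubgroup)) +
        ((SL S L).ncard + Fintype.card (NumberField.InfinitePlace L)) := by
  obtain ⟨T0, hT0, hST, hcl⟩ := exists_T0 (K := L) (SL S L) finite_SL
  obtain ⟨h1, h2, h3⟩ := finrank_ker_infl2 hζ hζL hL hpS hT0 hST hcl
  refine ⟨Module.Finite.equiv ((slVtEquiv hζ hζL hL hpS).trans slH1Equiv), h1, ?_⟩
  rw [h3]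
  exact finrank_H1_sLev hζ hζL hL hpS

/-- (b), cochain form: an `S`-level cocycle is a coboundary (at full level) iff it is so locally
at the places above `S`. -/
theorem mem_B2_iff_forall_slRes (hp2 : p ≠ 2) (hζ : IsPrimitiveRoot ζ p) (hζL : ζ ∈ L)
    (hL : L.fixingSubgroup ∈ sLevels S) {α : L.fixingSubgroup → L.fixingSubgroup → ZMod p}
    (hα : α ∈ Z2 ((sLevels S).restrict L.fixingSubgroup) (triv p L.fixingSubgroup)) :
    α ∈ B2 ((galLevels ℚ Qb).restrict L.fixingSubgroup) (triv p L.fixingSubgroup) ↔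
    ∀ l ∈ S, ∀ A : ValuationSubring Qb, A.LiesOverPrime (l : ℕ) →
      slRes A α ∈ B2 (Loc.levU A L) (triv p (Loc.UA A L)) := by
  constructor
  · intro h l _ A _
    exact pp2_mem_B2 (σ := triv p (Loc.UA A L)) (φ := LinearMap.id) (slCont_UA A)
      (fun _ _ => rfl) h
  · intro h
    refine slHasse hp2 hζ hζL α ⟨LC₂_of_sLC hα.1, hα.2⟩ fun q hq A hA => ?_
    by_cases hqS : (⟨q, hq⟩ : Nat.Primes) ∈ S
    · exact h _ hqS A hA
    · exact slRes_mem_B2_of_notMem hL hα (q := ⟨q, hq⟩) hqS hA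

/-- (b) -/
theorem infl2_eq_zero_iff (hp2 : p ≠ 2) (hζ : IsPrimitiveRoot ζ p) (hζL : ζ ∈ L)
    (hL : L.fixingSubgroup ∈ sLevels S)
    (z : H2 ((sLevels S).restrict L.fixingSubgroup) (triv p L.fixingSubgroup)) :
    infl2 p S L.fixingSubgroup z = 0 ↔
    ∀ l ∈ S, ∀ A : ValuationSubring Qb, A.LiesOverPrime (l : ℕ) → slLoc p S L A z = 0 := by
  obtain ⟨z, rfl⟩ := H2.mk_surjective ((sLevels S).restrict L.fixingSubgroup)
    (triv p L.fixingSubgroup) z
  rw [infl2_mk, H2.mk_eq_zero]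
  refine (mem_B2_iff_forall_slRes hp2 hζ hζL hL z.2).trans ?_
  exact forall₂_congr fun l _ => forall₂_congr fun A _ => (slLoc_mk_eq_zero_iff A z).symm

/-- `H²` at `S`-level is finite-dimensional. -/
theorem finite_H2_slev (hp2 : p ≠ 2) (hζ : IsPrimitiveRoot ζ p) (hζL : ζ ∈ L)
    (hL : L.fixingSubgroup ∈ sLevels S) (hpS : ExtCitation.pPrime p ∈ S) :
    FiniteDimensional (ZMod p)
      (H2 ((sLevels S).restrict L.fixingSubgroup) (triv p L.fixingSubgroup)) :=
  (D_main hp2 hζ hζL hL hpS (slHasse hp2 hζ hζL) (fun v => Av v.1)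
    (fun v => below_Av v.1)).2.2.1

end Fermat.Agent.CFT
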