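import Mathlib
import Fermat.Agent.CFT.Growth
import Fermat.Agent.CFT.SLevThm
import Fermat.Agent.CFT.Loc.Dict

/-!
# The kernel of localisation on permutation modules, in terms of places
-/

set_option autoImplicit false

open Module
open scoped Pointwise NumberField
open IsDedekindDomain

namespace Fermat.Agent.CFT

section Abs

variable {p : ℕ} [Fact p.Prime] {G G' : Type*} [Group G] [Group G'] {𝓛 : Levels G}
  {𝓛' : Levels G'}

/-- the stabilizer of a point in a pulled back set -/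
def stabSub {X : Type*} [MulAction G X] (f : G' →* G) (y : X) : Subgroup G' :=
  (MulAction.stabilizer G y).comap f

lemma mem_stabSub {X : Type*} [MulAction G X] {f : G' →* G} {y : X} {τ : G'} :
    τ ∈ stabSub f y ↔ f τ • y = y := Iff.rfl

/-- vanishing of a pulled back class with coefficients in a permutation module -/
theorem map_perm_eq_zero_iff {X : Type*} [MulAction G X] [Finite X] (hX : SmoothSet 𝓛 X)
    {f : G' →* G} (hf : Levels.Cont 𝓛' 𝓛 f)
    (F : Z2 𝓛 (mapRep (Representation.trivial (ZMod p) G (ZMod p)) X)) :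
    H2.map 𝓛 𝓛' (mapRep (Representation.trivial (ZMod p) G (ZMod p)) X)
      (resRep (mapRep (Representation.trivial (ZMod p) G (ZMod p)) X) f) f LinearMap.id hf
      (fun _ _ => rfl) (H2.mk 𝓛 (mapRep (Representation.trivial (ZMod p) G (ZMod p)) X) F) = 0 ↔
    ∀ y : X, DOn 𝓛' (stabSub f y) (fun a b => F.1 (f a) (f b) y) := by
  constructor
  · intro h y
    have h' := H2.mk_eq_zero.1 h
    obtain ⟨c, hc, hcF⟩ := mem_B2.1 h'
    refine mem_B2.2 ⟨fun a => c a y, ?_, ?_⟩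
    · exact (hc.precomp (Levels.cont_subtype _)).comp (fun m => m y)
    · ext a b
      have h1 := congrFun (congrFun (congrFun hcF (a : G')) (b : G')) y
      rw [d1_apply] at h1 ⊢
      have h2 : (f (a : G'))⁻¹ • y = y := by
        rw [inv_smul_eq_iff]; exact (mem_stabSub.1 a.2).symm
      have h3 : resRep (mapRep (Representation.trivial (ZMod p) G (ZMod p)) X) f a (c b) y =
        c b y := by
        show c b ((f (a : G'))⁻¹ • y) = c b y
        rw [h2]
      simp only [Pi.add_apply, Pi.sub_apply, h3] at h1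
      exact h1
  · intro h
    let E := RepIso.pull 𝓛' (Representation.trivial (ZMod p) G (ZMod p)) X f
    apply E.h2_bijective.1
    rw [map_zero]
    let O := OrbitData.ofAction G' (PullSet f X)
    apply (sh2_bijective 𝓛' (resRep (Representation.trivial (ZMod p) G (ZMod p)) f) O
      (hX.pull hf)).1
    rw [map_zero]
    funext i
    have h1 := h (O.x i).out
    have hU : O.U i = stabSub f (O.x i).out := by
      ext τ
      rw [O.mem_U]; rfl
    rw [← hU] at h1
    exact H2.mk_eq_zero.2 h1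

/-- conjugation -/
theorem DOn_conj_perm {G : Type} [Group G] {𝓛 𝓜 : Levels G} (hle : ∀ H ∈ 𝓛, H ∈ 𝓜)
    {W : Subgroup G} (F : Z2 𝓛 (cosRep p W)) (h : G) {U : Subgroup G} (hU : U ≤ W) :
    DOn 𝓜 U (fun a b => F.1 a b ((1 : G) : G ⧸ W)) ↔
      DOn 𝓜 U (fun a b => F.1 (h * a * h⁻¹) (h * b * h⁻¹) ((h : G) : G ⧸ W)) := by
  have h1 := H2.map_conj (𝓛 := 𝓛) (ρ := cosRep p W) h (H2.mk 𝓛 (cosRep p W) F)
  have h2 := H2.mk_eq_mk.1 h1
  obtain ⟨c, hc, hcF⟩ := mem_B2.1 h2
  have key : (fun a b : U => F.1 (h * a * h⁻¹) (h * b * h⁻¹) ((h : G) : G ⧸ W)) =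
      (fun a b : U => F.1 a b ((1 : G) : G ⧸ W)) +
        d1 (triv p U) (fun a : U => c a ((1 : G) : G ⧸ W)) := by
    ext a b
    have h3 := congrFun (congrFun (congrFun hcF (a : G)) (b : G)) ((1 : G) : G ⧸ W)
    have h4 : (a : G)⁻¹ • ((1 : G) : G ⧸ W) = ((1 : G) : G ⧸ W) := by
      rw [MulAction.Quotient.smul_mk, smul_eq_mul, mul_one, QuotientGroup.eq]
      simpa using hU a.2
    have h5 : (cosRep p W) (a : G) (c b) ((1 : G) : G ⧸ W) = c b ((1 : G) : G ⧸ W) := by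
      show c b ((a : G)⁻¹ • ((1 : G) : G ⧸ W)) = _
      rw [h4]
    have h6 : (cosRep p W) h⁻¹ (F.1 (h * a * h⁻¹) (h * b * h⁻¹)) ((1 : G) : G ⧸ W) =
        F.1 (h * a * h⁻¹) (h * b * h⁻¹) ((h : G) : G ⧸ W) := by
      show F.1 (h * a * h⁻¹) (h * b * h⁻¹) (h⁻¹⁻¹ • ((1 : G) : G ⧸ W)) = _
      rw [inv_inv, MulAction.Quotient.smul_mk, smul_eq_mul, mul_one]
    have h7 : (cosRep p W) (a : G) (c b) ((1 : G) : G ⧸ W) - c (a * b) ((1 : G) : G ⧸ W) +
        c a ((1 : G) : G ⧸ W) =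
        (cosRep p W) h⁻¹ (F.1 (h * a * h⁻¹) (h * b * h⁻¹)) ((1 : G) : G ⧸ W) -
          F.1 a b ((1 : G) : G ⧸ W) := h3
    rw [h5, h6] at h7
    show _ = F.1 a b ((1 : G) : G ⧸ W) +
      (c b ((1 : G) : G ⧸ W) - c (a * b) ((1 : G) : G ⧸ W) + c a ((1 : G) : G ⧸ W))
    rw [h7]; ring
  have hd : d1 (triv p U) (fun a : U => c a ((1 : G) : G ⧸ W)) ∈ B2 (𝓜.restrict U) (triv p U) := by
    refine mem_B2.2 ⟨_, ?_, rfl⟩
    obtain ⟨H, hH, hh⟩ := hc
    exact ⟨H.subgroupOf U, ⟨H, hle H hH, le_rfl⟩, fun g s hs => congrFun (hh g s hs) _⟩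
  unfold DOn
  rw [key]
  exact ((B2 (𝓜.restrict U) (triv p U)).add_mem_iff_left hd).symm

end Abs

section Glob

local notation "Qb" => AlgebraicClosure ℚ

variable {p : ℕ} [Fact p.Prime] {S : Finset Nat.Primes}
variable {L : IntermediateField ℚ Qb} [FiniteDimensional ℚ L]

omit [FiniteDimensional ℚ L] in
lemma stabSub_eq (l : ℕ) [Fact l.Prime] (h : Loc.GalGlob) :
    stabSub (localGaloisToGlobal l) ((h : Loc.GalGlob) : Loc.GalGlob ⧸ L.fixingSubgroup) =
      (Loc.KL l L h⁻¹).fixingSubgroup := by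
  rw [← Loc.comap_rg_fixingSubgroup]
  ext τ
  rw [mem_stabSub, MulAction.Quotient.smul_mk, smul_eq_mul, eq_comm, QuotientGroup.eq,
    Subgroup.mem_comap, Loc.rg_apply, inv_inv, mul_assoc]

/-- the local kernel in terms of places -/
theorem loc_eq_zero_iff (hL : L.fixingSubgroup ∈ sLevels S) (l : ℕ) [Fact l.Prime]
    (hf : Levels.Cont (locLevels l) (sLevels S) (localGaloisToGlobal l))
    (x : H2 (sLevels S) (cosRep p L.fixingSubgroup)) :
    H2.map (sLevels S) (locLevels l) (cosRep p L.fixingSubgroup)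
      (resRep (cosRep p L.fixingSubgroup) (localGaloisToGlobal l)) (localGaloisToGlobal l)
      LinearMap.id hf (fun _ _ => rfl) x = 0 ↔
    ∀ A : ValuationSubring Qb, A.LiesOverPrime l → slLoc p S L A (cosH2 hL x) = 0 := by
  obtain ⟨F, rfl⟩ := H2.mk_surjective _ _ x
  have hfin := finite_quotient_of_mem hL
  have h0 := map_perm_eq_zero_iff (p := p) (smoothSet_quotient hL) hf F
  refine h0.trans ?_
  have key : ∀ h : Loc.GalGlob, DOn (locLevels l)
      (stabSub (localGaloisToGlobal l) ((h : Loc.GalGlob) : Loc.GalGlob ⧸ L.fixingSubgroup))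
      (fun a b => F.1 (localGaloisToGlobal l a) (localGaloisToGlobal l b)
        ((h : Loc.GalGlob) : Loc.GalGlob ⧸ L.fixingSubgroup)) ↔
      slLoc p S L (h⁻¹ • padicPlace l) (cosH2 hL (H2.mk _ _ F)) = 0 := by
    intro h
    have h1 : slLoc p S L (h⁻¹ • padicPlace l) (cosH2 hL (H2.mk _ _ F)) = 0 ↔
        DOn (galLevels ℚ Qb) (Loc.UA (h⁻¹ • padicPlace l) L)
          (fun a b => F.1 a b ((1 : Loc.GalGlob) : Loc.GalGlob ⧸ L.fixingSubgroup)) :=
      slLoc_mk_eq_zero_iff (h⁻¹ • padicPlace l) ⟨_, _⟩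
    rw [h1, DOn_conj_perm (fun H hH => sLevels_le_galLevels hH) F h inf_le_right, stabSub_eq,
      Loc.locLevels_eq]
    have h2 := (Loc.homeo_eU l L h⁻¹).mem_B2_iff (k := ZMod p)
      (ρ := triv p (Loc.UA (h⁻¹ • padicPlace l) L)) (ρ' := triv p (Loc.KL l L h⁻¹).fixingSubgroup)
      (fun _ _ => rfl) (f := fun a b => F.1 (h * a * h⁻¹) (h * b * h⁻¹)
        ((h : Loc.GalGlob) : Loc.GalGlob ⧸ L.fixingSubgroup))
    refine Iff.trans ?_ h2.symm
    have h3 : ∀ τ : (Loc.KL l L h⁻¹).fixingSubgroup,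
        h * ((Loc.eU l L h⁻¹ τ : Loc.UA (h⁻¹ • padicPlace l) L) : Loc.GalGlob) * h⁻¹ =
          localGaloisToGlobal l τ := fun τ => by
      rw [Loc.coe_eU, Loc.rg_apply]; group
    unfold DOn
    simp only [h3]
  constructor
  · intro h A hA
    obtain ⟨g, rfl⟩ := Loc.exists_eq_smul_padicPlace l hA
    have := (key g⁻¹).1 (h _)
    rwa [inv_inv] at this
  · intro h y
    obtain ⟨g, rfl⟩ := QuotientGroup.mk_surjective y
    exact (key g).2 (h _ (Loc.smul_padicPlace_liesOverPrime l g⁻¹))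

end Glob

end Fermat.Agent.CFT
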