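import Mathlib
import Fermat.Agent.CFT.PTKer
import Fermat.Agent.CFT.Loc.Index

/-!
# Counting places
-/

set_option autoImplicit false

open Module
open scoped Pointwise NumberField
open IsDedekindDomain

namespace Fermat.Agent.CFT

lemma card_eq_of_rel {X A B : Type*} {f : X → A} {g : X → B} (hf : Function.Surjective f)
    (hg : Function.Surjective g) (h : ∀ x y, f x = f y ↔ g x = g y) : Nat.card A = Nat.card B := by
  classical
  choose s hs using hf
  refine Nat.card_congr (Equiv.ofBijective (fun a => g (s a)) ⟨fun a b hab => ?_, fun b => ?_⟩)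
  · have := (h _ _).2 hab
    rwa [hs, hs] at this
  · obtain ⟨x, rfl⟩ := hg b
    exact ⟨f x, (h _ _).1 (hs (f x))⟩

local notation "Qb" => AlgebraicClosure ℚ

variable {S : Finset Nat.Primes} (L : IntermediateField ℚ Qb) [FiniteDimensional ℚ L]

omit [FiniteDimensional ℚ L] in
lemma below_smul_of_mem {s : Loc.GalGlob} (hs : s ∈ L.fixingSubgroup) (A : ValuationSubring Qb) :
    Frob.below (𝓞 L) (s • A) = Frob.below (𝓞 L) A := by
  ext a
  rw [Frob.mem_below, Frob.mem_below, Frob.mem_nonunits_smul_iff]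
  have : s⁻¹ (algebraMap (𝓞 L) Qb a) = algebraMap (𝓞 L) Qb a :=
    (IntermediateField.mem_fixingSubgroup_iff _ _).1 (inv_mem hs) _ (a : L).2
  rw [this]

/-- orbits of the local Galois group on `Γ/W` are the places above `l` -/
theorem orbs_eq (l : ℕ) [Fact l.Prime] : orbs (localGaloisToGlobal l) L.fixingSubgroup =
    Nat.card {v : HeightOneSpectrum (𝓞 L) // (l : 𝓞 L) ∈ v.asIdeal} := by
  have hl : l.Prime := Fact.out
  let q₁ : Loc.GalGlob → MulAction.orbitRel.Quotient (Loc.GalLoc l)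
      (PullSet (localGaloisToGlobal l) (Loc.GalGlob ⧸ L.fixingSubgroup)) := fun h =>
    Quotient.mk _ (PullSet.mk (localGaloisToGlobal l) ((h : Loc.GalGlob) :
      Loc.GalGlob ⧸ L.fixingSubgroup))
  let q₂ : Loc.GalGlob → {v : HeightOneSpectrum (𝓞 L) // (l : 𝓞 L) ∈ v.asIdeal} := fun h =>
    ⟨plc L hl (Loc.smul_padicPlace_liesOverPrime l h⁻¹),
      Frob.natCast_mem_below (Loc.smul_padicPlace_liesOverPrime l h⁻¹)⟩
  have hq₂ : ∀ h h', q₂ h = q₂ h' ↔
      Frob.below (𝓞 L) (h⁻¹ • padicPlace l) = Frob.below (𝓞 L) (h'⁻¹ • padicPlace l) := by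
    intro h h'
    constructor
    · intro hh
      exact congrArg (fun v : {v : HeightOneSpectrum (𝓞 L) // (l : 𝓞 L) ∈ v.asIdeal} =>
        v.1.asIdeal) hh
    · intro hh
      exact Subtype.ext (HeightOneSpectrum.ext hh)
  refine card_eq_of_rel (f := q₁) (g := q₂) ?_ ?_ ?_
  · intro y
    induction y using Quotient.inductionOn with | _ y => ?_
    obtain ⟨h, hh⟩ := QuotientGroup.mk_surjective y.out
    exact ⟨h, congrArg (Quotient.mk _) hh⟩
  · rintro ⟨v, hv⟩
    -- a place of `ℚ̄` above `v`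
    obtain ⟨A, hA, hAv⟩ : ∃ A : ValuationSubring Qb, A.LiesOverPrime l ∧
        Frob.below (𝓞 L) A = v.asIdeal := by
      have h1 : lv v = l := by
        have h2 : ((⟨lv v, lv_prime v⟩ : Nat.Primes) : ℕ) = ((⟨l, hl⟩ : Nat.Primes) : ℕ) :=
          congrArg _ (eq_of_mem_asIdeal (v := v) (q := ⟨lv v, lv_prime v⟩) (q' := ⟨l, hl⟩)
            (by rw [← below_Av]; exact Frob.natCast_mem_below (Av_lies v)) hv)
        exact h2
      exact ⟨Av v, by rw [← h1]; exact Av_lies v, below_Av v⟩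
    obtain ⟨g, rfl⟩ := Loc.exists_eq_smul_padicPlace l hA
    refine ⟨g⁻¹, Subtype.ext (HeightOneSpectrum.ext ?_)⟩
    show Frob.below (𝓞 L) (g⁻¹⁻¹ • padicPlace l) = v.asIdeal
    rw [inv_inv, hAv]
  · intro h h'
    rw [hq₂]
    have h1 : q₁ h = q₁ h' ↔ ∃ τ : Loc.GalLoc l, ((localGaloisToGlobal l τ * h' : Loc.GalGlob) :
        Loc.GalGlob ⧸ L.fixingSubgroup) = ((h : Loc.GalGlob) : Loc.GalGlob ⧸ L.fixingSubgroup) := by
      constructor
      · intro hh
        obtain ⟨τ, hτ⟩ := Quotient.exact hh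
        exact ⟨τ, hτ⟩
      · rintro ⟨τ, hτ⟩
        exact Quotient.sound ⟨τ, hτ⟩
    rw [h1]
    constructor
    · rintro ⟨τ, hτ⟩
      rw [QuotientGroup.eq] at hτ
      have h3 : (localGaloisToGlobal l τ)⁻¹ • padicPlace l = padicPlace l := by
        have := localGaloisToGlobal_mem_decompositionSubgroup l τ⁻¹
        rw [map_inv] at this
        exact this
      have h4 : h'⁻¹ • padicPlace l =
          ((localGaloisToGlobal l τ * h')⁻¹ * h) • (h⁻¹ • padicPlace l) := by
        rw [smul_smul]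
        have : (localGaloisToGlobal l τ * h')⁻¹ * h * h⁻¹ =
          h'⁻¹ * (localGaloisToGlobal l τ)⁻¹ := by group
        rw [this, mul_smul, h3]
      rw [h4, below_smul_of_mem L hτ]
    · intro hh
      have : IsGalois L Qb := IsGalois.tower_top_of_isGalois ℚ L _
      obtain ⟨s, hs⟩ := Frob.exists_smul_eq_of_below_eq (K := L) hl
        (Loc.smul_padicPlace_liesOverPrime l h⁻¹) hh
      let s' : Loc.GalGlob := s.restrictScalars ℚ
      have hs' : s' ∈ L.fixingSubgroup := by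
        rw [IntermediateField.mem_fixingSubgroup_iff]
        intro x hx
        exact s.commutes ⟨x, hx⟩
      have hs2 : h'⁻¹ • padicPlace l = s' • h⁻¹ • padicPlace l := hs
      have h3 : h * s'⁻¹ * h'⁻¹ ∈ (padicPlace l).decompositionSubgroup ℚ := by
        show (h * s'⁻¹ * h'⁻¹) • padicPlace l = padicPlace l
        rw [mul_smul, mul_smul, hs2, inv_smul_smul, smul_inv_smul]
      rw [← Loc.range_localGaloisToGlobal] at h3
      obtain ⟨τ, hτ⟩ := h3
      refine ⟨τ, ?_⟩
      rw [QuotientGroup.eq, hτ]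
      have h4 : (h * s'⁻¹ * h'⁻¹ * h')⁻¹ * h = s' := by group
      rw [h4]
      exact hs'

/-- primality of elements of `Nat.Primes` -/
local instance factNP2 (v : Nat.Primes) : Fact (v : ℕ).Prime := ⟨v.2⟩

/-- the number of places above `S` -/
theorem sum_orbs (S : Finset Nat.Primes) :
    ∑ l : {l // l ∈ S}, orbs (localGaloisToGlobal (l.1 : ℕ)) L.fixingSubgroup =
      (SL S L).ncard := by
  classical
  have hfin : (SL S L).Finite := finite_SL
  have h1 : ∀ l : {l // l ∈ S}, Finite {v : HeightOneSpectrum (𝓞 L) // ((l.1 : ℕ) : 𝓞 L) ∈ v.asIdeal} :=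
    fun l => by
      have : {v : HeightOneSpectrum (𝓞 L) | ((l.1 : ℕ) : 𝓞 L) ∈ v.asIdeal}.Finite :=
        hfin.subset fun v hv => ⟨l.1, l.2, hv⟩
      exact this.to_subtype
  have h2 : Nat.card (Σ l : {l // l ∈ S}, {v : HeightOneSpectrum (𝓞 L) //
      ((l.1 : ℕ) : 𝓞 L) ∈ v.asIdeal}) = (SL S L).ncard := by
    rw [← Nat.card_coe_set_eq]
    refine Nat.card_congr (Equiv.ofBijective (fun x => ⟨x.2.1, x.1.1, x.1.2, x.2.2⟩)
      ⟨?_, ?_⟩)
    · rintro ⟨l, v, hv⟩ ⟨l', v', hv'⟩ h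
      have hvv : v = v' := congrArg Subtype.val h
      subst hvv
      have hll : l = l' := Subtype.ext (eq_of_mem_asIdeal hv hv')
      subst hll
      rfl
    · rintro ⟨v, l, hl, hv⟩
      exact ⟨⟨⟨l, hl⟩, ⟨v, hv⟩⟩, rfl⟩
  rw [← h2, Nat.card_sigma]
  exact Finset.sum_congr rfl fun l _ => orbs_eq L _

end Fermat.Agent.CFT
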