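import Fermat.Agent.CFT.Kummer

/-!
# Symbols: classes of cup products of characters in `H²(G, ZMod p)`
-/

set_option autoImplicit false

namespace Fermat.Agent.CFT

variable {G : Type*} [Group G] {𝓛 : Levels G}
variable {Ω : Type*} [Field Ω] [MulSemiringAction G Ω]
variable {p : ℕ}

/-- the trivial representation on `ZMod p` -/
abbrev triv (p : ℕ) (G : Type*) [Group G] : Representation (ZMod p) G (ZMod p) :=
  Representation.trivial (ZMod p) G (ZMod p)

/-- cup product of two functions with values in `ZMod p` -/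
def cup (κ lam : G → ZMod p) (g h : G) : ZMod p := κ g * lam h

omit [Group G] in
@[simp] lemma cup_apply (κ lam : G → ZMod p) (g h : G) : cup κ lam g h = κ g * lam h := rfl

lemma d1_triv (f : G → ZMod p) (g h : G) : d1 (triv p G) f g h = f h - f (g * h) + f g := rfl

lemma smooth_triv : Smooth 𝓛 (triv p G) := fun _ => ⟨⊤, Levels.top_mem, fun _ _ => rfl⟩

lemma cup_mem_Z2 {κ lam : G → ZMod p} (hκ : 𝓛.LC κ) (hlam : 𝓛.LC lam)
    (hκm : ∀ g h, κ (g * h) = κ g + κ h) (hlamm : ∀ g h, lam (g * h) = lam g + lam h) :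
    cup κ lam ∈ Z2 𝓛 (triv p G) := by
  refine ⟨(hκ.fst).comp₂ hlam.snd (· * ·), fun g h j => ?_⟩
  simp only [cup_apply, hκm, hlamm, Representation.trivial_apply]
  ring

/-- antisymmetry of the cup product of characters -/
lemma cup_add_cup_swap {κ lam : G → ZMod p}
    (hκm : ∀ g h, κ (g * h) = κ g + κ h) (hlamm : ∀ g h, lam (g * h) = lam g + lam h) :
    cup κ lam + cup lam κ = d1 (triv p G) (fun g => - (κ g * lam g)) := by
  ext g h
  simp only [Pi.add_apply, cup_apply, d1_triv, hκm, hlamm]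
  ring

/-- `(x, x) = 0` for `p` odd -/
lemma cup_self_mem_B2 [Fact p.Prime] (hp : p ≠ 2) {κ : G → ZMod p} (hκ : 𝓛.LC κ)
    (hκm : ∀ g h, κ (g * h) = κ g + κ h) : cup κ κ ∈ B2 𝓛 (triv p G) := by
  have h2 : (2 : ZMod p) ≠ 0 := by
    intro h
    have h3 : ((2 : ℕ) : ZMod p) = 0 := by exact_mod_cast h
    rw [ZMod.natCast_eq_zero_iff] at h3
    exact hp ((Nat.prime_dvd_prime_iff_eq (Fact.out : p.Prime) Nat.prime_two).1 h3)
  refine mem_B2.2 ⟨fun g => - (κ g * κ g) * (2 : ZMod p)⁻¹, hκ.comp (fun a => -(a * a) * 2⁻¹), ?_⟩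
  ext g h
  simp only [cup_apply, d1_triv, hκm]
  field_simp
  ring

section Descent

variable [NeZero p] {ζ : Ω} (hζ : IsPrimitiveRoot ζ p)

/-- descent of a coboundary from `Ωˣ` to `ZMod p` -/
theorem mem_B2_of_muHom (hG : IsGal 𝓛 Ω) (hζG : ∀ g : G, g • ζ = ζ)
    (hdiv : ∀ w : Ω, w ≠ 0 → ∃ v : Ω, v ^ p = w) {Y : G → G → ZMod p}
    {E : G → Additive Ωˣ} (hE : 𝓛.LC E) (hYE : ∀ g h, muHom hζ (Y g h) = d1 (uRep G Ω) E g h) :
    Y ∈ B2 𝓛 (triv p G) := by
  have h1 : p • E ∈ Z1 𝓛 (uRep G Ω) := by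
    apply mem_Z1_of_d1_eq_zero (hE.comp (fun x => p • x))
    ext g h : 2
    have h2 : d1 (uRep G Ω) (fun g => p • E g) g h = p • d1 (uRep G Ω) E g h := by
      simp only [d1_apply, map_nsmul, nsmul_add, nsmul_sub]
    rw [h2, ← hYE, ← map_nsmul]
    simp
  obtain ⟨w, hw⟩ := mem_B1.1 (hilbert90 hG h1)
  obtain ⟨v, hv⟩ := hdiv (w.toMul : Ωˣ) (w.toMul : Ωˣ).ne_zero
  have hv0 : v ≠ 0 := by
    rintro rfl
    rw [zero_pow (NeZero.ne p)] at hv
    exact (w.toMul : Ωˣ).ne_zero hv.symm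
  set v' : Additive Ωˣ := Additive.ofMul (Units.mk0 v hv0) with hv'
  have hpv : p • v' = w := by
    apply uRep_ext
    simp [hv', hv]
  have h2 : ∀ g, ∃ a, muHom hζ a = E g - (uRep G Ω g v' - v') := by
    intro g
    apply exists_muHom_eq
    have h3 := hw g
    simp only [Pi.smul_apply] at h3
    rw [nsmul_sub, h3, nsmul_sub, ← map_nsmul, hpv, sub_self]
  choose f hf using h2
  refine mem_B2.2 ⟨f, ?_, ?_⟩
  · have h4 : 𝓛.LC (fun g => E g - (uRep G Ω g v' - v')) :=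
      hE.sub (LC_d0 (smooth_uRep hG) v')
    obtain ⟨H, hH, h5⟩ := h4
    refine ⟨H, hH, fun g s hs => muHom_injective hζ ?_⟩
    rw [hf, hf]
    exact h5 g s hs
  · ext g h
    apply muHom_injective hζ
    rw [d1_triv, map_add, map_sub, hYE, d1_apply, ← uRep_muHom hζ (hζG g) (f h), hf, hf, hf]
    simp only [map_sub, map_mul, Module.End.mul_apply]
    abel

/-- the relation between the cup product and the carry cocycle in `Ωˣ` -/
lemma muHom_cup_eq {κ : G → ZMod p}
    (hκm : ∀ g h, κ (g * h) = κ g + κ h) {β : Additive Ωˣ}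
    (hfix : ∀ g : G, g • ((β.toMul : Ωˣ) : Ω) ^ p = ((β.toMul : Ωˣ) : Ω) ^ p) (g h : G) :
    muHom hζ (cup (kummer p ζ ((β.toMul : Ωˣ) : Ω)) κ g h) =
      - carry κ (p • β) g h - d1 (uRep G Ω) (fun g => - ((κ g).val • β)) g h := by
  have h1 : uRep G Ω g β = muHom hζ (kummer p ζ ((β.toMul : Ωˣ) : Ω) g) + β := by
    apply uRep_ext
    rw [coe_uRep, toMul_add, Units.val_mul, coe_muHom]
    exact kummer_spec hζ (Units.ne_zero _) (hfix g)
  have h2 : ((κ h).val) • muHom hζ (kummer p ζ ((β.toMul : Ωˣ) : Ω) g) =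
      muHom hζ (cup (kummer p ζ ((β.toMul : Ωˣ) : Ω)) κ g h) := by
    rw [← map_nsmul, cup_apply, nsmul_eq_mul, mul_comm]; simp
  rw [d1_apply, map_neg, map_nsmul, h1, nsmul_add, h2]
  by_cases hlt : (κ g).val + (κ h).val < p
  · rw [carry_lt hlt, hκm, ZMod.val_add_of_lt hlt, add_nsmul]; abel
  · rw [not_lt] at hlt
    rw [carry_ge hlt, hκm, ZMod.val_add_of_le hlt]
    have e : ((κ g).val + (κ h).val - p) • β = ((κ g).val + (κ h).val) • β - p • β := by
      rw [eq_sub_iff_add_eq, ← add_nsmul, Nat.sub_add_cancel hlt]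
    rw [e, add_nsmul]; abel

end Descent

section Main

variable [Fact p.Prime] {ζ : Ω} (hζ : IsPrimitiveRoot ζ p)

include hζ

/-- **(K3)** A class killed by restriction to the kernel of a non-trivial character `κ` is a
symbol `κ ∪ kummer β`. -/
theorem exists_cup_of_restrict (hG : IsGal 𝓛 Ω) (hζG : ∀ g : G, g • ζ = ζ)
    (hdiv : ∀ w : Ω, w ≠ 0 → ∃ v : Ω, v ^ p = w)
    {κ : G → ZMod p} (hκ : 𝓛.LC κ) (hκm : ∀ g h, κ (g * h) = κ g + κ h)
    {H : Subgroup G} (hκH : ∀ g, g ∈ H ↔ κ g = 0) {σ : G} (hσ : κ σ = 1)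
    {y : G → G → ZMod p} (hy : y ∈ Z2 𝓛 (triv p G))
    (hyH : (fun a b : H => y a b) ∈ B2 (𝓛.restrict H) (triv p H)) :
    ∃ β : Ω, β ≠ 0 ∧ (∀ g : G, g • β ^ p = β ^ p) ∧
      y - cup κ (kummer p ζ β) ∈ B2 𝓛 (triv p G) := by
  have hpos : NeZero p := ⟨(Fact.out : p.Prime).ne_zero⟩
  have hHn : H.Normal := ⟨fun n hn g => by
    rw [hκH] at hn ⊢
    have h1 : κ (g * g⁻¹) = 0 := by
      rw [mul_inv_cancel]; simpa using hκm 1 1
    rw [hκm] at h1
    rw [hκm, hκm, hn, add_zero, h1]⟩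
  have hH : H ∈ 𝓛 := by
    obtain ⟨J, hJ, hJ'⟩ := hκ
    refine Levels.up_mem hJ fun g hg => (hκH g).2 ?_
    have := hJ' 1 g hg
    rw [one_mul] at this
    rw [this]; simpa using hκm 1 1
  -- pass to `Ωˣ`
  have hY : (fun g h => muHom hζ (y g h)) ∈ Z2 𝓛 (uRep G Ω) := by
    refine ⟨hy.1.comp _, fun g h j => ?_⟩
    have := congrArg (muHom hζ) (hy.2 g h j)
    simp only [map_add, Representation.trivial_apply] at this
    rw [uRep_muHom hζ (hζG g)]
    exact this
  have hYH : (fun a b : H => (fun g h => muHom hζ (y g h)) (a : G) (b : G)) ∈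
      B2 (𝓛.restrict H) ((uRep G Ω).comp H.subtype) := by
    obtain ⟨f, hf, hfy⟩ := mem_B2.1 hyH
    refine mem_B2.2 ⟨fun a => muHom hζ (f a), hf.comp _, ?_⟩
    ext a b : 2
    have h1 := congrFun (congrFun hfy a) b
    rw [d1_triv] at h1
    beta_reduce
    rw [← h1]
    simp only [d1_apply, MonoidHom.comp_apply, Subgroup.subtype_apply, map_add, map_sub]
    rw [uRep_muHom hζ (hζG a)]
  have h90 : Z1 (𝓛.restrict H) ((uRep G Ω).comp H.subtype) ≤
      B1 ((uRep G Ω).comp H.subtype) := hilbert90 (hG.restrict H)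
  obtain ⟨c, hc, hinf⟩ := exists_isInflated hH (smooth_uRep hG) h90 hY hYH
  obtain ⟨b, hb, c', hc', hz, -⟩ := exists_carry hκm hκH hσ hH hinf
  obtain ⟨β, hβ⟩ := hdiv (b.toMul : Ωˣ) (b.toMul : Ωˣ).ne_zero
  have hβ0 : β ≠ 0 := by
    rintro rfl
    rw [zero_pow hpos.out] at hβ
    exact (b.toMul : Ωˣ).ne_zero hβ.symm
  have hfix : ∀ g : G, g • β ^ p = β ^ p := by
    intro g
    have := congrArg (fun w : Additive Ωˣ => ((w.toMul : Ωˣ) : Ω)) (hb g)
    rw [hβ]
    exact this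
  set β' : Additive Ωˣ := Additive.ofMul (Units.mk0 β hβ0) with hβ'
  have hβb : p • β' = b := by
    apply uRep_ext
    simp [hβ', hβ]
  have hrel := muHom_cup_eq hζ hκm (β := β') (by simpa [hβ'] using hfix)
  rw [hβb] at hrel
  have hcoe : ((β'.toMul : Ωˣ) : Ω) = β := rfl
  rw [hcoe] at hrel
  have hlamm : ∀ g h : G, kummer p ζ β (g * h) = kummer p ζ β g + kummer p ζ β h :=
    fun g h => kummer_map_mul hζ hβ0 (hζG g) (hfix g) (hfix h)
  have hlam : 𝓛.LC (kummer p ζ β : G → ZMod p) := kummer_LC hζ hG hβ0 hζG hfix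
  -- `y + λ ∪ κ` is a coboundary
  have hA : y + cup (kummer p ζ β) κ ∈ B2 𝓛 (triv p G) := by
    refine mem_B2_of_muHom hζ hG hζG hdiv
      (E := c - c' - fun g => - ((κ g).val • β')) ?_ ?_
    · exact (hc.sub hc').sub (hκ.comp fun a => - (a.val • β'))
    · intro g h
      have h1 := congrFun (congrFun hz g) h
      simp only [Pi.sub_apply] at h1
      rw [Pi.add_apply, Pi.add_apply, map_add, hrel, map_sub, map_sub, Pi.sub_apply, Pi.sub_apply,
        Pi.sub_apply, Pi.sub_apply]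
      rw [sub_eq_iff_eq_add] at h1
      rw [h1]; abel
  have hB : cup κ (kummer p ζ β) + cup (kummer p ζ β) κ ∈ B2 𝓛 (triv p G) := by
    rw [cup_add_cup_swap hκm hlamm]
    exact mem_B2.2 ⟨_, (hκ.comp₂ hlam (· * ·)).neg, rfl⟩
  refine ⟨β, hβ0, hfix, ?_⟩
  have := (B2 𝓛 (triv p G)).sub_mem hA hB
  convert this using 1
  abel

/-- a symbol `κ ∪ kummer β` is trivial iff `β ^ p` is a norm from the fixed field of `ker κ`
(norm written as `∏ σ ^ i • a`). -/
theorem cup_mem_B2_iff (hG : IsGal 𝓛 Ω) (hζG : ∀ g : G, g • ζ = ζ)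
    (hdiv : ∀ w : Ω, w ≠ 0 → ∃ v : Ω, v ^ p = w)
    {κ : G → ZMod p} (hκ : 𝓛.LC κ) (hκm : ∀ g h, κ (g * h) = κ g + κ h)
    {H : Subgroup G} (hκH : ∀ g, g ∈ H ↔ κ g = 0) {σ : G} (hσ : κ σ = 1)
    {β : Ω} (hβ0 : β ≠ 0) (hfix : ∀ g : G, g • β ^ p = β ^ p) :
    cup κ (kummer p ζ β) ∈ B2 𝓛 (triv p G) ↔
      ∃ a : Ω, (∀ g ∈ H, g • a = a) ∧ ∏ i ∈ Finset.range p, σ ^ i • a = β ^ p := by
  have hpos : NeZero p := ⟨(Fact.out : p.Prime).ne_zero⟩
  have hHn : H.Normal := ⟨fun n hn g => by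
    rw [hκH] at hn ⊢
    have h1 : κ (g * g⁻¹) = 0 := by
      rw [mul_inv_cancel]; simpa using hκm 1 1
    rw [hκm] at h1
    rw [hκm, hκm, hn, add_zero, h1]⟩
  have hH : H ∈ 𝓛 := by
    obtain ⟨J, hJ, hJ'⟩ := hκ
    refine Levels.up_mem hJ fun g hg => (hκH g).2 ?_
    have := hJ' 1 g hg
    rw [one_mul] at this
    rw [this]; simpa using hκm 1 1
  set β' : Additive Ωˣ := Additive.ofMul (Units.mk0 β hβ0) with hβ'
  have hrel := muHom_cup_eq hζ hκm (β := β') (by simpa [hβ'] using hfix)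
  have hcoe : ((β'.toMul : Ωˣ) : Ω) = β := rfl
  rw [hcoe] at hrel
  have hlamm : ∀ g h : G, kummer p ζ β (g * h) = kummer p ζ β g + kummer p ζ β h :=
    fun g h => kummer_map_mul hζ hβ0 (hζG g) (hfix g) (hfix h)
  have hlam : 𝓛.LC (kummer p ζ β : G → ZMod p) := kummer_LC hζ hG hβ0 hζG hfix
  have hB : cup κ (kummer p ζ β) + cup (kummer p ζ β) κ ∈ B2 𝓛 (triv p G) := by
    rw [cup_add_cup_swap hκm hlamm]
    exact mem_B2.2 ⟨_, (hκ.comp₂ hlam (· * ·)).neg, rfl⟩
  have hswap : cup κ (kummer p ζ β) ∈ B2 𝓛 (triv p G) ↔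
      cup (kummer p ζ β) κ ∈ B2 𝓛 (triv p G) :=
    ⟨fun h => by simpa using (B2 𝓛 (triv p G)).sub_mem hB h,
      fun h => by simpa using (B2 𝓛 (triv p G)).sub_mem hB h⟩
  have h90 : Z1 (𝓛.restrict H) ((uRep G Ω).comp H.subtype) ≤
      B1 ((uRep G Ω).comp H.subtype) := hilbert90 (hG.restrict H)
  rw [hswap]
  constructor
  · intro h
    obtain ⟨f, hf, hfy⟩ := mem_B2.1 h
    have h1 : carry κ (p • β') = d1 (uRep G Ω)
        ((fun g => (κ g).val • β') - fun g => muHom hζ (f g)) := by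
      ext g h : 2
      have h2 := hrel g h
      rw [← hfy, d1_triv, map_add, map_sub] at h2
      simp only [d1_apply, Pi.sub_apply, map_sub, uRep_muHom hζ (hζG g)]
      simp only [d1_apply, map_neg] at h2
      have h3 : carry κ (p • β') g h = -((muHom hζ) (f h) - (muHom hζ) (f (g * h)) +
          (muHom hζ) (f g)) - (-(uRep G Ω g) ((κ h).val • β') - -((κ (g * h)).val • β') +
          -((κ g).val • β')) := by
        rw [h2]; abel
      rw [h3]; abel
    obtain ⟨a, ha, hab⟩ := exists_norm_of_carry (Fact.out : p.Prime).one_lt hκm hκH hσ h90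
      ((hκ.comp fun a => a.val • β').sub (hf.comp _)) h1
    refine ⟨((a.toMul : Ωˣ) : Ω), fun g hg => ?_, ?_⟩
    · exact congrArg (fun w : Additive Ωˣ => ((w.toMul : Ωˣ) : Ω)) (ha g hg)
    · have := congrArg (fun w : Additive Ωˣ => ((w.toMul : Ωˣ) : Ω)) hab
      simp only [toMul_sum, Units.coe_prod, coe_uRep, toMul_nsmul, Units.val_pow_eq_pow_val,
        hcoe] at this
      exact this
  · rintro ⟨a, ha, hab⟩
    have ha0 : a ≠ 0 := by
      rintro rfl
      have : ∏ i ∈ Finset.range p, σ ^ i • (0 : Ω) = 0 :=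
        Finset.prod_eq_zero (Finset.mem_range.2 (Fact.out : p.Prime).pos) (smul_zero _)
      rw [this] at hab
      exact pow_ne_zero p hβ0 hab.symm
    set a' : Additive Ωˣ := Additive.ofMul (Units.mk0 a ha0) with ha'
    have hact : ∀ g ∈ H, uRep G Ω g a' = a' := fun g hg => uRep_ext (ha g hg)
    have hone : κ 1 = 0 := by simpa using hκm 1 1
    have hpow : ∀ i : ℕ, κ (σ ^ i) = i := by
      intro i
      induction i with
      | zero => simpa using hone
      | succ i ih => rw [pow_succ, hκm, ih, hσ]; push_cast; rfl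
    have hinv : ∀ g, κ g⁻¹ = - κ g := by
      intro g
      have := hκm g g⁻¹
      rw [mul_inv_cancel, hone] at this
      exact (neg_eq_of_add_eq_zero_right this.symm).symm
    -- the action of `G` on `a'` depends on `κ` only
    have hact2 : ∀ g g', κ g = κ g' → uRep G Ω g a' = uRep G Ω g' a' := by
      intro g g' hgg
      have h1 : g⁻¹ * g' ∈ H := by rw [hκH, hκm, hinv, hgg]; simp
      have h2 := congrArg (uRep G Ω g) (hact _ h1)
      rw [← Module.End.mul_apply, ← map_mul, mul_inv_cancel_left] at h2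
      exact h2.symm
    set w : ℕ → Additive Ωˣ := fun i => uRep G Ω (σ ^ i) a' with hw
    have hwp : ∀ i, w (i + p) = w i := fun i => hact2 _ _ (by rw [hpow, hpow]; simp)
    have hsum : ∑ i ∈ Finset.range p, w i = p • β' := by
      apply uRep_ext
      simp only [toMul_sum, Units.coe_prod, hw, coe_uRep, toMul_nsmul, Units.val_pow_eq_pow_val,
        hcoe]
      exact hab
    have hcar : ∀ g h, carry κ (p • β') g h =
        d1 (uRep G Ω) (fun g => ∑ i ∈ Finset.range (κ g).val, w i) g h := by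
      intro g h
      have h1 := sum_carry hκm w hwp g h
      have h2 : uRep G Ω g (∑ i ∈ Finset.range (κ h).val, w i) =
          ∑ i ∈ Finset.range (κ h).val, w ((κ g).val + i) := by
        rw [map_sum]
        refine Finset.sum_congr rfl fun i _ => ?_
        simp only [hw]
        rw [← Module.End.mul_apply, ← map_mul]
        apply hact2
        rw [hκm, hpow, hpow]; simp
      rw [Finset.sum_range_add, hsum] at h1
      rw [d1_apply, h2]
      have h3 : ∑ i ∈ Finset.range (κ h).val, w ((κ g).val + i) =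
        ∑ i ∈ Finset.range (κ (g * h)).val, w i + carry κ (p • β') g h
          - ∑ i ∈ Finset.range (κ g).val, w i := by rw [← h1]; abel
      rw [h3]; abel
    refine mem_B2_of_muHom hζ hG hζG hdiv
      (E := -(fun g => ∑ i ∈ Finset.range (κ g).val, w i) - fun g => - ((κ g).val • β')) ?_ ?_
    · exact ((hκ.comp fun a => ∑ i ∈ Finset.range a.val, w i).neg).sub
        (hκ.comp fun a => - (a.val • β'))
    · intro g h
      rw [hrel, hcar, map_sub, map_neg, Pi.sub_apply, Pi.sub_apply, Pi.neg_apply, Pi.neg_apply]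

end Main

end Fermat.Agent.CFT
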