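import Fermat.Agent.CFT.LocInst
import Fermat.Agent.CFT.Loc.UnrH2

/-!
# `H²(ℚ_l, μ_p) ≠ 0`
-/

set_option autoImplicit false

open Module ExtCitation Fermat.Agent.LocalF

namespace Fermat.Agent.CFT

section Tower

variable {G : Type*} [Group G] {Ω : Type*} [Field Ω] [MulSemiringAction G Ω]

lemma smul_eq_of_mk_eq {J : Subgroup G} {a : Ω} (ha : ∀ g ∈ J, g • a = a) {g g' : G}
    (h : (g : G ⧸ J) = g') : g • a = g' • a := by
  rw [QuotientGroup.eq] at h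
  have := ha _ h
  rw [mul_smul, inv_smul_eq_iff] at this
  exact this.symm

lemma prod_out_tower {J H : Subgroup G} (hJH : J ≤ H) [Fintype (G ⧸ J)] [Fintype (G ⧸ H)]
    [Fintype (H ⧸ J.subgroupOf H)] {a : Ω} (ha : ∀ g ∈ J, g • a = a) :
    ∏ c : G ⧸ J, c.out • a = ∏ x : G ⧸ H, x.out • ∏ b : H ⧸ J.subgroupOf H, b.out • a := by
  rw [← Equiv.prod_comp (Subgroup.quotientEquivProdOfLE hJH).symm, Fintype.prod_prod_type]
  refine Finset.prod_congr rfl fun x _ => ?_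
  rw [Finset.smul_prod']
  refine Finset.prod_congr rfl fun b _ => ?_
  have h1 : (Subgroup.quotientEquivProdOfLE hJH).symm (x, b) =
      ((x.out * (b.out : H) : G) : G ⧸ J) := by
    conv_lhs => rw [← QuotientGroup.out_eq' b]
    rfl
  rw [h1]
  have h2 := smul_eq_of_mk_eq ha (QuotientGroup.out_eq' (((x.out * (b.out : H) : G) : G ⧸ J)))
  rw [h2, mul_smul]
  rfl

lemma smul_prod_out {J : Subgroup G} [Fintype (G ⧸ J)] {a : Ω} (ha : ∀ g ∈ J, g • a = a) (h : G) :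
    h • ∏ c : G ⧸ J, c.out • a = ∏ c : G ⧸ J, c.out • a := by
  rw [Finset.smul_prod', ← Equiv.prod_comp (MulAction.toPerm h : Equiv.Perm (G ⧸ J))
    (fun c => c.out • a)]
  refine Finset.prod_congr rfl fun c _ => ?_
  rw [smul_smul]
  apply smul_eq_of_mk_eq ha
  rw [MulAction.toPerm_apply, QuotientGroup.out_eq']
  conv_rhs => rw [← QuotientGroup.out_eq' c]
  rfl

end Tower

section Nonzero

variable {l : ℕ} [Fact l.Prime] {Ω : Type} [Field Ω] [Algebra ℚ_[l] Ω] [IsGalois ℚ_[l] Ω]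
variable {p : ℕ} [Fact p.Prime] {ζ : Ω}
variable {G : Type} [Group G] [MulSemiringAction G Ω] {𝓛 : Levels G}

lemma LocGal.exists_not_norm (h : LocGal l 𝓛 Ω) {u : Z1 𝓛 (triv p G)} {σ : G}
    (hσ : (u : G → ZMod p) σ = 1) : ∃ y ∈ FU Ω (⊤ : Subgroup G),
      y ∉ (FU Ω (kerZ1 u)).map (normHom Ω σ p) := by
  by_contra hcon
  push Not at hcon
  have h1 := h.norm_relIndex u.2.1 (Z1_map_mul u) (mem_kerZ1 u) hσ
  rw [Subgroup.relIndex_eq_one.2 hcon] at h1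
  exact (Fact.out : p.Prime).one_lt.ne h1

/-- the twisted cup product -/
def tcup (χ : G →* (ZMod p)ˣ) (u κ : G → ZMod p) (g h : G) : ZMod p := u g * ((χ g : ZMod p) * κ h)

lemma kummer_twist (hζ : IsPrimitiveRoot ζ p) {χ : G →* (ZMod p)ˣ}
    (hχ : ∀ g : G, g • ζ = ζ ^ (χ g : ZMod p).val) {β : Ω} (hβ0 : β ≠ 0)
    (hβ : ∀ g : G, g • β ^ p = β ^ p) (g h : G) :
    kummer p ζ β (g * h) = (χ g : ZMod p) * kummer p ζ β h + kummer p ζ β g := by
  have : NeZero p := ⟨(Fact.out : p.Prime).ne_zero⟩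
  have h1 : (g * h) • β = ζ ^ ((χ g : ZMod p).val * (kummer p ζ β h).val +
      (kummer p ζ β g).val) * β := by
    rw [mul_smul, kummer_spec hζ hβ0 (hβ h), smul_mul', smul_pow', hχ]
    conv_lhs => rw [kummer_spec hζ hβ0 (hβ g)]
    rw [← pow_mul, pow_add]
    ring
  rw [kummer_unique hζ hβ0 h1]
  simp

lemma tcup_mem_Z2 (hG : IsGal 𝓛 Ω) (hζ : IsPrimitiveRoot ζ p) {χ : G →* (ZMod p)ˣ}
    (hχ : ∀ g : G, g • ζ = ζ ^ (χ g : ZMod p).val) (hχL : χ.ker ∈ 𝓛) {β : Ω} (hβ0 : β ≠ 0)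
    (hβ : ∀ g : G, g • β ^ p = β ^ p) (u : Z1 𝓛 (triv p G)) :
    tcup χ (u : G → ZMod p) (kummer p ζ β) ∈ Z2 𝓛 (charRep χ) := by
  have : NeZero p := ⟨(Fact.out : p.Prime).ne_zero⟩
  have hχLC : 𝓛.LC (fun g => (χ g : ZMod p)) := ⟨_, hχL, fun g s hs => by
    show ((χ (g * s) : (ZMod p)ˣ) : ZMod p) = _
    rw [map_mul, MonoidHom.mem_ker.1 hs, mul_one]⟩
  have hκLC : 𝓛.LC (kummer p ζ β : G → ZMod p) := ⟨_, hG.smooth β, fun g s hs => by
    rw [kummer_twist hζ hχ hβ0 hβ, kummer_of_fixed hζ hβ0 hs, mul_zero, zero_add]⟩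
  refine ⟨(u.2.1.fst).comp₂ (hχLC.fst.comp₂ hκLC.snd (· * ·)) (· * ·), fun g h j => ?_⟩
  simp only [tcup, charRep_apply]
  rw [Z1_map_mul u, kummer_twist hζ hχ hβ0 hβ h j, map_mul, Units.val_mul]
  ring

/-- `H²(G, μ_p) ≠ 0` for local Galois groups, given a nontrivial character of order `p`. -/
theorem LocGal.tcup_notMem_B2 (h : LocGal l 𝓛 Ω) (hζ : IsPrimitiveRoot ζ p)
    (hdiv : ∀ w : Ω, w ≠ 0 → ∃ v : Ω, v ^ p = w) {χ : G →* (ZMod p)ˣ}
    (hχ : ∀ g : G, g • ζ = ζ ^ (χ g : ZMod p).val) (hχL : χ.ker ∈ 𝓛)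
    {u : Z1 𝓛 (triv p G)} {σ : G} (hσ : (u : G → ZMod p) σ = 1) :
    ∃ β : Ω, β ≠ 0 ∧ (∀ g : G, g • β ^ p = β ^ p) ∧
      tcup χ (u : G → ZMod p) (kummer p ζ β) ∉ B2 𝓛 (charRep χ) := by
  classical
  have hp : p.Prime := Fact.out
  have : NeZero p := ⟨hp.ne_zero⟩
  obtain ⟨y, hy, hyn⟩ := LocGal.exists_not_norm h hσ
  obtain ⟨β, hβ⟩ := hdiv y y.ne_zero
  have hβ0 : β ≠ 0 := by
    rintro rfl
    rw [zero_pow hp.ne_zero] at hβ
    exact y.ne_zero hβ.symm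
  have hβfix : ∀ g : G, g • β ^ p = β ^ p := fun g => by rw [hβ]; exact hy g trivial
  refine ⟨β, hβ0, hβfix, fun hmem => hyn ?_⟩
  -- notation
  set U : Subgroup G := χ.ker with hU
  set Ku : Subgroup G := kerZ1 u with hKu
  have hfinU : Finite (G ⧸ U) := by
    have := Levels.finiteIndex hχL; exact Subgroup.finite_quotient_of_finiteIndex
  have hfinK : Finite (G ⧸ Ku) := by
    have := Levels.finiteIndex (kerZ1_mem u); exact Subgroup.finite_quotient_of_finiteIndex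
  set J : Subgroup G := Ku ⊓ U with hJ
  have hJL : J ∈ 𝓛 := Levels.inf_mem (kerZ1_mem u) hχL
  have hfinJ : Finite (G ⧸ J) := by
    have := Levels.finiteIndex hJL; exact Subgroup.finite_quotient_of_finiteIndex
  have hJfi := Levels.finiteIndex hJL
  have hfin1 : Finite (U ⧸ J.subgroupOf U) := Subgroup.finite_quotient_of_finiteIndex
  have hfin2 : Finite (Ku ⧸ J.subgroupOf Ku) := Subgroup.finite_quotient_of_finiteIndex
  have := Fintype.ofFinite (G ⧸ U)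
  have := Fintype.ofFinite (G ⧸ Ku)
  have := Fintype.ofFinite (G ⧸ J)
  have := Fintype.ofFinite (U ⧸ J.subgroupOf U)
  have := Fintype.ofFinite (Ku ⧸ J.subgroupOf Ku)
  have hd : ¬ p ∣ U.index := index_ker_not_dvd χ
  -- an element of `U` with `u = 1`
  have hσd : (u : G → ZMod p) (σ ^ U.index) = U.index := by
    rw [char_pow (Z1_map_mul u), hσ, mul_one]
  have hd0 : (U.index : ZMod p) ≠ 0 := by
    rw [Ne, ZMod.natCast_eq_zero_iff]; exact hd
  let τ : U := ⟨(σ ^ U.index) ^ ((U.index : ZMod p)⁻¹).val,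
    U.pow_mem (Subgroup.pow_index_mem U σ) _⟩
  have hτ : (u : G → ZMod p) τ = 1 := by
    show (u : G → ZMod p) ((σ ^ U.index) ^ ((U.index : ZMod p)⁻¹).val) = 1
    rw [char_pow (Z1_map_mul u), hσd, ZMod.natCast_val, ZMod.cast_id, inv_mul_cancel₀ hd0]
  -- restriction to `U`
  have hmem' : cup (fun g : U => (u : G → ZMod p) g) (kummer p ζ β) ∈
      B2 (𝓛.restrict U) (triv p U) := by
    obtain ⟨c, hc, hdc⟩ := mem_B2.1 hmem
    refine mem_B2.2 ⟨fun g => c g, hc.precomp (Levels.cont_subtype U), ?_⟩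
    ext g g'
    have h1 := congrFun (congrFun hdc (g : G)) (g' : G)
    have h2 : χ (g : G) = 1 := g.2
    rw [d1_apply, charRep_apply, tcup, h2, Units.val_one, one_mul, one_mul] at h1
    rw [d1_triv, cup_apply]
    exact h1
  have hζU : ∀ g : U, g • ζ = ζ := fun g => by
    have h2 : χ (g : G) = 1 := g.2
    rw [Subgroup.smul_def, hχ, h2, Units.val_one, ZMod.val_one'' hp.one_lt.ne', pow_one]
  obtain ⟨a, ha, hprod⟩ := (cup_mem_B2_iff hζ (h.isGal.restrict U) hζU hdiv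
    (u.2.1.precomp (Levels.cont_subtype U)) (fun g g' => Z1_map_mul u g g')
    (H := J.subgroupOf U) (σ := τ) (fun g => by
      rw [hJ, Subgroup.inf_subgroupOf_right]; exact Iff.rfl) hτ hβ0
    (fun g => hβfix g)).1 hmem'
  have haJ : ∀ g ∈ J, g • a = a := fun g hg => ha ⟨g, hg.2⟩ hg
  have ha0 : a ≠ 0 := by
    rintro rfl
    simp only [smul_zero, Finset.prod_const, Finset.card_range] at hprod
    rw [zero_pow hp.ne_zero] at hprod
    exact pow_ne_zero _ hβ0 hprod.symm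
  -- norms in the two towers
  have e1 := prod_pow_smul_eq_prod_coset (G := U) (κ := fun g : U => (u : G → ZMod p) g)
    (fun g g' => Z1_map_mul u g g') (H := J.subgroupOf U) (fun g => by
      rw [hJ, Subgroup.inf_subgroupOf_right]; exact Iff.rfl) hτ ha
  rw [hprod] at e1
  have hJU : J ≤ U := inf_le_right
  have hJK : J ≤ Ku := inf_le_left
  have e2 : ∏ c : G ⧸ J, c.out • a = (y : Ω) ^ U.index := by
    rw [prod_out_tower (J := J) (H := U) hJU haJ, ← e1, hβ]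
    refine (Finset.prod_congr rfl (fun x _ => hy x.out trivial)).trans ?_
    rw [Finset.prod_const, Finset.card_univ, ← Nat.card_eq_fintype_card]
    rfl
  set n : Ω := ∏ b : Ku ⧸ J.subgroupOf Ku, b.out • a with hn
  have e3 := prod_out_tower (J := J) (H := Ku) hJK haJ
  rw [← hn] at e3
  have hnfix : ∀ g ∈ Ku, g • n = n := fun g hg =>
    smul_prod_out (G := Ku) (J := J.subgroupOf Ku) (a := a) (fun k hk => haJ k hk) ⟨g, hg⟩
  have hn0 : n ≠ 0 := by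
    rw [hn, Finset.prod_ne_zero_iff]
    intro b _ hb
    have := congrArg (fun z => (b.out)⁻¹ • z) hb
    simp only [inv_smul_smul, smul_zero] at this
    exact ha0 this
  have e4 := prod_pow_smul_eq_prod_coset (Z1_map_mul u) (mem_kerZ1 u) hσ hnfix
  have e5 : y ^ U.index = normHom Ω σ p (Units.mk0 n hn0) := by
    ext
    rw [coe_normHom, Units.val_pow_eq_pow_val, Units.val_mk0, e4, ← e3, e2]
  have e6 : y ^ p = normHom Ω σ p y := by
    ext
    rw [coe_normHom, Units.val_pow_eq_pow_val, Finset.prod_congr rfl (fun i _ => hy (σ ^ i) trivial),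
      Finset.prod_const, Finset.card_range]
  have m1 : y ^ U.index ∈ (FU Ω Ku).map (normHom Ω σ p) := ⟨_, fun g hg => hnfix g hg, e5.symm⟩
  have m2 : y ^ p ∈ (FU Ω Ku).map (normHom Ω σ p) := ⟨y, fun g _ => hy g trivial, e6.symm⟩
  have hcop : IsCoprime (U.index : ℤ) (p : ℤ) := by
    rw [Nat.isCoprime_iff_coprime, Nat.coprime_comm]
    exact (Nat.Prime.coprime_iff_not_dvd hp).2 hd
  obtain ⟨s, t, hst⟩ := hcop
  have e7 : y = (y ^ U.index) ^ s * (y ^ p) ^ t := by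
    rw [← zpow_natCast, ← zpow_natCast, ← zpow_mul, ← zpow_mul, ← zpow_add, mul_comm (U.index : ℤ) s,
      mul_comm (p : ℤ) t, hst, zpow_one]
  rw [e7]
  exact Subgroup.mul_mem _ (Subgroup.zpow_mem _ m1 _) (Subgroup.zpow_mem _ m2 _)

end Nonzero

section Existence

lemma exists_char_of_procyclic {G : Type*} [Group G] {𝓛 : Levels G} {φ : G} {n : ℕ}
    (hgen : ∀ H ∈ 𝓛, ∀ g, ∃ i : ℕ, (φ ^ i)⁻¹ * g ∈ H)
    (hdiv : ∃ H ∈ 𝓛, ∀ i : ℤ, φ ^ i ∈ H → (n : ℤ) ∣ i) :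
    ∃ u : G → ZMod n, 𝓛.LC u ∧ (∀ g h, u (g * h) = u g + u h) ∧ u φ = 1 := by
  obtain ⟨H, hH, hdvd⟩ := hdiv
  obtain ⟨N, hN, hNH, hn⟩ := Levels.exists_normal hH
  choose i hi using hgen N hN
  have key : ∀ (g : G) (j : ℕ), (φ ^ j)⁻¹ * g ∈ N → (i g : ZMod n) = j := by
    intro g j hj
    have h1 : φ ^ ((i g : ℤ) - j) ∈ N := by
      have h2 := N.mul_mem (hi g) (N.inv_mem hj)
      have h3 : (φ ^ i g)⁻¹ * g * ((φ ^ j)⁻¹ * g)⁻¹ = (φ ^ ((i g : ℤ) - j))⁻¹ := by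
        rw [zpow_sub, zpow_natCast, zpow_natCast]; group
      rw [h3] at h2
      exact (Subgroup.inv_mem_iff N).1 h2
    have h4 := hdvd _ (hNH h1)
    have h5 : (((i g : ℤ) - j : ℤ) : ZMod n) = 0 := (ZMod.intCast_zmod_eq_zero_iff_dvd _ _).2 h4
    push_cast at h5
    exact sub_eq_zero.1 h5
  refine ⟨fun g => i g, ⟨N, hN, fun g s hs => ?_⟩, fun g h => ?_, ?_⟩
  · refine key _ _ ?_
    rw [← mul_assoc]
    exact N.mul_mem (hi g) hs
  · have h1 : (φ ^ (i g + i h))⁻¹ * (g * h) ∈ N := by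
      have h2 : (φ ^ (i g + i h))⁻¹ * (g * h) =
          ((φ ^ i h)⁻¹ * ((φ ^ i g)⁻¹ * g) * ((φ ^ i h)⁻¹)⁻¹) * ((φ ^ i h)⁻¹ * h) := by
        rw [pow_add]; group
      rw [h2]
      exact N.mul_mem (hn.conj_mem _ (hi g) _) (hi h)
    have h3 := key _ _ h1
    push_cast at h3
    exact h3
  · have := key φ 1 (by simp [N.one_mem])
    simpa using this

variable (p : ℕ) [Fact p.Prime] (l : ℕ) [Fact l.Prime]

/-- there is a (the unramified) character of order `p` -/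
lemma exists_loc_char : ∃ (u : Z1 (locLevels l) (triv p (PadicAlgCl l ≃ₐ[ℚ_[l]] PadicAlgCl l)))
    (σ : PadicAlgCl l ≃ₐ[ℚ_[l]] PadicAlgCl l),
    (u : (PadicAlgCl l ≃ₐ[ℚ_[l]] PadicAlgCl l) → ZMod p) σ = 1 := by
  let K : IntermediateField ℚ_[l] (PadicAlgCl l) := ⊥
  have hK : ∀ g : PadicAlgCl l ≃ₐ[ℚ_[l]] PadicAlgCl l, g ∈ K.fixingSubgroup := fun g => by
    rw [IntermediateField.mem_fixingSubgroup_iff]
    intro x hx
    obtain ⟨y, rfl⟩ := IntermediateField.mem_bot.1 hx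
    exact g.commutes y
  obtain ⟨φ, hφ⟩ := Loc.exists_isFrobLoc (l := l) K
  obtain ⟨u, hu, hum, huφ⟩ := exists_char_of_procyclic (𝓛 := Loc.unrLev l K)
    (φ := ⟨φ, hφ.1⟩) (n := p) (fun H hH g => Loc.unrLev_gen hφ hH g)
    (Loc.unrLev_div hφ (Fact.out : p.Prime).ne_zero)
  refine ⟨⟨fun g => u ⟨g, hK g⟩, ?_, fun g h => ?_⟩, φ, huφ⟩
  · obtain ⟨H, hH, h⟩ := hu
    obtain ⟨H₀, hH₀, hle⟩ := hH.1
    rw [Loc.locLevels_eq]
    refine ⟨H₀, hH₀, fun g s hs => ?_⟩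
    have := h ⟨g, hK g⟩ ⟨s, hK s⟩ (hle hs)
    exact this
  · have := hum ⟨g, hK g⟩ ⟨h, hK h⟩
    rw [add_comm] at this
    exact this

/-- **(B7)** `H²(ℚ_l, μ_p) ≠ 0` -/
theorem loc_h2_nontrivial : Nontrivial (H2 (locLevels l)
    (charRep ((cycloChar p).comp (localGaloisToGlobal l)))) := by
  have : NeZero p := ⟨(Fact.out : p.Prime).ne_zero⟩
  obtain ⟨u, σ, hσ⟩ := exists_loc_char p l
  obtain ⟨ζ, hζ⟩ := exists_zeta p
  have hζ' := isPrimitiveRoot_padicEmbedding l hζ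
  have hL : LocGal l (locLevels l) (PadicAlgCl l) := by
    rw [Loc.locLevels_eq]; exact locGal_top l
  have hχ : ∀ g : PadicAlgCl l ≃ₐ[ℚ_[l]] PadicAlgCl l, g • padicEmbedding l ζ =
      padicEmbedding l ζ ^ ((((cycloChar p).comp (localGaloisToGlobal l)) g : (ZMod p)ˣ) :
        ZMod p).val := by
    intro g
    rw [AlgEquiv.smul_def, ← padicEmbedding_localGaloisToGlobal,
      CycChar.apply_eq_pow_cycloChar p _ hζ.pow_eq_one, map_pow]
    rfl
  obtain ⟨β, hβ0, hβ, hne⟩ := LocGal.tcup_notMem_B2 hL hζ'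
    (hdiv_padic (Fact.out : p.Prime).ne_zero) hχ (ker_locChar_mem l) hσ
  have hZ := tcup_mem_Z2 hL.isGal hζ' hχ (ker_locChar_mem l) hβ0 hβ u
  refine ⟨⟨H2.mk (locLevels l) (charRep ((cycloChar p).comp (localGaloisToGlobal l))) ⟨_, hZ⟩, 0,
    fun h0 => hne ?_⟩⟩
  exact H2.mk_eq_zero.1 h0

end Existence

end Fermat.Agent.CFT
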