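import Mathlib
import Fermat.Agent.CFT.GlobH
import Fermat.Agent.CFT.LocInst

set_option linter.unusedSectionVars false
set_option linter.unusedVariables false
set_option linter.style.haveILetI false
set_option autoImplicit false

/-!
# Reciprocity over `ℚ` for the twisted coefficients `μ_p`
-/

open NumberField IsDedekindDomain nonZeroDivisors Pointwise ExtCitation

namespace Fermat.Agent.CFT

open Loc (GalGlob GalLoc levU)

local notation "Om" => AlgebraicClosure ℚ

section Congr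

variable {k : Type*} [CommRing k] {G G' : Type*} [Group G] [Group G']
variable {𝓛 : Levels G} {𝓛' : Levels G'}
variable {V W : Type*} [AddCommGroup V] [Module k V] [AddCommGroup W] [Module k W]
variable {ρ : Representation k G V} {σ : Representation k G' W}

theorem H2_map_congr {f f' : G' →* G} {φ φ' : V →ₗ[k] W} (hf : Levels.Cont 𝓛' 𝓛 f)
    (hφ : Compat ρ σ f φ) (hf' : Levels.Cont 𝓛' 𝓛 f') (hφ' : Compat ρ σ f' φ')
    (h1 : ∀ g, f g = f' g) (h2 : ∀ v, φ v = φ' v) (x : H2 𝓛 ρ) :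
    H2.map 𝓛 𝓛' ρ σ f φ hf hφ x = H2.map 𝓛 𝓛' ρ σ f' φ' hf' hφ' x := by
  obtain rfl : f = f' := MonoidHom.ext h1
  obtain rfl : φ = φ' := LinearMap.ext h2
  rfl

end Congr

section Ell

variable (p : ℕ) [hp : Fact p.Prime]

/-- kernel of the local cyclotomic character -/
noncomputable abbrev Wl (l : ℕ) [Fact l.Prime] : Subgroup (GalLoc l) :=
  ((cycloChar p).comp (localGaloisToGlobal l)).ker

/-- levels on `Wl` -/
noncomputable abbrev levW (l : ℕ) [Fact l.Prime] : Levels (Wl p l) :=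
  (locLevels l).restrict (Wl p l)

/-- local `H²` -/
abbrev HW (l : ℕ) [Fact l.Prime] : Type := H2 (levW p l) (triv p (Wl p l))

theorem finrank_HW (l : ℕ) [Fact l.Prime] : Module.finrank (ZMod p) (HW p l) = 1 :=
  finrank_H2_loc (ker_locChar_mem l) le_rfl

/-- local character -/
noncomputable abbrev chl (l : ℕ) [Fact l.Prime] : GalLoc l →* (ZMod p)ˣ :=
  (cycloChar p).comp (localGaloisToGlobal l)

/-- restriction to `Wl` -/
noncomputable def resW (l : ℕ) [Fact l.Prime] :
    H2 (locLevels l) (charRep (chl p l)) →ₗ[ZMod p] HW p l :=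
  H2.map (locLevels l) (levW p l) (charRep (chl p l)) (triv p (Wl p l)) (Wl p l).subtype
    LinearMap.id (Levels.cont_subtype _) (fun g v => by
      change charRep (chl p l) g v = v
      rw [charRep_apply, MonoidHom.mem_ker.1 g.2, Units.val_one, one_mul])

theorem resW_injective (l : ℕ) [Fact l.Prime] : Function.Injective (resW p l) := by
  refine (injective_iff_map_eq_zero _).2 fun x hx => ?_
  obtain ⟨y, rfl⟩ := H2.mk_surjective _ _ x
  rw [resW, H2.map_mk, H2.mk_eq_zero] at hx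
  rw [H2.mk_eq_zero]
  have hmem : (Wl p l).subtype.range ∈ locLevels l := by
    rw [Subgroup.range_subtype]
    exact ker_locChar_mem l
  haveI := Levels.finiteIndex hmem
  haveI : Finite (GalLoc l ⧸ (Wl p l).subtype.range) := Subgroup.finite_quotient_of_finiteIndex
  haveI := Fintype.ofFinite (GalLoc l ⧸ (Wl p l).subtype.range)
  refine mem_B2_of_res (i := (Wl p l).subtype) (ρ' := triv p (Wl p l)) Subtype.val_injective hmem
    ?_ (fun g v => ?_) ?_ y.2 hx
  · rintro J ⟨H, hH, hJ⟩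
    exact ⟨H, hH, hJ⟩
  · change v = charRep (chl p l) g v
    rw [charRep_apply, MonoidHom.mem_ker.1 g.2, Units.val_one, one_mul]
  · rw [← Nat.card_eq_fintype_card, ← Subgroup.index_eq_card, isUnit_iff_ne_zero, Ne,
      ZMod.natCast_eq_zero_iff, Subgroup.range_subtype]
    exact index_ker_not_dvd (chl p l)

/-- conjugation on `Wl` -/
noncomputable def conjW (l : ℕ) [Fact l.Prime] (d : GalLoc l) : Wl p l →* Wl p l where
  toFun τ := ⟨d * τ * d⁻¹, by
    rw [MonoidHom.mem_ker, map_mul, map_mul, MonoidHom.mem_ker.1 τ.2, mul_one, ← map_mul,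
      mul_inv_cancel, map_one]⟩
  map_one' := Subtype.ext (by simp)
  map_mul' a b := Subtype.ext (by
    change d * ((a : GalLoc l) * b) * d⁻¹ = d * a * d⁻¹ * (d * b * d⁻¹)
    group)

theorem cont_conjW (l : ℕ) [Fact l.Prime] (d : GalLoc l) :
    Levels.Cont (levW p l) (levW p l) (conjW p l d) := by
  rintro J ⟨H, hH, hJ⟩
  obtain ⟨N, hN, hNH, hn⟩ := Levels.exists_normal hH
  refine ⟨N, hN, fun x hx => hJ ?_⟩
  exact hNH (hn.conj_mem x hx d)

/-- action of the local group on `HW` -/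
noncomputable def actW (l : ℕ) [Fact l.Prime] (d : GalLoc l) : HW p l →ₗ[ZMod p] HW p l :=
  H2.map (levW p l) (levW p l) (triv p (Wl p l)) (triv p (Wl p l)) (conjW p l d)
    ((((chl p l d)⁻¹ : (ZMod p)ˣ) : ZMod p) • LinearMap.id) (cont_conjW p l d) (fun _ _ => rfl)

theorem actW_resW (l : ℕ) [Fact l.Prime] (d : GalLoc l)
    (z : H2 (locLevels l) (charRep (chl p l))) : actW p l d (resW p l z) = resW p l z := by
  conv_rhs => rw [← H2.map_conj d z]
  rw [actW, resW, H2.map_map, H2.map_map]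
  refine H2_map_congr _ _ _ _ (fun g => rfl) (fun v => ?_) z
  rw [LinearMap.comp_apply, LinearMap.comp_apply, LinearMap.id_apply, LinearMap.id_apply,
    charRep_apply, map_inv]
  rfl

theorem actW_eq (l : ℕ) [Fact l.Prime] {z : H2 (locLevels l) (charRep (chl p l))} (hz : z ≠ 0)
    (d : GalLoc l) (x : HW p l) : actW p l d x = x := by
  have hz' : resW p l z ≠ 0 := fun h => hz (resW_injective p l (by rw [h, map_zero]))
  obtain ⟨c, rfl⟩ := (finrank_eq_one_iff_of_nonzero' _ hz').1 (finrank_HW p l) x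
  rw [map_smul, actW_resW]

variable {p} {L : IntermediateField ℚ Om} (hU : ∀ σ : GalGlob, σ ∈ L.fixingSubgroup ↔ cycloChar p σ = 1)

/-- the conjugated local embedding -/
noncomputable def jmap (l : ℕ) [Fact l.Prime] (k : GalGlob) : Wl p l →* L.fixingSubgroup where
  toFun τ := ⟨k * localGaloisToGlobal l τ * k⁻¹, by
    rw [hU, map_mul, map_mul]
    have h1 : cycloChar p (localGaloisToGlobal l (τ : GalLoc l)) = 1 := MonoidHom.mem_ker.1 τ.2
    rw [h1, mul_one, ← map_mul, mul_inv_cancel, map_one]⟩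
  map_one' := Subtype.ext (by simp)
  map_mul' a b := Subtype.ext (by
    change k * localGaloisToGlobal l ((a : GalLoc l) * b) * k⁻¹ =
      k * localGaloisToGlobal l a * k⁻¹ * (k * localGaloisToGlobal l b * k⁻¹)
    rw [map_mul]
    group)

theorem cont_jmap (l : ℕ) [Fact l.Prime] (k : GalGlob) :
    Levels.Cont (levW p l) (LL L) (jmap hU l k) := by
  rintro J ⟨H, hH, hJ⟩
  obtain ⟨N, hN, hNH, hn⟩ := Levels.exists_normal hH
  refine ⟨N.comap (localGaloisToGlobal l), ⟨N, hN, le_rfl⟩, fun x hx => hJ ?_⟩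
  exact hNH (hn.conj_mem _ hx k)

/-- local component of a class at the place `k • padicPlace l` -/
noncomputable def ell (l : ℕ) [Fact l.Prime] (k : GalGlob) :
    H2 (LL L) (triv p L.fixingSubgroup) →ₗ[ZMod p] HW p l :=
  H2.map (LL L) (levW p l) (triv p L.fixingSubgroup) (triv p (Wl p l)) (jmap hU l k)
    ((((cycloChar p k)⁻¹ : (ZMod p)ˣ) : ZMod p) • LinearMap.id) (cont_jmap hU l k)
    (fun _ _ => rfl)

/-- conjugation on `L.fixingSubgroup` -/
noncomputable def conjU (g : GalGlob) : L.fixingSubgroup →* L.fixingSubgroup where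
  toFun τ := ⟨g * τ * g⁻¹, by
    rw [hU, map_mul, map_mul, (hU _).1 τ.2, mul_one, ← map_mul,
      mul_inv_cancel, map_one]⟩
  map_one' := Subtype.ext (by simp)
  map_mul' a b := Subtype.ext (by
    change g * ((a : GalGlob) * b) * g⁻¹ = g * a * g⁻¹ * (g * b * g⁻¹)
    group)

theorem cont_conjU (g : GalGlob) : Levels.Cont (LL L) (LL L) (conjU hU g) := by
  rintro J ⟨H, hH, hJ⟩
  obtain ⟨N, hN, hNH, hn⟩ := Levels.exists_normal hH
  refine ⟨N, hN, fun x hx => hJ ?_⟩
  exact hNH (hn.conj_mem x hx g)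

/-- action of the global group on `H²(G_L, ℤ/p) ⊗ μ_p` -/
noncomputable def actU (g : GalGlob) :
    H2 (LL L) (triv p L.fixingSubgroup) →ₗ[ZMod p] H2 (LL L) (triv p L.fixingSubgroup) :=
  H2.map (LL L) (LL L) (triv p L.fixingSubgroup) (triv p L.fixingSubgroup) (conjU hU g⁻¹)
    (((cycloChar p g : (ZMod p)ˣ) : ZMod p) • LinearMap.id) (cont_conjU hU g⁻¹) (fun _ _ => rfl)

theorem ell_actU (l : ℕ) [Fact l.Prime] (k g : GalGlob)
    (α : H2 (LL L) (triv p L.fixingSubgroup)) :
    ell hU l k (actU hU g α) = ell hU l (g⁻¹ * k) α := by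
  rw [ell, actU, ell, H2.map_map]
  refine H2_map_congr _ _ _ _ (fun τ => ?_) (fun v => ?_) α
  · apply Subtype.ext
    change g⁻¹ * (k * localGaloisToGlobal l τ * k⁻¹) * g⁻¹⁻¹ =
      g⁻¹ * k * localGaloisToGlobal l τ * (g⁻¹ * k)⁻¹
    group
  · change ((cycloChar p k)⁻¹ : (ZMod p)ˣ) • (((cycloChar p g : (ZMod p)ˣ) : ZMod p) * v) =
      (((cycloChar p (g⁻¹ * k))⁻¹ : (ZMod p)ˣ) : ZMod p) * v
    rw [Units.smul_def, smul_eq_mul, ← mul_assoc, map_mul, map_inv, mul_inv, inv_inv,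
      Units.val_mul]
    ring

theorem ell_mul_left (l : ℕ) [Fact l.Prime] {h : GalGlob} (hh : h ∈ L.fixingSubgroup)
    (k : GalGlob) (α : H2 (LL L) (triv p L.fixingSubgroup)) :
    ell hU l (h * k) α = ell hU l k α := by
  have h1 := H2.map_conj (ρ := triv p L.fixingSubgroup) (𝓛 := LL L) ⟨h, hh⟩ α
  conv_rhs => rw [← h1]
  rw [ell, ell, H2.map_map]
  refine H2_map_congr _ _ _ _ (fun τ => ?_) (fun v => ?_) α
  · apply Subtype.ext
    change h * k * localGaloisToGlobal l τ * (h * k)⁻¹ =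
      h * (k * localGaloisToGlobal l τ * k⁻¹) * h⁻¹
    group
  · change (((cycloChar p (h * k))⁻¹ : (ZMod p)ˣ) : ZMod p) * v =
      (((cycloChar p k)⁻¹ : (ZMod p)ˣ) : ZMod p) * v
    rw [map_mul, (hU h).1 hh, one_mul]

theorem ell_mul_right (l : ℕ) [Fact l.Prime] (k : GalGlob) (d : GalLoc l)
    (α : H2 (LL L) (triv p L.fixingSubgroup)) :
    ell hU l (k * localGaloisToGlobal l d) α = actW p l d (ell hU l k α) := by
  rw [ell, ell, actW, H2.map_map]
  refine H2_map_congr _ _ _ _ (fun τ => ?_) (fun v => ?_) α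
  · apply Subtype.ext
    change k * localGaloisToGlobal l d * localGaloisToGlobal l τ *
        (k * localGaloisToGlobal l d)⁻¹ =
      k * localGaloisToGlobal l (d * (τ : GalLoc l) * d⁻¹) * k⁻¹
    rw [map_mul, map_mul, map_inv]
    group
  · change (((cycloChar p (k * localGaloisToGlobal l d))⁻¹ : (ZMod p)ˣ) : ZMod p) * v =
      ((((cycloChar p) (localGaloisToGlobal l d))⁻¹ : (ZMod p)ˣ) : ZMod p) *
      ((((cycloChar p k)⁻¹ : (ZMod p)ˣ) : ZMod p) * v)
    rw [map_mul, mul_inv, Units.val_mul]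
    ring

/-- restriction from `ℚ` to `L` -/
noncomputable def resUQ : H2 (galLevels ℚ Om) (charRep (cycloChar p)) →ₗ[ZMod p]
    H2 (LL L) (triv p L.fixingSubgroup) :=
  H2.map (galLevels ℚ Om) (LL L) (charRep (cycloChar p)) (triv p L.fixingSubgroup)
    L.fixingSubgroup.subtype LinearMap.id (Levels.cont_subtype _) (fun g v => by
      change charRep (cycloChar p) (g : GalGlob) v = v
      rw [charRep_apply, (hU _).1 g.2, Units.val_one, one_mul])

variable (p) in
/-- localisation at `l` -/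
noncomputable def loclQ (l : ℕ) [Fact l.Prime] : H2 (galLevels ℚ Om) (charRep (cycloChar p))
    →ₗ[ZMod p] H2 (locLevels l) (charRep (chl p l)) :=
  H2.map (galLevels ℚ Om) (locLevels l) (charRep (cycloChar p)) (charRep (chl p l))
    (localGaloisToGlobal l) LinearMap.id (fun H hH => ⟨H, hH, le_rfl⟩) (fun g v => rfl)

theorem ell_resUQ (l : ℕ) [Fact l.Prime] (k : GalGlob)
    (y : H2 (galLevels ℚ Om) (charRep (cycloChar p))) :
    ell hU l k (resUQ hU y) = resW p l (loclQ p l y) := by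
  conv_rhs => rw [← H2.map_conj k y]
  rw [ell, resUQ, resW, loclQ, H2.map_map, H2.map_map, H2.map_map]
  refine H2_map_congr _ _ _ _ (fun τ => rfl) (fun v => ?_) y
  change (((cycloChar p k)⁻¹ : (ZMod p)ˣ) : ZMod p) * v = charRep (cycloChar p) k⁻¹ v
  rw [charRep_apply, map_inv]

/-- comparison with restriction to the decomposition group -/
theorem ell_eq_zero_iff (l : ℕ) [Fact l.Prime] (k : GalGlob)
    (α : H2 (LL L) (triv p L.fixingSubgroup)) :
    ell hU l k α = 0 ↔ resAt p L (k • padicPlace l) α = 0 := by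
  obtain ⟨y, rfl⟩ := H2.mk_surjective _ _ α
  rw [resAt_mk_eq_zero, ell, H2.map_mk, H2.mk_eq_zero]
  -- the homomorphisms
  have hWmem : ∀ τ : GalLoc l, Loc.rg l k τ ∈ Loc.UA (k • padicPlace l) L ↔ τ ∈ Wl p l := by
    intro τ
    rw [MonoidHom.mem_ker]
    constructor
    · intro h
      have h1 := (hU _).1 h.2
      rw [Loc.rg_apply, map_mul, map_mul, map_inv, mul_comm (cycloChar p k), mul_assoc,
        mul_inv_cancel, mul_one] at h1
      exact h1
    · intro h
      refine ⟨Loc.rg_mem_decomposition l k τ, (hU _).2 ?_⟩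
      rw [Loc.rg_apply, map_mul, map_mul, map_inv, mul_comm (cycloChar p k), mul_assoc,
        mul_inv_cancel, mul_one]
      exact h
  let e : Wl p l →* Loc.UA (k • padicPlace l) L :=
    ((Loc.rg l k).comp (Wl p l).subtype).codRestrict _ (fun τ => (hWmem τ).2 τ.2)
  have he : Function.Bijective e := by
    constructor
    · intro τ τ' h
      exact Subtype.ext (Loc.rg_injective l k (congrArg Subtype.val h))
    · rintro ⟨σ, hσ⟩
      have h1 : σ ∈ (Loc.rg l k).range := by rw [Loc.range_rg]; exact hσ.1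
      obtain ⟨τ, rfl⟩ := h1
      exact ⟨⟨τ, (hWmem τ).1 hσ⟩, Subtype.ext rfl⟩
  let e' : Wl p l ≃* Loc.UA (k • padicPlace l) L := MulEquiv.ofBijective e he
  have hcont : Levels.Cont (levW p l) (levU (k • padicPlace l) L) e := by
    rintro J ⟨H, hH, hJ⟩
    obtain ⟨N, hN, hNH, hn⟩ := Levels.exists_normal hH
    refine ⟨N.comap (localGaloisToGlobal l), ⟨N, hN, le_rfl⟩, fun x hx => hJ ?_⟩
    exact hNH (hn.conj_mem _ hx k)
  have hcont' : Levels.Cont (levU (k • padicPlace l) L) (levW p l) e'.symm.toMonoidHom := by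
    rintro J ⟨H, ⟨H₀, hH₀, hH⟩, hJ⟩
    obtain ⟨N, hN, hNH, hn⟩ := Levels.exists_normal hH₀
    refine ⟨N, hN, fun x hx => ?_⟩
    obtain ⟨τ, rfl⟩ := e'.surjective x
    change e'.symm (e' τ) ∈ J
    rw [MulEquiv.symm_apply_apply]
    apply hJ
    apply hH
    have h1 : k * localGaloisToGlobal l (τ : GalLoc l) * k⁻¹ ∈ N := hx
    have h2 := hn.conj_mem _ h1 k⁻¹
    have h3 : k⁻¹ * (k * localGaloisToGlobal l (τ : GalLoc l) * k⁻¹) * k⁻¹⁻¹ =
      localGaloisToGlobal l (τ : GalLoc l) := by group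
    rw [h3] at h2
    exact hNH h2
  constructor
  · intro h
    have h1 := pp2_mem_B2 (φ := ((cycloChar p k : (ZMod p)ˣ) : ZMod p) •
      (LinearMap.id : ZMod p →ₗ[ZMod p] ZMod p)) (σ := triv p (Loc.UA (k • padicPlace l) L)) hcont'
      (fun _ _ => rfl) h
    convert h1 using 1
    funext u u'
    obtain ⟨τ, rfl⟩ := e'.surjective u
    obtain ⟨τ', rfl⟩ := e'.surjective u'
    change _ = ((cycloChar p k : (ZMod p)ˣ) : ZMod p) *
      ((((cycloChar p k)⁻¹ : (ZMod p)ˣ) : ZMod p) * (y : L.fixingSubgroup → L.fixingSubgroup → ZMod p)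
        (jmap hU l k (e'.symm (e' τ))) (jmap hU l k (e'.symm (e' τ'))))
    rw [MulEquiv.symm_apply_apply, MulEquiv.symm_apply_apply, ← mul_assoc, Units.mul_inv, one_mul]
    rfl
  · intro h
    have h1 := pp2_mem_B2 (φ := (((cycloChar p k)⁻¹ : (ZMod p)ˣ) : ZMod p) •
      (LinearMap.id : ZMod p →ₗ[ZMod p] ZMod p)) (σ := triv p (Wl p l)) hcont
      (fun _ _ => rfl) h
    exact h1

end Ell

section Global

variable {p : ℕ} [hp : Fact p.Prime] {L : IntermediateField ℚ Om} [FiniteDimensional ℚ L]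
variable {ζ : Om} (hζ : IsPrimitiveRoot ζ p) (hζL : ζ ∈ L)
variable (hU : ∀ σ : GalGlob, σ ∈ L.fixingSubgroup ↔ cycloChar p σ = 1)

instance fact_lv (v : HeightOneSpectrum (𝓞 L)) : Fact (lv v).Prime := ⟨lv_prime v⟩

/-- an element moving the standard place to `Av v` -/
noncomputable def kv (v : HeightOneSpectrum (𝓞 L)) : GalGlob :=
  (Loc.exists_eq_smul_padicPlace (lv v) (Av_lies v)).choose

theorem Av_eq (v : HeightOneSpectrum (𝓞 L)) : Av v = kv v • padicPlace (lv v) :=
  (Loc.exists_eq_smul_padicPlace (lv v) (Av_lies v)).choose_spec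

theorem locv_eq_zero_iff_ell (v : HeightOneSpectrum (𝓞 L))
    (α : H2 (LL L) (triv p L.fixingSubgroup)) :
    locv hζ hζL v α = 0 ↔ ell hU (lv v) (kv v) α = 0 := by
  rw [locv_eq_zero_iff, ell_eq_zero_iff, ← Av_eq]

theorem Av_eq' (v : HeightOneSpectrum (𝓞 L)) (l : ℕ) [Fact l.Prime] (h : lv v = l) :
    Av v = kv v • padicPlace l := by
  subst h
  exact Av_eq v

/-- the place `g⁻¹ v` -/
theorem exists_place_smul (hU : ∀ σ : GalGlob, σ ∈ L.fixingSubgroup ↔ cycloChar p σ = 1)
    (g : GalGlob) (u : HeightOneSpectrum (𝓞 L)) :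
    ∃ w : HeightOneSpectrum (𝓞 L), lv w = lv u ∧ ∃ h ∈ L.fixingSubgroup, ∃ d : GalLoc (lv u),
      g⁻¹ * kv u = h * kv w * localGaloisToGlobal (lv u) d := by
  have hA : (g⁻¹ • Av u).LiesOverPrime (lv u) := Fermat.Agent.Frob.liesOverPrime_smul (Av_lies u) _
  set w := placeBelow L (g⁻¹ • Av u) (lv_prime u) hA with hw
  have hlv : lv w = lv u :=
    (lv_unique w (lv_prime u) (Fermat.Agent.Frob.natCast_mem_below hA)).symm
  obtain ⟨h, hh⟩ := exists_smul_eq_of_placeBelow (L := L) (A := Av w) (A' := g⁻¹ • Av u)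
    (lv_prime w) (Av_lies w) (by rw [below_Av]; rfl)
  rw [Av_eq u] at hh
  rw [Av_eq' w (lv u) hlv] at hh
  have h1 : ((h : GalGlob) * kv w)⁻¹ * (g⁻¹ * kv u) ∈
      (padicPlace (lv u)).decompositionSubgroup ℚ := by
    change (((h : GalGlob) * kv w)⁻¹ * (g⁻¹ * kv u)) • padicPlace (lv u) = padicPlace (lv u)
    rw [mul_smul, mul_smul g⁻¹, hh, ← mul_smul (h : GalGlob), inv_smul_smul]
  rw [← Loc.range_localGaloisToGlobal] at h1
  obtain ⟨d, hd⟩ := h1
  exact ⟨w, hlv, h, h.2, d, by rw [hd, mul_inv_cancel_left]⟩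

theorem below_mul_eq {h : GalGlob} (hh : h ∈ L.fixingSubgroup) (A : ValuationSubring Om) :
    Frob.below (𝓞 L) (h • A) = Frob.below (𝓞 L) A := by
  ext a
  rw [Frob.mem_below, Frob.mem_below, Frob.mem_nonunits_smul_iff]
  have : h⁻¹ (algebraMap (𝓞 L) Om a) = algebraMap (𝓞 L) Om a :=
    (IntermediateField.mem_fixingSubgroup_iff _ _).1 (inv_mem hh) _ (a : L).2
  rw [this]

/-- places with conjugate `kv` agree -/
theorem eq_of_kv_eq {u v : HeightOneSpectrum (𝓞 L)} (l : ℕ) [Fact l.Prime] (hu : lv u = l)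
    (hv : lv v = l) {h : GalGlob} (hh : h ∈ L.fixingSubgroup) {d : GalLoc l}
    (heq : kv u = h * kv v * localGaloisToGlobal l d) : u = v := by
  apply HeightOneSpectrum.ext
  rw [← below_Av u, ← below_Av v, Av_eq' u l hu, Av_eq' v l hv, heq, mul_smul, mul_smul,
    below_mul_eq hh]
  have h1 : localGaloisToGlobal l d ∈ (padicPlace l).decompositionSubgroup ℚ := by
    rw [← Loc.range_localGaloisToGlobal]
    exact ⟨d, rfl⟩
  have h2 : localGaloisToGlobal l d • padicPlace l = padicPlace l := h1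
  rw [h2]

/-- two functionals with the same kernel are proportional -/
theorem exists_smul_of_ker_eq {k V : Type*} [Field k] [AddCommGroup V] [Module k V]
    (f g : V →ₗ[k] k) (h : ∀ x, f x = 0 ↔ g x = 0) : ∃ t : k, t ≠ 0 ∧ ∀ x, g x = t * f x := by
  by_cases hf : ∀ x, f x = 0
  · exact ⟨1, one_ne_zero, fun x => by rw [hf x, (h x).1 (hf x), mul_zero]⟩
  · push Not at hf
    obtain ⟨x, hx⟩ := hf
    have hgx : g x ≠ 0 := fun h' => hx ((h x).2 h')
    refine ⟨g x / f x, div_ne_zero hgx hx, fun y => ?_⟩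
    have h1 : f (y - (f y / f x) • x) = 0 := by
      rw [map_sub, map_smul, smul_eq_mul, div_mul_cancel₀ _ hx, sub_self]
    have h2 := (h _).1 h1
    rw [map_sub, map_smul, smul_eq_mul, sub_eq_zero] at h2
    rw [h2]
    field_simp

/-- normalised local data -/
structure EpsData (p : ℕ) [Fact p.Prime] where
  /-- local classes -/
  z : ∀ (l : ℕ) [Fact l.Prime], H2 (locLevels l) (charRep (chl p l))
  z_ne : ∀ (l : ℕ) [Fact l.Prime], z l ≠ 0
  /-- local invariants -/
  ε : ∀ (l : ℕ) [Fact l.Prime], HW p l →ₗ[ZMod p] ZMod p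
  ε_inj : ∀ (l : ℕ) [Fact l.Prime], Function.Injective (ε l)
  ε_z : ∀ (l : ℕ) [Fact l.Prime], ε l (resW p l (z l)) = 1

theorem exists_epsData (hT2 : ∀ (l : ℕ) [Fact l.Prime],
    ∃ z : H2 (locLevels l) (charRep (chl p l)), z ≠ 0) : Nonempty (EpsData p) := by
  choose z hz using hT2
  have hε : ∀ (l : ℕ) [Fact l.Prime], ∃ ε : HW p l →ₗ[ZMod p] ZMod p,
      Function.Injective ε ∧ ε (resW p l (z l)) = 1 := by
    intro l _
    have hz' : resW p l (z l) ≠ 0 := fun h => hz l (resW_injective p l (by rw [h, map_zero]))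
    haveI : FiniteDimensional (ZMod p) (HW p l) :=
      Module.finite_of_finrank_pos (by rw [finrank_HW]; exact one_pos)
    let ε₀ : HW p l ≃ₗ[ZMod p] ZMod p :=
      LinearEquiv.ofFinrankEq _ _ (by rw [finrank_HW, Module.finrank_self])
    have h0 : ε₀ (resW p l (z l)) ≠ 0 := fun h => hz' (ε₀.map_eq_zero_iff.1 h)
    refine ⟨(ε₀ (resW p l (z l)))⁻¹ • ε₀.toLinearMap, ?_, ?_⟩
    · intro x y hxy
      rw [LinearMap.smul_apply, LinearMap.smul_apply] at hxy
      exact ε₀.injective (smul_right_injective _ (inv_ne_zero h0) hxy)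
    · rw [LinearMap.smul_apply, LinearEquiv.coe_coe, smul_eq_mul, inv_mul_cancel₀ h0]
  choose ε hε1 hε2 using hε
  exact ⟨⟨z, hz, ε, hε1, hε2⟩⟩

/-- the normalised local invariant at `v` -/
noncomputable def mv (E : EpsData p) (v : HeightOneSpectrum (𝓞 L)) :
    H2 (LL L) (triv p L.fixingSubgroup) →ₗ[ZMod p] ZMod p :=
  (E.ε (lv v)) ∘ₗ (ell hU (lv v) (kv v))

theorem mv_eq (E : EpsData p) (v : HeightOneSpectrum (𝓞 L)) (l : ℕ) [Fact l.Prime] (h : lv v = l)
    (α : H2 (LL L) (triv p L.fixingSubgroup)) : mv hU E v α = E.ε l (ell hU l (kv v) α) := by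
  subst h
  rfl

theorem mv_eq_zero_iff (E : EpsData p) (v : HeightOneSpectrum (𝓞 L))
    (α : H2 (LL L) (triv p L.fixingSubgroup)) : locv hζ hζL v α = 0 ↔ mv hU E v α = 0 := by
  rw [locv_eq_zero_iff_ell hζ hζL hU, mv, LinearMap.comp_apply]
  exact ⟨fun h => by rw [h, map_zero], fun h => E.ε_inj _ (by rw [h, map_zero])⟩

theorem exists_mv_actU (E : EpsData p) (g : GalGlob) (u : HeightOneSpectrum (𝓞 L)) :
    ∃ w : HeightOneSpectrum (𝓞 L), lv w = lv u ∧ (∃ h ∈ L.fixingSubgroup, ∃ d : GalLoc (lv u),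
      g⁻¹ * kv u = h * kv w * localGaloisToGlobal (lv u) d) ∧
      ∀ α, mv hU E u (actU hU g α) = mv hU E w α := by
  obtain ⟨w, hlv, h, hh, d, hd⟩ := exists_place_smul hU g u
  refine ⟨w, hlv, ⟨h, hh, d, hd⟩, fun α => ?_⟩
  rw [mv_eq hU E u (lv u) rfl, mv_eq hU E w (lv u) hlv, ell_actU, hd, ell_mul_right,
    actW_eq p (lv u) (E.z_ne (lv u)), ell_mul_left hU _ hh]

include hζ hζL in
/-- reciprocity in terms of the normalised invariants -/
theorem exists_reciprocity_mv (E : EpsData p) (hp2 : 2 < p) :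
    ∃ e : HeightOneSpectrum (𝓞 L) → ZMod p, (∀ v, e v ≠ 0) ∧
      ∀ a : HeightOneSpectrum (𝓞 L) → ZMod p, a.support.Finite →
        ((∃ α, ∀ v, mv hU E v α = a v) ↔ ∑ᶠ v, e v * a v = 0) := by
  obtain ⟨c, hc, hrec⟩ := exists_reciprocity hζ hζL hp2
  choose t ht0 ht using fun v : HeightOneSpectrum (𝓞 L) =>
    exists_smul_of_ker_eq (locv hζ hζL v) (mv hU E v) (fun α => mv_eq_zero_iff hζ hζL hU E v α)
  refine ⟨fun v => c v / t v, fun v => div_ne_zero (hc v) (ht0 v), fun a ha => ?_⟩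
  have h1 := hrec (fun v => a v / t v) (ha.subset fun v hv => by
    rw [Function.mem_support] at hv ⊢
    intro h
    exact hv (by rw [h, zero_div]))
  have h2 : (∑ᶠ v, c v / t v * a v) = ∑ᶠ v, c v * (a v / t v) := by
    refine finsum_congr fun v => ?_
    ring
  rw [h2, ← h1]
  refine exists_congr fun α => forall_congr' fun v => ?_
  rw [ht, eq_div_iff (ht0 v), mul_comm]

theorem e_eq_of_lv_eq (E : EpsData p) {e : HeightOneSpectrum (𝓞 L) → ZMod p} (he : ∀ v, e v ≠ 0)
    (hrec : ∀ a : HeightOneSpectrum (𝓞 L) → ZMod p, a.support.Finite →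
        ((∃ α, ∀ v, mv hU E v α = a v) ↔ ∑ᶠ v, e v * a v = 0))
    {v0 : HeightOneSpectrum (𝓞 L)} (hv0 : ∀ v, lv v = lv v0 → v = v0)
    {v v' : HeightOneSpectrum (𝓞 L)} (h : lv v' = lv v) : e v' = e v := by
  classical
  by_cases hvv : v' = v
  · rw [hvv]
  have hv : v ≠ v0 := by
    rintro rfl
    exact hvv (hv0 _ h)
  have hv' : v' ≠ v0 := by
    rintro rfl
    exact hvv (hv0 _ h.symm).symm
  set b : HeightOneSpectrum (𝓞 L) → HeightOneSpectrum (𝓞 L) → ZMod p := fun v₁ u =>
    if u = v₁ then 1 else if u = v0 then - e v / e v0 else 0 with hb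
  have hb1 : ∀ v₁, b v₁ v₁ = 1 := fun v₁ => if_pos rfl
  have hb2 : ∀ v₁, v₁ ≠ v0 → b v₁ v0 = - e v / e v0 := fun v₁ h => by
    have : b v₁ v0 = if v0 = v₁ then 1 else if v0 = v0 then - e v / e v0 else 0 := rfl
    rw [this, if_neg h.symm, if_pos rfl]
  have hb3 : ∀ v₁ u, u ≠ v₁ → u ≠ v0 → b v₁ u = 0 := fun v₁ u h h' => by
    have : b v₁ u = if u = v₁ then 1 else if u = v0 then - e v / e v0 else 0 := rfl
    rw [this, if_neg h, if_neg h']
  have hsupp : ∀ v₁, (b v₁).support ⊆ (({v₁, v0} : Finset (HeightOneSpectrum (𝓞 L))) :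
      Set (HeightOneSpectrum (𝓞 L))) := by
    intro v₁ u hu
    rw [Function.mem_support] at hu
    by_contra hcon
    apply hu
    rw [Finset.mem_coe, Finset.mem_insert, Finset.mem_singleton, not_or] at hcon
    exact hb3 _ _ hcon.1 hcon.2
  have hfin : ∀ v₁, (b v₁).support.Finite := fun v₁ => (Finset.finite_toSet _).subset (hsupp v₁)
  have hsum : ∀ v₁, v₁ ≠ v0 → ∑ᶠ u, e u * b v₁ u = e v₁ - e v := by
    intro v₁ hv₁
    rw [finsum_eq_sum_of_support_subset (s := {v₁, v0})]
    · rw [Finset.sum_pair hv₁, hb1, hb2 _ hv₁, mul_one, mul_div_cancel₀ _ (he v0)]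
      ring
    · intro u hu
      apply hsupp v₁
      rw [Function.mem_support] at hu ⊢
      intro h0
      exact hu (by rw [h0, mul_zero])
  obtain ⟨α, hα⟩ := (hrec (b v) (hfin v)).2 (by rw [hsum v hv, sub_self])
  have h1 := (hrec (b v') (hfin v')).1 ⟨actU hU (kv v' * (kv v)⁻¹) α, fun u => ?_⟩
  · rw [hsum v' hv', sub_eq_zero] at h1
    exact h1
  · obtain ⟨w, hlv, ⟨x, hx, d, hd⟩, hw⟩ := exists_mv_actU hU E (kv v' * (kv v)⁻¹) u
    rw [hw, hα]
    by_cases hu : u = v'
    · subst hu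
      have : w = v := by
        rw [mul_inv_rev, inv_inv, mul_assoc, inv_mul_cancel, mul_one] at hd
        exact (eq_of_kv_eq (lv u) h.symm hlv hx hd).symm
      rw [this, hb1, hb1]
    · by_cases hu0 : u = v0
      · subst hu0
        have : w = u := hv0 _ hlv
        rw [this, hb2 _ hv, hb2 _ hv']
      · have hw0 : w ≠ v0 := by
          rintro rfl
          exact hu0 (hv0 _ hlv.symm)
        have hwv : w ≠ v := by
          rintro rfl
          apply hu
          have h2 : kv u = ((kv v' * (kv w)⁻¹) * x * (kv v' * (kv w)⁻¹)⁻¹) * kv v' *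
              localGaloisToGlobal (lv u) d := by
            have h3 : kv u = (kv v' * (kv w)⁻¹) * (x * kv w * localGaloisToGlobal (lv u) d) := by
              rw [← hd, mul_inv_cancel_left]
            rw [h3]
            group
          refine eq_of_kv_eq (lv u) rfl (h.trans hlv) ?_ h2
          rw [hU, map_mul, map_mul, (hU _).1 hx, mul_one, ← map_mul, mul_inv_cancel, map_one]
        rw [hb3 _ _ hwv hw0, hb3 _ _ hu hu0]

end Global

section Cyc

variable {p : ℕ} [hp : Fact p.Prime] {ζ : Om} (hζ : IsPrimitiveRoot ζ p)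

/-- the cyclotomic field inside `Om` -/
noncomputable abbrev Lz (ζ : Om) : IntermediateField ℚ Om := IntermediateField.adjoin ℚ {ζ}

theorem mem_Lz (ζ : Om) : ζ ∈ Lz ζ := IntermediateField.mem_adjoin_simple_self ℚ ζ

include hζ in
theorem finiteDimensional_Lz : FiniteDimensional ℚ (Lz ζ) :=
  IntermediateField.adjoin.finiteDimensional (Algebra.IsIntegral.isIntegral _)

include hζ in
theorem hU_Lz (σ : GalGlob) : σ ∈ (Lz ζ).fixingSubgroup ↔ cycloChar p σ = 1 := by
  rw [← MonoidHom.mem_ker, mem_ker_cycloChar hζ, Loc.mem_fixingSubgroup_adjoin_iff]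
  simp

include hζ in
theorem finrank_Lz_lt : Module.finrank ℚ (Lz ζ) < p := by
  haveI := finiteDimensional_Lz hζ
  rw [IntermediateField.finrank_eq_fixingSubgroup_index]
  have h1 : (Lz ζ).fixingSubgroup = (cycloChar p).ker := by
    ext σ
    rw [hU_Lz hζ, MonoidHom.mem_ker]
  rw [h1, Subgroup.index_ker]
  refine (Subgroup.card_le_card_group (cycloChar p).range).trans_lt ?_
  rw [Nat.card_eq_fintype_card, ZMod.card_units]
  have := hp.out.two_le
  omega

include hζ in
theorem place_above_p_unique [FiniteDimensional ℚ (Lz ζ)] {v v' : HeightOneSpectrum (𝓞 (Lz ζ))}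
    (hv : lv v = p) (hv' : lv v' = p) : v = v' := by
  haveI : IsCyclotomicExtension {p} ℚ (Lz ζ) := by
    haveI : NeZero p := ⟨hp.out.ne_zero⟩
    exact hζ.intermediateField_adjoin_isCyclotomicExtension ℚ
  have hζ' : IsPrimitiveRoot (⟨ζ, mem_Lz ζ⟩ : Lz ζ) p :=
    IsPrimitiveRoot.of_map_of_injective (f := algebraMap (Lz ζ) Om) (by exact hζ)
      (algebraMap (Lz ζ) Om).injective
  have hassoc := IsCyclotomicExtension.Rat.associated_zeta_sub_one_pow_prime p hζ'
  have hprime := hζ'.zeta_sub_one_prime'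
  have key : ∀ w : HeightOneSpectrum (𝓞 (Lz ζ)), lv w = p →
      w.asIdeal = Ideal.span {hζ'.toInteger - 1} := by
    intro w hw
    have h1 : ((p : ℕ) : 𝓞 (Lz ζ)) ∈ w.asIdeal := by
      rw [← hw]
      exact lv_mem w
    have h2 : (hζ'.toInteger - 1) ^ (p - 1) ∈ w.asIdeal := by
      obtain ⟨u, hu⟩ := hassoc
      have : (hζ'.toInteger - 1) ^ (p - 1) = (p : 𝓞 (Lz ζ)) * ((u⁻¹ : (𝓞 (Lz ζ))ˣ) : 𝓞 (Lz ζ)) := by
        rw [← hu, Units.mul_inv_cancel_right]
      rw [this]
      exact Ideal.mul_mem_right _ _ h1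
    have h3 : hζ'.toInteger - 1 ∈ w.asIdeal := w.isPrime.mem_of_pow_mem _ h2
    have h4 : Ideal.span {hζ'.toInteger - 1} ≤ w.asIdeal := by
      rw [Ideal.span_singleton_le_iff_mem]
      exact h3
    have h5 : (Ideal.span {hζ'.toInteger - 1}).IsPrime := by
      rw [Ideal.span_singleton_prime hprime.ne_zero]
      exact hprime
    have h6 : (Ideal.span {hζ'.toInteger - 1}).IsMaximal := h5.isMaximal (by
      rw [Ne, Ideal.span_singleton_eq_bot]
      exact hprime.ne_zero)
    exact (h6.eq_of_le w.isPrime.ne_top h4).symm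
  apply HeightOneSpectrum.ext
  rw [key v hv, key v' hv']

theorem finite_lv_eq {L : IntermediateField ℚ Om} [FiniteDimensional ℚ L] (l : ℕ) [Fact l.Prime] :
    {v : HeightOneSpectrum (𝓞 L) | lv v = l}.Finite := by
  refine (finite_Tp (L := L) (Fact.out : l.Prime).ne_zero).subset fun v hv => ?_
  change ((l : ℕ) : 𝓞 L) ∈ v.asIdeal
  have hv' : lv v = l := hv
  rw [← hv']
  exact lv_mem v

/-- the number of places above `l` -/
theorem card_places {L : IntermediateField ℚ Om} [FiniteDimensional ℚ L] (l : ℕ) [Fact l.Prime] :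
    0 < (finite_lv_eq (L := L) l).toFinset.card ∧
      (finite_lv_eq (L := L) l).toFinset.card ≤ Module.finrank ℚ L := by
  have h1 := Loc.sum_finrank_KL l L (finite_lv_eq (L := L) l).toFinset (fun v => by
    rw [Set.Finite.mem_toFinset]
    constructor
    · intro h
      have hv' : lv v = l := h
      rw [← hv']
      exact lv_mem v
    · intro h
      exact (lv_unique v (Fact.out : l.Prime) h).symm) (fun v => kv v) (fun v hv => by
    rw [Set.Finite.mem_toFinset] at hv
    rw [← Av_eq' v l hv, below_Av])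
  constructor
  · rw [Finset.card_pos]
    by_contra hcon
    rw [Finset.not_nonempty_iff_eq_empty] at hcon
    rw [hcon, Finset.sum_empty] at h1
    exact Module.finrank_pos.ne h1
  · rw [← h1, Finset.card_eq_sum_ones]
    exact Finset.sum_le_sum fun v _ => Module.finrank_pos

end Cyc

section Unr

variable {p : ℕ} [hp : Fact p.Prime] {L : IntermediateField ℚ Om} [FiniteDimensional ℚ L]

/-- classes coming from `S`-level are locally trivial outside `S` -/
theorem resAt_unr_mem_B2 {S : Finset Nat.Primes} {α : L.fixingSubgroup → L.fixingSubgroup → ZMod p}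
    (hα : α ∈ Z2 ((sLevels S).restrict L.fixingSubgroup) (triv p L.fixingSubgroup))
    {l : ℕ} [hl : Fact l.Prime] (hlS : (⟨l, hl.out⟩ : Nat.Primes) ∉ S)
    {A : ValuationSubring Om} (hA : A.LiesOverPrime l) :
    (fun u u' : Loc.UA A L => α ⟨u, u.2.2⟩ ⟨u', u'.2.2⟩) ∈ B2 (levU A L) (triv p (Loc.UA A L)) := by
  have hpp : p.Prime := Fact.out
  obtain ⟨⟨H, hH, hc⟩, hcoc⟩ := hα
  obtain ⟨H₀, hH₀, hHH⟩ := Levels.mem_restrict.1 hH
  obtain ⟨F, hF, hFH⟩ := mem_sLevels.1 hH₀
  haveI := hF.1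
  have hram := hF.2 ⟨l, hl.out⟩ hlS A hA
  obtain ⟨g, rfl⟩ := Loc.exists_eq_smul_padicPlace l hA
  rw [(Loc.homeo_eU l L g).mem_B2_iff (ρ' := triv p (Loc.KL l L g).fixingSubgroup)
    (fun _ _ => rfl)]
  let q : (Loc.KL l L g).fixingSubgroup →* L.fixingSubgroup :=
    (Subgroup.inclusion (inf_le_right : Loc.UA (g • padicPlace l) L ≤ L.fixingSubgroup)).comp
      (Loc.eU l L g).toMonoidHom
  apply Loc.B2_unrLev_le
  refine Loc.unr_mem_B2 (p := p) hpp.ne_zero (fun v => ?_) (Loc.KL l L g)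
    ⟨⊤, Levels.top_mem, fun s _ => rfl⟩ ?_
  · rw [nsmul_eq_mul, CharP.cast_eq_zero, zero_mul]
  · refine ⟨⟨((Loc.KL l F g).fixingSubgroup).subgroupOf (Loc.KL l L g).fixingSubgroup,
      ⟨?_, ?_⟩, ?_⟩, ?_⟩
    · exact Levels.mem_restrict.2 ⟨_, fixingSubgroup_mem_galLevels _, le_rfl⟩
    · intro τ hτ
      rw [Subgroup.mem_subgroupOf] at hτ ⊢
      rw [← Loc.comap_rg_fixingSubgroup, Subgroup.mem_comap]
      exact hram ((Loc.rg_mem_inertia_iff l g _).2 hτ)
    · intro τ τ' s hs s' hs'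
      have hs0 : ∀ s : (Loc.KL l L g).fixingSubgroup,
          s ∈ ((Loc.KL l F g).fixingSubgroup).subgroupOf (Loc.KL l L g).fixingSubgroup →
            q s ∈ H := by
        intro s hs
        apply hHH
        rw [Subgroup.mem_subgroupOf] at hs ⊢
        apply hFH
        rw [← Loc.comap_rg_fixingSubgroup, Subgroup.mem_comap] at hs
        exact hs
      have h1 := hc (q τ) (q τ') _ (hs0 s hs) _ (hs0 s' hs')
      rw [← map_mul, ← map_mul] at h1
      exact h1
    · intro τ τ' τ''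
      have h1 := hcoc (q τ) (q τ') (q τ'')
      rw [← map_mul, ← map_mul] at h1
      exact h1

end Unr

section Final

variable (p : ℕ) [hp : Fact p.Prime]

/-- localisation of `S`-classes -/
noncomputable def loclS (S : Finset Nat.Primes) (l : ℕ) [Fact l.Prime] :
    H2 (sLevels S) (charRep (cycloChar p)) →ₗ[ZMod p] H2 (locLevels l) (charRep (chl p l)) :=
  H2.map (sLevels S) (locLevels l) (charRep (cycloChar p)) (charRep (chl p l))
    (localGaloisToGlobal l) LinearMap.id (fun H hH => ⟨H, sLevels_le_galLevels hH, le_rfl⟩)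
    (fun g v => rfl)

/-- from `S`-levels to all levels -/
noncomputable def toGalQ (S : Finset Nat.Primes) :
    H2 (sLevels S) (charRep (cycloChar p)) →ₗ[ZMod p] H2 (galLevels ℚ Om) (charRep (cycloChar p)) :=
  H2.map (sLevels S) (galLevels ℚ Om) (charRep (cycloChar p)) (charRep (cycloChar p))
    (MonoidHom.id _) LinearMap.id (fun H hH => by
      change H.comap (MonoidHom.id _) ∈ _
      rw [Subgroup.comap_id]
      exact sLevels_le_galLevels hH) (fun g v => rfl)

theorem loclQ_toGalQ (S : Finset Nat.Primes) (l : ℕ) [Fact l.Prime]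
    (x : H2 (sLevels S) (charRep (cycloChar p))) :
    loclQ p l (toGalQ p S x) = loclS p S l x := by
  rw [loclQ, toGalQ, loclS, H2.map_map]
  exact H2_map_congr _ _ _ _ (fun _ => rfl) (fun _ => rfl) x

/-- `S`-classes are locally trivial outside `S` -/
theorem loclS_eq_zero {S : Finset Nat.Primes} {l : ℕ} [hl : Fact l.Prime]
    (hlS : (⟨l, hl.out⟩ : Nat.Primes) ∉ S) (x : H2 (sLevels S) (charRep (cycloChar p))) :
    loclS p S l x = 0 := by
  obtain ⟨ζ, hζ⟩ := exists_zeta p
  haveI := finiteDimensional_Lz hζ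
  apply resW_injective p l
  rw [map_zero, ← loclQ_toGalQ, ← ell_resUQ (hU_Lz hζ) l 1, ell_eq_zero_iff]
  obtain ⟨y, rfl⟩ := H2.mk_surjective _ _ x
  rw [toGalQ, resUQ, H2.map_mk, H2.map_mk, resAt_mk_eq_zero]
  refine resAt_unr_mem_B2 (S := S) (α := fun a b : (Lz ζ).fixingSubgroup =>
    (y : GalGlob → GalGlob → ZMod p) a b) ?_ hlS ?_
  · exact pp2_mem_Z2 (σ := triv p (Lz ζ).fixingSubgroup)
      (φ := (LinearMap.id : ZMod p →ₗ[ZMod p] ZMod p)) (Levels.cont_subtype _) (fun g v => by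
        change charRep (cycloChar p) (g : GalGlob) v = v
        rw [charRep_apply, (hU_Lz hζ _).1 g.2, Units.val_one, one_mul]) y.2
  · exact Loc.smul_padicPlace_liesOverPrime l 1

/-- primality of elements of `Nat.Primes` -/
local instance factNP (v : Nat.Primes) : Fact (v : ℕ).Prime := ⟨v.2⟩

/-- **Reciprocity over `ℚ`.** -/
theorem exists_inv (hp2 : 2 < p) (hT2 : ∀ (l : ℕ) [Fact l.Prime],
      ∃ z : H2 (locLevels l) (charRep (chl p l)), z ≠ 0) :
    ∃ inv : ∀ l : Nat.Primes, H2 (locLevels (l : ℕ)) (charRep (chl p l)) →ₗ[ZMod p] ZMod p,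
      (∀ l, inv l ≠ 0) ∧
      ∀ (S : Finset Nat.Primes) (x : H2 (sLevels S) (charRep (cycloChar p))),
        ∑ l ∈ S, inv l (loclS p S (l : ℕ) x) = 0 := by
  classical
  obtain ⟨ζ, hζ⟩ := exists_zeta p
  haveI := finiteDimensional_Lz hζ
  obtain ⟨E⟩ := exists_epsData hT2
  obtain ⟨e, he, hrec⟩ := exists_reciprocity_mv hζ (mem_Lz ζ) (hU_Lz hζ) E hp2
  -- places
  have hne : ∀ (l : ℕ) [Fact l.Prime], ∃ v : HeightOneSpectrum (𝓞 (Lz ζ)), lv v = l := by
    intro l _
    obtain ⟨v, hv⟩ := Finset.card_pos.1 (card_places (L := Lz ζ) l).1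
    rw [Set.Finite.mem_toFinset] at hv
    exact ⟨v, hv⟩
  choose vl hvl using hne
  have hv0 : ∀ v : HeightOneSpectrum (𝓞 (Lz ζ)), lv v = lv (vl p) → v = vl p := fun v hv =>
    place_above_p_unique hζ (hv.trans (hvl p)) (hvl p)
  refine ⟨fun l => (((finite_lv_eq (L := Lz ζ) (l : ℕ)).toFinset.card : ZMod p) *
    e (vl (l : ℕ))) • (E.ε (l : ℕ) ∘ₗ resW p l), fun l => ?_, fun S x => ?_⟩
  · intro h
    have h1 := LinearMap.congr_fun h (E.z (l : ℕ))
    rw [LinearMap.smul_apply, LinearMap.comp_apply, E.ε_z, LinearMap.zero_apply, smul_eq_mul,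
      mul_one, mul_eq_zero] at h1
    rcases h1 with h1 | h1
    · rw [ZMod.natCast_eq_zero_iff] at h1
      have h2 := Nat.le_of_dvd (card_places (L := Lz ζ) (l : ℕ)).1 h1
      have h3 := (card_places (L := Lz ζ) (l : ℕ)).2
      have h4 := finrank_Lz_lt hζ
      omega
    · exact he _ h1
  · set y := toGalQ p S x with hy
    set α := resUQ (hU_Lz hζ) y with hα
    have hm : ∀ (l : ℕ) [Fact l.Prime] (v : HeightOneSpectrum (𝓞 (Lz ζ))), lv v = l →
        mv (hU_Lz hζ) E v α = E.ε l (resW p l (loclS p S l x)) := by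
      intro l _ v hv
      rw [mv_eq (hU_Lz hζ) E v l hv, hα, ell_resUQ, hy, loclQ_toGalQ]
    have hfin : (fun v => mv (hU_Lz hζ) E v α).support.Finite := by
      refine (finite_locv hζ (mem_Lz ζ) α).subset fun v hv => ?_
      rw [Function.mem_support] at hv
      intro h
      exact hv ((mv_eq_zero_iff hζ (mem_Lz ζ) (hU_Lz hζ) E v α).1 h)
    have h1 := (hrec _ hfin).1 ⟨α, fun v => rfl⟩
    rw [← h1, finsum_eq_sum_of_support_subset
      (s := S.biUnion fun l => (finite_lv_eq (L := Lz ζ) (l : ℕ)).toFinset), Finset.sum_biUnion]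
    · refine Finset.sum_congr rfl fun l _ => ?_
      rw [Finset.sum_congr rfl (g := fun _ => e (vl l) * E.ε l (resW p l (loclS p S l x)))]
      · rw [Finset.sum_const, nsmul_eq_mul, LinearMap.smul_apply, LinearMap.comp_apply,
          smul_eq_mul, mul_assoc]
      · intro v hv
        rw [Set.Finite.mem_toFinset] at hv
        have hv' : lv v = l := hv
        rw [hm l v hv', e_eq_of_lv_eq (hU_Lz hζ) E he hrec hv0 (hv'.trans (hvl l).symm)]
    · intro l _ l' _ hll
      rw [Function.onFun, Finset.disjoint_left]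
      intro v hv hv'
      rw [Set.Finite.mem_toFinset] at hv hv'
      have h2 : lv v = (l : ℕ) := hv
      have h3 : lv v = (l' : ℕ) := hv'
      exact hll (Subtype.ext (h2.symm.trans h3))
    · intro v hv
      rw [Function.mem_support] at hv
      rw [Finset.mem_coe, Finset.mem_biUnion]
      by_contra hcon
      push Not at hcon
      apply hv
      rw [hm (lv v) v rfl, loclS_eq_zero p (fun h => hcon ⟨lv v, lv_prime v⟩ h
        ((Set.Finite.mem_toFinset _).2 rfl)), map_zero, map_zero, mul_zero]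

end Final

end Fermat.Agent.CFT
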