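import Mathlib
import Fermat.Agent.CFT.Recip
import Fermat.Agent.CFT.LocNonzero

set_option autoImplicit false

/-!
# Reciprocity over `ℚ`, unconditional form
-/

open ExtCitation

namespace Fermat.Agent.CFT

/-- primality of elements of `Nat.Primes` -/
local instance factNP' (v : Nat.Primes) : Fact (v : ℕ).Prime := ⟨v.2⟩

/-- **Reciprocity over `ℚ`** with coefficients `μ_p`. -/
theorem exists_inv_uncond (p : ℕ) [Fact p.Prime] (hp2 : 2 < p) :
    ∃ inv : ∀ l : Nat.Primes,
        H2 (locLevels (l : ℕ)) (charRep ((cycloChar p).comp (localGaloisToGlobal l))) →ₗ[ZMod p]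
          ZMod p,
      (∀ l, inv l ≠ 0) ∧
      ∀ (S : Finset Nat.Primes) (x : H2 (sLevels S) (charRep (cycloChar p))),
        ∑ l ∈ S, inv l (H2.map (sLevels S) (locLevels (l : ℕ)) (charRep (cycloChar p))
          (charRep ((cycloChar p).comp (localGaloisToGlobal l))) (localGaloisToGlobal l)
          LinearMap.id (fun _ hH => ⟨_, sLevels_le_galLevels hH, le_rfl⟩) (fun _ _ => rfl) x) = 0 :=
  exists_inv p hp2 fun l _ => by
    have := loc_h2_nontrivial p l
    exact exists_ne 0

end Fermat.Agent.CFT
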