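import Mathlib
import Fermat.Agent.CFT.PTOrb
import Fermat.Agent.CFT.CycTower
import Fermat.Agent.CFT.RecipFinal

/-!
# Poitou-Tate data over `ℚ`
-/

set_option autoImplicit false

open Module ExtCitation
open scoped Pointwise NumberField
open IsDedekindDomain

namespace Fermat.Agent.CFT

local notation "Qb" => AlgebraicClosure ℚ
local notation "Γ" => (AlgebraicClosure ℚ ≃ₐ[ℚ] AlgebraicClosure ℚ)

/-- primality of elements of `Nat.Primes` -/
local instance factNP3 (v : Nat.Primes) : Fact (v : ℕ).Prime := ⟨v.2⟩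

lemma cont_locLevels (S : Finset Nat.Primes) (l : ℕ) [Fact l.Prime] :
    Levels.Cont (locLevels l) (sLevels S) (localGaloisToGlobal l) :=
  fun _ hH => ⟨_, sLevels_le_galLevels hH, le_rfl⟩

variable {p : ℕ} [Fact p.Prime]

/-- kernels -/
theorem finrank_ker_loc2_eq (hp2 : p ≠ 2) {S : Finset Nat.Primes}
    {L : IntermediateField ℚ Qb} [FiniteDimensional ℚ L]
    {ζ : Qb} (hζ : IsPrimitiveRoot ζ p) (hζL : ζ ∈ L)
    (hL : L.fixingSubgroup ∈ sLevels S) :
    finrank (ZMod p) (LinearMap.ker (loc2 (𝓛v := fun l : {l // l ∈ S} => locLevels (l.1 : ℕ))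
      (r := fun l : {l // l ∈ S} => localGaloisToGlobal (l.1 : ℕ))
      (fun l => cont_locLevels S (l.1 : ℕ)) (cosRep p L.fixingSubgroup))) =
    finrank (ZMod p) (LinearMap.ker (infl2 p S L.fixingSubgroup)) := by
  have h1 : LinearMap.ker (loc2 (𝓛v := fun l : {l // l ∈ S} => locLevels (l.1 : ℕ))
      (r := fun l : {l // l ∈ S} => localGaloisToGlobal (l.1 : ℕ))
      (fun l => cont_locLevels S (l.1 : ℕ)) (cosRep p L.fixingSubgroup)) =
      (LinearMap.ker (infl2 p S L.fixingSubgroup)).comap (cosH2 hL).toLinearMap := by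
    ext x
    rw [LinearMap.mem_ker, Submodule.mem_comap, LinearMap.mem_ker]
    refine Iff.trans ?_ (infl2_eq_zero_iff hp2 hζ hζL hL (cosH2 hL x)).symm
    constructor
    · intro h l hl A hA
      exact (loc_eq_zero_iff hL (l : ℕ) (cont_locLevels S l) x).1 (congrFun h ⟨l, hl⟩) A hA
    · intro h
      funext l
      exact (loc_eq_zero_iff hL (l.1 : ℕ) (cont_locLevels S l.1) x).2 (h l.1 l.2)
  rw [h1]
  exact ((cosH2 hL).submoduleMap _).finrank_eq.trans (by
    rw [Submodule.map_comap_eq_of_surjective (cosH2 hL).surjective])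

lemma ker_cycloChar_mem {S : Finset Nat.Primes} (hpS : pPrime p ∈ S) :
    (cycloChar p).ker ∈ sLevels S := by
  obtain ⟨ζ, hζ⟩ := exists_zeta p
  refine Levels.up_mem (cycK_mem p hpS 1) fun σ hσ => ?_
  exact (mem_ker_cycloChar hζ).2 (hσ ζ (by rw [pow_one]; exact hζ.pow_eq_one))

/-- uniform bound in the cyclotomic tower -/
lemma cycK_index (S : Finset Nat.Primes) (B : ℕ) :
    ∃ n, ∀ l : {l // l ∈ S}, B ≤ ((cycK p n).comap (localGaloisToGlobal (l.1 : ℕ))).index := by
  classical
  choose n hn using fun l : {l // l ∈ S} => cycK_index_loc p (l.1 : ℕ) B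
  refine ⟨Finset.univ.sup n, fun l => (hn l).trans ?_⟩
  have hmem : (cycK p (Finset.univ.sup n)).comap (localGaloisToGlobal (l.1 : ℕ)) ∈
      locLevels (l.1 : ℕ) := by
    have h1 : cycK p (Finset.univ.sup n) ∈ galLevels ℚ Qb := sLevels_le_galLevels
      (S := {pPrime p}) (cycK_mem p (Finset.mem_singleton_self _) _)
    exact Levels.cont_comap _ _ h1
  have hfi := Levels.finiteIndex hmem
  exact Subgroup.index_antitone
    (Subgroup.comap_mono (cycK_antitone p (Finset.le_sup (Finset.mem_univ l))))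

/-- the dimension formula -/
theorem preData_fin (hp2 : p ≠ 2) {S : Finset Nat.Primes} (hpS : pPrime p ∈ S)
    {W : Subgroup Γ} (hW : W ∈ sLevels S) (hWχ : W ≤ (cycloChar p).ker) :
    Fin2 ((sLevels S).restrict W) (Representation.trivial (ZMod p) W (ZMod p)) ∧
    2 * finrank (ZMod p) (H1 ((sLevels S).restrict W)
        (Representation.trivial (ZMod p) W (ZMod p))) =
      2 * finrank (ZMod p) (LinearMap.ker
        (loc2 (𝓛v := fun l : {l // l ∈ S} => locLevels (l.1 : ℕ))
        (r := fun l : {l // l ∈ S} => localGaloisToGlobal (l.1 : ℕ))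
        (fun l => cont_locLevels S (l.1 : ℕ)) (cosRep p W))) +
      2 * ∑ l : {l // l ∈ S}, orbs (localGaloisToGlobal (l.1 : ℕ)) W + W.index := by
  obtain ⟨L, hLfin, rfl⟩ := exists_field_of_mem (sLevels_le_galLevels hW)
  obtain ⟨ζ, hζ⟩ := exists_zeta p
  have hζL : ζ ∈ L := mem_of_fixed fun g => (mem_ker_cycloChar hζ).1 (hWχ g.2)
  obtain ⟨h1, h2, h3⟩ := finrank_H1_slev hζ hζL hW hpS
  have h4 := finite_H2_slev hp2 hζ hζL hW hpS
  have h5 := card_infinitePlace_eq hp2 hζ hζL
  refine ⟨⟨inferInstance, h1, h4⟩, ?_⟩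
  rw [finrank_ker_loc2_eq hp2 hζ hζL hW, sum_orbs,
    ← IntermediateField.finrank_eq_fixingSubgroup_index, h5]
  have h6 : finrank (ZMod p) (H1 ((sLevels S).restrict L.fixingSubgroup)
        (Representation.trivial (ZMod p) L.fixingSubgroup (ZMod p))) =
      finrank (ZMod p) (H1 ((sLevels S).restrict L.fixingSubgroup) (triv p L.fixingSubgroup)) :=
    rfl
  rw [h6, h3]
  ring

/-- **the Poitou-Tate data over `ℚ`** -/
theorem exists_preData (hp2 : p ≠ 2) {S : Finset Nat.Primes} (hpS : pPrime p ∈ S) :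
    Nonempty (PreData p (sLevels S) (fun l : {l // l ∈ S} => locLevels (l.1 : ℕ))
      (fun l : {l // l ∈ S} => localGaloisToGlobal (l.1 : ℕ)) (cycloChar p)
      (fun l : {l // l ∈ S} => if (l.1 : ℕ) = p then (-1 : ℚ) else 0)) := by
  classical
  have hpp : p.Prime := Fact.out
  obtain ⟨inv, hinv, hrec⟩ := exists_inv_uncond p (lt_of_le_of_ne hpp.two_le (Ne.symm hp2))
  exact ⟨{
    hr := fun l => cont_locLevels S (l.1 : ℕ)
    loc := fun l => {
      ecg := loc_ecg
      inv := inv l.1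
      inv_ne := hinv l.1
      h2_le := fun N hN hle => loc_h2_le hN hle }
    v0 := ⟨pPrime p, hpS⟩
    recip := fun x => by
      have h1 := hrec S x
      rw [← Finset.sum_coe_sort S] at h1
      exact h1
    mem := ker_cycloChar_mem hpS
    index := index_ker_not_dvd _
    K := cycK p
    K_mem := fun n => cycK_mem p hpS n
    K_normal := fun n => inferInstance
    K_pow := fun n g hg => cycK_pow p n hg
    K_index := cycK_index S
    fin := fun W hW hWχ => (preData_fin hp2 hpS hW hWχ).1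
    h1 := fun W hW hWχ => (preData_fin hp2 hpS hW hWχ).2 }⟩

/-- **Poitou-Tate over `ℚ`** -/
theorem exists_ptData (hp2 : p ≠ 2) {S : Finset Nat.Primes} (hpS : pPrime p ∈ S) :
    Nonempty (PTData p (sLevels S) (fun l : {l // l ∈ S} => locLevels (l.1 : ℕ))
      (fun l : {l // l ∈ S} => localGaloisToGlobal (l.1 : ℕ)) (cycloChar p) (-1 / 2)
      (fun l : {l // l ∈ S} => if (l.1 : ℕ) = p then (-1 : ℚ) else 0)) := by
  obtain ⟨D⟩ := exists_preData hp2 hpS
  exact ⟨D.ptData⟩

end Fermat.Agent.CFT
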