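import Mathlib
import Fermat.Agent.CFT.PTInst
import Fermat.Prelude.Def_GaloisRep_ComplexConjugation

/-!
# Specification of the lattice of `S`-units used in the global Euler characteristic formula
-/

set_option autoImplicit false

open Module ExtCitation
open scoped Pointwise NumberField

namespace Fermat.Agent.CFT

local notation "Qb" => AlgebraicClosure ℚ
local notation "Γ" => (AlgebraicClosure ℚ ≃ₐ[ℚ] AlgebraicClosure ℚ)

/-- primality of elements of `Nat.Primes` -/
local instance factNPg (v : Nat.Primes) : Fact (v : ℕ).Prime := ⟨v.2⟩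

section

variable {G : Type*} [Group G]

section ModN

variable {p : ℕ} {A B C : Type*} [AddCommGroup A] [AddCommGroup B] [AddCommGroup C]

theorem modN_surjective : Function.Surjective (ModN.mkQ p : A →+ ModN A p) :=
  Submodule.mkQ_surjective _

theorem modN_eq_zero_iff {x : A} : (ModN.mkQ p x : ModN A p) = 0 ↔ ∃ y, p • y = x := by
  change Submodule.Quotient.mk x = 0 ↔ _
  rw [Submodule.Quotient.mk_eq_zero, LinearMap.mem_range]
  simp only [LinearMap.lsmul_apply, natCast_zsmul]

/-- linear maps from `A / p` -/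
noncomputable def modNLift {W : Type*} [AddCommGroup W] [Module (ZMod p) W] (f : A →+ W) :
    ModN A p →ₗ[ZMod p] W :=
  ModN.liftEquiv'.symm ⟨f, fun g => by
    rw [← Nat.cast_smul_eq_nsmul (ZMod p), CharP.cast_eq_zero, zero_smul]⟩

@[simp] theorem modNLift_mkQ {W : Type*} [AddCommGroup W] [Module (ZMod p) W] (f : A →+ W)
    (x : A) : modNLift f (ModN.mkQ p x) = f x := rfl

theorem modN_hom_ext {W : Type*} [AddCommGroup W] [Module (ZMod p) W]
    {f g : ModN A p →ₗ[ZMod p] W} (h : ∀ x, f (ModN.mkQ p x) = g (ModN.mkQ p x)) : f = g := by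
  refine LinearMap.ext fun x => ?_
  obtain ⟨y, rfl⟩ := modN_surjective x
  exact h y

/-- functoriality of `A / p` -/
noncomputable def modNMap (p : ℕ) (f : A →+ B) : ModN A p →ₗ[ZMod p] ModN B p :=
  modNLift ((ModN.mkQ p).comp f)

@[simp] theorem modNMap_mkQ (f : A →+ B) (x : A) :
    modNMap p f (ModN.mkQ p x) = ModN.mkQ p (f x) := rfl

end ModN

/-- the action on `A / p` -/
noncomputable def modNRep (p : ℕ) {A : Type*} [AddCommGroup A] (ρ : Representation ℤ G A) :
    Representation (ZMod p) G (ModN A p) where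
  toFun g := modNMap p (ρ g : A →ₗ[ℤ] A).toAddMonoidHom
  map_one' := modN_hom_ext fun x => by
    rw [modNMap_mkQ, map_one]
    rfl
  map_mul' g h := modN_hom_ext fun x => by
    rw [modNMap_mkQ, map_mul]
    rfl

@[simp] lemma modNRep_mkQ (p : ℕ) {A : Type*} [AddCommGroup A] (ρ : Representation ℤ G A) (g : G)
    (a : A) : modNRep p ρ g (ModN.mkQ p a) = ModN.mkQ p (ρ g a) := rfl

/-- the elements fixed by a subgroup -/
def fixOn {k : Type*} [CommRing k] {V : Type*} [AddCommGroup V] [Module k V]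
    (ρ : Representation k G V) (H : Subgroup G) : Submodule k V where
  carrier := {v | ∀ h ∈ H, ρ h v = v}
  add_mem' ha hb h hh := by rw [map_add, ha h hh, hb h hh]
  zero_mem' h _ := map_zero _
  smul_mem' c _ ha h hh := by rw [map_smul, ha h hh]

lemma mem_fixOn {k : Type*} [CommRing k] {V : Type*} [AddCommGroup V] [Module k V]
    {ρ : Representation k G V} {H : Subgroup G} {v : V} :
    v ∈ fixOn ρ H ↔ ∀ h ∈ H, ρ h v = v := Iff.rfl

/-- linear maps equivariant for a subgroup -/
def homOn {k : Type*} [CommRing k] {V W : Type*} [AddCommGroup V] [Module k V] [AddCommGroup W]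
    [Module k W] (ρ : Representation k G V) (σ : Representation k G W) (H : Subgroup G) :
    Submodule k (V →ₗ[k] W) where
  carrier := {f | ∀ h ∈ H, ∀ v, f (ρ h v) = σ h (f v)}
  add_mem' ha hb h hh v := by
    rw [LinearMap.add_apply, LinearMap.add_apply, map_add, ha h hh, hb h hh]
  zero_mem' h _ v := by simp
  smul_mem' c _ ha h hh v := by
    rw [LinearMap.smul_apply, LinearMap.smul_apply, map_smul, ha h hh]

lemma mem_homOn {k : Type*} [CommRing k] {V W : Type*} [AddCommGroup V] [Module k V]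
    [AddCommGroup W] [Module k W] {ρ : Representation k G V} {σ : Representation k G W}
    {H : Subgroup G} {f : V →ₗ[k] W} :
    f ∈ homOn ρ σ H ↔ ∀ h ∈ H, ∀ v, f (ρ h v) = σ h (f v) := Iff.rfl

end

/-- The lattice of `S`-units of a Galois extension `L` of `ℚ` with group `Γ / N`, with trivial
`S`-class group modulo `p`. -/
structure UnitLat (p : ℕ) [Fact p.Prime] (S : Finset Nat.Primes) (N : Subgroup Γ) where
  /-- the `S`-units of `L` -/
  A : Type
  [grp : AddCommGroup A]
  fin : Module.Finite ℤ A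
  /-- Galois action -/
  ρ : Representation ℤ Γ A
  triv : ∀ g ∈ N, ∀ a, ρ g a = a
  /-- Dirichlet's theorem for the subfields of `L` -/
  rank : ∀ D : Subgroup Γ, N ≤ D → finrank ℤ (fixOn ρ D) + 1 =
    ∑ l : {l // l ∈ S}, orbs (localGaloisToGlobal (l.1 : ℕ)) D +
      orbs (Subgroup.zpowers complexConjugation).subtype D
  /-- a primitive `p`-th root of unity -/
  z : A
  z_ne : z ≠ 0
  tors : ∀ x : A, p • x = 0 ↔ ∃ n : ℕ, x = n • z
  z_act : ∀ g, ρ g z = ((cycloChar p g : (ZMod p)ˣ) : ZMod p).val • z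
  /-- Kummer theory -/
  h1 : ∀ {V : Type} [AddCommGroup V] [Module (ZMod p) V] [FiniteDimensional (ZMod p) V]
    (σ : Representation (ZMod p) Γ V), (∀ g ∈ N, ∀ v, σ g v = v) → ∀ H : Subgroup Γ, N ≤ H →
    ¬ p ∣ N.relIndex H →
    finrank (ZMod p) (H1 ((sLevels S).restrict H) (resRep σ H.subtype)) ≤
      finrank (ZMod p) (homOn (dualRep (cycloChar p) σ) (modNRep p ρ) H)

/-- **Specification**: the lattice of `S`-units exists for `S` large. -/
def ExistsUnitLat (p : ℕ) [Fact p.Prime] : Prop :=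
  ∀ (L : IntermediateField ℚ Qb) [FiniteDimensional ℚ L] [Normal ℚ L] (ζ : Qb),
    IsPrimitiveRoot ζ p → ζ ∈ L → ∃ S0 : Finset Nat.Primes, ∀ S : Finset Nat.Primes, S0 ⊆ S →
    pPrime p ∈ S → L.fixingSubgroup ∈ sLevels S → Nonempty (UnitLat p S L.fixingSubgroup)

end Fermat.Agent.CFT
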