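import Mathlib
import Fermat.Agent.CFT.LES
import Fermat.Agent.CFT.RightExact

/-!
# Representations of finite groups over `ℚ` are determined by their characters
-/

set_option autoImplicit false

open Module

namespace Fermat.Agent.CFT

section Gen

variable {k : Type*} [Field k] {G : Type*} [Group G]
variable {A B C D : Type*} [AddCommGroup A] [Module k A] [AddCommGroup B] [Module k B]
  [AddCommGroup C] [Module k C] [AddCommGroup D] [Module k D]
variable {ρA : Representation k G A} {ρB : Representation k G B} {ρC : Representation k G C}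
  {ρD : Representation k G D}

/-- the existence of an equivariant isomorphism -/
def REq {k : Type*} [CommRing k] {G : Type*} [Group G] {A B : Type*} [AddCommGroup A] [Module k A]
    [AddCommGroup B] [Module k B] (ρA : Representation k G A) (ρB : Representation k G B) : Prop :=
  ∃ e : A ≃ₗ[k] B, ∀ g a, e (ρA g a) = ρB g (e a)

lemma REq.refl (ρA : Representation k G A) : REq ρA ρA := ⟨LinearEquiv.refl _ _, fun _ _ => rfl⟩

lemma REq.symm (h : REq ρA ρB) : REq ρB ρA := by
  obtain ⟨e, he⟩ := h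
  refine ⟨e.symm, fun g b => ?_⟩
  apply e.injective
  rw [he, e.apply_symm_apply, e.apply_symm_apply]

lemma REq.trans (h : REq ρA ρB) (h' : REq ρB ρC) : REq ρA ρC := by
  obtain ⟨e, he⟩ := h
  obtain ⟨e', he'⟩ := h'
  exact ⟨e.trans e', fun g a => by rw [LinearEquiv.trans_apply, he, he', LinearEquiv.trans_apply]⟩

lemma REq.prod (h : REq ρA ρB) (h' : REq ρC ρD) : REq (ρA.prod ρC) (ρB.prod ρD) := by
  obtain ⟨e, he⟩ := h
  obtain ⟨e', he'⟩ := h'
  exact ⟨e.prodCongr e', fun g a => Prod.ext (he g a.1) (he' g a.2)⟩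

lemma REq.comm : REq (ρA.prod ρC) (ρC.prod ρA) :=
  ⟨LinearEquiv.prodComm k A C, fun _ _ => rfl⟩

/-- Maschke: equivariant sections -/
theorem SES.exists_section [Finite G] (hG : (Nat.card G : k) ≠ 0) (E : SES ρA ρB ρC) :
    ∃ s : C →ₗ[k] B, (∀ c, E.π (s c) = c) ∧ ∀ g c, s (ρC g c) = ρB g (s c) := by
  classical
  have := Fintype.ofFinite G
  let s : C →ₗ[k] B := (Nat.card G : k)⁻¹ • ∑ g : G, (ρB g) ∘ₗ E.σ ∘ₗ (ρC g⁻¹)
  have hs : ∀ c, s c = (Nat.card G : k)⁻¹ • ∑ g : G, ρB g (E.σ (ρC g⁻¹ c)) := fun c => by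
    simp [s, LinearMap.sum_apply]
  refine ⟨s, fun c => ?_, fun g c => ?_⟩
  · rw [hs, map_smul, map_sum]
    have h1 : ∀ g : G, E.π (ρB g (E.σ (ρC g⁻¹ c))) = c := fun g => by
      rw [E.hπ, E.πσ, ← Module.End.mul_apply, ← map_mul, mul_inv_cancel, map_one,
        Module.End.one_apply]
    rw [Finset.sum_congr rfl fun g _ => h1 g, Finset.sum_const, Finset.card_univ,
      ← Nat.card_eq_fintype_card, ← Nat.cast_smul_eq_nsmul k, smul_smul, inv_mul_cancel₀ hG,
      one_smul]
  · rw [hs, hs, map_smul, map_sum]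
    congr 1
    rw [← Equiv.sum_comp (Equiv.mulLeft g)]
    refine Finset.sum_congr rfl fun h _ => ?_
    rw [Equiv.coe_mulLeft, mul_inv_rev, map_mul, map_mul, Module.End.mul_apply,
      Module.End.mul_apply]
    congr 3
    rw [← Module.End.mul_apply (ρC g⁻¹), ← map_mul, inv_mul_cancel, map_one, Module.End.one_apply]

lemma SES.req [Finite G] (hG : (Nat.card G : k) ≠ 0) (E : SES ρA ρB ρC) :
    REq (ρA.prod ρC) ρB := by
  obtain ⟨s, hs, hs2⟩ := E.exists_section hG
  refine ⟨LinearEquiv.ofBijective (LinearMap.coprod E.ι s) ⟨?_, ?_⟩, fun g a => ?_⟩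
  · rw [injective_iff_map_eq_zero]
    rintro ⟨a, c⟩ h
    rw [LinearMap.coprod_apply] at h
    have h1 := congrArg E.π h
    rw [map_add, E.πι, zero_add, hs, map_zero] at h1
    subst h1
    rw [map_zero, add_zero] at h
    have h2 : a = 0 := E.ι_injective (h.trans (map_zero _).symm)
    rw [h2]; rfl
  · intro b
    obtain ⟨a, ha⟩ : ∃ a, E.ι a = b - s (E.π b) :=
      ⟨E.τ (b - s (E.π b)), E.ιτ_of_π (by rw [map_sub, hs, sub_self])⟩
    refine ⟨(a, E.π b), ?_⟩
    rw [LinearMap.coprod_apply, ha]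
    abel
  · change E.ι (ρA g a.1) + s (ρC g a.2) = ρB g (E.ι a.1 + s a.2)
    rw [map_add, ← E.hι, ← hs2]

lemma SES.trace_eq [FiniteDimensional k A] [FiniteDimensional k B] [FiniteDimensional k C]
    (E : SES ρA ρB ρC) (g : G) : LinearMap.trace k B (ρB g) =
      LinearMap.trace k A (ρA g) + LinearMap.trace k C (ρC g) := by
  have h1 : ρB g = (ρB g ∘ₗ E.ι) ∘ₗ E.τ + (ρB g ∘ₗ E.σ) ∘ₗ E.π := by
    ext b
    conv_lhs => rw [← E.decomp b]
    rw [map_add]
    rfl
  conv_lhs => rw [h1]
  rw [map_add, LinearMap.trace_comp_comm' E.τ (ρB g ∘ₗ E.ι),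
    LinearMap.trace_comp_comm' E.π (ρB g ∘ₗ E.σ)]
  have e1 : E.τ ∘ₗ ρB g ∘ₗ E.ι = ρA g := LinearMap.ext fun a => by
    change E.τ (ρB g (E.ι a)) = _
    rw [← E.hι, E.τι]
  have e2 : E.π ∘ₗ ρB g ∘ₗ E.σ = ρC g := LinearMap.ext fun c => by
    change E.π (ρB g (E.σ c)) = _
    rw [E.hπ, E.πσ]
  rw [e1, e2]

lemma REq.trace_eq (h : REq ρA ρB) (g : G) :
    LinearMap.trace k A (ρA g) = LinearMap.trace k B (ρB g) := by
  obtain ⟨e, he⟩ := h
  have h1 : ρB g = e.conj (ρA g) := by
    ext b
    rw [LinearEquiv.conj_apply_apply, he, e.apply_symm_apply]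
  rw [h1, LinearMap.trace_conj']

/-- representation on the range of an equivariant map -/
def ranRep {k : Type*} [CommRing k] {G : Type*} [Group G] {A B : Type*} [AddCommGroup A]
    [Module k A] [AddCommGroup B] [Module k B]
    {ρB : Representation k G B} {ρA : Representation k G A} {ι : A →ₗ[k] B}
    (hι : ∀ g a, ι (ρA g a) = ρB g (ι a)) : Representation k G (LinearMap.range ι) where
  toFun g := (ρB g).restrict (fun b hb => by
    obtain ⟨a, rfl⟩ := hb
    exact ⟨ρA g a, hι g a⟩)
  map_one' := by ext b; simp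
  map_mul' g h := by ext b; simp

lemma ran_stable {ι : A →ₗ[k] B} (hι : ∀ g a, ι (ρA g a) = ρB g (ι a)) :
    ∀ g, ∀ w ∈ LinearMap.range ι, ρB g w ∈ LinearMap.range ι := by
  rintro g _ ⟨a, rfl⟩
  exact ⟨ρA g a, hι g a⟩

/-- kernel-range exact sequence -/
noncomputable def SES.kerRan {π : B →ₗ[k] C} (hπ : ∀ g b, π (ρB g b) = ρC g (π b)) :
    SES (kerRep hπ) ρB (ranRep hπ) :=
  SES.ofExact _ _ _ (LinearMap.ker π).subtype π.rangeRestrict (fun _ _ => rfl)
    (fun g b => Subtype.ext (hπ g b)) (Subtype.val_injective) π.surjective_rangeRestrict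
    (fun b => ⟨fun h => ⟨⟨b, congrArg Subtype.val h⟩, rfl⟩, fun ⟨a, ha⟩ => ha ▸ Subtype.ext a.2⟩)

/-- range-quotient exact sequence -/
noncomputable def SES.ranQuo {ι : A →ₗ[k] B} (hι : ∀ g a, ι (ρA g a) = ρB g (ι a)) :
    SES (ranRep hι) ρB (quoRep ρB (LinearMap.range ι) (ran_stable hι)) :=
  SES.ofExact _ _ _ (LinearMap.range ι).subtype (LinearMap.range ι).mkQ (fun _ _ => rfl)
    (fun g b => rfl) (Subtype.val_injective) (Submodule.mkQ_surjective _)
    (fun b => by
      rw [Submodule.mkQ_apply, Submodule.Quotient.mk_eq_zero]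
      exact ⟨fun h => ⟨⟨b, h⟩, rfl⟩, fun ⟨a, ha⟩ => ha ▸ a.2⟩)

end Gen

/-- **Rational representations with the same characters are isomorphic.** -/
theorem req_of_trace_eq {G : Type*} [Group G] [Finite G] {V : Type*} [AddCommGroup V]
    [Module ℚ V] [FiniteDimensional ℚ V] {W : Type*} [AddCommGroup W] [Module ℚ W]
    [FiniteDimensional ℚ W] (ρ : Representation ℚ G V) (σ : Representation ℚ G W)
    (h : ∀ g, LinearMap.trace ℚ V (ρ g) = LinearMap.trace ℚ W (σ g)) : REq ρ σ := by
  classical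
  have := Fintype.ofFinite G
  obtain ⟨n, hn⟩ : ∃ n, finrank ℚ V = n := ⟨_, rfl⟩
  induction n using Nat.strong_induction_on generalizing V W with
  | _ n ih =>
  have hG : (Nat.card G : ℚ) ≠ 0 := by exact_mod_cast Nat.card_pos.ne'
  have := invertibleOfNonzero hG
  have hdim : finrank ℚ V = finrank ℚ W := by
    have h1 := h 1
    rw [MonoidHom.map_one, MonoidHom.map_one, LinearMap.trace_one, LinearMap.trace_one] at h1
    exact_mod_cast h1
  by_cases hV : finrank ℚ V = 0
  · have hV' : Subsingleton V := finrank_zero_iff.1 hV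
    have hW' : Subsingleton W := finrank_zero_iff.1 (hdim ▸ hV)
    exact ⟨0, fun _ _ => Subsingleton.elim _ _⟩
  have hpos : finrank ℚ (Representation.IntertwiningMap ρ σ) ≠ 0 := by
    have h1 := Representation.card_inv_mul_sum_char_mul_char_eq_finrank ρ ρ
    have h2 := Representation.card_inv_mul_sum_char_mul_char_eq_finrank ρ σ
    have h3 : σ.character = ρ.character := funext fun g => (h g).symm
    rw [h3, h1] at h2
    have h4 : finrank ℚ (Representation.IntertwiningMap ρ ρ) ≠ 0 := by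
      intro h0
      have := finrank_zero_iff.1 h0
      have h5 : (1 : V →ₗ[ℚ] V) = 0 := congrArg (fun f : Representation.IntertwiningMap ρ ρ =>
        f.toLinearMap) (Subsingleton.elim (Representation.IntertwiningMap.id ρ) 0)
      have hV'' : Subsingleton V := ⟨fun a b => by
        have ha := LinearMap.congr_fun h5 a
        have hb := LinearMap.congr_fun h5 b
        simp only [Module.End.one_apply, LinearMap.zero_apply] at ha hb
        rw [ha, hb]⟩
      exact hV (finrank_zero_iff.2 hV'')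
    intro h0
    apply h4
    rw [h0] at h2
    exact_mod_cast h2
  obtain ⟨u, hu⟩ : ∃ u : Representation.IntertwiningMap ρ σ, u ≠ 0 := by
    by_contra hcon
    push Not at hcon
    exact hpos (finrank_zero_iff.2 ⟨fun a b => by rw [hcon a, hcon b]⟩)
  let f : V →ₗ[ℚ] W := u.toLinearMap
  have hf : ∀ g a, f (ρ g a) = σ g (f a) := fun g a => u.isIntertwining _ _ g a
  have hf0 : f ≠ 0 := by
    intro h0
    apply hu
    ext v
    exact LinearMap.congr_fun h0 v
  have hR : finrank ℚ (LinearMap.range f) ≠ 0 := by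
    intro h0
    have h1 := finrank_zero_iff.1 h0
    apply hf0
    ext v
    exact congrArg Subtype.val (Subsingleton.elim (⟨f v, v, rfl⟩ : LinearMap.range f) 0)
  have hk := LinearMap.finrank_range_add_finrank_ker f
  have E1 := SES.kerRan hf
  have E2 := SES.ranQuo hf
  have h5 : REq (kerRep hf) (quoRep σ (LinearMap.range f) (ran_stable hf)) := by
    refine ih (finrank ℚ (LinearMap.ker f)) (by omega) _ _ (fun g => ?_) rfl
    have h6 := E1.trace_eq g
    have h7 := E2.trace_eq g
    rw [h g, h7] at h6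
    linarith
  exact (E1.req hG).symm.trans ((REq.prod h5 (REq.refl _)).trans (REq.comm.trans (E2.req hG)))

end Fermat.Agent.CFT
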