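import Mathlib
import Fermat.Agent.CFT.RatIso
import Fermat.Agent.CFT.GWSpec

/-!
# Additive invariants of lattices with an action of a finite group

An additive invariant of finitely generated `ℤ[G]`-modules which is trivial on finite modules
only depends on the ranks of the fixed submodules.
-/

set_option autoImplicit false

open Module nonZeroDivisors

namespace Fermat.Agent.CFT

section Rat

variable {A B : Type*} [AddCommGroup A] [AddCommGroup B] {V W : Type*} [AddCommGroup V]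
  [Module ℚ V] [AddCommGroup W] [Module ℚ W]

/-- the map identifies `V` with `A ⊗ ℚ` -/
structure IsRat (ι : A →ₗ[ℤ] V) : Prop where
  ker : ∀ a, ι a = 0 → ∃ n : ℤ, n ≠ 0 ∧ n • a = 0
  surj : ∀ v, ∃ n : ℤ, n ≠ 0 ∧ ∃ a, ι a = n • v

omit [Module ℚ W] in
lemma zsmul_eq_zero' [Module ℚ W] {n : ℤ} (hn : n ≠ 0) {v : W} (h : n • v = 0) : v = 0 := by
  rw [← Int.cast_smul_eq_zsmul ℚ] at h
  exact (smul_eq_zero.1 h).resolve_left (by exact_mod_cast hn)

lemma zsmul_left_cancel' {n : ℤ} (hn : n ≠ 0) {v w : V} (h : n • v = n • w) : v = w := by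
  rw [← sub_eq_zero, ← smul_sub] at h
  exact sub_eq_zero.1 (zsmul_eq_zero' hn h)

lemma IsRat.isLocalizedModule {ι : A →ₗ[ℤ] V} (h : IsRat ι) : IsLocalizedModule ℤ⁰ ι where
  map_units := by
    rintro ⟨s, hs⟩
    have hs0 : s ≠ 0 := nonZeroDivisors.ne_zero hs
    rw [Module.End.isUnit_iff]
    constructor
    · intro v w hvw
      exact zsmul_left_cancel' hs0 hvw
    · intro v
      refine ⟨((s : ℚ)⁻¹) • v, ?_⟩
      change s • ((s : ℚ)⁻¹ • v) = v
      rw [← Int.cast_smul_eq_zsmul ℚ, smul_smul, mul_inv_cancel₀ (by exact_mod_cast hs0), one_smul]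
  surj v := by
    obtain ⟨n, hn, a, ha⟩ := h.surj v
    exact ⟨(a, ⟨n, mem_nonZeroDivisors_of_ne_zero hn⟩), ha.symm⟩
  exists_of_eq {x y} hxy := by
    obtain ⟨n, hn, hnn⟩ := h.ker (x - y) (by rw [map_sub, hxy, sub_self])
    refine ⟨⟨n, mem_nonZeroDivisors_of_ne_zero hn⟩, ?_⟩
    rw [smul_sub, sub_eq_zero] at hnn
    exact hnn

lemma IsRat.finrank_eq {ι : A →ₗ[ℤ] V} (h : IsRat ι) : finrank ℚ V = finrank ℤ A := by
  have := h.isLocalizedModule
  rw [← IsLocalizedModule.finrank_eq ℤ⁰ ι le_rfl]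
  exact congrArg Cardinal.toNat (IsLocalization.rank_eq ℚ ℤ⁰ le_rfl)

lemma IsRat.finiteDimensional {ι : A →ₗ[ℤ] V} (h : IsRat ι) [Module.Finite ℤ A] :
    FiniteDimensional ℚ V := by
  classical
  obtain ⟨s, hs⟩ := Module.Finite.fg_top (R := ℤ) (M := A)
  refine ⟨⟨s.image ι, ?_⟩⟩
  rw [eq_top_iff]
  intro v _
  obtain ⟨n, hn, a, ha⟩ := h.surj v
  have h1 : ∀ a : A, ι a ∈ Submodule.span ℚ ((s.image ι : Finset V) : Set V) := by
    intro a
    have h2 : a ∈ Submodule.span ℤ (s : Set A) := by rw [hs]; trivial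
    induction h2 using Submodule.span_induction with
    | mem x hx => exact Submodule.subset_span (by simpa using ⟨x, hx, rfl⟩)
    | zero => rw [map_zero]; exact Submodule.zero_mem _
    | add x y _ _ hx hy => rw [map_add]; exact Submodule.add_mem _ hx hy
    | smul c x _ hx =>
      rw [map_smul, ← Int.cast_smul_eq_zsmul ℚ]
      exact Submodule.smul_mem _ _ hx
  have h3 : v = ((n : ℚ)⁻¹) • ι a := by
    rw [ha, ← Int.cast_smul_eq_zsmul ℚ, smul_smul, inv_mul_cancel₀ (by exact_mod_cast hn),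
      one_smul]
  rw [h3]
  exact Submodule.smul_mem _ _ (h1 a)

/-- the canonical map -/
lemma isRat_mk (A : Type*) [AddCommGroup A] : IsRat (TensorProduct.mk ℤ ℚ A 1) := by
  have h := (isLocalizedModule_iff_isBaseChange ℤ⁰ ℚ (TensorProduct.mk ℤ ℚ A 1)).2
    (TensorProduct.isBaseChange ℤ A ℚ)
  refine ⟨fun a ha => ?_, fun v => ?_⟩
  · obtain ⟨⟨c, hc⟩, hcc⟩ := h.exists_of_eq (x₁ := a) (x₂ := 0) (ha.trans (map_zero _).symm)
    refine ⟨c, nonZeroDivisors.ne_zero hc, ?_⟩
    rw [smul_zero] at hcc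
    exact hcc
  · obtain ⟨⟨a, ⟨c, hc⟩⟩, hh⟩ := h.surj v
    exact ⟨c, nonZeroDivisors.ne_zero hc, a, hh.symm⟩

lemma IsRat.comp_equiv {ι : A →ₗ[ℤ] V} (h : IsRat ι) (e : V ≃ₗ[ℚ] W) :
    IsRat ((e.toLinearMap.restrictScalars ℤ) ∘ₗ ι) where
  ker a ha := h.ker a (e.injective (by rw [map_zero]; exact ha))
  surj w := by
    obtain ⟨n, hn, a, ha⟩ := h.surj (e.symm w)
    refine ⟨n, hn, a, ?_⟩
    change e (ι a) = _
    rw [ha, map_zsmul, e.apply_symm_apply]

end Rat

section Trace

open Matrix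

/-- traces of powers of integral matrices of finite order -/
theorem trace_pow_coprime {n : Type*} [Fintype n] [DecidableEq n] (M : Matrix n n ℤ) {m : ℕ}
    (hm : m ≠ 0) (hM : M ^ m = 1) {j : ℕ} (hj : j.Coprime m) : trace (M ^ j) = trace M := by
  by_contra hne
  obtain ⟨q, hq, hqp, hqm⟩ := Nat.forall_exists_prime_gt_and_modEq
    (trace (M ^ j) - trace M).natAbs hm hj
  have : Fact q.Prime := ⟨hqp⟩
  have h1 : M ^ q = M ^ j := by
    rw [← Nat.div_add_mod q m, ← Nat.div_add_mod j m, pow_add, pow_add, pow_mul, pow_mul, hM,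
      one_pow, one_pow, hqm]
  have h2 : ((trace (M ^ q) : ℤ) : ZMod q) = (trace M : ℤ) := by
    have h3 := ZMod.trace_pow_card (M.map (Int.castRingHom (ZMod q)))
    rw [← Matrix.map_pow] at h3
    have h4 : ∀ N : Matrix n n ℤ, trace (N.map (Int.castRingHom (ZMod q))) =
        ((trace N : ℤ) : ZMod q) := fun N => by
      simp [trace]
    rw [h4, h4, ZMod.pow_card] at h3
    exact h3
  rw [h1] at h2
  have h3 : (q : ℤ) ∣ trace (M ^ j) - trace M := by
    rw [← ZMod.intCast_zmod_eq_zero_iff_dvd, Int.cast_sub, h2, sub_self]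
  have h4 := Int.eq_zero_of_dvd_of_natAbs_lt_natAbs h3 (by simpa using hq)
  exact hne (sub_eq_zero.1 h4)

end Trace

section Fun

/-- kernel representation -/
def kerRepR {k : Type*} [CommRing k] {G : Type*} [Group G] {A B : Type*} [AddCommGroup A]
    [Module k A] [AddCommGroup B] [Module k B]
    {ρA : Representation k G A} {ρB : Representation k G B} {f : A →ₗ[k] B}
    (hf : ∀ g a, f (ρA g a) = ρB g (f a)) : Representation k G (LinearMap.ker f) where
  toFun g := (ρA g).restrict (fun b hb => by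
    rw [LinearMap.mem_ker] at hb ⊢
    rw [hf, hb, map_zero])
  map_one' := by ext b; simp
  map_mul' g h := by ext b; simp

/-- quotient representation -/
def quoRepR {k : Type*} [CommRing k] {G : Type*} [Group G] {B : Type*} [AddCommGroup B]
    [Module k B] (ρB : Representation k G B) (W : Submodule k B)
    (hW : ∀ g, ∀ w ∈ W, ρB g w ∈ W) : Representation k G (B ⧸ W) where
  toFun g := W.mapQ W (ρB g) (fun w hw => hW g w hw)
  map_one' := by ext b; simp
  map_mul' g h := by ext b; simp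

/-- An additive invariant of finitely generated `ℤ[G]`-modules, trivial on finite modules. -/
structure LatFun (G : Type) [Group G] where
  /-- the value of the invariant -/
  val : ∀ {A : Type} [AddCommGroup A], Representation ℤ G A → ℚ
  add : ∀ {A B C : Type} [AddCommGroup A] [AddCommGroup B] [AddCommGroup C]
    (ρA : Representation ℤ G A) (ρB : Representation ℤ G B) (ρC : Representation ℤ G C)
    (f : A →ₗ[ℤ] B) (g : B →ₗ[ℤ] C), (∀ x a, f (ρA x a) = ρB x (f a)) →
    (∀ x b, g (ρB x b) = ρC x (g b)) → Function.Injective f → Function.Surjective g →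
    (∀ b, g b = 0 ↔ ∃ a, f a = b) → Module.Finite ℤ B → val ρB = val ρA + val ρC
  fin : ∀ {A : Type} [AddCommGroup A] (ρ : Representation ℤ G A), Finite A → val ρ = 0

variable {G : Type} [Group G] (Φ : LatFun G)
variable {A B C : Type} [AddCommGroup A] [AddCommGroup B] [AddCommGroup C]
variable {V W : Type} [AddCommGroup V] [Module ℚ V] [AddCommGroup W] [Module ℚ W]

lemma finite_of_tors [Module.Finite ℤ A] (h : ∀ a : A, ∃ n : ℤ, n ≠ 0 ∧ n • a = 0) : Finite A :=
  Module.finite_of_fg_torsion A fun {a} => by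
    obtain ⟨n, hn, h1⟩ := h a
    exact ⟨⟨n, mem_nonZeroDivisors_of_ne_zero hn⟩, h1⟩

theorem LatFun.val_eq_of_tors [Module.Finite ℤ A] [Module.Finite ℤ B] (ρA : Representation ℤ G A)
    (ρB : Representation ℤ G B) (f : A →ₗ[ℤ] B) (hf : ∀ g a, f (ρA g a) = ρB g (f a))
    (h1 : ∀ a, f a = 0 → ∃ n : ℤ, n ≠ 0 ∧ n • a = 0)
    (h2 : ∀ b, ∃ n : ℤ, n ≠ 0 ∧ ∃ a, f a = n • b) : Φ.val ρA = Φ.val ρB := by
  have hst : ∀ g, ∀ w ∈ LinearMap.range f, ρB g w ∈ LinearMap.range f := by
    rintro g _ ⟨a, rfl⟩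
    exact ⟨ρA g a, hf g a⟩
  have e1 := Φ.add (kerRepR hf) ρA (ranRep hf) (LinearMap.ker f).subtype f.rangeRestrict
    (fun _ _ => rfl) (fun g b => Subtype.ext (hf g b)) Subtype.val_injective
    f.surjective_rangeRestrict
    (fun b => ⟨fun h => ⟨⟨b, congrArg Subtype.val h⟩, rfl⟩, fun ⟨a, ha⟩ => ha ▸ Subtype.ext a.2⟩)
    inferInstance
  have e2 := Φ.add (ranRep hf) ρB (quoRepR ρB (LinearMap.range f) hst) (LinearMap.range f).subtype
    (LinearMap.range f).mkQ (fun _ _ => rfl) (fun g b => rfl) Subtype.val_injective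
    (Submodule.mkQ_surjective _)
    (fun b => by
      rw [Submodule.mkQ_apply, Submodule.Quotient.mk_eq_zero]
      exact ⟨fun h => ⟨⟨b, h⟩, rfl⟩, fun ⟨a, ha⟩ => ha ▸ a.2⟩) inferInstance
  have e3 : Φ.val (kerRepR hf) = 0 := Φ.fin _ (finite_of_tors fun a => by
    obtain ⟨n, hn, h⟩ := h1 a.1 a.2
    exact ⟨n, hn, Subtype.ext h⟩)
  have e4 : Φ.val (quoRepR ρB (LinearMap.range f) hst) = 0 := Φ.fin _ (finite_of_tors fun b => by
    obtain ⟨b, rfl⟩ := Submodule.mkQ_surjective _ b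
    obtain ⟨n, hn, a, ha⟩ := h2 b
    refine ⟨n, hn, ?_⟩
    rw [← map_smul, Submodule.mkQ_apply, Submodule.Quotient.mk_eq_zero]
    exact ⟨a, ha⟩)
  rw [e1, e2, e3, e4]
  ring

/-- restriction of scalars from `ℚ` to `ℤ` -/
def rsZ {G : Type*} [Group G] {V : Type*} [AddCommGroup V] [Module ℚ V]
    (ρV : Representation ℚ G V) : Representation ℤ G V where
  toFun g := (ρV g).restrictScalars ℤ
  map_one' := by ext; simp
  map_mul' g h := by ext; simp

@[simp] lemma rsZ_apply {G : Type*} [Group G] {V : Type*} [AddCommGroup V] [Module ℚ V]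
    (ρV : Representation ℚ G V) (g : G) (v : V) : rsZ ρV g v = ρV g v := rfl

theorem LatFun.val_eq_of_isRat [Module.Finite ℤ A] [Module.Finite ℤ B]
    (ρA : Representation ℤ G A) (ρB : Representation ℤ G B) (ρV : Representation ℚ G V)
    {ιA : A →ₗ[ℤ] V} (hA : IsRat ιA) (hιA : ∀ g a, ιA (ρA g a) = ρV g (ιA a))
    {ιB : B →ₗ[ℤ] V} (hB : IsRat ιB) (hιB : ∀ g a, ιB (ρB g a) = ρV g (ιB a)) :
    Φ.val ρA = Φ.val ρB := by
  obtain ⟨n, hn, hn2⟩ : ∃ n : ℤ, n ≠ 0 ∧ ∀ a : A, n • ιA a ∈ LinearMap.range ιB := by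
    obtain ⟨s, hs⟩ := Module.Finite.fg_top (R := ℤ) (M := A)
    choose m hm b hb using fun a : A => hB.surj (ιA a)
    refine ⟨∏ x ∈ s, m x, Finset.prod_ne_zero_iff.2 fun x _ => hm x, fun a => ?_⟩
    have h2 : a ∈ Submodule.span ℤ (s : Set A) := by rw [hs]; trivial
    induction h2 using Submodule.span_induction with
    | mem x hx =>
      obtain ⟨c, hc⟩ := Finset.dvd_prod_of_mem m hx
      rw [hc, mul_comm, mul_smul, ← hb, ← map_smul]
      exact ⟨_, rfl⟩
    | zero => rw [map_zero, smul_zero]; exact Submodule.zero_mem _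
    | add x y _ _ hx hy => rw [map_add, smul_add]; exact Submodule.add_mem _ hx hy
    | smul c x _ hx =>
      rw [map_smul, smul_comm]
      exact Submodule.smul_mem _ _ hx
  let ρR := ranRep (ρB := rsZ ρV) (ρA := ρB) (ι := ιB) hιB
  have e1 : Φ.val ρB = Φ.val ρR := by
    refine Φ.val_eq_of_tors ρB ρR ιB.rangeRestrict (fun g a => Subtype.ext (hιB g a))
      (fun a ha => hB.ker a (congrArg Subtype.val ha)) ?_
    rintro ⟨_, b, rfl⟩
    exact ⟨1, one_ne_zero, b, by rw [one_smul]; rfl⟩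
  have e2 : Φ.val ρA = Φ.val ρR := by
    refine Φ.val_eq_of_tors ρA ρR ((n • ιA).codRestrict (LinearMap.range ιB) hn2)
      (fun g a => Subtype.ext ?_) (fun a ha => ?_) ?_
    · change n • ιA (ρA g a) = ρV g (n • ιA a)
      rw [hιA, map_zsmul]
    · have h1 : n • ιA a = 0 := congrArg Subtype.val ha
      exact hA.ker a (zsmul_eq_zero' hn h1)
    · rintro ⟨_, b, rfl⟩
      obtain ⟨m, hm, a, ha⟩ := hA.surj (ιB b)
      refine ⟨n * m, mul_ne_zero hn hm, a, Subtype.ext ?_⟩
      change n • ιA a = (n * m) • ιB b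
      rw [ha, mul_smul]
  rw [e1, e2]

end Fun

section Char

variable {G : Type*} [Group G] {A : Type*} [AddCommGroup A] {V : Type*} [AddCommGroup V]
  [Module ℚ V]

/-- the rational representation attached to a `ℤ[G]`-module -/
noncomputable def ratRep (ρ : Representation ℤ G A) :
    Representation ℚ G (TensorProduct ℤ ℚ A) where
  toFun g := (ρ g).baseChange ℚ
  map_one' := by ext; simp
  map_mul' g h := by ext; simp

lemma ratRep_mk (ρ : Representation ℤ G A) (g : G) (a : A) :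
    TensorProduct.mk ℤ ℚ A 1 (ρ g a) = ratRep ρ g (TensorProduct.mk ℤ ℚ A 1 a) := rfl

theorem IsRat.trace_eq [Module.Finite ℤ A] [Module.Free ℤ A] {ι : A →ₗ[ℤ] V} (h : IsRat ι)
    {f : A →ₗ[ℤ] A} {F : V →ₗ[ℚ] V} (hf : ∀ a, ι (f a) = F (ι a)) :
    LinearMap.trace ℚ V F = ((LinearMap.trace ℤ A f : ℤ) : ℚ) := by
  classical
  have := h.isLocalizedModule
  let b := Module.Free.chooseBasis ℤ A
  let b' := b.ofIsLocalizedModule ℚ ℤ⁰ ι
  rw [LinearMap.trace_eq_matrix_trace ℚ b', LinearMap.trace_eq_matrix_trace ℤ b, Matrix.trace,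
    Matrix.trace, Int.cast_sum]
  refine Finset.sum_congr rfl fun i _ => ?_
  rw [Matrix.diag_apply, Matrix.diag_apply, LinearMap.toMatrix_apply, LinearMap.toMatrix_apply,
    Module.Basis.ofIsLocalizedModule_apply, ← hf, Module.Basis.ofIsLocalizedModule_repr_apply]
  rfl

theorem IsRat.trace_pow_eq [Finite G] [Module.Finite ℤ A] {ρA : Representation ℤ G A}
    {ρV : Representation ℚ G V} {ι : A →ₗ[ℤ] V} (h : IsRat ι)
    (hι : ∀ g a, ι (ρA g a) = ρV g (ι a)) (g : G) {j : ℕ} (hj : j.Coprime (orderOf g)) :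
    LinearMap.trace ℚ V (ρV (g ^ j)) = LinearMap.trace ℚ V (ρV g) := by
  classical
  -- pass to the image, which is free
  let Λ := LinearMap.range ι
  have hfree : Module.Free ℤ Λ := by
    have : IsAddTorsionFree V := IsAddTorsionFree.of_module_rat V
    have : IsAddTorsionFree Λ :=
      Function.Injective.isAddTorsionFree Λ.subtype.toAddMonoidHom Subtype.val_injective
    infer_instance
  have hΛ : IsRat Λ.subtype := by
    refine ⟨fun a ha => ⟨1, one_ne_zero, by rw [one_smul]; exact Subtype.ext ha⟩, fun v => ?_⟩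
    obtain ⟨n, hn, a, ha⟩ := h.surj v
    exact ⟨n, hn, ⟨ι a, a, rfl⟩, ha⟩
  let ρΛ := ranRep (ρB := rsZ ρV) (ρA := ρA) (ι := ι) hι
  have key : ∀ x : G, LinearMap.trace ℚ V (ρV x) = ((LinearMap.trace ℤ Λ (ρΛ x) : ℤ) : ℚ) :=
    fun x => hΛ.trace_eq fun a => rfl
  rw [key, key]
  congr 1
  let b := Module.Free.chooseBasis ℤ Λ
  rw [LinearMap.trace_eq_matrix_trace ℤ b, LinearMap.trace_eq_matrix_trace ℤ b, map_pow,
    ← LinearMap.toMatrix_pow]
  refine trace_pow_coprime _ (orderOf_pos g).ne' ?_ hj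
  rw [LinearMap.toMatrix_pow, ← map_pow, pow_orderOf_eq_one, map_one, LinearMap.toMatrix_one]

theorem IsRat.sum_trace [Finite G] [Module.Finite ℤ A] {ρA : Representation ℤ G A}
    {ρV : Representation ℚ G V} {ι : A →ₗ[ℤ] V} (h : IsRat ι)
    (hι : ∀ g a, ι (ρA g a) = ρV g (ι a)) (D : Subgroup G) [Fintype D] :
    ∑ g : D, LinearMap.trace ℚ V (ρV g) = (Nat.card D : ℚ) * finrank ℤ (fixOn ρA D) := by
  have := h.finiteDimensional
  have hD : (Nat.card D : ℚ) ≠ 0 := by exact_mod_cast Nat.card_pos.ne'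
  have := invertibleOfNonzero hD
  let σ : Representation ℚ D V := ρV.comp D.subtype
  have h1 := Representation.card_inv_mul_sum_char_eq_finrank σ
  have h2 : finrank ℚ σ.invariants = finrank ℤ (fixOn ρA D) := by
    let ι' : fixOn ρA D →ₗ[ℤ] σ.invariants := 
      { toFun := fun a => ⟨ι a, fun g => by
          change ρV g (ι a) = ι a
          rw [← hι, a.2 g g.2]⟩
        map_add' := fun a b => Subtype.ext (map_add ι _ _)
        map_smul' := fun c a => Subtype.ext (map_zsmul ι _ _) }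
    refine IsRat.finrank_eq (ι := ι') ⟨fun a ha => ?_, fun v => ?_⟩
    · obtain ⟨n, hn, hh⟩ := h.ker a (congrArg Subtype.val ha)
      exact ⟨n, hn, Subtype.ext hh⟩
    · obtain ⟨n, hn, a, ha⟩ := h.surj v.1
      refine ⟨Nat.card D * n, mul_ne_zero (by exact_mod_cast Nat.card_pos.ne') hn,
        ⟨∑ g : D, ρA g a, fun x hx => ?_⟩, Subtype.ext ?_⟩
      · rw [map_sum]
        conv_rhs => rw [← Equiv.sum_comp (Equiv.mulLeft (⟨x, hx⟩ : D))]
        refine Finset.sum_congr rfl fun y _ => ?_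
        rw [← Module.End.mul_apply, ← map_mul]
        rfl
      · change ι (∑ g : D, ρA g a) = _
        rw [map_sum]
        have h3 : ∀ g : D, ι (ρA g a) = n • (v : V) := fun g => by
          rw [hι, ha, map_zsmul]
          congr 1
          exact v.2 g
        rw [Finset.sum_congr rfl fun g _ => h3 g, Finset.sum_const, Finset.card_univ,
          ← Nat.card_eq_fintype_card, ← natCast_zsmul, smul_smul]
        rfl
  rw [← h2, ← h1, ← mul_assoc, mul_inv_cancel₀ hD, one_mul]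
  rfl

end Char

section Main

variable {G : Type} [Group G] [Finite G] (Φ : LatFun G)
variable {A B : Type} [AddCommGroup A] [AddCommGroup B] [Module.Finite ℤ A] [Module.Finite ℤ B]

theorem LatFun.val_eq_of_trace_eq {ρA : Representation ℤ G A} {ρB : Representation ℤ G B}
    (h : ∀ g, LinearMap.trace ℚ _ (ratRep ρA g) = LinearMap.trace ℚ _ (ratRep ρB g)) :
    Φ.val ρA = Φ.val ρB := by
  have h1 := (isRat_mk A).finiteDimensional
  have h2 := (isRat_mk B).finiteDimensional
  obtain ⟨e, he⟩ := req_of_trace_eq (ratRep ρA) (ratRep ρB) h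
  exact Φ.val_eq_of_isRat ρA ρB (ratRep ρB) ((isRat_mk A).comp_equiv e)
    (fun g a => he g (TensorProduct.mk ℤ ℚ A 1 a)) (isRat_mk B) (fun g a => rfl)

/-- **Invariants of lattices only depend on the ranks of fixed submodules.** -/
theorem LatFun.val_eq_of_rank_eq {ρA : Representation ℤ G A} {ρB : Representation ℤ G B}
    (h : ∀ D : Subgroup G, finrank ℤ (fixOn ρA D) = finrank ℤ (fixOn ρB D)) :
    Φ.val ρA = Φ.val ρB := by
  classical
  refine Φ.val_eq_of_trace_eq fun g => ?_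
  obtain ⟨m, hm⟩ : ∃ m, orderOf g = m := ⟨_, rfl⟩
  induction m using Nat.strong_induction_on generalizing g with
  | _ m ih =>
  let d : G → ℚ := fun x => LinearMap.trace ℚ _ (ratRep ρA x) - LinearMap.trace ℚ _ (ratRep ρB x)
  have : Fintype (Subgroup.zpowers g) := Fintype.ofFinite _
  have h1 : ∑ x : Subgroup.zpowers g, d x = 0 := by
    simp only [d]
    rw [Finset.sum_sub_distrib, (isRat_mk A).sum_trace (ratRep_mk ρA),
      (isRat_mk B).sum_trace (ratRep_mk ρB), h, sub_self]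
  have h2 : ∀ x : Subgroup.zpowers g, d x = if orderOf (x : G) = m then d g else 0 := by
    intro x
    obtain ⟨j, hj⟩ := mem_zpowers_iff_mem_range_orderOf.1 x.2 |> Finset.mem_image.1
    split_ifs with hx
    · have hco : j.Coprime (orderOf g) := by
        rw [← hj.2, orderOf_pow, hm] at hx
        rw [hm, Nat.coprime_comm]
        have hm0 : 0 < m := hm ▸ orderOf_pos g
        have h3 : m.gcd j ∣ m := Nat.gcd_dvd_left _ _
        have h4 : m = m / m.gcd j * m.gcd j := (Nat.div_mul_cancel h3).symm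
        rw [hx] at h4
        exact Nat.eq_of_mul_eq_mul_left hm0 (by rw [mul_one]; exact h4.symm)
      simp only [d]
      rw [← hj.2, (isRat_mk A).trace_pow_eq (ratRep_mk ρA) g hco,
        (isRat_mk B).trace_pow_eq (ratRep_mk ρB) g hco]
    · refine sub_eq_zero.2 (ih (orderOf (x : G)) (lt_of_le_of_ne ?_ hx) x rfl)
      rw [← hm]
      exact orderOf_le_of_pow_eq_one (orderOf_pos g) (by
        rw [← hj.2, ← pow_mul, mul_comm, pow_mul, pow_orderOf_eq_one, one_pow])
  rw [Finset.sum_congr rfl fun x _ => h2 x, ← Finset.sum_filter, Finset.sum_const] at h1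
  have h3 : (Finset.univ.filter fun x : Subgroup.zpowers g => orderOf (x : G) = m).card ≠ 0 := by
    rw [Finset.card_ne_zero]
    exact ⟨⟨g, Subgroup.mem_zpowers g⟩, Finset.mem_filter.2 ⟨Finset.mem_univ _, hm⟩⟩
  have h4 : d g = 0 := by
    rw [← Nat.cast_smul_eq_nsmul ℚ] at h1
    exact (smul_eq_zero.1 h1).resolve_left (by exact_mod_cast h3)
  exact sub_eq_zero.1 h4

end Main

end Fermat.Agent.CFT
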