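import Mathlib
import Fermat.Agent.CFT.LatFun

/-!
# From additive invariants of `𝔽_p[G]`-modules to additive invariants of lattices

`φ̂(A) = φ(A/p) - φ(A[p])` (Brauer-Nesbitt)
-/

set_option autoImplicit false

open Module

namespace Fermat.Agent.CFT

/-- the `p`-torsion -/
def TorN (p : ℕ) (A : Type*) [AddCommGroup A] : AddSubgroup A where
  carrier := {x | p • x = 0}
  add_mem' {a b} ha hb := by
    change p • (a + b) = 0
    rw [smul_add, show p • a = 0 from ha, show p • b = 0 from hb, add_zero]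
  zero_mem' := smul_zero _
  neg_mem' {a} ha := by
    change p • (-a) = 0
    rw [smul_neg, show p • a = 0 from ha, neg_zero]

lemma mem_TorN {p : ℕ} {A : Type*} [AddCommGroup A] {x : A} : x ∈ TorN p A ↔ p • x = 0 := Iff.rfl

noncomputable instance (p : ℕ) (A : Type*) [AddCommGroup A] : Module (ZMod p) (TorN p A) :=
  AddCommGroup.zmodModule fun x => Subtype.ext x.2

section Maps

variable {p : ℕ} {A B C : Type*} [AddCommGroup A] [AddCommGroup B] [AddCommGroup C]

/-- functoriality of the `p`-torsion -/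
noncomputable def torMap (p : ℕ) (f : A →+ B) : TorN p A →ₗ[ZMod p] TorN p B :=
  AddMonoidHom.toZModLinearMap p
    { toFun := fun x => ⟨f x, by rw [mem_TorN, ← map_nsmul, x.2, map_zero]⟩
      map_zero' := Subtype.ext (map_zero f)
      map_add' := fun _ _ => Subtype.ext (map_add f _ _) }

@[simp] lemma coe_torMap (f : A →+ B) (x : TorN p A) : (torMap p f x : B) = f x := rfl

variable {G : Type*} [Group G]

/-- the action on the `p`-torsion -/
noncomputable def torRep (p : ℕ) (ρ : Representation ℤ G A) :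
    Representation (ZMod p) G (TorN p A) where
  toFun g := torMap p (ρ g : A →ₗ[ℤ] A).toAddMonoidHom
  map_one' := LinearMap.ext fun x => Subtype.ext (by
    rw [coe_torMap, map_one]; rfl)
  map_mul' g h := LinearMap.ext fun x => Subtype.ext (by
    rw [coe_torMap, map_mul]; rfl)

@[simp] lemma coe_torRep (ρ : Representation ℤ G A) (g : G) (x : TorN p A) :
    (torRep p ρ g x : A) = ρ g x := rfl

lemma finite_modN (p : ℕ) (A : Type*) [AddCommGroup A] [Module.Finite ℤ A] :
    Module.Finite (ZMod p) (ModN A p) := by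
  obtain ⟨s, hs⟩ := Module.Finite.fg_top (R := ℤ) (M := A)
  classical
  refine ⟨⟨s.image (ModN.mkQ p), ?_⟩⟩
  rw [eq_top_iff]
  rintro v -
  obtain ⟨a, rfl⟩ := modN_surjective v
  have h2 : a ∈ Submodule.span ℤ (s : Set A) := by rw [hs]; trivial
  induction h2 using Submodule.span_induction with
  | mem x hx => exact Submodule.subset_span (by simpa using ⟨x, hx, rfl⟩)
  | zero => rw [map_zero]; exact Submodule.zero_mem _
  | add x y _ _ hx hy => rw [map_add]; exact Submodule.add_mem _ hx hy
  | smul c x _ hx =>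
    rw [map_zsmul, ← Int.cast_smul_eq_zsmul (ZMod p)]
    exact Submodule.smul_mem _ _ hx

lemma finite_torN (p : ℕ) (A : Type*) [AddCommGroup A] [Module.Finite ℤ A] :
    Module.Finite (ZMod p) (TorN p A) := by
  have h0 : (AddSubgroup.toIntSubmodule (TorN p A)).FG := IsNoetherian.noetherian _
  obtain ⟨s, hs⟩ := h0
  classical
  have hsub : ∀ x ∈ s, x ∈ TorN p A := fun x hx => by
    have : x ∈ AddSubgroup.toIntSubmodule (TorN p A) := hs ▸ Submodule.subset_span hx
    exact this
  refine ⟨⟨s.attach.image fun x => (⟨x.1, hsub x.1 x.2⟩ : TorN p A), ?_⟩⟩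
  rw [eq_top_iff]
  rintro ⟨v, hv⟩ -
  have h2 : v ∈ Submodule.span ℤ (s : Set A) := by rw [hs]; exact hv
  induction h2 using Submodule.span_induction with
  | mem x hx => 
    refine Submodule.subset_span ?_
    simp only [Finset.coe_image, Set.mem_image, Finset.mem_coe]
    exact ⟨⟨x, hx⟩, Finset.mem_attach _ _, rfl⟩
  | zero => exact Submodule.zero_mem _
  | add x y hx hy h1 h2 =>
    have hx' : x ∈ TorN p A := by rw [hs] at hx; exact hx
    have hy' : y ∈ TorN p A := by rw [hs] at hy; exact hy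
    exact Submodule.add_mem _ (h1 hx') (h2 hy')
  | smul c x hx h1 =>
    have hx' : x ∈ TorN p A := by rw [hs] at hx; exact hx
    have h3 := Submodule.smul_mem _ (c : ZMod p) (h1 hx')
    rw [Int.cast_smul_eq_zsmul] at h3
    exact h3

section Snake

variable {f : A →+ B} {g : B →+ C} (hf : Function.Injective f) (hg : Function.Surjective g)
  (hex : ∀ b, g b = 0 ↔ ∃ a, f a = b)

include hg hex in
lemma snake_exists (c : TorN p C) : ∃ b : B, g b = c ∧ ∃ a : A, f a = p • b := by
  obtain ⟨b, hb⟩ := hg c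
  exact ⟨b, hb, (hex _).1 (by rw [map_nsmul, hb]; exact c.2)⟩

/-- the connecting map -/
noncomputable def snakeFun (c : TorN p C) : ModN A p :=
  ModN.mkQ p (snake_exists hg hex c).choose_spec.2.choose

include hf in
lemma snakeFun_eq (c : TorN p C) {b : B} {a : A} (hb : g b = c) (ha : f a = p • b) :
    snakeFun hg hex c = ModN.mkQ p a := by
  have h1 := (snake_exists hg hex c).choose_spec.1
  have h2 := (snake_exists hg hex c).choose_spec.2.choose_spec
  obtain ⟨d, hd⟩ := (hex (b - (snake_exists hg hex c).choose)).1 (by rw [map_sub, hb, h1, sub_self])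
  rw [snakeFun, ← sub_eq_zero, ← map_sub, modN_eq_zero_iff]
  refine ⟨-d, hf ?_⟩
  rw [map_nsmul, map_neg, hd, map_sub, h2, ha]
  simp only [smul_sub, smul_neg]
  abel

/-- the connecting map -/
noncomputable def snake : TorN p C →ₗ[ZMod p] ModN A p :=
  AddMonoidHom.toZModLinearMap p
    { toFun := snakeFun hg hex
      map_zero' := by
        rw [snakeFun_eq hf hg hex 0 (b := 0) (a := 0) (by rw [map_zero]; rfl) (by simp), map_zero]
      map_add' := fun x y => by
        obtain ⟨b, hb, a, ha⟩ := snake_exists hg hex x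
        obtain ⟨b', hb', a', ha'⟩ := snake_exists hg hex y
        rw [snakeFun_eq hf hg hex _ hb ha, snakeFun_eq hf hg hex _ hb' ha', ← map_add]
        exact snakeFun_eq hf hg hex (x + y) (b := b + b') (by rw [map_add, hb, hb']; rfl)
          (by rw [map_add, ha, ha', smul_add]) }

lemma snake_eq (c : TorN p C) {b : B} {a : A} (hb : g b = c) (ha : f a = p • b) :
    snake hf hg hex c = ModN.mkQ p a := snakeFun_eq hf hg hex c hb ha

include hf in
lemma torMap_injective : Function.Injective (torMap p f) := fun x y h => Subtype.ext (hf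
  (congrArg Subtype.val h))

include hf hex in
lemma ker_torMap : LinearMap.ker (torMap p g) = LinearMap.range (torMap p f) := by
  ext b
  rw [LinearMap.mem_ker]
  constructor
  · intro h
    obtain ⟨a, ha⟩ := (hex b).1 (congrArg Subtype.val h)
    refine ⟨⟨a, hf ?_⟩, Subtype.ext ha⟩
    rw [map_nsmul, ha, map_zero]
    exact b.2
  · rintro ⟨a, rfl⟩
    exact Subtype.ext ((hex _).2 ⟨a, rfl⟩)

lemma ker_snake : LinearMap.ker (snake hf hg hex) = LinearMap.range (torMap p g) := by
  ext c
  rw [LinearMap.mem_ker]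
  obtain ⟨b, hb, a, ha⟩ := snake_exists hg hex c
  rw [snake_eq hf hg hex c hb ha, modN_eq_zero_iff]
  constructor
  · rintro ⟨y, hy⟩
    refine ⟨⟨b - f y, ?_⟩, Subtype.ext ?_⟩
    · rw [mem_TorN, smul_sub, ← ha, ← map_nsmul, hy, sub_self]
    · rw [coe_torMap]
      change g (b - f y) = c
      rw [map_sub, hb, (hex _).2 ⟨y, rfl⟩, sub_zero]
  · rintro ⟨b', rfl⟩
    obtain ⟨d, hd⟩ := (hex (b - b')).1 (by rw [map_sub, hb, coe_torMap, sub_self])
    refine ⟨d, hf ?_⟩
    rw [map_nsmul, hd, ha, smul_sub, b'.2, sub_zero]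

lemma ker_modNMap_f : LinearMap.ker (modNMap p f) = LinearMap.range (snake hf hg hex) := by
  ext x
  obtain ⟨a, rfl⟩ := modN_surjective x
  rw [LinearMap.mem_ker, modNMap_mkQ, modN_eq_zero_iff]
  constructor
  · rintro ⟨b, hb⟩
    refine ⟨⟨g b, ?_⟩, snake_eq hf hg hex _ (b := b) rfl hb.symm⟩
    rw [mem_TorN, ← map_nsmul, hb]
    exact (hex _).2 ⟨a, rfl⟩
  · rintro ⟨c, hc⟩
    obtain ⟨b, hb, a', ha'⟩ := snake_exists hg hex c
    rw [snake_eq hf hg hex c hb ha', ← sub_eq_zero, ← map_sub, modN_eq_zero_iff] at hc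
    obtain ⟨y, hy⟩ := hc
    refine ⟨b - f y, ?_⟩
    rw [smul_sub, ← ha', ← map_nsmul, hy, map_sub]
    abel

include hg hex in
lemma ker_modNMap_g : LinearMap.ker (modNMap p g) = LinearMap.range (modNMap p f) := by
  ext x
  obtain ⟨b, rfl⟩ := modN_surjective x
  rw [LinearMap.mem_ker, modNMap_mkQ, modN_eq_zero_iff]
  constructor
  · rintro ⟨c, hc⟩
    obtain ⟨b', rfl⟩ := hg c
    obtain ⟨a, ha⟩ := (hex (b - p • b')).1 (by rw [map_sub, map_nsmul, hc, sub_self])
    refine ⟨ModN.mkQ p a, ?_⟩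
    rw [modNMap_mkQ, ha, map_sub, sub_eq_self, modN_eq_zero_iff]
    exact ⟨b', rfl⟩
  · rintro ⟨y, hy⟩
    obtain ⟨a, rfl⟩ := modN_surjective y
    rw [modNMap_mkQ, ← sub_eq_zero, ← map_sub, modN_eq_zero_iff] at hy
    obtain ⟨b', hb'⟩ := hy
    refine ⟨-g b', ?_⟩
    rw [smul_neg, ← map_nsmul, hb', map_sub, (hex _).2 ⟨a, rfl⟩]
    abel

include hg in
lemma modNMap_surjective : Function.Surjective (modNMap p g) := by
  intro x
  obtain ⟨c, rfl⟩ := modN_surjective x
  obtain ⟨b, rfl⟩ := hg c
  exact ⟨ModN.mkQ p b, rfl⟩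

end Snake

end Maps

/-- An additive invariant of finite dimensional `𝔽_p[G]`-modules. -/
structure ModFun (p : ℕ) [Fact p.Prime] (G : Type) [Group G] where
  /-- the value of the invariant -/
  val : ∀ {V : Type} [AddCommGroup V] [Module (ZMod p) V], Representation (ZMod p) G V → ℚ
  add : ∀ {A B C : Type} [AddCommGroup A] [Module (ZMod p) A] [AddCommGroup B]
    [Module (ZMod p) B] [AddCommGroup C] [Module (ZMod p) C] {ρA : Representation (ZMod p) G A}
    {ρB : Representation (ZMod p) G B} {ρC : Representation (ZMod p) G C} (_ : SES ρA ρB ρC),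
    FiniteDimensional (ZMod p) B → val ρB = val ρA + val ρC

namespace ModFun

variable {p : ℕ} [Fact p.Prime] {G : Type} [Group G] (φ : ModFun p G)
variable {A B C : Type} [AddCommGroup A] [Module (ZMod p) A] [AddCommGroup B]
    [Module (ZMod p) B] [AddCommGroup C] [Module (ZMod p) C] {ρA : Representation (ZMod p) G A}
    {ρB : Representation (ZMod p) G B} {ρC : Representation (ZMod p) G C}

lemma val_of_subsingleton [Subsingleton A] (ρA : Representation (ZMod p) G A) :
    φ.val ρA = 0 := by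
  have E : SES ρA ρA ρA :=
    { ι := 0, π := 0, σ := 0, τ := 0
      hι := fun _ _ => Subsingleton.elim _ _
      hπ := fun _ _ => Subsingleton.elim _ _
      τι := fun _ => Subsingleton.elim _ _
      πσ := fun _ => Subsingleton.elim _ _
      decomp := fun _ => Subsingleton.elim _ _ }
  have := φ.add E inferInstance
  linarith

lemma val_congr [FiniteDimensional (ZMod p) A] (h : REq ρA ρB) : φ.val ρA = φ.val ρB := by
  obtain ⟨e, he⟩ := h
  let ρ0 : Representation (ZMod p) G PUnit := Representation.trivial (ZMod p) G PUnit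
  have : FiniteDimensional (ZMod p) B := Module.Finite.equiv e
  have E : SES ρA ρB ρ0 :=
    { ι := e.toLinearMap, π := 0, σ := 0, τ := e.symm.toLinearMap
      hι := he
      hπ := fun _ _ => Subsingleton.elim _ _
      τι := fun a => e.symm_apply_apply a
      πσ := fun _ => Subsingleton.elim _ _
      decomp := fun b => by
        change e (e.symm b) + 0 = b
        rw [e.apply_symm_apply, add_zero] }
  rw [φ.add E inferInstance, φ.val_of_subsingleton ρ0, add_zero]

lemma val_ker_ran [FiniteDimensional (ZMod p) B] {π : B →ₗ[ZMod p] C}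
    (hπ : ∀ g b, π (ρB g b) = ρC g (π b)) :
    φ.val ρB = φ.val (kerRep hπ) + φ.val (ranRep hπ) := φ.add (SES.kerRan hπ) inferInstance

lemma val_ker_eq_ran [FiniteDimensional (ZMod p) B] {π : B →ₗ[ZMod p] C}
    (hπ : ∀ g b, π (ρB g b) = ρC g (π b)) {ι : A →ₗ[ZMod p] B}
    (hι : ∀ g a, ι (ρA g a) = ρB g (ι a)) (h : LinearMap.ker π = LinearMap.range ι) :
    φ.val (kerRep hπ) = φ.val (ranRep hι) :=
  φ.val_congr ⟨LinearEquiv.ofEq _ _ h, fun _ _ => rfl⟩

lemma val_ran_of_injective [FiniteDimensional (ZMod p) A] {ι : A →ₗ[ZMod p] B}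
    (hι : ∀ g a, ι (ρA g a) = ρB g (ι a)) (h : Function.Injective ι) :
    φ.val (ranRep hι) = φ.val ρA :=
  (φ.val_congr (ρA := ρA) (ρB := ranRep hι)
    ⟨LinearEquiv.ofInjective ι h, fun g a => Subtype.ext (hι g a)⟩).symm

lemma val_ran_of_surjective [FiniteDimensional (ZMod p) B] {ι : A →ₗ[ZMod p] B}
    (hι : ∀ g a, ι (ρA g a) = ρB g (ι a)) (h : Function.Surjective ι) :
    φ.val (ranRep hι) = φ.val ρB :=
  φ.val_congr ⟨LinearEquiv.ofTop _ (LinearMap.range_eq_top.2 h), fun _ _ => rfl⟩

/-- The lattice invariant attached to a modular invariant. -/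
noncomputable def hatVal {A : Type} [AddCommGroup A] (ρ : Representation ℤ G A) : ℚ :=
  φ.val (modNRep p ρ) - φ.val (torRep p ρ)

lemma hatVal_add {A B C : Type} [AddCommGroup A] [AddCommGroup B] [AddCommGroup C]
    (ρA : Representation ℤ G A) (ρB : Representation ℤ G B) (ρC : Representation ℤ G C)
    (f : A →ₗ[ℤ] B) (g : B →ₗ[ℤ] C) (hf : ∀ x a, f (ρA x a) = ρB x (f a))
    (hg : ∀ x b, g (ρB x b) = ρC x (g b)) (hfi : Function.Injective f)
    (hgs : Function.Surjective g)
    (hex : ∀ b, g b = 0 ↔ ∃ a, f a = b) (hB : Module.Finite ℤ B) :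
    φ.hatVal ρB = φ.hatVal ρA + φ.hatVal ρC := by
  have hA : Module.Finite ℤ A := Module.Finite.of_injective f hfi
  have hC : Module.Finite ℤ C := Module.Finite.of_surjective g hgs
  have a1 := finite_torN p A
  have a2 := finite_torN p B
  have a3 := finite_torN p C
  have a4 := finite_modN p A
  have a5 := finite_modN p B
  have a6 := finite_modN p C
  have e1 : ∀ x a, torMap p f.toAddMonoidHom (torRep p ρA x a) =
    torRep p ρB x (torMap p f.toAddMonoidHom a) := fun x a => Subtype.ext (hf x a)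
  have e2 : ∀ x a, torMap p g.toAddMonoidHom (torRep p ρB x a) =
    torRep p ρC x (torMap p g.toAddMonoidHom a) := fun x a => Subtype.ext (hg x a)
  have e3 : ∀ x a, snake (p := p) (f := f.toAddMonoidHom) (g := g.toAddMonoidHom) hfi hgs hex
    (torRep p ρC x a) = modNRep p ρA x (snake hfi hgs hex a) := fun x c => by
    obtain ⟨b, hb, a, ha⟩ := snake_exists (f := f.toAddMonoidHom) (g := g.toAddMonoidHom)
      hgs hex c
    rw [snake_eq hfi hgs hex c hb ha, modNRep_mkQ]
    refine snake_eq hfi hgs hex _ (b := ρB x b) ?_ ?_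
    · change g (ρB x b) = ρC x c
      rw [hg]
      exact congrArg _ hb
    · change f (ρA x a) = p • ρB x b
      rw [hf, ← map_nsmul]
      exact congrArg _ ha
  have e4 : ∀ x a, modNMap p f.toAddMonoidHom (modNRep p ρA x a) =
    modNRep p ρB x (modNMap p f.toAddMonoidHom a) := fun x a => by
    obtain ⟨a, rfl⟩ := modN_surjective a
    exact congrArg _ (hf x a)
  have e5 : ∀ x a, modNMap p g.toAddMonoidHom (modNRep p ρB x a) =
    modNRep p ρC x (modNMap p g.toAddMonoidHom a) := fun x a => by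
    obtain ⟨a, rfl⟩ := modN_surjective a
    exact congrArg _ (hg x a)
  have f1 := φ.val_ran_of_injective e1 (torMap_injective (p := p) (f := f.toAddMonoidHom) hfi)
  have f2 := φ.val_ker_ran e2
  have f3 := φ.val_ker_ran e3
  have f4 := φ.val_ker_ran e4
  have f5 := φ.val_ker_ran e5
  have f6 := φ.val_ran_of_surjective e5
    (modNMap_surjective (p := p) (g := g.toAddMonoidHom) hgs)
  have g2 := φ.val_ker_eq_ran e2 e1 (ker_torMap hfi hex)
  have g3 := φ.val_ker_eq_ran e3 e2 (ker_snake hfi hgs hex)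
  have g4 := φ.val_ker_eq_ran e4 e3 (ker_modNMap_f hfi hgs hex)
  have g5 := φ.val_ker_eq_ran e5 e4 (ker_modNMap_g hgs hex)
  simp only [hatVal]
  linarith

/-- modules killed by `p` -/
lemma hatVal_of_killed {A : Type} [AddCommGroup A] [Module.Finite ℤ A]
    (ρ : Representation ℤ G A) (h : ∀ x : A, p • x = 0) : φ.hatVal ρ = 0 := by
  have a1 := finite_torN p A
  have h1 : REq (torRep p ρ) (modNRep p ρ) := by
    let e : TorN p A →ₗ[ZMod p] ModN A p := AddMonoidHom.toZModLinearMap p
      ((ModN.mkQ p).comp (TorN p A).subtype)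
    have he : ∀ x, e x = ModN.mkQ p (x : A) := fun _ => rfl
    refine ⟨LinearEquiv.ofBijective e ⟨?_, ?_⟩, fun g a => ?_⟩
    · rw [injective_iff_map_eq_zero]
      intro x hx
      rw [he, modN_eq_zero_iff] at hx
      obtain ⟨y, hy⟩ := hx
      rw [h] at hy
      exact Subtype.ext hy.symm
    · intro x
      obtain ⟨x, rfl⟩ := modN_surjective x
      exact ⟨⟨x, h x⟩, rfl⟩
    · rfl
  rw [hatVal, φ.val_congr h1, sub_self]

lemma hatVal_of_finite {A : Type} [AddCommGroup A] (ρ : Representation ℤ G A) (hA : Finite A) :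
    φ.hatVal ρ = 0 := by
  obtain ⟨n, hn⟩ : ∃ n, Nat.card A = n := ⟨_, rfl⟩
  induction n using Nat.strong_induction_on generalizing A with
  | _ n ih =>
  let m : A →ₗ[ℤ] A := (p : ℤ) • LinearMap.id
  have hm : ∀ g a, m (ρ g a) = ρ g (m a) := fun g a => by
    change (p : ℤ) • ρ g a = ρ g ((p : ℤ) • a)
    rw [map_zsmul]
  have hma : ∀ a, m a = p • a := fun a => natCast_zsmul a p
  by_cases hsurj : Function.Surjective m
  · have hinj : Function.Injective m := Finite.injective_iff_surjective.2 hsurj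
    have h1 : Subsingleton (ModN A p) := ⟨fun x y => by
      obtain ⟨x, rfl⟩ := modN_surjective x
      obtain ⟨y, rfl⟩ := modN_surjective y
      rw [← sub_eq_zero, ← map_sub, modN_eq_zero_iff]
      obtain ⟨z, hz⟩ := hsurj (x - y)
      exact ⟨z, by rw [← hma, hz]⟩⟩
    have h2 : Subsingleton (TorN p A) := ⟨fun x y => Subtype.ext (hinj (by
      rw [hma, hma, x.2, y.2]))⟩
    rw [hatVal, φ.val_of_subsingleton, φ.val_of_subsingleton, sub_zero]
  have hst : ∀ g, ∀ w ∈ LinearMap.range m, ρ g w ∈ LinearMap.range m := by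
    rintro g _ ⟨a, rfl⟩
    exact ⟨ρ g a, hm g a⟩
  have e2 := φ.hatVal_add (ranRep hm) ρ (quoRepR ρ (LinearMap.range m) hst)
    (LinearMap.range m).subtype
    (LinearMap.range m).mkQ (fun _ _ => rfl) (fun g b => rfl) Subtype.val_injective
    (Submodule.mkQ_surjective _)
    (fun b => by
      rw [Submodule.mkQ_apply, Submodule.Quotient.mk_eq_zero]
      exact ⟨fun h => ⟨⟨b, h⟩, rfl⟩, fun ⟨a, ha⟩ => ha ▸ a.2⟩) inferInstance
  have e3 : φ.hatVal (ranRep hm) = 0 := by
    refine ih (Nat.card (LinearMap.range m)) ?_ (ranRep hm) inferInstance rfl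
    rw [← hn]
    refine lt_of_le_of_ne (Nat.card_le_card_of_injective _ Subtype.val_injective) fun h => ?_
    apply hsurj
    have hb : Function.Bijective (Subtype.val : LinearMap.range m → A) :=
      (Nat.bijective_iff_injective_and_card _).2 ⟨Subtype.val_injective, h⟩
    intro a
    obtain ⟨⟨_, b, rfl⟩, rfl⟩ := hb.2 a
    exact ⟨b, rfl⟩
  have e4 : φ.hatVal (quoRepR ρ (LinearMap.range m) hst) = 0 := by
    refine φ.hatVal_of_killed _ fun x => ?_
    obtain ⟨x, rfl⟩ := Submodule.mkQ_surjective _ x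
    rw [← map_nsmul, Submodule.mkQ_apply, Submodule.Quotient.mk_eq_zero]
    exact ⟨x, hma x⟩
  rw [e2, e3, e4, add_zero]

/-- The lattice invariant attached to a modular invariant. -/
noncomputable def hat : LatFun G where
  val ρ := φ.hatVal ρ
  add ρA ρB ρC f g hf hg hfi hgs hex hB := φ.hatVal_add ρA ρB ρC f g hf hg hfi hgs hex hB
  fin ρ hA := φ.hatVal_of_finite ρ hA

lemma hat_val {A : Type} [AddCommGroup A] (ρ : Representation ℤ G A) :
    φ.hat.val ρ = φ.val (modNRep p ρ) - φ.val (torRep p ρ) := rfl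

lemma hat_val_of_torsionFree {A : Type} [AddCommGroup A] (ρ : Representation ℤ G A)
    (h : ∀ x : A, p • x = 0 → x = 0) : φ.hat.val ρ = φ.val (modNRep p ρ) := by
  have : Subsingleton (TorN p A) := ⟨fun x y => Subtype.ext (by rw [h x x.2, h y y.2])⟩
  rw [hat_val, φ.val_of_subsingleton (torRep p ρ), sub_zero]

end ModFun

end Fermat.Agent.CFT
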