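import Mathlib
import Fermat.Agent.CFT.ModFun

/-!
# Artin's induction theorem for invariants of lattices
-/

set_option autoImplicit false

open Module nonZeroDivisors

namespace Fermat.Agent.CFT

variable {G : Type} [Group G]

/-- the trace as an additive invariant of lattices -/
noncomputable def traceFun (g : G) : LatFun G where
  val ρ := LinearMap.trace ℚ _ (ratRep ρ g)
  add {A B C} _ _ _ ρA ρB ρC f h hf hh hfi hhs hex hB := by
    have hA : Module.Finite ℤ A := Module.Finite.of_injective f hfi
    have hC : Module.Finite ℤ C := Module.Finite.of_surjective h hhs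
    have d1 := (isRat_mk A).finiteDimensional
    have d2 := (isRat_mk B).finiteDimensional
    have d3 := (isRat_mk C).finiteDimensional
    have hexact : Function.Exact f h := fun b => by
      rw [hex]; exact Iff.rfl
    have h1 : Function.Injective (f.baseChange ℚ) :=
      Module.Flat.lTensor_preserves_injective_linearMap (M := ℚ) f hfi
    have h2 : Function.Surjective (h.baseChange ℚ) := LinearMap.lTensor_surjective ℚ hhs
    have h3 : Function.Exact (f.baseChange ℚ) (h.baseChange ℚ) := lTensor_exact ℚ hexact hhs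
    have E : SES (ratRep ρA) (ratRep ρB) (ratRep ρC) :=
      SES.ofExact _ _ _ (f.baseChange ℚ) (h.baseChange ℚ)
        (fun x a => by
          change (f.baseChange ℚ) ((ρA x).baseChange ℚ a) = (ρB x).baseChange ℚ (f.baseChange ℚ a)
          rw [← LinearMap.comp_apply, ← LinearMap.comp_apply, ← LinearMap.baseChange_comp,
            ← LinearMap.baseChange_comp]
          congr 2
          exact LinearMap.ext (hf x))
        (fun x a => by
          change (h.baseChange ℚ) ((ρB x).baseChange ℚ a) = (ρC x).baseChange ℚ (h.baseChange ℚ a)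
          rw [← LinearMap.comp_apply, ← LinearMap.comp_apply, ← LinearMap.baseChange_comp,
            ← LinearMap.baseChange_comp]
          congr 2
          exact LinearMap.ext (hh x))
        h1 h2 (fun b => (h3 b).trans Iff.rfl)
    exact E.trace_eq g
  fin {A} _ ρ hA := by
    have hs : Subsingleton (TensorProduct ℤ ℚ A) := by
      refine ⟨fun x y => ?_⟩
      have key : ∀ v : TensorProduct ℤ ℚ A, v = 0 := fun v => by
        obtain ⟨n, hn, a, ha⟩ := (isRat_mk A).surj v
        have h1 : (Nat.card A : ℤ) • a = 0 := by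
          rw [natCast_zsmul]
          exact card_nsmul_eq_zero'
        have h2 : (Nat.card A : ℤ) • (n • v) = 0 := by
          rw [← ha]
          exact (map_zsmul (TensorProduct.mk ℤ ℚ A 1) _ _).symm.trans (by rw [h1, map_zero])
        exact zsmul_eq_zero' hn (zsmul_eq_zero' (by exact_mod_cast Nat.card_pos.ne') h2)
      rw [key x, key y]
    have : ratRep ρ g = 0 := LinearMap.ext fun x => Subsingleton.elim _ _
    rw [this, map_zero]

lemma traceFun_val {A : Type} [AddCommGroup A] (g : G) (ρ : Representation ℤ G A) :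
    (traceFun g).val ρ = LinearMap.trace ℚ _ (ratRep ρ g) := rfl

section Pi

variable {ι : Type} {A : ι → Type} [∀ i, AddCommGroup (A i)]

/-- product of representations -/
def piRep (ρ : ∀ i, Representation ℤ G (A i)) : Representation ℤ G (∀ i, A i) where
  toFun g := LinearMap.pi fun i => (ρ i g) ∘ₗ LinearMap.proj i
  map_one' := by ext; simp
  map_mul' g h := by ext; simp

@[simp] lemma piRep_apply (ρ : ∀ i, Representation ℤ G (A i)) (g : G) (f : ∀ i, A i) (i : ι) :
    piRep ρ g f i = ρ i g (f i) := rfl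

/-- functions supported on `s` -/
def suppOn (A : ι → Type) [∀ i, AddCommGroup (A i)] (s : Finset ι) : Submodule ℤ (∀ i, A i) where
  carrier := {f | ∀ i, i ∉ s → f i = 0}
  add_mem' ha hb i hi := by rw [Pi.add_apply, ha i hi, hb i hi, add_zero]
  zero_mem' _ _ := rfl
  smul_mem' c _ ha i hi := by rw [Pi.smul_apply, ha i hi, smul_zero]

/-- the representation on functions supported on `s` -/
def suppRep (ρ : ∀ i, Representation ℤ G (A i)) (s : Finset ι) :
    Representation ℤ G (suppOn A s) where
  toFun g := (piRep ρ g).restrict fun f hf i hi => by rw [piRep_apply, hf i hi, map_zero]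
  map_one' := LinearMap.ext fun f => Subtype.ext (funext fun i => by
    change ρ i 1 (f.1 i) = f.1 i
    rw [map_one]; rfl)
  map_mul' g h := LinearMap.ext fun f => Subtype.ext (funext fun i => by
    change ρ i (g * h) (f.1 i) = ρ i g (ρ i h (f.1 i))
    rw [map_mul]; rfl)

variable (Φ : LatFun G)

theorem LatFun.val_supp [Finite ι] [∀ i, Module.Finite ℤ (A i)]
    (ρ : ∀ i, Representation ℤ G (A i)) (s : Finset ι) :
    Φ.val (suppRep ρ s) = ∑ i ∈ s, Φ.val (ρ i) := by
  classical
  have := Fintype.ofFinite ι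
  induction s using Finset.induction_on with
  | empty =>
    rw [Finset.sum_empty]
    refine Φ.fin _ ?_
    have : Subsingleton (suppOn A (∅ : Finset ι)) := ⟨fun a b => Subtype.ext (funext fun i => by
      rw [a.2 i (Finset.notMem_empty i), b.2 i (Finset.notMem_empty i)])⟩
    infer_instance
  | insert a s ha ih =>
    rw [Finset.sum_insert ha, ← ih, add_comm]
    refine Φ.add (suppRep ρ s) (suppRep ρ (insert a s)) (ρ a)
      (Submodule.inclusion fun f hf i hi => hf i fun h => hi (Finset.mem_insert_of_mem h))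
      ((LinearMap.proj a).comp (suppOn A (insert a s)).subtype) (fun _ _ => rfl) (fun _ _ => rfl)
      (Submodule.inclusion_injective _) ?_ ?_ inferInstance
    · intro x
      refine ⟨⟨Pi.single a x, fun i hi => ?_⟩, ?_⟩
      · rw [Pi.single_eq_of_ne]
        rintro rfl
        exact hi (Finset.mem_insert_self _ _)
      · change (Pi.single a x : ∀ i, A i) a = x
        rw [Pi.single_eq_same]
    · intro f
      constructor
      · intro hf
        refine ⟨⟨f, fun i hi => ?_⟩, rfl⟩
        by_cases hia : i = a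
        · subst hia; exact hf
        · exact f.2 i (by simp [hia, hi])
      · rintro ⟨f, rfl⟩
        exact f.2 a ha

theorem LatFun.val_pi [Fintype ι] [∀ i, Module.Finite ℤ (A i)]
    (ρ : ∀ i, Representation ℤ G (A i)) : Φ.val (piRep ρ) = ∑ i, Φ.val (ρ i) := by
  rw [← Φ.val_supp ρ Finset.univ]
  refine (Φ.val_eq_of_tors _ _ (suppOn A Finset.univ).subtype (fun _ _ => rfl)
    (fun a ha => ⟨1, one_ne_zero, by rw [one_smul]; exact Subtype.ext ha⟩) fun b => ?_).symm
  exact ⟨1, one_ne_zero, ⟨b, fun i hi => absurd (Finset.mem_univ i) hi⟩, by rw [one_smul]; rfl⟩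

/-- linear relations between characters give linear relations between invariants -/
theorem LatFun.sum_eq_zero [Finite G] [Fintype ι] [∀ i, Module.Finite ℤ (A i)]
    (ρ : ∀ i, Representation ℤ G (A i)) (n : ι → ℤ)
    (h : ∀ g, ∑ i, (n i : ℚ) * (traceFun g).val (ρ i) = 0) :
    ∑ i, (n i : ℚ) * Φ.val (ρ i) = 0 := by
  classical
  have key : ∀ (Ψ : LatFun G) (k : ι → ℕ),
      Ψ.val (piRep fun j : Σ i, Fin (k i) => ρ j.1) = ∑ i, (k i : ℚ) * Ψ.val (ρ i) := by
    intro Ψ k
    rw [Ψ.val_pi, Fintype.sum_sigma]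
    refine Finset.sum_congr rfl fun i _ => ?_
    change ∑ _y : Fin (k i), Ψ.val (ρ i) = _
    rw [Finset.sum_const, Finset.card_univ, Fintype.card_fin, nsmul_eq_mul]
  have hn : ∀ i, (n i : ℚ) = ((n i).toNat : ℚ) - ((-n i).toNat : ℚ) := fun i => by
    have := Int.toNat_sub_toNat_neg (n i)
    exact_mod_cast this.symm
  have key2 : ∀ Ψ : LatFun G, ∑ i, (n i : ℚ) * Ψ.val (ρ i) =
      Ψ.val (piRep fun j : Σ i, Fin ((n i).toNat) => ρ j.1) -
      Ψ.val (piRep fun j : Σ i, Fin ((-n i).toNat) => ρ j.1) := by
    intro Ψ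
    rw [key, key, ← Finset.sum_sub_distrib]
    refine Finset.sum_congr rfl fun i _ => ?_
    rw [← sub_mul, ← hn]
  rw [key2, sub_eq_zero]
  refine Φ.val_eq_of_trace_eq fun g => ?_
  have h1 := h g
  rw [key2, sub_eq_zero] at h1
  exact h1

end Pi

section Perm

/-- the permutation lattice -/
abbrev permLat (X : Type) [MulAction G X] : Representation ℤ G (X → ℤ) :=
  mapRep (Representation.trivial ℤ G ℤ) X

theorem traceFun_permLat (X : Type) [MulAction G X] [Finite X] (g : G) :
    (traceFun g).val (permLat (G := G) X) = Nat.card {x : X // g • x = x} := by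
  classical
  have := Fintype.ofFinite X
  rw [traceFun_val, (isRat_mk (X → ℤ)).trace_eq (f := permLat X g) (F := ratRep (permLat X) g)
    (fun a => rfl)]
  have h1 : LinearMap.trace ℤ (X → ℤ) (permLat X g) = (Nat.card {x : X // g • x = x} : ℤ) := by
    rw [LinearMap.trace_eq_matrix_trace ℤ (Pi.basisFun ℤ X), Matrix.trace]
    have h2 : ∀ x : X, (LinearMap.toMatrix (Pi.basisFun ℤ X) (Pi.basisFun ℤ X)
        (permLat X g)).diag x = if g • x = x then 1 else 0 := by
      intro x
      rw [Matrix.diag_apply, LinearMap.toMatrix_apply, Pi.basisFun_apply, Pi.basisFun_repr,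
        mapRep_apply, Representation.trivial_apply, Pi.single_apply]
      congr 1
      rw [inv_smul_eq_iff, eq_comm (a := x)]
    rw [Finset.sum_congr rfl fun x _ => h2 x, Finset.sum_boole, Nat.card_eq_fintype_card,
      Fintype.card_subtype]
  rw [h1, Int.cast_natCast]

lemma card_fixed_quotient [Finite G] (C : Subgroup G) (g : G) :
    Nat.card {q : G ⧸ C // g • q = q} * Nat.card C = Nat.card {x : G // x⁻¹ * g * x ∈ C} := by
  classical
  rw [← Nat.card_prod]
  have e : {x : G // x⁻¹ * g * x ∈ C} ≃ {q : (G ⧸ C) × C // g • q.1 = q.1} := by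
    refine Equiv.subtypeEquiv (Subgroup.groupEquivQuotientProdSubgroup (s := C)) fun x => ?_
    have : (Subgroup.groupEquivQuotientProdSubgroup (s := C) x).1 = (x : G ⧸ C) := rfl
    rw [this, MulAction.Quotient.smul_mk, eq_comm, QuotientGroup.eq, smul_eq_mul, mul_assoc]
  refine Nat.card_congr (Equiv.symm (e.trans ?_))
  exact
    { toFun := fun q => (⟨q.1.1, q.2⟩, q.1.2)
      invFun := fun q => ⟨(q.1.1, q.2), q.1.2⟩
      left_inv := fun _ => rfl
      right_inv := fun _ => rfl }

/-- Möbius-type coefficients on cyclic subgroups -/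
noncomputable def artCoef (G : Type) [Group G] [Finite G] : Subgroup G → ℤ :=
  WellFounded.fix (r := fun a b : Subgroup G => b < a) (by exact wellFounded_gt) fun C ih =>
    1 - ∑ᶠ D : {D : Subgroup G // IsCyclic D ∧ C < D}, ih D.1 D.2.2

lemma artCoef_eq [Finite G] (C : Subgroup G) : artCoef G C =
    1 - ∑ᶠ D : {D : Subgroup G // IsCyclic D ∧ C < D}, artCoef G D.1 := by
  conv_lhs => rw [artCoef, WellFounded.fix_eq]
  rfl

open Classical in
lemma sum_artCoef [Finite G] [Fintype {C : Subgroup G // IsCyclic C}] (g : G) :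
    ∑ C : {C : Subgroup G // IsCyclic C}, (if g ∈ C.1 then artCoef G C.1 else 0) = 1 := by
  have := Fintype.ofFinite (Subgroup G)
  let Z : {C : Subgroup G // IsCyclic C} := ⟨Subgroup.zpowers g, inferInstance⟩
  have h1 := artCoef_eq Z.1
  rw [finsum_eq_sum_of_fintype] at h1
  have h2 : ∀ C : {C : Subgroup G // IsCyclic C}, (if g ∈ C.1 then artCoef G C.1 else 0) =
      (if C = Z then artCoef G C.1 else 0) + (if Z.1 < C.1 then artCoef G C.1 else 0) := by
    intro C
    have e1 : g ∈ C.1 ↔ Z.1 ≤ C.1 := Subgroup.zpowers_le.symm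
    rw [if_congr e1 rfl rfl]
    by_cases h : C = Z
    · subst h
      simp
    · by_cases h3 : Z.1 ≤ C.1
      · have h4 : Z.1 < C.1 := lt_of_le_of_ne h3 fun h5 => h (Subtype.ext h5.symm)
        simp [h, h3, h4]
      · have h4 : ¬ Z.1 < C.1 := fun h5 => h3 h5.le
        simp [h, h3, h4]
  rw [Finset.sum_congr rfl fun C _ => h2 C, Finset.sum_add_distrib, Finset.sum_ite_eq',
    if_pos (Finset.mem_univ _), h1]
  have h3 : ∑ D : {D : Subgroup G // IsCyclic D ∧ Z.1 < D}, artCoef G D.1 =
      ∑ C : {C : Subgroup G // IsCyclic C}, (if Z.1 < C.1 then artCoef G C.1 else 0) := by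
    rw [← Finset.sum_filter]
    refine Finset.sum_bij (fun D _ => ⟨D.1, D.2.1⟩) (fun D _ => ?_) (fun D _ D' _ h => ?_)
      (fun C hC => ?_) (fun D _ => rfl)
    · exact Finset.mem_filter.2 ⟨Finset.mem_univ _, D.2.2⟩
    · have h' := congrArg (fun C : {C : Subgroup G // IsCyclic C} => C.1) h
      exact Subtype.ext h'
    · exact ⟨⟨C.1, C.2, (Finset.mem_filter.1 hC).2⟩, Finset.mem_univ _, rfl⟩
  rw [← h3]
  ring

lemma LatFun.val_permLat_top (Φ : LatFun G) :
    Φ.val (permLat (G := G) (G ⧸ (⊤ : Subgroup G))) = Φ.val (Representation.trivial ℤ G ℤ) := by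
  have hs : Subsingleton (G ⧸ (⊤ : Subgroup G)) := QuotientGroup.subsingleton_quotient_top
  have hfin : Finite (G ⧸ (⊤ : Subgroup G)) := inferInstance
  refine Φ.val_eq_of_tors _ _ (LinearMap.proj ((1 : G) : G ⧸ (⊤ : Subgroup G))) (fun g a => ?_)
    (fun a ha => ⟨1, one_ne_zero, ?_⟩) (fun b => ⟨1, one_ne_zero, fun _ => b, by simp⟩)
  · rw [LinearMap.proj_apply, mapRep_apply, Representation.trivial_apply,
      Representation.trivial_apply, LinearMap.proj_apply]
    exact congrArg a (Subsingleton.elim _ _)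
  · rw [one_smul]
    funext x
    exact (congrArg a (Subsingleton.elim x _)).trans ha

/-- **Artin's induction theorem** -/
theorem LatFun.artin [Finite G] [Fintype {C : Subgroup G // IsCyclic C}] (Φ : LatFun G) :
    (Nat.card G : ℚ) * Φ.val (Representation.trivial ℤ G ℤ) =
      ∑ C : {C : Subgroup G // IsCyclic C}, ((artCoef G C.1 * Nat.card C.1 : ℤ) : ℚ) *
        Φ.val (permLat (G := G) (G ⧸ C.1)) := by
  classical
  have := Fintype.ofFinite G
  let K : Option {C : Subgroup G // IsCyclic C} → Subgroup G := fun i => i.elim ⊤ Subtype.val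
  let n : Option {C : Subgroup G // IsCyclic C} → ℤ := fun i =>
    i.elim (-(Nat.card G : ℤ)) fun C => artCoef G C.1 * Nat.card C.1
  have key := Φ.sum_eq_zero (fun i => permLat (G := G) (G ⧸ K i)) n (fun g => ?_)
  · rw [Fintype.sum_option] at key
    have e1 : ((n none : ℤ) : ℚ) * Φ.val (permLat (G := G) (G ⧸ K none)) =
        -((Nat.card G : ℚ) * Φ.val (Representation.trivial ℤ G ℤ)) := by
      have e2 : Φ.val (permLat (G := G) (G ⧸ K none)) = Φ.val (Representation.trivial ℤ G ℤ) :=
        Φ.val_permLat_top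
      rw [e2]
      simp only [n, Option.elim]
      push_cast
      ring
    rw [e1] at key
    have e3 : ∑ C : {C : Subgroup G // IsCyclic C}, ((n (some C) : ℤ) : ℚ) *
        Φ.val (permLat (G := G) (G ⧸ K (some C))) = ∑ C : {C : Subgroup G // IsCyclic C},
        ((artCoef G C.1 * Nat.card C.1 : ℤ) : ℚ) * Φ.val (permLat (G := G) (G ⧸ C.1)) := rfl
    rw [e3] at key
    linarith
  · have e1 : ∀ i, (n i : ℚ) * (traceFun g).val (permLat (G := G) (G ⧸ K i)) =
        ((n i * Nat.card {x : G ⧸ K i // g • x = x} : ℤ) : ℚ) := fun i => by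
      rw [traceFun_permLat]
      push_cast
      ring
    rw [Finset.sum_congr rfl fun i _ => e1 i, ← Int.cast_sum, Int.cast_eq_zero,
      Fintype.sum_option]
    have e2 : n none * (Nat.card {x : G ⧸ K none // g • x = x} : ℤ) = -(Nat.card G : ℤ) := by
      have hs : Subsingleton (G ⧸ K none) := QuotientGroup.subsingleton_quotient_top
      have h1 : Nat.card {x : G ⧸ K none // g • x = x} = 1 := by
        rw [Nat.card_eq_one_iff_unique]
        exact ⟨inferInstance, ⟨⟨((1 : G) : G ⧸ K none), Subsingleton.elim _ _⟩⟩⟩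
      rw [h1]
      simp only [n, Option.elim]
      push_cast
      ring
    have e3 : ∀ C : {C : Subgroup G // IsCyclic C}, n (some C) *
        (Nat.card {x : G ⧸ K (some C) // g • x = x} : ℤ) =
        ∑ x : G, if x⁻¹ * g * x ∈ C.1 then artCoef G C.1 else 0 := by
      intro C
      have h1 : Nat.card {q : G ⧸ K (some C) // g • q = q} * Nat.card C.1 =
        Nat.card {x : G // x⁻¹ * g * x ∈ C.1} := card_fixed_quotient C.1 g
      rw [← Finset.sum_filter, Finset.sum_const, ← Fintype.card_subtype,
        ← Nat.card_eq_fintype_card, ← h1]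
      have h2 : n (some C) = artCoef G C.1 * Nat.card C.1 := rfl
      rw [h2, nsmul_eq_mul]
      push_cast
      ring
    rw [e2, Finset.sum_congr rfl fun C _ => e3 C, Finset.sum_comm,
      Finset.sum_congr rfl fun x _ => sum_artCoef (x⁻¹ * g * x), Finset.sum_const,
      Finset.card_univ, ← Nat.card_eq_fintype_card]
    simp

/-- an invariant which vanishes on `ℤ[G/C]` for `C` cyclic vanishes on `ℤ` -/
theorem LatFun.val_trivial_eq_zero [Finite G] (Φ : LatFun G)
    (h : ∀ C : Subgroup G, IsCyclic C → Φ.val (permLat (G := G) (G ⧸ C)) = 0) :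
    Φ.val (Representation.trivial ℤ G ℤ) = 0 := by
  have := Fintype.ofFinite {C : Subgroup G // IsCyclic C}
  have h1 := Φ.artin
  rw [Finset.sum_eq_zero fun C _ => by rw [h C.1 C.2, mul_zero]] at h1
  have hG : (Nat.card G : ℚ) ≠ 0 := by exact_mod_cast Nat.card_pos.ne'
  exact (mul_eq_zero.1 h1).resolve_left hG

end Perm

end Fermat.Agent.CFT
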