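import Mathlib
import Fermat.Agent.CFT.Artin

/-!
# Artin's induction theorem modulo `p`, with cyclic subgroups of order prime to `p`
-/

set_option autoImplicit false
set_option linter.unusedSectionVars false

open Module

namespace Fermat.Agent.CFT

variable {p : ℕ} [Fact p.Prime] {G : Type} [Group G]

section Nilp

variable {V : Type} [AddCommGroup V] [Module (ZMod p) V] {ρ : Representation (ZMod p) G V}

lemma comm_pow {T : V →ₗ[ZMod p] V} (hT : ∀ g v, T (ρ g v) = ρ g (T v)) (i : ℕ) :
    ∀ g v, (T ^ i) (ρ g v) = ρ g ((T ^ i) v) := by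
  induction i with
  | zero => intro g v; rfl
  | succ i ih => intro g v; rw [pow_succ', Module.End.mul_apply, Module.End.mul_apply, ih, hT]

theorem ModFun.val_nilp (φ : ModFun p G) [FiniteDimensional (ZMod p) V] {T : V →ₗ[ZMod p] V}
    (hT : ∀ g v, T (ρ g v) = ρ g (T v)) {n : ℕ} (hn : T ^ n = 0)
    (hd : finrank (ZMod p) V = n * finrank (ZMod p) (LinearMap.ker T)) :
    φ.val ρ = n * φ.val (kerRep hT) := by
  set k := finrank (ZMod p) (LinearMap.ker T) with hk
  let f : ∀ i : ℕ, LinearMap.range (T ^ i) →ₗ[ZMod p] V := fun i => T.comp (Submodule.subtype _)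
  have hf : ∀ i, ∀ g v, f i (ranRep (comm_pow hT i) g v) = ρ g (f i v) := fun i g v => hT g v
  have hr : ∀ i, LinearMap.range (f i) = LinearMap.range (T ^ (i + 1)) := by
    intro i
    ext x
    constructor
    · rintro ⟨⟨_, v, rfl⟩, rfl⟩
      exact ⟨v, by rw [pow_succ']; rfl⟩
    · rintro ⟨v, rfl⟩
      exact ⟨⟨_, v, rfl⟩, by rw [pow_succ']; rfl⟩
  have hkf : ∀ i, finrank (ZMod p) (LinearMap.ker (f i)) ≤ k := by
    intro i
    refine LinearMap.finrank_le_finrank_of_injective
      (f := ((Submodule.subtype _).comp (LinearMap.ker (f i)).subtype).codRestrict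
        (LinearMap.ker T) fun v => v.2) ?_
    intro a b hab
    have h' := congrArg (fun z : LinearMap.ker T => (z : V)) hab
    exact Subtype.ext (Subtype.ext h')
  have hrk : ∀ i, finrank (ZMod p) (LinearMap.range (T ^ (i + 1))) +
      finrank (ZMod p) (LinearMap.ker (f i)) = finrank (ZMod p) (LinearMap.range (T ^ i)) := by
    intro i
    rw [← hr]
    exact LinearMap.finrank_range_add_finrank_ker (f i)
  have h0 : finrank (ZMod p) (LinearMap.range (T ^ 0)) = n * k := by
    rw [pow_zero, ← hd]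
    exact LinearMap.finrank_range_of_inj Function.injective_id
  have hnn : finrank (ZMod p) (LinearMap.range (T ^ n)) = 0 := by
    rw [hn, LinearMap.range_zero, finrank_bot]
  have hup : ∀ i ≤ n, finrank (ZMod p) (LinearMap.range (T ^ (n - i))) ≤ i * k := by
    intro i
    induction i with
    | zero => intro _; rw [Nat.sub_zero, hnn]; exact Nat.zero_le _
    | succ i ih =>
      intro hi
      have h1 := hrk (n - (i + 1))
      have h2 : n - (i + 1) + 1 = n - i := by omega
      rw [h2] at h1
      have h3 := ih (by omega)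
      have h4 := hkf (n - (i + 1))
      rw [← h1, Nat.add_mul, one_mul]
      omega
  have hlow : ∀ i ≤ n, n * k ≤ finrank (ZMod p) (LinearMap.range (T ^ i)) + i * k := by
    intro i
    induction i with
    | zero => intro _; rw [h0, zero_mul, add_zero]
    | succ i ih =>
      intro hi
      have h1 := hrk i
      have h3 := ih (by omega)
      have h4 := hkf i
      rw [Nat.add_mul, one_mul]
      omega
  have heq : ∀ i < n, finrank (ZMod p) (LinearMap.ker (f i)) = k := by
    intro i hi
    have h1 := hrk i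
    have h2 := hlow i hi.le
    have h3 := hup (n - (i + 1)) (by omega)
    have h4 : n - (n - (i + 1)) = i + 1 := by omega
    rw [h4] at h3
    have h5 := hkf i
    have h6 : n * k = i * k + k + (n - (i + 1)) * k := by
      rw [← Nat.succ_mul, ← Nat.add_mul]
      congr 1
      omega
    omega
  have hstep : ∀ i < n, φ.val (ranRep (comm_pow hT i)) =
      φ.val (ranRep (comm_pow hT (i + 1))) + φ.val (kerRep hT) := by
    intro i hi
    rw [φ.val_ker_ran (hf i), add_comm]
    congr 1
    · exact φ.val_congr ⟨LinearEquiv.ofEq _ _ (hr i), fun _ _ => rfl⟩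
    · let e : LinearMap.ker (f i) →ₗ[ZMod p] LinearMap.ker T :=
        ((Submodule.subtype _).comp (LinearMap.ker (f i)).subtype).codRestrict
          (LinearMap.ker T) fun v => v.2
      have he : Function.Injective e := fun a b hab => by
        have h' := congrArg (fun z : LinearMap.ker T => (z : V)) hab
        exact Subtype.ext (Subtype.ext h')
      have he2 : Function.Surjective e :=
        (LinearMap.injective_iff_surjective_of_finrank_eq_finrank (heq i hi)).1 he
      exact φ.val_congr ⟨LinearEquiv.ofBijective e ⟨he, he2⟩, fun _ _ => rfl⟩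
  have hall : ∀ i ≤ n, φ.val (ranRep (comm_pow hT (n - i))) = i * φ.val (kerRep hT) := by
    intro i
    induction i with
    | zero =>
      intro _
      have : Subsingleton (LinearMap.range (T ^ (n - 0))) := by
        rw [Nat.sub_zero]
        exact finrank_zero_iff.1 hnn
      rw [φ.val_of_subsingleton]
      simp
    | succ i ih =>
      intro hi
      have h1 := hstep (n - (i + 1)) (by omega)
      have h2 : n - (i + 1) + 1 = n - i := by omega
      rw [h1]
      have h3 : φ.val (ranRep (comm_pow hT (n - (i + 1) + 1))) =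
          φ.val (ranRep (comm_pow hT (n - i))) := by rw [h2]
      rw [h3, ih (by omega)]
      push_cast
      ring
  have h1 := hall n le_rfl
  have h2 : φ.val (ranRep (comm_pow hT (n - n))) = φ.val ρ := by
    rw [Nat.sub_self]
    exact φ.val_ran_of_surjective (comm_pow hT 0) Function.surjective_id
  rw [← h2, h1]

end Nilp

section Cyc

/-- the permutation module -/
abbrev permP (p : ℕ) {G : Type} [Group G] (X : Type) [MulAction G X] :
    Representation (ZMod p) G (X → ZMod p) :=
  mapRep (Representation.trivial (ZMod p) G (ZMod p)) X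

variable (s : G)

/-- right translation by `s` on `G / ⟨s ^ p⟩` -/
def rtr (p : ℕ) (s : G) : G ⧸ Subgroup.zpowers (s ^ p) → G ⧸ Subgroup.zpowers (s ^ p) :=
  Quotient.map' (fun x => x * s) fun x y h => by
    rw [QuotientGroup.leftRel_apply] at h ⊢
    obtain ⟨j, hj⟩ := Subgroup.mem_zpowers_iff.1 h
    refine Subgroup.mem_zpowers_iff.2 ⟨j, ?_⟩
    have h1 : (x * s)⁻¹ * (y * s) = s⁻¹ * (x⁻¹ * y) * s := by group
    rw [h1, ← hj]
    have h2 : Commute s ((s ^ p) ^ j) := ((Commute.refl s).pow_right p).zpow_right j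
    rw [mul_assoc, ← h2.eq, inv_mul_cancel_left]

@[simp] lemma rtr_mk (x : G) : rtr p s (x : G ⧸ Subgroup.zpowers (s ^ p)) = (x * s : G) := rfl

lemma rtr_smul (g : G) (x : G ⧸ Subgroup.zpowers (s ^ p)) : rtr p s (g • x) = g • rtr p s x := by
  obtain ⟨x, rfl⟩ := QuotientGroup.mk_surjective x
  rw [MulAction.Quotient.smul_mk, rtr_mk, rtr_mk, MulAction.Quotient.smul_mk, smul_eq_mul,
    smul_eq_mul, mul_assoc]

lemma rtr_iterate (i : ℕ) (x : G) :
    (rtr p s)^[i] (x : G ⧸ Subgroup.zpowers (s ^ p)) = (x * s ^ i : G) := by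
  induction i with
  | zero => simp
  | succ i ih => rw [Function.iterate_succ_apply', ih, rtr_mk, mul_assoc, ← pow_succ]

/-- pull back by right translation -/
noncomputable def rtrL (p : ℕ) (s : G) : (G ⧸ Subgroup.zpowers (s ^ p) → ZMod p) →ₗ[ZMod p]
    (G ⧸ Subgroup.zpowers (s ^ p) → ZMod p) where
  toFun f x := f (rtr p s x)
  map_add' _ _ := rfl
  map_smul' _ _ := rfl

lemma rtrL_pow (i : ℕ) (f : G ⧸ Subgroup.zpowers (s ^ p) → ZMod p)
    (x : G ⧸ Subgroup.zpowers (s ^ p)) : ((rtrL p s) ^ i) f x = f ((rtr p s)^[i] x) := by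
  induction i generalizing f with
  | zero => rfl
  | succ i ih =>
    rw [pow_succ, Module.End.mul_apply, ih, Function.iterate_succ_apply']
    rfl

lemma rtrL_pow_p : (rtrL p s) ^ p = 1 := by
  refine LinearMap.ext fun f => funext fun x => ?_
  obtain ⟨x, rfl⟩ := QuotientGroup.mk_surjective x
  rw [rtrL_pow, rtr_iterate, Module.End.one_apply]
  congr 1
  rw [eq_comm, QuotientGroup.eq, inv_mul_cancel_left]
  exact Subgroup.mem_zpowers _

lemma rtrT_pow : (rtrL p s - 1) ^ p = 0 := by
  have : Nontrivial (G ⧸ Subgroup.zpowers (s ^ p) → ZMod p) := inferInstance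
  have : CharP (Module.End (ZMod p) (G ⧸ Subgroup.zpowers (s ^ p) → ZMod p)) p :=
    charP_of_injective_algebraMap (algebraMap (ZMod p) _).injective p
  rw [sub_pow_char_of_commute _ (Commute.one_right _), rtrL_pow_p, one_pow, sub_self]

/-- the projection -/
def rpr (p : ℕ) (s : G) : G ⧸ Subgroup.zpowers (s ^ p) → G ⧸ Subgroup.zpowers s :=
  Quotient.map' id fun x y h => by
    rw [QuotientGroup.leftRel_apply] at h ⊢
    obtain ⟨j, hj⟩ := Subgroup.mem_zpowers_iff.1 h
    exact hj ▸ Subgroup.zpow_mem _ (Subgroup.pow_mem _ (Subgroup.mem_zpowers s) _) _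

@[simp] lemma rpr_mk (x : G) : rpr p s (x : G ⧸ Subgroup.zpowers (s ^ p)) = (x : G) := rfl

lemma rtrT_comm (g : G) (f : G ⧸ Subgroup.zpowers (s ^ p) → ZMod p) :
    (rtrL p s - 1) (permP p _ g f) = permP p _ g ((rtrL p s - 1) f) := by
  rw [LinearMap.sub_apply, LinearMap.sub_apply, map_sub]
  congr 1
  funext x
  change f (g⁻¹ • rtr p s x) = f (rtr p s (g⁻¹ • x))
  rw [rtr_smul]

lemma ker_rtrT {f : G ⧸ Subgroup.zpowers (s ^ p) → ZMod p} (hf : (rtrL p s - 1) f = 0) (x : G)
    (j : ℤ) : f ((x * s ^ j : G) : G ⧸ Subgroup.zpowers (s ^ p)) = f (x : G) := by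
  have h1 : ∀ y, f (rtr p s y) = f y := fun y => by
    have := congrFun hf y
    rw [LinearMap.sub_apply] at this
    exact sub_eq_zero.1 this
  have h2 : ∀ (i : ℕ) (x : G), f ((x * s ^ i : G) : G ⧸ Subgroup.zpowers (s ^ p)) = f (x : G) := by
    intro i x
    induction i with
    | zero => simp
    | succ i ih => rw [pow_succ, ← mul_assoc, ← rtr_mk, h1, ih]
  rcases j with i | i
  · rw [Int.ofNat_eq_natCast, zpow_natCast, h2]
  · rw [← h2 (i + 1) (x * s ^ Int.negSucc i), zpow_negSucc, inv_mul_cancel_right]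

theorem ModFun.val_zpowers [Finite G] (φ : ModFun p G) (hs : p ∣ orderOf s) :
    φ.val (permP p (G ⧸ Subgroup.zpowers (s ^ p))) = p * φ.val (permP p (G ⧸ Subgroup.zpowers s)) := by
  classical
  have hp : p.Prime := Fact.out
  let e : (G ⧸ Subgroup.zpowers s → ZMod p) →ₗ[ZMod p] LinearMap.ker (rtrL p s - 1) :=
    { toFun := fun f => ⟨fun x => f (rpr p s x), by
        rw [LinearMap.mem_ker]
        funext x
        obtain ⟨x, rfl⟩ := QuotientGroup.mk_surjective x
        rw [LinearMap.sub_apply]
        refine sub_eq_zero.2 ?_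
        change f (rpr p s (rtr p s x)) = f (rpr p s x)
        rw [rtr_mk, rpr_mk, rpr_mk]
        congr 1
        rw [eq_comm, QuotientGroup.eq, inv_mul_cancel_left]
        exact Subgroup.mem_zpowers s⟩
      map_add' := fun _ _ => rfl
      map_smul' := fun _ _ => rfl }
  have he : Function.Bijective e := by
    constructor
    · intro f f' h
      funext x
      obtain ⟨x, rfl⟩ := QuotientGroup.mk_surjective x
      exact congrFun (congrArg Subtype.val h) (x : G ⧸ Subgroup.zpowers (s ^ p))
    · rintro ⟨f, hf⟩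
      refine ⟨fun x => f (Quotient.out x : G), Subtype.ext (funext fun x => ?_)⟩
      obtain ⟨x, rfl⟩ := QuotientGroup.mk_surjective x
      change f ((Quotient.out (x : G ⧸ Subgroup.zpowers s) : G)) = f x
      obtain ⟨⟨h, hh⟩, h2⟩ := QuotientGroup.mk_out_eq_mul (Subgroup.zpowers s) x
      obtain ⟨j, hj⟩ := Subgroup.mem_zpowers_iff.1 hh
      rw [h2]
      change f ((x * h : G) : G ⧸ Subgroup.zpowers (s ^ p)) = _
      rw [← hj]
      exact ker_rtrT s (LinearMap.mem_ker.1 hf) x j
  have hE : REq (permP p (G := G) (G ⧸ Subgroup.zpowers s)) (kerRep (rtrT_comm (p := p) s)) :=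
    ⟨LinearEquiv.ofBijective e he, fun g f => by
      refine Subtype.ext (funext fun x => ?_)
      obtain ⟨x, rfl⟩ := QuotientGroup.mk_surjective x
      rfl⟩
  rw [φ.val_congr hE]
  refine φ.val_nilp (rtrT_comm s) (rtrT_pow s) ?_
  have := Fintype.ofFinite (G ⧸ Subgroup.zpowers s)
  have := Fintype.ofFinite (G ⧸ Subgroup.zpowers (s ^ p))
  rw [← (LinearEquiv.ofBijective e he).finrank_eq, finrank_fintype_fun_eq_card,
    finrank_fintype_fun_eq_card, ← Nat.card_eq_fintype_card, ← Nat.card_eq_fintype_card]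
  have h1 := Subgroup.card_eq_card_quotient_mul_card_subgroup (Subgroup.zpowers s)
  have h2 := Subgroup.card_eq_card_quotient_mul_card_subgroup (Subgroup.zpowers (s ^ p))
  rw [Nat.card_zpowers] at h1 h2
  have h3 : orderOf (s ^ p) = orderOf s / p := orderOf_pow_of_dvd hp.ne_zero hs
  obtain ⟨m, hm⟩ := hs
  rw [h3, hm, Nat.mul_div_cancel_left _ hp.pos] at h2
  rw [hm] at h1
  have hm0 : 0 < m := by
    rcases Nat.eq_zero_or_pos m with h | h
    · rw [h, mul_zero] at hm
      exact absurd hm (orderOf_pos s).ne'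
    · exact h
  refine Nat.eq_of_mul_eq_mul_right hm0 ?_
  rw [← h2, h1]
  ring

theorem ModFun.val_zpowers_eq_zero [Finite G] (φ : ModFun p G)
    (h : ∀ s : G, ¬ p ∣ orderOf s → φ.val (permP p (G ⧸ Subgroup.zpowers s)) = 0) (s : G) :
    φ.val (permP p (G ⧸ Subgroup.zpowers s)) = 0 := by
  have hp : p.Prime := Fact.out
  obtain ⟨n, hn⟩ : ∃ n, orderOf s = n := ⟨_, rfl⟩
  induction n using Nat.strong_induction_on generalizing s with
  | _ n ih =>
  by_cases hs : p ∣ orderOf s
  · have h1 := φ.val_zpowers s hs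
    have h2 : orderOf (s ^ p) = orderOf s / p := orderOf_pow_of_dvd hp.ne_zero hs
    rw [ih (orderOf (s ^ p)) (by
      rw [h2, ← hn]
      exact Nat.div_lt_self (orderOf_pos s) hp.one_lt) _ rfl] at h1
    have hp0 : (p : ℚ) ≠ 0 := by exact_mod_cast hp.ne_zero
    exact (mul_eq_zero.1 h1.symm).resolve_left hp0
  · exact h s hs

/-- `ℤ[X] / p = 𝔽_p[X]` -/
lemma req_permLat (X : Type) [MulAction G X] [Finite X] :
    REq (modNRep p (permLat (G := G) X)) (permP p (G := G) X) := by
  classical
  have := Fintype.ofFinite X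
  let f : (X → ℤ) →+ (X → ZMod p) :=
    { toFun := fun a x => (a x : ZMod p)
      map_zero' := funext fun x => Int.cast_zero
      map_add' := fun a b => funext fun x => Int.cast_add _ _ }
  refine ⟨LinearEquiv.ofBijective (modNLift f) ⟨?_, ?_⟩, fun g a => ?_⟩
  · rw [injective_iff_map_eq_zero]
    intro a ha
    obtain ⟨a, rfl⟩ := modN_surjective a
    rw [modNLift_mkQ] at ha
    rw [modN_eq_zero_iff]
    have h1 : ∀ x, (p : ℤ) ∣ a x := fun x => by
      rw [← ZMod.intCast_zmod_eq_zero_iff_dvd]
      exact congrFun ha x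
    choose b hb using h1
    exact ⟨b, funext fun x => by rw [Pi.smul_apply, hb, nsmul_eq_mul]⟩
  · intro a
    refine ⟨ModN.mkQ p fun x => ((a x).val : ℤ), ?_⟩
    rw [modNLift_mkQ]
    funext x
    change ((((a x).val : ℕ) : ℤ) : ZMod p) = a x
    rw [Int.cast_natCast, ZMod.natCast_zmod_val]
  · obtain ⟨a, rfl⟩ := modN_surjective a
    rfl

/-- **Artin's induction theorem modulo `p`** -/
theorem ModFun.val_top_eq_zero [Finite G] (φ : ModFun p G)
    (h : ∀ s : G, ¬ p ∣ orderOf s → φ.val (permP p (G ⧸ Subgroup.zpowers s)) = 0) :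
    φ.val (permP p (G := G) (G ⧸ (⊤ : Subgroup G))) = 0 := by
  have hp : p.Prime := Fact.out
  have key : ∀ (X : Type) [MulAction G X] [Finite X], φ.hat.val (permLat (G := G) X) =
      φ.val (permP p (G := G) X) := fun X _ _ => by
    have := finite_modN p (X → ℤ)
    rw [φ.hat_val_of_torsionFree, φ.val_congr (req_permLat X)]
    intro a ha
    funext x
    have h1 := congrFun ha x
    rw [Pi.smul_apply, nsmul_eq_mul] at h1
    exact (mul_eq_zero.1 h1).resolve_left (by exact_mod_cast hp.ne_zero)
  rw [← key, LatFun.val_permLat_top]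
  refine φ.hat.val_trivial_eq_zero fun C hC => ?_
  obtain ⟨s, hs⟩ := (Subgroup.isCyclic_iff_exists_zpowers_eq_top C).1 hC
  subst hs
  rw [key, φ.val_zpowers_eq_zero h]

end Cyc

end Fermat.Agent.CFT
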