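import Mathlib
import Fermat.Agent.CFT.PTInst
import Fermat.Prelude.Def_GroupCohomology_ContinuousUnramified

/-!
# Bridge to the cohomology groups of the Prelude
-/

set_option autoImplicit false

open CategoryTheory Module groupCohomology ExtCitation

namespace Fermat.Agent.CFT.Bridge

local notation "Qb" => AlgebraicClosure ℚ
local notation "Γ" => (AlgebraicClosure ℚ ≃ₐ[ℚ] AlgebraicClosure ℚ)

section LC

variable {S : Finset Nat.Primes} {X : Type*}

lemma isLCS₁_iff {f : Γ → X} : IsLevelConstantS₁ S f ↔ (sLevels S).LC f := by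
  constructor
  · rintro ⟨F, hF, h⟩
    exact ⟨_, mem_sLevels.2 ⟨F, hF, le_rfl⟩, fun g s hs => h g s hs⟩
  · rintro ⟨H, hH, h⟩
    obtain ⟨F, hF, hle⟩ := mem_sLevels.1 hH
    exact ⟨F, hF, fun g s hs => h g s (hle hs)⟩

lemma isLCS₂_iff {f : Γ × Γ → X} : IsLevelConstantS₂ S f ↔
    (sLevels S).LC₂ (fun a b => f (a, b)) := by
  constructor
  · rintro ⟨F, hF, h⟩
    exact ⟨_, mem_sLevels.2 ⟨F, hF, le_rfl⟩, fun g g' s hs s' hs' => h g g' s s' hs hs'⟩
  · rintro ⟨H, hH, h⟩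
    obtain ⟨F, hF, hle⟩ := mem_sLevels.1 hH
    exact ⟨F, hF, fun g g' s s' hs hs' => h g g' s (hle hs) s' (hle hs')⟩

variable {G : Type} [Group G] (r : G →* Γ)

lemma isLC₁_iff {f : G → X} : IsLevelConstant₁ r f ↔ ((galLevels ℚ Qb).comap r).LC f := by
  constructor
  · rintro ⟨F, hF, h⟩
    exact ⟨_, ⟨F.fixingSubgroup, fixingSubgroup_mem_galLevels F, le_rfl⟩, fun g s hs => h g s hs⟩
  · rintro ⟨H, ⟨J, hJ, hJH⟩, h⟩
    obtain ⟨F, hF, hle⟩ := mem_galLevels.1 hJ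
    exact ⟨F, hF, fun g s hs => h g s (hJH (hle hs))⟩

end LC

section H2

variable {p : ℕ} [Fact p.Prime] (S : Finset Nat.Primes) (M : Rep.{0} (ZMod p) Γ)

/-- cocycles -/
noncomputable def eZ2 : Z2 (sLevels S) M.ρ ≃ₗ[ZMod p] levelCocyclesS₂ S M where
  toFun f := ⟨fun x => f.1 x.1 x.2, (mem_levelCocyclesS₂_iff S M _).2
    ⟨(mem_cocycles₂_iff (A := M) _).2 fun g h j => f.2.2 g h j, isLCS₂_iff.2 f.2.1⟩⟩
  map_add' _ _ := rfl
  map_smul' _ _ := rfl
  invFun f := ⟨fun a b => f.1 (a, b), isLCS₂_iff.1 f.2.2, fun g h j =>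
    (mem_cocycles₂_iff (A := M) _).1 f.2.1 g h j⟩
  left_inv _ := rfl
  right_inv _ := rfl

/-- the identification of `H²` -/
noncomputable def eH2 : CFT.H2 (sLevels S) M.ρ ≃ₗ[ZMod p] continuousH2S S M :=
  Submodule.Quotient.equiv _ _ (eZ2 S M) (by
    ext x
    constructor
    · rintro ⟨f, hf, rfl⟩
      obtain ⟨c, hc, hcf⟩ := mem_B2.1 hf
      refine (mem_levelCoboundariesS₂_iff S M _).2 ⟨c, isLCS₁_iff.2 hc, ?_⟩
      funext x
      rw [d₁₂_hom_apply]
      exact congrFun (congrFun hcf x.1) x.2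
    · intro hx
      obtain ⟨c, hc, hcf⟩ := (mem_levelCoboundariesS₂_iff S M _).1 hx
      refine ⟨(eZ2 S M).symm x, ?_, (eZ2 S M).apply_symm_apply x⟩
      refine mem_B2.2 ⟨c, isLCS₁_iff.1 hc, ?_⟩
      funext a b
      have := congrFun hcf (a, b)
      rw [d₁₂_hom_apply] at this
      exact this)

lemma eH2_mk (f : Z2 (sLevels S) M.ρ) : eH2 S M (H2.mk _ _ f) =
    continuousH2Sπ S M (eZ2 S M f) := rfl

/-- second cohomology of groups of order prime to `p` -/
lemma locRes₂S_eq_zero_of_card {H : Type} [Group H] [Finite H] (r : H →* Γ)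
    (hcard : ¬ p ∣ Nat.card H) (x : continuousH2S S M) : locRes₂S S M r x = 0 := by
  classical
  obtain ⟨f, rfl⟩ := Submodule.mkQ_surjective _ x
  obtain ⟨φ, hφ⟩ : ∃ φ : Γ × Γ → M, φ = f.1 := ⟨_, rfl⟩
  have := Fintype.ofFinite H
  have hu : ((Nat.card H : ℕ) : ZMod p) ≠ 0 := by
    rw [Ne, ZMod.natCast_eq_zero_iff]; exact hcard
  show continuousH2π r (Rep.res r M) _ = 0
  rw [continuousH2π_eq_zero_iff]
  -- the averaged cochain
  have hf2 := f.2
  rw [← hφ] at hf2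
  refine (mem_levelCoboundaries₂_iff r _ _).2
    ⟨fun g => ((Nat.card H : ℕ) : ZMod p)⁻¹ • ∑ h : H, φ (r g, r h), ?_, ?_⟩
  · obtain ⟨F, hF, hf⟩ := hf2.2.isLevelConstant₂
    refine ⟨F, hF, fun g s hs => ?_⟩
    refine congrArg (fun m : M => ((Nat.card H : ℕ) : ZMod p)⁻¹ • m)
      (Finset.sum_congr rfl fun h _ => ?_)
    rw [map_mul]
    have := hf (r g) (r h) (r s) 1 hs (one_mem _)
    rwa [mul_one] at this
  · funext x
    obtain ⟨g, g'⟩ := x
    rw [d₁₂_hom_apply]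
    have hgoal : f.1 (r g, r g') = φ (r g, r g') := by rw [hφ]
    refine Eq.trans ?_ hgoal.symm
    have hc := (mem_cocycles₂_iff (A := M) _).1 hf2.1
    show M.ρ (r g) (((Nat.card H : ℕ) : ZMod p)⁻¹ • ∑ h : H, φ (r g', r h)) -
      ((Nat.card H : ℕ) : ZMod p)⁻¹ • ∑ h : H, φ (r (g * g'), r h) +
      ((Nat.card H : ℕ) : ZMod p)⁻¹ • ∑ h : H, φ (r g, r h) = φ (r g, r g')
    have h1 : ∑ h : H, φ (r g, r h) = ∑ h : H, φ (r g, r (g' * h)) :=
      (Equiv.sum_comp (Equiv.mulLeft g') (fun h => φ (r g, r h))).symm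
    rw [map_smul, map_sum, h1, ← smul_sub, ← smul_add, ← Finset.sum_sub_distrib,
      ← Finset.sum_add_distrib]
    have h2 : ∀ h : H, M.ρ (r g) (φ (r g', r h)) - φ (r (g * g'), r h) +
        φ (r g, r (g' * h)) = φ (r g, r g') := by
      intro h
      have := hc (r g) (r g') (r h)
      rw [map_mul, map_mul]
      have h3 : φ (r g, r g' * r h) = φ (r g * r g', r h) + φ (r g, r g') -
        M.ρ (r g) (φ (r g', r h)) := by rw [this]; abel
      rw [h3]; abel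
    rw [Finset.sum_congr rfl fun h _ => h2 h, Finset.sum_const, Finset.card_univ,
      ← Nat.card_eq_fintype_card, ← Nat.cast_smul_eq_nsmul (ZMod p), smul_smul,
      inv_mul_cancel₀ hu, one_smul]

lemma locRes₂S_eq_zero_iff {H : Type} [Group H] (r : H →* Γ) (f : Z2 (sLevels S) M.ρ) :
    locRes₂S S M r (eH2 S M (H2.mk _ _ f)) = 0 ↔
      pp2 r (LinearMap.id : M →ₗ[ZMod p] M) f.1 ∈ B2 ((galLevels ℚ Qb).comap r)
        (resRep M.ρ r) := by
  have h0 : locRes₂S S M r (eH2 S M (H2.mk _ _ f)) =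
    continuousH2π r (Rep.res r M) (levelCocycles₂Map (rH := MonoidHom.id _) (rG := r) r
      (fun _ => rfl) (LinearMap.id : M →ₗ[ZMod p] Rep.res r M) (fun _ _ => rfl)
      (levelCocyclesS₂ToLevelCocycles₂ S M (eZ2 S M f))) := rfl
  rw [h0, continuousH2π_eq_zero_iff, mem_levelCoboundaries₂_iff, mem_B2]
  constructor
  · rintro ⟨c, hc, hcf⟩
    refine ⟨c, (isLC₁_iff r).1 hc, ?_⟩
    funext a b
    have := congrFun hcf (a, b)
    rw [d₁₂_hom_apply] at this
    exact this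
  · rintro ⟨c, hc, hcf⟩
    refine ⟨c, (isLC₁_iff r).2 hc, ?_⟩
    funext x
    rw [d₁₂_hom_apply]
    exact congrFun (congrFun hcf x.1) x.2

/-- primality of elements of `Nat.Primes` -/
local instance factNP4 (v : Nat.Primes) : Fact (v : ℕ).Prime := ⟨v.2⟩

lemma card_arch : Finite archimedeanDecomposition ∧ (p ≠ 2 → ¬ p ∣ Nat.card archimedeanDecomposition) := by
  have h1 : orderOf complexConjugation ∣ 2 := orderOf_dvd_of_pow_eq_one complexConjugation_sq
  have h2 : Nat.card archimedeanDecomposition = orderOf complexConjugation :=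
    Nat.card_zpowers _
  have h3 : 0 < orderOf complexConjugation := Nat.pos_of_dvd_of_pos h1 two_pos
  refine ⟨Nat.finite_of_card_ne_zero (by rw [h2]; exact h3.ne'), fun hp2 h => ?_⟩
  rw [h2] at h
  have h4 := h.trans h1
  exact hp2 ((Nat.prime_dvd_prime_iff_eq Fact.out Nat.prime_two).1 h4)

variable {S}

/-- kernels in degree 2 -/
lemma locTotal₂S_eq_zero_iff (hp2 : p ≠ 2) (x : CFT.H2 (sLevels S) M.ρ) :
    locTotal₂S S M (eH2 S M x) = 0 ↔
      loc2 (𝓛v := fun l : {l // l ∈ S} => locLevels (l.1 : ℕ))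
      (r := fun l : {l // l ∈ S} => localGaloisToGlobal (l.1 : ℕ))
      (fun l => cont_locLevels S (l.1 : ℕ)) M.ρ x = 0 := by
  obtain ⟨f, rfl⟩ := H2.mk_surjective _ _ x
  have key : ∀ l : {l // l ∈ S}, locRes₂S S M (primeLocalToGlobal l.1) (eH2 S M (H2.mk _ _ f)) = 0 ↔
      loc2 (𝓛v := fun l : {l // l ∈ S} => locLevels (l.1 : ℕ))
      (r := fun l : {l // l ∈ S} => localGaloisToGlobal (l.1 : ℕ))
      (fun l => cont_locLevels S (l.1 : ℕ)) M.ρ (H2.mk _ _ f) l = 0 := fun l => by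
    rw [locRes₂S_eq_zero_iff]
    exact (H2.mk_eq_zero (𝓛 := locLevels (l.1 : ℕ))
      (ρ := resRep M.ρ (localGaloisToGlobal (l.1 : ℕ)))
      (f := ⟨_, pp2_mem_Z2 (cont_locLevels S (l.1 : ℕ)) (fun _ _ => rfl) f.2⟩)).symm
  constructor
  · intro h
    funext l
    exact (key l).1 (congrFun h (Sum.inr l))
  · intro h
    funext v
    obtain v | v := v
    · have := (card_arch (p := p)).1
      have h1 := locRes₂S_eq_zero_of_card S M archimedeanLoc ((card_arch (p := p)).2 hp2)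
        (eH2 S M (H2.mk _ _ f))
      exact h1
    · exact (key v).2 (congrFun h v)

/-- `sha₂` -/
lemma map_ker_loc2 (hp2 : p ≠ 2) : (LinearMap.ker
      (loc2 (𝓛v := fun l : {l // l ∈ S} => locLevels (l.1 : ℕ))
      (r := fun l : {l // l ∈ S} => localGaloisToGlobal (l.1 : ℕ))
      (fun l => cont_locLevels S (l.1 : ℕ)) M.ρ)).map (eH2 S M).toLinearMap = sha₂ S M := by
  ext y
  constructor
  · rintro ⟨x, hx, rfl⟩
    exact (locTotal₂S_eq_zero_iff M hp2 x).2 hx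
  · intro hy
    refine ⟨(eH2 S M).symm y, ?_, (eH2 S M).apply_symm_apply y⟩
    refine (locTotal₂S_eq_zero_iff M hp2 _).1 ?_
    rw [(eH2 S M).apply_symm_apply]
    exact hy

end H2

end Fermat.Agent.CFT.Bridge
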