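import Mathlib
import Fermat.Agent.CFT.Bridge

/-!
# Bridge to the cohomology groups of the Prelude: degree one and duality
-/

set_option autoImplicit false

open CategoryTheory Module groupCohomology ExtCitation

namespace Fermat.Agent.CFT.Bridge

local notation "Qb" => AlgebraicClosure ℚ
local notation "Γ" => (AlgebraicClosure ℚ ≃ₐ[ℚ] AlgebraicClosure ℚ)

section H1

variable {p : ℕ} [Fact p.Prime] (S : Finset Nat.Primes) (A : Rep.{0} (ZMod p) Γ)

lemma mem_cob₁ {H : Type} [Group H] {B : Rep.{0} (ZMod p) H} {f : H → B} :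
    f ∈ coboundaries₁ B ↔ f ∈ B1 B.ρ := by
  rw [mem_B1]
  constructor
  · rintro ⟨v, hv⟩
    refine ⟨v, fun g => ?_⟩
    rw [← hv]
    exact d₀₁_hom_apply B v g
  · rintro ⟨v, hv⟩
    refine ⟨v, ?_⟩
    funext g
    rw [hv]
    exact d₀₁_hom_apply B v g

/-- cocycles -/
noncomputable def iZ1 : Z1 (sLevels S) A.ρ →ₗ[ZMod p] cocycles₁ A where
  toFun f := ⟨f.1, (mem_cocycles₁_iff (A := A) _).2 f.2.2⟩
  map_add' _ _ := rfl
  map_smul' _ _ := rfl

/-- the identification of `H¹` -/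
noncomputable def iH1 : CFT.H1 (sLevels S) A.ρ →ₗ[ZMod p] groupCohomology.H1 A :=
  Submodule.liftQ _ ((H1π A).hom ∘ₗ iZ1 S A) (by
    intro f hf
    rw [LinearMap.mem_ker, LinearMap.comp_apply]
    exact (H1π_eq_zero_iff _).2 (mem_cob₁.2 hf))

lemma iH1_mk (f : Z1 (sLevels S) A.ρ) : iH1 S A (H1.mk _ _ f) = (H1π A).hom (iZ1 S A f) := rfl

lemma iH1_injective : Function.Injective (iH1 S A) := by
  refine (injective_iff_map_eq_zero _).2 fun x hx => ?_
  obtain ⟨f, rfl⟩ := H1.mk_surjective _ _ x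
  rw [iH1_mk] at hx
  exact H1.mk_eq_zero.2 (mem_cob₁.1 ((H1π_eq_zero_iff _).1 hx))

lemma mem_range_iH1 {y : groupCohomology.H1 A} : y ∈ LinearMap.range (iH1 S A) ↔
    y ∈ continuousH1S S A := by
  rw [mem_continuousH1S_iff]
  constructor
  · rintro ⟨x, rfl⟩
    obtain ⟨f, rfl⟩ := H1.mk_surjective _ _ x
    exact ⟨iZ1 S A f, isLCS₁_iff.2 f.2.1, rfl⟩
  · rintro ⟨c, hc, rfl⟩
    refine ⟨H1.mk _ _ ⟨c.1, isLCS₁_iff.1 hc, (mem_cocycles₁_iff (A := A) _).1 c.2⟩, ?_⟩
    rfl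

/-- restriction in degree one -/
lemma res₁_eq_zero_iff {H : Type} [Group H] (r : H →* Γ) (f : Z1 (sLevels S) A.ρ) :
    (groupCohomology.map r (𝟙 (Rep.res r A)) 1).hom (iH1 S A (H1.mk _ _ f)) = 0 ↔
      pp1 r (LinearMap.id : A →ₗ[ZMod p] A) f.1 ∈ B1 (resRep A.ρ r) := by
  have h0 : (groupCohomology.map r (𝟙 (Rep.res r A)) 1).hom (iH1 S A (H1.mk _ _ f)) =
      (H1π (Rep.res r A)).hom (mapCocycles₁ r (𝟙 (Rep.res r A)) (iZ1 S A f)) := by
    rw [iH1_mk]
    exact H1π_comp_map_apply r (𝟙 (Rep.res r A)) (iZ1 S A f)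
  rw [h0]
  refine (H1π_eq_zero_iff _).trans (mem_cob₁.trans ?_)
  exact Iff.rfl

/-- first cohomology of groups of order prime to `p` -/
lemma mem_B1_of_card {H : Type} [Group H] [Finite H] (r : H →* Γ)
    (hcard : ¬ p ∣ Nat.card H) (f : Z1 (sLevels S) A.ρ) :
    pp1 r (LinearMap.id : A →ₗ[ZMod p] A) f.1 ∈ B1 (resRep A.ρ r) := by
  classical
  have := Fintype.ofFinite H
  have hu : ((Nat.card H : ℕ) : ZMod p) ≠ 0 := by
    rw [Ne, ZMod.natCast_eq_zero_iff]; exact hcard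
  obtain ⟨φ, hφ⟩ : ∃ φ : Γ → A, φ = f.1 := ⟨_, rfl⟩
  have hc : ∀ g h, φ (g * h) = A.ρ g (φ h) + φ g := by rw [hφ]; exact f.2.2
  rw [← hφ]
  refine mem_B1.2 ⟨-(((Nat.card H : ℕ) : ZMod p)⁻¹ • ∑ h : H, φ (r h)), fun g => ?_⟩
  show φ (r g) = A.ρ (r g) (-(((Nat.card H : ℕ) : ZMod p)⁻¹ • ∑ h : H, φ (r h))) -
    -(((Nat.card H : ℕ) : ZMod p)⁻¹ • ∑ h : H, φ (r h))
  have h1 : ∑ h : H, φ (r h) = ∑ h : H, φ (r (g * h)) :=
    (Equiv.sum_comp (Equiv.mulLeft g) (fun h => φ (r h))).symm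
  have h2 : ∑ h : H, φ (r (g * h)) = ∑ h : H, A.ρ (r g) (φ (r h)) + Nat.card H • φ (r g) := by
    rw [Nat.card_eq_fintype_card, ← Finset.card_univ, ← Finset.sum_const,
      ← Finset.sum_add_distrib]
    exact Finset.sum_congr rfl fun h _ => by rw [map_mul, hc]
  have h3 : A.ρ (r g) (∑ h : H, φ (r h)) = ∑ h : H, A.ρ (r g) (φ (r h)) := map_sum _ _ _
  rw [map_neg, map_smul, h3, sub_neg_eq_add, neg_add_eq_sub, ← smul_sub]
  conv_rhs => rw [h1, h2]
  rw [add_sub_cancel_left, ← Nat.cast_smul_eq_nsmul (ZMod p), smul_smul, inv_mul_cancel₀ hu,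
    one_smul]

/-- primality of elements of `Nat.Primes` -/
local instance factNP5 (v : Nat.Primes) : Fact (v : ℕ).Prime := ⟨v.2⟩

variable {S}

/-- kernels in degree one -/
lemma locTotal_eq_zero_iff (hp2 : p ≠ 2) (f : Z1 (sLevels S) A.ρ) :
    locTotal (extArithLoc S) A (iH1 S A (H1.mk _ _ f)) = 0 ↔
      ∀ l : {l // l ∈ S}, pp1 (localGaloisToGlobal (l.1 : ℕ)) (LinearMap.id : A →ₗ[ZMod p] A) f.1 ∈
        B1 (resRep A.ρ (localGaloisToGlobal (l.1 : ℕ))) := by
  have key : ∀ l : {l // l ∈ S}, locTotal (extArithLoc S) A (iH1 S A (H1.mk _ _ f)) (Sum.inr l) = 0 ↔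
      pp1 (localGaloisToGlobal (l.1 : ℕ)) (LinearMap.id : A →ₗ[ZMod p] A) f.1 ∈
        B1 (resRep A.ρ (localGaloisToGlobal (l.1 : ℕ))) := fun l =>
    res₁_eq_zero_iff S A (primeLocalToGlobal l.1) f
  constructor
  · intro h l
    exact (key l).1 (congrFun h (Sum.inr l))
  · intro h
    funext v
    obtain v | v := v
    · have := (card_arch (p := p)).1
      have h1 := (res₁_eq_zero_iff S A archimedeanLoc f).2
        (mem_B1_of_card S A archimedeanLoc ((card_arch (p := p)).2 hp2) f)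
      exact h1
    · exact (key v).2 (h v)

end H1

section Final

variable {p : ℕ} [Fact p.Prime] {S : Finset Nat.Primes}

lemma exists_perfect {k V W : Type*} [Field k] [AddCommGroup V] [Module k V] [AddCommGroup W]
    [Module k W] [FiniteDimensional k V] [FiniteDimensional k W]
    (h : finrank k V = finrank k W) : ∃ B : V →ₗ[k] W →ₗ[k] k,
      (∀ y, (∀ x, B y x = 0) → y = 0) ∧ (∀ x, (∀ y, B y x = 0) → x = 0) := by
  have e : V ≃ₗ[k] Dual k W := LinearEquiv.ofFinrankEq _ _ (by rw [h, Subspace.dual_finrank_eq])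
  refine ⟨e.toLinearMap, fun y hy => ?_, fun x hx => ?_⟩
  · apply e.injective
    rw [map_zero]
    exact LinearMap.ext hy
  · rw [← Module.forall_dual_apply_eq_zero_iff k x]
    intro φ
    obtain ⟨y, rfl⟩ := e.surjective φ
    exact hx y

/-- primality of elements of `Nat.Primes` -/
local instance factNP6 (v : Nat.Primes) : Fact (v : ℕ).Prime := ⟨v.2⟩

lemma finite_map_of_inj {k V W : Type*} [Field k] [AddCommGroup V] [Module k V] [AddCommGroup W]
    [Module k W] [FiniteDimensional k V] (f : V →ₗ[k] W) (hf : Function.Injective f)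
    (K : Submodule k V) : FiniteDimensional k (K.map f) ∧ finrank k (K.map f) = finrank k K :=
  ⟨Module.Finite.equiv (Submodule.equivMapOfInjective f hf K),
    (LinearEquiv.finrank_eq (Submodule.equivMapOfInjective f hf K)).symm⟩

/-- smoothness -/
lemma smooth_of (M : Rep.{0} (ZMod p) Γ)
    (hsm : ∀ m : M, ∃ F : IntermediateField ℚ (AlgebraicClosure ℚ), FiniteDimensional ℚ F ∧
      ∀ s ∈ F.fixingSubgroup, M.ρ s m = m)
    (hMur : ∀ q : Nat.Primes, q ∉ S → ∀ A : ValuationSubring (AlgebraicClosure ℚ),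
      A.LiesOverPrime (q : ℕ) → ∀ g ∈ A.inertiaSubgroupIn ℚ, M.ρ g = 1) :
    Smooth (sLevels S) M.ρ := by
  intro m
  let H : Subgroup Γ :=
    { carrier := {g | M.ρ g m = m}
      one_mem' := by show M.ρ 1 m = m; rw [map_one]; rfl
      mul_mem' := fun {a b} ha hb => by
        show M.ρ (a * b) m = m
        rw [map_mul]
        show M.ρ a (M.ρ b m) = m
        rw [show M.ρ b m = m from hb]; exact ha
      inv_mem' := fun {a} ha => by
        show M.ρ a⁻¹ m = m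
        conv_lhs => rw [← (show M.ρ a m = m from ha)]
        rw [rho_inv_rho] }
  refine ⟨H, mem_sLevels_iff.2 ⟨?_, ?_⟩, fun s hs => hs⟩
  · obtain ⟨F, hF, h⟩ := hsm m
    exact mem_galLevels.2 ⟨F, hF, fun s hs => h s hs⟩
  · intro q hq A hA g hg
    show M.ρ g m = m
    rw [hMur q hq A hA g hg]; rfl

theorem exists_pairing (hp2 : p ≠ 2) (hpS : pPrime p ∈ S)
    (M : Rep.{0} (ZMod p) Γ)
    [FiniteDimensional (ZMod p) M]
    (hsm : ∀ m : M, ∃ F : IntermediateField ℚ (AlgebraicClosure ℚ), FiniteDimensional ℚ F ∧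
      ∀ s ∈ F.fixingSubgroup, M.ρ s m = m)
    (hMur : ∀ q : Nat.Primes, q ∉ S → ∀ A : ValuationSubring (AlgebraicClosure ℚ),
      A.LiesOverPrime (q : ℕ) → ∀ g ∈ A.inertiaSubgroupIn ℚ, M.ρ g = 1) :
    ∃ B : sha₁ S (M.dualTwist (cycloChar p)) →ₗ[ZMod p] sha₂ S M →ₗ[ZMod p] ZMod p,
      (∀ y, (∀ x, B y x = 0) → y = 0) ∧ (∀ x, (∀ y, B y x = 0) → x = 0) := by
  obtain ⟨D⟩ := exists_ptData hp2 hpS
  have hs := smooth_of M hsm hMur
  have hc : (2 : ℚ) * (-1 / 2) =
      ∑ l : {l // l ∈ S}, (if (l.1 : ℕ) = p then (-1 : ℚ) else 0) := by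
    rw [Finset.sum_eq_single (⟨pPrime p, hpS⟩ : {l // l ∈ S})]
    · norm_num
    · intro l _ hl
      rw [if_neg]
      intro h
      exact hl (Subtype.ext (Subtype.ext h))
    · intro h; exact absurd (Finset.mem_univ _) h
  have hfin2 : FiniteDimensional (ZMod p) (CFT.H2 (sLevels S) M.ρ) := (D.ecg.fin2 _ hs).h2
  have hsd := smooth_dualRep (χ := cycloChar p) D.ecg.mem hs
  have hfin1 : FiniteDimensional (ZMod p) (CFT.H1 (sLevels S) (dualRep (cycloChar p) M.ρ)) :=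
    (D.ecg.fin2 _ hsd).h1
  have heq := (D.finrank_sha_eq hc hs).1
  -- degree two
  have e2 := map_ker_loc2 (S := S) M hp2
  have hf2 : FiniteDimensional (ZMod p) (sha₂ S M) := by
    rw [← e2]
    infer_instance
  have r2 : finrank (ZMod p) (sha₂ S M) = finrank (ZMod p) (LinearMap.ker (loc2 D.hr M.ρ)) := by
    rw [← e2]
    exact LinearEquiv.finrank_map_eq (eH2 S M) _
  -- degree one
  have e1 : (LinearMap.ker (D.locd1 M.ρ)).map (iH1 S (M.dualTwist (cycloChar p))) =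
      sha₁ S (M.dualTwist (cycloChar p)) := by
    have key : ∀ f : Z1 (sLevels S) (dualRep (cycloChar p) M.ρ),
        locTotal (extArithLoc S) (M.dualTwist (cycloChar p))
          (iH1 S (M.dualTwist (cycloChar p)) (H1.mk _ _ f)) = 0 ↔
        D.locd1 M.ρ (H1.mk _ _ f) = 0 := by
      intro f
      have hB : ∀ l : {l // l ∈ S}, B1 (resRep (dualRep (cycloChar p) M.ρ)
          (localGaloisToGlobal (l.1 : ℕ))) = B1 (dualRep ((cycloChar p).comp
            (localGaloisToGlobal (l.1 : ℕ))) (resRep M.ρ (localGaloisToGlobal (l.1 : ℕ)))) :=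
        fun l => congrArg B1 (resRep_dualRep _ _ _)
      rw [locTotal_eq_zero_iff (M.dualTwist (cycloChar p)) hp2 f]
      constructor
      · intro h
        funext l
        refine H1.mk_eq_zero.2 ?_
        exact (hB l).le (h l)
      · intro h l
        have h1 := H1.mk_eq_zero.1 (congrFun h l)
        exact (hB l).ge h1
    ext y
    constructor
    · rintro ⟨x, hx, rfl⟩
      refine ⟨(mem_range_iH1 S _).1 ⟨x, rfl⟩, ?_⟩
      obtain ⟨f, rfl⟩ := H1.mk_surjective _ _ x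
      exact (key f).2 hx
    · rintro ⟨hy1, hy2⟩
      obtain ⟨x, rfl⟩ := (mem_range_iH1 S _).2 hy1
      obtain ⟨f, rfl⟩ := H1.mk_surjective _ _ x
      exact ⟨_, (key f).1 hy2, rfl⟩
  have hfin1' : FiniteDimensional (ZMod p)
    (CFT.H1 (sLevels S) (M.dualTwist (cycloChar p)).ρ) := hfin1
  have hmap := finite_map_of_inj (V := CFT.H1 (sLevels S) (M.dualTwist (cycloChar p)).ρ)
    (iH1 S (M.dualTwist (cycloChar p))) (iH1_injective S _) (LinearMap.ker (D.locd1 M.ρ))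
  have hf1 : FiniteDimensional (ZMod p) (sha₁ S (M.dualTwist (cycloChar p))) := by
    rw [← e1]
    exact hmap.1
  have r1 : finrank (ZMod p) (sha₁ S (M.dualTwist (cycloChar p))) =
      finrank (ZMod p) (LinearMap.ker (D.locd1 M.ρ)) := by
    rw [← e1]
    exact hmap.2
  exact exists_perfect (by rw [r1, r2, heq])

end Final

end Fermat.Agent.CFT.Bridge
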