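import Fermat.Agent.CFT.Inflate

/-!
# Cyclic quotients: a 2-cocycle inflated from a cyclic quotient of order `n` is cohomologous to the
standard "carry" cocycle of an invariant element.
-/

set_option autoImplicit false

namespace Fermat.Agent.CFT

variable {k : Type*} [CommRing k] {G : Type*} [Group G] {𝓛 : Levels G}
variable {V : Type*} [AddCommGroup V] [Module k V] {ρ : Representation k G V}
variable {n : ℕ} [NeZero n]

/-- The carry cocycle attached to an additive character and an element. -/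
def carry (κ : G → ZMod n) (b : V) (g h : G) : V :=
  if (κ g).val + (κ h).val < n then 0 else b

lemma carry_lt {κ : G → ZMod n} {b : V} {g h : G} (hlt : (κ g).val + (κ h).val < n) :
    carry κ b g h = 0 := if_pos hlt

lemma carry_ge {κ : G → ZMod n} {b : V} {g h : G} (hge : n ≤ (κ g).val + (κ h).val) :
    carry κ b g h = b := if_neg (not_lt.2 hge)

/-- `Σ_{i < (κ g).val} w i` has coboundary related to the carry cocycle. -/
lemma sum_carry {κ : G → ZMod n} (hκ : ∀ g h, κ (g * h) = κ g + κ h) (w : ℕ → V)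
    (hw : ∀ i, w (i + n) = w i) (g h : G) :
    ∑ i ∈ Finset.range ((κ g).val + (κ h).val), w i =
      ∑ i ∈ Finset.range (κ (g * h)).val, w i + carry κ (∑ i ∈ Finset.range n, w i) g h := by
  by_cases hlt : (κ g).val + (κ h).val < n
  · rw [carry_lt hlt, hκ, ZMod.val_add_of_lt hlt, add_zero]
  · rw [not_lt] at hlt
    rw [carry_ge hlt, hκ, ZMod.val_add_of_le hlt]
    have e : (κ g).val + (κ h).val = n + ((κ g).val + (κ h).val - n) := by omega
    conv_lhs => rw [e]
    rw [Finset.sum_range_add, add_comm]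
    congr 1
    refine Finset.sum_congr rfl fun i _ => ?_
    rw [add_comm, hw]

theorem exists_carry {κ : G → ZMod n} (hκ : ∀ g h, κ (g * h) = κ g + κ h)
    {H : Subgroup G} [hHn : H.Normal] (hκH : ∀ g, g ∈ H ↔ κ g = 0) {σ : G} (hσ : κ σ = 1)
    (hH : H ∈ 𝓛) {z : G → G → V} (hz : IsInflated H ρ z) :
    ∃ b : V, (∀ g, ρ g b = b) ∧ ∃ c, 𝓛.LC c ∧ z = carry κ b - d1 ρ c ∧
      ∀ g h, κ g = κ h → c g = c h := by
  have hone : κ 1 = 0 := by simpa using hκ 1 1
  have hpow : ∀ i : ℕ, κ (σ ^ i) = i := by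
    intro i
    induction i with
    | zero => simpa using hone
    | succ i ih => rw [pow_succ, hκ, ih, hσ]; push_cast; rfl
  have hinv : ∀ g, κ g⁻¹ = - κ g := by
    intro g
    have := hκ g g⁻¹
    rw [mul_inv_cancel, hone] at this
    exact (neg_eq_of_add_eq_zero_right this.symm).symm
  have hmem : ∀ g g', κ g = κ g' → g⁻¹ * g' ∈ H := by
    intro g g' h
    rw [hκH, hκ, hinv, h]; simp
  have hfst : ∀ g g' h, κ g = κ g' → z g h = z g' h := by
    intro g g' h hgg
    have := hz.fst g h (hmem g g' hgg)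
    rw [mul_inv_cancel_left] at this
    exact this.symm
  have hsnd : ∀ g h h', κ h = κ h' → z g h = z g h' := by
    intro g h h' hgg
    have := hz.snd g h (hmem h h' hgg)
    rw [mul_inv_cancel_left] at this
    exact this.symm
  set w : ℕ → V := fun i => z (σ ^ i) σ with hw
  have hwn : ∀ i, w (i + n) = w i := by
    intro i
    apply hfst
    rw [hpow, hpow]; simp
  have hρw : ∀ (g : G) (m : ℕ), ρ g (∑ i ∈ Finset.range m, w i) =
      ∑ i ∈ Finset.range m, w ((κ g).val + i) - z g (σ ^ m) := by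
    intro g m
    have h1 : ∀ i : ℕ, ρ g (w i) = w ((κ g).val + i) + (z g (σ ^ i) - z g (σ ^ (i + 1))) := by
      intro i
      have h2 := hz.cocycle g (σ ^ i) σ
      have h3 : z (g * σ ^ i) σ = w ((κ g).val + i) := by
        apply hfst
        rw [hκ, hpow, hpow]; simp
      rw [h3, ← pow_succ] at h2
      rw [← add_sub_assoc, h2]; simp [hw]
    rw [map_sum, Finset.sum_congr rfl fun i _ => h1 i, Finset.sum_add_distrib,
      Finset.sum_range_sub', pow_zero, hz.right 1 H.one_mem]
    abel
  refine ⟨∑ i ∈ Finset.range n, w i, ?_, fun g => ∑ i ∈ Finset.range (κ g).val, w i,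
    ⟨H, hH, ?_⟩, ?_, ?_⟩
  · intro g
    rw [hρw, hz.right]
    · rw [sub_zero]
      have h1 : ∑ i ∈ Finset.range n, w ((κ g).val + i) =
          ∑ i ∈ Finset.range ((κ g).val + n), w i - ∑ i ∈ Finset.range (κ g).val, w i := by
        rw [Finset.sum_range_add]; abel
      have h2 : ∑ i ∈ Finset.range ((κ g).val + n), w i =
          ∑ i ∈ Finset.range n, w i + ∑ i ∈ Finset.range (κ g).val, w i := by
        rw [add_comm, Finset.sum_range_add]
        congr 1
        refine Finset.sum_congr rfl fun i _ => ?_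
        rw [add_comm, hwn]
      rw [h1, h2]; abel
    · rw [hκH, hpow]; simp
  · intro g s hs
    beta_reduce
    rw [hκ, (hκH s).1 hs, add_zero]
  · ext g h
    simp only [Pi.sub_apply, d1_apply]
    rw [hρw]
    have h1 : z g (σ ^ (κ h).val) = z g h := hsnd _ _ _ (by rw [hpow]; simp)
    have h2 := sum_carry hκ w hwn g h
    rw [Finset.sum_range_add] at h2
    rw [h1]
    have h3 : ∑ i ∈ Finset.range (κ h).val, w ((κ g).val + i) =
      ∑ i ∈ Finset.range (κ (g * h)).val, w i + carry κ (∑ i ∈ Finset.range n, w i) g h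
        - ∑ i ∈ Finset.range (κ g).val, w i := by rw [← h2]; abel
    rw [h3]; abel
  · intro g h hgh
    beta_reduce
    rw [hgh]

/-- A carry cocycle is a coboundary iff the element is a norm. (`→` direction) -/
theorem exists_norm_of_carry (hn1 : 1 < n) {κ : G → ZMod n} (hκ : ∀ g h, κ (g * h) = κ g + κ h)
    {H : Subgroup G} [hHn : H.Normal] (hκH : ∀ g, g ∈ H ↔ κ g = 0) {σ : G} (hσ : κ σ = 1)
    (h90 : Z1 (𝓛.restrict H) (ρ.comp H.subtype) ≤ B1 (ρ.comp H.subtype))
    {b : V} {c : G → V} (hc : 𝓛.LC c) (hcb : carry κ b = d1 ρ c) :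
    ∃ a : V, (∀ g ∈ H, ρ g a = a) ∧ ∑ i ∈ Finset.range n, ρ (σ ^ i) a = b := by
  have hcb' : ∀ g h, carry κ b g h = ρ g (c h) - c (g * h) + c g := fun g h => by
    rw [hcb]; rfl
  have hone : κ 1 = 0 := by simpa using hκ 1 1
  have hpow : ∀ i : ℕ, κ (σ ^ i) = i := by
    intro i
    induction i with
    | zero => simpa using hone
    | succ i ih => rw [pow_succ, hκ, ih, hσ]; push_cast; rfl
  have hcarryH1 : ∀ g ∈ H, ∀ h, carry κ b g h = 0 := fun g hg h => by
    apply carry_lt
    rw [(hκH g).1 hg, ZMod.val_zero, zero_add]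
    exact ZMod.val_lt _
  have hcarryH2 : ∀ g, ∀ h ∈ H, carry κ b g h = 0 := fun g h hh => by
    apply carry_lt
    rw [(hκH h).1 hh, ZMod.val_zero, add_zero]
    exact ZMod.val_lt _
  have h1 : (fun g : H => c g) ∈ Z1 (𝓛.restrict H) (ρ.comp H.subtype) := by
    constructor
    · exact hc.precomp (Levels.cont_subtype H)
    · intro g h
      have := hcb' g h
      rw [hcarryH1 g g.2 h] at this
      simp only [Subgroup.coe_mul, MonoidHom.comp_apply, Subgroup.subtype_apply]
      rw [eq_comm, sub_add_eq_add_sub, sub_eq_zero] at this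
      exact this.symm
  obtain ⟨v, hv⟩ := mem_B1.1 (h90 h1)
  let c' : G → V := fun g => c g - (ρ g v - v)
  have hc' : ∀ g h, carry κ b g h = ρ g (c' h) - c' (g * h) + c' g := fun g h => by
    rw [hcb']
    simp only [c', map_sub, map_mul, Module.End.mul_apply]
    abel
  have hc'H : ∀ g ∈ H, c' g = 0 := fun g hg => by
    simp only [c']
    have := hv ⟨g, hg⟩
    simp only [MonoidHom.comp_apply, Subgroup.subtype_apply] at this
    rw [this, sub_self]
  have hr : ∀ g, ∀ h ∈ H, c' (g * h) = c' g := fun g h hh => by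
    have := hc' g h
    rw [hcarryH2 g h hh, hc'H h hh, map_zero, zero_sub, eq_comm, neg_add_eq_zero] at this
    exact this
  have hl : ∀ g ∈ H, ∀ h, c' (g * h) = ρ g (c' h) := fun g hg h => by
    have := hc' g h
    rw [hcarryH1 g hg h, hc'H g hg, add_zero, eq_comm, sub_eq_zero] at this
    exact this.symm
  refine ⟨c' σ, fun g hg => ?_, ?_⟩
  · rw [← hl g hg σ]
    have e : g * σ = σ * (σ⁻¹ * g * σ) := by group
    rw [e, hr σ _ (by simpa using hHn.conj_mem g hg σ⁻¹)]
  · have key : ∀ m : ℕ, m < n → c' (σ ^ m) = ∑ i ∈ Finset.range m, ρ (σ ^ i) (c' σ) := by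
      intro m
      induction m with
      | zero => intro _; simpa using hc'H 1 H.one_mem
      | succ m ih =>
        intro hm
        have h2 := hc' (σ ^ m) σ
        rw [Finset.sum_range_succ, ← ih (by omega)]
        have h3 : carry κ b (σ ^ m) σ = 0 := by
          apply carry_lt
          rw [hpow, hσ, ZMod.val_natCast, Nat.mod_eq_of_lt (by omega : m < n)]
          have : Fact (1 < n) := ⟨by omega⟩
          rw [ZMod.val_one]; exact hm
        rw [h3, ← pow_succ] at h2
        rw [eq_comm, sub_add_eq_add_sub, sub_eq_zero] at h2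
        rw [← h2]; abel
    obtain ⟨m, rfl⟩ : ∃ m, n = m + 1 := ⟨n - 1, by omega⟩
    have h2 := hc' (σ ^ m) σ
    have h3 : carry κ b (σ ^ m) σ = b := by
      apply carry_ge
      rw [hpow, hσ, ZMod.val_natCast, Nat.mod_eq_of_lt (by omega : m < m + 1)]
      have : Fact (1 < m + 1) := ⟨by omega⟩
      rw [ZMod.val_one]
    rw [h3, ← pow_succ, hc'H (σ ^ (m + 1)) ((hκH _).2 (by rw [hpow]; simp)),
      key m (by omega)] at h2
    rw [Finset.sum_range_succ, h2]; abel

end Fermat.Agent.CFT
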