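import Mathlib
import Fermat.Agent.CFT.GlobH
import Fermat.Agent.CFT.SLevThm

set_option autoImplicit false

/-!
# `D_main` without hypotheses
-/

open NumberField IsDedekindDomain Module

namespace Fermat.Agent.CFT

open Fermat.Agent.Frob (below)
open Loc (levU UA)

/-- local abbreviation -/
local notation "Qb" => AlgebraicClosure ℚ

variable {p : ℕ} [Fact p.Prime] {L : IntermediateField ℚ Qb} [FiniteDimensional ℚ L]

/-- **Hasse principle**, in the form used by `D_main` -/
theorem hasseP {ζ : Qb} (hp2 : p ≠ 2) (hζ : IsPrimitiveRoot ζ p) (hζL : ζ ∈ L) : SlHasse p L :=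
  slHasse hp2 hζ hζL

/-- **(D)** -/
theorem D_main' {S : Finset Nat.Primes} {ζ : Qb} (hp2 : p ≠ 2) (hζ : IsPrimitiveRoot ζ p)
    (hζL : ζ ∈ L) (hL : L.fixingSubgroup ∈ sLevels S) (hpS : ExtCitation.pPrime p ∈ S)
    (A : {v // v ∈ SL S L} → ValuationSubring Qb)
    (hA : ∀ v, below (𝓞 L) (A v) = v.1.asIdeal) :
    (SL S L).Finite ∧
    FiniteDimensional (ZMod p)
      (H1 ((sLevels S).restrict L.fixingSubgroup) (triv p L.fixingSubgroup)) ∧
    FiniteDimensional (ZMod p)
      (H2 ((sLevels S).restrict L.fixingSubgroup) (triv p L.fixingSubgroup)) ∧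
    finrank (ZMod p) (H1 ((sLevels S).restrict L.fixingSubgroup) (triv p L.fixingSubgroup)) =
      finrank (ZMod p) (LinearMap.ker (slLoc2 p S L A)) + (SL S L).ncard + finrank ℚ L / 2 :=
  D_main hp2 hζ hζL hL hpS (hasseP hp2 hζ hζL) A hA

end Fermat.Agent.CFT
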