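import Mathlib
import Fermat.Agent.CFT.ArtinP
import Fermat.Agent.CFT.PTAbstract

/-!
# Algebraic preparations for the global Euler characteristic formula
-/

set_option autoImplicit false
set_option linter.unusedSectionVars false

open Module

namespace Fermat.Agent.CFT

section Inv

variable {k : Type*} [Field k] {K : Type*} [Group K] [Finite K]
variable {A B C : Type*} [AddCommGroup A] [Module k A] [AddCommGroup B] [Module k B]
  [AddCommGroup C] [Module k C]
variable {ρA : Representation k K A} {ρB : Representation k K B} {ρC : Representation k K C}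

/-- exactness of invariants -/
theorem SES.finrank_inv (hK : (Nat.card K : k) ≠ 0) [FiniteDimensional k B]
    (E : SES ρA ρB ρC) : finrank k ρB.invariants =
      finrank k ρA.invariants + finrank k ρC.invariants := by
  obtain ⟨s, hs, hs2⟩ := E.exists_section hK
  have h1 := LinearMap.finrank_range_add_finrank_ker E.p0
  have h2 : LinearMap.range E.p0 = ⊤ := by
    rw [eq_top_iff]
    rintro ⟨c, hc⟩ -
    refine ⟨⟨s c, fun g => ?_⟩, Subtype.ext (hs c)⟩
    rw [← hs2, hc g]
  have h3 : LinearMap.ker E.p0 = LinearMap.range E.i0 := by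
    ext b
    constructor
    · intro hb
      have hb' : E.π b = 0 := congrArg Subtype.val (LinearMap.mem_ker.1 hb)
      refine ⟨⟨E.τ b, fun g => ?_⟩, Subtype.ext (E.ιτ_of_π hb')⟩
      apply E.ι_injective
      rw [E.hι, E.ιτ_of_π hb', b.2 g]
    · rintro ⟨a, rfl⟩
      exact Subtype.ext (E.πι a)
  have h4 : finrank k (LinearMap.range E.i0) = finrank k ρA.invariants :=
    LinearMap.finrank_range_of_inj fun a a' h => Subtype.ext (E.ι_injective
      (congrArg Subtype.val h))
  rw [h2, h3, finrank_top, h4] at h1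
  omega

/-- contravariant functoriality of `Hom` -/
def SES.homLeft {k : Type*} [Field k] {K : Type*} [Group K]
    {A B C W : Type*} [AddCommGroup A] [Module k A] [AddCommGroup B] [Module k B]
    [AddCommGroup C] [Module k C] [AddCommGroup W] [Module k W]
    {ρA : Representation k K A} {ρB : Representation k K B} {ρC : Representation k K C}
    (E : SES ρA ρB ρC) (ρW : Representation k K W) :
    SES (Representation.linHom ρC ρW) (Representation.linHom ρB ρW)
      (Representation.linHom ρA ρW) where
  ι := LinearMap.lcomp k W E.π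
  π := LinearMap.lcomp k W E.ι
  σ := LinearMap.lcomp k W E.τ
  τ := LinearMap.lcomp k W E.σ
  hι g T := LinearMap.ext fun b => by
    change ρW g (T (ρC g⁻¹ (E.π b))) = ρW g (T (E.π (ρB g⁻¹ b)))
    rw [E.hπ]
  hπ g T := LinearMap.ext fun b => by
    change ρW g (T (ρB g⁻¹ (E.ι b))) = ρW g (T (E.ι (ρA g⁻¹ b)))
    rw [E.hι]
  τι T := LinearMap.ext fun c => congrArg T (E.πσ c)
  πσ T := LinearMap.ext fun a => congrArg T (E.τι a)
  decomp T := LinearMap.ext fun b => by
    change T (E.σ (E.π b)) + T (E.ι (E.τ b)) = T b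
    rw [← map_add, add_comm, E.decomp]

/-- invariants of the dual -/
theorem finrank_inv_dual_le (hK : (Nat.card K : k) ≠ 0) [FiniteDimensional k A]
    (ρ : Representation k K A) : finrank k ρ.dual.invariants ≤ finrank k ρ.invariants := by
  classical
  have := Fintype.ofFinite K
  let f : ρ.dual.invariants →ₗ[k] Dual k ρ.invariants :=
    (LinearMap.lcomp k k ρ.invariants.subtype).comp ρ.dual.invariants.subtype
  have hf : Function.Injective f := by
    rw [injective_iff_map_eq_zero]
    rintro ⟨l, hl⟩ h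
    refine Subtype.ext (LinearMap.ext fun v => ?_)
    have h1 : ∀ g, l (ρ g v) = l v := fun g => by
      have h2 := LinearMap.congr_fun (hl g⁻¹) v
      rw [Representation.dual_apply, inv_inv] at h2
      exact h2
    have h3 : (∑ g : K, ρ g v) ∈ ρ.invariants := fun h => by
      rw [map_sum, ← Equiv.sum_comp (Equiv.mulLeft h) fun g => ρ g v]
      refine Finset.sum_congr rfl fun g _ => ?_
      rw [Equiv.coe_mulLeft, map_mul]
      rfl
    have h4 : l (∑ g : K, ρ g v) = 0 := LinearMap.congr_fun h ⟨_, h3⟩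
    rw [map_sum, Finset.sum_congr rfl fun g _ => h1 g, Finset.sum_const, Finset.card_univ,
      ← Nat.card_eq_fintype_card, ← Nat.cast_smul_eq_nsmul k, smul_eq_mul] at h4
    exact (mul_eq_zero.1 h4).resolve_left hK
  have h1 := LinearMap.finrank_le_finrank_of_injective hf
  rwa [Subspace.dual_finrank_eq] at h1

lemma trace_self_eq (f : k →ₗ[k] k) : LinearMap.trace k k f = f 1 := by
  rw [LinearMap.trace_eq_matrix_trace k (Basis.singleton Unit k)]
  simp [Matrix.trace, LinearMap.toMatrix_apply]

/-- symmetry of `Hom` -/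
theorem finrank_hom_swap_le (hK : (Nat.card K : k) ≠ 0) [FiniteDimensional k A]
    [FiniteDimensional k B] (ρA : Representation k K A) (ρB : Representation k K B) :
    finrank k (Representation.linHom ρA ρB).invariants ≤
      finrank k (Representation.linHom ρB ρA).invariants := by
  classical
  have := Fintype.ofFinite K
  let tr : (A →ₗ[k] B) →ₗ[k] (B →ₗ[k] A) →ₗ[k] k :=
    LinearMap.mk₂ k (fun S T => LinearMap.trace k B (S ∘ₗ T))
      (fun a b c => by rw [LinearMap.add_comp, map_add])
      (fun a b c => by rw [LinearMap.smul_comp, map_smul])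
      (fun a b c => by rw [LinearMap.comp_add, map_add])
      (fun a b c => by rw [LinearMap.comp_smul, map_smul])
  let f : (Representation.linHom ρA ρB).invariants →ₗ[k]
      Dual k (Representation.linHom ρB ρA).invariants :=
    tr.compl₁₂ (Submodule.subtype _) (Submodule.subtype _)
  have hf : Function.Injective f := by
    rw [injective_iff_map_eq_zero]
    rintro ⟨S, hS⟩ h
    have hS' : ∀ g, ρB g ∘ₗ S ∘ₗ ρA g⁻¹ = S := hS
    have h0 : ∀ T : B →ₗ[k] A, LinearMap.trace k B (S ∘ₗ T) = 0 := by
      intro T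
      have h3 : (∑ g : K, Representation.linHom ρB ρA g T) ∈
          (Representation.linHom ρB ρA).invariants := fun h => by
        rw [map_sum, ← Equiv.sum_comp (Equiv.mulLeft h) fun g => Representation.linHom ρB ρA g T]
        refine Finset.sum_congr rfl fun g _ => ?_
        rw [Equiv.coe_mulLeft, map_mul]
        rfl
      have h4 : LinearMap.trace k B (S ∘ₗ (∑ g : K, Representation.linHom ρB ρA g T)) = 0 :=
        LinearMap.congr_fun h ⟨_, h3⟩
      have h5 : ∀ g : K, LinearMap.trace k B (S ∘ₗ Representation.linHom ρB ρA g T) =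
          LinearMap.trace k B (S ∘ₗ T) := fun g => by
        rw [Representation.linHom_apply]
        have e1 : S ∘ₗ ρA g ∘ₗ T ∘ₗ ρB g⁻¹ = (S ∘ₗ ρA g ∘ₗ T) ∘ₗ ρB g⁻¹ := rfl
        rw [e1, LinearMap.trace_comp_comm']
        congr 1
        have e2 := hS' g⁻¹
        rw [inv_inv] at e2
        conv_rhs => rw [← e2]
        rfl
      have h6 : S ∘ₗ (∑ g : K, Representation.linHom ρB ρA g T) =
          ∑ g : K, S ∘ₗ Representation.linHom ρB ρA g T := LinearMap.ext fun b => by
        rw [LinearMap.comp_apply, LinearMap.sum_apply, LinearMap.sum_apply, map_sum]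
        rfl
      rw [h6, map_sum, Finset.sum_congr rfl fun g _ => h5 g, Finset.sum_const,
        Finset.card_univ, ← Nat.card_eq_fintype_card, ← Nat.cast_smul_eq_nsmul k,
        smul_eq_mul] at h4
      exact (mul_eq_zero.1 h4).resolve_left hK
    refine Subtype.ext (LinearMap.ext fun a => ?_)
    change S a = 0
    rw [← Module.forall_dual_apply_eq_zero_iff k]
    intro l
    have h6 := h0 (LinearMap.toSpanSingleton k A a ∘ₗ l)
    have h7 : S ∘ₗ LinearMap.toSpanSingleton k A a ∘ₗ l =
      (S ∘ₗ LinearMap.toSpanSingleton k A a) ∘ₗ l := rfl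
    rw [h7, LinearMap.trace_comp_comm', trace_self_eq] at h6
    simpa using h6
  have h1 := LinearMap.finrank_le_finrank_of_injective hf
  rwa [Subspace.dual_finrank_eq] at h1

end Inv

/-- `W ↦ dim Hom_K(W, M)` for groups of order prime to `p` -/
noncomputable def hFun {p : ℕ} [Fact p.Prime] {K : Type} [Group K] [Finite K]
    (hK : ¬ p ∣ Nat.card K) {W : Type} [AddCommGroup W] [Module (ZMod p) W]
    [FiniteDimensional (ZMod p) W] (σ : Representation (ZMod p) K W) : ModFun p K where
  val ρ := finrank (ZMod p) (Representation.linHom ρ σ).invariants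
  add {A B C} _ _ _ _ _ _ ρA ρB ρC E hB := by
    have hK' : (Nat.card K : ZMod p) ≠ 0 := fun h => hK ((ZMod.natCast_eq_zero_iff _ _).1 h)
    have h1 := (E.homLeft σ).finrank_inv hK'
    rw [h1]
    push_cast
    ring

lemma hFun_val {p : ℕ} [Fact p.Prime] {K : Type} [Group K] [Finite K]
    (hK : ¬ p ∣ Nat.card K) {W : Type} [AddCommGroup W] [Module (ZMod p) W]
    [FiniteDimensional (ZMod p) W] (σ : Representation (ZMod p) K W) {V : Type} [AddCommGroup V]
    [Module (ZMod p) V] (ρ : Representation (ZMod p) K V) : (hFun hK σ).val ρ =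
      finrank (ZMod p) (Representation.linHom ρ σ).invariants := rfl

section Perm

variable {k : Type*} [CommRing k] {G : Type*} [Group G] {V : Type*} [AddCommGroup V] [Module k V]

/-- `Hom(k[X], V) = Map(X, V)` -/
lemma req_linHom_perm (X : Type*) [MulAction G X] [Finite X] (ρ : Representation k G V) :
    REq (Representation.linHom (mapRep (Representation.trivial k G k) X) ρ) (mapRep ρ X) := by
  classical
  have := Fintype.ofFinite X
  refine ⟨((Pi.basisFun k X).constr k).symm, fun g T => funext fun x => ?_⟩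
  change ρ g (T (mapRep (Representation.trivial k G k) X g⁻¹ (Pi.basisFun k X x))) =
    ρ g (T (Pi.basisFun k X (g⁻¹ • x)))
  congr 2
  funext y
  rw [Pi.basisFun_apply, Pi.basisFun_apply, mapRep_apply, Representation.trivial_apply,
    inv_inv, Pi.single_apply, Pi.single_apply]
  congr 1
  rw [eq_inv_smul_iff]

lemma REq.mapRep_congr {X Y : Type*} [MulAction G X] [MulAction G Y] (e : X ≃ Y)
    (he : ∀ (g : G) (x : X), e (g • x) = g • e x) (ρ : Representation k G V) :
    REq (mapRep ρ X) (mapRep ρ Y) := by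
  have he' : ∀ (g : G) (y : Y), e.symm (g • y) = g • e.symm y := fun g y => by
    apply e.injective
    rw [he, e.apply_symm_apply, e.apply_symm_apply]
  refine ⟨LinearEquiv.funCongrLeft k V e.symm, fun g f => funext fun y => ?_⟩
  change ρ g (f (g⁻¹ • e.symm y)) = ρ g (f (e.symm (g⁻¹ • y)))
  rw [he']

lemma REq.finrank_fixOn {A B : Type*} [AddCommGroup A] [Module k A] [AddCommGroup B] [Module k B]
    {ρA : Representation k G A} {ρB : Representation k G B} (h : REq ρA ρB) (D : Subgroup G) :
    finrank k (fixOn ρA D) = finrank k (fixOn ρB D) := by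
  obtain ⟨e, he⟩ := h
  refine LinearEquiv.finrank_eq (LinearEquiv.ofSubmodules e _ _ ?_)
  ext b
  rw [Submodule.mem_map]
  constructor
  · rintro ⟨a, ha, rfl⟩ g hg
    have h1 := he g a
    rw [ha g hg] at h1
    exact h1.symm
  · intro hb
    refine ⟨e.symm b, fun g hg => ?_, e.apply_symm_apply b⟩
    apply e.injective
    rw [he]
    change ρB g (e (e.symm b)) = e (e.symm b)
    rw [e.apply_symm_apply, hb g hg]

/-- one half of the symmetry of double cosets, as a function -/
def mackFun (ρ : Representation k G V) (C D : Subgroup G)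
    (ψ : fixOn (mapRep ρ (G ⧸ C)) D) (x : G ⧸ D) : V :=
  Quotient.liftOn' x (fun x : G => ρ x (ψ.1 ((x⁻¹ : G) : G ⧸ C)))
      (fun x y hxy => by
        rw [QuotientGroup.leftRel_apply] at hxy
        have h1 := congrFun (ψ.2 _ (D.inv_mem hxy)) ((y⁻¹ : G) : G ⧸ C)
        rw [mapRep_apply, inv_inv, MulAction.Quotient.smul_mk, smul_eq_mul] at h1
        have h2 : x⁻¹ * y * y⁻¹ = x⁻¹ := by group
        rw [h2] at h1
        rw [← h1, ← Module.End.mul_apply, ← map_mul]
        congr 2
        group)

lemma mackFun_mk (ρ : Representation k G V) (C D : Subgroup G)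
    (ψ : fixOn (mapRep ρ (G ⧸ C)) D) (x : G) :
    mackFun ρ C D ψ (x : G ⧸ D) = ρ x (ψ.1 ((x⁻¹ : G) : G ⧸ C)) := rfl

lemma mackFun_mem (ρ : Representation k G V) (C D : Subgroup G)
    (ψ : fixOn (mapRep ρ (G ⧸ C)) D) : mackFun ρ C D ψ ∈ fixOn (mapRep ρ (G ⧸ D)) C := by
  intro c hc
  funext x
  obtain ⟨x, rfl⟩ := QuotientGroup.mk_surjective x
  rw [mapRep_apply, MulAction.Quotient.smul_mk, smul_eq_mul, mackFun_mk, mackFun_mk,
    ← Module.End.mul_apply, ← map_mul, mul_inv_cancel_left]
  have h3 : (((c⁻¹ * x)⁻¹ : G) : G ⧸ C) = ((x⁻¹ : G) : G ⧸ C) := by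
    rw [QuotientGroup.eq]
    have h2 : ((c⁻¹ * x)⁻¹)⁻¹ * x⁻¹ = c⁻¹ := by group
    rw [h2]
    exact C.inv_mem hc
  rw [h3]

/-- one half of the symmetry of double cosets -/
def mack (ρ : Representation k G V) (C D : Subgroup G) :
    fixOn (mapRep ρ (G ⧸ C)) D →ₗ[k] fixOn (mapRep ρ (G ⧸ D)) C where
  toFun ψ := ⟨mackFun ρ C D ψ, mackFun_mem ρ C D ψ⟩
  map_add' ψ ψ' := by
    refine Subtype.ext (funext fun x => ?_)
    obtain ⟨x, rfl⟩ := QuotientGroup.mk_surjective x
    change mackFun ρ C D (ψ + ψ') (x : G ⧸ D) =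
      mackFun ρ C D ψ (x : G ⧸ D) + mackFun ρ C D ψ' (x : G ⧸ D)
    rw [mackFun_mk, mackFun_mk, mackFun_mk, ← map_add]
    rfl
  map_smul' c ψ := by
    refine Subtype.ext (funext fun x => ?_)
    obtain ⟨x, rfl⟩ := QuotientGroup.mk_surjective x
    change mackFun ρ C D (c • ψ) (x : G ⧸ D) = c • mackFun ρ C D ψ (x : G ⧸ D)
    rw [mackFun_mk, mackFun_mk, ← map_smul]
    rfl

lemma mack_apply (ρ : Representation k G V) (C D : Subgroup G)
    (ψ : fixOn (mapRep ρ (G ⧸ C)) D) (x : G) :
    (mack ρ C D ψ).1 (x : G ⧸ D) = ρ x (ψ.1 ((x⁻¹ : G) : G ⧸ C)) := rfl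

lemma mack_mack (ρ : Representation k G V) (C D : Subgroup G)
    (ψ : fixOn (mapRep ρ (G ⧸ C)) D) : mack ρ D C (mack ρ C D ψ) = ψ := by
  refine Subtype.ext (funext fun x => ?_)
  obtain ⟨x, rfl⟩ := QuotientGroup.mk_surjective x
  rw [mack_apply, mack_apply, ← Module.End.mul_apply, ← map_mul, mul_inv_cancel, map_one, inv_inv]
  rfl

/-- symmetry of double cosets -/
theorem finrank_mack (ρ : Representation k G V) (C D : Subgroup G) :
    finrank k (fixOn (mapRep ρ (G ⧸ C)) D) = finrank k (fixOn (mapRep ρ (G ⧸ D)) C) :=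
  LinearEquiv.finrank_eq
    { mack ρ C D with
      invFun := mack ρ D C
      left_inv := mack_mack ρ C D
      right_inv := mack_mack ρ D C }

/-- the number of orbits as a rank -/
theorem card_orbits_eq {G' : Type*} [Group G'] {X Y : Type*} [MulAction G' X] [MulAction G Y]
    [Finite X] (e : X ≃ Y) (D : Subgroup G) (h1 : ∀ g' : G', ∃ d ∈ D, ∀ x, e (g' • x) = d • e x)
    (h2 : ∀ d ∈ D, ∃ g' : G', ∀ x, e (g' • x) = d • e x) :
    finrank ℤ (fixOn (mapRep (Representation.trivial ℤ G ℤ) Y) D) =
      Nat.card (MulAction.orbitRel.Quotient G' X) := by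
  classical
  have hfin : Finite (MulAction.orbitRel.Quotient G' X) := Quotient.finite _
  have := Fintype.ofFinite (MulAction.orbitRel.Quotient G' X)
  rw [Nat.card_eq_fintype_card, ← Module.finrank_fintype_fun_eq_card ℤ]
  let F : (MulAction.orbitRel.Quotient G' X → ℤ) →ₗ[ℤ]
      fixOn (mapRep (Representation.trivial ℤ G ℤ) Y) D :=
    { toFun := fun f => ⟨fun y => f (Quotient.mk'' (e.symm y)), fun d hd => funext fun y => by
        rw [mapRep_apply, Representation.trivial_apply]
        obtain ⟨g', hg'⟩ := h2 _ (D.inv_mem hd)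
        have h3 : e.symm (d⁻¹ • y) = g' • e.symm y := by
          rw [Equiv.symm_apply_eq, hg', e.apply_symm_apply]
        rw [h3]
        congr 1
        exact Quotient.sound' ⟨g', rfl⟩⟩
      map_add' := fun _ _ => rfl
      map_smul' := fun _ _ => rfl }
  refine (LinearEquiv.finrank_eq (LinearEquiv.ofBijective F ⟨?_, ?_⟩)).symm
  · intro f f' h
    funext q
    induction q using Quotient.inductionOn' with
    | h x =>
      have h3 := congrFun (congrArg Subtype.val h) (e x)
      change f (Quotient.mk'' (e.symm (e x))) = f' (Quotient.mk'' (e.symm (e x))) at h3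
      rwa [e.symm_apply_apply] at h3
  · rintro ⟨f, hf⟩
    refine ⟨fun q => Quotient.liftOn' q (fun x => f (e x)) fun x y hxy => ?_,
      Subtype.ext (funext fun y => ?_)⟩
    · obtain ⟨g', hg'⟩ := hxy
      obtain ⟨d, hd, hd2⟩ := h1 g'
      change g' • y = x at hg'
      rw [← hg', hd2]
      have h3 := congrFun (hf d hd) (d • e y)
      rw [mapRep_apply, Representation.trivial_apply, inv_smul_smul] at h3
      exact h3.symm
    · change f (e (e.symm y)) = f y
      rw [e.apply_symm_apply]

end Perm

end Fermat.Agent.CFT
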