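import Mathlib
import Fermat.Agent.CFT.PTInst
import Fermat.Agent.TW.LocalUr
import Fermat.Agent.TW.Interface

/-!
# The local pairings for the Greenberg-Wiles formula
-/

set_option autoImplicit false

open Module ExtCitation
open scoped Pointwise NumberField

namespace Fermat.Agent.CFT

open Fermat.Agent.TW (locRep H1loc resv cartier h0loc invOn cont_loc)

local notation "Qb" => AlgebraicClosure ℚ
local notation "Γ" => (AlgebraicClosure ℚ ≃ₐ[ℚ] AlgebraicClosure ℚ)

/-- primality of elements of `Nat.Primes` -/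
local instance factNPw (v : Nat.Primes) : Fact (v : ℕ).Prime := ⟨v.2⟩

variable {p : ℕ} [Fact p.Prime]

/-- the invariant maps -/
noncomputable def gwInv (hp2 : p ≠ 2) (l : Nat.Primes) :
    H2 (locLevels (l : ℕ)) (charRep ((cycloChar p).comp (localGaloisToGlobal l))) →ₗ[ZMod p]
      ZMod p :=
  (exists_inv_uncond p (lt_of_le_of_ne (Fact.out : p.Prime).two_le (Ne.symm hp2))).choose l

lemma gwInv_ne (hp2 : p ≠ 2) (l : Nat.Primes) : gwInv hp2 l ≠ 0 :=
  (exists_inv_uncond p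
    (lt_of_le_of_ne (Fact.out : p.Prime).two_le (Ne.symm hp2))).choose_spec.1 l

/-- local duality data at `l` -/
noncomputable def gwLoc (hp2 : p ≠ 2) (l : Nat.Primes) :
    LocData p (locLevels (l : ℕ)) ((cycloChar p).comp (localGaloisToGlobal (l : ℕ)))
      (if (l : ℕ) = p then (-1 : ℚ) else 0) where
  ecg := loc_ecg
  inv := gwInv hp2 l
  inv_ne := gwInv_ne hp2 l
  h2_le := fun _ hN hle => loc_h2_le hN hle

/-- global data -/
noncomputable def gwPre (hp2 : p ≠ 2) {S : Finset Nat.Primes} (hpS : pPrime p ∈ S) :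
    PreData p (sLevels S) (fun l : {l // l ∈ S} => locLevels (l.1 : ℕ))
      (fun l : {l // l ∈ S} => localGaloisToGlobal (l.1 : ℕ)) (cycloChar p)
      (fun l : {l // l ∈ S} => if (l.1 : ℕ) = p then (-1 : ℚ) else 0) where
  hr := fun l => cont_locLevels S (l.1 : ℕ)
  loc := fun l => gwLoc hp2 l.1
  v0 := ⟨pPrime p, hpS⟩
  recip := fun x => by
    have h1 := (exists_inv_uncond p
      (lt_of_le_of_ne (Fact.out : p.Prime).two_le (Ne.symm hp2))).choose_spec.2 S x
    rw [← Finset.sum_coe_sort S] at h1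
    exact h1
  mem := ker_cycloChar_mem hpS
  index := index_ker_not_dvd _
  K := cycK p
  K_mem := fun n => cycK_mem p hpS n
  K_normal := fun n => inferInstance
  K_pow := fun n g hg => cycK_pow p n hg
  K_index := cycK_index S
  fin := fun W hW hWχ => (preData_fin hp2 hpS hW hWχ).1
  h1 := fun W hW hWχ => (preData_fin hp2 hpS hW hWχ).2

/-- global Poitou-Tate data -/
noncomputable def gwPT (hp2 : p ≠ 2) {S : Finset Nat.Primes} (hpS : pPrime p ∈ S) :
    PTData p (sLevels S) (fun l : {l // l ∈ S} => locLevels (l.1 : ℕ))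
      (fun l : {l // l ∈ S} => localGaloisToGlobal (l.1 : ℕ)) (cycloChar p) (-1/2)
      (fun l : {l // l ∈ S} => if (l.1 : ℕ) = p then (-1 : ℚ) else 0) :=
  (gwPre hp2 hpS).ptData

lemma gwPT_loc (hp2 : p ≠ 2) {S : Finset Nat.Primes} (hpS : pPrime p ∈ S) (l : {l // l ∈ S}) :
    (gwPT hp2 hpS).loc l = gwLoc hp2 l.1 := rfl

variable {V : Type} [AddCommGroup V] [Module (ZMod p) V]

lemma cartier_eq (ρ : Representation (ZMod p) Γ V) : cartier p ρ = dualRep (cycloChar p) ρ := rfl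

lemma smooth_loc {ρ : Representation (ZMod p) Γ V} {S : Finset Nat.Primes}
    (hs : Smooth (sLevels S) ρ) (v : Nat.Primes) : Smooth (locLevels (v : ℕ)) (locRep ρ v) :=
  hs.res (cont_loc S v)

/-- local pairing -/
noncomputable def gwB (hp2 : p ≠ 2) {ρ : Representation (ZMod p) Γ V} {v : Nat.Primes}
    (hs : Smooth (locLevels (v : ℕ)) (locRep ρ v)) :
    H1loc ρ v →ₗ[ZMod p] H1loc (cartier p ρ) v →ₗ[ZMod p] ZMod p :=
  (((gwLoc hp2 v).pair1 hs) ∘ₗ (H1.map (locLevels (v : ℕ)) (locLevels (v : ℕ))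
    (resRep (dualRep (cycloChar p) ρ) (localGaloisToGlobal v))
    (dualRep ((cycloChar p).comp (localGaloisToGlobal v)) (resRep ρ (localGaloisToGlobal v)))
    (MonoidHom.id _) LinearMap.id
    (RepIso.dualRes (locLevels (v : ℕ)) (cycloChar p) ρ (localGaloisToGlobal v)).hf
    (RepIso.dualRes (locLevels (v : ℕ)) (cycloChar p) ρ (localGaloisToGlobal v)).compat)).flip

lemma gwB_nondeg (hp2 : p ≠ 2) [FiniteDimensional (ZMod p) V]
    {ρ : Representation (ZMod p) Γ V} {v : Nat.Primes}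
    (hs : Smooth (locLevels (v : ℕ)) (locRep ρ v)) (y : H1loc (cartier p ρ) v)
    (h : ∀ x, gwB hp2 hs x y = 0) : y = 0 := by
  have h1 := (gwLoc hp2 v).nd_one hs _ h
  exact (RepIso.dualRes (locLevels (v : ℕ)) (cycloChar p) ρ
    (localGaloisToGlobal v)).h1_bijective.1 (h1.trans (map_zero _).symm)

lemma finite_H1loc (hp2 : p ≠ 2) [FiniteDimensional (ZMod p) V]
    {ρ : Representation (ZMod p) Γ V} {v : Nat.Primes}
    (hs : Smooth (locLevels (v : ℕ)) (locRep ρ v)) :
    FiniteDimensional (ZMod p) (H1loc ρ v) :=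
  ((gwLoc hp2 v).ecg.fin2 _ hs).h1

/-- the Greenberg-Wiles inequality for a pairing `B` and a set `S` -/
def GWIneq (p : ℕ) [Fact p.Prime] {V : Type} [AddCommGroup V] [Module (ZMod p) V]
    (ρ : Representation (ZMod p) Γ V)
    (B : ∀ v : Nat.Primes, H1loc ρ v →ₗ[ZMod p] H1loc (cartier p ρ) v →ₗ[ZMod p] ZMod p)
    (S : Finset Nat.Primes) : Prop :=
  ∀ L : ∀ v : Nat.Primes, Submodule (ZMod p) (H1loc ρ v),
    finrank (ZMod p) (TW.Sel S ρ L) + ∑ v ∈ S, h0loc ρ v +
        finrank (ZMod p) (invOn ρ {complexConjugation}) ≤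
      finrank (ZMod p) (TW.Sel S (cartier p ρ) (fun v =>
        (L v).dualAnnihilator.comap (B v).flip)) +
      finrank (ZMod p) (invOn ρ Set.univ) + ∑ v ∈ S, finrank (ZMod p) (L v)

/-! ### Specifications of block A (helper26) -/

/-- (A1) local Euler characteristic inequality at `v ≠ p` -/
def SpecA1 (p : ℕ) [Fact p.Prime] : Prop :=
  ∀ (V : Type) [AddCommGroup V] [Module (ZMod p) V] [FiniteDimensional (ZMod p) V]
    (ρ : Representation (ZMod p) Γ V) (v : Nat.Primes), v ≠ pPrime p →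
    Smooth (locLevels (v : ℕ)) (locRep ρ v) →
    finrank (ZMod p) (H1loc ρ v) ≤ h0loc ρ v + h0loc (cartier p ρ) v

/-- (A3) the orthogonal of the unramified classes -/
def SpecA3 (p : ℕ) [Fact p.Prime] (hp2 : p ≠ 2) : Prop :=
  ∀ (V : Type) [AddCommGroup V] [Module (ZMod p) V] [FiniteDimensional (ZMod p) V]
    (ρ : Representation (ZMod p) Γ V) (v : Nat.Primes), v ≠ pPrime p →
    (∀ t ∈ Loc.inertiaLoc (v : ℕ), ∀ x, locRep ρ v t x = x) →
    ∀ (hs : Smooth (locLevels (v : ℕ)) (locRep ρ v)) (y : H1loc (cartier p ρ) v),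
    (∀ x ∈ TW.urCls (locRep ρ v), gwB hp2 hs x y = 0) → y ∈ TW.urCls (locRep (cartier p ρ) v)

/-- (A4) independence of `S` -/
def SpecA4 (p : ℕ) [Fact p.Prime] : Prop :=
  ∀ (V : Type) [AddCommGroup V] [Module (ZMod p) V] [FiniteDimensional (ZMod p) V]
    (ρ : Representation (ZMod p) Γ V) (S T : Finset Nat.Primes), S ⊆ T → pPrime p ∈ S →
    Smooth (sLevels S) ρ →
    ∀ B : ∀ v : Nat.Primes, H1loc ρ v →ₗ[ZMod p] H1loc (cartier p ρ) v →ₗ[ZMod p] ZMod p,
    (∀ v, v ∉ S → ∀ y, (∀ x ∈ TW.urCls (locRep ρ v), B v x y = 0) →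
      y ∈ TW.urCls (locRep (cartier p ρ) v)) →
    FiniteDimensional (ZMod p) (H1 (sLevels T) ρ) →
    FiniteDimensional (ZMod p) (H1 (sLevels T) (cartier p ρ)) →
    (∀ v, FiniteDimensional (ZMod p) (H1loc ρ v)) →
    GWIneq p ρ B T → GWIneq p ρ B S

end Fermat.Agent.CFT
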