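import Mathlib
import Fermat.Agent.CFT.GEulerA
import Fermat.Agent.CFT.GWPair

/-!
# The comparison of ranks and dimensions
-/

set_option autoImplicit false
set_option linter.unusedSectionVars false

open Module

namespace Fermat.Agent.CFT

section RankFun

variable {K : Type} [Group K] [Finite K]

lemma sum_traceFun (D : Subgroup K) [Fintype D] {A : Type} [AddCommGroup A] [Module.Finite ℤ A]
    (ρ : Representation ℤ K A) :
    ∑ g : D, (traceFun (g : K)).val ρ = (Nat.card D : ℚ) * finrank ℤ (fixOn ρ D) :=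
  (isRat_mk A).sum_trace (ratRep_mk ρ) D

/-- the rank of the fixed submodule as an additive invariant -/
noncomputable def rankFun (D : Subgroup K) : LatFun K where
  val ρ := finrank ℤ (fixOn ρ D)
  add {A B C} _ _ _ ρA ρB ρC f h hf hh hfi hhs hex hB := by
    have hA : Module.Finite ℤ A := Module.Finite.of_injective f hfi
    have hC : Module.Finite ℤ C := Module.Finite.of_surjective h hhs
    have := Fintype.ofFinite D
    have h1 := sum_traceFun D ρA
    have h2 := sum_traceFun D ρB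
    have h3 := sum_traceFun D ρC
    have h4 : ∀ g : D, (traceFun (g : K)).val ρB = (traceFun (g : K)).val ρA +
      (traceFun (g : K)).val ρC := fun g =>
      (traceFun (g : K)).add ρA ρB ρC f h hf hh hfi hhs hex hB
    rw [Finset.sum_congr rfl fun g _ => h4 g, Finset.sum_add_distrib, h1, h3, ← mul_add] at h2
    have hD : (Nat.card D : ℚ) ≠ 0 := by exact_mod_cast Nat.card_pos.ne'
    exact (mul_left_cancel₀ hD h2).symm
  fin {A} _ ρ hA := by
    have := Fintype.ofFinite D
    have hfin : Module.Finite ℤ A := inferInstance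
    have h1 := sum_traceFun D ρ
    have h4 : ∀ g : D, (traceFun (g : K)).val ρ = 0 := fun g => (traceFun (g : K)).fin ρ hA
    rw [Finset.sum_congr rfl fun g _ => h4 g, Finset.sum_const_zero] at h1
    have hD : (Nat.card D : ℚ) ≠ 0 := by exact_mod_cast Nat.card_pos.ne'
    exact (mul_eq_zero.1 h1.symm).resolve_left hD

lemma rankFun_val (D : Subgroup K) {A : Type} [AddCommGroup A] (ρ : Representation ℤ K A) :
    (rankFun D).val ρ = finrank ℤ (fixOn ρ D) := rfl

lemma LatFun.val_prod (Φ : LatFun K) {A B : Type} [AddCommGroup A] [AddCommGroup B]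
    [Module.Finite ℤ A] [Module.Finite ℤ B] (ρA : Representation ℤ K A)
    (ρB : Representation ℤ K B) : Φ.val (ρA.prod ρB) = Φ.val ρA + Φ.val ρB := by
  refine Φ.add ρA (ρA.prod ρB) ρB (LinearMap.inl ℤ A B) (LinearMap.snd ℤ A B) (fun x a => ?_)
    (fun _ _ => rfl) LinearMap.inl_injective LinearMap.snd_surjective (fun b => ?_) inferInstance
  · rw [Representation.prod_apply_apply, LinearMap.inl_apply]
    exact Prod.ext rfl (map_zero _).symm
  · constructor
    · intro h
      exact ⟨b.1, Prod.ext rfl h.symm⟩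
    · rintro ⟨a, rfl⟩
      rfl

end RankFun

section Transfer

variable {G : Type} [Group G] {N : Subgroup G} [N.Normal]

/-- representations trivial on `N` -/
def desc (N : Subgroup G) [N.Normal] {k : Type*} [CommRing k] {V : Type*} [AddCommGroup V]
    [Module k V] (ρ : Representation k G V) (h : ∀ g ∈ N, ∀ v, ρ g v = v) :
    Representation k (G ⧸ N) V :=
  QuotientGroup.lift N ρ fun g hg => LinearMap.ext fun v => h g hg v

@[simp] lemma desc_mk {k : Type*} [CommRing k] {V : Type*} [AddCommGroup V]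
    [Module k V] (ρ : Representation k G V) (h : ∀ g ∈ N, ∀ v, ρ g v = v) (g : G) :
    desc N ρ h (g : G ⧸ N) = ρ g := rfl

/-- restriction to a subgroup of the quotient -/
abbrev descC {k : Type*} [CommRing k] {V : Type*} [AddCommGroup V]
    [Module k V] (ρ : Representation k G V) (h : ∀ g ∈ N, ∀ v, ρ g v = v)
    (C : Subgroup (G ⧸ N)) : Representation k C V :=
  (desc N ρ h).comp C.subtype

/-- third isomorphism theorem for coset spaces -/
noncomputable def qeq (K : Subgroup (G ⧸ N)) : G ⧸ K.comap (QuotientGroup.mk' N) ≃ (G ⧸ N) ⧸ K :=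
  Equiv.ofBijective (fun x => Quotient.liftOn' x
      (fun x : G => (((x : G ⧸ N)) : (G ⧸ N) ⧸ K)) (fun x y hxy => by
        rw [QuotientGroup.leftRel_apply] at hxy
        exact QuotientGroup.eq.2 hxy)) ⟨fun x y h => by
    obtain ⟨x, rfl⟩ := QuotientGroup.mk_surjective x
    obtain ⟨y, rfl⟩ := QuotientGroup.mk_surjective y
    have h' : (((x : G ⧸ N)) : (G ⧸ N) ⧸ K) = (((y : G ⧸ N)) : (G ⧸ N) ⧸ K) := h
    have h2 := QuotientGroup.eq.1 h'
    exact QuotientGroup.eq.2 h2, fun z => by
    obtain ⟨z, rfl⟩ := QuotientGroup.mk_surjective z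
    obtain ⟨z, rfl⟩ := QuotientGroup.mk_surjective z
    exact ⟨(z : G), rfl⟩⟩

@[simp] lemma qeq_mk (K : Subgroup (G ⧸ N)) (x : G) :
    qeq K (x : G ⧸ K.comap (QuotientGroup.mk' N)) = (((x : G ⧸ N)) : (G ⧸ N) ⧸ K) := rfl

lemma qeq_smul (K : Subgroup (G ⧸ N)) (g : G) (x : G ⧸ K.comap (QuotientGroup.mk' N)) :
    qeq K (g • x) = (g : G ⧸ N) • qeq K x := by
  obtain ⟨x, rfl⟩ := QuotientGroup.mk_surjective x
  rfl

/-- image of a homomorphism in the quotient -/
abbrev dbar (N : Subgroup G) [N.Normal] {G' : Type*} [Group G'] (f : G' →* G) :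
    Subgroup (G ⧸ N) := f.range.map (QuotientGroup.mk' N)

lemma mk_mem_dbar {G' : Type*} [Group G'] (f : G' →* G) (x : G') : (f x : G ⧸ N) ∈ dbar N f :=
  ⟨f x, ⟨x, rfl⟩, rfl⟩

lemma exists_of_mem_dbar {G' : Type*} [Group G'] (f : G' →* G) {d : G ⧸ N} (hd : d ∈ dbar N f) :
    ∃ x : G', (f x : G ⧸ N) = d := by
  obtain ⟨_, ⟨x, rfl⟩, rfl⟩ := hd
  exact ⟨x, rfl⟩

variable [Finite (G ⧸ N)]

/-- orbits and ranks -/
lemma rank_permLat (C : Subgroup (G ⧸ N)) {G' : Type} [Group G'] (f : G' →* G) (E : Subgroup C) :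
    finrank ℤ (fixOn (permLat (G := C) ((G ⧸ N) ⧸ dbar N f)) E) =
      orbs f ((E.map C.subtype).comap (QuotientGroup.mk' N)) := by
  have h1 : fixOn (permLat (G := C) ((G ⧸ N) ⧸ dbar N f)) E =
      fixOn (permLat (G := G ⧸ N) ((G ⧸ N) ⧸ dbar N f)) (E.map C.subtype) := by
    ext a
    constructor
    · rintro h _ ⟨c, hc, rfl⟩
      exact h c hc
    · intro h c hc
      exact h c.1 ⟨c, hc, rfl⟩
  have hfin : Finite (G ⧸ (E.map C.subtype).comap (QuotientGroup.mk' N)) :=
    Finite.of_equiv _ (qeq (E.map C.subtype)).symm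
  have hfin' : Finite (PullSet f (G ⧸ (E.map C.subtype).comap (QuotientGroup.mk' N))) := hfin
  rw [h1, finrank_mack, orbs]
  refine card_orbits_eq (G' := G')
    (X := PullSet f (G ⧸ (E.map C.subtype).comap (QuotientGroup.mk' N)))
    (qeq (E.map C.subtype)) (dbar N f) (fun g' => ⟨_, mk_mem_dbar f g', fun x => ?_⟩)
    (fun d hd => ?_)
  · exact qeq_smul _ (f g') x
  · obtain ⟨g', rfl⟩ := exists_of_mem_dbar f hd
    exact ⟨g', fun x => qeq_smul _ (f g') x⟩

/-- fixed vectors of induced modules -/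
lemma finrank_fixOn_mapRep {p : ℕ} [Fact p.Prime] {V : Type} [AddCommGroup V]
    [Module (ZMod p) V]
    (ρ : Representation (ZMod p) G V) (h : ∀ g ∈ N, ∀ v, ρ g v = v) (C : Subgroup (G ⧸ N))
    {G' : Type} [Group G'] (f : G' →* G) :
    finrank (ZMod p) (fixOn (mapRep ρ (G ⧸ C.comap (QuotientGroup.mk' N))) f.range) =
      finrank (ZMod p) (Representation.linHom (permP p (G := C) ((G ⧸ N) ⧸ dbar N f))
        (descC ρ h C)).invariants := by
  -- transfer to `G / N`
  have h1 : finrank (ZMod p) (fixOn (mapRep ρ (G ⧸ C.comap (QuotientGroup.mk' N))) f.range) =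
      finrank (ZMod p) (fixOn (mapRep (desc N ρ h) ((G ⧸ N) ⧸ C)) (dbar N f)) := by
    refine LinearEquiv.finrank_eq (LinearEquiv.ofSubmodules
      (LinearEquiv.funCongrLeft (ZMod p) V (qeq C).symm) _ _ ?_)
    ext a
    rw [Submodule.mem_map]
    have key : ∀ (g : G) (b : G ⧸ C.comap (QuotientGroup.mk' N) → V),
        mapRep (desc N ρ h) ((G ⧸ N) ⧸ C) (g : G ⧸ N)
          (LinearEquiv.funCongrLeft (ZMod p) V (qeq C).symm b) =
        LinearEquiv.funCongrLeft (ZMod p) V (qeq C).symm (mapRep ρ _ g b) := by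
      intro g b
      funext x
      obtain ⟨x, rfl⟩ := (qeq C).surjective x
      change ρ g (b ((qeq C).symm ((g⁻¹ : G ⧸ N) • qeq C x))) =
        ρ g (b (g⁻¹ • (qeq C).symm (qeq C x)))
      rw [(qeq C).symm_apply_apply]
      congr 2
      rw [Equiv.symm_apply_eq, qeq_smul]
      rfl
    constructor
    · rintro ⟨b, hb, rfl⟩ d hd
      obtain ⟨g', rfl⟩ := exists_of_mem_dbar f hd
      have := hb _ ⟨g', rfl⟩
      exact (key _ b).trans (congrArg _ this)
    · intro ha
      refine ⟨(LinearEquiv.funCongrLeft (ZMod p) V (qeq C).symm).symm a, ?_,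
        LinearEquiv.apply_symm_apply _ _⟩
      rintro _ ⟨g', rfl⟩
      apply (LinearEquiv.funCongrLeft (ZMod p) V (qeq C).symm).injective
      refine (key _ _).symm.trans ?_
      have := ha _ (mk_mem_dbar f g')
      rw [LinearEquiv.apply_symm_apply]
      exact this
  rw [h1, finrank_mack]
  -- restrict to `C`
  have h2 := (req_linHom_perm (G := C) ((G ⧸ N) ⧸ dbar N f) (descC ρ h C)).finrank_fixOn ⊤
  have h3 : fixOn (mapRep (desc N ρ h) ((G ⧸ N) ⧸ dbar N f)) C =
      fixOn (mapRep (descC ρ h C) ((G ⧸ N) ⧸ dbar N f)) ⊤ := by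
    ext a
    constructor
    · rintro ha c -
      exact ha c.1 c.2
    · intro ha c hc
      exact ha ⟨c, hc⟩ trivial
  have h4 : fixOn (Representation.linHom (permP p (G := C) ((G ⧸ N) ⧸ dbar N f))
        (descC ρ h C)) ⊤ = (Representation.linHom (permP p (G := C) ((G ⧸ N) ⧸ dbar N f))
        (descC ρ h C)).invariants := by
    ext a
    exact ⟨fun ha c => ha c trivial, fun ha c _ => ha c⟩
  rw [h3, ← h2, h4]

end Transfer

end Fermat.Agent.CFT
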