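import Mathlib
import Fermat.Agent.CFT.GEulerB

/-!
# The Euler characteristic is bounded below (groups of order prime to `p`)
-/

set_option autoImplicit false
set_option linter.unusedSectionVars false
set_option linter.style.haveILetI false

open Module ExtCitation

namespace Fermat.Agent.CFT

local notation "Qb" => AlgebraicClosure ℚ
local notation "Γ" => (AlgebraicClosure ℚ ≃ₐ[ℚ] AlgebraicClosure ℚ)

/-- primality of elements of `Nat.Primes` -/
local instance factNPc (v : Nat.Primes) : Fact (v : ℕ).Prime := ⟨v.2⟩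

lemma orbs_id {G : Type} [Group G] (W : Subgroup G) : orbs (MonoidHom.id G) W = 1 := by
  rw [orbs, Nat.card_eq_one_iff_unique]
  constructor
  · refine ⟨fun a b => ?_⟩
    induction a using Quotient.inductionOn' with
    | h a =>
      induction b using Quotient.inductionOn' with
      | h b =>
        obtain ⟨x, hx⟩ := QuotientGroup.mk_surjective (PullSet.out a)
        obtain ⟨y, hy⟩ := QuotientGroup.mk_surjective (PullSet.out b)
        refine Quotient.sound' ⟨x * y⁻¹, ?_⟩
        have h1 : (x * y⁻¹) • ((y : G) : G ⧸ W) = (x : G ⧸ W) := by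
          rw [MulAction.Quotient.smul_mk, smul_eq_mul, inv_mul_cancel_right]
        rw [hx, hy] at h1
        exact h1
  · exact ⟨Quotient.mk'' (PullSet.mk (MonoidHom.id G) ((1 : G) : G ⧸ W))⟩

section Unit

variable {p : ℕ} [Fact p.Prime] {S : Finset Nat.Primes} {N : Subgroup Γ} [N.Normal]
  [Finite (Γ ⧸ N)] (U : UnitLat p S N)

/-- the homomorphisms defining the places -/
noncomputable def Dopt (S : Finset Nat.Primes) (N : Subgroup Γ) [N.Normal]
    (i : Option {l // l ∈ S}) : Subgroup (Γ ⧸ N) :=
  i.elim (dbar N (Subgroup.zpowers complexConjugation).subtype)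
    (fun l => dbar N (localGaloisToGlobal (l.1 : ℕ)))

/-- value on a permutation lattice -/
lemma hat_permLat {K : Type} [Group K] (φ : ModFun p K) (X : Type) [MulAction K X] [Finite X] :
    φ.hat.val (permLat (G := K) X) = φ.val (permP p (G := K) X) := by
  have hp : p.Prime := Fact.out
  have := finite_modN p (X → ℤ)
  rw [φ.hat_val_of_torsionFree, φ.val_congr (req_permLat X)]
  intro a ha
  funext x
  have h1 := congrFun ha x
  rw [Pi.smul_apply, nsmul_eq_mul] at h1
  exact (mul_eq_zero.1 h1).resolve_left (by exact_mod_cast hp.ne_zero)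

theorem UnitLat.identity (C : Subgroup (Γ ⧸ N)) (φ : ModFun p C) :
    letI := U.grp
    φ.val (modNRep p (descC U.ρ U.triv C)) - φ.val (torRep p (descC U.ρ U.triv C)) +
      φ.val (permP p (G := C) ((Γ ⧸ N) ⧸ dbar N (MonoidHom.id Γ))) =
    φ.val (permP p (G := C) ((Γ ⧸ N) ⧸ dbar N (Subgroup.zpowers complexConjugation).subtype)) +
      ∑ l : {l // l ∈ S},
        φ.val (permP p (G := C) ((Γ ⧸ N) ⧸ dbar N (localGaloisToGlobal (l.1 : ℕ)))) := by
  letI := U.grp
  have hfin := U.fin
  have key : φ.hat.val ((descC U.ρ U.triv C).prod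
      (permLat (G := C) ((Γ ⧸ N) ⧸ dbar N (MonoidHom.id Γ)))) =
      φ.hat.val (piRep fun i : Option {l // l ∈ S} =>
        permLat (G := C) ((Γ ⧸ N) ⧸ Dopt S N i)) := by
    refine φ.hat.val_eq_of_rank_eq fun E => ?_
    have h1 := (rankFun E).val_prod (descC U.ρ U.triv C)
      (permLat (G := C) ((Γ ⧸ N) ⧸ dbar N (MonoidHom.id Γ)))
    have h2 := (rankFun E).val_pi (fun i : Option {l // l ∈ S} =>
        permLat (G := C) ((Γ ⧸ N) ⧸ Dopt S N i))
    rw [rankFun_val, rankFun_val, rankFun_val, rank_permLat, orbs_id] at h1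
    rw [rankFun_val, Fintype.sum_option] at h2
    have h3 : (rankFun E).val (permLat (G := C) ((Γ ⧸ N) ⧸ Dopt S N none)) =
        orbs (Subgroup.zpowers complexConjugation).subtype
          ((E.map C.subtype).comap (QuotientGroup.mk' N)) := by
      rw [rankFun_val]
      exact congrArg Nat.cast (rank_permLat C (Subgroup.zpowers complexConjugation).subtype E)
    have h4 : ∀ l : {l // l ∈ S},
        (rankFun E).val (permLat (G := C) ((Γ ⧸ N) ⧸ Dopt S N (some l))) =
        orbs (localGaloisToGlobal (l.1 : ℕ))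
          ((E.map C.subtype).comap (QuotientGroup.mk' N)) := fun l => by
      rw [rankFun_val]
      exact congrArg Nat.cast (rank_permLat C (localGaloisToGlobal (l.1 : ℕ)) E)
    rw [h3, Finset.sum_congr rfl fun l _ => h4 l] at h2
    have h5 : fixOn (descC U.ρ U.triv C) E =
        fixOn U.ρ ((E.map C.subtype).comap (QuotientGroup.mk' N)) := by
      ext a
      constructor
      · rintro h g ⟨c, hc, hcg⟩
        have := h c hc
        have h6 : descC U.ρ U.triv C c = U.ρ g := by
          change desc N U.ρ U.triv c.1 = U.ρ g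
          have : (c.1 : Γ ⧸ N) = (g : Γ ⧸ N) := hcg
          rw [this, desc_mk]
        rw [← h6]
        exact this
      · intro h c hc
        obtain ⟨g, hg⟩ := QuotientGroup.mk_surjective c.1
        have h6 : descC U.ρ U.triv C c = U.ρ g := by
          change desc N U.ρ U.triv c.1 = U.ρ g
          rw [← hg, desc_mk]
        rw [h6]
        exact h g ⟨c, hc, hg.symm⟩
    have h6 := U.rank ((E.map C.subtype).comap (QuotientGroup.mk' N)) (fun g hg => by
      have : QuotientGroup.mk' N g = 1 := (QuotientGroup.eq_one_iff g).2 hg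
      rw [Subgroup.mem_comap, this]
      exact one_mem _)
    rw [h5] at h1
    have h7 : (finrank ℤ (fixOn U.ρ ((E.map C.subtype).comap (QuotientGroup.mk' N))) : ℚ) + 1 =
        ∑ l : {l // l ∈ S}, (orbs (localGaloisToGlobal (l.1 : ℕ))
          ((E.map C.subtype).comap (QuotientGroup.mk' N)) : ℚ) +
        orbs (Subgroup.zpowers complexConjugation).subtype
          ((E.map C.subtype).comap (QuotientGroup.mk' N)) := by exact_mod_cast h6
    have h8 : ((finrank ℤ (fixOn ((descC U.ρ U.triv C).prod
      (permLat (G := C) ((Γ ⧸ N) ⧸ dbar N (MonoidHom.id Γ)))) E) : ℕ) : ℚ) =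
      (finrank ℤ (fixOn (piRep fun i : Option {l // l ∈ S} =>
        permLat (G := C) ((Γ ⧸ N) ⧸ Dopt S N i)) E) : ℕ) := by
      rw [h1, h2]
      push_cast
      linarith
    exact_mod_cast h8
  rw [LatFun.val_prod, LatFun.val_pi, Fintype.sum_option, hat_permLat, ModFun.hat_val] at key
  have e1 : φ.hat.val (permLat (G := C) ((Γ ⧸ N) ⧸ Dopt S N none)) =
      φ.val (permP p (G := C)
        ((Γ ⧸ N) ⧸ dbar N (Subgroup.zpowers complexConjugation).subtype)) := hat_permLat φ _
  have e2 : ∀ l : {l // l ∈ S}, φ.hat.val (permLat (G := C) ((Γ ⧸ N) ⧸ Dopt S N (some l))) =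
      φ.val (permP p (G := C) ((Γ ⧸ N) ⧸ dbar N (localGaloisToGlobal (l.1 : ℕ)))) :=
    fun l => hat_permLat φ _
  rw [e1, Finset.sum_congr rfl fun l _ => e2 l] at key
  exact key

end Unit

end Fermat.Agent.CFT
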