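import Mathlib
import Fermat.Agent.CFT.GEulerC
import Fermat.Agent.TW.Bound

/-!
# The Euler characteristic is bounded below (groups of order prime to `p`)
-/

set_option autoImplicit false
set_option linter.unusedSectionVars false
set_option linter.style.haveILetI false

open Module ExtCitation

namespace Fermat.Agent.CFT

local notation "Qb" => AlgebraicClosure ℚ
local notation "Γ" => (AlgebraicClosure ℚ ≃ₐ[ℚ] AlgebraicClosure ℚ)

/-- primality of elements of `Nat.Primes` -/
local instance factNPd (v : Nat.Primes) : Fact (v : ℕ).Prime := ⟨v.2⟩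

section Gen

variable {k : Type*} [Field k] {G : Type*} [Group G] {V : Type*} [AddCommGroup V] [Module k V]

/-- duality and induction -/
lemma req_dual_mapRep (χ : G →* kˣ) (ρ : Representation k G V) (X : Type*) [MulAction G X]
    [Finite X] : REq (mapRep (dualRep χ ρ) X) (dualRep χ (mapRep ρ X)) := by
  classical
  have := Fintype.ofFinite X
  refine ⟨LinearMap.lsum k (fun _ : X => V) k, fun g ψ => LinearMap.ext fun f => ?_⟩
  rw [dualRep_apply, LinearMap.lsum_apply, LinearMap.lsum_apply, LinearMap.sum_apply,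
    LinearMap.sum_apply, Finset.mul_sum, ← Equiv.sum_comp (MulAction.toPerm g : Equiv.Perm X)]
  refine Finset.sum_congr rfl fun x _ => ?_
  change (χ g : k) * ψ (g⁻¹ • g • x) (ρ g⁻¹ (f (g • x))) =
    (χ g : k) * ψ x (ρ g⁻¹ (f ((g⁻¹)⁻¹ • x)))
  rw [inv_smul_smul, inv_inv]

lemma finrank_fixOn_dual_add_le (h2 : (2 : k) ≠ 0) (χ : G →* kˣ) (ρ : Representation k G V)
    [FiniteDimensional k V] {c : G} (hc : (χ c : k) = -1) (hcc : c * c = 1) :
    finrank k (fixOn (dualRep χ ρ) (Subgroup.zpowers c)) +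
      finrank k (fixOn ρ (Subgroup.zpowers c)) ≤ finrank k V := by
  have h1 : fixOn (dualRep χ ρ) (Subgroup.zpowers c) ≤
      (fixOn ρ (Subgroup.zpowers c)).dualAnnihilator := by
    intro l hl
    rw [Submodule.mem_dualAnnihilator]
    intro w hw
    have h3 := LinearMap.congr_fun (hl c (Subgroup.mem_zpowers c)) w
    rw [dualRep_apply, hc, inv_eq_of_mul_eq_one_left hcc, hw c (Subgroup.mem_zpowers c)] at h3
    have h4 : (2 : k) * l w = 0 := by linear_combination -h3
    exact (mul_eq_zero.1 h4).resolve_left h2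
  have h3 : finrank k (fixOn ρ (Subgroup.zpowers c)) +
      finrank k (fixOn ρ (Subgroup.zpowers c)).dualAnnihilator = finrank k V :=
    Subspace.finrank_add_finrank_dualAnnihilator_eq _
  have h4 := Submodule.finrank_mono h1
  omega

lemma req_mapRep_unique (ρ : Representation k G V) (X : Type*) [MulAction G X] [Unique X] :
    REq (mapRep ρ X) ρ := by
  refine ⟨LinearEquiv.funUnique X k V, fun g f => ?_⟩
  change ρ g (f (g⁻¹ • default)) = ρ g (f default)
  rw [Subsingleton.elim (g⁻¹ • (default : X)) default]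

/-- invariants of induced modules -/
lemma finrank_inv_mapRep (ρ : Representation k G V) (H : Subgroup G) :
    finrank k (mapRep ρ (G ⧸ H)).invariants = finrank k (fixOn ρ H) := by
  have h1 : (mapRep ρ (G ⧸ H)).invariants = fixOn (mapRep ρ (G ⧸ H)) ⊤ := by
    ext a
    exact ⟨fun h g _ => h g, fun h g => h g trivial⟩
  have hs : Subsingleton (G ⧸ (⊤ : Subgroup G)) := QuotientGroup.subsingleton_quotient_top
  have hu : Unique (G ⧸ (⊤ : Subgroup G)) := ⟨⟨((1 : G) : G ⧸ (⊤ : Subgroup G))⟩,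
    fun _ => Subsingleton.elim _ _⟩
  rw [h1, finrank_mack, (req_mapRep_unique ρ (G ⧸ (⊤ : Subgroup G))).finrank_fixOn]

end Gen

section Main

variable {p : ℕ} [Fact p.Prime] {S : Finset Nat.Primes} {N : Subgroup Γ} [N.Normal]
variable {V : Type} [AddCommGroup V] [Module (ZMod p) V] [FiniteDimensional (ZMod p) V]

/-- triviality of the dual on `N` -/
lemma dualRep_triv {ρ : Representation (ZMod p) Γ V} (hNχ : N ≤ (cycloChar p).ker)
    (hρ : ∀ g ∈ N, ∀ v, ρ g v = v) : ∀ g ∈ N, ∀ v, dualRep (cycloChar p) ρ g v = v := by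
  intro g hg l
  ext v
  rw [dualRep_apply, MonoidHom.mem_ker.1 (hNχ hg), Units.val_one, one_mul,
    hρ _ (N.inv_mem hg)]

lemma card_ne_zero_of_not_dvd {K : Type*} (hC : ¬ p ∣ Nat.card K) :
    (Nat.card K : ZMod p) ≠ 0 := fun h => hC ((ZMod.natCast_eq_zero_iff _ _).1 h)

lemma modNRep_triv {G : Type} [Group G] {N : Subgroup G} (p : ℕ) {A : Type}
    [AddCommGroup A] (ρ : Representation ℤ G A)
    (h : ∀ g ∈ N, ∀ v, ρ g v = v) : ∀ g ∈ N, ∀ v, modNRep p ρ g v = v := by
  intro g hg v
  obtain ⟨v, rfl⟩ := modN_surjective v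
  rw [modNRep_mkQ, h g hg]

lemma modN_descC {G : Type} [Group G] {N : Subgroup G} [N.Normal] (p : ℕ) {A : Type}
    [AddCommGroup A] (ρ : Representation ℤ G A)
    (h : ∀ g ∈ N, ∀ v, ρ g v = v) (C : Subgroup (G ⧸ N)) :
    modNRep p (descC ρ h C) = descC (modNRep p ρ) (modNRep_triv p ρ h) C := by
  refine MonoidHom.ext fun c => modN_hom_ext fun a => ?_
  obtain ⟨g, hg⟩ := QuotientGroup.mk_surjective c.1
  have h1 : descC ρ h C c = ρ g := by
    change desc N ρ h c.1 = ρ g
    rw [← hg, desc_mk]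
  have h2 : descC (modNRep p ρ) (modNRep_triv p ρ h) C c = modNRep p ρ g := by
    change desc N (modNRep p ρ) (modNRep_triv p ρ h) c.1 = modNRep p ρ g
    rw [← hg, desc_mk]
  rw [h2, modNRep_mkQ, modNRep_mkQ, h1]

lemma homOn_eq {k : Type*} [CommRing k] {G : Type} [Group G] {N : Subgroup G} [N.Normal]
    {A B : Type*} [AddCommGroup A] [Module k A] [AddCommGroup B] [Module k B]
    (ρ : Representation k G A) (σ : Representation k G B) (h : ∀ g ∈ N, ∀ v, ρ g v = v)
    (h' : ∀ g ∈ N, ∀ v, σ g v = v) (C : Subgroup (G ⧸ N)) :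
    homOn ρ σ (C.comap (QuotientGroup.mk' N)) =
      (Representation.linHom (descC ρ h C) (descC σ h' C)).invariants := by
  ext T
  have key : ∀ (c : C) (g : G), (g : G ⧸ N) = c.1 → descC σ h' C c = σ g := by
    intro c g hg
    change desc N σ h' c.1 = _
    rw [← hg, desc_mk]
  have key2 : ∀ (c : C) (g : G), (g : G ⧸ N) = c.1 → descC ρ h C c = ρ g := by
    intro c g hg
    change desc N ρ h c.1 = _
    rw [← hg, desc_mk]
  constructor
  · intro hT c
    obtain ⟨g, hg⟩ := QuotientGroup.mk_surjective c.1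
    have hgH : g ∈ C.comap (QuotientGroup.mk' N) := by
      rw [Subgroup.mem_comap]
      change (g : G ⧸ N) ∈ C
      rw [hg]; exact c.2
    rw [Representation.linHom_apply]
    refine LinearMap.ext fun v => ?_
    rw [LinearMap.comp_apply, LinearMap.comp_apply, key c g hg, key2 c⁻¹ g⁻¹ (by
      rw [Subgroup.coe_inv, ← hg]; rfl), ← hT g hgH, ← Module.End.mul_apply
      (ρ g), ← map_mul, mul_inv_cancel, map_one]
    rfl
  · intro hT g hg v
    have h5 := LinearMap.congr_fun (hT ⟨(g : G ⧸ N), hg⟩) (ρ g v)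
    rw [Representation.linHom_apply, LinearMap.comp_apply, LinearMap.comp_apply,
      key _ g rfl, key2 (⟨(g : G ⧸ N), hg⟩ : C)⁻¹ g⁻¹ rfl,
      ← Module.End.mul_apply (ρ g⁻¹), ← map_mul, inv_mul_cancel,
      map_one] at h5
    exact h5.symm

/-- degree 1 -/
lemma finrank_H1_ind_le [Finite (Γ ⧸ N)] (hN : N ∈ sLevels S) (U : UnitLat p S N)
    (hNχ : N ≤ (cycloChar p).ker)
    {ρ : Representation (ZMod p) Γ V} (hρ : ∀ g ∈ N, ∀ v, ρ g v = v) (C : Subgroup (Γ ⧸ N))
    (hC : ¬ p ∣ Nat.card C) :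
    letI := U.grp
    (finrank (ZMod p) (H1 (sLevels S) (mapRep ρ (Γ ⧸ C.comap (QuotientGroup.mk' N)))) : ℚ) ≤
      (hFun hC (descC (dualRep (cycloChar p) ρ) (dualRep_triv hNχ hρ) C)).val
        (modNRep p (descC U.ρ U.triv C)) := by
  letI := U.grp
  have hUf := U.fin
  have hNH : N ≤ C.comap (QuotientGroup.mk' N) := fun g hg => by
    have : QuotientGroup.mk' N g = 1 := (QuotientGroup.eq_one_iff g).2 hg
    rw [Subgroup.mem_comap, this]
    exact one_mem _
  have hH : C.comap (QuotientGroup.mk' N) ∈ sLevels S := Levels.up_mem hN hNH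
  have hrel : N.relIndex (C.comap (QuotientGroup.mk' N)) = Nat.card C := by
    have h1 : (⊥ : Subgroup (Γ ⧸ N)).comap (QuotientGroup.mk' N) = N := by
      rw [MonoidHom.comap_bot, QuotientGroup.ker_mk']
    have h2 := Subgroup.relIndex_comap (⊥ : Subgroup (Γ ⧸ N)) (QuotientGroup.mk' N)
      (C.comap (QuotientGroup.mk' N))
    rw [h1, Subgroup.map_comap_eq_self_of_surjective
      (QuotientGroup.mk'_surjective N), Subgroup.relIndex_bot_left] at h2
    exact h2
  have hfin := finite_quotient_of_mem hH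
  have h1 : finrank (ZMod p) (H1 (sLevels S) (mapRep ρ (Γ ⧸ C.comap (QuotientGroup.mk' N)))) =
      finrank (ZMod p) (H1 ((sLevels S).restrict (C.comap (QuotientGroup.mk' N)))
        (resRep ρ (C.comap (QuotientGroup.mk' N)).subtype)) := by
    have hb := sh1_bijective (sLevels S) ρ (OrbitData.quotient (C.comap (QuotientGroup.mk' N)))
      (smoothSet_quotient hH)
    refine LinearEquiv.finrank_eq (LinearEquiv.ofBijective (sh1 (sLevels S) ρ
      (OrbitData.quotient (C.comap (QuotientGroup.mk' N))) ()) ⟨?_, ?_⟩)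
    · intro x y hxy
      exact hb.1 (funext fun _ => hxy)
    · intro c
      obtain ⟨x, hx⟩ := hb.2 (fun _ => c)
      exact ⟨x, congrFun hx ()⟩
  have h2 := U.h1 ρ hρ (C.comap (QuotientGroup.mk' N)) hNH (by rw [hrel]; exact hC)
  have hf := finite_modN p U.A
  rw [h1, modN_descC, hFun_val, Nat.cast_le]
  refine h2.trans ?_
  rw [homOn_eq _ _ (dualRep_triv hNχ hρ) (modNRep_triv p U.ρ U.triv)]
  exact finrank_hom_swap_le (card_ne_zero_of_not_dvd hC) _ _

/-- homomorphisms from a line to a twisted dual -/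
lemma hom_line_le {k : Type*} [Field k] {K : Type*} [Group K] [Finite K]
    (hK : (Nat.card K : k) ≠ 0) {A V W : Type*} [AddCommGroup A] [Module k A] [AddCommGroup V]
    [Module k V] [AddCommGroup W] [Module k W] [FiniteDimensional k V] (τ : Representation k K A)
    (σ : Representation k K W) (e : W →ₗ[k] Dual k V) (he : Function.Injective e)
    (ρ : Representation k K V) (z : A)
    (hz : ∀ x, ∃ c : k, x = c • z) (χ : K → k) (hχ : ∀ c, χ c ≠ 0) (hτ : ∀ c, τ c z = χ c • z)
    (hσ : ∀ c l v, e (σ c l) v = χ c * e l (ρ c⁻¹ v)) :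
    finrank k (Representation.linHom τ σ).invariants ≤ finrank k ρ.invariants := by
  refine le_trans ?_ (finrank_inv_dual_le hK ρ)
  let ev : (Representation.linHom τ σ).invariants →ₗ[k] ρ.dual.invariants :=
    { toFun := fun T => ⟨e (T.1 z), fun c => by
        have h2 := LinearMap.congr_fun (T.2 c) (τ c z)
        rw [Representation.linHom_apply, LinearMap.comp_apply, LinearMap.comp_apply,
          ← Module.End.mul_apply (τ c⁻¹), ← map_mul, inv_mul_cancel,
          map_one, Module.End.one_apply, hτ, map_smul] at h2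
        refine LinearMap.ext fun v => ?_
        rw [Representation.dual_apply]
        change e (T.1 z) (ρ c⁻¹ v) = e (T.1 z) v
        have h5 := LinearMap.congr_fun (congrArg e h2) v
        rw [hσ, map_smul, LinearMap.smul_apply, smul_eq_mul] at h5
        exact mul_left_cancel₀ (hχ c) h5⟩
      map_add' := fun T T' => Subtype.ext (map_add e _ _)
      map_smul' := fun c T => Subtype.ext (map_smul e _ _) }
  refine LinearMap.finrank_le_finrank_of_injective (f := ev) ?_
  rw [injective_iff_map_eq_zero]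
  rintro ⟨T, hT⟩ h
  have h2 : T z = 0 := he ((congrArg Subtype.val h).trans (map_zero e).symm)
  refine Subtype.ext (LinearMap.ext fun x => ?_)
  obtain ⟨c, rfl⟩ := hz x
  change T (c • z) = 0
  rw [map_smul, h2, smul_zero]

/-- roots of unity -/
lemma hFun_torRep_le [Finite (Γ ⧸ N)] (U : UnitLat p S N)
    (hNχ : N ≤ (cycloChar p).ker)
    {ρ : Representation (ZMod p) Γ V} (hρ : ∀ g ∈ N, ∀ v, ρ g v = v) (C : Subgroup (Γ ⧸ N))
    (hC : ¬ p ∣ Nat.card C) :
    letI := U.grp
    (hFun hC (descC (dualRep (cycloChar p) ρ) (dualRep_triv hNχ hρ) C)).val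
        (torRep p (descC U.ρ U.triv C)) ≤
      (finrank (ZMod p) (mapRep ρ (Γ ⧸ C.comap (QuotientGroup.mk' N))).invariants : ℚ) := by
  letI := U.grp
  have hUf := U.fin
  have hz : U.z ∈ TorN p U.A := (U.tors U.z).2 ⟨1, (one_nsmul _).symm⟩
  rw [hFun_val, Nat.cast_le, finrank_inv_mapRep]
  have h1 : fixOn ρ (C.comap (QuotientGroup.mk' N)) = (descC ρ hρ C).invariants := by
    ext v
    constructor
    · intro h c
      obtain ⟨g, hg⟩ := QuotientGroup.mk_surjective c.1
      change desc N ρ hρ c.1 v = v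
      rw [← hg, desc_mk]
      refine h g ?_
      rw [Subgroup.mem_comap]
      change (g : Γ ⧸ N) ∈ C
      rw [hg]; exact c.2
    · intro h g hg
      exact h ⟨(g : Γ ⧸ N), hg⟩
  rw [h1]
  choose r hr using fun c : C => QuotientGroup.mk_surjective c.1
  refine hom_line_le (card_ne_zero_of_not_dvd hC) _ _ LinearMap.id Function.injective_id _
    (⟨U.z, hz⟩ : TorN p U.A) (fun x => ?_)
    (fun c => ((cycloChar p (r c) : (ZMod p)ˣ) : ZMod p)) (fun c => Units.ne_zero _)
    (fun c => ?_) (fun c l v => ?_)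
  · obtain ⟨n, hn⟩ := (U.tors x.1).1 x.2
    refine ⟨(n : ZMod p), ?_⟩
    rw [Nat.cast_smul_eq_nsmul]
    exact Subtype.ext hn
  · have e1 : descC U.ρ U.triv C c = U.ρ (r c) := by
      change desc N U.ρ U.triv c.1 = _
      rw [← hr, desc_mk]
    have h4 : ((cycloChar p (r c) : (ZMod p)ˣ) : ZMod p) • (⟨U.z, hz⟩ : TorN p U.A) =
        ((cycloChar p (r c) : (ZMod p)ˣ) : ZMod p).val • (⟨U.z, hz⟩ : TorN p U.A) := by
      rw [← Nat.cast_smul_eq_nsmul (ZMod p), ZMod.natCast_zmod_val]
    rw [h4]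
    refine Subtype.ext ?_
    rw [coe_torRep, e1]
    exact U.z_act (r c)
  · have e2 : descC (dualRep (cycloChar p) ρ) (dualRep_triv hNχ hρ) C c =
        dualRep (cycloChar p) ρ (r c) := by
      change desc N (dualRep (cycloChar p) ρ) (dualRep_triv hNχ hρ) c.1 = _
      rw [← hr, desc_mk]
    have e3 : descC ρ hρ C c⁻¹ = ρ (r c)⁻¹ := by
      change desc N ρ hρ (c⁻¹).1 = _
      rw [Subgroup.coe_inv, ← hr]
      rfl
    rw [LinearMap.id_apply, LinearMap.id_apply, e2, e3, dualRep_apply]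

/-- the main inequality -/
theorem main_ineq (hp2 : p ≠ 2) (hpS : pPrime p ∈ S) (hN : N ∈ sLevels S) (U : UnitLat p S N)
    (hNχ : N ≤ (cycloChar p).ker)
    {ρ : Representation (ZMod p) Γ V} (hρ : ∀ g ∈ N, ∀ v, ρ g v = v) (C : Subgroup (Γ ⧸ N))
    (hC : ¬ p ∣ Nat.card C) :
    (finrank (ZMod p) (fixOn (mapRep ρ (Γ ⧸ C.comap (QuotientGroup.mk' N)))
      (Subgroup.zpowers complexConjugation)) : ℤ) ≤
    chi2 (sLevels S) (mapRep ρ (Γ ⧸ C.comap (QuotientGroup.mk' N))) +
      finrank (ZMod p) (Γ ⧸ C.comap (QuotientGroup.mk' N) → V) := by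
  letI := U.grp
  have hUf := U.fin
  have hfinN := finite_quotient_of_mem hN
  have hNH : N ≤ C.comap (QuotientGroup.mk' N) := fun g hg => by
    have : QuotientGroup.mk' N g = 1 := (QuotientGroup.eq_one_iff g).2 hg
    rw [Subgroup.mem_comap, this]
    exact one_mem _
  have hH : C.comap (QuotientGroup.mk' N) ∈ sLevels S := Levels.up_mem hN hNH
  have hfin := finite_quotient_of_mem hH
  have hsm : Smooth (sLevels S) (mapRep ρ (Γ ⧸ C.comap (QuotientGroup.mk' N))) :=
    smooth_mapRep (fun v => ⟨N, hN, fun g hg => hρ g hg v⟩) (smoothSet_quotient hH)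
  set Ind := mapRep ρ (Γ ⧸ C.comap (QuotientGroup.mk' N)) with hInd
  set φ := hFun hC (descC (dualRep (cycloChar p) ρ) (dualRep_triv hNχ hρ) C) with hφ
  let D := gwPT hp2 hpS
  have hfix : ∀ {G' : Type} [Group G'] (f : G' →* Γ),
      (finrank (ZMod p) (fixOn (dualRep (cycloChar p) Ind) f.range) : ℚ) =
        φ.val (permP p (G := C) ((Γ ⧸ N) ⧸ dbar N f)) := by
    intro G' _ f
    rw [← (req_dual_mapRep (cycloChar p) ρ
      (Γ ⧸ C.comap (QuotientGroup.mk' N))).finrank_fixOn, finrank_fixOn_mapRep _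
      (dualRep_triv hNχ hρ) C f, hFun_val]
  -- degree 2
  have e1 := D.finrank_range_loc2 hsm
  have e2 : ∀ l : {l // l ∈ S},
      (finrank (ZMod p) (H2 (locLevels (l.1 : ℕ)) (resRep Ind (localGaloisToGlobal (l.1 : ℕ)))) : ℚ)
        = φ.val (permP p (G := C) ((Γ ⧸ N) ⧸ dbar N (localGaloisToGlobal (l.1 : ℕ)))) := by
    intro l
    rw [← hfix, (gwLoc hp2 l.1).finrank_H2_eq (hsm.res (cont_locLevels S (l.1 : ℕ))),
      ← resRep_dualRep]
    have : (resRep (dualRep (cycloChar p) Ind) (localGaloisToGlobal (l.1 : ℕ))).invariants =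
        fixOn (dualRep (cycloChar p) Ind) (localGaloisToGlobal (l.1 : ℕ)).range := by
      ext v
      constructor
      · rintro h _ ⟨g, rfl⟩
        exact h g
      · intro h g
        exact h _ ⟨g, rfl⟩
    rw [this]
  have e3 : (finrank (ZMod p) (dualRep (cycloChar p) Ind).invariants : ℚ) =
      φ.val (permP p (G := C) ((Γ ⧸ N) ⧸ dbar N (MonoidHom.id Γ))) := by
    rw [← hfix]
    have : (dualRep (cycloChar p) Ind).invariants =
        fixOn (dualRep (cycloChar p) Ind) (MonoidHom.id Γ).range := by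
      ext v
      constructor
      · rintro h _ ⟨g, rfl⟩
        exact h g
      · intro h g
        exact h _ ⟨g, rfl⟩
    rw [this]
  have e4 : φ.val (permP p (G := C)
        ((Γ ⧸ N) ⧸ dbar N (Subgroup.zpowers complexConjugation).subtype)) +
      finrank (ZMod p) (fixOn Ind (Subgroup.zpowers complexConjugation)) ≤
      finrank (ZMod p) (Γ ⧸ C.comap (QuotientGroup.mk' N) → V) := by
    rw [← hfix, Subgroup.range_subtype]
    have h2 : (2 : ZMod p) ≠ 0 := by
      intro h
      have h3 : ((2 : ℕ) : ZMod p) = 0 := by exact_mod_cast h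
      rw [ZMod.natCast_eq_zero_iff] at h3
      exact hp2 ((Nat.prime_dvd_prime_iff_eq Fact.out Nat.prime_two).1 h3)
    exact_mod_cast finrank_fixOn_dual_add_le h2 (cycloChar p) Ind
      (TW.cycloChar_complexConjugation p) complexConjugation_mul_self
  have e5 := finrank_H1_ind_le hN U hNχ hρ C hC
  have e6 := hFun_torRep_le U hNχ hρ C hC
  have e7 := U.identity C φ
  have hf2 := (D.ecg.fin2 Ind hsm).h2
  have e8 := LinearMap.finrank_range_add_finrank_ker (loc2 D.hr Ind)
  have e1' : (finrank (ZMod p) (LinearMap.range (loc2 D.hr Ind)) : ℚ) +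
      finrank (ZMod p) (dualRep (cycloChar p) Ind).invariants = ∑ l : {l // l ∈ S},
      (finrank (ZMod p) (H2 (locLevels (l.1 : ℕ))
        (resRep Ind (localGaloisToGlobal (l.1 : ℕ)))) : ℚ) := by
    exact_mod_cast e1
  rw [Finset.sum_congr rfl fun l _ => e2 l, e3] at e1'
  have e8' : (finrank (ZMod p) (LinearMap.range (loc2 D.hr Ind)) : ℚ) +
      finrank (ZMod p) (LinearMap.ker (loc2 D.hr Ind)) =
      finrank (ZMod p) (H2 (sLevels S) Ind) := by exact_mod_cast e8
  have e9 : (0 : ℚ) ≤ finrank (ZMod p) (LinearMap.ker (loc2 D.hr Ind)) := by positivity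
  have goal : ((finrank (ZMod p) (fixOn Ind (Subgroup.zpowers complexConjugation)) : ℕ) : ℚ) ≤
      ((chi2 (sLevels S) Ind : ℤ) : ℚ) +
        ((finrank (ZMod p) (Γ ⧸ C.comap (QuotientGroup.mk' N) → V) : ℕ) : ℚ) := by
    rw [chi2]
    push_cast
    linarith
  exact_mod_cast goal

end Main

end Fermat.Agent.CFT
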