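import Mathlib
import Fermat.Agent.CFT.PTEuler
import Fermat.Agent.CFT.LocInst

/-!
# The local Euler characteristic formula away from `p`

If `c = 0` and `H¹(G, 𝔽_p) ≠ 0`, then the Euler characteristic of every smooth finite dimensional
representation vanishes.
-/

set_option autoImplicit false

open Module

namespace Fermat.Agent.CFT

variable {p : ℕ} [Fact p.Prime] {G : Type} [Group G] {𝓛 : Levels G}

/-- additivity of Euler characteristics -/
theorem ECG.chi2_add {U₁ : Subgroup G} {c : ℚ} (h : ECG p 𝓛 U₁ c)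
    {A B C : Type} [AddCommGroup A] [Module (ZMod p) A]
    [AddCommGroup B] [Module (ZMod p) B] [AddCommGroup C] [Module (ZMod p) C]
    [FiniteDimensional (ZMod p) B]
    {ρA : Representation (ZMod p) G A} {ρB : Representation (ZMod p) G B}
    {ρC : Representation (ZMod p) G C} (E : SES ρA ρB ρC) (hs : Smooth 𝓛 ρB) :
    chi2 𝓛 ρB = chi2 𝓛 ρA + chi2 𝓛 ρC := by
  obtain ⟨hfA, hfC⟩ := E.finiteDimensional
  have h1 := E.chi_add hs (h.fin2 _ (E.smooth_left hs)) (h.fin2 _ (E.smooth_right hs))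
  have h2 : LinearMap.range (E.p2 𝓛) = ⊤ := LinearMap.range_eq_top.2 (h.p2_surjective E hs)
  have h3 : finrank (ZMod p) (H2 𝓛 ρC ⧸ LinearMap.range (E.p2 𝓛)) = 0 := by
    rw [h2]
    have : Subsingleton (H2 𝓛 ρC ⧸ (⊤ : Submodule (ZMod p) (H2 𝓛 ρC))) :=
      Submodule.Quotient.subsingleton_iff.2 rfl
    exact finrank_zero_of_subsingleton
  rw [h3] at h1
  push_cast at h1
  linarith

namespace LocData

variable {χ : G →* (ZMod p)ˣ} {c : ℚ}

/-- `H¹` of the dual is not larger -/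
theorem finrank_H1_dual_le (D : LocData p 𝓛 χ c) {V : Type} [AddCommGroup V] [Module (ZMod p) V]
    [FiniteDimensional (ZMod p) V] {ρ : Representation (ZMod p) G V} (hs : Smooth 𝓛 ρ) :
    finrank (ZMod p) (H1 𝓛 (dualRep χ ρ)) ≤ finrank (ZMod p) (H1 𝓛 ρ) := by
  have hf := (D.ecg.fin2 ρ hs).h1
  have h1 : Function.Injective (D.pair1 hs) := (injective_iff_map_eq_zero _).2 fun x hx =>
    D.nd_one hs x fun b => LinearMap.congr_fun hx b
  have h2 := LinearMap.finrank_le_finrank_of_injective h1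
  rwa [Subspace.dual_finrank_eq] at h2

variable (D : LocData p 𝓛 χ 0)

include D in
/-- the case of the trivial character -/
lemma chi2_triv_of_ker (hχ : ∀ g, χ g = 1) : chi2 𝓛 (triv p G) = 0 := by
  have h1 := D.ecg.chi ⊤ Levels.top_mem (fun g _ => hχ g)
  rw [mul_zero] at h1
  have E := RepIso.top (𝓛 := 𝓛) (triv p G)
  rw [E.chi2_eq]
  exact_mod_cast h1

lemma invariants_eq_bot_of_char {V : Type} [AddCommGroup V] [Module (ZMod p) V]
    {ρ : Representation (ZMod p) G V} {χ : G →* (ZMod p)ˣ} (hρ : ∀ g v, ρ g v = (χ g : ZMod p) • v)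
    {g : G} (hg : χ g ≠ 1) : ρ.invariants = ⊥ := by
  rw [eq_bot_iff]
  intro v hv
  rw [Submodule.mem_bot]
  have h1 : ρ g v = v := hv g
  rw [hρ] at h1
  have h2 : ((χ g : ZMod p) - 1) • v = 0 := by rw [sub_smul, h1, one_smul, sub_self]
  refine (smul_eq_zero.1 h2).resolve_left fun h => hg ?_
  ext
  rw [Units.val_one]
  exact sub_eq_zero.1 h

include D in
theorem chi2_triv_le (hne : ∃ z ∈ Z1 𝓛 (triv p G), z ≠ 0) : chi2 𝓛 (triv p G) ≤ 0 := by
  by_cases hχ : ∀ g, χ g = 1
  · exact (D.chi2_triv_of_ker hχ).le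
  push Not at hχ
  obtain ⟨g, hg⟩ := hχ
  have hs : Smooth 𝓛 (triv p G) := smooth_trivial
  have hf := (D.ecg.fin2 (triv p G) hs).h1
  obtain ⟨z, hz, hz0⟩ := hne
  have h1 : 1 ≤ finrank (ZMod p) (H1 𝓛 (triv p G)) := by
    rw [Nat.one_le_iff_ne_zero]
    intro h
    have h2 := finrank_zero_iff.1 h
    have h3 : H1.mk 𝓛 (triv p G) ⟨z, hz⟩ = 0 := Subsingleton.elim _ _
    rw [H1.mk_eq_zero, B1_triv, Submodule.mem_bot] at h3
    exact hz0 h3
  have h2 : finrank (ZMod p) (H2 𝓛 (triv p G)) = 0 := by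
    rw [D.finrank_H2_eq hs, invariants_eq_bot_of_char (χ := χ) ?_ hg]
    · exact finrank_bot _ _
    · intro g φ
      ext
      rw [dualRep_apply]
      rfl
  have h3 : finrank (ZMod p) (triv p G).invariants = 1 := finrank_invariants_triv
  rw [chi2, h2, h3]
  omega

include D in
theorem chi2_charRep_le (hne : ∃ z ∈ Z1 𝓛 (triv p G), z ≠ 0) : chi2 𝓛 (charRep χ) ≤ 0 := by
  by_cases hχ : ∀ g, χ g = 1
  · have h1 : charRep χ = triv p G := by
      ext g
      rw [charRep_apply, hχ, Units.val_one, one_mul]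
      rfl
    rw [h1]
    exact (D.chi2_triv_of_ker hχ).le
  push Not at hχ
  obtain ⟨g, hg⟩ := hχ
  have hs : Smooth 𝓛 (charRep χ) := smooth_charRep D.ecg.mem
  have hs' : Smooth 𝓛 (dualRep χ (charRep χ)) := smooth_dualRep D.ecg.mem hs
  have hf := (D.ecg.fin2 _ hs').h1
  obtain ⟨z, hz, hz0⟩ := hne
  have htr : ∀ g (φ : Dual (ZMod p) (ZMod p)), dualRep χ (charRep χ) g φ = φ := by
    intro g φ
    ext
    rw [dualRep_apply, charRep_apply, mul_one, ← smul_eq_mul, ← mul_one ((χ g⁻¹ : (ZMod p)ˣ) :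
      ZMod p), ← smul_eq_mul, map_smul, smul_smul, ← Units.val_mul, ← map_mul, mul_inv_cancel,
      map_one, Units.val_one, one_smul]
  have h1 : 1 ≤ finrank (ZMod p) (H1 𝓛 (dualRep χ (charRep χ))) := by
    rw [Nat.one_le_iff_ne_zero]
    intro h
    have h2 := finrank_zero_iff.1 h
    have hz' : (fun g => z g • (LinearMap.id : Dual (ZMod p) (ZMod p))) ∈
        Z1 𝓛 (dualRep χ (charRep χ)) := by
      rw [mem_Z1] at hz ⊢
      refine ⟨hz.1.comp (fun a => a • (LinearMap.id : Dual (ZMod p) (ZMod p))), fun g h => ?_⟩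
      rw [htr, hz.2, add_smul]
      rfl
    have h3 : H1.mk 𝓛 (dualRep χ (charRep χ)) ⟨_, hz'⟩ = 0 := Subsingleton.elim _ _
    rw [H1.mk_eq_zero, mem_B1] at h3
    obtain ⟨v, hv⟩ := h3
    apply hz0
    funext g
    have h4 := hv g
    rw [htr, sub_self] at h4
    have h5 := LinearMap.congr_fun h4 1
    simpa using h5
  have h2 := D.finrank_H1_dual_le hs
  have h3 : finrank (ZMod p) (H2 𝓛 (charRep χ)) ≤ 1 := by
    rw [D.finrank_H2_eq hs]
    refine (Submodule.finrank_le _).trans ?_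
    rw [Subspace.dual_finrank_eq, finrank_self]
  have h4 : finrank (ZMod p) (charRep χ).invariants = 0 := by
    rw [invariants_eq_bot_of_char (χ := χ) (fun g v => rfl) hg]
    exact finrank_bot _ _
  rw [chi2, h4]
  omega

include D in
/-- the Euler characteristic is nonpositive -/
theorem chi2_nonpos (hne : ∃ z ∈ Z1 𝓛 (triv p G), z ≠ 0) : ∀ (n : ℕ) (V : Type) [AddCommGroup V]
    [Module (ZMod p) V] [FiniteDimensional (ZMod p) V] (ρ : Representation (ZMod p) G V),
    finrank (ZMod p) V = n → Smooth 𝓛 ρ → chi2 𝓛 ρ ≤ 0 := by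
  intro n
  induction n using Nat.strong_induction_on with
  | _ n ih =>
  intro V _ _ _ ρ hn hs
  by_cases h1 : ρ.invariants = ⊥
  · by_cases h2 : (dualRep χ ρ).invariants = ⊥
    · rw [chi2, D.finrank_H2_eq hs, h1, h2, finrank_bot, finrank_bot]
      omega
    · obtain ⟨φ, hφ, hφ0⟩ := Submodule.exists_mem_ne_zero_of_ne_bot h2
      have hsurj : Function.Surjective φ := LinearMap.surjective hφ0
      let E := SES.ofSurj (ρB := ρ) (ρC := charRep χ) (compat_of_mem_invariants hφ) hsurj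
      obtain ⟨hfA, hfC⟩ := E.finiteDimensional
      have h3 := D.ecg.chi2_add E hs
      have h4 := D.chi2_charRep_le hne
      have h5 := E.finrank_add
      rw [finrank_self, hn] at h5
      have h6 := ih _ (by omega) _ _ rfl (E.smooth_left hs)
      rw [h3]
      exact add_nonpos h6 h4
  · obtain ⟨v, hv, hv0⟩ := Submodule.exists_mem_ne_zero_of_ne_bot h1
    obtain ⟨W, hW, hWeq, ⟨E⟩⟩ := exists_SES_of_fixed hv0 hv
    have h3 := D.ecg.chi2_add E hs
    have h4 := D.chi2_triv_le hne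
    have h5 := E.finrank_add
    rw [finrank_self, hn] at h5
    have h6 := ih _ (by omega) _ _ rfl (E.smooth_right hs)
    rw [h3]
    exact add_nonpos h4 h6

include D in
/-- **The local Euler characteristic formula** away from `p`. -/
theorem chi2_eq_zero (hne : ∃ z ∈ Z1 𝓛 (triv p G), z ≠ 0) {V : Type} [AddCommGroup V]
    [Module (ZMod p) V] [FiniteDimensional (ZMod p) V] {ρ : Representation (ZMod p) G V}
    (hs : Smooth 𝓛 ρ) : chi2 𝓛 ρ = 0 := by
  obtain ⟨N, hN, hn, hNχ, hNρ, W, ρW, E, -⟩ := exists_presentation (χ := χ) hs D.ecg.mem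
    (ι := Unit) (fun _ => 0)
  have hfin := finite_quotient_of_mem hN
  have hsm : Smooth 𝓛 (genRep (ZMod p) N (finrank (ZMod p) V)) :=
    smooth_mapRep smooth_trivial (smoothSet_GSet hN _)
  obtain ⟨hfA, hfC⟩ := E.finiteDimensional
  have h1 := D.ecg.chi2_add E hsm
  have h2 := D.chi2_nonpos hne _ V ρ rfl hs
  have h3 := D.chi2_nonpos hne _ W ρW rfl (E.smooth_left hsm)
  have h4 := (D.ecg.chi_perm (smoothSet_GSet hN (finrank (ZMod p) V)) (fun x g hg => by
    have h5 : g • x.1 = x.1 := congrArg Prod.fst hg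
    obtain ⟨y, hy⟩ := QuotientGroup.mk_surjective x.1
    rw [← hy] at h5
    have h6 : ((g * y : G) : G ⧸ N) = (y : G ⧸ N) := h5
    rw [QuotientGroup.eq] at h6
    have h7 : y⁻¹ * g⁻¹ * y ∈ N := by
      have : (g * y)⁻¹ * y = y⁻¹ * g⁻¹ * y := by group
      rwa [this] at h6
    have h8 := hn.conj_mem _ h7 y
    have h9 : y * (y⁻¹ * g⁻¹ * y) * y⁻¹ = g⁻¹ := by group
    rw [h9] at h8
    exact hNχ (by simpa using N.inv_mem h8))).2
  rw [mul_zero] at h4
  have h5 : chi2 𝓛 (genRep (ZMod p) N (finrank (ZMod p) V)) = 0 := by exact_mod_cast h4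
  omega

include D in
/-- dimension of `H¹` -/
theorem finrank_H1_eq (hne : ∃ z ∈ Z1 𝓛 (triv p G), z ≠ 0) {V : Type} [AddCommGroup V]
    [Module (ZMod p) V] [FiniteDimensional (ZMod p) V] {ρ : Representation (ZMod p) G V}
    (hs : Smooth 𝓛 ρ) : finrank (ZMod p) (H1 𝓛 ρ) =
      finrank (ZMod p) ρ.invariants + finrank (ZMod p) (dualRep χ ρ).invariants := by
  have h := D.chi2_eq_zero hne hs
  rw [chi2, D.finrank_H2_eq hs] at h
  omega

end LocData

end Fermat.Agent.CFT
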