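import Mathlib
import Fermat.Agent.CFT.GWSpec
import Fermat.Agent.CFT.NormIndex

/-!
# The Galois action on the `S`-units of a Galois number field; ranks of invariants
-/

set_option autoImplicit false
set_option linter.unusedSectionVars false
set_option linter.style.haveILetI false

open Module ExtCitation
open scoped Pointwise NumberField
open IsDedekindDomain

namespace Fermat.Agent.CFT

open Fermat.Agent.Frob

local notation "Qb" => AlgebraicClosure ℚ
local notation "Γ" => (AlgebraicClosure ℚ ≃ₐ[ℚ] AlgebraicClosure ℚ)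

/-- primality of elements of `Nat.Primes` -/
local instance factNPu (v : Nat.Primes) : Fact (v : ℕ).Prime := ⟨v.2⟩

section Act

variable (L : IntermediateField ℚ Qb) [FiniteDimensional ℚ L] [Normal ℚ L]

/-- the action of the absolute Galois group on `Lˣ` -/
noncomputable def actL : Representation ℤ Γ (Additive Lˣ) where
  toFun g := sg (L := ℚ) (M := L) (AlgEquiv.restrictNormalHom L g)
  map_one' := by rw [map_one, sg_one]
  map_mul' g h := by rw [map_mul, sg_mul]

variable {L}

lemma coe_actL (g : Γ) (x : Additive Lˣ) :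
    (((Additive.toMul (actL L g x) : Lˣ) : L) : Qb) = g (((Additive.toMul x : Lˣ) : L) : Qb) :=
  AlgEquiv.restrictNormal_commutes g L _

omit [Normal ℚ L] in
lemma addUnits_ext {x y : Additive Lˣ} (h : (((Additive.toMul x : Lˣ) : L) : Qb) =
    (((Additive.toMul y : Lˣ) : L) : Qb)) : x = y :=
  Additive.toMul.injective (Units.ext (Subtype.ext h))

variable {S : Finset Nat.Primes}

lemma placeSmul_mem_SL_iff (g : Gal(L/ℚ)) (v : HeightOneSpectrum (𝓞 L)) :
    placeSmul g v ∈ SL S L ↔ v ∈ SL S L := by
  have key : ∀ l : ℕ, (l : 𝓞 L) ∈ (placeSmul g v).asIdeal ↔ (l : 𝓞 L) ∈ v.asIdeal := by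
    intro l
    change (l : 𝓞 L) ∈ g • v.asIdeal ↔ _
    rw [Ideal.mem_pointwise_smul_iff_inv_smul_mem]
    have : g⁻¹ • (l : 𝓞 L) = (l : 𝓞 L) := by
      apply NumberField.RingOfIntegers.ext
      change g⁻¹ ((l : 𝓞 L) : L) = _
      simp
    rw [this]
  constructor
  · rintro ⟨l, hl, h⟩
    exact ⟨l, hl, (key _).1 h⟩
  · rintro ⟨l, hl, h⟩
    exact ⟨l, hl, (key _).2 h⟩

lemma actL_mem_TU (g : Γ) {x : Additive Lˣ} (hx : x ∈ TU (SL S L)) : actL L g x ∈ TU (SL S L) := by
  intro w hw
  set τ : Gal(L/ℚ) := AlgEquiv.restrictNormalHom L g with hτ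
  have h1 : placeSmul τ (placeSmul τ⁻¹ w) = w :=
    HeightOneSpectrum.ext (smul_inv_smul τ w.asIdeal)
  have h2 : ordH L w (actL L g x) = ordH L (placeSmul τ⁻¹ w) x := by
    conv_lhs => rw [← h1]
    exact ordH_sg τ _ x
  rw [h2]
  apply hx
  rw [placeSmul_mem_SL_iff]
  exact hw

/-- the group of `S`-units of `L` -/
def UT (S : Finset Nat.Primes) (L : IntermediateField ℚ Qb) [FiniteDimensional ℚ L] : Type :=
  ↥(TU (SL S L) : Submodule ℤ (Additive Lˣ))

noncomputable instance instACGUT (S : Finset Nat.Primes) (L : IntermediateField ℚ Qb)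
    [FiniteDimensional ℚ L] : AddCommGroup (UT S L) :=
  inferInstanceAs (AddCommGroup ↥(TU (SL S L) : Submodule ℤ (Additive Lˣ)))

/-- the inclusion in `Lˣ` -/
noncomputable def UT.val : UT S L →+ Additive Lˣ :=
  (TU (SL S L) : Submodule ℤ (Additive Lˣ)).subtype.toAddMonoidHom

/-- the underlying algebraic number -/
noncomputable def UT.num (x : UT S L) : Qb := ((Additive.toMul (UT.val x) : Lˣ) : L)

omit [Normal ℚ L] in
lemma UT.val_mem (x : UT S L) : UT.val x ∈ TU (SL S L) := Subtype.property x

/-- constructor -/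
def UT.mk (x : Additive Lˣ) (hx : x ∈ TU (SL S L)) : UT S L := ⟨x, hx⟩

omit [Normal ℚ L] in
@[simp] lemma UT.val_mk (x : Additive Lˣ) (hx : x ∈ TU (SL S L)) :
    UT.val (UT.mk (S := S) x hx) = x := rfl

omit [Normal ℚ L] in
lemma UT.ext {x y : UT S L} (h : UT.num x = UT.num y) : x = y :=
  Subtype.ext (addUnits_ext h)

omit [Normal ℚ L] in
lemma UT.ext_val {x y : UT S L} (h : UT.val x = UT.val y) : x = y := Subtype.ext h

omit [Normal ℚ L] in
lemma UT.num_nsmul (n : ℕ) (x : UT S L) : UT.num (n • x) = UT.num x ^ n := by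
  rw [UT.num, map_nsmul]; rfl

omit [Normal ℚ L] in
lemma UT.num_zero : UT.num (0 : UT S L) = 1 := by
  rw [UT.num, map_zero]; rfl

/-- the action on the `S`-units -/
noncomputable def actT (S : Finset Nat.Primes) (L : IntermediateField ℚ Qb)
    [FiniteDimensional ℚ L] [Normal ℚ L] : Representation ℤ Γ (UT S L) where
  toFun g := AddMonoidHom.toIntLinearMap
    { toFun := fun x => UT.mk (actL L g (UT.val x)) (actL_mem_TU g (UT.val_mem x))
      map_zero' := UT.ext_val (by rw [UT.val_mk, map_zero, map_zero])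
      map_add' := fun x y => UT.ext_val (by
        rw [UT.val_mk, map_add, map_add, map_add]; rfl) }
  map_one' := by
    refine LinearMap.ext fun x => UT.ext_val ?_
    change actL L 1 (UT.val x) = UT.val x
    rw [map_one]
    rfl
  map_mul' g h := by
    refine LinearMap.ext fun x => UT.ext_val ?_
    change actL L (g * h) (UT.val x) = actL L g (actL L h (UT.val x))
    rw [map_mul]
    rfl

lemma val_actT (g : Γ) (x : UT S L) : UT.val (actT S L g x) = actL L g (UT.val x) := rfl

lemma num_actT (g : Γ) (x : UT S L) : UT.num (actT S L g x) = g (UT.num x) := coe_actL g _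

lemma actT_triv {g : Γ} (hg : g ∈ L.fixingSubgroup) (x : UT S L) : actT S L g x = x := by
  apply UT.ext
  rw [num_actT]
  exact (IntermediateField.mem_fixingSubgroup_iff _ _).1 hg _ (SetLike.coe_mem _)

end Act

section Rank

variable {F L : IntermediateField ℚ Qb} [FiniteDimensional ℚ F] [FiniteDimensional ℚ L]
  [Normal ℚ L] {S : Finset Nat.Primes}

/-- the invariants of the `S`-units of `L` are the `S`-units of the subfield -/
theorem finrank_fixOn_actT (hFL : F ≤ L) :
    finrank ℤ (fixOn (actT S L) F.fixingSubgroup) =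
      finrank ℤ (TU (SL S F) : Submodule ℤ (Additive Fˣ)) := by
  letI : Algebra F L := (IntermediateField.inclusion hFL).toRingHom.toAlgebra
  haveI : IsScalarTower ℚ F L := IsScalarTower.of_algebraMap_eq fun x => rfl
  haveI : IsGalois ℚ L := ⟨⟩
  haveI : IsGalois F L := IsGalois.tower_top_of_isGalois ℚ F L
  have hcoe : ∀ x : F, ((algebraMap F L x : L) : Qb) = (x : Qb) := fun x => rfl
  have hTM : TM (L := F) L (SL S F) = SL S L := by
    ext w
    rw [mem_TM]
    have key : ∀ l : ℕ, (l : 𝓞 F) ∈ (under F w).asIdeal ↔ (l : 𝓞 L) ∈ w.asIdeal := by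
      intro l
      change (l : 𝓞 F) ∈ w.asIdeal.under (𝓞 F) ↔ _
      rw [Ideal.mem_comap, map_natCast]
    constructor
    · rintro ⟨l, hl, h⟩
      exact ⟨l, hl, (key _).1 h⟩
    · rintro ⟨l, hl, h⟩
      exact ⟨l, hl, (key _).2 h⟩
  have hmem : ∀ x : Additive Fˣ, inclA F L x ∈ (TU (SL S L) : Submodule ℤ (Additive Lˣ)) ↔
      x ∈ (TU (SL S F) : Submodule ℤ (Additive Fˣ)) := by
    intro x
    rw [← hTM]
    exact inclA_mem_TU_iff _ x
  have hcoeA : ∀ x : Additive Fˣ, (((Additive.toMul (inclA F L x) : Lˣ) : L) : Qb) =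
      (((Additive.toMul x : Fˣ) : F) : Qb) := fun x => by
    rw [coe_inclA, hcoe]
  let e : (TU (SL S F) : Submodule ℤ (Additive Fˣ)) →ₗ[ℤ] fixOn (actT S L) F.fixingSubgroup :=
    AddMonoidHom.toIntLinearMap
      { toFun := fun x => ⟨UT.mk (inclA F L x) ((hmem x).2 x.2), fun g hg => by
          apply UT.ext
          rw [num_actT]
          have h1 : UT.num (UT.mk (inclA F L x) ((hmem x).2 x.2) : UT S L) =
            (((Additive.toMul (x : Additive Fˣ) : Fˣ) : F) : Qb) := hcoeA x
          rw [h1]
          exact (IntermediateField.mem_fixingSubgroup_iff _ _).1 hg _ (SetLike.coe_mem _)⟩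
        map_zero' := Subtype.ext (UT.ext_val (by
          rw [UT.val_mk]
          exact (map_zero (inclA F L))))
        map_add' := fun x y => Subtype.ext (UT.ext_val (by
          rw [UT.val_mk]
          exact (map_add (inclA F L) _ _))) }
  refine (LinearEquiv.ofBijective e ⟨fun x y hxy => ?_, fun y => ?_⟩).finrank_eq.symm
  · apply Subtype.ext
    apply inclA_injective (L := F) (M := L)
    exact congrArg (fun z : fixOn (actT S L) F.fixingSubgroup => UT.val (z : UT S L)) hxy
  · obtain ⟨y, hfix⟩ := y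
    have h1 : UT.num y ∈ F := by
      refine mem_of_fixed fun g => ?_
      have h2 := congrArg UT.num (hfix g g.2)
      rw [num_actT] at h2
      exact h2
    have h0 : (⟨_, h1⟩ : F) ≠ 0 := by
      intro h
      have h3 : UT.num y = 0 := congrArg Subtype.val h
      have h4 : ((Additive.toMul (UT.val y) : Lˣ) : L) = 0 := Subtype.ext h3
      exact (Additive.toMul (UT.val y)).ne_zero h4
    let x : Additive Fˣ := Additive.ofMul (Units.mk0 _ h0)
    have hx : inclA F L x = UT.val y := by
      apply addUnits_ext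
      rw [hcoeA]
      rfl
    have hx' : x ∈ (TU (SL S F) : Submodule ℤ (Additive Fˣ)) := by
      rw [← hmem, hx]
      exact UT.val_mem y
    exact ⟨⟨x, hx'⟩, Subtype.ext (UT.ext_val hx)⟩

end Rank

section Inf

variable (F : IntermediateField ℚ Qb) [FiniteDimensional ℚ F]

/-- the complex embedding of `F` attached to `g` -/
noncomputable def embOf (g : Γ) : F →+* ℂ :=
  (complexEmbedding.comp ((g : Qb →ₐ[ℚ] Qb).comp F.val)).toRingHom

omit [FiniteDimensional ℚ F] in
lemma embOf_apply (g : Γ) (x : F) : embOf F g x = complexEmbedding (g x) := rfl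

omit [FiniteDimensional ℚ F] in
lemma embOf_surjective : Function.Surjective (embOf F) := by
  intro φ
  letI : Algebra F ℂ := φ.toAlgebra
  haveI : IsScalarTower ℚ F ℂ := IsScalarTower.of_algebraMap_eq' (Subsingleton.elim _ _)
  let ψ : Qb →ₐ[F] ℂ := IsAlgClosed.lift
  let ψ' : Qb →ₐ[ℚ] ℂ := ψ.restrictScalars ℚ
  letI : Algebra Qb ℂ := complexEmbedding.toRingHom.toAlgebra
  haveI : IsScalarTower ℚ Qb ℂ := IsScalarTower.of_algebraMap_eq' (Subsingleton.elim _ _)
  let g : Γ := AlgHom.restrictNormal' ψ' Qb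
  refine ⟨g, ?_⟩
  ext x
  rw [embOf_apply]
  have h1 : algebraMap Qb ℂ (g (x : Qb)) = ψ' (algebraMap Qb Qb (x : Qb)) :=
    AlgHom.restrictNormal_commutes ψ' Qb (x : Qb)
  have h2 : ψ (algebraMap F Qb x) = algebraMap F ℂ x := ψ.commutes x
  exact h1.trans h2

omit [FiniteDimensional ℚ F] in
lemma embOf_eq_iff (g h : Γ) : embOf F g = embOf F h ↔ ((g : Γ) : Γ ⧸ F.fixingSubgroup) = h := by
  rw [QuotientGroup.eq, IntermediateField.mem_fixingSubgroup_iff]
  constructor
  · intro hh x hx
    have h1 := congrArg (fun φ : F →+* ℂ => φ ⟨x, hx⟩) hh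
    have h2 : g x = h x := complexEmbedding.injective h1
    change g⁻¹ (h x) = x
    rw [← h2]
    exact g.symm_apply_apply x
  · intro hh
    ext x
    rw [embOf_apply, embOf_apply]
    congr 1
    have h1 : g⁻¹ (h (x : Qb)) = x := hh x x.2
    have h2 := congrArg g h1
    rw [← h2]
    exact g.apply_symm_apply _

omit [FiniteDimensional ℚ F] in
lemma embOf_conj (g : Γ) : embOf F (complexConjugation * g) =
    NumberField.ComplexEmbedding.conjugate (embOf F g) := by
  ext x
  rw [NumberField.ComplexEmbedding.conjugate_coe_eq, embOf_apply, embOf_apply]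
  exact complexEmbedding_complexConjugation (g x)

/-- orbits of complex conjugation are the infinite places -/
theorem orbs_conj : orbs (Subgroup.zpowers complexConjugation).subtype F.fixingSubgroup =
    Fintype.card (NumberField.InfinitePlace F) := by
  rw [← Nat.card_eq_fintype_card]
  let q₁ : Γ → MulAction.orbitRel.Quotient (Subgroup.zpowers complexConjugation)
      (PullSet (Subgroup.zpowers complexConjugation).subtype (Γ ⧸ F.fixingSubgroup)) := fun h =>
    Quotient.mk _ (PullSet.mk (Subgroup.zpowers complexConjugation).subtype ((h : Γ) :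
      Γ ⧸ F.fixingSubgroup))
  refine card_eq_of_rel (f := q₁) (g := fun g => NumberField.InfinitePlace.mk (embOf F g)) ?_ ?_ ?_
  · intro y
    induction y using Quotient.inductionOn with | _ y => ?_
    obtain ⟨h, hh⟩ := QuotientGroup.mk_surjective y.out
    exact ⟨h, congrArg (Quotient.mk _) hh⟩
  · intro w
    obtain ⟨g, hg⟩ := embOf_surjective F w.embedding
    exact ⟨g, by beta_reduce; rw [hg, NumberField.InfinitePlace.mk_embedding]⟩
  · intro h h'
    rw [NumberField.InfinitePlace.mk_eq_iff]
    have h1 : q₁ h = q₁ h' ↔ ∃ τ : Subgroup.zpowers complexConjugation,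
        (((τ : Γ) * h' : Γ) : Γ ⧸ F.fixingSubgroup) = ((h : Γ) : Γ ⧸ F.fixingSubgroup) := by
      constructor
      · intro hh
        obtain ⟨τ, hτ⟩ := Quotient.exact hh
        exact ⟨τ, hτ⟩
      · rintro ⟨τ, hτ⟩
        exact Quotient.sound ⟨τ, hτ⟩
    rw [h1]
    constructor
    · rintro ⟨⟨τ, hτ⟩, hh⟩
      rw [Subgroup.mem_zpowers_iff] at hτ
      obtain ⟨n, rfl⟩ := hτ
      rcases Int.even_or_odd' n with ⟨k, rfl | rfl⟩
      · left
        have e : complexConjugation ^ (2 * k) = 1 := by
          rw [zpow_mul]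
          have : complexConjugation ^ (2 : ℤ) = 1 := complexConjugation_sq
          rw [this, one_zpow]
        change ((complexConjugation ^ (2 * k) * h' : Γ) : Γ ⧸ F.fixingSubgroup) = h at hh
        rw [e, one_mul] at hh
        exact (embOf_eq_iff F _ _).2 hh.symm
      · right
        have e : complexConjugation ^ (2 * k + 1) = complexConjugation := by
          rw [zpow_add, zpow_mul]
          have : complexConjugation ^ (2 : ℤ) = 1 := complexConjugation_sq
          rw [this, one_zpow, one_mul, zpow_one]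
        change ((complexConjugation ^ (2 * k + 1) * h' : Γ) : Γ ⧸ F.fixingSubgroup) = h at hh
        rw [e] at hh
        rw [← (embOf_eq_iff F _ _).2 hh, embOf_conj]
        simp
    · rintro (hh | hh)
      · exact ⟨1, by
          rw [Subgroup.coe_one, one_mul]
          exact (embOf_eq_iff F _ _).1 hh.symm⟩
      · refine ⟨⟨complexConjugation, Subgroup.mem_zpowers _⟩, ?_⟩
        refine (embOf_eq_iff F _ _).1 ?_
        rw [embOf_conj, ← hh]
        simp

end Inf

section

variable {L : IntermediateField ℚ Qb} [FiniteDimensional ℚ L] [Normal ℚ L] {S : Finset Nat.Primes}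

/-- **the rank condition** -/
theorem finrank_fixOn_actT_add_one (D : Subgroup Γ) (hD : L.fixingSubgroup ≤ D) :
    finrank ℤ (fixOn (actT S L) D) + 1 =
      ∑ l : {l // l ∈ S}, orbs (localGaloisToGlobal (l.1 : ℕ)) D +
        orbs (Subgroup.zpowers complexConjugation).subtype D := by
  obtain ⟨F, hF, rfl⟩ := exists_field_of_mem
    (Levels.up_mem (fixingSubgroup_mem_galLevels (k := ℚ) L) hD)
  have hFL : F ≤ L := by
    intro x hx
    refine mem_of_fixed fun g => ?_
    exact (IntermediateField.mem_fixingSubgroup_iff _ _).1 (hD g.2) x hx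
  rw [finrank_fixOn_actT hFL, finrank_TU finite_SL, sum_orbs, orbs_conj]

end

end Fermat.Agent.CFT
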