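import Mathlib
import Fermat.Agent.CFT.UnitLatA

/-!
# The lattice of `S`-units: torsion, Kummer theory, existence
-/

set_option autoImplicit false
set_option linter.unusedSectionVars false
set_option linter.style.haveILetI false

open Module ExtCitation
open scoped Pointwise NumberField
open IsDedekindDomain

namespace Fermat.Agent.CFT

open Fermat.Agent.Frob

local notation "Qb" => AlgebraicClosure ℚ
local notation "Γ" => (AlgebraicClosure ℚ ≃ₐ[ℚ] AlgebraicClosure ℚ)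

/-- primality of elements of `Nat.Primes` -/
local instance factNPub (v : Nat.Primes) : Fact (v : ℕ).Prime := ⟨v.2⟩

section Tors

variable {p : ℕ} [Fact p.Prime] {L : IntermediateField ℚ Qb} [FiniteDimensional ℚ L]
  {S : Finset Nat.Primes} {ζ : Qb}

/-- `ζ` as an element of the `S`-units -/
noncomputable def zTU (S : Finset Nat.Primes) (hζ : IsPrimitiveRoot ζ p) (hζL : ζ ∈ L) :
    UT S L :=
  UT.mk (Additive.ofMul (Units.mk0 ⟨ζ, hζL⟩ fun h =>
      hζ.ne_zero (Fact.out : p.Prime).ne_zero (congrArg Subtype.val h))) (by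
    have hp0 : (p : ℤ) ≠ 0 := by exact_mod_cast (Fact.out : p.Prime).ne_zero
    intro v _
    set x : Additive Lˣ := Additive.ofMul (Units.mk0 ⟨ζ, hζL⟩ fun h =>
      hζ.ne_zero (Fact.out : p.Prime).ne_zero (congrArg Subtype.val h)) with hx
    have h1 : p • x = 0 := by
      apply addUnits_ext
      exact hζ.pow_eq_one
    have h2 := congrArg (ordH L v) h1
    rw [map_nsmul, map_zero, nsmul_eq_mul] at h2
    rcases mul_eq_zero.1 h2 with h3 | h3
    · exact absurd h3 hp0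
    · exact h3)

lemma num_zTU (hζ : IsPrimitiveRoot ζ p) (hζL : ζ ∈ L) : UT.num (zTU S hζ hζL) = ζ := rfl

lemma zTU_ne_zero (hζ : IsPrimitiveRoot ζ p) (hζL : ζ ∈ L) : zTU S hζ hζL ≠ 0 := by
  intro h
  have h1 := congrArg UT.num h
  rw [num_zTU, UT.num_zero] at h1
  exact hζ.ne_one (Fact.out : p.Prime).one_lt h1

lemma nsmul_TU_eq_zero_iff (hζ : IsPrimitiveRoot ζ p) (hζL : ζ ∈ L) (x : UT S L) :
    p • x = 0 ↔ ∃ n : ℕ, x = n • zTU S hζ hζL := by
  haveI : NeZero p := ⟨(Fact.out : p.Prime).ne_zero⟩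
  constructor
  · intro h
    have h1 := congrArg UT.num h
    rw [UT.num_nsmul, UT.num_zero] at h1
    obtain ⟨i, -, hi⟩ := hζ.eq_pow_of_pow_eq_one h1
    refine ⟨i, UT.ext ?_⟩
    rw [UT.num_nsmul, num_zTU, hi]
  · rintro ⟨n, rfl⟩
    apply UT.ext
    rw [UT.num_nsmul, UT.num_nsmul, num_zTU, UT.num_zero, ← pow_mul, mul_comm, pow_mul,
      hζ.pow_eq_one, one_pow]

lemma actT_zTU [Normal ℚ L] (hζ : IsPrimitiveRoot ζ p) (hζL : ζ ∈ L) (g : Γ) :
    actT S L g (zTU S hζ hζL) = ((cycloChar p g : (ZMod p)ˣ) : ZMod p).val • zTU S hζ hζL := by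
  apply UT.ext
  rw [UT.num_nsmul, num_actT, num_zTU]
  exact CycChar.apply_eq_pow_cycloChar p g hζ.pow_eq_one

end Tors

section Kum

variable {p : ℕ} [Fact p.Prime] {L : IntermediateField ℚ Qb} [FiniteDimensional ℚ L]
  {S : Finset Nat.Primes} {ζ : Qb}

/-- the map to `V_S` -/
noncomputable def utToVT (p : ℕ) [Fact p.Prime] (S : Finset Nat.Primes)
    (L : IntermediateField ℚ Qb) [FiniteDimensional ℚ L] :
    UT S L →+ (VT (SL S L) : Submodule (ZMod p) (KP p L)) := tuToVT p (SL S L)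

lemma utToVT_eq_zero_iff {x : UT S L} : utToVT p S L x = 0 ↔ ∃ y : UT S L, p • y = x := by
  have h1 : utToVT p S L x = 0 ↔ x ∈ (tuToVT p (SL S L)).ker := Iff.rfl
  rw [h1, ker_tuToVT]
  exact Iff.rfl

/-- Kummer theory for `S`-units when the `S`-class group is trivial -/
noncomputable def kumTU (hζ : IsPrimitiveRoot ζ p) (hζL : ζ ∈ L)
    (hL : L.fixingSubgroup ∈ sLevels S) (hpS : ExtCitation.pPrime p ∈ S)
    (hcl : ClTriv (SL S L)) : ModN (UT S L) p ≃ₗ[ZMod p]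
      Z1 ((sLevels S).restrict L.fixingSubgroup) (triv p L.fixingSubgroup) :=
  (LinearEquiv.ofBijective (modNLift (utToVT p S L)) ⟨by
    rw [injective_iff_map_eq_zero]
    intro x hx
    obtain ⟨y, rfl⟩ := modN_surjective x
    rw [modNLift_mkQ, utToVT_eq_zero_iff] at hx
    exact modN_eq_zero_iff.2 hx, fun x => by
    obtain ⟨y, hy⟩ := tuToVT_surjective hcl x
    exact ⟨(ModN.mkQ p : UT S L →+ ModN (UT S L) p) y, hy⟩⟩).trans (slVtEquiv hζ hζL hL hpS)

lemma kumTU_mkQ (hζ : IsPrimitiveRoot ζ p) (hζL : ζ ∈ L)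
    (hL : L.fixingSubgroup ∈ sLevels S) (hpS : ExtCitation.pPrime p ∈ S)
    (hcl : ClTriv (SL S L)) (x : UT S L) (n : L.fixingSubgroup) :
    (kumTU hζ hζL hL hpS hcl (ModN.mkQ p x) : L.fixingSubgroup → ZMod p) n =
      kummer p ζ (rt p (Additive.toMul (UT.val x))) n := rfl

/-- conjugation by an element of the Galois group -/
lemma conj_mem_fix [Normal ℚ L] (g : Γ) (n : L.fixingSubgroup) :
    g⁻¹ * (n : Γ) * g ∈ L.fixingSubgroup := by
  rw [IntermediateField.mem_fixingSubgroup_iff]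
  intro x hx
  have h1 : ((AlgEquiv.restrictNormalHom L g ⟨x, hx⟩ : L) : Qb) = g x :=
    AlgEquiv.restrictNormal_commutes g L ⟨x, hx⟩
  have h2 : (n : Γ) (g x) = g x := by
    rw [← h1]
    exact (IntermediateField.mem_fixingSubgroup_iff _ _).1 n.2 _ (SetLike.coe_mem _)
  rw [AlgEquiv.mul_apply, AlgEquiv.mul_apply, h2]
  exact g.symm_apply_apply x

lemma kummer_conj [Normal ℚ L] (hζ : IsPrimitiveRoot ζ p) {x : Lˣ} {β : Qb}
    (hβ : β ^ p = ((x : L) : Qb)) (g : Γ) (n : L.fixingSubgroup) :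
    kummer p ζ (g β) n = (((cycloChar p g : (ZMod p)ˣ) : ZMod p)) *
      kummer p ζ β (⟨g⁻¹ * n * g, conj_mem_fix g n⟩ : L.fixingSubgroup) := by
  haveI : NeZero p := ⟨(Fact.out : p.Prime).ne_zero⟩
  have hβ0 : β ≠ 0 := ne_zero_of_pow_eq hβ
  set m : L.fixingSubgroup := ⟨g⁻¹ * n * g, conj_mem_fix g n⟩ with hm
  have h1 := kummer_spec hζ hβ0 (smul_pow_root hβ m)
  have h2 : n • (g β) = g (m • β) := by
    change (n : Γ) (g β) = g ((g⁻¹ * n * g : Γ) β)
    rw [AlgEquiv.mul_apply, AlgEquiv.mul_apply]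
    exact (g.apply_symm_apply _).symm
  rw [h1, map_mul, map_pow, CycChar.apply_eq_pow_cycloChar p g hζ.pow_eq_one, ← pow_mul] at h2
  rw [kummer_unique hζ ((map_ne_zero_iff g g.injective).2 hβ0) h2]
  simp

lemma kumTU_modNRep [Normal ℚ L] (hζ : IsPrimitiveRoot ζ p) (hζL : ζ ∈ L)
    (hL : L.fixingSubgroup ∈ sLevels S) (hpS : ExtCitation.pPrime p ∈ S)
    (hcl : ClTriv (SL S L)) (g : Γ) (a : ModN (UT S L) p)
    (n : L.fixingSubgroup) :
    (kumTU hζ hζL hL hpS hcl (modNRep p (actT S L) g a) : L.fixingSubgroup → ZMod p) n =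
      (((cycloChar p g : (ZMod p)ˣ) : ZMod p)) *
      (kumTU hζ hζL hL hpS hcl a : L.fixingSubgroup → ZMod p)
        ⟨g⁻¹ * n * g, conj_mem_fix g n⟩ := by
  haveI : NeZero p := ⟨(Fact.out : p.Prime).ne_zero⟩
  obtain ⟨x, rfl⟩ := modN_surjective a
  rw [modNRep_mkQ, kumTU_mkQ, kumTU_mkQ, ← kummer_conj hζ (rt_pow _)]
  have h1 : (g (rt p (Additive.toMul (UT.val x)))) ^ p =
      (((Additive.toMul (actL L g (UT.val x)) : Lˣ) : L) : Qb) := by
    rw [← map_pow, rt_pow, coe_actL]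
  refine kummer_eq_of_pow_eq hζ (ne_zero_of_pow_eq (rt_pow _)) ?_ (smul_coe_eq ⟨ζ, hζL⟩ n)
    (smul_pow_root (rt_pow _) n)
  rw [rt_pow, h1]
  rfl

end Kum

attribute [local irreducible] kumTU

section H1

variable {p : ℕ} [Fact p.Prime] {L : IntermediateField ℚ Qb} [FiniteDimensional ℚ L]
  [Normal ℚ L] {S : Finset Nat.Primes} {ζ : Qb}
variable {V : Type} [AddCommGroup V] [Module (ZMod p) V]
variable {σ : Representation (ZMod p) Γ V} {H : Subgroup Γ}

lemma Z1_conj_eq {G : Type*} [Group G] {k : Type*} [CommRing k] {W : Type*} [AddCommGroup W]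
    [Module k W] {𝓛 : Levels G} {τ : Representation k G W} {x : G → W} (hx : x ∈ Z1 𝓛 τ) {n g : G}
    (hn : τ n = 1) : x (g⁻¹ * n * g) = τ g⁻¹ (x n) := by
  have h1 : x (g⁻¹ * g) = 0 := by rw [inv_mul_cancel]; exact Z1.map_one hx
  rw [hx.2] at h1
  rw [hx.2 (g⁻¹ * n) g, hx.2 g⁻¹ n, map_mul, hn, mul_one, add_left_comm, h1, add_zero]

/-- the restriction of a cocycle, paired with a functional -/
noncomputable def resZ (hσ : ∀ g ∈ L.fixingSubgroup, ∀ v, σ g v = v) (hH : L.fixingSubgroup ≤ H)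
    (x : Z1 ((sLevels S).restrict H) (resRep σ H.subtype)) (l : Dual (ZMod p) V) :
    Z1 ((sLevels S).restrict L.fixingSubgroup) (triv p L.fixingSubgroup) :=
  ⟨fun n => l ((x : H → V) ⟨n, hH n.2⟩), by
    obtain ⟨J, ⟨K, hK, hKJ⟩, hJ⟩ := x.2.1
    refine ⟨K.subgroupOf L.fixingSubgroup, ⟨K, hK, le_rfl⟩, fun g s hs => ?_⟩
    exact congrArg l (hJ ⟨g, hH g.2⟩ ⟨s, hH s.2⟩ (hKJ hs)), fun g h => by
    have h1 := x.2.2 ⟨g, hH g.2⟩ ⟨h, hH h.2⟩
    have h2 : resRep σ H.subtype ⟨g, hH g.2⟩ ((x : H → V) ⟨h, hH h.2⟩) =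
      (x : H → V) ⟨h, hH h.2⟩ := hσ g g.2 _
    rw [h2] at h1
    rw [Representation.trivial_apply, ← map_add, ← h1]
    rfl⟩

lemma coe_resZ (hσ : ∀ g ∈ L.fixingSubgroup, ∀ v, σ g v = v) (hH : L.fixingSubgroup ≤ H)
    (x : Z1 ((sLevels S).restrict H) (resRep σ H.subtype)) (l : Dual (ZMod p) V)
    (n : L.fixingSubgroup) :
    (resZ hσ hH x l : L.fixingSubgroup → ZMod p) n = l ((x : H → V) ⟨n, hH n.2⟩) := rfl

/-- cocycles trivial on the fixing subgroup are coboundaries if the index is prime to `p` -/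
lemma mem_B1_of_trivial (hH : L.fixingSubgroup ≤ H) (hidx : ¬ p ∣ L.fixingSubgroup.relIndex H)
    (x : Z1 ((sLevels S).restrict H) (resRep σ H.subtype))
    (hx : ∀ n : L.fixingSubgroup, (x : H → V) ⟨n, hH n.2⟩ = 0) :
    (x : H → V) ∈ B1 (resRep σ H.subtype) := by
  classical
  set N := L.fixingSubgroup.subgroupOf H with hN
  haveI hfi : (L.fixingSubgroup).FiniteIndex := finiteIndex_fixingSubgroup L
  haveI : N.FiniteIndex := inferInstance
  haveI : Fintype (H ⧸ N) := Fintype.ofFinite _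
  have hm : ((Fintype.card (H ⧸ N) : ℕ) : ZMod p) ≠ 0 := by
    rw [Ne, ZMod.natCast_eq_zero_iff, ← Nat.card_eq_fintype_card]
    exact hidx
  have hxN : ∀ (h : H) (n : H), n ∈ N → (x : H → V) (h * n) = (x : H → V) h := by
    intro h n hn
    rw [x.2.2, show (x : H → V) n = 0 from hx ⟨n, hn⟩, map_zero, zero_add]
  have hout : ∀ (h : H), (x : H → V) ((h : H ⧸ N).out) = (x : H → V) h := by
    intro h
    obtain ⟨n, hn⟩ := QuotientGroup.mk_out_eq_mul N h
    rw [hn]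
    exact hxN h n n.2
  set s : V := ∑ c : H ⧸ N, (x : H → V) c.out with hs
  have key : ∀ h : H, s = resRep σ H.subtype h s + (Fintype.card (H ⧸ N)) • (x : H → V) h := by
    intro h
    have h1 : s = ∑ c : H ⧸ N, (x : H → V) (h • c).out :=
      (Fintype.sum_equiv (MulAction.toPerm h) _ _ (fun c => rfl)).symm
    have h2 : ∀ c : H ⧸ N, (x : H → V) (h • c).out =
        resRep σ H.subtype h ((x : H → V) c.out) + (x : H → V) h := by
      intro c
      rw [← x.2.2, ← hout (h * c.out)]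
      conv_lhs => rw [← QuotientGroup.out_eq' c]
      rfl
    refine h1.trans ((Finset.sum_congr rfl fun c _ => h2 c).trans ?_)
    rw [Finset.sum_add_distrib, Finset.sum_const, Finset.card_univ, ← map_sum]
  refine mem_B1.2 ⟨-(((Fintype.card (H ⧸ N) : ℕ) : ZMod p)⁻¹ • s), fun h => ?_⟩
  have h1 := key h
  rw [← Nat.cast_smul_eq_nsmul (ZMod p)] at h1
  have h2 : ((Fintype.card (H ⧸ N) : ℕ) : ZMod p) • (x : H → V) h =
      s - resRep σ H.subtype h s := by
    rw [eq_sub_iff_add_eq, add_comm]; exact h1.symm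
  rw [map_neg, map_smul, neg_sub_neg, ← smul_sub, ← h2, smul_smul, inv_mul_cancel₀ hm, one_smul]

/-- the restriction pairing as a bilinear map -/
noncomputable def resZL (hσ : ∀ g ∈ L.fixingSubgroup, ∀ v, σ g v = v)
    (hH : L.fixingSubgroup ≤ H) :
    Z1 ((sLevels S).restrict H) (resRep σ H.subtype) →ₗ[ZMod p] Dual (ZMod p) V →ₗ[ZMod p]
      Z1 ((sLevels S).restrict L.fixingSubgroup) (triv p L.fixingSubgroup) :=
  LinearMap.mk₂ (ZMod p) (resZ hσ hH)
    (fun _ _ l => Subtype.ext (funext fun _ => map_add l _ _))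
    (fun _ _ l => Subtype.ext (funext fun _ => map_smul l _ _))
    (fun _ _ _ => rfl) (fun _ _ _ => rfl)

/-- the comparison map -/
noncomputable def phi0 (hζ : IsPrimitiveRoot ζ p) (hζL : ζ ∈ L)
    (hL : L.fixingSubgroup ∈ sLevels S) (hpS : ExtCitation.pPrime p ∈ S)
    (hcl : ClTriv (SL S L)) (hσ : ∀ g ∈ L.fixingSubgroup, ∀ v, σ g v = v)
    (hH : L.fixingSubgroup ≤ H) :
    Z1 ((sLevels S).restrict H) (resRep σ H.subtype) →ₗ[ZMod p]
      (Dual (ZMod p) V →ₗ[ZMod p] ModN (UT S L) p) :=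
  (resZL hσ hH).compr₂ (kumTU hζ hζL hL hpS hcl).symm.toLinearMap

lemma phi0_apply (hζ : IsPrimitiveRoot ζ p) (hζL : ζ ∈ L)
    (hL : L.fixingSubgroup ∈ sLevels S) (hpS : ExtCitation.pPrime p ∈ S)
    (hcl : ClTriv (SL S L)) (hσ : ∀ g ∈ L.fixingSubgroup, ∀ v, σ g v = v)
    (hH : L.fixingSubgroup ≤ H) (x : Z1 ((sLevels S).restrict H) (resRep σ H.subtype))
    (l : Dual (ZMod p) V) :
    phi0 hζ hζL hL hpS hcl hσ hH x l = (kumTU hζ hζL hL hpS hcl).symm (resZ hσ hH x l) := rfl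

lemma phi0_mem (hζ : IsPrimitiveRoot ζ p) (hζL : ζ ∈ L)
    (hL : L.fixingSubgroup ∈ sLevels S) (hpS : ExtCitation.pPrime p ∈ S)
    (hcl : ClTriv (SL S L)) (hσ : ∀ g ∈ L.fixingSubgroup, ∀ v, σ g v = v)
    (hH : L.fixingSubgroup ≤ H) (x : Z1 ((sLevels S).restrict H) (resRep σ H.subtype)) :
    phi0 hζ hζL hL hpS hcl hσ hH x ∈
      homOn (dualRep (cycloChar p) σ) (modNRep p (actT S L)) H := by
  intro h hh l
  rw [phi0_apply, phi0_apply]
  apply (kumTU hζ hζL hL hpS hcl).injective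
  apply Subtype.ext
  funext n
  rw [kumTU_modNRep, LinearEquiv.apply_symm_apply, LinearEquiv.apply_symm_apply, coe_resZ,
    coe_resZ, dualRep_apply]
  congr 2
  have h1 := Z1_conj_eq x.2 (n := ⟨n, hH n.2⟩) (g := ⟨h, hh⟩)
    (LinearMap.ext fun v => hσ n n.2 v)
  exact h1.symm

/-- the comparison map -/
noncomputable def phiH (hζ : IsPrimitiveRoot ζ p) (hζL : ζ ∈ L)
    (hL : L.fixingSubgroup ∈ sLevels S) (hpS : ExtCitation.pPrime p ∈ S)
    (hcl : ClTriv (SL S L)) (hσ : ∀ g ∈ L.fixingSubgroup, ∀ v, σ g v = v)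
    (hH : L.fixingSubgroup ≤ H) :
    Z1 ((sLevels S).restrict H) (resRep σ H.subtype) →ₗ[ZMod p]
      homOn (dualRep (cycloChar p) σ) (modNRep p (actT S L)) H :=
  (phi0 hζ hζL hL hpS hcl hσ hH).codRestrict _ (phi0_mem hζ hζL hL hpS hcl hσ hH)

theorem ker_phiH_le (hζ : IsPrimitiveRoot ζ p) (hζL : ζ ∈ L)
    (hL : L.fixingSubgroup ∈ sLevels S) (hpS : ExtCitation.pPrime p ∈ S)
    (hcl : ClTriv (SL S L)) (hσ : ∀ g ∈ L.fixingSubgroup, ∀ v, σ g v = v)
    (hH : L.fixingSubgroup ≤ H) (hidx : ¬ p ∣ L.fixingSubgroup.relIndex H) :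
    LinearMap.ker (phiH (V := V) (σ := σ) hζ hζL hL hpS hcl hσ hH) ≤
      LinearMap.ker (H1.mk ((sLevels S).restrict H) (resRep σ H.subtype)) := by
  intro x hx
  rw [LinearMap.mem_ker] at hx
  rw [LinearMap.mem_ker, H1.mk_eq_zero]
  refine mem_B1_of_trivial hH hidx x fun n => ?_
  rw [← Module.forall_dual_apply_eq_zero_iff (ZMod p)]
  intro l
  have h1 : phi0 hζ hζL hL hpS hcl hσ hH x l = 0 :=
    LinearMap.congr_fun (congrArg Subtype.val hx) l
  rw [phi0_apply] at h1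
  rw [LinearEquiv.map_eq_zero_iff] at h1
  have h2 := congrFun (congrArg Subtype.val h1) n
  exact h2

theorem finite_UT : Module.Finite ℤ (UT S L) := finite_TU finite_SL

theorem finrank_H1_le (hζ : IsPrimitiveRoot ζ p) (hζL : ζ ∈ L)
    (hL : L.fixingSubgroup ∈ sLevels S) (hpS : ExtCitation.pPrime p ∈ S)
    (hcl : ClTriv (SL S L)) [FiniteDimensional (ZMod p) V]
    (hσ : ∀ g ∈ L.fixingSubgroup, ∀ v, σ g v = v)
    (hH : L.fixingSubgroup ≤ H) (hidx : ¬ p ∣ L.fixingSubgroup.relIndex H) :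
    finrank (ZMod p) (H1 ((sLevels S).restrict H) (resRep σ H.subtype)) ≤
      finrank (ZMod p) (homOn (dualRep (cycloChar p) σ) (modNRep p (actT S L)) H) := by
  haveI : Module.Finite ℤ (UT S L) := finite_UT
  haveI : FiniteDimensional (ZMod p) (ModN (UT S L) p) := by
    haveI : Module.Finite ℤ (ModN (UT S L) p) := by
      refine Module.Finite.of_surjective (AddMonoidHom.toIntLinearMap (ModN.mkQ p :
        UT S L →+ _)) modN_surjective
    exact Module.Finite.of_restrictScalars_finite ℤ (ZMod p) _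
  set Φ := phiH (V := V) (σ := σ) hζ hζL hL hpS hcl hσ hH with hΦ
  haveI : FiniteDimensional (ZMod p) (Z1 ((sLevels S).restrict H) (resRep σ H.subtype) ⧸
      LinearMap.ker Φ) := Module.Finite.equiv Φ.quotKerEquivRange.symm
  let q : (Z1 ((sLevels S).restrict H) (resRep σ H.subtype) ⧸ LinearMap.ker Φ) →ₗ[ZMod p]
      H1 ((sLevels S).restrict H) (resRep σ H.subtype) :=
    (LinearMap.ker Φ).liftQ (H1.mk ((sLevels S).restrict H) (resRep σ H.subtype))
      (ker_phiH_le hζ hζL hL hpS hcl hσ hH hidx)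
  have hq : Function.Surjective q := by
    intro y
    obtain ⟨x, rfl⟩ := H1.mk_surjective _ _ y
    exact ⟨Submodule.Quotient.mk x, rfl⟩
  refine (LinearMap.finrank_le_finrank_of_surjective hq).trans ?_
  rw [Φ.quotKerEquivRange.finrank_eq]
  exact Submodule.finrank_le _

end H1

section Final

/-- **The lattice of `S`-units** -/
theorem existsUnitLat (p : ℕ) [Fact p.Prime] : ExistsUnitLat p := by
  classical
  intro L _ _ ζ hζ hζL
  obtain ⟨T0, hT0, -, hcl⟩ := exists_T0 (K := L) ∅ Set.finite_empty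
  choose q hq using exists_prime_mem_asIdeal (L := L)
  refine ⟨hT0.toFinset.image q, fun S hS hpS hL => ?_⟩
  have hsub : T0 ⊆ SL S L := fun v hv =>
    ⟨q v, hS (Finset.mem_image_of_mem q (hT0.mem_toFinset.2 hv)), hq v⟩
  have hcl' : ClTriv (SL S L) := ClTriv.mono hcl hsub
  exact ⟨{
    A := UT S L
    fin := finite_UT
    ρ := actT S L
    triv := fun g hg x => actT_triv hg x
    rank := finrank_fixOn_actT_add_one
    z := zTU S hζ hζL
    z_ne := zTU_ne_zero hζ hζL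
    tors := nsmul_TU_eq_zero_iff hζ hζL
    z_act := actT_zTU hζ hζL
    h1 := fun σ hσ H hH hidx => finrank_H1_le hζ hζL hL hpS hcl' hσ hH hidx }⟩

end Final

end Fermat.Agent.CFT
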