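import Mathlib
import Fermat.Agent.CFT.GEulerD
import Fermat.Agent.CFT.LocFormula
import Fermat.Agent.CFT.UnitLatB

/-!
# Tate's global Euler characteristic formula
-/

set_option autoImplicit false
set_option linter.unusedSectionVars false
set_option linter.style.haveILetI false

open Module ExtCitation

namespace Fermat.Agent.CFT

local notation "Qb" => AlgebraicClosure ℚ
local notation "Γ" => (AlgebraicClosure ℚ ≃ₐ[ℚ] AlgebraicClosure ℚ)

/-- primality of elements of `Nat.Primes` -/
local instance factNPe (v : Nat.Primes) : Fact (v : ℕ).Prime := ⟨v.2⟩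

section Gen

variable {k : Type*} [Field k] {G : Type*} [Group G]
variable {A B C V : Type*} [AddCommGroup A] [Module k A] [AddCommGroup B] [Module k B]
  [AddCommGroup C] [Module k C] [AddCommGroup V] [Module k V]
variable {ρA : Representation k G A} {ρB : Representation k G B} {ρC : Representation k G C}

/-- induction is exact -/
def SES.mapX (E : SES ρA ρB ρC) (X : Type*) [MulAction G X] :
    SES (mapRep ρA X) (mapRep ρB X) (mapRep ρC X) where
  ι := E.ι.compLeft X
  π := E.π.compLeft X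
  σ := E.σ.compLeft X
  τ := E.τ.compLeft X
  hι g _ := funext fun _ => E.hι g _
  hπ g _ := funext fun _ => E.hπ g _
  τι _ := funext fun _ => E.τι _
  πσ _ := funext fun _ => E.πσ _
  decomp _ := funext fun _ => E.decomp _

/-- `Hom(k[X], V) = Map(X, V)` -/
lemma req_linHom_pull {G' : Type*} [Group G'] (f : G' →* G) (X : Type*) [MulAction G X] [Finite X]
    (ρ : Representation k G' V) {Y : Type*} [MulAction G' Y] (e : Y ≃ X)
    (he : ∀ (g : G') (y : Y), e (g • y) = f g • e y) :
    REq (Representation.linHom (resRep (mapRep (Representation.trivial k G k) X) f) ρ)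
      (mapRep ρ Y) := by
  classical
  have := Fintype.ofFinite X
  refine ⟨((Pi.basisFun k X).constr k).symm ≪≫ₗ LinearEquiv.funCongrLeft k V e,
    fun g T => funext fun y => ?_⟩
  change ρ g (T (mapRep (Representation.trivial k G k) X (f g⁻¹) (Pi.basisFun k X (e y)))) =
    ρ g (T (Pi.basisFun k X (e (g⁻¹ • y))))
  congr 2
  funext x
  rw [he, Pi.basisFun_apply, Pi.basisFun_apply, mapRep_apply, Representation.trivial_apply,
    Pi.single_apply, Pi.single_apply, map_inv, inv_inv]
  congr 1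
  rw [eq_inv_smul_iff]

/-- composition of inductions -/
lemma req_mapRep_mapRep (ρ : Representation k G V) (X Y : Type*) [MulAction G X] [MulAction G Y] :
    REq (mapRep (mapRep ρ Y) X) (mapRep ρ (X × Y)) :=
  ⟨(LinearEquiv.curry k V X Y).symm, fun _ _ => rfl⟩

lemma REq.chi2_eq {𝓛 : Levels G} (h : REq ρA ρB) : chi2 𝓛 ρA = chi2 𝓛 ρB := by
  obtain ⟨e, he⟩ := h
  have E : RepIso 𝓛 𝓛 ρA ρB :=
    { f := MonoidHom.id G
      f' := id
      φ := e.toLinearMap
      φ' := e.symm.toLinearMap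
      hf := Levels.cont_id
      hf' := fun H hH => by rwa [Subgroup.map_id]
      ff' := fun _ => rfl
      f'f := fun _ => rfl
      φφ' := e.apply_symm_apply
      φ'φ := e.symm_apply_apply
      compat := he }
  exact E.chi2_eq

/-- powers of an involution -/
lemma mem_zpowers_involution {c : G} (hcc : c * c = 1) {g : G} (hg : g ∈ Subgroup.zpowers c) :
    g = 1 ∨ g = c := by
  obtain ⟨n, rfl⟩ := Subgroup.mem_zpowers_iff.1 hg
  rcases Int.even_or_odd' n with ⟨m, rfl | rfl⟩
  · left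
    rw [zpow_mul, zpow_two, hcc, one_zpow]
  · right
    rw [zpow_add, zpow_mul, zpow_two, hcc, one_zpow, one_mul, zpow_one]

/-- fixed vectors of an involution acting freely on a permutation module -/
lemma finrank_fixOn_perm {X : Type*} [MulAction G X] [Finite X] (c : G) (hcc : c * c = 1)
    (hc1 : c ≠ 1) (hfree : ∀ x : X, c • x ≠ x) :
    2 * finrank k (fixOn (mapRep (Representation.trivial k G k) X) (Subgroup.zpowers c)) =
      Nat.card X := by
  classical
  let f := (Subgroup.zpowers c).subtype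
  let D := OrbitData.ofAction (Subgroup.zpowers c) (PullSet f X)
  have : Fintype (MulAction.orbitRel.Quotient (Subgroup.zpowers c) (PullSet f X)) :=
    Fintype.ofFinite _
  have hU : ∀ i, D.U i = ⊥ := fun i => by
    rw [eq_bot_iff]
    intro g hg
    have h1 : (g : G) • (D.x i).out = (D.x i).out := (D.mem_U i g).1 hg
    rw [Subgroup.mem_bot]
    rcases mem_zpowers_involution hcc g.2 with h | h
    · exact Subtype.ext h
    · rw [h] at h1
      exact absurd h1 (hfree _)
  have hcard : Nat.card (Subgroup.zpowers c) = 2 := by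
    rw [Nat.card_zpowers]
    exact orderOf_eq_prime (by rw [pow_two, hcc]) hc1
  have h1 := D.sum_index
  have h2 : ∀ i, (D.U i).index = 2 := fun i => by
    rw [hU, Subgroup.index_bot, hcard]
  rw [Finset.sum_congr rfl fun i _ => h2 i, Finset.sum_const, smul_eq_mul] at h1
  have h3 := (LinearEquiv.ofBijective _ (sh0_bijective (k := k)
    (ρ := Representation.trivial k (Subgroup.zpowers c) k) D)).finrank_eq
  have h4 : ∀ i, (resRep (Representation.trivial k (Subgroup.zpowers c) k)
      (D.U i).subtype).invariants = ⊤ := fun i => by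
    rw [eq_top_iff]
    rintro x - g
    rfl
  have h5 : ∀ i, finrank k (resRep (Representation.trivial k (Subgroup.zpowers c) k)
      (D.U i).subtype).invariants = 1 := fun i => by
    rw [h4, finrank_top, finrank_self]
  rw [Module.finrank_pi_fintype, Finset.sum_congr rfl fun i _ => h5 i, Finset.sum_const,
    smul_eq_mul, mul_one] at h3
  have h6 : finrank k (fixOn (mapRep (Representation.trivial k G k) X) (Subgroup.zpowers c)) =
      finrank k (mapRep (Representation.trivial k (Subgroup.zpowers c) k)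
        (PullSet f X)).invariants := by
    refine LinearEquiv.finrank_eq (LinearEquiv.ofSubmodules (LinearEquiv.refl k (X → k)) _ _ ?_)
    ext a
    rw [Submodule.mem_map]
    constructor
    · rintro ⟨b, hb, rfl⟩ g
      exact hb g.1 g.2
    · intro ha
      refine ⟨a, fun g hg => ?_, rfl⟩
      exact ha ⟨g, hg⟩
  rw [h6, h3, mul_comm, h1]
  rfl

end Gen

section Tate

variable {p : ℕ} [Fact p.Prime]

/-- the defect in Tate's formula -/
noncomputable def fE (S : Finset Nat.Primes) {V : Type} [AddCommGroup V] [Module (ZMod p) V]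
    (ρ : Representation (ZMod p) Γ V) : ℚ :=
  (chi2 (sLevels S) ρ : ℚ) + finrank (ZMod p) V -
    finrank (ZMod p) (fixOn ρ (Subgroup.zpowers complexConjugation))

variable {S : Finset Nat.Primes} {A B C : Type} [AddCommGroup A] [Module (ZMod p) A]
  [AddCommGroup B] [Module (ZMod p) B] [AddCommGroup C] [Module (ZMod p) C]
  {ρA : Representation (ZMod p) Γ A} {ρB : Representation (ZMod p) Γ B}
  {ρC : Representation (ZMod p) Γ C}

lemma two_ne_zero_zmod (hp2 : p ≠ 2) : (2 : ZMod p) ≠ 0 := by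
  intro h
  have h3 : ((2 : ℕ) : ZMod p) = 0 := by exact_mod_cast h
  rw [ZMod.natCast_eq_zero_iff] at h3
  exact hp2 ((Nat.prime_dvd_prime_iff_eq Fact.out Nat.prime_two).1 h3)

lemma conj_ne_one (hp2 : p ≠ 2) : (complexConjugation : Γ) ≠ 1 := by
  intro h
  have h1 := TW.cycloChar_complexConjugation p
  rw [h, map_one, Units.val_one] at h1
  exact two_ne_zero_zmod hp2 (by linear_combination h1)

lemma card_zpowers_conj (hp2 : p ≠ 2) :
    Nat.card (Subgroup.zpowers (complexConjugation : Γ)) = 2 := by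
  rw [Nat.card_zpowers]
  exact orderOf_eq_prime (by rw [pow_two, complexConjugation_mul_self]) (conj_ne_one hp2)

lemma fE_add (hp2 : p ≠ 2) (hpS : pPrime p ∈ S) (E : SES ρA ρB ρC)
    [FiniteDimensional (ZMod p) B] (hs : Smooth (sLevels S) ρB) :
    fE S ρB = fE S ρA + fE S ρC := by
  have h1 := (gwPT hp2 hpS).ecg.chi2_add E hs
  have h2 := E.finrank_add
  have hcard := card_zpowers_conj hp2
  have hfin : Finite (Subgroup.zpowers (complexConjugation : Γ)) :=
    Nat.finite_of_card_ne_zero (by rw [hcard]; norm_num)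
  have hK : (Nat.card (Subgroup.zpowers (complexConjugation : Γ)) : ZMod p) ≠ 0 := by
    rw [hcard]
    exact_mod_cast two_ne_zero_zmod hp2
  have h3 := (E.res (Subgroup.zpowers (complexConjugation : Γ)).subtype).finrank_inv hK
  have h4 : ∀ {V : Type} [AddCommGroup V] [Module (ZMod p) V]
      (ρ : Representation (ZMod p) Γ V),
      (resRep ρ (Subgroup.zpowers (complexConjugation : Γ)).subtype).invariants =
        fixOn ρ (Subgroup.zpowers complexConjugation) := fun ρ => by
    ext v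
    exact ⟨fun h g hg => h ⟨g, hg⟩, fun h g => h g.1 g.2⟩
  rw [h4, h4, h4] at h3
  rw [fE, fE, fE, h1, h3, ← h2]
  push_cast
  ring

lemma fE_congr (h : REq ρA ρB) : fE S ρA = fE S ρB := by
  rw [fE, fE, h.chi2_eq, h.finrank_fixOn]
  obtain ⟨e, -⟩ := h
  rw [e.finrank_eq]

/-- vanishing for permutation modules -/
lemma fE_perm (hp2 : p ≠ 2) (hpS : pPrime p ∈ S) {X : Type} [MulAction Γ X] [Finite X]
    (hX : SmoothSet (sLevels S) X) (hst : ∀ (x : X) (g : Γ), g • x = x → g ∈ (cycloChar p).ker) :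
    fE S (mapRep (Representation.trivial (ZMod p) Γ (ZMod p)) X) = 0 := by
  have h1 := ((gwPT hp2 hpS).ecg.chi_perm hX hst).2
  have h2 := finrank_fixOn_perm (k := ZMod p) (X := X) (complexConjugation : Γ)
    complexConjugation_mul_self (conj_ne_one hp2) (fun x hx => by
      have h3 := TW.cycloChar_complexConjugation p
      rw [MonoidHom.mem_ker.1 (hst x _ hx), Units.val_one] at h3
      exact two_ne_zero_zmod hp2 (by linear_combination h3))
  have h3 : finrank (ZMod p) (X → ZMod p) = Nat.card X := by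
    have := Fintype.ofFinite X
    rw [Module.finrank_fintype_fun_eq_card, Nat.card_eq_fintype_card]
  rw [fE, h1, h3]
  have h4 : (2 : ℚ) * finrank (ZMod p) (fixOn (mapRep (Representation.trivial (ZMod p) Γ
    (ZMod p)) X) (Subgroup.zpowers complexConjugation)) = Nat.card X := by exact_mod_cast h2
  linarith

variable {N : Subgroup Γ} [N.Normal]
variable {V : Type} [AddCommGroup V] [Module (ZMod p) V] [FiniteDimensional (ZMod p) V]

/-- the defect as an additive invariant of representations of `Γ / N` -/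
noncomputable def tFun (hp2 : p ≠ 2) (hpS : pPrime p ∈ S) (hN : N ∈ sLevels S)
    {ρ : Representation (ZMod p) Γ V} (hρ : ∀ g ∈ N, ∀ v, ρ g v = v) : ModFun p (Γ ⧸ N) where
  val W := fE S (Representation.linHom (resRep W (QuotientGroup.mk' N)) ρ)
  add {A B C} _ _ _ _ _ _ ρA ρB ρC E hB := by
    have h1 := fE_add hp2 hpS ((E.res (QuotientGroup.mk' N)).homLeft ρ) (fun T =>
      ⟨N, hN, fun g hg => by
        rw [Representation.linHom_apply]
        refine LinearMap.ext fun v => ?_
        have h2 : QuotientGroup.mk' N g⁻¹ = 1 := (QuotientGroup.eq_one_iff _).2 (N.inv_mem hg)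
        change ρ g (T (ρB (QuotientGroup.mk' N g⁻¹) v)) = T v
        rw [h2, map_one, hρ g hg]
        rfl⟩)
    rw [h1, add_comm]

lemma tFun_val (hp2 : p ≠ 2) (hpS : pPrime p ∈ S) (hN : N ∈ sLevels S)
    {ρ : Representation (ZMod p) Γ V} (hρ : ∀ g ∈ N, ∀ v, ρ g v = v)
    (C : Subgroup (Γ ⧸ N)) [Finite (Γ ⧸ N)] :
    (tFun hp2 hpS hN hρ).val (permP p ((Γ ⧸ N) ⧸ C)) =
      fE S (mapRep ρ (Γ ⧸ C.comap (QuotientGroup.mk' N))) :=
  fE_congr (req_linHom_pull (QuotientGroup.mk' N) ((Γ ⧸ N) ⧸ C) ρ (qeq C) (qeq_smul C))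

lemma tFun_val_top (hp2 : p ≠ 2) (hpS : pPrime p ∈ S) (hN : N ∈ sLevels S)
    {ρ : Representation (ZMod p) Γ V} (hρ : ∀ g ∈ N, ∀ v, ρ g v = v) [Finite (Γ ⧸ N)] :
    (tFun hp2 hpS hN hρ).val (permP p ((Γ ⧸ N) ⧸ (⊤ : Subgroup (Γ ⧸ N)))) = fE S ρ := by
  rw [tFun_val]
  have hs : Subsingleton (Γ ⧸ (⊤ : Subgroup (Γ ⧸ N)).comap (QuotientGroup.mk' N)) := by
    rw [Subgroup.comap_top]
    exact QuotientGroup.subsingleton_quotient_top
  have hu : Unique (Γ ⧸ (⊤ : Subgroup (Γ ⧸ N)).comap (QuotientGroup.mk' N)) :=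
    ⟨⟨((1 : Γ) : Γ ⧸ (⊤ : Subgroup (Γ ⧸ N)).comap (QuotientGroup.mk' N))⟩,
    fun _ => Subsingleton.elim _ _⟩
  exact fE_congr (req_mapRep_unique ρ _)

/-- nonnegativity for groups of order prime to `p` -/
lemma fE_nonneg (hp2 : p ≠ 2) (hpS : pPrime p ∈ S) (hN : N ∈ sLevels S) (U : UnitLat p S N)
    (hNχ : N ≤ (cycloChar p).ker)
    {ρ : Representation (ZMod p) Γ V} (hρ : ∀ g ∈ N, ∀ v, ρ g v = v) (C : Subgroup (Γ ⧸ N))
    (hC : ¬ p ∣ Nat.card C) : 0 ≤ fE S (mapRep ρ (Γ ⧸ C.comap (QuotientGroup.mk' N))) := by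
  have h1 := main_ineq hp2 hpS hN U hNχ hρ C hC
  have h2 : ((finrank (ZMod p) (fixOn (mapRep ρ (Γ ⧸ C.comap (QuotientGroup.mk' N)))
      (Subgroup.zpowers complexConjugation)) : ℕ) : ℚ) ≤
    ((chi2 (sLevels S) (mapRep ρ (Γ ⧸ C.comap (QuotientGroup.mk' N))) : ℤ) : ℚ) +
      ((finrank (ZMod p) (Γ ⧸ C.comap (QuotientGroup.mk' N) → V) : ℕ) : ℚ) := by
    exact_mod_cast h1
  rw [fE]
  linarith

/-- vanishing for groups of order prime to `p` -/
lemma fE_eq_zero (hp2 : p ≠ 2) (hpS : pPrime p ∈ S) (hN : N ∈ sLevels S) (U : UnitLat p S N)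
    (hNχ : N ≤ (cycloChar p).ker)
    {ρ : Representation (ZMod p) Γ V} (hρ : ∀ g ∈ N, ∀ v, ρ g v = v) (C : Subgroup (Γ ⧸ N))
    (hC : ¬ p ∣ Nat.card C) : fE S (mapRep ρ (Γ ⧸ C.comap (QuotientGroup.mk' N))) = 0 := by
  have hfinN := finite_quotient_of_mem hN
  have hNH : N ≤ C.comap (QuotientGroup.mk' N) := fun g hg => by
    have : QuotientGroup.mk' N g = 1 := (QuotientGroup.eq_one_iff g).2 hg
    rw [Subgroup.mem_comap, this]
    exact one_mem _
  have hH : C.comap (QuotientGroup.mk' N) ∈ sLevels S := Levels.up_mem hN hNH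
  have hfin := finite_quotient_of_mem hH
  let b := Module.finBasis (ZMod p) V
  let m := finrank (ZMod p) V
  have hsur := genMap_surjective (ρ := ρ) (N := N) hρ (b := b) b.span_eq.ge
  let E := SES.ofSurj (compat_genMap (ρ := ρ) (N := N) hρ b) hsur
  have hgen : ∀ g ∈ N, ∀ v, genRep (ZMod p) N m g v = v := fun g hg v => by
    funext x
    rw [mapRep_apply, GSet.smul_of_mem (N.inv_mem hg)]
    rfl
  have hker : ∀ g ∈ N, ∀ v, (kerRep (compat_genMap (ρ := ρ) (N := N) hρ b)) g v = v :=
    fun g hg v => E.ι_injective (by rw [E.hι, hgen g hg])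
  have h1 := fE_add hp2 hpS (E.mapX (Γ ⧸ C.comap (QuotientGroup.mk' N)))
    (smooth_mapRep (smooth_mapRep smooth_trivial (smoothSet_GSet hN _)) (smoothSet_quotient hH))
  have h2 := fE_nonneg hp2 hpS hN U hNχ hρ C hC
  have h3 := fE_nonneg hp2 hpS hN U hNχ hker C hC
  have h4 : fE S (mapRep (genRep (ZMod p) N m) (Γ ⧸ C.comap (QuotientGroup.mk' N))) = 0 := by
    rw [fE_congr (req_mapRep_mapRep (Representation.trivial (ZMod p) Γ (ZMod p))
      (Γ ⧸ C.comap (QuotientGroup.mk' N)) (GSet N m))]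
    refine fE_perm hp2 hpS (fun x => ?_) (fun x g hg => ?_)
    · obtain ⟨K, hK, h⟩ := smoothSet_quotient hH x.1
      obtain ⟨K', hK', h'⟩ := smoothSet_GSet hN m x.2
      exact ⟨K ⊓ K', Levels.inf_mem hK hK', fun s hs => Prod.ext (h s hs.1) (h' s hs.2)⟩
    · have h5 : g • x.2.1 = x.2.1 := congrArg Prod.fst (congrArg Prod.snd hg)
      obtain ⟨y, hy⟩ := QuotientGroup.mk_surjective x.2.1
      rw [← hy] at h5
      have h6 : ((g * y : Γ) : Γ ⧸ N) = (y : Γ ⧸ N) := h5
      rw [QuotientGroup.eq] at h6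
      have h7 : y⁻¹ * g⁻¹ * y ∈ N := by
        have : (g * y)⁻¹ * y = y⁻¹ * g⁻¹ * y := by group
        rwa [this] at h6
      have h8 := (inferInstance : N.Normal).conj_mem _ h7 y
      have h9 : y * (y⁻¹ * g⁻¹ * y) * y⁻¹ = g⁻¹ := by group
      rw [h9] at h8
      exact hNχ (by simpa using N.inv_mem h8)
  linarith

/-- **Tate's global Euler characteristic formula** -/
theorem tate_of_unitLat (hp2 : p ≠ 2) (hpS : pPrime p ∈ S) (hN : N ∈ sLevels S)
    (U : UnitLat p S N) (hNχ : N ≤ (cycloChar p).ker)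
    {ρ : Representation (ZMod p) Γ V} (hρ : ∀ g ∈ N, ∀ v, ρ g v = v) :
    chi2 (sLevels S) ρ + finrank (ZMod p) V =
      finrank (ZMod p) (fixOn ρ (Subgroup.zpowers complexConjugation)) := by
  have hfinN := finite_quotient_of_mem hN
  have h1 := (tFun hp2 hpS hN hρ).val_top_eq_zero (fun s hs => by
    rw [tFun_val]
    exact fE_eq_zero hp2 hpS hN U hNχ hρ _ (by rw [Nat.card_zpowers]; exact hs))
  rw [tFun_val_top, fE] at h1
  have h2 : ((chi2 (sLevels S) ρ : ℤ) : ℚ) + ((finrank (ZMod p) V : ℕ) : ℚ) =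
      ((finrank (ZMod p) (fixOn ρ (Subgroup.zpowers complexConjugation)) : ℕ) : ℚ) := by linarith
  exact_mod_cast h2

/-- **Tate's global Euler characteristic formula** for `S` large -/
theorem tateEuler (hp2 : p ≠ 2) {S1 : Finset Nat.Primes} {ρ : Representation (ZMod p) Γ V}
    (hs : Smooth (sLevels S1) ρ) : ∃ S0 : Finset Nat.Primes, ∀ S : Finset Nat.Primes, S0 ⊆ S →
    chi2 (sLevels S) ρ + finrank (ZMod p) V =
      finrank (ZMod p) (fixOn ρ (Subgroup.zpowers complexConjugation)) := by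
  classical
  obtain ⟨ζ, hζ⟩ := HasEnoughRootsOfUnity.exists_primitiveRoot Qb p
  have hmem : repKer ρ ⊓ (cycloChar p).ker ∈ sLevels (insert (pPrime p) S1) :=
    Levels.inf_mem (sLevels_mono (Finset.subset_insert _ _) (repKer_mem hs))
      (ker_cycloChar_mem (Finset.mem_insert_self _ _))
  obtain ⟨N, hN, hle, hn⟩ := Levels.exists_normal hmem
  obtain ⟨L, hLfin, rfl⟩ := exists_field_of_mem (sLevels_le_galLevels hN)
  have hζL : ζ ∈ L := mem_of_fixed fun g => (mem_ker_cycloChar hζ).1 (hle g.2).2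
  have hgal : IsGalois ℚ L := (InfiniteGalois.normal_iff_isGalois L).1 hn
  obtain ⟨S0, hS0⟩ := existsUnitLat p L ζ hζ hζL
  refine ⟨insert (pPrime p) (S1 ∪ S0), fun S hS => ?_⟩
  have hpS : pPrime p ∈ S := hS (Finset.mem_insert_self _ _)
  have h1 : S1 ⊆ S := fun x hx => hS (Finset.mem_insert_of_mem (Finset.mem_union_left _ hx))
  have h0 : S0 ⊆ S := fun x hx => hS (Finset.mem_insert_of_mem (Finset.mem_union_right _ hx))
  have hNS : L.fixingSubgroup ∈ sLevels S :=
    sLevels_mono (Finset.insert_subset hpS h1) hN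
  obtain ⟨U⟩ := hS0 S h0 hpS hNS
  exact tate_of_unitLat hp2 hpS hNS U (fun g hg => (hle hg).2) (fun g hg => (hle hg).1)

end Tate

end Fermat.Agent.CFT
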