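import Mathlib
import Fermat.Agent.CFT.Procyclic

/-!
# `H¹` of procyclic groups: cocycles with prescribed value at the generator
-/

set_option autoImplicit false

namespace Fermat.Agent.CFT

variable {k : Type*} [CommRing k] {G : Type*} [Group G] {𝓛 : Levels G}
variable {V : Type*} [AddCommGroup V] [Module k V] {ρ : Representation k G V}

/-- partial sums of a cocycle along powers of `φ` -/
def geoSeq (ρ : Representation k G V) (φ : G) (x : V) : ℕ → V
  | 0 => 0
  | (a + 1) => geoSeq ρ φ x a + ρ (φ ^ a) x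

lemma geoSeq_add (φ : G) (x : V) (a b : ℕ) :
    geoSeq ρ φ x (a + b) = ρ (φ ^ a) (geoSeq ρ φ x b) + geoSeq ρ φ x a := by
  induction b with
  | zero => simp [geoSeq]
  | succ b ih =>
    rw [← add_assoc, geoSeq, geoSeq, ih, map_add, pow_add, map_mul, Module.End.mul_apply]
    abel

/-- **cocycles of a procyclic group** with a prescribed value at the generator -/
theorem exists_Z1_of_procyclic {p : ℕ} (hp : p ≠ 0) (hV : ∀ v : V, p • v = 0) (φ : G)
    (hgen : ∀ H ∈ 𝓛, ∀ g : G, ∃ i : ℕ, (φ ^ i)⁻¹ * g ∈ H)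
    (hdiv : ∀ n : ℕ, n ≠ 0 → ∃ H ∈ 𝓛, ∀ i : ℤ, φ ^ i ∈ H → (n : ℤ) ∣ i)
    (htriv : ∃ H ∈ 𝓛, ∀ s ∈ H, ρ s = 1) (x : V) : ∃ c ∈ Z1 𝓛 ρ, c φ = x := by
  classical
  obtain ⟨H₂, hH₂, hρ₂⟩ := htriv
  obtain ⟨H, hH, hHle, hHn⟩ := Levels.exists_normal hH₂
  have := Levels.finiteIndex hH
  set n := H.index with hn
  have hn0 : n ≠ 0 := Subgroup.FiniteIndex.index_ne_zero
  have hφn : φ ^ n ∈ H := H.pow_index_mem φ
  set c := geoSeq ρ φ x with hc
  have hρH : ∀ s ∈ H, ρ s = 1 := fun s hs => hρ₂ s (hHle hs)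
  have hperk : ∀ a m, c (a + m * n) = c a + m • ρ (φ ^ a) (c n) := by
    intro a m
    induction m with
    | zero => simp
    | succ m ih =>
      have h1 : ρ (φ ^ (m * n)) = 1 := by
        apply hρH
        rw [mul_comm, pow_mul]
        exact H.pow_mem hφn m
      rw [Nat.succ_mul, ← add_assoc, hc, geoSeq_add, ← hc, ih, pow_add, map_mul,
        Module.End.mul_apply, h1, Module.End.one_apply, succ_nsmul]
      abel
  have hperp : ∀ a m, c (a + m * (p * n)) = c a := by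
    intro a m
    rw [← mul_assoc, hperk, mul_nsmul', hV, smul_zero, add_zero]
  obtain ⟨H', hH', hdvd⟩ := hdiv (p * n) (mul_ne_zero hp hn0)
  obtain ⟨N, hN, hNle, hNn⟩ := Levels.exists_normal (Levels.inf_mem hH hH')
  choose i hi using hgen N hN
  have hcc : ∀ a b : ℕ, (φ ^ a)⁻¹ * φ ^ b ∈ N → c a = c b := by
    have key : ∀ a b : ℕ, a ≤ b → (φ ^ a)⁻¹ * φ ^ b ∈ N → c a = c b := by
      intro a b hab h
      have h1 : φ ^ ((b : ℤ) - a) ∈ H' := by
        have : φ ^ ((b : ℤ) - a) = (φ ^ a)⁻¹ * φ ^ b := by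
          rw [← zpow_natCast, ← zpow_natCast, ← zpow_neg, ← zpow_add]; congr 1; ring
        rw [this]; exact (hNle h).2
      obtain ⟨m, hm⟩ := hdvd _ h1
      obtain ⟨m, rfl⟩ : ∃ m' : ℕ, m = m' := by
        have hnn : (0:ℤ) ≤ (b : ℤ) - a := by omega
        have hpos : (0:ℤ) < ((p * n : ℕ) : ℤ) := by
          exact_mod_cast Nat.pos_of_ne_zero (mul_ne_zero hp hn0)
        rw [hm] at hnn
        exact ⟨m.toNat, (Int.toNat_of_nonneg (nonneg_of_mul_nonneg_right hnn hpos)).symm⟩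
      have hb : b = a + m * (p * n) := by
        zify
        rw [sub_eq_iff_eq_add] at hm
        rw [hm]; push_cast; ring
      rw [hb, hperp]
    intro a b h
    rcases le_total a b with hab | hab
    · exact key a b hab h
    · refine (key b a hab ?_).symm
      have := N.inv_mem h
      rwa [mul_inv_rev, inv_inv] at this
  have hcg : ∀ (g : G) (a : ℕ), (φ ^ a)⁻¹ * g ∈ N → c (i g) = c a := by
    intro g a h
    apply hcc
    have := N.mul_mem (hi g) (N.inv_mem h)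
    rw [mul_inv_rev, inv_inv] at this
    have e : (φ ^ i g)⁻¹ * g * (g⁻¹ * φ ^ a) = (φ ^ i g)⁻¹ * φ ^ a := by group
    rwa [e] at this
  refine ⟨fun g => c (i g), mem_Z1.2 ⟨⟨N, hN, fun g s hs => ?_⟩, fun g h => ?_⟩, ?_⟩
  · apply hcg
    have h1 := hi g
    rw [← mul_assoc]
    exact N.mul_mem h1 hs
  · have hgh : (φ ^ (i g + i h))⁻¹ * (g * h) ∈ N := by
      have e : (φ ^ (i g + i h))⁻¹ * (g * h) =
          ((φ ^ i h)⁻¹ * ((φ ^ i g)⁻¹ * g) * (φ ^ i h)⁻¹⁻¹) * ((φ ^ i h)⁻¹ * h) := by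
        rw [pow_add]; group
      rw [e]
      exact N.mul_mem (hNn.conj_mem _ (hi g) _) (hi h)
    rw [hcg (g * h) _ hgh]
    obtain ⟨s, hs, hgs⟩ : ∃ s ∈ H, g = φ ^ i g * s := ⟨_, (hNle (hi g)).1, by group⟩
    have e1 : ρ g = ρ (φ ^ i g) := by
      conv_lhs => rw [hgs, map_mul, hρH s hs, mul_one]
    rw [e1]
    exact geoSeq_add φ x _ _
  · show c (i φ) = x
    rw [hcg φ 1 (by rw [pow_one, inv_mul_cancel]; exact N.one_mem)]
    show geoSeq ρ φ x 1 = x
    rw [geoSeq, geoSeq, zero_add, pow_zero, map_one, Module.End.one_apply]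

end Fermat.Agent.CFT
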