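import Mathlib
import Fermat.Agent.CFT.Procyclic1
import Fermat.Agent.CFT.LocFormula
import Fermat.Agent.CFT.GWPair

/-!
# Unramified local cohomology away from `p` (block A of the Greenberg-Wiles formula)
-/

set_option autoImplicit false
set_option linter.unusedSectionVars false
set_option linter.style.haveILetI false

open Module ExtCitation
open scoped Pointwise NumberField

namespace Fermat.Agent.CFT

open Fermat.Agent.TW (locRep H1loc resv cartier h0loc invOn cont_loc urCls Zur)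
open Fermat.Agent.CFT.Loc

local notation "Qb" => AlgebraicClosure ℚ
local notation "Γ" => (AlgebraicClosure ℚ ≃ₐ[ℚ] AlgebraicClosure ℚ)

/-- primality of elements of `Nat.Primes` -/
local instance factNPx (v : Nat.Primes) : Fact (v : ℕ).Prime := ⟨v.2⟩

section Levels

variable (l : ℕ) [Fact l.Prime]

instance normal_inertiaLoc' : (inertiaLoc l).Normal := Fermat.Agent.CFT.Loc.normal_inertiaLoc

/-- unramified levels -/
noncomputable abbrev urLev : Levels (GalLoc l) := (locLevels l).above (inertiaLoc l)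

variable {l}

theorem urLev_gen {φ : GalLoc l} (hφ : IsFrobLoc l ⊥ φ) {H : Subgroup (GalLoc l)}
    (hH : H ∈ urLev l) (g : GalLoc l) : ∃ i : ℕ, (φ ^ i)⁻¹ * g ∈ H := by
  obtain ⟨E, hE, hEH⟩ := (mem_locLevels_iff l).1 hH.1
  obtain ⟨i, h, hh, t, ht, -, rfl⟩ := hφ.exists_eq_mul E bot_le (g := g)
    (by rw [IntermediateField.fixingSubgroup_bot]; trivial)
  refine ⟨i, ?_⟩
  have : (φ ^ i)⁻¹ * (φ ^ i * h * t) = h * t := by group
  rw [this]
  exact H.mul_mem (hEH hh) (hH.2 ht)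

theorem urLev_div {φ : GalLoc l} (hφ : IsFrobLoc l ⊥ φ) {n : ℕ} (hn : n ≠ 0) :
    ∃ H ∈ urLev l, ∀ i : ℤ, φ ^ i ∈ H → (n : ℤ) ∣ i := by
  obtain ⟨H, hH, h⟩ := unrLev_div hφ hn
  have htop : ∀ g : GalLoc l, g ∈ (⊥ : IntermediateField ℚ_[l] (PadicAlgCl l)).fixingSubgroup :=
    fun g => by rw [IntermediateField.fixingSubgroup_bot]; trivial
  refine ⟨H.map (Subgroup.subtype _), ⟨?_, ?_⟩, ?_⟩
  · obtain ⟨E, hE, -, hEH⟩ := mem_levK.1 hH.1
    refine (mem_locLevels_iff l).2 ⟨E, hE, fun g hg => ?_⟩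
    exact ⟨⟨g, htop g⟩, hEH hg, rfl⟩
  · intro t ht
    exact ⟨⟨t, htop t⟩, hH.2 ht, rfl⟩
  · rintro i ⟨x, hx, hxi⟩
    refine h i ?_
    have : (⟨φ, hφ.1⟩ : (⊥ : IntermediateField ℚ_[l] (PadicAlgCl l)).fixingSubgroup) ^ i = x := by
      apply Subtype.ext
      rw [SubgroupClass.coe_zpow]
      exact hxi.symm
    rw [this]
    exact hx

end Levels

section Ur

variable {p : ℕ} [Fact p.Prime] {l : ℕ} [Fact l.Prime] {V : Type*} [AddCommGroup V]
  [Module (ZMod p) V] {ρ : Representation (ZMod p) (GalLoc l) V}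

lemma nsmul_eq_zero_zmod (v : V) : p • v = 0 := by
  rw [← Nat.cast_smul_eq_nsmul (ZMod p), CharP.cast_eq_zero, zero_smul]

lemma exists_urLev [FiniteDimensional (ZMod p) V] (hs : Smooth (locLevels l) ρ)
    (hI : ∀ t ∈ inertiaLoc l, ∀ x, ρ t x = x) : ∃ H ∈ urLev l, ∀ s ∈ H, ρ s = 1 :=
  ⟨repKer ρ, ⟨repKer_mem hs, fun t ht => hI t ht⟩, fun _ hs => LinearMap.ext hs⟩

lemma Z1_urLev_le : Z1 (urLev l) ρ ≤ Z1 (locLevels l) ρ := by
  rintro c ⟨⟨H, hH, hc⟩, h⟩
  exact ⟨⟨H, hH.1, hc⟩, h⟩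

lemma B2_urLev_le : B2 (urLev l) ρ ≤ B2 (locLevels l) ρ := by
  intro f hf
  obtain ⟨c, ⟨H, hH, hc⟩, rfl⟩ := mem_B2.1 hf
  exact mem_B2.2 ⟨c, ⟨H, hH.1, hc⟩, rfl⟩

lemma Zur_mem_urLev (c : Zur ρ) : c.1 ∈ Z1 (urLev l) ρ := by
  obtain ⟨⟨H, hH, hc⟩, h⟩ := c.2.1
  let J : Subgroup (GalLoc l) :=
    { carrier := {s | ∀ g, c.1 (g * s) = c.1 g}
      one_mem' := fun g => by rw [mul_one]
      mul_mem' := fun {a b} ha hb g => by rw [← mul_assoc, hb, ha]
      inv_mem' := fun {a} ha g => by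
        have := ha (g * a⁻¹)
        rw [inv_mul_cancel_right] at this
        exact this.symm }
  refine ⟨⟨J, ⟨Levels.up_mem hH fun s hs g => hc g s hs, fun t ht g => ?_⟩, fun g s hs => hs g⟩, h⟩
  rw [h, c.2.2 t ht, map_zero, zero_add]

lemma smooth_urLev [FiniteDimensional (ZMod p) V] (hs : Smooth (locLevels l) ρ)
    (hI : ∀ t ∈ inertiaLoc l, ∀ x, ρ t x = x) : Smooth (urLev l) ρ := fun v => by
  obtain ⟨H, hH, h⟩ := exists_urLev hs hI
  exact ⟨H, hH, fun s hs => by rw [h s hs]; rfl⟩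

/-- existence of unramified cocycles -/
theorem exists_Zur [FiniteDimensional (ZMod p) V] (hs : Smooth (locLevels l) ρ)
    (hI : ∀ t ∈ inertiaLoc l, ∀ x, ρ t x = x) {φ : GalLoc l} (hφ : IsFrobLoc l ⊥ φ) (x : V) :
    ∃ c : Zur ρ, c.1 φ = x := by
  obtain ⟨c, hc, hcx⟩ := exists_Z1_of_procyclic (Fact.out : p.Prime).ne_zero
    (fun v : V => nsmul_eq_zero_zmod (p := p) v) φ (fun H hH g => urLev_gen hφ hH g)
    (fun n hn => urLev_div hφ hn) (exists_urLev hs hI) x
  refine ⟨⟨c, Z1_urLev_le hc, fun t ht => ?_⟩, hcx⟩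
  obtain ⟨H, hH, h⟩ := hc.1
  have h1 := h 1 t (hH.2 ht)
  rw [one_mul] at h1
  rw [h1]
  exact Z1.map_one hc

/-- **dimension of the space of unramified classes** -/
theorem finrank_invariants_le_urCls [FiniteDimensional (ZMod p) V] (hs : Smooth (locLevels l) ρ)
    (hI : ∀ t ∈ inertiaLoc l, ∀ x, ρ t x = x) [FiniteDimensional (ZMod p) (H1 (locLevels l) ρ)] :
    finrank (ZMod p) ρ.invariants ≤ finrank (ZMod p) (urCls ρ) := by
  obtain ⟨φ, hφ⟩ := exists_isFrobLoc l ⊥
  let ev : Zur ρ →ₗ[ZMod p] V :=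
    { toFun := fun c => c.1 φ
      map_add' := fun _ _ => rfl
      map_smul' := fun _ _ => rfl }
  have hsurj : Function.Surjective ev := fun x => exists_Zur hs hI hφ x
  -- `dim V ≤ dim Zur`; kernel of `Zur → H¹` has dimension `≤ dim V - dim V^G`
  have hinj : Function.Injective ev := by
    rw [injective_iff_map_eq_zero]
    intro c hc
    have hc0 : c.1 φ = 0 := hc
    have hpow : ∀ i : ℕ, c.1 (φ ^ i) = 0 := by
      intro i
      induction i with
      | zero => rw [pow_zero]; exact Z1.map_one c.2.1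
      | succ i ih => rw [pow_succ, c.2.1.2, ih, hc0, map_zero, add_zero]
    obtain ⟨H, hH, hHc⟩ := c.2.1.1
    obtain ⟨E, hE, hEH⟩ := (mem_locLevels_iff l).1 hH
    apply Subtype.ext
    funext g
    show c.1 g = 0
    obtain ⟨i, h, hh, t, ht, -, rfl⟩ := hφ.exists_eq_mul E bot_le (g := g)
      (by rw [IntermediateField.fixingSubgroup_bot]; trivial)
    rw [c.2.1.2, c.2.2 t ht, map_zero, zero_add, hHc _ _ (hEH hh), hpow]
  haveI : FiniteDimensional (ZMod p) (Zur ρ) := FiniteDimensional.of_injective ev hinj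
  have h1 : finrank (ZMod p) (Zur ρ) = finrank (ZMod p) V :=
    (LinearEquiv.ofBijective ev ⟨hinj, hsurj⟩).finrank_eq
  have h2 := LinearMap.finrank_range_add_finrank_ker (Zur.q ρ)
  have h3 : finrank (ZMod p) (LinearMap.ker (Zur.q ρ)) ≤
      finrank (ZMod p) (LinearMap.range (ρ φ - 1)) := by
    refine LinearMap.finrank_le_finrank_of_injective (f := (ev.restrict (fun c hc => ?_))) ?_
    · have h4 := H1.mk_eq_zero.1 (show H1.mk (locLevels l) ρ _ = 0 from hc)
      obtain ⟨v, hv⟩ := h4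
      exact ⟨v, congrFun hv φ⟩
    · intro a b hab
      exact Subtype.ext (hinj (congrArg Subtype.val hab))
  have h4 := LinearMap.finrank_range_add_finrank_ker (ρ φ - 1)
  have h5 : finrank (ZMod p) ρ.invariants ≤ finrank (ZMod p) (LinearMap.ker (ρ φ - 1)) := by
    apply Submodule.finrank_mono
    intro v hv
    rw [LinearMap.mem_ker, LinearMap.sub_apply, hv φ, Module.End.one_apply, sub_self]
  rw [urCls]
  omega

end Ur

section A1

variable {p : ℕ} [Fact p.Prime]

theorem exists_Z1_triv_ne (l : ℕ) [Fact l.Prime] :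
    ∃ z ∈ Z1 (locLevels l) (triv p (GalLoc l)), z ≠ 0 := by
  obtain ⟨φ, hφ⟩ := exists_isFrobLoc l ⊥
  obtain ⟨c, hc⟩ := exists_Zur (p := p) (ρ := triv p (GalLoc l)) smooth_trivial
    (fun t _ x => rfl) hφ 1
  refine ⟨c.1, c.2.1, fun h => ?_⟩
  rw [h] at hc
  exact one_ne_zero hc.symm

lemma gwLoc_ne (hp2 : p ≠ 2) {v : Nat.Primes} (hv : v ≠ pPrime p) :
    Nonempty (LocData p (locLevels (v : ℕ))
      ((cycloChar p).comp (localGaloisToGlobal (v : ℕ))) 0) := by
  have hvp : (v : ℕ) ≠ p := fun h => hv (Subtype.ext h)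
  have D := gwLoc hp2 v
  rw [if_neg hvp] at D
  exact ⟨D⟩

variable {V : Type} [AddCommGroup V] [Module (ZMod p) V]

lemma h0loc_eq (ρ : Representation (ZMod p) Γ V) (v : Nat.Primes) :
    h0loc ρ v = finrank (ZMod p) (locRep ρ v).invariants := by
  have : invOn ρ (Set.range (localGaloisToGlobal v)) = (locRep ρ v).invariants := by
    ext x
    constructor
    · intro h g
      exact h _ ⟨g, rfl⟩
    · rintro h _ ⟨g, rfl⟩
      exact h g
  rw [h0loc, this]

lemma h0loc_cartier_eq (ρ : Representation (ZMod p) Γ V) (v : Nat.Primes) :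
    h0loc (cartier p ρ) v = finrank (ZMod p)
      (dualRep ((cycloChar p).comp (localGaloisToGlobal (v : ℕ))) (locRep ρ v)).invariants := by
  rw [h0loc_eq]
  exact (RepIso.dualRes (locLevels (v : ℕ)) (cycloChar p) ρ
    (localGaloisToGlobal v)).e0.finrank_eq

/-- local formula -/
theorem finrank_H1loc_eq (hp2 : p ≠ 2) [FiniteDimensional (ZMod p) V]
    {ρ : Representation (ZMod p) Γ V} {v : Nat.Primes} (hv : v ≠ pPrime p)
    (hs : Smooth (locLevels (v : ℕ)) (locRep ρ v)) :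
    finrank (ZMod p) (H1loc ρ v) = h0loc ρ v + h0loc (cartier p ρ) v := by
  obtain ⟨D⟩ := gwLoc_ne hp2 hv
  have h := D.finrank_H1_eq (exists_Z1_triv_ne (v : ℕ)) hs
  rw [h0loc_eq, h0loc_cartier_eq]
  exact h

/-- **(A1)** -/
theorem specA1 (hp2 : p ≠ 2) : SpecA1 p := fun _ _ _ _ _ _ hv hs =>
  (finrank_H1loc_eq hp2 hv hs).le

end A1

section A3

variable {p : ℕ} [Fact p.Prime]

lemma cycloChar_inertiaLoc {v : Nat.Primes} (hv : v ≠ pPrime p) {t : GalLoc (v : ℕ)}
    (ht : t ∈ inertiaLoc (v : ℕ)) : cycloChar p (localGaloisToGlobal (v : ℕ) t) = 1 := by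
  have hvp : (v : ℕ) ≠ p := fun h => hv (Subtype.ext h)
  exact CycChar.cycloChar_inertia p v.2 hvp (padicPlace_liesOverPrime (v : ℕ))
    ((localGaloisToGlobal_mem_inertia_iff (v : ℕ) t).2 ht)

lemma inertiaLoc_cartier {V : Type} [AddCommGroup V] [Module (ZMod p) V]
    {ρ : Representation (ZMod p) Γ V} {v : Nat.Primes} (hv : v ≠ pPrime p)
    (hI : ∀ t ∈ inertiaLoc (v : ℕ), ∀ x, locRep ρ v t x = x) {t : GalLoc (v : ℕ)}
    (ht : t ∈ inertiaLoc (v : ℕ)) (x : Dual (ZMod p) V) : locRep (cartier p ρ) v t x = x := by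
  have h1 : locRep (cartier p ρ) v t x = dualRep (cycloChar p) ρ (localGaloisToGlobal v t) x := rfl
  rw [h1]
  ext w
  rw [dualRep_apply, cycloChar_inertiaLoc hv ht, Units.val_one, one_mul, ← map_inv]
  exact congrArg x (hI _ (inv_mem ht) w)

/-- **cup products of unramified classes vanish** -/
theorem gwB_ur (hp2 : p ≠ 2) {V : Type} [AddCommGroup V] [Module (ZMod p) V]
    [FiniteDimensional (ZMod p) V]
    {ρ : Representation (ZMod p) Γ V} {v : Nat.Primes} (hv : v ≠ pPrime p)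
    (hI : ∀ t ∈ inertiaLoc (v : ℕ), ∀ x, locRep ρ v t x = x)
    (hs : Smooth (locLevels (v : ℕ)) (locRep ρ v)) {x : H1loc ρ v} (hx : x ∈ urCls (locRep ρ v))
    {y : H1loc (cartier p ρ) v} (hy : y ∈ urCls (locRep (cartier p ρ) v)) :
    gwB hp2 hs x y = 0 := by
  obtain ⟨a, rfl⟩ := hx
  obtain ⟨b, rfl⟩ := hy
  have ha := Zur_mem_urLev a
  have hI' : ∀ t ∈ inertiaLoc (v : ℕ), ∀ x, locRep (cartier p ρ) v t x = x :=
    fun t ht x => inertiaLoc_cartier hv hI ht x
  have hb := Zur_mem_urLev b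
  have hdual : dualRep ((cycloChar p).comp (localGaloisToGlobal (v : ℕ))) (locRep ρ v) =
    locRep (cartier p ρ) v := (resRep_dualRep (cycloChar p) ρ (localGaloisToGlobal (v : ℕ))).symm
  have hb' : b.1 ∈ Z1 (urLev (v : ℕ))
      (dualRep ((cycloChar p).comp (localGaloisToGlobal (v : ℕ))) (locRep ρ v)) := by
    rw [hdual]; exact hb
  have hsm := smooth_urLev hs hI
  have hZ := cupC_mem_Z2 hsm (equiv₂_evPair (k := ZMod p)
    (χ := (cycloChar p).comp (localGaloisToGlobal (v : ℕ))) (ρ := locRep ρ v)) hb' ha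
  have hχ : ∀ t ∈ inertiaLoc (v : ℕ), ∀ x : ZMod p,
      charRep ((cycloChar p).comp (localGaloisToGlobal (v : ℕ))) t x = x := fun t ht x => by
    rw [charRep_apply, MonoidHom.comp_apply, cycloChar_inertiaLoc hv ht, Units.val_one, one_mul]
  have hχs : Smooth (locLevels (v : ℕ))
      (charRep ((cycloChar p).comp (localGaloisToGlobal (v : ℕ)))) :=
    smooth_charRep (ker_locChar_mem (v : ℕ))
  obtain ⟨φ, hφ⟩ := exists_isFrobLoc (v : ℕ) ⊥
  have hB := mem_B2_of_procyclic (Fact.out : p.Prime).ne_zero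
    (fun x : ZMod p => nsmul_eq_zero_zmod (p := p) x) φ (fun H hH g => urLev_gen hφ hH g)
    (fun n hn => urLev_div hφ hn) (exists_urLev hχs hχ) hZ
  have hB' := B2_urLev_le hB
  have h1 : gwB hp2 hs (Zur.q (locRep ρ v) a) (Zur.q (locRep (cartier p ρ) v) b) =
      (gwLoc hp2 v).inv (H2.mk (locLevels (v : ℕ))
        (charRep ((cycloChar p).comp (localGaloisToGlobal (v : ℕ))))
        ⟨cupC (locRep ρ v) (evPair (ZMod p) V) b.1 a.1, cupC_mem_Z2 hs
          (equiv₂_evPair (k := ZMod p) (χ := (cycloChar p).comp (localGaloisToGlobal (v : ℕ)))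
            (ρ := locRep ρ v)) (Z1_urLev_le hb') a.2.1⟩) := rfl
  rw [h1, H2.mk_eq_zero.2 hB', map_zero]

/-- **(A3)** -/
theorem specA3 (hp2 : p ≠ 2) : SpecA3 p hp2 := by
  intro V _ _ _ ρ v hv hI hs y hy
  have hI' : ∀ t ∈ inertiaLoc (v : ℕ), ∀ x, locRep (cartier p ρ) v t x = x :=
    fun t ht x => inertiaLoc_cartier hv hI ht x
  have hs' : Smooth (locLevels (v : ℕ)) (locRep (cartier p ρ) v) := by
    have h1 : locRep (cartier p ρ) v = dualRep ((cycloChar p).comp
      (localGaloisToGlobal (v : ℕ))) (locRep ρ v) :=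
      resRep_dualRep (cycloChar p) ρ (localGaloisToGlobal (v : ℕ))
    rw [h1]
    exact smooth_dualRep (ker_locChar_mem (v : ℕ)) hs
  have hf := finite_H1loc hp2 hs
  have hf' := finite_H1loc hp2 hs'
  -- the orthogonal of the unramified classes
  let P : Submodule (ZMod p) (H1loc (cartier p ρ) v) :=
    (urCls (locRep ρ v)).dualAnnihilator.comap (gwB hp2 hs).flip
  have hinj : Function.Injective (gwB hp2 hs).flip := (injective_iff_map_eq_zero _).2
    fun z hz => gwB_nondeg hp2 hs z fun x => LinearMap.congr_fun hz x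
  have h1 : finrank (ZMod p) P ≤ finrank (ZMod p) (urCls (locRep ρ v)).dualAnnihilator := by
    refine LinearMap.finrank_le_finrank_of_injective
      (f := (gwB hp2 hs).flip.restrict (fun z hz => hz)) ?_
    intro a b hab
    exact Subtype.ext (hinj (congrArg Subtype.val hab))
  have h2 : finrank (ZMod p) (urCls (locRep ρ v)) +
      finrank (ZMod p) (urCls (locRep ρ v)).dualAnnihilator = finrank (ZMod p) (H1loc ρ v) :=
    Subspace.finrank_add_finrank_dualAnnihilator_eq _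
  have h3 := finrank_H1loc_eq hp2 hv hs
  have h4 := finrank_invariants_le_urCls hs hI
  have h5 := finrank_invariants_le_urCls hs' hI'
  rw [← h0loc_eq] at h4 h5
  have h6 : urCls (locRep (cartier p ρ) v) ≤ P := by
    intro z hz
    rw [Submodule.mem_comap, Submodule.mem_dualAnnihilator]
    intro x hx
    exact gwB_ur hp2 hv hI hs hx hz
  have h8 : finrank (ZMod p) P ≤ finrank (ZMod p) (urCls (locRep (cartier p ρ) v)) := by omega
  have h7 : urCls (locRep (cartier p ρ) v) = P := Submodule.eq_of_le_of_finrank_le h6 h8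
  rw [h7, Submodule.mem_comap, Submodule.mem_dualAnnihilator]
  exact fun x hx => hy x hx

end A3

end Fermat.Agent.CFT
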