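import Mathlib
import Fermat.Agent.CFT.LocUr

/-!
# Independence of `S` of the Greenberg-Wiles inequality (A4)
-/

set_option autoImplicit false
set_option linter.unusedSectionVars false
set_option linter.style.haveILetI false

open Module ExtCitation
open scoped Pointwise NumberField

namespace Fermat.Agent.CFT

open Fermat.Agent.TW (locRep H1loc resv cartier h0loc invOn cont_loc urCls Zur Sel)
open Fermat.Agent.CFT.Loc

local notation "Qb" => AlgebraicClosure ℚ
local notation "Γ" => (AlgebraicClosure ℚ ≃ₐ[ℚ] AlgebraicClosure ℚ)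

/-- primality of elements of `Nat.Primes` -/
local instance factNPy (v : Nat.Primes) : Fact (v : ℕ).Prime := ⟨v.2⟩

variable {p : ℕ} [Fact p.Prime] {V : Type} [AddCommGroup V] [Module (ZMod p) V]

/-- cocycles which vanish on inertia outside `S` -/
theorem mem_Z1_sLevels [FiniteDimensional (ZMod p) V] {ρ : Representation (ZMod p) Γ V}
    {S T : Finset Nat.Primes} (hs : Smooth (sLevels S) ρ) {z : Γ → V}
    (hz : z ∈ Z1 (sLevels T) ρ)
    (hur : ∀ v ∈ T, v ∉ S → ∀ t ∈ inertiaLoc (v : ℕ), z (localGaloisToGlobal (v : ℕ) t) = 0) :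
    z ∈ Z1 (sLevels S) ρ := by
  obtain ⟨⟨H, hH, hHz⟩, hmul⟩ := hz
  have hone : z 1 = 0 := by
    have := hmul 1 1
    rw [mul_one, map_one, Module.End.one_apply] at this
    exact left_eq_add.1 this
  let J : Subgroup Γ :=
    { carrier := {s | (∀ x, ρ s x = x) ∧ z s = 0}
      one_mem' := ⟨fun x => by rw [map_one]; rfl, hone⟩
      mul_mem' := fun {a b} ha hb => ⟨fun x => by rw [rho_mul_apply, hb.1, ha.1], by
        show z (a * b) = 0
        rw [hmul, hb.2, ha.2, map_zero, add_zero]⟩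
      inv_mem' := fun {a} ha => by
        have h1 : ∀ x, ρ a⁻¹ x = x := fun x => by
          conv_lhs => rw [← ha.1 x]
          exact rho_inv_rho _ _
        refine ⟨h1, ?_⟩
        have h2 := hmul a⁻¹ a
        rw [inv_mul_cancel, hone, ha.2, map_zero, zero_add] at h2
        exact h2.symm }
  have hJ : J ∈ sLevels S := by
    refine mem_sLevels_iff.2 ⟨?_, fun q hq A hA σ hσ => ?_⟩
    · refine Levels.up_mem (Levels.inf_mem (sLevels_le_galLevels (repKer_mem hs))
        (sLevels_le_galLevels hH)) fun s hs' => ⟨hs'.1, ?_⟩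
      have := hHz 1 s hs'.2
      rwa [one_mul, hone] at this
    · have hρσ : ∀ x, ρ σ x = x := (inertia_le_of_mem_sLevels (repKer_mem hs) hq hA) hσ
      refine ⟨hρσ, ?_⟩
      by_cases hqT : q ∈ T
      · obtain ⟨g, rfl⟩ := exists_eq_smul_padicPlace (q : ℕ) hA
        rw [Frob.mem_inertiaSubgroupIn_smul_iff] at hσ
        rw [← map_inertiaLoc] at hσ
        obtain ⟨t, ht, htσ⟩ := hσ
        have h1 : z (g⁻¹ * σ * g) = 0 := by
          rw [← htσ]
          exact hur q hqT hq t ht
        have h2 : σ = g * (g⁻¹ * σ * g) * g⁻¹ := by group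
        have h3 : ∀ x, ρ (g * (g⁻¹ * σ * g)) x = ρ g x := fun x => by
          have : g * (g⁻¹ * σ * g) = σ * g := by group
          rw [this, rho_mul_apply, hρσ]
        rw [h2, hmul, h3, hmul, h1, map_zero, zero_add, ← hmul, mul_inv_cancel, hone]
      · have h1 := inertia_le_of_mem_sLevels hH hqT hA hσ
        have := hHz 1 σ h1
        rwa [one_mul, hone] at this
  refine ⟨⟨J, hJ, fun g s hs' => ?_⟩, hmul⟩
  rw [hmul, hs'.2, map_zero, zero_add]

lemma cont_sLevels {S T : Finset Nat.Primes} (h : S ⊆ T) :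
    Levels.Cont (sLevels T) (sLevels S) (MonoidHom.id Γ) := fun H hH => by
  rw [Subgroup.comap_id]
  exact sLevels_mono h hH

/-- inflation -/
noncomputable def inflS {S T : Finset Nat.Primes} (h : S ⊆ T) (ρ : Representation (ZMod p) Γ V) :
    H1 (sLevels S) ρ →ₗ[ZMod p] H1 (sLevels T) ρ :=
  H1.map (sLevels S) (sLevels T) ρ ρ (MonoidHom.id Γ) LinearMap.id (cont_sLevels h)
    (fun _ _ => rfl)

lemma inflS_injective {S T : Finset Nat.Primes} (h : S ⊆ T) (ρ : Representation (ZMod p) Γ V) :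
    Function.Injective (inflS h ρ) := by
  rw [injective_iff_map_eq_zero]
  intro x hx
  obtain ⟨z, rfl⟩ := H1.mk_surjective _ _ x
  have h1 : H1.mk (sLevels T) ρ ⟨z.1, pp1_mem_Z1 (φ := (LinearMap.id : V →ₗ[ZMod p] V))
    (cont_sLevels h) (fun _ _ => rfl) z.2⟩ = 0 := hx
  have h2 := H1.mk_eq_zero.1 h1
  exact H1.mk_eq_zero.2 h2

lemma resv_inflS {S T : Finset Nat.Primes} (h : S ⊆ T) (ρ : Representation (ZMod p) Γ V)
    (v : Nat.Primes) (x : H1 (sLevels S) ρ) : resv T ρ v (inflS h ρ x) = resv S ρ v x := by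
  obtain ⟨z, rfl⟩ := H1.mk_surjective _ _ x
  rfl

lemma resv_mk' (S : Finset Nat.Primes) (ρ : Representation (ZMod p) Γ V) (v : Nat.Primes)
    (c : ↥(Z1 (sLevels S) ρ)) :
    ∃ h, resv S ρ v (H1.mk (sLevels S) ρ c) = H1.mk (locLevels (v : ℕ)) (locRep ρ v)
      ⟨fun g => c.1 (localGaloisToGlobal v g), h⟩ := ⟨_, rfl⟩

/-- classes which are unramified outside `S` are locally unramified -/
lemma resv_mem_urCls_of_not_mem {S : Finset Nat.Primes} {ρ : Representation (ZMod p) Γ V}
    {v : Nat.Primes} (hv : v ∉ S) (x : H1 (sLevels S) ρ) : resv S ρ v x ∈ urCls (locRep ρ v) := by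
  obtain ⟨z, rfl⟩ := H1.mk_surjective _ _ x
  have hmem := (resv_mk' S ρ v z).choose
  refine ⟨⟨fun g => z.1 (localGaloisToGlobal v g), hmem, fun t ht => ?_⟩, rfl⟩
  obtain ⟨H, hH, h⟩ := z.2.1
  have h1 := inertia_le_of_mem_sLevels hH hv (padicPlace_liesOverPrime (v : ℕ))
    ((localGaloisToGlobal_mem_inertia_iff (v : ℕ) t).2 ht)
  have h2 := h 1 _ h1
  rw [one_mul] at h2
  exact h2.trans (Z1.map_one z.2)

/-- a class of `H¹(G_T)` locally unramified at `T ∖ S` comes from `H¹(G_S)` -/
lemma mem_range_inflS [FiniteDimensional (ZMod p) V] {S T : Finset Nat.Primes} (h : S ⊆ T)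
    {ρ : Representation (ZMod p) Γ V} (hs : Smooth (sLevels S) ρ) {x : H1 (sLevels T) ρ}
    (hx : ∀ v ∈ T, v ∉ S → resv T ρ v x ∈ urCls (locRep ρ v)) : ∃ y, inflS h ρ y = x := by
  obtain ⟨z, rfl⟩ := H1.mk_surjective _ _ x
  have hz : z.1 ∈ Z1 (sLevels S) ρ := by
    refine mem_Z1_sLevels hs z.2 fun v hvT hvS t ht => ?_
    obtain ⟨c, hc⟩ := hx v hvT hvS
    have h1 : H1.mk (locLevels (v : ℕ)) (locRep ρ v) ⟨c.1, c.2.1⟩ =
      H1.mk (locLevels (v : ℕ)) (locRep ρ v) ⟨fun g => z.1 (localGaloisToGlobal v g),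
        (resv_mk' T ρ v z).choose⟩ := hc
    rw [H1.mk_eq_mk] at h1
    obtain ⟨w, hw⟩ := h1
    have h2 : locRep ρ v t w - w = c.1 t - z.1 (localGaloisToGlobal v t) := congrFun hw t
    have h3 : locRep ρ v t w = w := by
      have h4 : repKer ρ ∈ sLevels S := repKer_mem hs
      exact inertia_le_of_mem_sLevels h4 hvS (padicPlace_liesOverPrime (v : ℕ))
        ((localGaloisToGlobal_mem_inertia_iff (v : ℕ) t).2 ht) w
    rw [h3, sub_self, c.2.2 t ht, zero_sub] at h2
    exact neg_eq_zero.1 h2.symm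
  exact ⟨H1.mk _ _ ⟨z.1, hz⟩, rfl⟩

/-- **(A4)** -/
theorem specA4 : SpecA4 p := by
  classical
  intro V _ _ _ ρ S T hST hpS hs B hB hfT hfT' hloc hGW L
  have hs' : Smooth (sLevels S) (cartier p ρ) := smooth_dualRep (ker_cycloChar_mem hpS) hs
  let L' : ∀ v : Nat.Primes, Submodule (ZMod p) (H1loc ρ v) :=
    fun v => if v ∈ S then L v else urCls (locRep ρ v)
  have key := hGW L'
  -- the Selmer group of `ρ`
  have h1 : finrank (ZMod p) (Sel S ρ L) ≤ finrank (ZMod p) (Sel T ρ L') := by
    refine LinearMap.finrank_le_finrank_of_injective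
      (f := (inflS hST ρ).restrict (p := Sel S ρ L) (q := Sel T ρ L') fun x hx => ?_) ?_
    · rw [TW.mem_Sel] at hx ⊢
      intro v hv
      rw [resv_inflS]
      by_cases hvS : v ∈ S
      · have h8 : L' v = L v := if_pos hvS
        rw [h8]
        exact hx v hvS
      · have h8 : L' v = urCls (locRep ρ v) := if_neg hvS
        rw [h8]
        exact resv_mem_urCls_of_not_mem hvS x
    · intro a b hab
      exact Subtype.ext (inflS_injective hST ρ (congrArg Subtype.val hab))
  -- the dual Selmer group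
  have h2 : finrank (ZMod p) (Sel T (cartier p ρ) (fun v =>
        (L' v).dualAnnihilator.comap (B v).flip)) ≤
      finrank (ZMod p) (Sel S (cartier p ρ) (fun v =>
        (L v).dualAnnihilator.comap (B v).flip)) := by
    have hle : Sel T (cartier p ρ) (fun v => (L' v).dualAnnihilator.comap (B v).flip) ≤
        (Sel S (cartier p ρ) (fun v =>
          (L v).dualAnnihilator.comap (B v).flip)).map (inflS hST (cartier p ρ)) := by
      intro x hx
      rw [TW.mem_Sel] at hx
      obtain ⟨y, rfl⟩ := mem_range_inflS hST hs' (x := x) (fun v hvT hvS => by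
        refine hB v hvS _ fun u hu => ?_
        have h3 := hx v hvT
        rw [Submodule.mem_comap, Submodule.mem_dualAnnihilator] at h3
        have h8 : L' v = urCls (locRep ρ v) := if_neg hvS
        exact h3 u (by rw [h8]; exact hu))
      refine ⟨y, ?_, rfl⟩
      rw [SetLike.mem_coe, TW.mem_Sel]
      intro v hv
      have h3 := hx v (hST hv)
      have h8 : L' v = L v := if_pos hv
      rw [resv_inflS, h8] at h3
      exact h3
    have hfS : FiniteDimensional (ZMod p) (H1 (sLevels S) (cartier p ρ)) :=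
      FiniteDimensional.of_injective _ (inflS_injective hST (cartier p ρ))
    exact (Submodule.finrank_mono hle).trans (Submodule.finrank_map_le _ _)
  -- sums over places
  have hI : ∀ v, v ∉ S → ∀ t ∈ inertiaLoc (v : ℕ), ∀ x, locRep ρ v t x = x := fun v hv t ht =>
    inertia_le_of_mem_sLevels (repKer_mem hs) hv (padicPlace_liesOverPrime (v : ℕ))
        ((localGaloisToGlobal_mem_inertia_iff (v : ℕ) t).2 ht)
  have h3 : ∀ v ∈ T \ S, finrank (ZMod p) (L' v) ≤ h0loc ρ v := by
    intro v hv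
    rw [Finset.mem_sdiff] at hv
    have h8 : L' v = urCls (locRep ρ v) := if_neg hv.2
    rw [h8, h0loc_eq]
    exact TW.finrank_urCls_le (smooth_loc hs v) (locRep ρ v).invariants fun x => Iff.rfl
  have h4 := Finset.sum_le_sum h3
  have h5 : ∑ v ∈ S, finrank (ZMod p) (L' v) = ∑ v ∈ S, finrank (ZMod p) (L v) :=
    Finset.sum_congr rfl fun v hv => by
      have h8 : L' v = L v := if_pos hv
      rw [h8]
  have h6 := Finset.sum_sdiff (f := fun v => h0loc ρ v) hST
  have h7 := Finset.sum_sdiff (f := fun v => finrank (ZMod p) (L' v)) hST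
  omega

end Fermat.Agent.CFT
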