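import Mathlib
import Fermat.Agent.CFT.GEulerE
import Fermat.Agent.CFT.LocUr
import Fermat.Agent.CFT.GWReduce
import Fermat.Agent.TW.Final

/-!
# The Greenberg-Wiles formula
-/

set_option autoImplicit false
set_option linter.unusedSectionVars false
set_option linter.style.haveILetI false

open Module ExtCitation

namespace Fermat.Agent.CFT

open Fermat.Agent.TW (locRep H1loc resv cartier h0loc invOn cont_loc Sel)
open Fermat.Agent.CFT.Loc

local notation "Qb" => AlgebraicClosure ℚ
local notation "Γ" => (AlgebraicClosure ℚ ≃ₐ[ℚ] AlgebraicClosure ℚ)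

/-- primality of elements of `Nat.Primes` -/
local instance factNPf (v : Nat.Primes) : Fact (v : ℕ).Prime := ⟨v.2⟩

section LinAlg

variable {k : Type*} [Field k] {X T : Type*} [AddCommGroup X] [Module k X] [AddCommGroup T]
  [Module k T]

lemma finrank_comap_eq [FiniteDimensional k X] (f : X →ₗ[k] T) (L : Submodule k T) :
    finrank k (L.comap f) =
      finrank k (LinearMap.ker f) + finrank k (LinearMap.range f ⊓ L : Submodule k T) := by
  have h1 := LinearMap.finrank_range_add_finrank_ker (f.domRestrict (L.comap f))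
  have h2 : LinearMap.range (f.domRestrict (L.comap f)) = LinearMap.range f ⊓ L := by
    rw [LinearMap.range_domRestrict, Submodule.map_comap_eq]
  have h3 : finrank k (LinearMap.ker (f.domRestrict (L.comap f))) =
      finrank k (LinearMap.ker f) := by
    rw [LinearMap.ker_domRestrict]
    exact LinearEquiv.finrank_eq (Submodule.comapSubtypeEquivOfLe (fun x hx => by
      rw [Submodule.mem_comap, LinearMap.mem_ker.1 hx]
      exact L.zero_mem))
  rw [h2, h3] at h1
  omega

lemma finrank_inf_dualAnnihilator [FiniteDimensional k T] (I L : Submodule k T) :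
    finrank k (I.dualAnnihilator ⊓ L.dualAnnihilator : Submodule k (Dual k T)) +
      finrank k I + finrank k L =
      finrank k T + finrank k (I ⊓ L : Submodule k T) := by
  have h1 := Submodule.finrank_sup_add_finrank_inf_eq I L
  have h2 : finrank k (I ⊔ L : Submodule k T) +
      finrank k (I ⊔ L : Submodule k T).dualAnnihilator = finrank k T :=
    Subspace.finrank_add_finrank_dualAnnihilator_eq _
  have h3 : (I ⊔ L : Submodule k T).dualAnnihilator = I.dualAnnihilator ⊓ L.dualAnnihilator :=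
    Submodule.dualAnnihilator_sup_eq _ _
  rw [h3] at h2
  omega

lemma finrank_submodule_pi {ι : Type*} [Fintype ι] {Tv : ι → Type*} [∀ v, AddCommGroup (Tv v)]
    [∀ v, Module k (Tv v)] [∀ v, FiniteDimensional k (Tv v)] (L : ∀ v, Submodule k (Tv v)) :
    finrank k (Submodule.pi Set.univ L) = ∑ v, finrank k (L v) := by
  rw [← Module.finrank_pi_fintype k]
  exact LinearEquiv.finrank_eq
    { toFun := fun x v => ⟨x.1 v, x.2 v trivial⟩
      map_add' := fun _ _ => rfl
      map_smul' := fun _ _ => rfl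
      invFun := fun y => ⟨fun v => (y v).1, fun v _ => (y v).2⟩
      left_inv := fun _ => rfl
      right_inv := fun _ => rfl }

/-- the linear algebra behind the formula of Greenberg and Wiles -/
lemma gw_linAlg {ι : Type*} [Fintype ι] {Tv : ι → Type*} [∀ v, AddCommGroup (Tv v)]
    [∀ v, Module k (Tv v)] [∀ v, FiniteDimensional k (Tv v)] {X' : Type*} [AddCommGroup X']
    [Module k X'] [FiniteDimensional k X] [FiniteDimensional k X']
    (f : X →ₗ[k] ∀ v, Tv v) (f' : X' →ₗ[k] Dual k (∀ v, Tv v))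
    (h : LinearMap.range f' = (LinearMap.range f).dualAnnihilator)
    (L : ∀ v, Submodule k (Tv v)) :
    finrank k ((Submodule.pi Set.univ L).comap f) + finrank k (LinearMap.ker f') +
      ∑ v, finrank k (Tv v) =
    finrank k ((Submodule.pi Set.univ L).dualAnnihilator.comap f') + finrank k X +
      ∑ v, finrank k (L v) := by
  have e1 := finrank_comap_eq f (Submodule.pi Set.univ L)
  have e2 := finrank_comap_eq f' (Submodule.pi Set.univ L).dualAnnihilator
  rw [h] at e2
  have e3 := finrank_inf_dualAnnihilator (LinearMap.range f) (Submodule.pi Set.univ L)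
  have e4 := LinearMap.finrank_range_add_finrank_ker f
  rw [← finrank_submodule_pi, ← Module.finrank_pi_fintype k]
  omega

end LinAlg

section Glob

variable {p : ℕ} [Fact p.Prime] {G : Type} [Group G] {𝓛 : Levels G}
variable {ι : Type} [Fintype ι] {Gv : ι → Type} [∀ v, Group (Gv v)]
  {𝓛v : ∀ v, Levels (Gv v)} {r : ∀ v, Gv v →* G}
variable {V : Type} [AddCommGroup V] [Module (ZMod p) V]
variable {χ : G →* (ZMod p)ˣ} {c : ℚ} {cv : ι → ℚ}

namespace PTData

variable (D : PTData p 𝓛 𝓛v r χ c cv)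

theorem eps_eq_zero (hc : 2 * c = ∑ v, cv v) [FiniteDimensional (ZMod p) V]
    {ρ : Representation (ZMod p) G V} (hs : Smooth 𝓛 ρ) : D.eps ρ = 0 := by
  obtain ⟨N, hN, hn, hNχ, hNρ, W, ρW, E, -⟩ := exists_presentation (χ := χ) hs D.ecg.mem
    (ι := Unit) (fun _ => 0)
  have hfin := finite_quotient_of_mem hN
  have hsm : Smooth 𝓛 (genRep (ZMod p) N (finrank (ZMod p) V)) :=
    smooth_mapRep smooth_trivial (smoothSet_GSet hN _)
  have h1 := D.eps_add E hsm
  rw [D.eps_gen hc hN hNχ] at h1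
  have h2 := (D.eps_nonneg (E.smooth_left hsm)).1
  have h3 := (D.eps_nonneg hs).1
  omega

/-- the sum of the local pairings -/
noncomputable def pairS [FiniteDimensional (ZMod p) V] {ρ : Representation (ZMod p) G V}
    (hs : Smooth 𝓛 ρ) : (∀ v, H1 (𝓛v v) (dualRep (χ.comp (r v)) (resRep ρ (r v)))) →ₗ[ZMod p]
      (∀ v, H1 (𝓛v v) (resRep ρ (r v))) →ₗ[ZMod p] ZMod p :=
  ∑ v, ((D.loc v).pair1 (hs.res (D.hr v))).compl₁₂ (LinearMap.proj v) (LinearMap.proj v)

lemma pairS_apply [FiniteDimensional (ZMod p) V] {ρ : Representation (ZMod p) G V}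
    (hs : Smooth 𝓛 ρ) (e : ∀ v, H1 (𝓛v v) (dualRep (χ.comp (r v)) (resRep ρ (r v))))
    (b : ∀ v, H1 (𝓛v v) (resRep ρ (r v))) :
    D.pairS hs e b = ∑ v, (D.loc v).pair1 (hs.res (D.hr v)) (e v) (b v) := by
  simp only [pairS, LinearMap.sum_apply]
  rfl

lemma pairS_injective [FiniteDimensional (ZMod p) V] {ρ : Representation (ZMod p) G V}
    (hs : Smooth 𝓛 ρ) : Function.Injective (D.pairS hs) := by
  classical
  refine (injective_iff_map_eq_zero _).2 fun e he => ?_
  funext v
  refine (D.loc v).nd_one (hs.res (D.hr v)) _ fun b => ?_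
  have := LinearMap.congr_fun he (Pi.single v b)
  rw [pairS_apply, Finset.sum_eq_single v] at this
  · rwa [Pi.single_eq_same] at this
  · intro w _ hw
    rw [Pi.single_eq_of_ne hw, map_zero]
  · intro hv; exact absurd (Finset.mem_univ _) hv

/-- exactness at the middle -/
theorem range_pairS (hc : 2 * c = ∑ v, cv v) [FiniteDimensional (ZMod p) V]
    {ρ : Representation (ZMod p) G V} (hs : Smooth 𝓛 ρ) :
    LinearMap.range (D.pairS hs ∘ₗ D.locd1 ρ) =
      (LinearMap.range (loc1 D.hr ρ)).dualAnnihilator := by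
  have hf := D.finite_H1v hs
  have hfT : FiniteDimensional (ZMod p) (∀ v, H1 (𝓛v v) (resRep ρ (r v))) := inferInstance
  refine Submodule.eq_of_le_of_finrank_le ?_ ?_
  · rintro _ ⟨e, rfl⟩
    rw [Submodule.mem_dualAnnihilator]
    rintro _ ⟨b, rfl⟩
    rw [LinearMap.comp_apply, pairS_apply]
    exact D.sum_pair1 hs e b
  · have h2 : finrank (ZMod p) (LinearMap.range (loc1 D.hr ρ)) +
        finrank (ZMod p) (LinearMap.range (loc1 D.hr ρ)).dualAnnihilator =
        finrank (ZMod p) (∀ v, H1 (𝓛v v) (resRep ρ (r v))) :=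
      Subspace.finrank_add_finrank_dualAnnihilator_eq _
    have h3 : finrank (ZMod p) (LinearMap.range (D.pairS hs ∘ₗ D.locd1 ρ)) =
        finrank (ZMod p) (LinearMap.range (D.locd1 ρ)) := by
      rw [LinearMap.range_comp]
      exact (LinearEquiv.finrank_eq (Submodule.equivMapOfInjective _ (D.pairS_injective hs) _)).symm
    have h4 := (D.finrank_sha_eq hc hs).2
    have h5 : finrank (ZMod p) (∀ v, H1 (𝓛v v) (resRep ρ (r v))) =
        ∑ v, finrank (ZMod p) (H1 (𝓛v v) (resRep ρ (r v))) := Module.finrank_pi_fintype (ZMod p)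
    have h6 := h2.trans h5
    rw [← h4] at h6
    have h7 := Nat.add_left_cancel h6
    rw [h3, ← h7]

/-- **Greenberg-Wiles**, abstract form -/
theorem gw_abstract (hc : 2 * c = ∑ v, cv v) [FiniteDimensional (ZMod p) V]
    {ρ : Representation (ZMod p) G V} (hs : Smooth 𝓛 ρ)
    (L : ∀ v, Submodule (ZMod p) (H1 (𝓛v v) (resRep ρ (r v)))) {t t' : ℤ}
    (h1 : chi2 𝓛 ρ + finrank (ZMod p) V = t) (h2 : chi2 𝓛 (dualRep χ ρ) + finrank (ZMod p) V = t')
    (h3 : t + t' ≤ finrank (ZMod p) V) :
    (finrank (ZMod p) ((Submodule.pi Set.univ L).comap (loc1 D.hr ρ)) : ℤ) +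
        (∑ v, finrank (ZMod p) (resRep ρ (r v)).invariants : ℕ) + t ≤
      finrank (ZMod p) ((Submodule.pi Set.univ L).dualAnnihilator.comap
        (D.pairS hs ∘ₗ D.locd1 ρ)) + finrank (ZMod p) ρ.invariants +
      (∑ v, finrank (ZMod p) (L v) : ℕ) := by
  have hs' : Smooth 𝓛 (dualRep χ ρ) := smooth_dualRep D.ecg.mem hs
  have hf := D.ecg.fin2 _ hs
  have hf' := D.ecg.fin2 _ hs'
  have := hf.h1
  have := hf.h2
  have := hf'.h1
  have hfv := D.finite_H1v hs
  have hfT : FiniteDimensional (ZMod p) (∀ v, H1 (𝓛v v) (resRep ρ (r v))) := inferInstance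
  have e1 := gw_linAlg (loc1 D.hr ρ) (D.pairS hs ∘ₗ D.locd1 ρ) (D.range_pairS hc hs) L
  have e5 : finrank (ZMod p) (LinearMap.ker (D.pairS hs ∘ₗ D.locd1 ρ)) =
      finrank (ZMod p) (LinearMap.ker (loc2 D.hr ρ)) := by
    have : LinearMap.ker (D.pairS hs ∘ₗ D.locd1 ρ) = LinearMap.ker (D.locd1 ρ) := by
      ext x
      constructor
      · intro hx
        exact D.pairS_injective hs ((LinearMap.mem_ker.1 hx).trans (map_zero _).symm)
      · intro hx
        exact (congrArg (D.pairS hs) (LinearMap.mem_ker.1 hx)).trans (map_zero _)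
    rw [this]
    exact (D.finrank_sha_eq hc hs).1.symm
  rw [e5] at e1
  have e6 := LinearMap.finrank_range_add_finrank_ker (loc2 D.hr ρ)
  have e7 := D.finrank_range_loc2 hs
  have e8 := D.eps_eq_zero hc hs
  have e11 : ∑ v, chi2 (𝓛v v) (resRep ρ (r v)) =
      ((∑ v, finrank (ZMod p) (resRep ρ (r v)).invariants : ℕ) : ℤ) -
      ((∑ v, finrank (ZMod p) (H1 (𝓛v v) (resRep ρ (r v))) : ℕ) : ℤ) +
      ((∑ v, finrank (ZMod p) (H2 (𝓛v v) (resRep ρ (r v))) : ℕ) : ℤ) := by
    push_cast
    rw [← Finset.sum_sub_distrib, ← Finset.sum_add_distrib]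
    rfl
  rw [eps, e11] at e8
  have e12 : chi2 𝓛 ρ = (finrank (ZMod p) ρ.invariants : ℤ) - finrank (ZMod p) (H1 𝓛 ρ) +
    finrank (ZMod p) (H2 𝓛 ρ) := rfl
  omega

end PTData

end Glob

section Final

variable {p : ℕ} [Fact p.Prime]
variable {V : Type} [AddCommGroup V] [Module (ZMod p) V]

lemma invOn_conj (ρ : Representation (ZMod p) Γ V) :
    invOn ρ {complexConjugation} = fixOn ρ (Subgroup.zpowers complexConjugation) := by
  ext v
  constructor
  · intro h g hg
    rcases mem_zpowers_involution complexConjugation_mul_self hg with h' | h'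
    · rw [h', map_one]; rfl
    · rw [h']; exact h _ rfl
  · rintro h _ rfl
    exact h _ (Subgroup.mem_zpowers _)

lemma invOn_univ (ρ : Representation (ZMod p) Γ V) : invOn ρ Set.univ = ρ.invariants := by
  ext v
  exact ⟨fun h g => h g trivial, fun h g _ => h g⟩

lemma gwB_eq (hp2 : p ≠ 2) {S : Finset Nat.Primes} (hpS : pPrime p ∈ S)
    {ρ : Representation (ZMod p) Γ V} {v : Nat.Primes} (hv : v ∈ S)
    (hs : Smooth (locLevels (v : ℕ)) (locRep ρ v)) (y : H1loc ρ v)
    (x : H1 (sLevels S) (cartier p ρ)) :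
    gwB hp2 hs y (resv S (cartier p ρ) v x) =
      (gwLoc hp2 v).pair1 hs ((gwPT hp2 hpS).locd1 ρ x ⟨v, hv⟩) y := by
  obtain ⟨x, rfl⟩ := H1.mk_surjective _ _ x
  rfl

/-- the Greenberg-Wiles inequality from Tate's formula -/
theorem gwIneq_of_tate (hp2 : p ≠ 2) {S : Finset Nat.Primes} (hpS : pPrime p ∈ S)
    [FiniteDimensional (ZMod p) V] {ρ : Representation (ZMod p) Γ V}
    (hs : Smooth (sLevels S) ρ) (hv : ∀ v : Nat.Primes, Smooth (locLevels (v : ℕ)) (locRep ρ v))
    (h1 : chi2 (sLevels S) ρ + finrank (ZMod p) V =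
      finrank (ZMod p) (fixOn ρ (Subgroup.zpowers complexConjugation)))
    (h2 : chi2 (sLevels S) (cartier p ρ) + finrank (ZMod p) (Dual (ZMod p) V) =
      finrank (ZMod p) (fixOn (cartier p ρ) (Subgroup.zpowers complexConjugation))) :
    GWIneq p ρ (fun v => gwB hp2 (hv v)) S := by
  classical
  intro L
  let D := gwPT hp2 hpS
  have hc : 2 * (-1/2 : ℚ) = ∑ v : {l // l ∈ S}, (if (v.1 : ℕ) = p then (-1 : ℚ) else 0) := by
    rw [Finset.sum_eq_single ⟨pPrime p, hpS⟩]
    · refine Eq.trans ?_ (if_pos rfl).symm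
      norm_num
    · intro v _ hv
      exact if_neg fun h => hv (Subtype.ext (Subtype.ext h))
    · intro h; exact absurd (Finset.mem_univ _) h
  have h3 : (finrank (ZMod p) (fixOn ρ (Subgroup.zpowers complexConjugation)) : ℤ) +
      (finrank (ZMod p) (fixOn (cartier p ρ) (Subgroup.zpowers complexConjugation)) : ℤ) ≤
        finrank (ZMod p) V := by
    have := finrank_fixOn_dual_add_le (two_ne_zero_zmod hp2) (cycloChar p) ρ
      (TW.cycloChar_complexConjugation p) complexConjugation_mul_self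
    rw [add_comm]
    exact_mod_cast this
  rw [Subspace.dual_finrank_eq] at h2
  have key := D.gw_abstract hc hs (fun v => L v.1) h1 h2 h3
  have hfS : FiniteDimensional (ZMod p) (H1 (sLevels S) (cartier p ρ)) :=
    (D.ecg.fin2 _ (smooth_dualRep D.ecg.mem hs)).h1
  have e1 : Sel S ρ L = (Submodule.pi Set.univ (fun v : {l // l ∈ S} => L v.1)).comap
      (loc1 D.hr ρ) := by
    ext x
    rw [TW.mem_Sel]
    exact ⟨fun h v _ => h v.1 v.2, fun h v hv => h ⟨v, hv⟩ trivial⟩
  have e2 : ∀ x : H1 (sLevels S) (cartier p ρ), (∀ b ∈ Submodule.pi Set.univ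
      (fun v : {l // l ∈ S} => L v.1), D.pairS hs (D.locd1 ρ x) b = 0) →
      x ∈ Sel S (cartier p ρ) (fun v =>
        (L v).dualAnnihilator.comap (gwB hp2 (hv v)).flip) := by
    intro x hx
    refine TW.mem_Sel.2 fun v hvS => ?_
    rw [Submodule.mem_comap, Submodule.mem_dualAnnihilator]
    intro y hy
    rw [LinearMap.flip_apply, gwB_eq hp2 hpS hvS]
    have h5 := hx (Pi.single ⟨v, hvS⟩ y) (by
        rintro w -
        by_cases hw : w = ⟨v, hvS⟩
        · subst hw
          rw [Pi.single_eq_same]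
          exact hy
        · rw [Pi.single_eq_of_ne hw]
          exact Submodule.zero_mem _)
    rw [PTData.pairS_apply, Finset.sum_eq_single ⟨v, hvS⟩] at h5
    · rw [Pi.single_eq_same] at h5
      exact h5
    · intro w _ hw
      rw [Pi.single_eq_of_ne hw, map_zero]
    · intro h; exact absurd (Finset.mem_univ _) h
  have e3 : finrank (ZMod p) ((Submodule.pi Set.univ
      (fun v : {l // l ∈ S} => L v.1)).dualAnnihilator.comap (D.pairS hs ∘ₗ D.locd1 ρ)) ≤
      finrank (ZMod p) (Sel S (cartier p ρ) (fun v =>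
        (L v).dualAnnihilator.comap (gwB hp2 (hv v)).flip)) := by
    have hfin : FiniteDimensional (ZMod p) (Sel S (cartier p ρ) (fun v =>
        (L v).dualAnnihilator.comap (gwB hp2 (hv v)).flip)) := inferInstance
    refine LinearMap.finrank_le_finrank_of_injective
      (f := { toFun := fun x => ⟨x.1, e2 x.1 fun b hb =>
                (Submodule.mem_dualAnnihilator _).1 (Submodule.mem_comap.1 x.2) b hb⟩
              map_add' := fun _ _ => rfl
              map_smul' := fun _ _ => rfl }) ?_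
    intro x y hxy
    have h6 : x.1 = y.1 := congrArg (fun z : Sel S (cartier p ρ) (fun v =>
        (L v).dualAnnihilator.comap (gwB hp2 (hv v)).flip) => z.1) hxy
    exact Subtype.ext h6
  have e4 : ∑ v ∈ S, h0loc ρ v = ∑ v : {l // l ∈ S},
      finrank (ZMod p) (resRep ρ (localGaloisToGlobal (v.1 : ℕ))).invariants := by
    rw [← Finset.sum_coe_sort S]
    exact Finset.sum_congr rfl fun v _ => h0loc_eq ρ v.1
  have e5 : ∑ v ∈ S, finrank (ZMod p) (L v) = ∑ v : {l // l ∈ S}, finrank (ZMod p) (L v.1) :=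
    (Finset.sum_coe_sort S _).symm
  rw [e1, e4, e5, invOn_conj, invOn_univ]
  have key' : finrank (ZMod p) ((Submodule.pi Set.univ (fun v : {l // l ∈ S} => L v.1)).comap
      (loc1 D.hr ρ)) + ∑ v : {l // l ∈ S},
      finrank (ZMod p) (resRep ρ (localGaloisToGlobal (v.1 : ℕ))).invariants +
      finrank (ZMod p) (fixOn ρ (Subgroup.zpowers complexConjugation)) ≤
      finrank (ZMod p) ((Submodule.pi Set.univ
        (fun v : {l // l ∈ S} => L v.1)).dualAnnihilator.comap (D.pairS hs ∘ₗ D.locd1 ρ)) +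
      finrank (ZMod p) ρ.invariants +
      ∑ v : {l // l ∈ S}, finrank (ZMod p) (L v.1) := by exact_mod_cast key
  exact key'.trans (Nat.add_le_add_right (Nat.add_le_add_right e3 _) _)

/-- **Existence of the Greenberg-Wiles data** -/
theorem gwExists (p : ℕ) [Fact p.Prime] (hp2 : p ≠ 2) : TW.GWExists p := by
  classical
  rintro V _ _ _ ρ ⟨S1, hs1⟩
  have hv : ∀ v : Nat.Primes, Smooth (locLevels (v : ℕ)) (locRep ρ v) := fun v => smooth_loc hs1 v
  have hs1' : Smooth (sLevels (insert (pPrime p) S1)) (cartier p ρ) :=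
    smooth_dualRep (ker_cycloChar_mem (Finset.mem_insert_self _ _))
      (fun x => by
        obtain ⟨H, hH, h⟩ := hs1 x
        exact ⟨H, sLevels_mono (Finset.subset_insert _ _) hH, h⟩)
  obtain ⟨S0, hS0⟩ := tateEuler hp2 hs1
  obtain ⟨S0', hS0'⟩ := tateEuler hp2 hs1'
  refine ⟨{
    B := fun v => gwB hp2 (hv v)
    nondeg := fun v y h => gwB_nondeg hp2 (hv v) y h
    finite_loc := fun v => finite_H1loc hp2 (hv v)
    finite := fun S hpS hs => ((gwPT hp2 hpS).ecg.fin2 _ hs).h1
    finite' := fun S hpS hs =>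
      ((gwPT hp2 hpS).ecg.fin2 _ (smooth_dualRep (ker_cycloChar_mem hpS) hs)).h1
    euler := fun v hvp => specA1 hp2 V ρ v hvp (hv v)
    gw := fun S hpS hs => ?_ }⟩
  have hmono : ∀ {T : Finset Nat.Primes}, S ⊆ T → Smooth (sLevels T) ρ := fun hT x => by
    obtain ⟨H, hH, h⟩ := hs x
    exact ⟨H, sLevels_mono hT hH, h⟩
  let T := S ∪ (S0 ∪ S0')
  have hST : S ⊆ T := Finset.subset_union_left
  have hT0 : S0 ⊆ T := fun x hx => Finset.mem_union_right _ (Finset.mem_union_left _ hx)
  have hT0' : S0' ⊆ T := fun x hx => Finset.mem_union_right _ (Finset.mem_union_right _ hx)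
  have hsT := hmono hST
  have hpT : pPrime p ∈ T := hST hpS
  have hT := gwIneq_of_tate hp2 hpT hsT hv (hS0 T hT0) (hS0' T hT0')
  exact specA4 V ρ S T hST hpS hs (fun v => gwB hp2 (hv v)) (fun v hvS y hy => by
      have hvp : v ≠ pPrime p := fun h => hvS (h ▸ hpS)
      refine specA3 hp2 V ρ v hvp (fun t ht x => ?_) (hv v) y hy
      exact inertia_le_of_mem_sLevels (repKer_mem hs) hvS (padicPlace_liesOverPrime (v : ℕ))
        ((localGaloisToGlobal_mem_inertia_iff (v : ℕ) t).2 ht) x)
    ((gwPT hp2 hpT).ecg.fin2 _ hsT).h1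
    ((gwPT hp2 hpT).ecg.fin2 _ (smooth_dualRep (ker_cycloChar_mem hpT) hsT)).h1
    (fun v => finite_H1loc hp2 (hv v)) hT

end Final

end Fermat.Agent.CFT
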