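import Mathlib

set_option linter.unusedSectionVars false
set_option linter.unusedVariables false
set_option linter.style.haveILetI false

/-!
# Elementary Herbrand quotients

For an abelian group `A` with endomorphisms `f, g`, `f ∘ g = 0 = g ∘ f`, we consider
`H f g = ker f / im g`. The Herbrand quotient is `|H f g| / |H g f|`.
-/

namespace Fermat.Agent.CFT

open Function

section Basic

variable {A B C : Type*} [AddCommGroup A] [AddCommGroup B] [AddCommGroup C]

/-- `ker f / im g` -/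
abbrev HH (f g : A →+ A) : Type _ := f.ker ⧸ (g.range.addSubgroupOf f.ker)

namespace HH

variable {f g : A →+ A}

/-- class of an element of the kernel. -/
def mk (f g : A →+ A) (x : A) (hx : f x = 0) : HH f g := QuotientAddGroup.mk ⟨x, hx⟩

theorem mk_surj (y : HH f g) : ∃ (x : A) (hx : f x = 0), mk f g x hx = y := by
  obtain ⟨⟨x, hx⟩, rfl⟩ := QuotientAddGroup.mk_surjective y
  exact ⟨x, hx, rfl⟩

theorem mk_eq_zero_iff {x : A} (hx : f x = 0) : mk f g x hx = 0 ↔ ∃ y, g y = x := by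
  unfold mk
  rw [QuotientAddGroup.eq_zero_iff, AddSubgroup.mem_addSubgroupOf]
  rfl

theorem mk_add {x y : A} (hx : f x = 0) (hy : f y = 0) :
    mk f g x hx + mk f g y hy = mk f g (x + y) (by rw [map_add, hx, hy, add_zero]) := rfl

theorem mk_congr {x y : A} (hx : f x = 0) (h : x = y) : mk f g x hx = mk f g y (h ▸ hx) := by
  subst h; rfl

end HH

/-- The induced map on `HH`. -/
def HHmap {f g : A →+ A} {f' g' : B →+ B} (φ : A →+ B) (hf : ∀ x, φ (f x) = f' (φ x))
    (hg : ∀ x, φ (g x) = g' (φ x)) : HH f g →+ HH f' g' :=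
  QuotientAddGroup.map _ _ ((φ.comp f.ker.subtype).codRestrict f'.ker (fun x => by
    rw [AddMonoidHom.mem_ker, AddMonoidHom.comp_apply, ← hf, AddSubgroup.coe_subtype, x.2,
      map_zero])) (by
    rintro ⟨x, hx⟩ h
    rw [AddSubgroup.mem_addSubgroupOf] at h
    obtain ⟨y, hy⟩ := h
    rw [AddSubgroup.mem_comap, AddSubgroup.mem_addSubgroupOf]
    exact ⟨φ y, by rw [← hg, hy]; rfl⟩)

theorem HHmap_mk {f g : A →+ A} {f' g' : B →+ B} (φ : A →+ B) (hf : ∀ x, φ (f x) = f' (φ x))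
    (hg : ∀ x, φ (g x) = g' (φ x)) (x : A) (hx : f x = 0) :
    HHmap φ hf hg (HH.mk f g x hx) = HH.mk f' g' (φ x) (by rw [← hf, hx, map_zero]) := rfl

end Basic

/-- A short exact sequence with operators. -/
structure HSES (A B C : Type*) [AddCommGroup A] [AddCommGroup B] [AddCommGroup C]
    (fA gA : A →+ A) (fB gB : B →+ B) (fC gC : C →+ C) where
  i : A →+ B
  j : B →+ C
  inj : Injective i
  surj : Surjective j
  exact : ∀ b, j b = 0 ↔ ∃ a, i a = b
  if_ : ∀ x, i (fA x) = fB (i x)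
  ig : ∀ x, i (gA x) = gB (i x)
  jf : ∀ x, j (fB x) = fC (j x)
  jg : ∀ x, j (gB x) = gC (j x)
  fgA : ∀ x, fA (gA x) = 0
  gfA : ∀ x, gA (fA x) = 0
  fgB : ∀ x, fB (gB x) = 0
  gfB : ∀ x, gB (fB x) = 0
  fgC : ∀ x, fC (gC x) = 0
  gfC : ∀ x, gC (fC x) = 0

namespace HSES

variable {A B C : Type*} [AddCommGroup A] [AddCommGroup B] [AddCommGroup C]
    {fA gA : A →+ A} {fB gB : B →+ B} {fC gC : C →+ C} (S : HSES A B C fA gA fB gB fC gC)

/-- swap the roles of `f` and `g`. -/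
def swap : HSES A B C gA fA gB fB gC fC where
  i := S.i
  j := S.j
  inj := S.inj
  surj := S.surj
  exact := S.exact
  if_ := S.ig
  ig := S.if_
  jf := S.jg
  jg := S.jf
  fgA := S.gfA
  gfA := S.fgA
  fgB := S.gfB
  gfB := S.fgB
  fgC := S.gfC
  gfC := S.fgC

def mapI : HH fA gA →+ HH fB gB := HHmap S.i S.if_ S.ig
def mapJ : HH fB gB →+ HH fC gC := HHmap S.j S.jf S.jg

theorem mapI_mk (x : A) (hx : fA x = 0) :
    S.mapI (HH.mk fA gA x hx) = HH.mk fB gB (S.i x) (by rw [← S.if_, hx, map_zero]) := rfl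

theorem mapJ_mk (x : B) (hx : fB x = 0) :
    S.mapJ (HH.mk fB gB x hx) = HH.mk fC gC (S.j x) (by rw [← S.jf, hx, map_zero]) := rfl

theorem exists_lift (c : C) (hc : fC c = 0) :
    ∃ (b : B) (a : A), S.j b = c ∧ S.i a = fB b ∧ gA a = 0 := by
  obtain ⟨b, hb⟩ := S.surj c
  obtain ⟨a, ha⟩ := (S.exact (fB b)).mp (by rw [S.jf, hb, hc])
  exact ⟨b, a, hb, ha, S.inj (by rw [S.ig, ha, S.gfB, map_zero])⟩

theorem mk_eq_mk {b b' : B} {a a' : A} (hj : S.j b = S.j b') (h : S.i a = fB b)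
    (h' : S.i a' = fB b') (hg : gA a = 0) (hg' : gA a' = 0) :
    HH.mk gA fA a hg = HH.mk gA fA a' hg' := by
  rw [← sub_eq_zero]
  have : HH.mk gA fA a hg - HH.mk gA fA a' hg' =
    HH.mk gA fA (a - a') (by rw [map_sub, hg, hg', sub_zero]) := rfl
  rw [this, HH.mk_eq_zero_iff]
  obtain ⟨c, hc⟩ := (S.exact (b - b')).mp (by rw [map_sub, hj, sub_self])
  exact ⟨c, S.inj (by rw [S.if_, hc, map_sub, map_sub, h, h'])⟩

/-- the connecting homomorphism -/
noncomputable def delta : HH fC gC →+ HH gA fA :=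
  QuotientAddGroup.lift _
    { toFun := fun c => HH.mk gA fA (S.exists_lift c.1 c.2).choose_spec.choose
        (S.exists_lift c.1 c.2).choose_spec.choose_spec.2.2
      map_zero' := by
        obtain ⟨h1, h2, h3⟩ := (S.exists_lift (0 : fC.ker).1 (0 : fC.ker).2).choose_spec.choose_spec
        rw [HH.mk_eq_zero_iff]
        obtain ⟨a, ha⟩ := (S.exact _).mp h1
        exact ⟨a, S.inj (by rw [S.if_, ha, h2])⟩
      map_add' := by
        intro x y
        obtain ⟨h1, h2, h3⟩ := (S.exists_lift x.1 x.2).choose_spec.choose_spec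
        obtain ⟨k1, k2, k3⟩ := (S.exists_lift y.1 y.2).choose_spec.choose_spec
        obtain ⟨l1, l2, l3⟩ := (S.exists_lift (x + y).1 (x + y).2).choose_spec.choose_spec
        rw [HH.mk_add]
        exact S.mk_eq_mk
          (b' := (S.exists_lift x.1 x.2).choose + (S.exists_lift y.1 y.2).choose)
          (l1.trans ((congrArg₂ (· + ·) h1 k1).symm.trans (map_add S.j _ _).symm)) l2
          ((map_add S.i _ _).trans ((congrArg₂ (· + ·) h2 k2).trans (map_add fB _ _).symm))
          l3 (by rw [map_add, h3, k3, add_zero]) }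
    (by
      rintro ⟨c, hc⟩ h
      rw [AddSubgroup.mem_addSubgroupOf] at h
      obtain ⟨c', hc'⟩ := h
      obtain ⟨b', rfl⟩ := S.surj c'
      rw [AddMonoidHom.mem_ker]
      change HH.mk gA fA _ _ = 0
      obtain ⟨h1, h2, h3⟩ := (S.exists_lift c hc).choose_spec.choose_spec
      rw [HH.mk_eq_zero_iff]
      change gC (S.j b') = c at hc'
      obtain ⟨a, ha⟩ := (S.exact ((S.exists_lift c hc).choose - gB b')).mp (by
        rw [map_sub, h1, S.jg, hc', sub_self])
      exact ⟨a, S.inj (by rw [S.if_, ha, map_sub, S.fgB, sub_zero, h2])⟩)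

theorem delta_mk (b : B) (a : A) (h2 : S.i a = fB b) (h3 : gA a = 0)
    (hb : fC (S.j b) = 0) : S.delta (HH.mk fC gC (S.j b) hb) = HH.mk gA fA a h3 := by
  obtain ⟨k1, k2, k3⟩ := (S.exists_lift (S.j b) hb).choose_spec.choose_spec
  exact S.mk_eq_mk k1 k2 h2 k3 h3

/-- exactness at `H(B)` -/
theorem exact_B (y : HH fB gB) : S.mapJ y = 0 ↔ ∃ x, S.mapI x = y := by
  constructor
  · obtain ⟨b, hb, rfl⟩ := HH.mk_surj y
    rw [S.mapJ_mk, HH.mk_eq_zero_iff]
    rintro ⟨c, hc⟩
    obtain ⟨b', rfl⟩ := S.surj c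
    obtain ⟨a, ha⟩ := (S.exact (b - gB b')).mp (by rw [map_sub, S.jg, hc, sub_self])
    have hfa : fA a = 0 := S.inj (by rw [S.if_, ha, map_sub, hb, S.fgB, sub_zero, map_zero])
    refine ⟨HH.mk fA gA a hfa, ?_⟩
    rw [S.mapI_mk, ← sub_eq_zero]
    have : HH.mk fB gB (S.i a) (by rw [← S.if_, hfa, map_zero]) - HH.mk fB gB b hb =
      HH.mk fB gB (S.i a - b) (by rw [map_sub, ← S.if_, hfa, map_zero, hb, sub_zero]) := rfl
    rw [this, HH.mk_eq_zero_iff]
    exact ⟨-b', by rw [ha, map_neg]; abel⟩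
  · rintro ⟨x, rfl⟩
    obtain ⟨a, ha, rfl⟩ := HH.mk_surj x
    rw [S.mapI_mk, S.mapJ_mk, HH.mk_eq_zero_iff]
    exact ⟨0, by rw [map_zero]; exact ((S.exact _).mpr ⟨a, rfl⟩).symm⟩

/-- exactness at `H(C)` -/
theorem exact_C (z : HH fC gC) : S.delta z = 0 ↔ ∃ y, S.mapJ y = z := by
  constructor
  · obtain ⟨c, hc, rfl⟩ := HH.mk_surj z
    obtain ⟨b, a, rfl, h2, h3⟩ := S.exists_lift c hc
    rw [S.delta_mk b a h2 h3, HH.mk_eq_zero_iff]
    rintro ⟨a', rfl⟩
    refine ⟨HH.mk fB gB (b - S.i a') (by rw [map_sub, ← S.if_, h2, sub_self]), ?_⟩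
    rw [S.mapJ_mk]
    apply HH.mk_congr
    rw [map_sub, (S.exact (S.i a')).mpr ⟨a', rfl⟩, sub_zero]
  · rintro ⟨y, rfl⟩
    obtain ⟨b, hb, rfl⟩ := HH.mk_surj y
    rw [S.mapJ_mk, S.delta_mk b 0 (by rw [hb, map_zero]) (map_zero _), HH.mk_eq_zero_iff]
    exact ⟨0, map_zero _⟩

/-- exactness at `H'(A)` -/
theorem exact_A (x : HH gA fA) : S.swap.mapI x = 0 ↔ ∃ z, S.delta z = x := by
  constructor
  · obtain ⟨a, ha, rfl⟩ := HH.mk_surj x
    rw [S.swap.mapI_mk, HH.mk_eq_zero_iff]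
    rintro ⟨b, hb⟩
    have hb' : S.i a = fB b := hb.symm
    have hc : fC (S.j b) = 0 := by
      rw [← S.jf, ← hb']
      exact (S.exact _).mpr ⟨a, rfl⟩
    exact ⟨HH.mk fC gC (S.j b) hc, S.delta_mk b a hb' ha hc⟩
  · rintro ⟨z, rfl⟩
    obtain ⟨c, hc, rfl⟩ := HH.mk_surj z
    obtain ⟨b, a, rfl, h2, h3⟩ := S.exists_lift c hc
    rw [S.delta_mk b a h2 h3, S.swap.mapI_mk, HH.mk_eq_zero_iff]
    exact ⟨b, h2.symm⟩

end HSES

section Card

theorem card_eq_ker_mul_range {X Y : Type*} [AddCommGroup X] [AddCommGroup Y] (φ : X →+ Y) :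
    Nat.card X = Nat.card φ.ker * Nat.card φ.range := by
  rw [AddSubgroup.card_eq_card_quotient_mul_card_addSubgroup φ.ker, mul_comm,
    Nat.card_congr (QuotientAddGroup.quotientKerEquivRange φ).toEquiv]

theorem card_exact {X Y Z : Type*} [AddCommGroup X] [AddCommGroup Y] [AddCommGroup Z]
    (φ : X →+ Y) (ψ : Y →+ Z) (h : ∀ y, ψ y = 0 ↔ ∃ x, φ x = y) :
    Nat.card Y = Nat.card φ.range * Nat.card ψ.range := by
  have : ψ.ker = φ.range := by
    ext y
    rw [AddMonoidHom.mem_ker, AddMonoidHom.mem_range, h]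
  rw [card_eq_ker_mul_range ψ, this]

theorem finite_of_exactH {X Y Z : Type*} [AddCommGroup X] [AddCommGroup Y] [AddCommGroup Z]
    (φ : X →+ Y) (ψ : Y →+ Z) (h : ∀ y, ψ y = 0 ↔ ∃ x, φ x = y) [Finite X] [Finite Z] :
    Finite Y := by
  have hk : ψ.ker = φ.range := by
    ext y
    rw [AddMonoidHom.mem_ker, AddMonoidHom.mem_range, h]
  haveI : Finite φ.range := Set.finite_range φ |>.to_subtype
  haveI : Finite ψ.ker := by rw [hk]; infer_instance
  haveI : Finite ψ.range := Finite.of_injective _ ψ.range.subtype_injective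
  haveI : Finite (Y ⧸ ψ.ker) := Finite.of_equiv _ (QuotientAddGroup.quotientKerEquivRange ψ).toEquiv.symm
  exact Finite.of_addSubgroup_quotient ψ.ker

end Card

namespace HSES

variable {A B C : Type*} [AddCommGroup A] [AddCommGroup B] [AddCommGroup C]
    {fA gA : A →+ A} {fB gB : B →+ B} {fC gC : C →+ C} (S : HSES A B C fA gA fB gB fC gC)

include S in
/-- multiplicativity of the Herbrand quotient. -/
theorem card_mul :
    Nat.card (HH fA gA) * Nat.card (HH fC gC) * Nat.card (HH gB fB) =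
      Nat.card (HH fB gB) * Nat.card (HH gA fA) * Nat.card (HH gC fC) := by
  have e1 := card_exact S.mapI S.mapJ S.exact_B
  have e2 := card_exact S.mapJ S.delta S.exact_C
  have e3 := card_exact S.delta S.swap.mapI S.exact_A
  have e4 := card_exact S.swap.mapI S.swap.mapJ S.swap.exact_B
  have e5 := card_exact S.swap.mapJ S.swap.delta S.swap.exact_C
  have e6 := card_exact S.swap.delta S.mapI S.swap.exact_A
  rw [e1, e2, e3, e4, e5, e6]
  ring

include S in
theorem finite_B [Finite (HH fA gA)] [Finite (HH fC gC)] : Finite (HH fB gB) :=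
  finite_of_exactH S.mapI S.mapJ S.exact_B

include S in
theorem finite_C [Finite (HH fB gB)] [Finite (HH gA fA)] : Finite (HH fC gC) :=
  finite_of_exactH S.mapJ S.delta S.exact_C

include S in
theorem finite_A [Finite (HH fC gC)] [Finite (HH gB fB)] : Finite (HH gA fA) :=
  finite_of_exactH S.delta S.swap.mapI S.exact_A

end HSES

section FiniteGroup

variable {A : Type*} [AddCommGroup A]

theorem card_HH_mul (f g : A →+ A) (hfg : ∀ x, f (g x) = 0) :
    Nat.card (HH f g) * Nat.card g.range = Nat.card f.ker := by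
  have h1 : g.range ≤ f.ker := by
    rintro _ ⟨y, rfl⟩
    exact hfg y
  rw [AddSubgroup.card_eq_card_quotient_mul_card_addSubgroup (g.range.addSubgroupOf f.ker)]
  congr 1
  exact (Nat.card_congr (AddSubgroup.addSubgroupOfEquivOfLe h1).toEquiv).symm

/-- for a finite group the Herbrand quotient is `1`. -/
theorem card_HH_eq_of_finite [Finite A] (f g : A →+ A) (hfg : ∀ x, f (g x) = 0)
    (hgf : ∀ x, g (f x) = 0) : Nat.card (HH f g) = Nat.card (HH g f) := by
  have h1 := card_HH_mul f g hfg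
  have h2 := card_HH_mul g f hgf
  have h3 := card_eq_ker_mul_range f
  have h4 := card_eq_ker_mul_range g
  have h5 : 0 < Nat.card f.range := Nat.card_pos
  have h6 : 0 < Nat.card g.range := Nat.card_pos
  rw [h3, ← h1, ← h2] at h4
  have h7 : Nat.card (HH f g) * (Nat.card g.range * Nat.card f.range) =
      Nat.card (HH g f) * (Nat.card g.range * Nat.card f.range) := by
    calc _ = Nat.card (HH f g) * Nat.card g.range * Nat.card f.range := by ring
      _ = _ := by rw [h4]; ring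
  exact Nat.eq_of_mul_eq_mul_right (Nat.mul_pos h6 h5) h7

end FiniteGroup

end Fermat.Agent.CFT
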