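import Fermat.Agent.CFT.Cyclic

/-!
# Hilbert's theorem 90 for locally constant cocycles
-/

set_option autoImplicit false

namespace Fermat.Agent.CFT

variable {G : Type*} [Group G] {𝓛 : Levels G}
variable {Ω : Type*} [Field Ω] [MulSemiringAction G Ω]

variable (𝓛 Ω) in
/-- `G` (with its level structure) acts on the field `Ω` like a Galois group with Krull
topology. -/
structure IsGal : Prop where
  smooth : ∀ x : Ω, MulAction.stabilizer G x ∈ 𝓛
  sep : ∀ U ∈ 𝓛, ∃ s : Set Ω, s.Finite ∧ ∀ g : G, (∀ x ∈ s, g • x = x) → g ∈ U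

lemma IsGal.restrict (h : IsGal 𝓛 Ω) (U : Subgroup G) : IsGal (𝓛.restrict U) Ω where
  smooth x := ⟨_, h.smooth x, fun g hg => by
    rw [MulAction.mem_stabilizer_iff]
    exact hg⟩
  sep := by
    rintro J ⟨H, hH, hJ⟩
    obtain ⟨s, hs, hs'⟩ := h.sep H hH
    exact ⟨s, hs, fun g hg => hJ (hs' g hg)⟩

variable (G Ω) in
/-- the representation on the multiplicative group -/
def uRep : Representation ℤ G (Additive Ωˣ) where
  toFun g := (MonoidHom.toAdditive
    (Units.map ((MulSemiringAction.toRingHom G Ω g : Ω →+* Ω) : Ω →* Ω))).toIntLinearMap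
  map_one' := by
    ext x
    simp
  map_mul' g h := by
    ext x
    simp [mul_smul]

@[simp] lemma coe_uRep (g : G) (x : Additive Ωˣ) :
    ((uRep G Ω g x).toMul : Ω) = g • (x.toMul : Ω) := rfl

lemma uRep_ext {x y : Additive Ωˣ} (h : ((x.toMul : Ωˣ) : Ω) = y.toMul) : x = y := by
  apply Additive.toMul.injective
  exact Units.ext h

lemma smooth_uRep (h : IsGal 𝓛 Ω) : Smooth 𝓛 (uRep G Ω) := fun x =>
  ⟨_, h.smooth (x.toMul : Ω), fun _ hs => uRep_ext hs⟩

/-- A `G`-stable set separating a normal level. -/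
lemma IsGal.exists_normal_level (h : IsGal 𝓛 Ω) {U : Subgroup G} (hU : U ∈ 𝓛) :
    ∃ N ∈ 𝓛, N ≤ U ∧ N.Normal ∧ ∃ t : Set Ω, (∀ g ∈ N, ∀ x ∈ t, g • x = x) ∧
      ∀ g : G, (∀ x ∈ t, g • x = x) → g ∈ N := by
  obtain ⟨s, hs, hsU⟩ := h.sep U hU
  have := hs.to_subtype
  let N₀ : Subgroup G := ⨅ x : s, MulAction.stabilizer G (x : Ω)
  have hN₀ : N₀ ∈ 𝓛 := Levels.iInf_mem fun x => h.smooth x
  have hmem : ∀ g, g ∈ N₀ ↔ ∀ x ∈ s, g • x = x := fun g => by
    simp [N₀, Subgroup.mem_iInf, MulAction.mem_stabilizer_iff]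
  refine ⟨N₀.normalCore, Levels.normalCore_mem hN₀,
    (N₀.normalCore_le).trans fun g hg => hsU g ((hmem g).1 hg), inferInstance,
    {y | ∃ x ∈ s, ∃ g : G, y = g • x}, ?_, ?_⟩
  · rintro g hg _ ⟨x, hx, a, rfl⟩
    have h1 : a⁻¹ * g * a ∈ N₀.normalCore := by
      simpa using (inferInstance : N₀.normalCore.Normal).conj_mem g hg a⁻¹
    have h2 := (hmem _).1 (N₀.normalCore_le h1) x hx
    rw [mul_assoc, mul_smul, inv_smul_eq_iff, mul_smul] at h2
    exact h2
  · intro g hg a
    have : a * g * a⁻¹ ∈ N₀ := by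
      rw [hmem]
      intro x hx
      rw [mul_assoc, mul_smul, mul_smul, hg _ ⟨x, hx, a⁻¹, rfl⟩, smul_inv_smul]
    exact this

/-- **Hilbert's theorem 90** -/
theorem hilbert90 (h : IsGal 𝓛 Ω) : Z1 𝓛 (uRep G Ω) ≤ B1 (uRep G Ω) := by
  classical
  rintro f ⟨⟨U, hU, hfU⟩, hfc⟩
  obtain ⟨N, hN, hNU, hNn, t, ht1, ht2⟩ := h.exists_normal_level hU
  have hfin := Levels.finiteIndex hN
  have : Finite (G ⧸ N) := inferInstance
  have := Fintype.ofFinite (G ⧸ N)
  -- values of the cocycle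
  let F : G → Ω := fun g => ((f g).toMul : Ωˣ)
  have hF0 : ∀ g, F g ≠ 0 := fun g => (f g).toMul.ne_zero
  have hFN : ∀ g, ∀ n ∈ N, F (g * n) = F g := fun g n hn => by
    simp only [F, hfU g n (hNU hn)]
  have hFc : ∀ g h, F (g * h) = g • F h * F g := fun g h => by
    simp only [F, hfc g h, toMul_add, Units.val_mul, coe_uRep]
  let S : Submonoid Ω :=
    { carrier := {x | ∀ n ∈ N, n • x = x}
      mul_mem' := fun {a b} ha hb n hn => by rw [smul_mul', ha n hn, hb n hn]
      one_mem' := fun n _ => smul_one n }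
  let φ : G → (S →* Ω) := fun g =>
    { toFun := fun x => g • (x : Ω)
      map_one' := by simp
      map_mul' := fun x y => by simp }
  have hφinj : Function.Injective (fun q : G ⧸ N => φ q.out) := by
    intro q q' hqq
    have h1 : ∀ x : S, q.out • (x : Ω) = q'.out • (x : Ω) := fun x => DFunLike.congr_fun hqq x
    have h2 : (q.out)⁻¹ * q'.out ∈ N := by
      apply ht2
      intro x hx
      have hxS : x ∈ S := fun n hn => ht1 n hn x hx
      rw [mul_smul, ← h1 ⟨x, hxS⟩, inv_smul_smul]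
    rw [← QuotientGroup.eq] at h2
    simpa using h2
  have hli : LinearIndependent Ω (fun q : G ⧸ N => (φ q.out : S → Ω)) :=
    (linearIndependent_monoidHom S Ω).comp _ hφinj
  have hex : ∃ x : S, ∑ q : G ⧸ N, F q.out * (q.out • (x : Ω)) ≠ 0 := by
    by_contra hcon
    push Not at hcon
    have := Fintype.linearIndependent_iff.1 hli (fun q => F q.out) (by
      ext x
      rw [Finset.sum_apply]
      exact hcon x)
    exact hF0 _ (this (QuotientGroup.mk 1))
  obtain ⟨x, hx⟩ := hex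
  set b : Ω := ∑ q : G ⧸ N, F q.out * (q.out • (x : Ω)) with hb
  have hgb : ∀ g : G, F g * g • b = b := by
    intro g
    rw [hb, Finset.smul_sum, Finset.mul_sum]
    refine Fintype.sum_equiv (MulAction.toPerm g) _ _ fun q => ?_
    obtain ⟨n, hn⟩ : ∃ n ∈ N, g * q.out = (g • q).out * n := by
      refine ⟨((g • q).out)⁻¹ * (g * q.out), ?_, by group⟩
      rw [← QuotientGroup.eq, QuotientGroup.out_eq']
      conv_lhs => rw [← QuotientGroup.out_eq' q]
      rfl
    simp only [MulAction.toPerm_apply]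
    rw [smul_mul', ← mul_assoc, mul_comm (F g), ← hFc, smul_smul, hn.2, hFN _ _ hn.1, mul_smul,
      x.2 n hn.1]
  refine mem_B1.2 ⟨Additive.ofMul (Units.mk0 b hx)⁻¹, fun g => ?_⟩
  apply uRep_ext
  have hgb0 : g • b ≠ 0 := fun h0 => hx (by
    have := congrArg (fun y => g⁻¹ • y) h0
    simpa using this)
  simp only [toMul_sub, toMul_ofMul, Units.val_div_eq_div_val, coe_uRep, Units.val_inv_eq_inv_val,
    Units.val_mk0, smul_inv'']
  have h3 := hgb g
  simp only [F] at h3
  field_simp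
  linear_combination h3

end Fermat.Agent.CFT
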