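import Fermat.Agent.CFT.Basic

/-!
# Inflation of 2-cocycles and cyclic quotients

Explicit cocycle manipulations: if `H` is a normal level with `H¹(H, V) = 0` and `y` is a
2-cocycle of `G` whose restriction to `H` is a coboundary, then `y` is cohomologous to a cocycle
inflated from `G / H`; if moreover `G / H` is cyclic of order `n`, it is cohomologous to the
standard cyclic cocycle of an invariant element.
-/

set_option autoImplicit false

namespace Fermat.Agent.CFT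

variable {k : Type*} [CommRing k] {G : Type*} [Group G] {𝓛 : Levels G}
variable {V : Type*} [AddCommGroup V] [Module k V] {ρ : Representation k G V}

lemma Levels.LC.act_diag (hs : Smooth 𝓛 ρ) {f : G → V} (h : 𝓛.LC f) :
    𝓛.LC (fun g => ρ g (f g)) := by
  obtain ⟨H, hH, h⟩ := LC_act hs h
  exact ⟨H, hH, fun g s hs => h g g s hs s hs⟩

lemma Levels.LC.add {X : Type*} [Add X] {f f' : G → X} (h : 𝓛.LC f) (h' : 𝓛.LC f') :
    𝓛.LC (fun g => f g + f' g) := h.comp₂ h' (· + ·)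

lemma Levels.LC.sub {X : Type*} [Sub X] {f f' : G → X} (h : 𝓛.LC f) (h' : 𝓛.LC f') :
    𝓛.LC (fun g => f g - f' g) := h.comp₂ h' (· - ·)

lemma Levels.LC.neg {X : Type*} [Neg X] {f : G → X} (h : 𝓛.LC f) :
    𝓛.LC (fun g => - f g) := h.comp (- ·)

/-- The representative of the coset of `g`. -/
noncomputable def rep (H : Subgroup G) (g : G) : G := (QuotientGroup.mk g : G ⧸ H).out

lemma rep_mul_right (H : Subgroup G) (g : G) {n : G} (hn : n ∈ H) : rep H (g * n) = rep H g := by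
  unfold rep
  congr 1
  rw [QuotientGroup.eq]
  simpa using H.inv_mem hn

lemma rep_mul_left (H : Subgroup G) [hH : H.Normal] (g : G) {n : G} (hn : n ∈ H) :
    rep H (n * g) = rep H g := by
  have : n * g = g * (g⁻¹ * n * g) := by group
  rw [this, rep_mul_right H g (by simpa using hH.conj_mem n hn g⁻¹)]

lemma inv_rep_mul_mem (H : Subgroup G) (g : G) : (rep H g)⁻¹ * g ∈ H := by
  rw [← QuotientGroup.eq]
  exact Quotient.out_eq _

lemma mul_rep_inv_mem (H : Subgroup G) [hH : H.Normal] (g : G) : g * (rep H g)⁻¹ ∈ H := by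
  have := hH.conj_mem _ (inv_rep_mul_mem H g) (rep H g)
  simpa [mul_assoc] using this

lemma rep_mem (H : Subgroup G) {g : G} (hg : g ∈ H) : rep H g ∈ H := by
  have := inv_rep_mul_mem H g
  have h2 := H.mul_mem hg (H.inv_mem this)
  simpa using h2

/-- A 2-cocycle trivial on `H × G` and `G × H`. -/
structure IsInflated (H : Subgroup G) (ρ : Representation k G V) (z : G → G → V) : Prop where
  left : ∀ n ∈ H, ∀ g, z n g = 0
  right : ∀ n ∈ H, ∀ g, z g n = 0
  cocycle : ∀ g h j, z (g * h) j + z g h = ρ g (z h j) + z g (h * j)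

namespace IsInflated

variable {H : Subgroup G} {z : G → G → V}

lemma snd (hz : IsInflated H ρ z) (g h : G) {n : G} (hn : n ∈ H) : z g (h * n) = z g h := by
  have := hz.cocycle g h n
  rw [hz.right n hn, hz.right n hn] at this
  simpa using this.symm

lemma fst [hH : H.Normal] (hz : IsInflated H ρ z) (g h : G) {n : G} (hn : n ∈ H) :
    z (g * n) h = z g h := by
  have := hz.cocycle g n h
  rw [hz.right n hn, hz.left n hn] at this
  have e : n * h = h * (h⁻¹ * n * h) := by group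
  rw [e, hz.snd g h (by simpa using hH.conj_mem n hn h⁻¹)] at this
  simpa using this

lemma fixed [hH : H.Normal] (hz : IsInflated H ρ z) (g h : G) {n : G} (hn : n ∈ H) :
    ρ n (z g h) = z g h := by
  have := hz.cocycle n g h
  rw [hz.left n hn, hz.left n hn] at this
  have e : n * g = g * (g⁻¹ * n * g) := by group
  rw [e, hz.fst g h (by simpa using hH.conj_mem n hn g⁻¹)] at this
  simpa using this.symm

end IsInflated

lemma d1_cocycle (f : G → V) (g h j : G) :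
    d1 ρ f (g * h) j + d1 ρ f g h = ρ g (d1 ρ f h j) + d1 ρ f g (h * j) := by
  simp only [d1_apply, map_add, map_sub, map_mul, Module.End.mul_apply, mul_assoc]
  abel

/-- step 1 -/
lemma exists_step1 {H : Subgroup G} (hH : H ∈ 𝓛) {y : G → G → V}
    (hy : (fun a b : H => y a b) ∈ B2 (𝓛.restrict H) (ρ.comp H.subtype)) :
    ∃ c, 𝓛.LC c ∧ ∀ a ∈ H, ∀ b ∈ H, (y - d1 ρ c) a b = 0 := by
  classical
  obtain ⟨f, ⟨J, ⟨K, hK, hKJ⟩, hJ⟩, hf⟩ := mem_B2.1 hy
  refine ⟨fun g => if h : g ∈ H then f ⟨g, h⟩ else 0, ⟨K ⊓ H, Levels.inf_mem hK hH, ?_⟩, ?_⟩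
  · intro g s hs
    beta_reduce
    by_cases hg : g ∈ H
    · have hgs : g * s ∈ H := H.mul_mem hg hs.2
      rw [dif_pos hg, dif_pos hgs]
      exact hJ ⟨g, hg⟩ ⟨s, hs.2⟩ (hKJ hs.1)
    · have hgs : g * s ∉ H := fun h => hg (by simpa using H.mul_mem h (H.inv_mem hs.2))
      rw [dif_neg hg, dif_neg hgs]
  · intro a ha b hb
    have := congrFun (congrFun hf ⟨a, ha⟩) ⟨b, hb⟩
    simp only [d1_apply] at this
    simp only [Pi.sub_apply, d1_apply]
    rw [dif_pos ha, dif_pos hb, dif_pos (H.mul_mem ha hb), sub_eq_zero]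
    exact this.symm

/-- step 2 -/
lemma exists_step2 {H : Subgroup G} [hHn : H.Normal] (hH : H ∈ 𝓛) {y : G → G → V}
    (hy2 : 𝓛.LC₂ y)
    (hyc : ∀ g h j, y (g * h) j + y g h = ρ g (y h j) + y g (h * j))
    (hy : ∀ a ∈ H, ∀ b ∈ H, y a b = 0) :
    ∃ c, 𝓛.LC c ∧ ∀ a ∈ H, ∀ g, (y - d1 ρ c) a g = 0 := by
  obtain ⟨N, hN, hNn, hNy⟩ := hy2.exists_normal
  refine ⟨fun g => - y (g * (rep H g)⁻¹) (rep H g), ⟨N ⊓ H, Levels.inf_mem hN hH, ?_⟩, ?_⟩
  · intro g s hs
    simp only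
    rw [rep_mul_right H g hs.2]
    have e : g * s * (rep H g)⁻¹ = g * (rep H g)⁻¹ * (rep H g * s * (rep H g)⁻¹) := by group
    have := hNy (g * (rep H g)⁻¹) (rep H g) _ (hNn.conj_mem s hs.1 (rep H g)) 1 N.one_mem
    rw [e]
    simpa using this
  · intro a ha g
    have h1 : y (a * (rep H a)⁻¹) (rep H a) = 0 := hy _ (mul_rep_inv_mem H a) _ (rep_mem H ha)
    have h2 := hyc a (g * (rep H g)⁻¹) (rep H g)
    rw [hy a ha _ (mul_rep_inv_mem H g)] at h2
    simp only [Pi.sub_apply, d1_apply, rep_mul_left H g ha, h1, map_neg]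
    have e1 : a * (g * (rep H g)⁻¹) = a * g * (rep H g)⁻¹ := by group
    have e2 : g * (rep H g)⁻¹ * rep H g = g := by group
    rw [e1, e2, add_zero] at h2
    rw [h2]; abel

/-- step 3 -/
lemma exists_step3 {H : Subgroup G} [hHn : H.Normal] (hH : H ∈ 𝓛) (hs : Smooth 𝓛 ρ)
    (h90 : Z1 (𝓛.restrict H) (ρ.comp H.subtype) ≤ B1 (ρ.comp H.subtype)) {y : G → G → V}
    (hy2 : 𝓛.LC₂ y)
    (hyc : ∀ g h j, y (g * h) j + y g h = ρ g (y h j) + y g (h * j))
    (hy : ∀ a ∈ H, ∀ g, y a g = 0) :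
    ∃ c, 𝓛.LC c ∧ IsInflated H ρ (y - d1 ρ c) := by
  classical
  have key : ∀ g : G, ∃ a : V, ∀ n ∈ H, y g n = ρ g (ρ n a - a) := by
    intro g
    have h1 : (fun n : H => ρ g⁻¹ (y g n)) ∈ Z1 (𝓛.restrict H) (ρ.comp H.subtype) := by
      constructor
      · obtain ⟨N, hN, hNy⟩ := hy2
        refine ⟨N.subgroupOf H, ⟨N, hN, le_rfl⟩, fun n s hs => ?_⟩
        have := hNy g n 1 N.one_mem s hs
        simp only [mul_one] at this
        simp only [Subgroup.coe_mul, this]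
      · intro n m
        have h2 := hyc g n m
        rw [hy n n.2, map_zero, zero_add] at h2
        -- y (g n) m = y ((g n g⁻¹) g) m = (g n g⁻¹) y g m
        have h3 := hyc (g * n * g⁻¹) g m
        rw [hy _ (hHn.conj_mem n n.2 g), hy _ (hHn.conj_mem n n.2 g), add_zero, add_zero] at h3
        have e : g * n * g⁻¹ * g = g * n := by group
        rw [e] at h3
        simp only [Subgroup.coe_mul, MonoidHom.comp_apply, Subgroup.subtype_apply]
        rw [← h2, map_add, h3]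
        rw [← Module.End.mul_apply, ← map_mul, ← Module.End.mul_apply, ← map_mul]
        congr 3
        group
    obtain ⟨a, ha⟩ := mem_B1.1 (h90 h1)
    refine ⟨a, fun n hn => ?_⟩
    have := congrArg (ρ g) (ha ⟨n, hn⟩)
    rw [← Module.End.mul_apply, ← map_mul] at this
    simpa using this
  choose a ha using key
  let b : G → V := fun g => if g ∈ H then 0 else a g
  have hb : ∀ g, ∀ n ∈ H, y g n = ρ g (ρ n (b g) - b g) := by
    intro g n hn
    by_cases hg : g ∈ H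
    · simp [b, hg, hy g hg]
    · simp only [b, if_neg hg]; exact ha g n hn
  have hb0 : ∀ g ∈ H, b g = 0 := fun g hg => by simp [b, hg]
  have hLC : 𝓛.LC (fun g => ρ g (b (rep H g))) :=
    Levels.LC.act_diag hs ⟨H, hH, fun g s hs => by beta_reduce; rw [rep_mul_right H g hs]⟩
  refine ⟨fun g => - ρ g (b (rep H g)), hLC.neg, ?_, ?_, ?_⟩
  · intro n hn g
    simp only [Pi.sub_apply, d1_apply, rep_mul_left H g hn, hy n hn, map_neg,
      hb0 _ (rep_mem H hn), map_mul, Module.End.mul_apply, map_zero]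
    abel
  · intro n hn g
    have h3 := hyc (g * (rep H g)⁻¹) (rep H g) n
    rw [hy _ (mul_rep_inv_mem H g), hy _ (mul_rep_inv_mem H g), add_zero, add_zero,
      hb (rep H g) n hn, ← Module.End.mul_apply, ← map_mul] at h3
    have e : g * (rep H g)⁻¹ * rep H g = g := by group
    rw [e] at h3
    simp only [Pi.sub_apply, d1_apply, rep_mul_right H g hn, h3, map_neg,
      hb0 _ (rep_mem H hn), map_mul, Module.End.mul_apply, map_zero, map_sub]
    abel
  · intro g h j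
    have h1 := hyc g h j
    have h2 := d1_cocycle (ρ := ρ) (fun g => - ρ g (b (rep H g))) g h j
    simp only [Pi.sub_apply, map_sub]
    rw [sub_add_sub_comm, h1, h2]
    abel

theorem exists_isInflated {H : Subgroup G} [hHn : H.Normal] (hH : H ∈ 𝓛) (hs : Smooth 𝓛 ρ)
    (h90 : Z1 (𝓛.restrict H) (ρ.comp H.subtype) ≤ B1 (ρ.comp H.subtype)) {y : G → G → V}
    (hyZ : y ∈ Z2 𝓛 ρ)
    (hy : (fun a b : H => y a b) ∈ B2 (𝓛.restrict H) (ρ.comp H.subtype)) :
    ∃ c, 𝓛.LC c ∧ IsInflated H ρ (y - d1 ρ c) := by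
  obtain ⟨c1, hc1, h1⟩ := exists_step1 hH hy
  have hZ1 : y - d1 ρ c1 ∈ Z2 𝓛 ρ :=
    (Z2 𝓛 ρ).sub_mem hyZ (B2_le_Z2 hs (mem_B2.2 ⟨c1, hc1, rfl⟩))
  obtain ⟨c2, hc2, h2⟩ := exists_step2 (ρ := ρ) hH hZ1.1 hZ1.2 h1
  have hZ2 : y - d1 ρ c1 - d1 ρ c2 ∈ Z2 𝓛 ρ :=
    (Z2 𝓛 ρ).sub_mem hZ1 (B2_le_Z2 hs (mem_B2.2 ⟨c2, hc2, rfl⟩))
  obtain ⟨c3, hc3, h3⟩ := exists_step3 hH hs h90 hZ2.1 hZ2.2 h2
  refine ⟨c1 + c2 + c3, (hc1.add hc2).add hc3, ?_⟩
  have : y - d1 ρ (c1 + c2 + c3) = y - d1 ρ c1 - d1 ρ c2 - d1 ρ c3 := by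
    rw [map_add, map_add]; abel
  rw [this]; exact h3

end Fermat.Agent.CFT
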