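import Fermat.Agent.CFT.Hilbert90

/-!
# Kummer theory in the abstract Galois setting

`G` acts on a field `Ω` (structure `IsGal 𝓛 Ω`), `ζ : Ω` is a primitive `p`-th root of unity fixed
by `G`.  For `y : Ω` nonzero with `y ^ p` fixed by `G`, `kummer p ζ y : G → ZMod p` is the
character with `g • y = ζ ^ (kummer p ζ y g) * y`.
-/

set_option autoImplicit false

namespace Fermat.Agent.CFT

variable {G : Type*} [Group G] {𝓛 : Levels G}
variable {Ω : Type*} [Field Ω] [MulSemiringAction G Ω]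
variable {p : ℕ}

lemma zeta_pow_eq_iff [NeZero p] {ζ : Ω} (hζ : IsPrimitiveRoot ζ p) {a b : ℕ} :
    ζ ^ a = ζ ^ b ↔ (a : ZMod p) = b := by
  rw [pow_eq_pow_mod a hζ.pow_eq_one, pow_eq_pow_mod b hζ.pow_eq_one,
    ZMod.natCast_eq_natCast_iff']
  constructor
  · intro h
    exact hζ.pow_inj (Nat.mod_lt _ (Nat.pos_of_ne_zero (NeZero.ne p)))
      (Nat.mod_lt _ (Nat.pos_of_ne_zero (NeZero.ne p))) h
  · intro h; rw [h]

section MuHom

variable [NeZero p] {ζ : Ω} (hζ : IsPrimitiveRoot ζ p)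

/-- `a ↦ ζ ^ a` as a homomorphism to the (additive version of) the multiplicative group. -/
noncomputable def muHom : ZMod p →+ Additive Ωˣ where
  toFun a := Additive.ofMul ((hζ.isUnit (NeZero.ne p)).unit ^ a.val)
  map_zero' := by simp
  map_add' a b := by
    apply Additive.toMul.injective
    apply Units.ext
    simp only [toMul_ofMul, toMul_add, Units.val_pow_eq_pow_val, IsUnit.unit_spec, ← pow_add]
    rw [ZMod.val_add]
    exact (pow_eq_pow_mod _ hζ.pow_eq_one).symm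

@[simp] lemma coe_muHom (a : ZMod p) : (((muHom hζ a).toMul : Ωˣ) : Ω) = ζ ^ a.val := by
  simp [muHom]

lemma coe_muHom_natCast (a : ℕ) : (((muHom hζ (a : ZMod p)).toMul : Ωˣ) : Ω) = ζ ^ a := by
  rw [coe_muHom, ZMod.val_natCast]
  exact (pow_eq_pow_mod _ hζ.pow_eq_one).symm

lemma muHom_injective : Function.Injective (muHom hζ) := by
  intro a b h
  have : ζ ^ a.val = ζ ^ b.val := by rw [← coe_muHom hζ, ← coe_muHom hζ, h]
  rw [zeta_pow_eq_iff hζ] at this
  simpa using this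

lemma exists_muHom_eq {w : Additive Ωˣ} (h : p • w = 0) : ∃ a, muHom hζ a = w := by
  have h1 : ((w.toMul : Ωˣ) : Ω) ^ p = 1 := by
    have := congrArg (fun v : Additive Ωˣ => ((v.toMul : Ωˣ) : Ω)) h
    simpa using this
  obtain ⟨i, -, hi⟩ := hζ.eq_pow_of_pow_eq_one h1
  refine ⟨i, uRep_ext ?_⟩
  rw [coe_muHom_natCast, hi]

lemma uRep_muHom {g : G} (hg : g • ζ = ζ) (a : ZMod p) :
    uRep G Ω g (muHom hζ a) = muHom hζ a := by
  apply uRep_ext
  rw [coe_uRep, coe_muHom, smul_pow', hg]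

end MuHom

open Classical in
/-- The Kummer "character" attached to a root `y`. -/
noncomputable def kummer (p : ℕ) (ζ y : Ω) (g : G) : ZMod p :=
  if h : ∃ k : ℕ, g • y = ζ ^ k * y then (h.choose : ZMod p) else 0

section Kummer

variable [NeZero p] {ζ : Ω} (hζ : IsPrimitiveRoot ζ p)

include hζ in
lemma kummer_unique {y : Ω} (hy : y ≠ 0) {g : G} {k : ℕ} (h : g • y = ζ ^ k * y) :
    kummer p ζ y g = k := by
  have hex : ∃ k : ℕ, g • y = ζ ^ k * y := ⟨k, h⟩
  rw [kummer, dif_pos hex, ← zeta_pow_eq_iff hζ]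
  exact mul_right_cancel₀ hy (hex.choose_spec.symm.trans h)

include hζ in
lemma kummer_unique' {y : Ω} (hy : y ≠ 0) {g : G} {a : ZMod p} (h : g • y = ζ ^ a.val * y) :
    kummer p ζ y g = a := by
  rw [kummer_unique hζ hy h]; simp

include hζ in
lemma kummer_spec {y : Ω} (hy : y ≠ 0) {g : G} (hfix : g • y ^ p = y ^ p) :
    g • y = ζ ^ (kummer p ζ y g).val * y := by
  have h1 : (g • y / y) ^ p = 1 := by
    rw [div_pow, ← smul_pow', hfix, div_self (pow_ne_zero _ hy)]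
  obtain ⟨i, -, hi⟩ := hζ.eq_pow_of_pow_eq_one h1
  have h2 : g • y = ζ ^ i * y := by rw [hi]; field_simp
  have h3 := kummer_unique hζ hy h2
  rw [h2, h3]
  congr 1
  rw [zeta_pow_eq_iff hζ]; simp

include hζ in
lemma kummer_eq_zero_iff {y : Ω} (hy : y ≠ 0) {g : G} (hfix : g • y ^ p = y ^ p) :
    kummer p ζ y g = 0 ↔ g • y = y := by
  constructor
  · intro h
    rw [kummer_spec hζ hy hfix, h]; simp
  · intro h
    have : g • y = ζ ^ 0 * y := by simpa using h
    simpa using kummer_unique hζ hy this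

include hζ in
lemma kummer_map_mul {y : Ω} (hy : y ≠ 0) {g h : G} (hg : g • ζ = ζ) (hfg : g • y ^ p = y ^ p)
    (hfh : h • y ^ p = y ^ p) : kummer p ζ y (g * h) = kummer p ζ y g + kummer p ζ y h := by
  have : (g * h) • y = ζ ^ ((kummer p ζ y g).val + (kummer p ζ y h).val) * y := by
    rw [mul_smul, kummer_spec hζ hy hfh, smul_mul', smul_pow', hg]
    conv_lhs => rw [kummer_spec hζ hy hfg]
    ring
  rw [kummer_unique hζ hy this]; simp

include hζ in
lemma kummer_mul {y y' : Ω} (hy : y ≠ 0) (hy' : y' ≠ 0) {g : G} (hf : g • y ^ p = y ^ p)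
    (hf' : g • y' ^ p = y' ^ p) :
    kummer p ζ (y * y') g = kummer p ζ y g + kummer p ζ y' g := by
  have : g • (y * y') = ζ ^ ((kummer p ζ y g).val + (kummer p ζ y' g).val) * (y * y') := by
    rw [smul_mul']
    conv_lhs => rw [kummer_spec hζ hy hf, kummer_spec hζ hy' hf']
    ring
  rw [kummer_unique hζ (mul_ne_zero hy hy') this]; simp

include hζ in
lemma kummer_of_fixed {y : Ω} (hy : y ≠ 0) {g : G} (hf : g • y = y) : kummer p ζ y g = 0 := by
  have : g • y = ζ ^ 0 * y := by simpa using hf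
  simpa using kummer_unique hζ hy this

include hζ in
lemma kummer_pow {y : Ω} (hy : y ≠ 0) {g : G} (hf : g • y ^ p = y ^ p) (n : ℕ) :
    kummer p ζ (y ^ n) g = n * kummer p ζ y g := by
  induction n with
  | zero => simp [kummer_of_fixed hζ one_ne_zero (smul_one g)]
  | succ n ih =>
    rw [pow_succ, kummer_mul hζ (pow_ne_zero _ hy) hy _ hf, ih]
    · push_cast; ring
    · rw [← pow_mul, mul_comm n p, pow_mul, smul_pow', hf]

include hζ in
lemma kummer_inv {y : Ω} (hy : y ≠ 0) {g : G} (hf : g • y ^ p = y ^ p) :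
    kummer p ζ y⁻¹ g = - kummer p ζ y g := by
  have h1 := kummer_mul hζ hy (inv_ne_zero hy) hf (g := g) (by rw [inv_pow, smul_inv'', hf])
  rw [mul_inv_cancel₀ hy, kummer_of_fixed hζ one_ne_zero (smul_one g)] at h1
  exact (neg_eq_of_add_eq_zero_right h1.symm).symm

/-- two roots of the same element have the same Kummer character -/
lemma kummer_eq_of_pow_eq {ζ : Ω} (hζ : IsPrimitiveRoot ζ p) {y y' : Ω} (hy : y ≠ 0)
    (h : y ^ p = y' ^ p) {g : G}
    (hg : g • ζ = ζ) (hf : g • y ^ p = y ^ p) : kummer p ζ y g = kummer p ζ y' g := by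
  have hy' : y' ≠ 0 := by
    rintro rfl
    rw [zero_pow (NeZero.ne p)] at h
    exact hy (pow_eq_zero_iff (NeZero.ne p) |>.1 h)
  have h1 : (y' / y) ^ p = 1 := by rw [div_pow, ← h, div_self (pow_ne_zero _ hy)]
  obtain ⟨i, -, hi⟩ := hζ.eq_pow_of_pow_eq_one h1
  have h2 : y' = ζ ^ i * y := by rw [hi]; field_simp
  have h3 : g • (ζ ^ i) = ζ ^ i := by rw [smul_pow', hg]
  rw [h2, kummer_mul hζ (pow_ne_zero _ (hζ.ne_zero (NeZero.ne p))) hy (by rw [smul_pow', h3]) hf,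
    kummer_of_fixed hζ (pow_ne_zero _ (hζ.ne_zero (NeZero.ne p))) h3, zero_add]

include hζ in
lemma kummer_LC (hG : IsGal 𝓛 Ω) {y : Ω} (hy : y ≠ 0) (hζG : ∀ g : G, g • ζ = ζ)
    (hf : ∀ g : G, g • y ^ p = y ^ p) : 𝓛.LC (kummer p ζ y : G → ZMod p) :=
  ⟨_, hG.smooth y, fun g s hs => by
    rw [kummer_map_mul hζ hy (hζG g) (hf g) (hf s),
      (kummer_eq_zero_iff hζ hy (hf s)).2 hs, add_zero]⟩

include hζ in
/-- Kummer theory: every locally constant homomorphism to `ZMod p` is a Kummer character. -/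
theorem exists_kummer_eq (hG : IsGal 𝓛 Ω) (hζG : ∀ g : G, g • ζ = ζ) {κ : G → ZMod p}
    (hκ : 𝓛.LC κ) (hκm : ∀ g h, κ (g * h) = κ g + κ h) :
    ∃ y : Ω, y ≠ 0 ∧ (∀ g : G, g • y ^ p = y ^ p) ∧ κ = kummer p ζ y := by
  have h1 : (fun g => muHom hζ (κ g)) ∈ Z1 𝓛 (uRep G Ω) := by
    refine ⟨hκ.comp _, fun g h => ?_⟩
    beta_reduce
    rw [hκm, map_add, uRep_muHom hζ (hζG g), add_comm]
  obtain ⟨v, hv⟩ := mem_B1.1 (hilbert90 hG h1)
  have h2 : ∀ g : G, g • ((v.toMul : Ωˣ) : Ω) = ζ ^ (κ g).val * ((v.toMul : Ωˣ) : Ω) := by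
    intro g
    have h3 : uRep G Ω g v = muHom hζ (κ g) + v := by rw [hv g]; abel
    have := congrArg (fun w : Additive Ωˣ => ((w.toMul : Ωˣ) : Ω)) h3
    simpa using this
  refine ⟨((v.toMul : Ωˣ) : Ω), (v.toMul : Ωˣ).ne_zero, fun g => ?_, ?_⟩
  · rw [smul_pow', h2, mul_pow, ← pow_mul, mul_comm _ p, pow_mul, hζ.pow_eq_one, one_pow,
      one_mul]
  · ext g
    exact (kummer_unique' hζ (v.toMul : Ωˣ).ne_zero (h2 g)).symm

end Kummer

end Fermat.Agent.CFT
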