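import Fermat.Agent.CFT.SLevFin

/-!
# Dimension of the kernel of `H²(G_{L,S}, ℤ/p) → H²(G_L, ℤ/p)` and of `H¹(G_{L,S}, ℤ/p)`
-/

set_option autoImplicit false

open scoped Pointwise NumberField nonZeroDivisors
open IsDedekindDomain Module

namespace Fermat.Agent.CFT

open Fermat.Agent.Frob

local notation "Qb" => AlgebraicClosure ℚ
local notation "Γ" => (AlgebraicClosure ℚ ≃ₐ[ℚ] AlgebraicClosure ℚ)

section LinAlg

variable {k X W H P : Type*} [Field k] [AddCommGroup X] [Module k X] [AddCommGroup W] [Module k W]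
  [AddCommGroup H] [Module k H] [AddCommGroup P] [Module k P] [FiniteDimensional k P]

theorem finrank_range_aux (n : X →ₗ[k] W) (δ : X →ₗ[k] H) (R : Submodule k W)
    (hker : ∀ x, δ x = 0 ↔ n x ∈ R) (θ : P →ₗ[k] W)
    (h1 : ∀ x, ∃ y, n x - θ y ∈ R) (h2 : ∀ y, ∃ x, n x - θ y ∈ R) :
    FiniteDimensional k (LinearMap.range δ) ∧
      finrank k (LinearMap.range δ) + finrank k (R.comap θ) = finrank k P := by
  have hk : LinearMap.ker δ = LinearMap.ker (R.mkQ ∘ₗ n) := by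
    ext x
    rw [LinearMap.mem_ker, hker, LinearMap.mem_ker, LinearMap.comp_apply, Submodule.mkQ_apply,
      Submodule.Quotient.mk_eq_zero]
  have hr : LinearMap.range (R.mkQ ∘ₗ n) = LinearMap.range (R.mkQ ∘ₗ θ) := by
    ext z
    constructor
    · rintro ⟨x, rfl⟩
      obtain ⟨y, hy⟩ := h1 x
      refine ⟨y, ?_⟩
      simp only [LinearMap.comp_apply, Submodule.mkQ_apply]
      exact ((Submodule.Quotient.eq R).2 hy).symm
    · rintro ⟨y, rfl⟩
      obtain ⟨x, hx⟩ := h2 y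
      refine ⟨x, ?_⟩
      simp only [LinearMap.comp_apply, Submodule.mkQ_apply]
      exact (Submodule.Quotient.eq R).2 hx
  let e : LinearMap.range δ ≃ₗ[k] LinearMap.range (R.mkQ ∘ₗ θ) :=
    (δ.quotKerEquivRange.symm.trans (Submodule.quotEquivOfEq _ _ hk)).trans
      ((R.mkQ ∘ₗ n).quotKerEquivRange.trans (LinearEquiv.ofEq _ _ hr))
  have hker2 : LinearMap.ker (R.mkQ ∘ₗ θ) = R.comap θ := by
    rw [LinearMap.ker_comp, Submodule.ker_mkQ]
  refine ⟨e.symm.finiteDimensional, ?_⟩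
  rw [e.finrank_eq, ← hker2]
  exact LinearMap.finrank_range_add_finrank_ker _

end LinAlg

section Res

variable {p : ℕ} {S : Finset Nat.Primes} {U : Subgroup Γ}

lemma cont_sLevels_galLevels : Levels.Cont ((galLevels ℚ Qb).restrict U)
    ((sLevels S).restrict U) (MonoidHom.id U) := by
  rintro J ⟨H, hH, hJ⟩
  exact ⟨H, sLevels_le_galLevels hH, by simpa using hJ⟩

lemma compat_id : Compat (triv p U) (triv p U) (MonoidHom.id U)
    (LinearMap.id : ZMod p →ₗ[ZMod p] ZMod p) := fun _ _ => rfl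

variable (p S U) in
/-- the map from `S`-level cohomology to full cohomology -/
noncomputable def infl2 : H2 ((sLevels S).restrict U) (triv p U) →ₗ[ZMod p]
    H2 ((galLevels ℚ Qb).restrict U) (triv p U) :=
  H2.map _ _ _ _ (MonoidHom.id U) LinearMap.id cont_sLevels_galLevels compat_id

lemma infl2_mk (x : Z2 ((sLevels S).restrict U) (triv p U)) :
    infl2 p S U (H2.mk ((sLevels S).restrict U) (triv p U) x) =
      H2.mk ((galLevels ℚ Qb).restrict U) (triv p U) ⟨x, ⟨LC₂_of_sLC x.2.1, x.2.2⟩⟩ := rfl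

variable (p S U) in
/-- coboundary map on `XX` -/
noncomputable def deltaX : XX p S U →ₗ[ZMod p] H2 ((sLevels S).restrict U) (triv p U) where
  toFun f := H2.mk ((sLevels S).restrict U) (triv p U) ⟨d1 (triv p U) f, ⟨f.2.2, fun g h j => by
    exact d1_cocycle (ρ := triv p U) (f : U → ZMod p) g h j⟩⟩
  map_add' f g := by
    rw [← map_add]; congr 1
    apply Subtype.ext
    simp
  map_smul' c f := by
    rw [RingHom.id_apply, ← map_smul]; congr 1
    apply Subtype.ext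
    simp

lemma deltaX_apply (f : XX p S U) : deltaX p S U f =
    H2.mk ((sLevels S).restrict U) (triv p U) ⟨d1 (triv p U) f, ⟨f.2.2,
    fun g h j => d1_cocycle (ρ := triv p U) (f : U → ZMod p) g h j⟩⟩ := rfl

lemma range_deltaX : LinearMap.range (deltaX p S U) = LinearMap.ker (infl2 p S U) := by
  ext z
  constructor
  · rintro ⟨f, rfl⟩
    rw [LinearMap.mem_ker, deltaX_apply, infl2_mk, H2.mk_eq_zero]
    exact mem_B2.2 ⟨f, f.2.1, rfl⟩
  · intro hz
    obtain ⟨z, rfl⟩ := H2.mk_surjective ((sLevels S).restrict U) (triv p U) z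
    rw [LinearMap.mem_ker, infl2_mk, H2.mk_eq_zero] at hz
    obtain ⟨c, hc, hcz⟩ := mem_B2.1 hz
    have hcX : c ∈ XX p S U := ⟨hc, by rw [hcz]; exact z.2.1⟩
    refine ⟨⟨c, hcX⟩, ?_⟩
    rw [deltaX_apply]
    congr 1
    exact Subtype.ext hcz

lemma deltaX_eq_zero_iff (f : XX p S U) : deltaX p S U f = 0 ↔
    ∃ c, ((sLevels S).restrict U).LC c ∧
      (f : U → ZMod p) - c ∈ Z1 ((galLevels ℚ Qb).restrict U) (triv p U) := by
  rw [deltaX_apply, H2.mk_eq_zero, mem_B2]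
  constructor
  · rintro ⟨c, hc, h⟩
    refine ⟨c, hc, mem_Z1_of_d1_eq_zero (f.2.1.sub (LC_of_sLC hc)) ?_⟩
    have h' : d1 (triv p U) c = d1 (triv p U) (f : U → ZMod p) := h
    rw [map_sub, h', sub_self]
  · rintro ⟨c, hc, h⟩
    refine ⟨c, hc, ?_⟩
    have h1 := d1_eq_zero_of_mem_Z1 h
    rw [map_sub, sub_eq_zero] at h1
    exact h1.symm

end Res

section Kum

variable {p : ℕ} [Fact p.Prime] {L : IntermediateField ℚ Qb} [FiniteDimensional ℚ L]

variable (p) in
/-- a chosen `p`-th root -/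
noncomputable def rt (x : Lˣ) : Qb :=
  (IsAlgClosed.exists_pow_nat_eq ((x : L) : Qb) (Fact.out : p.Prime).pos).choose

omit [FiniteDimensional ℚ L] in
lemma rt_pow (x : Lˣ) : rt p x ^ p = ((x : L) : Qb) :=
  (IsAlgClosed.exists_pow_nat_eq ((x : L) : Qb) (Fact.out : p.Prime).pos).choose_spec

omit [FiniteDimensional ℚ L] in
lemma ne_zero_of_pow_eq {x : Lˣ} {y : Qb} (hy : y ^ p = ((x : L) : Qb)) : y ≠ 0 := by
  have hp0 : p ≠ 0 := (Fact.out : p.Prime).ne_zero
  rintro rfl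
  rw [zero_pow hp0] at hy
  exact (by simp : ((x : L) : Qb) ≠ 0) hy.symm

variable {ζ : Qb} (hζ : IsPrimitiveRoot ζ p) (hζL : ζ ∈ L)

/-- the Kummer map -/
noncomputable def kumZ : Additive Lˣ →+
    Z1 ((galLevels ℚ Qb).restrict L.fixingSubgroup) (triv p L.fixingSubgroup) where
  toFun x := ⟨kummer p ζ (rt p x.toMul), kummer_mem_Z1 hζ hζL (rt_pow x.toMul)⟩
  map_zero' := by
    have : NeZero p := ⟨(Fact.out : p.Prime).ne_zero⟩
    apply Subtype.ext
    ext g
    have h1 : rt p (Additive.toMul (0 : Additive Lˣ)) ^ p = (1 : Qb) ^ p := by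
      rw [rt_pow]; simp
    change kummer p ζ (rt p (Additive.toMul (0 : Additive Lˣ))) g = 0
    rw [kummer_eq_of_pow_eq hζ (ne_zero_of_pow_eq (rt_pow _)) h1 (smul_coe_eq ⟨ζ, hζL⟩ g)
      (smul_pow_root (rt_pow _) g), kummer_of_fixed hζ one_ne_zero (smul_one g)]
  map_add' x y := by
    have : NeZero p := ⟨(Fact.out : p.Prime).ne_zero⟩
    apply Subtype.ext
    ext g
    have h1 : rt p (Additive.toMul (x + y)) ^ p =
        (rt p (Additive.toMul x) * rt p (Additive.toMul y)) ^ p := by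
      rw [mul_pow, rt_pow, rt_pow, rt_pow]; simp
    change kummer p ζ (rt p (Additive.toMul (x + y))) g =
      kummer p ζ (rt p (Additive.toMul x)) g + kummer p ζ (rt p (Additive.toMul y)) g
    rw [kummer_eq_of_pow_eq hζ (ne_zero_of_pow_eq (rt_pow _)) h1 (smul_coe_eq ⟨ζ, hζL⟩ g)
      (smul_pow_root (rt_pow _) g), kummer_mul hζ (ne_zero_of_pow_eq (rt_pow _))
      (ne_zero_of_pow_eq (rt_pow _)) (smul_pow_root (rt_pow _) g) (smul_pow_root (rt_pow _) g)]

/-- the Kummer map `Lˣ/p → Z¹` -/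
noncomputable def kumL : KP p L →ₗ[ZMod p]
    Z1 ((galLevels ℚ Qb).restrict L.fixingSubgroup) (triv p L.fixingSubgroup) :=
  kpLift (kumZ hζ hζL)

@[simp] lemma coe_kumL_kp (x : Additive Lˣ) :
    ((kumL hζ hζL (kp p L x) : Z1 _ _) : L.fixingSubgroup → ZMod p) =
      kummer p ζ (rt p x.toMul) := rfl

omit [FiniteDimensional ℚ L] in
/-- elements fixed by `Gal(ℚ̄/L)` are in `L` -/
lemma mem_of_fixed {y : Qb} (h : ∀ g : L.fixingSubgroup, g • y = y) : y ∈ L := by
  have h1 : y ∈ IntermediateField.fixedField L.fixingSubgroup := by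
    rw [IntermediateField.mem_fixedField_iff]
    intro g hg
    exact h ⟨g, hg⟩
  rwa [InfiniteGalois.fixedField_fixingSubgroup] at h1

lemma kumL_injective : Function.Injective (kumL hζ hζL) := by
  have : NeZero p := ⟨(Fact.out : p.Prime).ne_zero⟩
  rw [injective_iff_map_eq_zero]
  intro x hx
  obtain ⟨x, rfl⟩ := kp_surjective p L x
  have h1 : ∀ g : L.fixingSubgroup, g • rt p x.toMul = rt p x.toMul := by
    intro g
    have h2 := congrArg (fun f : Z1 ((galLevels ℚ Qb).restrict L.fixingSubgroup)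
      (triv p L.fixingSubgroup) => (f : L.fixingSubgroup → ZMod p) g) hx
    exact (kummer_eq_zero_iff hζ (ne_zero_of_pow_eq (rt_pow _)) (smul_pow_root (rt_pow _) g)).1 h2
  have h3 : rt p x.toMul ∈ L := mem_of_fixed h1
  rw [kp_eq_zero_iff]
  refine ⟨Additive.ofMul (Units.mk0 ⟨rt p x.toMul, h3⟩ fun h0 => ?_), ?_⟩
  · exact ne_zero_of_pow_eq (rt_pow (p := p) x.toMul) (congrArg Subtype.val h0)
  · apply Additive.toMul.injective
    apply Units.ext
    apply Subtype.ext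
    exact rt_pow x.toMul

lemma kumL_surjective : Function.Surjective (kumL hζ hζL) := by
  have : NeZero p := ⟨(Fact.out : p.Prime).ne_zero⟩
  rintro ⟨f, hf⟩
  have hG := (isGal_galLevels (k := ℚ) (Ω := Qb)).restrict L.fixingSubgroup
  have hζG : ∀ g : L.fixingSubgroup, g • ζ = ζ := fun g => smul_coe_eq ⟨ζ, hζL⟩ g
  obtain ⟨y, hy0, hyfix, hy⟩ := exists_kummer_eq hζ hG hζG hf.1 (fun g h => by
    rw [hf.2 g h, Representation.trivial_apply, add_comm])
  have h1 : y ^ p ∈ L := mem_of_fixed hyfix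
  have h2 : (⟨y ^ p, h1⟩ : L) ≠ 0 := fun h0 => pow_ne_zero p hy0 (congrArg Subtype.val h0)
  refine ⟨kp p L (Additive.ofMul (Units.mk0 _ h2)), ?_⟩
  apply Subtype.ext
  rw [coe_kumL_kp]
  change _ = f
  rw [hy]
  ext g
  have h3 := rt_pow (p := p) (Units.mk0 _ h2)
  exact kummer_eq_of_pow_eq hζ (ne_zero_of_pow_eq h3) h3 (hζG g) (smul_pow_root h3 g)

/-- `Lˣ/p ≃ H¹(G_L, ℤ/p)` -/
noncomputable def kumEquiv : KP p L ≃ₗ[ZMod p]
    Z1 ((galLevels ℚ Qb).restrict L.fixingSubgroup) (triv p L.fixingSubgroup) :=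
  LinearEquiv.ofBijective (kumL hζ hζL) ⟨kumL_injective hζ hζL, kumL_surjective hζ hζL⟩

end Kum

section Main

variable {p : ℕ} [Fact p.Prime] {S : Finset Nat.Primes}
variable {L : IntermediateField ℚ Qb} [FiniteDimensional ℚ L] {ζ : Qb}

variable (p S L) in
/-- valuations mod `p` at the places outside `S` -/
noncomputable def ordMap : KP p L →ₗ[ZMod p] ({v // v ∉ SL S L} → ZMod p) :=
  LinearMap.pi fun v => ordp v.1

@[simp] lemma ordMap_apply (x : KP p L) (v : {v // v ∉ SL S L}) : ordMap p S L x v = ordp v.1 x :=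
  rfl

lemma nv_kumL (hζ : IsPrimitiveRoot ζ p) (hζL : ζ ∈ L) (hL : L.fixingSubgroup ∈ sLevels S)
    (hpS : ExtCitation.pPrime p ∈ S)
    (T : ∀ v : {v // v ∉ SL S L}, TameAt p S L ζ v.1) (x : KP p L) :
    nv T ((kumL hζ hζL x : Z1 ((galLevels ℚ Qb).restrict L.fixingSubgroup)
      (triv p L.fixingSubgroup)) : L.fixingSubgroup → ZMod p) = ordMap p S L x := by
  obtain ⟨x, rfl⟩ := kp_surjective p L x
  ext v
  rw [coe_kumL_kp, nv_kummer hζ hpS (unifHyp hL) T (rt_pow x.toMul) v, ordMap_apply, ordp_kp]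
  rfl

lemma exists_tame' (hζ : IsPrimitiveRoot ζ p) (hζL : ζ ∈ L)
    (hL : L.fixingSubgroup ∈ sLevels S) :
    Nonempty (∀ v : {v // v ∉ SL S L}, TameAt p S L ζ v.1) := by
  refine ⟨fun v => ?_⟩
  exact Classical.choice (by
    obtain ⟨q, A, Q, τ, h1, h2, h3, h4, h5, h6⟩ :=
      exists_tame hζ hL hζL (fun q _ A hA => inertUnif q.2 hA) v.1 v.2
    exact ⟨⟨q, A, Q, τ, h1, h2, h3, h4, h5, h6⟩⟩)

lemma ordMap_eq_zero_iff (x : KP p L) : ordMap p S L x = 0 ↔ x ∈ VT (SL S L) := by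
  rw [mem_VT]
  constructor
  · intro h v hv
    exact congrFun h ⟨v, hv⟩
  · intro h
    ext v
    exact h v.1 v.2

/-- extension by zero from `T₀ ∖ S_L` -/
noncomputable def extZ (S : Finset Nat.Primes) (T0 : Set (HeightOneSpectrum (𝓞 L))) :
    ({v // v ∈ T0 ∧ v ∉ SL S L} → ZMod p) →ₗ[ZMod p] ({v // v ∉ SL S L} → ZMod p) := by
  classical
  exact
    { toFun := fun g v => if h : v.1 ∈ T0 then g ⟨v.1, h, v.2⟩ else 0
      map_add' := fun a b => by
        ext v
        by_cases h : v.1 ∈ T0 <;> simp [h]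
      map_smul' := fun c a => by
        ext v
        by_cases h : v.1 ∈ T0 <;> simp [h] }

omit [FiniteDimensional ℚ L] in
lemma extZ_apply_of_mem {T0 : Set (HeightOneSpectrum (𝓞 L))}
    (g : {v // v ∈ T0 ∧ v ∉ SL S L} → ZMod p) (v : {v // v ∉ SL S L}) (h : v.1 ∈ T0) :
    extZ S T0 g v = g ⟨v.1, h, v.2⟩ := by
  simp [extZ, h]

omit [FiniteDimensional ℚ L] in
lemma extZ_apply_of_notMem {T0 : Set (HeightOneSpectrum (𝓞 L))}
    (g : {v // v ∈ T0 ∧ v ∉ SL S L} → ZMod p) (v : {v // v ∉ SL S L}) (h : v.1 ∉ T0) :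
    extZ S T0 g v = 0 := by
  simp [extZ, h]

/-- the valuation map on `V_{T₀}` -/
noncomputable def psiT (S : Finset Nat.Primes) (T0 : Set (HeightOneSpectrum (𝓞 L))) :
    (VT T0 : Submodule (ZMod p) (KP p L)) →ₗ[ZMod p] ({v // v ∈ T0 ∧ v ∉ SL S L} → ZMod p) :=
  LinearMap.pi fun v => (ordp v.1).comp (VT T0).subtype

@[simp] lemma psiT_apply {T0 : Set (HeightOneSpectrum (𝓞 L))}
    (x : (VT T0 : Submodule (ZMod p) (KP p L))) (v : {v // v ∈ T0 ∧ v ∉ SL S L}) :
    psiT S T0 x v = ordp v.1 (x : KP p L) := rfl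

/-- the kernel of `psiT` is `V_S` -/
noncomputable def kerPsiEquiv {T0 : Set (HeightOneSpectrum (𝓞 L))} (hST : SL S L ⊆ T0) :
    LinearMap.ker (psiT (p := p) S T0) ≃ₗ[ZMod p] (VT (SL S L) : Submodule (ZMod p) (KP p L)) where
  toFun x := ⟨((x : (VT T0 : Submodule (ZMod p) (KP p L))) : KP p L), by
    rw [mem_VT]
    intro v hv
    by_cases h : v ∈ T0
    · exact congrFun (LinearMap.mem_ker.1 x.2) ⟨v, h, hv⟩
    · exact x.1.2 v h⟩
  map_add' _ _ := rfl
  map_smul' _ _ := rfl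
  invFun x := ⟨⟨x, VT_mono hST x.2⟩, by
    rw [LinearMap.mem_ker]
    ext v
    exact x.2 v.1 v.2.2⟩
  left_inv _ := rfl
  right_inv _ := rfl

lemma comap_extZ_range {T0 : Set (HeightOneSpectrum (𝓞 L))} (hST : SL S L ⊆ T0) :
    (LinearMap.range (ordMap p S L)).comap (extZ S T0) = LinearMap.range (psiT S T0) := by
  ext g
  rw [Submodule.mem_comap, LinearMap.mem_range, LinearMap.mem_range]
  constructor
  · rintro ⟨x, hx⟩
    have hxT : x ∈ (VT T0 : Submodule (ZMod p) (KP p L)) := by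
      intro v hv
      have h1 := congrFun hx ⟨v, fun h => hv (hST h)⟩
      rw [extZ_apply_of_notMem _ _ hv] at h1
      exact h1
    refine ⟨⟨x, hxT⟩, ?_⟩
    ext v
    have h1 := congrFun hx ⟨v.1, v.2.2⟩
    rw [extZ_apply_of_mem _ _ v.2.1] at h1
    exact h1
  · rintro ⟨x, hx⟩
    refine ⟨x, ?_⟩
    ext v
    by_cases h : v.1 ∈ T0
    · rw [extZ_apply_of_mem _ _ h, ← hx]; rfl
    · rw [extZ_apply_of_notMem _ _ h]
      exact x.2 v.1 h

set_option maxHeartbeats 1000000 in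
-- long proof
theorem finrank_ker_infl2 (hζ : IsPrimitiveRoot ζ p) (hζL : ζ ∈ L)
    (hL : L.fixingSubgroup ∈ sLevels S) (hpS : ExtCitation.pPrime p ∈ S)
    {T0 : Set (HeightOneSpectrum (𝓞 L))} (hT0 : T0.Finite) (hST : SL S L ⊆ T0)
    (hcl : ClTriv T0) :
    FiniteDimensional (ZMod p) (LinearMap.ker (infl2 p S L.fixingSubgroup)) ∧
    FiniteDimensional (ZMod p) (VT (SL S L) : Submodule (ZMod p) (KP p L)) ∧
    finrank (ZMod p) (LinearMap.ker (infl2 p S L.fixingSubgroup)) +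
      ((SL S L).ncard + Fintype.card (NumberField.InfinitePlace L)) =
      finrank (ZMod p) (VT (SL S L) : Submodule (ZMod p) (KP p L)) := by
  classical
  obtain ⟨T⟩ := exists_tame' (S := S) hζ hζL hL
  have hunif : ∀ q : Nat.Primes, q ∉ S → ∀ A : ValuationSubring Qb, A.LiesOverPrime (q : ℕ) →
      InertUnif A q := fun q _ A hA => inertUnif q.2 hA
  have hUnif := unifHyp (S := S) hL
  have hfinT : Finite {v // v ∈ T0 ∧ v ∉ SL S L} :=
    (hT0.subset (fun v (hv : v ∈ T0 ∧ v ∉ SL S L) => hv.1)).to_subtype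
  have := Fintype.ofFinite {v // v ∈ T0 ∧ v ∉ SL S L}
  obtain ⟨⟨ζL, hζL'⟩⟩ : Nonempty {z : L // IsPrimitiveRoot z p} :=
    ⟨⟨⟨ζ, hζL⟩, hζ.of_map_of_injective (f := algebraMap L Qb)
      (FaithfulSMul.algebraMap_injective L Qb)⟩⟩
  obtain ⟨hVfin, hVdim⟩ := finrank_VT (p := p) hcl hT0 hζL'
  let n : XX p S L.fixingSubgroup →ₗ[ZMod p] ({v // v ∉ SL S L} → ZMod p) :=
    (nv T).comp (XX p S L.fixingSubgroup).subtype
  have hZ1 : ∀ f ∈ Z1 ((galLevels ℚ Qb).restrict L.fixingSubgroup) (triv p L.fixingSubgroup),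
      nv T f ∈ LinearMap.range (ordMap p S L) := by
    intro f hf
    obtain ⟨x, hx⟩ := kumL_surjective hζ hζL ⟨f, hf⟩
    refine ⟨x, ?_⟩
    rw [← nv_kumL hζ hζL hL hpS T, hx]
  have hker : ∀ f : XX p S L.fixingSubgroup, deltaX p S L.fixingSubgroup f = 0 ↔
      n f ∈ LinearMap.range (ordMap p S L) := by
    intro f
    rw [deltaX_eq_zero_iff]
    constructor
    · rintro ⟨c, hc, hfc⟩
      have h1 := hZ1 _ hfc
      rw [map_sub, nv_eq_zero_of_sLC hL T hc, sub_zero] at h1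
      exact h1
    · rintro ⟨x, hx⟩
      rw [← nv_kumL hζ hζL hL hpS T] at hx
      set κ := kumL hζ hζL x with hκ
      refine ⟨(f : L.fixingSubgroup → ZMod p) - κ, ?_, ?_⟩
      · refine sLC_of_nv_eq_zero hζ hL hpS hζL hunif T
          ((XX p S L.fixingSubgroup).sub_mem f.2 (Z1_le_XX κ.2)) ?_
        rw [map_sub, hx]
        exact sub_self _
      · rw [sub_sub_cancel]
        exact κ.2
  have h1 : ∀ f : XX p S L.fixingSubgroup, ∃ y : {v // v ∈ T0 ∧ v ∉ SL S L} → ZMod p,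
      n f - extZ S T0 y ∈ LinearMap.range (ordMap p S L) := by
    intro f
    have hfs := finite_support_nv T f.2.1
    -- an element with these valuations outside `T0`
    let e : HeightOneSpectrum (𝓞 L) → ℤ := fun v =>
      if h : v ∉ SL S L then (n f ⟨v, h⟩).val else 0
    have he : {v | e v ≠ 0}.Finite := by
      refine (hfs.image Subtype.val).subset fun v hv => ?_
      rw [Set.mem_ofPred_eq] at hv
      by_cases h : v ∉ SL S L
      · refine ⟨⟨v, h⟩, ?_, rfl⟩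
        intro h0
        apply hv
        simp only [e, dif_pos h]
        have h0' : n f ⟨v, h⟩ = 0 := h0
        rw [h0']; simp
      · exact absurd (by simp only [e, dif_neg h]) hv
    obtain ⟨x, hx⟩ := exists_ordH_eq hcl e he
    refine ⟨fun v => n f ⟨v.1, v.2.2⟩ - ordp v.1 (kp p L x), kp p L x, ?_⟩
    ext v
    rw [Pi.sub_apply]
    by_cases h : v.1 ∈ T0
    · rw [extZ_apply_of_mem _ _ h, ordMap_apply]
      ring
    · rw [extZ_apply_of_notMem _ _ h, ordMap_apply, ordp_kp, hx v.1 h, sub_zero]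
      simp only [e, dif_pos v.2]
      simp
  have h2 : ∀ y : {v // v ∈ T0 ∧ v ∉ SL S L} → ZMod p, ∃ f : XX p S L.fixingSubgroup,
      n f - extZ S T0 y ∈ LinearMap.range (ordMap p S L) := by
    intro y
    have hex : ∀ v : {v // v ∉ SL S L}, ∃ f ∈ XX p S L.fixingSubgroup, nv T f v = 1 ∧
        ∀ w ≠ v, nv T f w = 0 := by
      intro v
      obtain ⟨f, hf, hfv, hfw⟩ := exists_kummer_cochain hζ hL hpS hζL hUnif T v
      refine ⟨(nv T f v)⁻¹ • f, (XX p S L.fixingSubgroup).smul_mem _ hf, ?_, fun w hw => ?_⟩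
      · rw [map_smul, Pi.smul_apply, smul_eq_mul, inv_mul_cancel₀ hfv]
      · rw [map_smul, Pi.smul_apply, hfw w hw, smul_zero]
    choose F hF hF1 hF2 using hex
    refine ⟨∑ v : {v // v ∈ T0 ∧ v ∉ SL S L}, y v • ⟨F ⟨v.1, v.2.2⟩, hF _⟩, ?_⟩
    convert Submodule.zero_mem _
    rw [sub_eq_zero, map_sum]
    ext w
    rw [Finset.sum_apply]
    simp only [map_smul, Pi.smul_apply, smul_eq_mul]
    have hnF : ∀ v : {v // v ∈ T0 ∧ v ∉ SL S L}, n ⟨F ⟨v.1, v.2.2⟩, hF _⟩ w =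
        if v.1 = w.1 then 1 else 0 := by
      intro v
      change nv T (F ⟨v.1, v.2.2⟩) w = _
      split_ifs with h
      · have : w = ⟨v.1, v.2.2⟩ := Subtype.ext h.symm
        rw [this]; exact hF1 _
      · exact hF2 _ w (fun hw => h (by rw [hw]))
    rw [Finset.sum_congr rfl fun v _ => by rw [hnF v]]
    by_cases h : w.1 ∈ T0
    · rw [extZ_apply_of_mem _ _ h, Finset.sum_eq_single ⟨w.1, h, w.2⟩]
      · simp
      · intro v _ hv
        rw [if_neg (fun h' => hv (Subtype.ext h')), mul_zero]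
      · intro h'; exact absurd (Finset.mem_univ _) h'
    · rw [extZ_apply_of_notMem _ _ h]
      refine Finset.sum_eq_zero fun v _ => ?_
      rw [if_neg (fun h' : v.1 = w.1 => h (by rw [← h']; exact v.2.1)), mul_zero]
  obtain ⟨hfd, hdim⟩ := finrank_range_aux n (deltaX p S L.fixingSubgroup)
    (LinearMap.range (ordMap p S L)) hker (extZ S T0) h1 h2
  rw [range_deltaX] at hfd hdim
  rw [comap_extZ_range hST, Module.finrank_fintype_fun_eq_card] at hdim
  have h3 := LinearMap.finrank_range_add_finrank_ker (psiT (p := p) (L := L) S T0)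
  rw [hVdim, (kerPsiEquiv hST).finrank_eq] at h3
  have h4 : Fintype.card {v // v ∈ T0 ∧ v ∉ SL S L} + (SL S L).ncard = T0.ncard := by
    rw [← Nat.card_eq_fintype_card]
    have h5 : Nat.card {v // v ∈ T0 ∧ v ∉ SL S L} = (T0 \ SL S L).ncard := rfl
    rw [h5, Set.ncard_sdiff_add_ncard_of_subset hST hT0]
  have h6 : FiniteDimensional (ZMod p) (VT (SL S L) : Submodule (ZMod p) (KP p L)) :=
    Submodule.finiteDimensional_of_le (VT_mono hST)
  refine ⟨hfd, h6, ?_⟩
  omega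

end Main

end Fermat.Agent.CFT
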