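import Fermat.Agent.CFT.SLevKer
import Fermat.Agent.CFT.Loc.UnrGlob

/-!
# Uniformizers and finite ramification
-/

set_option autoImplicit false

open scoped Pointwise NumberField nonZeroDivisors
open IsDedekindDomain

namespace Fermat.Agent.CFT

open Fermat.Agent.Frob

local notation "Qb" => AlgebraicClosure ℚ
local notation "Γ" => (AlgebraicClosure ℚ ≃ₐ[ℚ] AlgebraicClosure ℚ)

lemma valuation_eq_one_of_mem {A : ValuationSubring Qb} {x : Qb} (hx : x ≠ 0) (h : x ∈ A)
    (h' : x⁻¹ ∈ A) : A.valuation x = 1 := by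
  have h1 := (A.valuation_le_one_iff _).2 h
  have h2 := (A.valuation_le_one_iff _).2 h'
  have h0 : A.valuation x ≠ 0 := by rwa [Ne, map_eq_zero]
  rw [map_inv₀] at h2
  refine le_antisymm h1 ?_
  rwa [inv_le_one₀ (lt_of_le_of_ne zero_le (Ne.symm h0))] at h2

theorem inertUnif {q : ℕ} (hq : q.Prime) {A : ValuationSubring Qb} (hA : A.LiesOverPrime q) :
    InertUnif A q := by
  intro y hy h
  obtain ⟨n, h1, h2⟩ := Loc.exists_zpow_of_inertia hq hA hy h
  have hq0 : (q : Qb) ≠ 0 := by exact_mod_cast hq.ne_zero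
  exact ⟨n, valuation_eq_one_of_mem (mul_ne_zero hy (zpow_ne_zero _ hq0)) h1 h2⟩

theorem unifHyp {S : Finset Nat.Primes} {L : IntermediateField ℚ Qb} [FiniteDimensional ℚ L]
    (hL : L.fixingSubgroup ∈ sLevels S) : UnifHyp S L := by
  intro q hq A hA v hv x
  obtain ⟨h1, h2⟩ := Loc.mul_zpow_neg_ordH_mem q.2 hA (inertia_le_of_mem_sLevels hL hq hA)
    hv.symm x
  have hq0 : ((q : ℕ) : Qb) ≠ 0 := by exact_mod_cast q.2.ne_zero
  have hx0 : ((x : L) : Qb) ≠ 0 := by simp
  exact valuation_eq_one_of_mem (mul_ne_zero hx0 (zpow_ne_zero _ hq0)) h1 h2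

section Ram

/-- finitely many primes are ramified: elementwise version -/
lemma exists_bound_elem {α : Qb} (hα : IsIntegral ℤ α) :
    ∃ N : ℕ, N ≠ 0 ∧ ∀ q : ℕ, q.Prime → ¬ q ∣ N → ∀ A : ValuationSubring Qb,
      A.LiesOverPrime q → ∀ τ ∈ A.inertiaSubgroupIn ℚ, τ α = α := by
  classical
  -- the finite set of conjugates
  have hfin : (MulAction.orbit Γ α).Finite := by
    have := Levels.finiteIndex ((isGal_galLevels (k := ℚ) (Ω := Qb)).smooth α)
    have e := MulAction.orbitEquivQuotientStabilizer Γ α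
    have : Finite (Γ ⧸ MulAction.stabilizer Γ α) := Subgroup.finite_quotient_of_finiteIndex
    have : Finite (MulAction.orbit Γ α) := Finite.of_equiv _ e.symm
    exact Set.toFinite _
  have hexists : ∀ β : Qb, β ∈ MulAction.orbit Γ α → β - α ≠ 0 → ∃ n : ℕ, n ≠ 0 ∧
      ∃ γ : Qb, IsIntegral ℤ γ ∧ (n : Qb) = (β - α) * γ := by
    rintro _ ⟨σ, rfl⟩ hne
    have hint : IsIntegral ℤ (σ • α - α) := (isIntegral_apply σ hα).sub hα
    let s : integralClosure ℤ Qb := ⟨σ • α - α, hint⟩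
    have hs0 : s ≠ 0 := fun h => hne (congrArg Subtype.val h)
    obtain ⟨r, hr0, t, ht⟩ := (Algebra.IsAlgebraic.isAlgebraic (R := ℤ) s).exists_nonzero_dvd
      (mem_nonZeroDivisors_of_ne_zero hs0)
    refine ⟨r.natAbs, Int.natAbs_ne_zero.2 hr0, ?_⟩
    have ht' : (r : Qb) = (σ • α - α) * (t : Qb) := by
      have := congrArg (Subtype.val) ht
      simpa [s] using this
    rcases Int.natAbs_eq r with h | h
    · refine ⟨t, t.2, ?_⟩
      rw [← ht']
      conv_rhs => rw [h]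
      simp
    · refine ⟨-t, t.2.neg, ?_⟩
      rw [mul_neg, ← ht']
      conv_rhs => rw [h]
      simp
  choose! n hn0 γ hγ hnγ using hexists
  refine ⟨∏ β ∈ hfin.toFinset, if β - α = 0 then 1 else n β, ?_, ?_⟩
  · rw [Finset.prod_ne_zero_iff]
    intro β hβ
    split_ifs with h
    · exact one_ne_zero
    · exact hn0 β (hfin.mem_toFinset.1 hβ) h
  · intro q hq hqN A hA τ hτ
    by_contra hne
    have hne' : τ α - α ≠ 0 := sub_ne_zero.2 hne
    have hmem : τ α ∈ MulAction.orbit Γ α := ⟨τ, rfl⟩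
    have hαA : α ∈ A := mem_of_isIntegral A hα
    have h1 : A.valuation (τ α - α) < 1 := valuation_lt_one_of_inertia hτ hαA
    have h2 := hnγ (τ α) hmem hne'
    have h3 : ¬ q ∣ n (τ α) := fun h => hqN (h.trans (by
      have := Finset.dvd_prod_of_mem (fun β => if β - α = 0 then 1 else n β)
        (hfin.mem_toFinset.2 hmem)
      simpa [hne'] using this))
    have h4 := valuation_natCast_eq_one hq hA h3
    rw [h2, map_mul] at h4
    have h5 : A.valuation (γ (τ α)) ≤ 1 :=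
      (A.valuation_le_one_iff _).2 (mem_of_isIntegral A (hγ (τ α) hmem hne'))
    exact absurd h4 (mul_lt_one_of_lt_of_le h1 h5).ne

/-- a number field is unramified outside finitely many primes -/
theorem exists_bound (F : IntermediateField ℚ Qb) [FiniteDimensional ℚ F] :
    ∃ N : ℕ, N ≠ 0 ∧ ∀ q : ℕ, q.Prime → ¬ q ∣ N → ∀ A : ValuationSubring Qb,
      A.LiesOverPrime q → A.inertiaSubgroupIn ℚ ≤ F.fixingSubgroup := by
  classical
  let b := Module.finBasis ℚ F
  have hint : ∀ i, ∃ m : ℤ, m ≠ 0 ∧ IsIntegral ℤ ((m : Qb) * (b i : Qb)) := by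
    intro i
    have halg : IsAlgebraic ℤ (b i : Qb) :=
      (IsFractionRing.isAlgebraic_iff ℤ ℚ Qb).2 (Algebra.IsAlgebraic.isAlgebraic _)
    obtain ⟨y, hy0, hy⟩ := halg.exists_integral_multiple
    exact ⟨y, hy0, by simpa [zsmul_eq_mul] using hy⟩
  choose m hm0 hm using hint
  choose N hN0 hN using fun i => exists_bound_elem (hm i)
  refine ⟨∏ i, N i, Finset.prod_ne_zero_iff.2 fun i _ => hN0 i, fun q hq hqN A hA τ hτ => ?_⟩
  rw [IntermediateField.mem_fixingSubgroup_iff]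
  have hb : ∀ i, τ (b i : Qb) = b i := by
    intro i
    have h1 : ¬ q ∣ N i := fun h => hqN (h.trans (Finset.dvd_prod_of_mem _ (Finset.mem_univ i)))
    have h2 := hN i q hq h1 A hA τ hτ
    rw [map_mul, map_intCast] at h2
    have h3 : ((m i : ℤ) : Qb) ≠ 0 := by exact_mod_cast hm0 i
    exact mul_left_cancel₀ h3 h2
  intro x hx
  have h1 : (⟨x, hx⟩ : F) = ∑ i, b.repr ⟨x, hx⟩ i • b i := (b.sum_repr _).symm
  have h2 : x = ∑ i, algebraMap ℚ Qb (b.repr ⟨x, hx⟩ i) * (b i : Qb) := by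
    have := congrArg (algebraMap F Qb) h1
    rw [map_sum] at this
    refine this.trans (Finset.sum_congr rfl fun i _ => ?_)
    rw [Algebra.smul_def, map_mul]
    rfl
  rw [h2, map_sum]
  refine Finset.sum_congr rfl fun i _ => ?_
  rw [map_mul, hb, τ.commutes]

variable {L : IntermediateField ℚ Qb} [FiniteDimensional ℚ L]

lemma finite_places_dvd {N : ℕ} (hN : N ≠ 0) :
    {v : HeightOneSpectrum (𝓞 L) | (N : 𝓞 L) ∈ v.asIdeal}.Finite := by
  have h0 : (Ideal.span {(N : 𝓞 L)}) ≠ 0 := by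
    rw [Ne, Ideal.zero_eq_bot, Ideal.span_singleton_eq_bot]
    exact_mod_cast hN
  refine (Ideal.finite_factors h0).subset fun v hv => ?_
  rw [Set.mem_ofPred_eq, Ideal.dvd_iff_le, Ideal.span_singleton_le_iff_mem]
  exact hv

variable {p : ℕ} [Fact p.Prime] {S : Finset Nat.Primes} {ζ : Qb}

/-- the exponents of a locally constant cochain have finite support -/
lemma finite_support_nv
    (T : ∀ v : {v // v ∉ SL S L}, TameAt p S L ζ v.1) {f : L.fixingSubgroup → ZMod p}
    (hf : ((galLevels ℚ Qb).restrict L.fixingSubgroup).LC f) :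
    {v | nv T f v ≠ 0}.Finite := by
  obtain ⟨J, ⟨H, hH, hHJ⟩, hJ⟩ := hf
  obtain ⟨F, hF, hFH⟩ := mem_galLevels.1 hH
  obtain ⟨N, hN0, hN⟩ := exists_bound F
  have h1 : {v : {v // v ∉ SL S L} | (N : 𝓞 L) ∈ v.1.asIdeal}.Finite :=
    (finite_places_dvd (L := L) hN0).preimage Subtype.val_injective.injOn
  refine h1.subset fun v hv => ?_
  by_contra hcon
  apply hv
  have hqN : ¬ ((T v).q : ℕ) ∣ N := by
    rintro ⟨c, hc⟩
    apply hcon
    rw [Set.mem_ofPred_eq, hc, Nat.cast_mul]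
    refine Ideal.mul_mem_right _ _ ?_
    rw [(T v).hv]
    exact natCast_mem_below (R := 𝓞 L) (T v).hA
  have h2 := hN _ (T v).q.2 hqN (T v).A (T v).hA (T v).hτ
  have h3 := hJ 1 (T v).τ (hHJ (hFH h2))
  rw [one_mul] at h3
  rw [nv_apply, h3, sub_self]

end Ram

end Fermat.Agent.CFT
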