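import Fermat.Agent.CFT.SLevTame
import Fermat.Agent.CFT.KummerV

/-!
# The kernel of `H²(G_{L,S}, ℤ/p) → H²(G_L, ℤ/p)`

`L` is a number field in `ℚ̄` unramified outside `S`, containing the `p`-th roots of unity,
`p ∈ S`.
-/

set_option autoImplicit false

open scoped Pointwise NumberField
open IsDedekindDomain

namespace Fermat.Agent.CFT

open Fermat.Agent.Frob

local notation "Qb" => AlgebraicClosure ℚ
local notation "Γ" => (AlgebraicClosure ℚ ≃ₐ[ℚ] AlgebraicClosure ℚ)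

section Basic

variable {p : ℕ} {S : Finset Nat.Primes} {U : Subgroup Γ}

/-- `S`-levels of `U`: open subgroups containing all inertia groups outside `S`. -/
lemma mem_restrict_sLevels_iff (hU : U ∈ sLevels S) {J : Subgroup U} :
    J ∈ (sLevels S).restrict U ↔ J ∈ (galLevels ℚ Qb).restrict U ∧
      ∀ q : Nat.Primes, q ∉ S → ∀ A : ValuationSubring Qb, A.LiesOverPrime (q : ℕ) →
        ∀ τ : U, (τ : Γ) ∈ A.inertiaSubgroupIn ℚ → τ ∈ J := by
  rw [Levels.mem_restrict_iff_map hU, Levels.mem_restrict_iff_map (sLevels_le_galLevels hU),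
    mem_sLevels_iff]
  refine and_congr_right fun _ => ?_
  constructor
  · intro h q hq A hA τ hτ
    obtain ⟨σ, hσ, hστ⟩ := h q hq A hA hτ
    have : σ = τ := Subtype.ext hστ
    exact this ▸ hσ
  · intro h q hq A hA τ hτ
    have hτU : τ ∈ U := inertia_le_of_mem_sLevels hU hq hA hτ
    exact ⟨⟨τ, hτU⟩, h q hq A hA ⟨τ, hτU⟩ hτ, rfl⟩

lemma LC_of_sLC {X : Type*} {f : U → X} (h : ((sLevels S).restrict U).LC f) :
    ((galLevels ℚ Qb).restrict U).LC f := by
  obtain ⟨J, ⟨H, hH, hHJ⟩, h⟩ := h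
  exact ⟨J, ⟨H, sLevels_le_galLevels hH, hHJ⟩, h⟩

lemma LC₂_of_sLC {X : Type*} {f : U → U → X} (h : ((sLevels S).restrict U).LC₂ f) :
    ((galLevels ℚ Qb).restrict U).LC₂ f := by
  obtain ⟨J, ⟨H, hH, hHJ⟩, h⟩ := h
  exact ⟨J, ⟨H, sLevels_le_galLevels hH, hHJ⟩, h⟩

/-- A criterion for being `S`-locally constant. -/
lemma sLC_of_inertia (hU : U ∈ sLevels S) {X : Type*} {f : U → X}
    (h : ((galLevels ℚ Qb).restrict U).LC f)
    (h' : ∀ q : Nat.Primes, q ∉ S → ∀ A : ValuationSubring Qb, A.LiesOverPrime (q : ℕ) →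
        ∀ τ : U, (τ : Γ) ∈ A.inertiaSubgroupIn ℚ → ∀ g, f (g * τ) = f g) :
    ((sLevels S).restrict U).LC f := by
  let J : Subgroup U :=
    { carrier := {s | ∀ g, f (g * s) = f g}
      mul_mem' := fun {a b} ha hb g => by rw [← mul_assoc, hb, ha]
      one_mem' := fun g => by rw [mul_one]
      inv_mem' := fun {a} ha g => by rw [← ha (g * a⁻¹), inv_mul_cancel_right] }
  refine ⟨J, (mem_restrict_sLevels_iff hU).2 ⟨?_, fun q hq A hA τ hτ g => h' q hq A hA τ hτ g⟩,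
    fun g s hs => hs g⟩
  obtain ⟨H, hH, h⟩ := h
  exact Levels.up_mem hH fun s hs g => h g s hs

variable (p S U) in
/-- cochains whose coboundary is `S`-locally constant -/
def XX : Submodule (ZMod p) (U → ZMod p) where
  carrier := {f | ((galLevels ℚ Qb).restrict U).LC f ∧
    ((sLevels S).restrict U).LC₂ (d1 (triv p U) f)}
  add_mem' := by
    rintro a b ⟨h1, h2⟩ ⟨h1', h2'⟩
    refine ⟨h1.add h1', ?_⟩
    rw [map_add]
    exact h2.comp₂ h2' (· + ·)
  zero_mem' := ⟨Levels.LC.const 0, by rw [map_zero]; exact Levels.LC₂.const 0⟩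
  smul_mem' := by
    rintro c a ⟨h1, h2⟩
    refine ⟨h1.comp (c • ·), ?_⟩
    rw [map_smul]
    exact h2.comp (c • ·)

lemma XX_mul_right {f : U → ZMod p} (hf : f ∈ XX p S U) {q : Nat.Primes} (hq : q ∉ S)
    {A : ValuationSubring Qb} (hA : A.LiesOverPrime (q : ℕ)) (hU : U ∈ sLevels S) {τ : U}
    (hτ : (τ : Γ) ∈ A.inertiaSubgroupIn ℚ) (g : U) : f (g * τ) = f g + (f τ - f 1) := by
  obtain ⟨-, J, hJ, h⟩ := hf
  have hτJ : τ ∈ J := ((mem_restrict_sLevels_iff hU).1 hJ).2 q hq A hA τ hτ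
  have h1 := h g 1 1 J.one_mem τ hτJ
  rw [mul_one, one_mul, d1_triv, d1_triv, mul_one] at h1
  linear_combination -h1

lemma XX_mul_left {f : U → ZMod p} (hf : f ∈ XX p S U) {q : Nat.Primes} (hq : q ∉ S)
    {A : ValuationSubring Qb} (hA : A.LiesOverPrime (q : ℕ)) (hU : U ∈ sLevels S) {τ : U}
    (hτ : (τ : Γ) ∈ A.inertiaSubgroupIn ℚ) (g : U) : f (τ * g) = f g + (f τ - f 1) := by
  obtain ⟨-, J, hJ, h⟩ := hf
  have hτJ : τ ∈ J := ((mem_restrict_sLevels_iff hU).1 hJ).2 q hq A hA τ hτ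
  have h1 := h 1 g τ hτJ 1 J.one_mem
  rw [mul_one, one_mul, d1_triv, d1_triv, one_mul] at h1
  linear_combination -h1

lemma XX_conj {f : U → ZMod p} (hf : f ∈ XX p S U) {q : Nat.Primes} (hq : q ∉ S)
    {A : ValuationSubring Qb} (hA : A.LiesOverPrime (q : ℕ)) (hU : U ∈ sLevels S) {τ : U}
    (hτ : (τ : Γ) ∈ A.inertiaSubgroupIn ℚ) (g : U) : f (g * τ * g⁻¹) = f τ := by
  have hA' : ((g : Γ) • A).LiesOverPrime (q : ℕ) := liesOverPrime_smul hA _
  have hτ' : ((g * τ * g⁻¹ : U) : Γ) ∈ ((g : Γ) • A).inertiaSubgroupIn ℚ := by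
    rw [mem_inertiaSubgroupIn_smul_iff]
    have : (g : Γ)⁻¹ * ((g * τ * g⁻¹ : U) : Γ) * g = τ := by
      simp only [Subgroup.coe_mul, Subgroup.coe_inv]; group
    rw [this]; exact hτ
  have h1 := XX_mul_left hf hq hA' hU hτ' g
  have h2 := XX_mul_right hf hq hA hU hτ g
  have e : g * τ * g⁻¹ * g = g * τ := by group
  rw [e, h2] at h1
  linear_combination -h1

end Basic

section Places

variable {p : ℕ} [Fact p.Prime] {S : Finset Nat.Primes}
variable (L : IntermediateField ℚ Qb) [FiniteDimensional ℚ L]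

instance instNumberFieldL : NumberField L where
  to_charZero := inferInstance
  to_finiteDimensional := inferInstance

variable (S) in
/-- the places of `L` above `S` -/
def SL : Set (HeightOneSpectrum (𝓞 L)) := {v | ∃ l ∈ S, (((l : Nat.Primes) : ℕ) : 𝓞 L) ∈ v.asIdeal}

variable {L}

lemma exists_prime_mem_asIdeal (v : HeightOneSpectrum (𝓞 L)) :
    ∃ q : Nat.Primes, ((q : ℕ) : 𝓞 L) ∈ v.asIdeal := by
  have : Finite (𝓞 L ⧸ v.asIdeal) := Ideal.finiteQuotientOfFreeOfNeBot _ v.ne_bot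
  obtain ⟨c, hc⟩ := CharP.exists (𝓞 L ⧸ v.asIdeal)
  have : IsDomain (𝓞 L ⧸ v.asIdeal) := Ideal.Quotient.isDomain _
  have hcp : c.Prime := by
    rcases CharP.char_is_prime_or_zero (𝓞 L ⧸ v.asIdeal) c with h | h
    · exact h
    · subst h
      have := CharP.charP_to_charZero (𝓞 L ⧸ v.asIdeal)
      exact absurd (inferInstance : Infinite (𝓞 L ⧸ v.asIdeal))
        (not_infinite_iff_finite.2 inferInstance)
  refine ⟨⟨c, hcp⟩, ?_⟩
  rw [← Ideal.Quotient.eq_zero_iff_mem, map_natCast]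
  exact CharP.cast_eq_zero _ c

/-- the place of `L` below `A` -/
noncomputable def plc (L : IntermediateField ℚ Qb) [FiniteDimensional ℚ L]
    {q : ℕ} (hq : q.Prime) {A : ValuationSubring Qb} (hA : A.LiesOverPrime q) :
    HeightOneSpectrum (𝓞 L) where
  asIdeal := below (𝓞 L) A
  isPrime := (below_isMaximal (𝓞 L) hq hA).isPrime
  ne_bot := by
    intro h
    have h1 := natCast_mem_below (R := 𝓞 L) hA
    rw [h, Ideal.mem_bot] at h1
    exact hq.ne_zero (by exact_mod_cast h1)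

@[simp] lemma plc_asIdeal {q : ℕ} (hq : q.Prime) {A : ValuationSubring Qb}
    (hA : A.LiesOverPrime q) : (plc L hq hA).asIdeal = below (𝓞 L) A := rfl

omit [FiniteDimensional ℚ L] in
lemma eq_of_mem_asIdeal {v : HeightOneSpectrum (𝓞 L)} {q q' : Nat.Primes}
    (h : ((q : ℕ) : 𝓞 L) ∈ v.asIdeal) (h' : ((q' : ℕ) : 𝓞 L) ∈ v.asIdeal) : q = q' := by
  by_contra hne
  have hcop : Nat.Coprime q q' := (Nat.coprime_primes q.2 q'.2).2 fun h => hne (Subtype.ext h)
  have h1 : (1 : 𝓞 L) ∈ v.asIdeal := by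
    have h2 := Nat.gcd_eq_gcd_ab (q : ℕ) q'
    rw [hcop.gcd_eq_one] at h2
    have h3 := congrArg (fun z : ℤ => (z : 𝓞 L)) h2
    push_cast at h3
    rw [h3]
    exact v.asIdeal.add_mem (v.asIdeal.mul_mem_right _ h) (v.asIdeal.mul_mem_right _ h')
  exact v.isPrime.ne_top ((Ideal.eq_top_iff_one _).2 h1)

lemma plc_notMem_SL {q : Nat.Primes} (hq : q ∉ S) {A : ValuationSubring Qb}
    (hA : A.LiesOverPrime (q : ℕ)) : plc L q.2 hA ∉ SL S L := by
  rintro ⟨l, hl, hlv⟩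
  have := eq_of_mem_asIdeal hlv (natCast_mem_below (R := 𝓞 L) hA)
  exact hq (this ▸ hl)

variable (S L) in
/-- unramifiedness of `L` outside `S`, in terms of valuations -/
def UnifHyp : Prop := ∀ q : Nat.Primes, q ∉ S → ∀ A : ValuationSubring Qb,
  A.LiesOverPrime (q : ℕ) → ∀ v : HeightOneSpectrum (𝓞 L), v.asIdeal = below (𝓞 L) A →
    ∀ x : Lˣ, A.valuation (((x : L) : Qb) * ((q : ℕ) : Qb) ^ (-(ordH L v (Additive.ofMul x)))) = 1

end Places

section Tame

variable {p : ℕ} [Fact p.Prime] {S : Finset Nat.Primes}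
variable {L : IntermediateField ℚ Qb} [FiniteDimensional ℚ L]
variable {ζ : Qb} (hζ : IsPrimitiveRoot ζ p)

lemma ne_of_notMem (hpS : ExtCitation.pPrime p ∈ S) {q : Nat.Primes} (hq : q ∉ S) :
    (q : ℕ) ≠ p := by
  intro h
  apply hq
  have : q = ExtCitation.pPrime p := Subtype.ext h
  rw [this]; exact hpS

omit [FiniteDimensional ℚ L] in
include hζ in
lemma kummer_root_mul (hζL : ζ ∈ L) {q : ℕ} {Q : Qb} (hq0 : q ≠ 0) (hQ : Q ^ p = q)
    (g h : L.fixingSubgroup) :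
    kummer p ζ Q (g * h) = kummer p ζ Q g + kummer p ζ Q h := by
  have : NeZero p := ⟨(Fact.out : p.Prime).ne_zero⟩
  have hQ0 : Q ≠ 0 := by
    rintro rfl
    rw [zero_pow (NeZero.ne p)] at hQ
    exact hq0 (by exact_mod_cast hQ.symm)
  have hfix : ∀ g : L.fixingSubgroup, g • Q ^ p = Q ^ p := fun g => by
    rw [hQ]; exact map_natCast (g : Γ) q
  exact kummer_map_mul hζ hQ0 ((IntermediateField.mem_fixingSubgroup_iff _ _).1 g.2 ζ hζL)
    (hfix g) (hfix h)

include hζ in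
/-- existence of a tame generator at a place outside `S` -/
lemma exists_tame (hL : L.fixingSubgroup ∈ sLevels S)
    (hζL : ζ ∈ L)
    (hunif : ∀ q : Nat.Primes, q ∉ S → ∀ A : ValuationSubring Qb, A.LiesOverPrime (q : ℕ) →
      InertUnif A q)
    (v : HeightOneSpectrum (𝓞 L)) (hv : v ∉ SL S L) :
    ∃ (q : Nat.Primes) (A : ValuationSubring Qb) (Q : Qb) (τ : L.fixingSubgroup), q ∉ S ∧
      A.LiesOverPrime (q : ℕ) ∧ v.asIdeal = below (𝓞 L) A ∧ Q ^ p = ((q : ℕ) : Qb) ∧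
      (τ : Γ) ∈ A.inertiaSubgroupIn ℚ ∧ kummer p ζ Q τ = 1 := by
  have hp0 : p ≠ 0 := (Fact.out : p.Prime).ne_zero
  have : NeZero p := ⟨hp0⟩
  obtain ⟨q, hq⟩ := exists_prime_mem_asIdeal v
  have hqS : q ∉ S := fun h => hv ⟨q, h, hq⟩
  have : v.asIdeal.IsMaximal := v.isMaximal
  obtain ⟨A, hA⟩ := exists_below_eq (L := Qb) v.asIdeal
  have hAq : A.LiesOverPrime (q : ℕ) := liesOverPrime_of_mem_below (R := 𝓞 L) (by rw [hA]; exact hq)
  obtain ⟨Q, hQ⟩ := IsAlgClosed.exists_pow_nat_eq (((q : ℕ) : Qb)) (Fact.out : p.Prime).pos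
  obtain ⟨τ₀, hτ₀, hne⟩ := exists_inertia_kummer_ne_zero hζ q.2 hAq (hunif q hqS A hAq) hQ
  have hτ₀U : τ₀ ∈ L.fixingSubgroup := inertia_le_of_mem_sLevels hL hqS hAq hτ₀
  set a := kummer p ζ Q τ₀ with ha
  have hpow : ∀ n : ℕ, kummer p ζ Q ((⟨τ₀, hτ₀U⟩ : L.fixingSubgroup) ^ n) = n * a := by
    intro n
    induction n with
    | zero =>
      rw [pow_zero]
      have := kummer_root_mul hζ hζL q.2.ne_zero hQ 1 1
      rw [one_mul] at this
      simpa using this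
    | succ n ih =>
      rw [pow_succ, kummer_root_mul hζ hζL q.2.ne_zero hQ, ih]
      push_cast
      rw [add_mul, one_mul]; rfl
  refine ⟨q, A, Q, (⟨τ₀, hτ₀U⟩ : L.fixingSubgroup) ^ (a⁻¹).val, hqS, hAq, hA.symm, hQ, ?_, ?_⟩
  · rw [Subgroup.coe_pow]
    exact Subgroup.pow_mem _ hτ₀ _
  · rw [hpow]
    simp [inv_mul_cancel₀ hne]

end Tame

section NV

variable {p : ℕ} [Fact p.Prime] {S : Finset Nat.Primes}
variable {L : IntermediateField ℚ Qb} [FiniteDimensional ℚ L] {ζ : Qb}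

variable (p S L ζ) in
/-- a tame generator at a place outside `S` -/
structure TameAt (v : HeightOneSpectrum (𝓞 L)) where
  q : Nat.Primes
  A : ValuationSubring Qb
  Q : Qb
  τ : L.fixingSubgroup
  hqS : q ∉ S
  hA : A.LiesOverPrime (q : ℕ)
  hv : v.asIdeal = below (𝓞 L) A
  hQ : Q ^ p = ((q : ℕ) : Qb)
  hτ : (τ : Γ) ∈ A.inertiaSubgroupIn ℚ
  hκ : kummer p ζ Q τ = 1

/-- the exponents of a cochain at the places outside `S` -/
noncomputable def nv (T : ∀ v : {v // v ∉ SL S L}, TameAt p S L ζ v.1) :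
    (L.fixingSubgroup → ZMod p) →ₗ[ZMod p] ({v // v ∉ SL S L} → ZMod p) where
  toFun f v := f (T v).τ - f 1
  map_add' f g := by ext v; simp only [Pi.add_apply]; ring
  map_smul' c f := by ext v; simp only [Pi.smul_apply, smul_eq_mul, RingHom.id_apply]; ring

omit [FiniteDimensional ℚ L] in
@[simp] lemma nv_apply (T : ∀ v : {v // v ∉ SL S L}, TameAt p S L ζ v.1)
    (f : L.fixingSubgroup → ZMod p) (v : {v // v ∉ SL S L}) :
    nv T f v = f (T v).τ - f 1 := rfl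

variable (hζ : IsPrimitiveRoot ζ p)

omit [FiniteDimensional ℚ L] in
include hζ in
/-- on the inertia group at the chosen place, `f - f 1` is `nv` times the Kummer character of `q` -/
lemma sub_eq_nv_mul (hL : L.fixingSubgroup ∈ sLevels S) (hpS : ExtCitation.pPrime p ∈ S)
    (hunif : ∀ q : Nat.Primes, q ∉ S → ∀ A : ValuationSubring Qb, A.LiesOverPrime (q : ℕ) →
      InertUnif A q)
    (T : ∀ v : {v // v ∉ SL S L}, TameAt p S L ζ v.1) {f : L.fixingSubgroup → ZMod p}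
    (hf : f ∈ XX p S L.fixingSubgroup) (v : {v // v ∉ SL S L}) {τ : L.fixingSubgroup}
    (hτ : (τ : Γ) ∈ (T v).A.inertiaSubgroupIn ℚ) :
    f τ - f 1 = nv T f v * kummer p ζ (T v).Q τ := by
  have hle : (T v).A.inertiaSubgroupIn ℚ ≤ L.fixingSubgroup :=
    inertia_le_of_mem_sLevels hL (T v).hqS (T v).hA
  have hχ : ((galLevels ℚ Qb).restrict ((T v).A.inertiaSubgroupIn ℚ)).LC
      (fun σ => f (Subgroup.inclusion hle σ) - f 1) := by
    obtain ⟨J, ⟨H, hH, hHJ⟩, hJ⟩ := hf.1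
    refine ⟨H.subgroupOf _, ⟨H, hH, le_rfl⟩, fun g s hs => ?_⟩
    beta_reduce
    rw [map_mul, hJ _ _ (hHJ hs)]
  obtain ⟨n, hn⟩ := exists_eq_mul_kummer_inertia hζ (T v).q.2 (T v).hA
    (ne_of_notMem hpS (T v).hqS) (hunif _ (T v).hqS _ (T v).hA) (T v).hQ hχ (fun g h => by
      have := XX_mul_right hf (T v).hqS (T v).hA hL (τ := Subgroup.inclusion hle h) h.2
        (Subgroup.inclusion hle g)
      rw [map_mul, this]; ring)
  have h1 := hn ⟨(T v).τ, (T v).hτ⟩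
  have h2 := hn ⟨τ, hτ⟩
  have h3 : kummer p ζ (T v).Q ((T v).τ : Γ) = 1 := (T v).hκ
  rw [h3, mul_one] at h1
  have h4 : nv T f v = n := h1
  rw [h4]
  exact h2

include hζ in
/-- general version: at any place above `v` -/
lemma sub_eq_nv_mul' (hL : L.fixingSubgroup ∈ sLevels S) (hpS : ExtCitation.pPrime p ∈ S)
    (hζL : ζ ∈ L)
    (hunif : ∀ q : Nat.Primes, q ∉ S → ∀ A : ValuationSubring Qb, A.LiesOverPrime (q : ℕ) →
      InertUnif A q)
    (T : ∀ v : {v // v ∉ SL S L}, TameAt p S L ζ v.1) {f : L.fixingSubgroup → ZMod p}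
    (hf : f ∈ XX p S L.fixingSubgroup) {q : Nat.Primes} (hq : q ∉ S)
    {A : ValuationSubring Qb} (hA : A.LiesOverPrime (q : ℕ)) {τ : L.fixingSubgroup}
    (hτ : (τ : Γ) ∈ A.inertiaSubgroupIn ℚ) {Q : Qb} (hQ : Q ^ p = ((q : ℕ) : Qb)) :
    f τ - f 1 = nv T f ⟨plc L q.2 hA, plc_notMem_SL hq hA⟩ * kummer p ζ Q τ := by
  have hp0 : p ≠ 0 := (Fact.out : p.Prime).ne_zero
  have : NeZero p := ⟨hp0⟩
  set v : {v // v ∉ SL S L} := ⟨plc L q.2 hA, plc_notMem_SL hq hA⟩ with hv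
  have hbelow : below (𝓞 L) A = below (𝓞 L) (T v).A := (T v).hv
  obtain ⟨σ₀, hσ₀⟩ := exists_smul_eq_of_below_eq (K := L) q.2 hA hbelow
  -- the element of `Γ`
  set σ : L.fixingSubgroup := IntermediateField.fixingSubgroupEquiv L |>.symm σ₀ with hσ
  have hσA : (T v).A = (σ : Γ) • A := by
    rw [hσ₀]
    ext x
    rw [ValuationSubring.mem_pointwise_smul_iff_inv_smul_mem,
      ValuationSubring.mem_pointwise_smul_iff_inv_smul_mem]
    rfl
  have hqq : (T v).q = q := by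
    refine eq_of_mem_asIdeal (v := v.1) ?_ ?_
    · rw [(T v).hv]; exact natCast_mem_below (R := 𝓞 L) (T v).hA
    · exact natCast_mem_below (R := 𝓞 L) hA
  have hτ' : ((σ * τ * σ⁻¹ : L.fixingSubgroup) : Γ) ∈ (T v).A.inertiaSubgroupIn ℚ := by
    rw [hσA, mem_inertiaSubgroupIn_smul_iff]
    have : (σ : Γ)⁻¹ * ((σ * τ * σ⁻¹ : L.fixingSubgroup) : Γ) * σ = τ := by
      simp only [Subgroup.coe_mul, Subgroup.coe_inv]; group
    rw [this]; exact hτ
  have h1 := sub_eq_nv_mul hζ hL hpS hunif T hf v hτ'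
  rw [XX_conj hf hq hA hL hτ σ] at h1
  rw [h1]
  congr 1
  have hQQ : (T v).Q ^ p = ((q : ℕ) : Qb) := by rw [(T v).hQ, hqq]
  have hmul := kummer_root_mul hζ hζL q.2.ne_zero hQQ
  have h2 : kummer p ζ (T v).Q (σ * τ * σ⁻¹) = kummer p ζ (T v).Q τ := by
    rw [hmul, hmul]
    have h3 := hmul σ σ⁻¹
    rw [mul_inv_cancel] at h3
    have h4 := hmul 1 1
    rw [one_mul] at h4
    have h5 : kummer p ζ (T v).Q (1 : L.fixingSubgroup) = 0 := by simpa using h4
    rw [h5] at h3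
    linear_combination -h3
  rw [h2]
  have hq0 : ((q : ℕ) : Qb) ≠ 0 := by exact_mod_cast q.2.ne_zero
  have hQ0 : (T v).Q ≠ 0 := by
    intro h0
    rw [h0, zero_pow hp0] at hQQ
    exact hq0 hQQ.symm
  refine kummer_eq_of_pow_eq hζ hQ0 (hQQ.trans hQ.symm)
    ((IntermediateField.mem_fixingSubgroup_iff _ _).1 τ.2 ζ hζL) ?_
  rw [hQQ]; exact map_natCast (τ : Γ) (q : ℕ)

include hζ in
/-- if all exponents vanish, the cochain is `S`-locally constant -/
lemma sLC_of_nv_eq_zero (hL : L.fixingSubgroup ∈ sLevels S) (hpS : ExtCitation.pPrime p ∈ S)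
    (hζL : ζ ∈ L)
    (hunif : ∀ q : Nat.Primes, q ∉ S → ∀ A : ValuationSubring Qb, A.LiesOverPrime (q : ℕ) →
      InertUnif A q)
    (T : ∀ v : {v // v ∉ SL S L}, TameAt p S L ζ v.1) {f : L.fixingSubgroup → ZMod p}
    (hf : f ∈ XX p S L.fixingSubgroup) (h0 : nv T f = 0) :
    ((sLevels S).restrict L.fixingSubgroup).LC f := by
  refine sLC_of_inertia hL hf.1 fun q hq A hA τ hτ g => ?_
  obtain ⟨Q, hQ⟩ := IsAlgClosed.exists_pow_nat_eq (((q : ℕ) : Qb)) (Fact.out : p.Prime).pos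
  have h1 := sub_eq_nv_mul' hζ hL hpS hζL hunif T hf hq hA hτ hQ
  rw [h0, Pi.zero_apply, zero_mul] at h1
  rw [XX_mul_right hf hq hA hL hτ g, h1, add_zero]

omit [FiniteDimensional ℚ L] in
/-- conversely -/
lemma nv_eq_zero_of_sLC (hL : L.fixingSubgroup ∈ sLevels S)
    (T : ∀ v : {v // v ∉ SL S L}, TameAt p S L ζ v.1) {f : L.fixingSubgroup → ZMod p}
    (hf : ((sLevels S).restrict L.fixingSubgroup).LC f) : nv T f = 0 := by
  obtain ⟨J, hJ, h⟩ := hf
  ext v
  have hτJ : (T v).τ ∈ J :=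
    ((mem_restrict_sLevels_iff hL).1 hJ).2 _ (T v).hqS _ (T v).hA _ (T v).hτ
  have := h 1 _ hτJ
  rw [one_mul] at this
  rw [nv_apply, this, sub_self]; rfl

end NV

section KummerNV

variable {p : ℕ} [Fact p.Prime] {S : Finset Nat.Primes}
variable {L : IntermediateField ℚ Qb} [FiniteDimensional ℚ L] {ζ : Qb}
variable (hζ : IsPrimitiveRoot ζ p)

omit [FiniteDimensional ℚ L] in
lemma smul_coe_eq (x : L) (g : L.fixingSubgroup) : g • (x : Qb) = x :=
  (IntermediateField.mem_fixingSubgroup_iff _ _).1 g.2 x x.2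

omit [Fact p.Prime] [FiniteDimensional ℚ L] in
lemma smul_pow_root {x : L} {y : Qb} (hy : y ^ p = x) (g : L.fixingSubgroup) :
    g • y ^ p = y ^ p := by rw [hy]; exact smul_coe_eq x g

include hζ in
/-- Kummer characters of elements of `L` are locally constant homomorphisms -/
lemma kummer_mem_Z1 (hζL : ζ ∈ L) {x : Lˣ} {y : Qb} (hy : y ^ p = ((x : L) : Qb)) :
    (kummer p ζ y : L.fixingSubgroup → ZMod p) ∈
      Z1 ((galLevels ℚ Qb).restrict L.fixingSubgroup) (triv p L.fixingSubgroup) := by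
  have hp0 : p ≠ 0 := (Fact.out : p.Prime).ne_zero
  have : NeZero p := ⟨hp0⟩
  have hx0 : ((x : L) : Qb) ≠ 0 := by simp
  have hy0 : y ≠ 0 := by rintro rfl; rw [zero_pow hp0] at hy; exact hx0 hy.symm
  have hG := (isGal_galLevels (k := ℚ) (Ω := Qb)).restrict L.fixingSubgroup
  have hζG : ∀ g : L.fixingSubgroup, g • ζ = ζ := fun g => smul_coe_eq ⟨ζ, hζL⟩ g
  refine ⟨kummer_LC hζ hG hy0 hζG (smul_pow_root hy), fun g h => ?_⟩
  rw [kummer_map_mul hζ hy0 (hζG g) (smul_pow_root hy g) (smul_pow_root hy h),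
    Representation.trivial_apply, add_comm]

omit [FiniteDimensional ℚ L] in
lemma Z1_le_XX {f : L.fixingSubgroup → ZMod p}
    (hf : f ∈ Z1 ((galLevels ℚ Qb).restrict L.fixingSubgroup) (triv p L.fixingSubgroup)) :
    f ∈ XX p S L.fixingSubgroup :=
  ⟨hf.1, by rw [d1_eq_zero_of_mem_Z1 hf]; exact Levels.LC₂.const 0⟩

include hζ in
lemma nv_kummer (hpS : ExtCitation.pPrime p ∈ S) (hUnif : UnifHyp S L)
    (T : ∀ v : {v // v ∉ SL S L}, TameAt p S L ζ v.1) {x : Lˣ} {y : Qb}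
    (hy : y ^ p = ((x : L) : Qb)) (v : {v // v ∉ SL S L}) :
    nv T (kummer p ζ y : L.fixingSubgroup → ZMod p) v =
      ((ordH L v.1 (Additive.ofMul x) : ℤ) : ZMod p) := by
  have hp0 : p ≠ 0 := (Fact.out : p.Prime).ne_zero
  have : NeZero p := ⟨hp0⟩
  have hx0 : ((x : L) : Qb) ≠ 0 := by simp
  have hy0 : y ≠ 0 := by rintro rfl; rw [zero_pow hp0] at hy; exact hx0 hy.symm
  have h1 : kummer p ζ y ((T v).τ : Γ) = (ordH L v.1 (Additive.ofMul x) : ZMod p) *
      kummer p ζ (T v).Q ((T v).τ : Γ) := by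
    refine kummer_inertia_eq hζ (T v).q.2 (T v).hA (ne_of_notMem hpS (T v).hqS) (T v).hQ hy0
      ?_ (T v).hτ (smul_pow_root hy (T v).τ)
    rw [hy]
    exact hUnif _ (T v).hqS _ (T v).hA _ (T v).hv x
  have h2 : kummer p ζ (T v).Q ((T v).τ : Γ) = 1 := (T v).hκ
  rw [h2, mul_one] at h1
  rw [nv_apply, kummer_of_fixed hζ hy0 (one_smul _ y), sub_zero]
  exact h1

include hζ in
/-- the Kummer cochain: a cochain with `S`-level coboundary ramified exactly at `v₀` -/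
theorem exists_kummer_cochain (hL : L.fixingSubgroup ∈ sLevels S)
    (hpS : ExtCitation.pPrime p ∈ S) (hζL : ζ ∈ L) (hUnif : UnifHyp S L)
    (T : ∀ v : {v // v ∉ SL S L}, TameAt p S L ζ v.1) (v₀ : {v // v ∉ SL S L}) :
    ∃ f ∈ XX p S L.fixingSubgroup, nv T f v₀ ≠ 0 ∧ ∀ v ≠ v₀, nv T f v = 0 := by
  classical
  have hp0 : p ≠ 0 := (Fact.out : p.Prime).ne_zero
  have : NeZero p := ⟨hp0⟩
  have hζ0 : ζ ≠ 0 := hζ.ne_zero hp0
  have hG := (isGal_galLevels (k := ℚ) (Ω := Qb)).restrict L.fixingSubgroup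
  have hζG : ∀ g : L.fixingSubgroup, g • ζ = ζ := fun g => smul_coe_eq ⟨ζ, hζL⟩ g
  obtain ⟨α, hα0, hα⟩ := exists_ordH_classNumber (K := L) v₀.1
  obtain ⟨k, m, hm, hkm⟩ := Nat.exists_eq_pow_mul_and_not_dvd
    (NumberField.classNumber_ne_zero L) p (Fact.out : p.Prime).ne_one
  have hαq : ((α : L) : Qb) ≠ 0 := by simp
  obtain ⟨θ, hθ⟩ := IsAlgClosed.exists_pow_nat_eq ((α : L) : Qb)
    (pow_pos (Fact.out : p.Prime).pos (k + 1))
  have hθ0 : θ ≠ 0 := by
    rintro rfl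
    rw [zero_pow (pow_ne_zero _ hp0)] at hθ
    exact hαq hθ.symm
  -- valuations
  let e : HeightOneSpectrum (𝓞 L) → ℤ := fun v => if v = v₀.1 then m else 0
  have hord : ∀ v, ordH L v (Additive.ofMul α) = (p : ℤ) ^ k * e v := by
    intro v
    by_cases hv : v = v₀.1
    · simp only [e, if_pos hv]
      rw [hv, hα0, hkm]; push_cast; ring
    · simp only [e, if_neg hv]
      rw [hα v hv, mul_zero]
  have hval : ∀ q : Nat.Primes, q ∉ S → ∀ A : ValuationSubring Qb, A.LiesOverPrime (q : ℕ) →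
      ∀ v : HeightOneSpectrum (𝓞 L), v.asIdeal = below (𝓞 L) A →
      A.valuation (θ ^ p * ((q : ℕ) : Qb) ^ (-(e v))) = 1 := by
    intro q hq A hA v hv
    have h1 := hUnif q hq A hA v hv α
    rw [← hθ, hord] at h1
    have h2 : θ ^ p ^ (k + 1) * ((q : ℕ) : Qb) ^ (-((p : ℤ) ^ k * e v)) =
        (θ ^ p * ((q : ℕ) : Qb) ^ (-(e v))) ^ p ^ k := by
      rw [mul_pow, ← pow_mul, ← pow_succ', ← zpow_natCast (((q : ℕ) : Qb) ^ (-(e v))),
        ← zpow_mul]
      congr 2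
      push_cast; ring
    rw [h2, map_pow] at h1
    exact eq_one_of_pow_eq_one_val (pow_ne_zero _ hp0) h1
  have hfixθ : ∀ q : Nat.Primes, q ∉ S → ∀ A : ValuationSubring Qb, A.LiesOverPrime (q : ℕ) →
      ∀ τ : L.fixingSubgroup, (τ : Γ) ∈ A.inertiaSubgroupIn ℚ → τ • θ ^ p = θ ^ p := by
    intro q hq A hA τ hτ
    have hqp := ne_of_notMem hpS hq
    have hndvd : ¬ (q : ℕ) ∣ p ^ k := fun h => hqp
      ((Nat.prime_dvd_prime_iff_eq q.2 Fact.out).1 (q.2.dvd_of_dvd_pow h))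
    have hv := hval q hq A hA (plc L q.2 hA) rfl
    set n := e (plc L q.2 hA) with hn
    have hq0 : ((q : ℕ) : Qb) ≠ 0 := by exact_mod_cast q.2.ne_zero
    have hτq : (τ : Γ) ((q : ℕ) : Qb) = q := map_natCast _ _
    have h1 : (τ : Γ) (θ ^ p * ((q : ℕ) : Qb) ^ (-n)) = θ ^ p * ((q : ℕ) : Qb) ^ (-n) := by
      refine inertia_apply_eq_of_unit q.2 hA hndvd hτ hv ?_
      have h2 : (θ ^ p * ((q : ℕ) : Qb) ^ (-n)) ^ p ^ k =
          ((α : L) : Qb) * (((q : ℕ) : Qb) ^ (-n)) ^ p ^ k := by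
        rw [mul_pow, ← pow_mul, ← pow_succ', hθ]
      rw [h2, map_mul, map_pow, map_zpow₀, hτq]
      congr 1
      exact smul_coe_eq (α : L) τ
    rw [map_mul, map_zpow₀, hτq] at h1
    exact mul_right_cancel₀ (zpow_ne_zero _ hq0) h1
  -- the cochains
  let w : L.fixingSubgroup → Qb := fun g => g • θ / θ
  have hwP : ∀ g, w g ^ p ^ (k + 1) = 1 := by
    intro g
    simp only [w]
    rw [div_pow, ← smul_pow', hθ, smul_coe_eq, div_self hαq]
  have hwmul : ∀ g h, w (g * h) = g • w h * w g := by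
    intro g h
    simp only [w, mul_smul]
    rw [smul_div₀']
    have : g • θ ≠ 0 := by
      intro h0
      have := congrArg (fun y => g⁻¹ • y) h0
      rw [inv_smul_smul, smul_zero] at this
      exact hθ0 this
    field_simp
  let ε : Qb → Qb := fun t => if t = 1 then 1 else
    (IsAlgClosed.exists_pow_nat_eq t (Fact.out : p.Prime).pos).choose
  have hε1 : ε 1 = 1 := if_pos rfl
  have hεp : ∀ t, ε t ^ p = t := by
    intro t
    by_cases ht : t = 1
    · rw [ht, hε1, one_pow]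
    · simp only [ε, if_neg ht]
      exact (IsAlgClosed.exists_pow_nat_eq t (Fact.out : p.Prime).pos).choose_spec
  have hw0 : ∀ g, w g ≠ 0 := fun g h => by
    have := hwP g
    rw [h, zero_pow (pow_ne_zero _ hp0)] at this
    exact zero_ne_one this
  have hε0 : ∀ g, ε (w g ^ p) ≠ 0 := fun g h => by
    have := hεp (w g ^ p)
    rw [h, zero_pow hp0] at this
    exact pow_ne_zero _ (hw0 g) this.symm
  have hex : ∀ g, ∃ i : ℕ, ζ ^ i = w g / ε (w g ^ p) := by
    intro g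
    have h1 : (w g / ε (w g ^ p)) ^ p = 1 := by
      rw [div_pow, hεp, div_self (pow_ne_zero _ (hw0 g))]
    obtain ⟨i, -, hi⟩ := hζ.eq_pow_of_pow_eq_one h1
    exact ⟨i, hi⟩
  choose ci hci using hex
  let c : L.fixingSubgroup → ZMod p := fun g => (ci g : ZMod p)
  have hc : ∀ g, ζ ^ (c g).val = w g / ε (w g ^ p) := by
    intro g
    rw [← hci, zeta_pow_eq_iff hζ]; simp [c]
  have hcinj : ∀ a b : ZMod p, ζ ^ a.val = ζ ^ b.val → a = b := by
    intro a b hab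
    rw [zeta_pow_eq_iff hζ] at hab
    simpa using hab
  -- local constancy of `c`
  have hcLC : ((galLevels ℚ Qb).restrict L.fixingSubgroup).LC c := by
    refine ⟨_, hG.smooth θ, fun g s hs => hcinj _ _ ?_⟩
    have hws : w (g * s) = w g := by
      simp only [w, mul_smul]
      rw [MulAction.mem_stabilizer_iff] at hs
      rw [hs]
    rw [hc, hc, hws]
  -- formula for the coboundary
  have hζadd : ∀ a b : ZMod p, ζ ^ (a + b).val = ζ ^ a.val * ζ ^ b.val := by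
    intro a b
    rw [← pow_add, zeta_pow_eq_iff hζ]; simp
  have hζsub : ∀ a b : ZMod p, ζ ^ (a - b).val = ζ ^ a.val / ζ ^ b.val := by
    intro a b
    rw [eq_div_iff (pow_ne_zero _ hζ0), ← hζadd, sub_add_cancel]
  have hdc : ∀ g h, ζ ^ (d1 (triv p L.fixingSubgroup) c g h).val =
      ε (w (g * h) ^ p) / (g • ε (w h ^ p) * ε (w g ^ p)) := by
    intro g h
    have h1 : ζ ^ (c h).val = g • (w h / ε (w h ^ p)) := by
      rw [← hc, smul_pow', hζG]
    rw [d1_triv, hζadd, hζsub, h1, hc, hc, hwmul, smul_div₀']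
    have e1 : g • w h ≠ 0 := by
      intro h0
      have := congrArg (fun y => g⁻¹ • y) h0
      rw [inv_smul_smul, smul_zero] at this
      exact hw0 h this
    have e2 : g • ε (w h ^ p) ≠ 0 := by
      intro h0
      have := congrArg (fun y => g⁻¹ • y) h0
      rw [inv_smul_smul, smul_zero] at this
      exact hε0 h this
    have e3 : ε ((g • w h * w g) ^ p) ≠ 0 := by
      rw [← hwmul]; exact hε0 _
    have e4 := hε0 g
    have e5 := hw0 g
    field_simp
  -- the `S`-level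
  obtain ⟨ξ, hξ⟩ := (HasEnoughRootsOfUnity.exists_primitiveRoot Qb (p ^ (k + 1)))
  let J : Subgroup L.fixingSubgroup :=
    MulAction.stabilizer L.fixingSubgroup (θ ^ p) ⊓ MulAction.stabilizer L.fixingSubgroup ξ
  have hJ : J ∈ (sLevels S).restrict L.fixingSubgroup := by
    rw [mem_restrict_sLevels_iff hL]
    refine ⟨Levels.inf_mem (hG.smooth _) (hG.smooth _), fun q hq A hA τ hτ =>
      ⟨hfixθ q hq A hA τ hτ, ?_⟩⟩
    have hqp := ne_of_notMem hpS hq
    have hndvd : ¬ (q : ℕ) ∣ p ^ (k + 1) := fun h => hqp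
      ((Nat.prime_dvd_prime_iff_eq q.2 Fact.out).1 (q.2.dvd_of_dvd_pow h))
    exact inertia_apply_rootOfUnity q.2 hA hndvd hτ hξ.pow_eq_one
  have hJξ : ∀ s ∈ J, ∀ t : Qb, t ^ p ^ (k + 1) = 1 → s • t = t := by
    intro s hs t ht
    have : NeZero (p ^ (k + 1)) := ⟨pow_ne_zero _ hp0⟩
    obtain ⟨i, -, hi⟩ := hξ.eq_pow_of_pow_eq_one ht
    rw [← hi, smul_pow']
    congr 1
    exact hs.2
  have hwu : ∀ g, w g ^ p = g • θ ^ p / θ ^ p := by
    intro g; simp only [w]; rw [div_pow, smul_pow']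
  have hu1 : ∀ g, ∀ s ∈ J, w (g * s) ^ p = w g ^ p := by
    intro g s hs
    rw [hwu, hwu, mul_smul]
    congr 2
    exact hs.1
  have hu2 : ∀ g h, ∀ s ∈ J, w (g * s * h) ^ p = w (g * h) ^ p := by
    intro g h s hs
    have h1 : s • (w h ^ p) = w h ^ p := hJξ s hs _ (by
      rw [← pow_mul, mul_comm, pow_mul, hwP, one_pow])
    have h2 : h • θ ^ p = w h ^ p * θ ^ p := by
      rw [hwu, div_mul_cancel₀ _ (pow_ne_zero _ hθ0)]
    rw [hwu, hwu, mul_smul, mul_smul, mul_smul, h2, smul_mul', h1]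
    congr 3
    exact hs.1
  have hX : c ∈ XX p S L.fixingSubgroup := by
    refine ⟨hcLC, J, hJ, fun g g' s hs s' hs' => hcinj _ _ ?_⟩
    rw [hdc, hdc, hu1 g s hs, hu1 g' s' hs', mul_smul]
    have h1 : w (g * s * (g' * s')) ^ p = w (g * g') ^ p := by
      rw [← mul_assoc, hu1 _ s' hs', hu2 g g' s hs]
    have h2 : s • ε (w g' ^ p) = ε (w g' ^ p) := hJξ s hs _ (by
      rw [pow_succ', pow_mul, hεp, ← pow_mul, ← pow_succ', hwP])
    rw [h1, h2]
  -- exponents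
  have hc1 : c 1 = 0 := by
    apply hcinj
    have : w 1 = 1 := by simp only [w, one_smul, div_self hθ0]
    rw [hc, this, one_pow, hε1]; simp
  have hnv : ∀ v : {v // v ∉ SL S L}, nv T c v = ((e v.1 : ℤ) : ZMod p) := by
    intro v
    have h1 : w (T v).τ ^ p = 1 := by
      rw [hwu, hfixθ _ (T v).hqS _ (T v).hA _ (T v).hτ, div_self (pow_ne_zero _ hθ0)]
    have h2 : c (T v).τ = kummer p ζ θ (T v).τ := by
      symm
      apply kummer_unique' hζ hθ0
      rw [hc, h1, hε1, div_one]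
      simp only [w]
      rw [div_mul_cancel₀ _ hθ0]
    have h3 : kummer p ζ θ ((T v).τ : Γ) = (e v.1 : ZMod p) *
        kummer p ζ (T v).Q ((T v).τ : Γ) := by
      refine kummer_inertia_eq hζ (T v).q.2 (T v).hA (ne_of_notMem hpS (T v).hqS) (T v).hQ hθ0
        (hval _ (T v).hqS _ (T v).hA _ (T v).hv) (T v).hτ
        (hfixθ _ (T v).hqS _ (T v).hA _ (T v).hτ)
    have h4 : kummer p ζ (T v).Q ((T v).τ : Γ) = 1 := (T v).hκ
    rw [h4, mul_one] at h3
    rw [nv_apply, hc1, sub_zero, h2]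
    exact h3
  refine ⟨c, hX, ?_, fun v hv => ?_⟩
  · rw [hnv]
    simp only [e, if_true]
    intro h0
    have : ((m : ℕ) : ZMod p) = 0 := by exact_mod_cast h0
    rw [ZMod.natCast_eq_zero_iff] at this
    exact hm this
  · rw [hnv]
    have : v.1 ≠ v₀.1 := fun h => hv (Subtype.ext h)
    simp only [e, if_neg this, Int.cast_zero]

end KummerNV

end Fermat.Agent.CFT
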