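import Fermat.Agent.CFT.SLevDim
import Fermat.Agent.CFT.Loc.Package
import Fermat.Agent.CFT.Fun
import Fermat.Agent.CFT.KummerExt

/-!
# Dimension of `S`-level cohomology over a number field containing the `p`-th roots of unity
-/

set_option autoImplicit false

open NumberField IsDedekindDomain Module
open scoped Pointwise

namespace Fermat.Agent.CFT

open Fermat.Agent.Frob Fermat.Agent.CFT.Loc

local notation "Qb" => AlgebraicClosure ℚ
local notation "Γ" => (AlgebraicClosure ℚ ≃ₐ[ℚ] AlgebraicClosure ℚ)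

section LinAlg

variable {k M ι : Type*} [Field k] [AddCommGroup M] [Module k M] [Finite ι] {N : ι → Type*}
  [∀ i, AddCommGroup (N i)] [∀ i, Module k (N i)]

lemma slFinite_of_pi (f : ∀ i, M →ₗ[k] N i) (hN : ∀ i, Module.Finite k (N i))
    (K : Submodule k M) (hK : Module.Finite k K) (hk : ∀ x, (∀ i, f i x = 0) → x ∈ K) :
    Module.Finite k M := by
  have h0 : LinearMap.ker (LinearMap.pi f) ≤ K := by
    intro x hx
    apply hk
    intro i
    exact congrFun (LinearMap.mem_ker.1 hx) i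
  have hk' : Module.Finite k (LinearMap.ker (LinearMap.pi f)) := by
    have := Submodule.inclusion_injective h0
    exact Module.Finite.of_injective (Submodule.inclusion h0) this
  have h9 : Module.Finite k (M ⧸ LinearMap.ker (LinearMap.pi f)) :=
    Module.Finite.equiv (LinearMap.pi f).quotKerEquivRange.symm
  exact Module.Finite.of_submodule_quotient (LinearMap.ker (LinearMap.pi f))

end LinAlg

section HOne

variable {p : ℕ} [Fact p.Prime] {G : Type*} [Group G] {𝓛 : Levels G}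

lemma slB1_triv : B1 (triv p G) = ⊥ := by
  rw [eq_bot_iff]
  intro f hf
  obtain ⟨v, hv⟩ := mem_B1.1 hf
  rw [Submodule.mem_bot]
  ext g
  rw [hv g]
  exact sub_self v

/-- `H¹` of the trivial representation. -/
noncomputable def slH1Equiv : Z1 𝓛 (triv p G) ≃ₗ[ZMod p] H1 𝓛 (triv p G) :=
  LinearEquiv.ofBijective (H1.mk 𝓛 (triv p G)) ⟨by
    rw [← LinearMap.ker_eq_bot, eq_bot_iff]
    intro f hf
    rw [LinearMap.mem_ker, H1.mk_eq_zero, slB1_triv, Submodule.mem_bot] at hf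
    rw [Submodule.mem_bot]
    exact Subtype.ext hf, H1.mk_surjective 𝓛 (triv p G)⟩

end HOne

section DOne

variable {p : ℕ} [Fact p.Prime] {S : Finset Nat.Primes}
variable {L : IntermediateField ℚ Qb} [FiniteDimensional ℚ L] {ζ : Qb}

lemma kumL_sLC (hζ : IsPrimitiveRoot ζ p) (hζL : ζ ∈ L)
    (hL : L.fixingSubgroup ∈ sLevels S) (hpS : ExtCitation.pPrime p ∈ S) (x : KP p L) :
    ((sLevels S).restrict L.fixingSubgroup).LC (kumL hζ hζL x : L.fixingSubgroup → ZMod p) ↔
      x ∈ VT (SL S L) := by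
  obtain ⟨T⟩ := exists_tame' (S := S) hζ hζL hL
  have hunif : ∀ q : Nat.Primes, q ∉ S → ∀ A : ValuationSubring Qb, A.LiesOverPrime (q : ℕ) →
      InertUnif A q := fun q _ A hA => inertUnif q.2 hA
  rw [← ordMap_eq_zero_iff, ← nv_kumL hζ hζL hL hpS T]
  constructor
  · exact nv_eq_zero_of_sLC hL T
  · exact sLC_of_nv_eq_zero hζ hL hpS hζL hunif T (Z1_le_XX (kumL hζ hζL x).2)

/-- (D1) -/
noncomputable def slVtEquiv (hζ : IsPrimitiveRoot ζ p) (hζL : ζ ∈ L)
    (hL : L.fixingSubgroup ∈ sLevels S) (hpS : ExtCitation.pPrime p ∈ S) :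
    (VT (SL S L) : Submodule (ZMod p) (KP p L)) ≃ₗ[ZMod p]
      Z1 ((sLevels S).restrict L.fixingSubgroup) (triv p L.fixingSubgroup) :=
  LinearEquiv.ofBijective
    { toFun := fun x => ⟨kumL hζ hζL x, (kumL_sLC hζ hζL hL hpS x.1).2 x.2, (kumL hζ hζL x).2.2⟩
      map_add' := fun x y => by
        apply Subtype.ext
        show ((kumL hζ hζL (x + y : KP p L)) : L.fixingSubgroup → ZMod p) = _
        rw [map_add]; rfl
      map_smul' := fun c x => by
        apply Subtype.ext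
        show ((kumL hζ hζL (c • x : KP p L)) : L.fixingSubgroup → ZMod p) = _
        rw [map_smul]; rfl }
    ⟨fun x y hxy => by
        have h0 := congrArg Subtype.val hxy
        have h1 : ((kumL hζ hζL (x : KP p L)) : L.fixingSubgroup → ZMod p) =
          kumL hζ hζL (y : KP p L) := h0
        exact Subtype.ext (kumL_injective hζ hζL (Subtype.ext h1)),
      fun f => by
        obtain ⟨x, hx⟩ := kumL_surjective hζ hζL ⟨f.1, LC_of_sLC f.2.1, f.2.2⟩
        refine ⟨⟨x, ?_⟩, ?_⟩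
        · rw [← kumL_sLC hζ hζL hL hpS, hx]; exact f.2.1
        · apply Subtype.ext
          show ((kumL hζ hζL x) : L.fixingSubgroup → ZMod p) = _
          rw [hx]⟩

/-- (D1) -/
theorem finrank_H1_sLev (hζ : IsPrimitiveRoot ζ p) (hζL : ζ ∈ L)
    (hL : L.fixingSubgroup ∈ sLevels S) (hpS : ExtCitation.pPrime p ∈ S) :
    finrank (ZMod p) (H1 ((sLevels S).restrict L.fixingSubgroup) (triv p L.fixingSubgroup)) =
      finrank (ZMod p) (VT (SL S L) : Submodule (ZMod p) (KP p L)) :=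
  (((slVtEquiv hζ hζL hL hpS).trans slH1Equiv).finrank_eq).symm

end DOne

section Loc

variable {p : ℕ} [Fact p.Prime] {S : Finset Nat.Primes}
variable {L : IntermediateField ℚ Qb}

/-- restriction of a 2-cochain on `G_L` to the decomposition group of `A` -/
def slRes (A : ValuationSubring Qb) (α : L.fixingSubgroup → L.fixingSubgroup → ZMod p) :
    UA A L → UA A L → ZMod p := fun u u' => α ⟨u, u.2.2⟩ ⟨u', u'.2.2⟩

lemma slCont_UA (A : ValuationSubring Qb) : Levels.Cont (levU A L)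
    ((galLevels ℚ Qb).restrict L.fixingSubgroup)
    (Subgroup.inclusion (inf_le_right : UA A L ≤ L.fixingSubgroup)) := by
  rintro J ⟨H, hH, hJ⟩
  exact ⟨H, hH, fun u hu => hJ (show (Subgroup.inclusion _ u) ∈ H.subgroupOf _ from hu)⟩

lemma slCont_sUA (A : ValuationSubring Qb) : Levels.Cont (levU A L)
    ((sLevels S).restrict L.fixingSubgroup)
    (Subgroup.inclusion (inf_le_right : UA A L ≤ L.fixingSubgroup)) := by
  rintro J ⟨H, hH, hJ⟩
  exact slCont_UA A J ⟨H, sLevels_le_galLevels hH, hJ⟩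

variable (p S L) in
/-- restriction of `S`-level classes to the decomposition group of `A` -/
noncomputable def slLoc (A : ValuationSubring Qb) :
    H2 ((sLevels S).restrict L.fixingSubgroup) (triv p L.fixingSubgroup) →ₗ[ZMod p]
      H2 (levU A L) (triv p (UA A L)) :=
  H2.map _ _ _ _ (Subgroup.inclusion (inf_le_right : UA A L ≤ L.fixingSubgroup)) LinearMap.id
    (slCont_sUA A) (fun _ _ => rfl)

lemma slLoc_mk_eq_zero_iff (A : ValuationSubring Qb)
    (x : Z2 ((sLevels S).restrict L.fixingSubgroup) (triv p L.fixingSubgroup)) :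
    slLoc p S L A (H2.mk ((sLevels S).restrict L.fixingSubgroup) (triv p L.fixingSubgroup) x) = 0 ↔
      slRes A (x : L.fixingSubgroup → L.fixingSubgroup → ZMod p) ∈
        B2 (levU A L) (triv p (UA A L)) := by
  rw [slLoc, H2.map_mk, H2.mk_eq_zero]
  rfl

variable (p S L) in
/-- localisation at the places above `S` -/
noncomputable def slLoc2 (A : {v // v ∈ SL S L} → ValuationSubring Qb) :
    H2 ((sLevels S).restrict L.fixingSubgroup) (triv p L.fixingSubgroup) →ₗ[ZMod p]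
      ∀ v, H2 (levU (A v) L) (triv p (UA (A v) L)) :=
  LinearMap.pi fun v => slLoc p S L (A v)

/-- `S`-level classes are unramified, hence trivial, outside `S` -/
theorem slRes_mem_B2_of_notMem [FiniteDimensional ℚ L] (hL : L.fixingSubgroup ∈ sLevels S)
    {α : L.fixingSubgroup → L.fixingSubgroup → ZMod p}
    (hα : α ∈ Z2 ((sLevels S).restrict L.fixingSubgroup) (triv p L.fixingSubgroup))
    {q : Nat.Primes} (hq : q ∉ S) {A : ValuationSubring Qb} (hA : A.LiesOverPrime (q : ℕ)) :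
    slRes A α ∈ B2 (levU A L) (triv p (UA A L)) := by
  have hpp : p.Prime := Fact.out
  obtain ⟨⟨H, hH, hc⟩, hcoc⟩ := hα
  have : Fact (q : ℕ).Prime := ⟨q.2⟩
  obtain ⟨g, rfl⟩ := exists_eq_smul_padicPlace (q : ℕ) hA
  rw [(homeo_eU (q : ℕ) L g).mem_B2_iff (ρ' := triv p (KL (q : ℕ) L g).fixingSubgroup)
    (fun _ _ => rfl)]
  let φ : (KL (q : ℕ) L g).fixingSubgroup →* L.fixingSubgroup :=
    (Subgroup.inclusion (inf_le_right : UA (g • padicPlace (q : ℕ)) L ≤ L.fixingSubgroup)).comp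
      (eU (q : ℕ) L g).toMonoidHom
  have hφ : Levels.Cont (levK (q : ℕ) (KL (q : ℕ) L g))
      ((galLevels ℚ Qb).restrict L.fixingSubgroup) φ :=
    (slCont_UA _).comp (homeo_eU (q : ℕ) L g).cont
  apply B2_unrLev_le
  refine unr_mem_B2 (p := p) hpp.ne_zero (fun v => ?_) (KL (q : ℕ) L g)
    ⟨⊤, Levels.top_mem, fun s _ => rfl⟩ ?_
  · rw [nsmul_eq_mul, CharP.cast_eq_zero, zero_mul]
  · refine ⟨⟨H.comap φ, ⟨?_, ?_⟩, ?_⟩, ?_⟩
    · exact hφ H ((mem_restrict_sLevels_iff hL).1 hH).1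
    · intro τ hτ
      rw [Subgroup.mem_subgroupOf] at hτ
      rw [Subgroup.mem_comap]
      refine ((mem_restrict_sLevels_iff hL).1 hH).2 q hq _ hA _ ?_
      exact (rg_mem_inertia_iff (q : ℕ) g _).2 hτ
    · intro τ τ' s hs s' hs'
      have h1 := hc (φ τ) (φ τ') _ hs _ hs'
      rw [← map_mul, ← map_mul] at h1
      exact h1
    · intro τ τ' τ''
      have h1 := hcoc (φ τ) (φ τ') (φ τ'')
      rw [← map_mul, ← map_mul] at h1
      exact h1

/-- independence of the choice of the place -/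
theorem slRes_smul_mem_B2 {α : L.fixingSubgroup → L.fixingSubgroup → ZMod p}
    (hα : α ∈ Z2 ((galLevels ℚ Qb).restrict L.fixingSubgroup) (triv p L.fixingSubgroup))
    {A : ValuationSubring Qb} (h : slRes A α ∈ B2 (levU A L) (triv p (UA A L)))
    (σ : L.fixingSubgroup) :
    slRes ((σ : Γ) • A) α ∈ B2 (levU ((σ : Γ) • A) L) (triv p (UA ((σ : Γ) • A) L)) := by
  set α' : L.fixingSubgroup → L.fixingSubgroup → ZMod p :=
    fun a b => α (σ * a * σ⁻¹) (σ * b * σ⁻¹) with hα'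
  have h1 : α' - α ∈ B2 ((galLevels ℚ Qb).restrict L.fixingSubgroup)
      (triv p L.fixingSubgroup) := by
    have h0 := H2.map_conj (𝓛 := (galLevels ℚ Qb).restrict L.fixingSubgroup)
      (ρ := triv p L.fixingSubgroup) σ
      (H2.mk ((galLevels ℚ Qb).restrict L.fixingSubgroup) (triv p L.fixingSubgroup) ⟨α, hα⟩)
    rw [H2.map_mk, H2.mk_eq_mk] at h0
    exact h0
  have h2 : slRes A α' ∈ B2 (levU A L) (triv p (UA A L)) := by
    have h3 := pp2_mem_B2 (σ := triv p (UA A L)) (φ := LinearMap.id) (slCont_UA A)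
      (fun _ _ => rfl) h1
    have h4 := Submodule.add_mem _ h3 h
    convert h4 using 1
    ext u u'
    simp [slRes, Subgroup.inclusion]
  have hmem : ∀ u : UA ((σ : Γ) • A) L, (σ : Γ)⁻¹ * u * σ ∈ UA A L := by
    intro u
    refine ⟨?_, ?_⟩
    · have h5 : ((u : Γ) • ((σ : Γ) • A)) = (σ : Γ) • A := u.2.1
      show ((σ : Γ)⁻¹ * u * σ) • A = A
      rw [mul_smul, mul_smul, h5, inv_smul_smul]
    · exact L.fixingSubgroup.mul_mem (L.fixingSubgroup.mul_mem
        (L.fixingSubgroup.inv_mem σ.2) u.2.2) σ.2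
  let c : UA ((σ : Γ) • A) L →* UA A L :=
    { toFun := fun u => ⟨(σ : Γ)⁻¹ * u * σ, hmem u⟩
      map_one' := Subtype.ext (by simp)
      map_mul' := fun u u' => Subtype.ext (by
        simp only [Subgroup.coe_mul]; group) }
  have hc : Levels.Cont (levU ((σ : Γ) • A) L) (levU A L) c := by
    rintro J ⟨H, hH, hJ⟩
    obtain ⟨N, hN, hNH, hn⟩ := Levels.exists_normal hH
    refine ⟨N, hN, fun u hu => hJ ?_⟩
    have h6 := hn.conj_mem (u : Γ) hu (σ : Γ)⁻¹
    rw [inv_inv] at h6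
    exact hNH h6
  have h3 := pp2_mem_B2 (σ := triv p (UA ((σ : Γ) • A) L)) (φ := LinearMap.id) hc
    (fun _ _ => rfl) h2
  convert h3 using 1
  ext u u'
  have h7 : ∀ u : UA ((σ : Γ) • A) L, σ * ⟨((c u : UA A L) : Γ), (c u).2.2⟩ * σ⁻¹ =
      (⟨u, u.2.2⟩ : L.fixingSubgroup) := by
    intro u
    apply Subtype.ext
    show (σ : Γ) * ((σ : Γ)⁻¹ * u * σ) * (σ : Γ)⁻¹ = u
    group
  show α ⟨u, u.2.2⟩ ⟨u', u'.2.2⟩ = α (σ * ⟨(c u : UA A L), (c u).2.2⟩ * σ⁻¹)
    (σ * ⟨(c u' : UA A L), (c u').2.2⟩ * σ⁻¹)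
  rw [h7, h7]

variable (p L) in
/-- The Hasse principle for `H²(G_L, ℤ/p)`. -/
def SlHasse : Prop :=
  ∀ α ∈ Z2 ((galLevels ℚ Qb).restrict L.fixingSubgroup) (triv p L.fixingSubgroup),
    (∀ q : ℕ, q.Prime → ∀ A : ValuationSubring Qb, A.LiesOverPrime q →
      slRes A α ∈ B2 (levU A L) (triv p (UA A L))) →
    α ∈ B2 ((galLevels ℚ Qb).restrict L.fixingSubgroup) (triv p L.fixingSubgroup)

variable [FiniteDimensional ℚ L]

/-- (D4) -/
theorem ker_slLoc2 (hL : L.fixingSubgroup ∈ sLevels S) (hH : SlHasse p L)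
    (A : {v // v ∈ SL S L} → ValuationSubring Qb)
    (hA : ∀ v, below (𝓞 L) (A v) = v.1.asIdeal) :
    LinearMap.ker (slLoc2 p S L A) = LinearMap.ker (infl2 p S L.fixingSubgroup) := by
  ext z
  obtain ⟨z, rfl⟩ := H2.mk_surjective ((sLevels S).restrict L.fixingSubgroup)
    (triv p L.fixingSubgroup) z
  have hz : (z : L.fixingSubgroup → L.fixingSubgroup → ZMod p) ∈
      Z2 ((galLevels ℚ Qb).restrict L.fixingSubgroup) (triv p L.fixingSubgroup) :=
    ⟨LC₂_of_sLC z.2.1, z.2.2⟩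
  rw [LinearMap.mem_ker, LinearMap.mem_ker, infl2_mk, H2.mk_eq_zero]
  constructor
  · intro h
    refine hH _ hz fun q hq A' hA' => ?_
    by_cases hqS : (⟨q, hq⟩ : Nat.Primes) ∈ S
    · -- the place `v` below
      have hv : plc L hq hA' ∈ SL S L := ⟨⟨q, hq⟩, hqS, natCast_mem_below (R := 𝓞 L) hA'⟩
      have h1 : slRes (A ⟨plc L hq hA', hv⟩) (z : L.fixingSubgroup → L.fixingSubgroup → ZMod p) ∈
          B2 (levU (A ⟨plc L hq hA', hv⟩) L) (triv p (UA (A ⟨plc L hq hA', hv⟩) L)) := by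
        rw [← slLoc_mk_eq_zero_iff]
        exact congrFun h ⟨plc L hq hA', hv⟩
      have hb : below (𝓞 L) (A ⟨plc L hq hA', hv⟩) = below (𝓞 L) A' := hA _
      have hA'' : (A ⟨plc L hq hA', hv⟩).LiesOverPrime q := by
        apply liesOverPrime_of_mem_below (R := 𝓞 L)
        rw [hb]; exact natCast_mem_below hA'
      obtain ⟨σ₀, hσ₀⟩ := exists_smul_eq_of_below_eq (K := L) hq hA'' hb
      set σ : L.fixingSubgroup := IntermediateField.fixingSubgroupEquiv L |>.symm σ₀ with hσ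
      have hσA : A' = (σ : Γ) • (A ⟨plc L hq hA', hv⟩) := by
        conv_lhs => rw [hσ₀]
        ext x
        rw [ValuationSubring.mem_pointwise_smul_iff_inv_smul_mem,
          ValuationSubring.mem_pointwise_smul_iff_inv_smul_mem]
        rfl
      rw [hσA]
      exact slRes_smul_mem_B2 hz h1 σ
    · exact slRes_mem_B2_of_notMem hL z.2 (q := ⟨q, hq⟩) hqS hA'
  · intro h
    ext v
    refine (slLoc_mk_eq_zero_iff (A v) z).2 ?_
    exact pp2_mem_B2 (σ := triv p (UA (A v) L)) (φ := LinearMap.id) (slCont_UA (A v))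
      (fun _ _ => rfl) h

/-- **(D)** -/
theorem D_main {ζ : Qb} (hp2 : p ≠ 2) (hζ : IsPrimitiveRoot ζ p) (hζL : ζ ∈ L)
    (hL : L.fixingSubgroup ∈ sLevels S) (hpS : ExtCitation.pPrime p ∈ S) (hH : SlHasse p L)
    (A : {v // v ∈ SL S L} → ValuationSubring Qb)
    (hA : ∀ v, below (𝓞 L) (A v) = v.1.asIdeal) :
    (SL S L).Finite ∧
    FiniteDimensional (ZMod p)
      (H1 ((sLevels S).restrict L.fixingSubgroup) (triv p L.fixingSubgroup)) ∧
    FiniteDimensional (ZMod p)
      (H2 ((sLevels S).restrict L.fixingSubgroup) (triv p L.fixingSubgroup)) ∧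
    finrank (ZMod p) (H1 ((sLevels S).restrict L.fixingSubgroup) (triv p L.fixingSubgroup)) =
      finrank (ZMod p) (LinearMap.ker (slLoc2 p S L A)) + (SL S L).ncard + finrank ℚ L / 2 := by
  have hpp : p.Prime := Fact.out
  have hfin : (SL S L).Finite := by
    have hN : (∏ l ∈ S, (l : ℕ)) ≠ 0 := Finset.prod_ne_zero_iff.2 fun l _ => l.2.ne_zero
    refine (finite_places_dvd (L := L) hN).subset ?_
    rintro v ⟨l, hl, hlv⟩
    rw [Set.mem_ofPred_eq]
    obtain ⟨c, hc⟩ := Finset.dvd_prod_of_mem (fun l : Nat.Primes => (l : ℕ)) hl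
    rw [hc, Nat.cast_mul]
    exact v.asIdeal.mul_mem_right _ hlv
  obtain ⟨T0, hT0, hST, hcl⟩ := exists_T0 (K := L) (SL S L) hfin
  obtain ⟨h1, h2, h3⟩ := finrank_ker_infl2 hζ hζL hL hpS hT0 hST hcl
  have h4 := ker_slLoc2 hL hH A hA
  have hζ' : IsPrimitiveRoot (⟨ζ, hζL⟩ : L) p :=
    hζ.of_map_of_injective (f := algebraMap L Qb) (FaithfulSMul.algebraMap_injective L Qb)
  have h5 := finrank_eq_two_mul_card hζ' (lt_of_le_of_ne hpp.two_le (Ne.symm hp2))
  have := hfin.to_subtype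
  have h7 : ∀ v : {v // v ∈ SL S L},
      FiniteDimensional (ZMod p) (H2 (levU (A v) L) (triv p (UA (A v) L))) := by
    intro v
    obtain ⟨q, hq⟩ := exists_prime_mem_asIdeal v.1
    have hAq : (A v).LiesOverPrime (q : ℕ) := by
      apply liesOverPrime_of_mem_below (R := 𝓞 L)
      rw [hA]; exact hq
    exact Module.finite_of_finrank_pos (by rw [lp1 L hζ hζL q.2 hAq]; exact Nat.one_pos)
  have h10 : finrank (ZMod p) (LinearMap.ker (slLoc2 p S L A)) =
    finrank (ZMod p) (LinearMap.ker (infl2 p S L.fixingSubgroup)) := by rw [h4]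
  have h11 := finrank_H1_sLev hζ hζL hL hpS
  refine ⟨hfin, ?_, ?_, ?_⟩
  · exact Module.Finite.equiv ((slVtEquiv hζ hζL hL hpS).trans slH1Equiv)
  · refine slFinite_of_pi (fun v => slLoc p S L (A v)) h7 _ h1 (fun x hx => ?_)
    rw [← h4, LinearMap.mem_ker]
    exact funext hx
  · rw [h11, h10, h5, Nat.mul_div_cancel_left _ Nat.two_pos]
    omega

end Loc

end Fermat.Agent.CFT
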